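/-
S14 (Ext vanishing / "class field theory lite"): FROZEN top-level interfaces.
Owner: helper22.  Do not edit.  Everything is a `def … : Prop`; packages prove these statements
(possibly from other statements taken as hypotheses) in their own files.

Conventions (used by every package):
* number fields are `(F : Type) [Field F] [NumberField F]`; extensions `[Algebra F N]`;
* rings of integers `𝓞 F` (`NumberField.RingOfIntegers F`), with Mathlib's instance `Algebra (𝓞 F) (𝓞 N)`;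
* ideals are integral ideals `Ideal (𝓞 F)`; a "prime of F" is `𝔮 : Ideal (𝓞 F)` with `𝔮.IsPrime` and `𝔮 ≠ ⊥`;
* ramification index / inertia degree of a prime `𝔔` of `N` over `F`: `𝔔.ramificationIdx (𝓞 F)`,
  `𝔔.inertiaDeg (𝓞 F)`; primes above `𝔮`: `𝔮.primesOver (𝓞 N)`;
* ideal norm `Ideal.relNorm (𝓞 F) : Ideal (𝓞 N) →*₀ Ideal (𝓞 F)`;
* class group `ClassGroup (𝓞 F)`, classes of nonzero integral ideals via `ClassGroup.mk0`.
-/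
import Mathlib
import Fermat.Prelude.Def_ExtCitation_AdmissibleExtension_v2

set_option autoImplicit false

open NumberField

namespace Fermat.Agent.S14

/-- The prime `𝔮` of `F` splits completely in `N`. -/
def SplitsCompletely (F N : Type) [Field F] [NumberField F] [Field N] [NumberField N] [Algebra F N]
    (𝔮 : Ideal (𝓞 F)) : Prop :=
  ∀ 𝔔 ∈ 𝔮.primesOver (𝓞 N), 𝔔.ramificationIdx (𝓞 F) = 1 ∧ 𝔔.inertiaDeg (𝓞 F) = 1

/-- `N/F` is unramified at every nonzero prime of `N`. -/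
def UnramifiedEverywhere (F N : Type) [Field F] [NumberField F] [Field N] [NumberField N]
    [Algebra F N] : Prop :=
  ∀ 𝔔 : Ideal (𝓞 N), 𝔔.IsPrime → 𝔔 ≠ ⊥ → 𝔔.ramificationIdx (𝓞 F) = 1

/-- The subgroup of the class group of `F` generated by the classes of norms of nonzero ideals
of `N` (since the class group is finite, this is just the set of such classes). -/
noncomputable def normClasses (F N : Type) [Field F] [NumberField F] [Field N] [NumberField N]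
    [Algebra F N] : Subgroup (ClassGroup (𝓞 F)) :=
  Subgroup.closure {c | ∃ (𝔄 : Ideal (𝓞 N))
    (h : Ideal.relNorm (𝓞 F) 𝔄 ∈ nonZeroDivisors (Ideal (𝓞 F))), c = ClassGroup.mk0 ⟨_, h⟩}

/-- `p ∤ v_𝔮(x₀)`, in elementary terms (`x₀ ≠ 0`). -/
def OrdNotDvd (p : ℕ) {F : Type} [Field F] [NumberField F] (𝔮 : Ideal (𝓞 F)) (x₀ : 𝓞 F) : Prop :=
  ∃ n : ℕ, x₀ ∈ 𝔮 ^ n ∧ x₀ ∉ 𝔮 ^ (n + 1) ∧ ¬ p ∣ n

/-- `p ∣ v_𝔮(x₀)`, in elementary terms (`x₀ ≠ 0`). -/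
def OrdDvd (p : ℕ) {F : Type} [Field F] [NumberField F] (𝔮 : Ideal (𝓞 F)) (x₀ : 𝓞 F) : Prop :=
  ∃ n : ℕ, x₀ ∈ 𝔮 ^ n ∧ x₀ ∉ 𝔮 ^ (n + 1) ∧ p ∣ n

/-- The set `T'` of primes `𝔮 ∤ p` of `F` with `p ∤ v_𝔮(x₀)` (the tamely ramified primes of
`F(x₀^{1/p})/F`). -/
def tameSet (p : ℕ) (F : Type) [Field F] [NumberField F] (x₀ : 𝓞 F) : Set (Ideal (𝓞 F)) :=
  {𝔮 | 𝔮.IsPrime ∧ 𝔮 ≠ ⊥ ∧ (p : 𝓞 F) ∉ 𝔮 ∧ OrdNotDvd p 𝔮 x₀}

/-! ## Top-level packages -/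

/-- (K3, zeta pole argument) In an extension of number fields of degree `≥ 2`, outside any finite
set of primes there is a prime which does not split completely. -/
def K3Statement : Prop :=
  ∀ (F N : Type) [Field F] [NumberField F] [Field N] [NumberField N] [Algebra F N],
    2 ≤ Module.finrank F N → ∀ T₀ : Finset (Ideal (𝓞 F)),
    ∃ 𝔮 : Ideal (𝓞 F), 𝔮.IsPrime ∧ 𝔮 ≠ ⊥ ∧ 𝔮 ∉ T₀ ∧ ¬ SplitsCompletely F N 𝔮

/-- (G2, second inequality) `[Cl(F) : norm classes from N] ≤ p` for `N/F` cyclic of degree `p`,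
`ζ_p ∈ F`. -/
def G2Statement : Prop :=
  ∀ (p : ℕ) [Fact p.Prime], 3 ≤ p →
  ∀ (F N : Type) [Field F] [NumberField F] [Field N] [NumberField N] [Algebra F N] [IsGalois F N]
    (ζ : F), IsPrimitiveRoot ζ p → Module.finrank F N = p →
    (normClasses F N).index ≤ p

/-- (G1, first inequality, unramified case) if `N/F` is cyclic of degree `p`, unramified at all
finite primes, `ζ_p ∈ F`, then not every ideal class of `F` is a norm class. -/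
def G1Statement : Prop :=
  ∀ (p : ℕ) [Fact p.Prime], 3 ≤ p →
  ∀ (F N : Type) [Field F] [NumberField F] [Field N] [NumberField N] [Algebra F N] [IsGalois F N]
    (ζ : F), IsPrimitiveRoot ζ p → Module.finrank F N = p → UnramifiedEverywhere F N →
    normClasses F N ≠ ⊤

/-- (G1-tame) `N = F(y)`, `y ^ p = x₀ ∈ 𝓞 F`, `y ∉ F`, `ζ_p ∈ F`; `T' = tameSet p F x₀`; assume `N/F`
is unramified at every prime of `N` not above `T'`.  Then there is a nonzero ideal `𝔞` of `F`, prime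
to `T'`, which is NOT of the form `(β₁/β₂) · N(𝔄₁)/N(𝔄₂)` with `β₁, β₂ ∈ 𝓞 F` prime to `T'`,
`β₁/β₂` a `p`-th power residue modulo each `𝔮 ∈ T'`, and `𝔄₁, 𝔄₂` nonzero ideals of `N` with norms
prime to `T'`. -/
def G1TameStatement : Prop :=
  ∀ (p : ℕ) [Fact p.Prime], 3 ≤ p →
  ∀ (F N : Type) [Field F] [NumberField F] [Field N] [NumberField N] [Algebra F N]
    (ζ : F), IsPrimitiveRoot ζ p → Module.finrank F N = p →
  ∀ (x₀ : 𝓞 F) (y : N), x₀ ≠ 0 → y ^ p = algebraMap F N (x₀ : F) →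
    y ∉ Set.range (algebraMap F N) →
    (∀ 𝔔 : Ideal (𝓞 N), 𝔔.IsPrime → 𝔔 ≠ ⊥ → 𝔔.under (𝓞 F) ∉ tameSet p F x₀ →
      𝔔.ramificationIdx (𝓞 F) = 1) →
    ∃ 𝔞 : Ideal (𝓞 F), 𝔞 ≠ ⊥ ∧ (∀ 𝔮 ∈ tameSet p F x₀, ¬ 𝔞 ≤ 𝔮) ∧
      ¬ ∃ (β₁ β₂ : 𝓞 F) (𝔄₁ 𝔄₂ : Ideal (𝓞 N)),
          β₁ ≠ 0 ∧ β₂ ≠ 0 ∧ 𝔄₁ ≠ ⊥ ∧ 𝔄₂ ≠ ⊥ ∧
          (∀ 𝔮 ∈ tameSet p F x₀, β₁ ∉ 𝔮 ∧ β₂ ∉ 𝔮 ∧ (∃ c : 𝓞 F, β₁ - c ^ p * β₂ ∈ 𝔮) ∧
              ¬ Ideal.relNorm (𝓞 F) 𝔄₁ ≤ 𝔮 ∧ ¬ Ideal.relNorm (𝓞 F) 𝔄₂ ≤ 𝔮) ∧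
          𝔞 * Ideal.span {β₂} * Ideal.relNorm (𝓞 F) 𝔄₂ =
            Ideal.span {β₁} * Ideal.relNorm (𝓞 F) 𝔄₁

/-- (Theorem R) There is no Galois number field `L/ℚ` of degree `p(p-1)` containing `ζ = ζ_p`,
with `σ⁻¹ τ σ = τ ^ a` whenever `τ` fixes `ζ` and `σ ζ = ζ ^ a`, such that: inertia groups at
primes not above `p` are trivial, and decomposition groups at primes above `p` meet
`Gal(L/ℚ(ζ))` trivially. -/
def TheoremRStatement : Prop :=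
  ∀ (p : ℕ) [Fact p.Prime], 3 ≤ p →
  ∀ (L : Type) [Field L] [NumberField L] [IsGalois ℚ L] (ζ : L), IsPrimitiveRoot ζ p →
    Module.finrank ℚ L = p * (p - 1) →
    (∀ (σ τ : L ≃ₐ[ℚ] L) (a : ℕ), τ ζ = ζ → σ ζ = ζ ^ a → σ⁻¹ * τ * σ = τ ^ a) →
    (∀ P : Ideal (𝓞 L), P.IsPrime → (p : 𝓞 L) ∉ P → ∀ σ : L ≃ₐ[ℚ] L,
      (∀ x : 𝓞 L, ∃ y ∈ P, (y : L) = σ x - x) → σ = 1) →
    (∀ P : Ideal (𝓞 L), P.IsPrime → (p : 𝓞 L) ∈ P → ∀ τ : L ≃ₐ[ℚ] L, τ ζ = ζ →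
      (∀ x ∈ P, ∃ y ∈ P, (y : L) = τ x) → τ = 1) →
    False

/-- (Glue, P0) Theorem R implies the target statement. -/
def GlueStatement : Prop :=
  TheoremRStatement → ∀ (p : ℕ) [Fact p.Prime], 3 ≤ p → ExtCitation.ExtVanishingCts p

/-! ## Shared basics (Kummer theory of prime decomposition, S-units, moving lemma) -/

/-- Existence of an integral Kummer generator. -/
def KummerGenStatement : Prop :=
  ∀ (p : ℕ) [Fact p.Prime],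
  ∀ (F N : Type) [Field F] [NumberField F] [Field N] [NumberField N] [Algebra F N] [IsGalois F N]
    (ζ : F), IsPrimitiveRoot ζ p → Module.finrank F N = p →
    ∃ (x₀ : 𝓞 F) (y : N), x₀ ≠ 0 ∧ y ^ p = algebraMap F N (x₀ : F) ∧
      y ∉ Set.range (algebraMap F N)

/-- A Kummer extension of degree `p` is Galois with group generated by `τ`, `τ y = ζ y`. -/
def KummerGaloisStatement : Prop :=
  ∀ (p : ℕ) [Fact p.Prime],
  ∀ (F N : Type) [Field F] [NumberField F] [Field N] [NumberField N] [Algebra F N]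
    (ζ : F), IsPrimitiveRoot ζ p → Module.finrank F N = p →
  ∀ (x : F) (y : N), y ^ p = algebraMap F N x → y ∉ Set.range (algebraMap F N) →
    IsGalois F N ∧ ∃ τ : N ≃ₐ[F] N, τ y = algebraMap F N ζ * y ∧ ∀ σ : N ≃ₐ[F] N, ∃ i : ℕ, σ = τ ^ i

/-- Kummer splitting criterion at a prime `𝔮 ∤ p x₀`: unramified, and splits completely iff `x₀`
is a `p`-th power residue mod `𝔮`. -/
def KummerSplitStatement : Prop :=
  ∀ (p : ℕ) [Fact p.Prime],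
  ∀ (F N : Type) [Field F] [NumberField F] [Field N] [NumberField N] [Algebra F N]
    (ζ : F), IsPrimitiveRoot ζ p → Module.finrank F N = p →
  ∀ (x₀ : 𝓞 F) (y : N), y ^ p = algebraMap F N (x₀ : F) → y ∉ Set.range (algebraMap F N) →
  ∀ 𝔮 : Ideal (𝓞 F), 𝔮.IsPrime → 𝔮 ≠ ⊥ → (p : 𝓞 F) ∉ 𝔮 → x₀ ∉ 𝔮 →
    (SplitsCompletely F N 𝔮 ↔ ∃ c : 𝓞 F, x₀ - c ^ p ∈ 𝔮) ∧
    (∀ 𝔔 ∈ 𝔮.primesOver (𝓞 N), 𝔔.ramificationIdx (𝓞 F) = 1)

/-- Kummer: `𝔮 ∤ p` and `p ∣ v_𝔮(x₀)` implies unramified above `𝔮`. -/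
def KummerUnramStatement : Prop :=
  ∀ (p : ℕ) [Fact p.Prime],
  ∀ (F N : Type) [Field F] [NumberField F] [Field N] [NumberField N] [Algebra F N]
    (ζ : F), IsPrimitiveRoot ζ p → Module.finrank F N = p →
  ∀ (x₀ : 𝓞 F) (y : N), y ^ p = algebraMap F N (x₀ : F) → y ∉ Set.range (algebraMap F N) →
  ∀ 𝔮 : Ideal (𝓞 F), 𝔮.IsPrime → 𝔮 ≠ ⊥ → (p : 𝓞 F) ∉ 𝔮 → OrdDvd p 𝔮 x₀ →
    ∀ 𝔔 ∈ 𝔮.primesOver (𝓞 N), 𝔔.ramificationIdx (𝓞 F) = 1

/-- Kummer: `p ∤ v_𝔮(x₀)` implies totally ramified above `𝔮` (any prime `𝔮`, also above `p`). -/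
def KummerRamStatement : Prop :=
  ∀ (p : ℕ) [Fact p.Prime],
  ∀ (F N : Type) [Field F] [NumberField F] [Field N] [NumberField N] [Algebra F N]
    (ζ : F), IsPrimitiveRoot ζ p → Module.finrank F N = p →
  ∀ (x₀ : 𝓞 F) (y : N), y ^ p = algebraMap F N (x₀ : F) → y ∉ Set.range (algebraMap F N) →
  ∀ 𝔮 : Ideal (𝓞 F), 𝔮.IsPrime → 𝔮 ≠ ⊥ → OrdNotDvd p 𝔮 x₀ →
    ∀ 𝔔 ∈ 𝔮.primesOver (𝓞 N), 𝔔.ramificationIdx (𝓞 F) = p

/-- Dirichlet's S-unit theorem (rank form), for Mathlib's group of `S`-units `S.unit F`. -/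
def SUnitRankStatement : Prop :=
  ∀ (F : Type) [Field F] [NumberField F]
    (S : Finset (IsDedekindDomain.HeightOneSpectrum (𝓞 F))),
    Module.Finite ℤ (Additive ((S : Set (IsDedekindDomain.HeightOneSpectrum (𝓞 F))).unit F)) ∧
    Module.finrank ℤ (Additive ((S : Set (IsDedekindDomain.HeightOneSpectrum (𝓞 F))).unit F)) =
      NumberField.Units.rank F + S.card

/-- Moving lemma: every ideal class contains an integral ideal coprime to a given nonzero ideal. -/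
def MovingLemmaStatement : Prop :=
  ∀ (F : Type) [Field F] [NumberField F] (𝔞 𝔪 : Ideal (𝓞 F)), 𝔞 ≠ ⊥ → 𝔪 ≠ ⊥ →
    ∃ (x y : 𝓞 F) (𝔟 : Ideal (𝓞 F)), x ≠ 0 ∧ y ≠ 0 ∧ 𝔟 ⊔ 𝔪 = ⊤ ∧
      Ideal.span {x} * 𝔞 = Ideal.span {y} * 𝔟

end Fermat.Agent.S14
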