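/-
S14 basics package KummerGal (prefix `bkg_`): a Kummer extension of prime degree is Galois with
cyclic group generated by `τ`, `τ y = ζ y`; and every Galois extension of prime degree `p` of a
number field containing `ζ_p` has an integral Kummer generator.
-/
import Fermat.Agent.S14.Interfaces

set_option autoImplicit false

open NumberField Polynomial IntermediateField

namespace Fermat.Agent.S14

/-- In an extension of prime degree, an element outside the base field generates the extension. -/
theorem bkg_adjoin_eq_top {F N : Type*} [Field F] [Field N] [Algebra F N]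
    (hp : (Module.finrank F N).Prime) {y : N} (hy : y ∉ Set.range (algebraMap F N)) :
    F⟮y⟯ = ⊤ := by
  have := IntermediateField.isSimpleOrder_of_finrank_prime F N hp
  rcases eq_bot_or_eq_top F⟮y⟯ with h | h
  · exfalso
    apply hy
    rw [← IntermediateField.mem_bot, ← h]
    exact mem_adjoin_simple_self F y
  · exact h

/-- Field-theoretic core of `KummerGaloisStatement` (no number field hypotheses). -/
theorem bkg_kummerGalois_field {F N : Type*} [Field F] [Field N] [Algebra F N]
    (ζ : F) (hζ : IsPrimitiveRoot ζ (Module.finrank F N)) (hp : (Module.finrank F N).Prime)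
    (x : F) (y : N) (hxy : y ^ (Module.finrank F N) = algebraMap F N x)
    (hy : y ∉ Set.range (algebraMap F N)) :
    IsGalois F N ∧ ∃ τ : N ≃ₐ[F] N, τ y = algebraMap F N ζ * y ∧
      ∀ σ : N ≃ₐ[F] N, ∃ i : ℕ, σ = τ ^ i := by
  have : FiniteDimensional F N := Module.finite_of_finrank_pos hp.pos
  have : NeZero (Module.finrank F N) := ⟨hp.ne_zero⟩
  have htop : F⟮y⟯ = ⊤ := bkg_adjoin_eq_top hp hy
  have hK : (primitiveRoots (Module.finrank F N) F).Nonempty :=
    ⟨ζ, (mem_primitiveRoots hp.pos).mpr hζ⟩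
  have H : Irreducible (X ^ (Module.finrank F N) - C x) :=
    irreducible_X_pow_sub_C_of_root_adjoin_eq_top hxy htop
  have : IsSplittingField F N (X ^ (Module.finrank F N) - C x) :=
    isSplittingField_X_pow_sub_C_of_root_adjoin_eq_top hK hxy htop
  refine ⟨isGalois_of_isSplittingField_X_pow_sub_C hK H N, ?_⟩
  let e := autEquivZmod H N hζ
  refine ⟨e.symm (Multiplicative.ofAdd ((1 : ℕ) : ZMod (Module.finrank F N))), ?_, ?_⟩
  · rw [autEquivZmod_symm_apply_natCast H N hxy hζ 1, pow_one, Algebra.smul_def]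
  · intro σ
    refine ⟨(Multiplicative.toAdd (e σ)).val, ?_⟩
    rw [← map_pow, ← ofAdd_nsmul, nsmul_eq_mul, Nat.cast_one, mul_one, ZMod.natCast_zmod_val,
      ofAdd_toAdd, MulEquiv.symm_apply_apply]

/-- A Kummer extension of degree `p` is Galois with group generated by `τ`, `τ y = ζ y`. -/
theorem bkg_kummerGalois : KummerGaloisStatement := by
  intro p hp F N _ _ _ _ _ ζ hζ hfin x y hxy hy
  subst hfin
  exact bkg_kummerGalois_field ζ hζ hp.out x y hxy hy

/-- Field-theoretic core of `KummerGenStatement`: a Kummer generator with `y ^ p ∈ F`. -/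
theorem bkg_exists_kummer_generator {F N : Type*} [Field F] [Field N] [Algebra F N] [IsGalois F N]
    (ζ : F) (hζ : IsPrimitiveRoot ζ (Module.finrank F N)) (hp : (Module.finrank F N).Prime) :
    ∃ (a : F) (α : N), α ^ (Module.finrank F N) = algebraMap F N a ∧
      α ∉ Set.range (algebraMap F N) := by
  have : FiniteDimensional F N := Module.finite_of_finrank_pos hp.pos
  have : Fact (Module.finrank F N).Prime := ⟨hp⟩
  have : IsCyclic (N ≃ₐ[F] N) := isCyclic_of_prime_card (IsGalois.card_aut_eq_finrank F N)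
  have hK : (primitiveRoots (Module.finrank F N) F).Nonempty :=
    ⟨ζ, (mem_primitiveRoots hp.pos).mpr hζ⟩
  obtain ⟨α, ⟨a, ha⟩, hα⟩ := exists_root_adjoin_eq_top_of_isCyclic F N hK
  refine ⟨a, α, ha.symm, ?_⟩
  intro hmem
  have hbot : F⟮α⟯ = ⊥ := by
    rw [IntermediateField.adjoin_simple_eq_bot_iff, IntermediateField.mem_bot]
    exact hmem
  have h1 : Module.finrank F N = 1 :=
    IntermediateField.bot_eq_top_iff_finrank_eq_one.mp (hbot.symm.trans hα)
  exact hp.ne_one h1

/-- Existence of an integral Kummer generator. -/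
theorem bkg_kummerGen : KummerGenStatement := by
  intro p hp F N _ _ _ _ _ _ ζ hζ hfin
  subst hfin
  obtain ⟨a₀, α, hα, hαF⟩ := bkg_exists_kummer_generator ζ hζ hp.out
  obtain ⟨a, b, hb, hab⟩ := IsFractionRing.div_surjective (A := 𝓞 F) a₀
  have hb0 : b ≠ 0 := nonZeroDivisors.ne_zero hb
  have hbF : algebraMap (𝓞 F) F b ≠ 0 := by
    simpa using (IsFractionRing.injective (𝓞 F) F).ne hb0
  have hα0 : α ≠ 0 := by
    rintro rfl
    exact hαF ⟨0, map_zero _⟩
  have ha₀ : a₀ ≠ 0 := by
    rintro rfl
    rw [map_zero] at hα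
    exact hα0 (pow_eq_zero_iff (hp.out.ne_zero) |>.mp hα)
  have ha0 : a ≠ 0 := by
    rintro rfl
    rw [map_zero, zero_div] at hab
    exact ha₀ hab.symm
  set n := Module.finrank F N with hn
  have hn1 : n = (n - 1) + 1 := (Nat.sub_add_cancel hp.out.one_le).symm
  refine ⟨a * b ^ (n - 1), algebraMap F N (algebraMap (𝓞 F) F b) * α, ?_, ?_, ?_⟩
  · exact mul_ne_zero ha0 (pow_ne_zero _ hb0)
  · have h1 : (algebraMap (𝓞 F) F b) ^ n * a₀ =
        algebraMap (𝓞 F) F a * (algebraMap (𝓞 F) F b) ^ (n - 1) := by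
      rw [← hab]
      conv_lhs => rw [hn1, pow_succ]
      field_simp
    rw [mul_pow, hα, ← map_pow, ← map_mul, h1]
    congr 1
  · rintro ⟨f, hf⟩
    apply hαF
    refine ⟨f / algebraMap (𝓞 F) F b, ?_⟩
    rw [map_div₀, hf, mul_div_assoc, mul_comm, div_mul_cancel₀]
    exact (map_ne_zero (algebraMap F N)).mpr hbF

end Fermat.Agent.S14
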