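/-
S14 basics, package KummerRam (twin A): total ramification of `F(x₀^{1/p})/F` at the primes `𝔮`
with `p ∤ v_𝔮(x₀)`.
-/
import Fermat.Agent.S14.Interfaces

set_option autoImplicit false

open NumberField

namespace Fermat.Agent.S14

/-- The ramification index of a prime of `N` is at most the degree `[N : F]`. -/
theorem bkra_ramificationIdx_le_finrank (F N : Type) [Field F] [NumberField F] [Field N]
    [NumberField N] [Algebra F N] (𝔮 : Ideal (𝓞 F)) [𝔮.IsPrime] (𝔔 : Ideal (𝓞 N))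
    (h𝔔 : 𝔔 ∈ 𝔮.primesOver (𝓞 N)) :
    𝔔.ramificationIdx (𝓞 F) ≤ Module.finrank F N := by
  let : Fintype (𝔮.primesOver (𝓞 N)) := (Algebra.QuasiFinite.finite_primesOver 𝔮).fintype
  have hsum := Ideal.sum_ramification_inertia_eq_finrank 𝔮 (𝓞 N)
  rw [IsFractionRing.finrank_eq (𝓞 F) F (𝓞 N) N, ← hsum]
  have : 𝔔.IsPrime := h𝔔.1
  have hle : 𝔔.ramificationIdx (𝓞 F) ≤ 𝔔.ramificationIdx (𝓞 F) * 𝔔.inertiaDeg (𝓞 F) :=
    Nat.le_mul_of_pos_right _ (Ideal.inertiaDeg_pos 𝔔 (𝓞 F))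
  refine hle.trans ?_
  exact Finset.single_le_sum (f := fun q : 𝔮.primesOver (𝓞 N) =>
    q.1.ramificationIdx (𝓞 F) * q.1.inertiaDeg (𝓞 F)) (fun _ _ => Nat.zero_le _)
    (Finset.mem_univ (⟨𝔔, h𝔔⟩ : 𝔮.primesOver (𝓞 N)))

theorem bkra_kummerRam : KummerRamStatement := by
  intro p _ F N _ _ _ _ _ ζ _ hdeg x₀ y hy _ 𝔮 h𝔮 h𝔮0 hord 𝔔 h𝔔
  obtain ⟨n, hn, hn1, hpn⟩ := hord
  have : 𝔔.IsPrime := h𝔔.1
  have : 𝔔.LiesOver 𝔮 := h𝔔.2
  have := h𝔮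
  have hp : p.Prime := Fact.out
  -- `x₀ ≠ 0`
  have hx0 : x₀ ≠ 0 := by
    rintro rfl
    exact hn1 (Ideal.zero_mem _)
  -- `y` is an algebraic integer
  have hyint : IsIntegral ℤ y := by
    refine IsIntegral.of_pow hp.pos ?_
    rw [hy]
    exact (RingOfIntegers.isIntegral_coe x₀).algebraMap
  set yB : 𝓞 N := ⟨y, hyint⟩ with hyB
  have hyBp : yB ^ p = algebraMap (𝓞 F) (𝓞 N) x₀ := by
    apply RingOfIntegers.ext
    show (algebraMap (𝓞 N) N) (yB ^ p) = (algebraMap (𝓞 N) N) (algebraMap (𝓞 F) (𝓞 N) x₀)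
    rw [map_pow, ← IsScalarTower.algebraMap_apply (𝓞 F) (𝓞 N) N,
      IsScalarTower.algebraMap_apply (𝓞 F) F N]
    exact hy
  -- primes and multiplicities
  have h𝔔0 : 𝔔 ≠ ⊥ := Ideal.ne_bot_of_liesOver_of_ne_bot h𝔮0 𝔔
  have hprime𝔮 : Prime 𝔮 := Ideal.prime_of_isPrime h𝔮0 h𝔮
  have hprime𝔔 : Prime 𝔔 := Ideal.prime_of_isPrime h𝔔0 h𝔔.1
  have hI0 : Ideal.span {x₀} ≠ ⊥ := by
    rw [Ne, Ideal.span_singleton_eq_bot]
    exact hx0
  have hmult𝔮 : emultiplicity 𝔮 (Ideal.span {x₀}) = n := by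
    rw [emultiplicity_eq_coe, Ideal.dvd_iff_le, Ideal.dvd_iff_le, Ideal.span_singleton_le_iff_mem,
      Ideal.span_singleton_le_iff_mem]
    exact ⟨hn, hn1⟩
  have hmap : (Ideal.span {x₀}).map (algebraMap (𝓞 F) (𝓞 N)) = Ideal.span {yB} ^ p := by
    rw [Ideal.map_span, Set.image_singleton, Ideal.span_singleton_pow, hyBp]
  have hkey := Ideal.IsDedekindDomain.emultiplicity_map_eq_ramificationIdx'_mul
    (v := 𝔮) (w := 𝔔) hI0 hprime𝔮.irreducible hprime𝔔.irreducible h𝔔0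
  rw [hmap, emultiplicity_pow hprime𝔔, hmult𝔮, Ideal.ramificationIdx'_eq_ramificationIdx 𝔮 𝔔 h𝔮0]
    at hkey
  -- `hkey : p * emultiplicity 𝔔 (span {yB}) = e * n`
  have hdvd : p ∣ 𝔔.ramificationIdx (𝓞 F) * n := by
    have hfin : emultiplicity 𝔔 (Ideal.span {yB}) ≠ ⊤ := by
      intro h
      rw [h, ENat.mul_top (by exact_mod_cast hp.ne_zero)] at hkey
      exact ENat.natCast_ne_top (𝔔.ramificationIdx (𝓞 F) * n) (by push_cast; exact hkey.symm)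
    obtain ⟨k, hk⟩ := ENat.ne_top_iff_exists.mp hfin
    rw [← hk] at hkey
    refine ⟨k, ?_⟩
    exact_mod_cast hkey.symm
  have hdvde : p ∣ 𝔔.ramificationIdx (𝓞 F) := (hp.dvd_mul.mp hdvd).resolve_right hpn
  have hle : 𝔔.ramificationIdx (𝓞 F) ≤ p := hdeg ▸ bkra_ramificationIdx_le_finrank F N 𝔮 𝔔 h𝔔
  have hpos : 0 < 𝔔.ramificationIdx (𝓞 F) := Ideal.ramificationIdx_pos 𝔔 (𝓞 F)
  exact le_antisymm hle (Nat.le_of_dvd hpos hdvde)

end Fermat.Agent.S14
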