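/-
S14: more FROZEN shared basics (owner: helper22; do not edit).  Same conventions as Interfaces.lean.
-/
import Fermat.Agent.S14.Interfaces

set_option autoImplicit false

open NumberField

namespace Fermat.Agent.S14

/-- Existence of Kummer extensions as abstract number fields: if `x` is not a `p`-th power in `F`
there is a number field `N ⊇ F` of degree `p` containing a `p`-th root of `x`. -/
def KummerExistsStatement : Prop :=
  ∀ (p : ℕ) [Fact p.Prime],
  ∀ (F : Type) [Field F] [NumberField F] (x : F), (∀ z : F, z ^ p ≠ x) →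
    ∃ (N : Type) (_ : Field N) (_ : NumberField N) (_ : Algebra F N),
      Module.finrank F N = p ∧ ∃ y : N, y ^ p = algebraMap F N x

/-- A degree-`p` extension `N = F(y)`, `y ^ p = x ∈ F`, `y ∉ F`, embeds over `F` into any extension
`M` of `F` containing a `p`-th root `y'` of `x`, with `y ↦ y'`. -/
def KummerLiftStatement : Prop :=
  ∀ (p : ℕ) [Fact p.Prime],
  ∀ (F N M : Type) [Field F] [Field N] [Field M] [Algebra F N] [Algebra F M],
    Module.finrank F N = p → ∀ (x : F) (y : N) (y' : M), y ^ p = algebraMap F N x →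
    y ∉ Set.range (algebraMap F N) → y' ^ p = algebraMap F M x →
    ∃ φ : N →ₐ[F] M, φ y = y'

/-- Coprime representatives: if two ideals coprime to `𝔪` are in the same ideal class, the
principal ideals relating them can be chosen coprime to `𝔪`. -/
def CoprimeRepStatement : Prop :=
  ∀ (F : Type) [Field F] [NumberField F] (𝔪 𝔅₁ 𝔅₂ : Ideal (𝓞 F)) (x y : 𝓞 F),
    𝔪 ≠ ⊥ → x ≠ 0 → y ≠ 0 → 𝔅₁ ⊔ 𝔪 = ⊤ → 𝔅₂ ⊔ 𝔪 = ⊤ →
    Ideal.span {x} * 𝔅₁ = Ideal.span {y} * 𝔅₂ →
    ∃ x' y' : 𝓞 F, x' ≠ 0 ∧ y' ≠ 0 ∧ Ideal.span {x'} ⊔ 𝔪 = ⊤ ∧ Ideal.span {y'} ⊔ 𝔪 = ⊤ ∧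
      Ideal.span {x'} * 𝔅₁ = Ideal.span {y'} * 𝔅₂

/-- The norm classes form exactly the set of classes of norms of nonzero ideals (the class group
is finite, so the closure in the definition of `normClasses` adds nothing). -/
def NormClassesMemStatement : Prop :=
  ∀ (F N : Type) [Field F] [NumberField F] [Field N] [NumberField N] [Algebra F N]
    (c : ClassGroup (𝓞 F)), c ∈ normClasses F N ↔
      ∃ (𝔄 : Ideal (𝓞 N)) (h : Ideal.relNorm (𝓞 F) 𝔄 ∈ nonZeroDivisors (Ideal (𝓞 F))),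
        c = ClassGroup.mk0 ⟨_, h⟩

/-- A number field containing a primitive `p`-th root of unity (`p` odd) is totally complex:
the number of infinite places (`= Units.rank + 1`) is half the degree. -/
def TotallyComplexStatement : Prop :=
  ∀ (p : ℕ) [Fact p.Prime], 3 ≤ p →
  ∀ (F : Type) [Field F] [NumberField F] (ζ : F), IsPrimitiveRoot ζ p →
    2 * (NumberField.Units.rank F + 1) = Module.finrank ℚ F

/-- Decomposition of a prime in a Galois extension of prime degree `p`: split completely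
(`p` primes above), inert, or totally ramified. -/
def PrimeTrichotomyStatement : Prop :=
  ∀ (p : ℕ) [Fact p.Prime],
  ∀ (F N : Type) [Field F] [NumberField F] [Field N] [NumberField N] [Algebra F N] [IsGalois F N],
    Module.finrank F N = p → ∀ 𝔮 : Ideal (𝓞 F), 𝔮.IsPrime → 𝔮 ≠ ⊥ →
    (SplitsCompletely F N 𝔮 ∧ (𝔮.primesOver (𝓞 N)).ncard = p) ∨
    (∃ 𝔔 : Ideal (𝓞 N), 𝔮.primesOver (𝓞 N) = {𝔔} ∧
        𝔔.ramificationIdx (𝓞 F) = 1 ∧ 𝔔.inertiaDeg (𝓞 F) = p) ∨
    (∃ 𝔔 : Ideal (𝓞 N), 𝔮.primesOver (𝓞 N) = {𝔔} ∧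
        𝔔.ramificationIdx (𝓞 F) = p ∧ 𝔔.inertiaDeg (𝓞 F) = 1)

end Fermat.Agent.S14
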