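/-
S14 basics package `NormCl` (prefix `bnc_`):
* `bnc_normClassesMem : NormClassesMemStatement` — the norm classes are exactly the classes of
  norms of nonzero ideals (the class group is finite, so the subgroup closure adds nothing);
* `bnc_totallyComplex : TotallyComplexStatement` — a number field containing a primitive `p`-th
  root of unity, `p ≥ 3`, is totally complex, so `2 * (rank + 1) = [F : ℚ]`.
-/
import Fermat.Agent.S14.Basics2

set_option autoImplicit false

open NumberField

namespace Fermat.Agent.S14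

/-- The norm classes form exactly the set of classes of norms of nonzero ideals. -/
theorem bnc_normClassesMem : NormClassesMemStatement := by
  intro F N _ _ _ _ _ c
  constructor
  · intro hc
    have hc' : c ∈ (normClasses F N).toSubmonoid := hc
    rw [normClasses, Subgroup.closure_toSubmonoid_of_finite] at hc'
    clear hc
    induction hc' using Submonoid.closure_induction with
    | mem x hx => exact hx
    | one =>
      have h1 : Ideal.relNorm (𝓞 F) (1 : Ideal (𝓞 N)) = 1 := map_one _
      have hmem : Ideal.relNorm (𝓞 F) (1 : Ideal (𝓞 N)) ∈ nonZeroDivisors (Ideal (𝓞 F)) := by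
        rw [h1]; exact one_mem _
      refine ⟨1, hmem, ?_⟩
      have h2 : (⟨Ideal.relNorm (𝓞 F) (1 : Ideal (𝓞 N)), hmem⟩ :
          nonZeroDivisors (Ideal (𝓞 F))) = 1 := Subtype.ext h1
      rw [h2, map_one]
    | mul x y hx hy ihx ihy =>
      obtain ⟨𝔄, h₁, rfl⟩ := ihx
      obtain ⟨𝔅, h₂, rfl⟩ := ihy
      have h3 : Ideal.relNorm (𝓞 F) (𝔄 * 𝔅)
          = Ideal.relNorm (𝓞 F) 𝔄 * Ideal.relNorm (𝓞 F) 𝔅 := map_mul _ _ _
      have hmem : Ideal.relNorm (𝓞 F) (𝔄 * 𝔅) ∈ nonZeroDivisors (Ideal (𝓞 F)) := by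
        rw [h3]; exact mul_mem h₁ h₂
      refine ⟨𝔄 * 𝔅, hmem, ?_⟩
      have h4 : (⟨Ideal.relNorm (𝓞 F) (𝔄 * 𝔅), hmem⟩ : nonZeroDivisors (Ideal (𝓞 F)))
          = ⟨Ideal.relNorm (𝓞 F) 𝔄, h₁⟩ * ⟨Ideal.relNorm (𝓞 F) 𝔅, h₂⟩ := Subtype.ext h3
      rw [h4, map_mul]
  · intro hc
    exact Subgroup.subset_closure hc

/-- A number field containing a primitive `p`-th root of unity (`p ≥ 3`) is totally complex:
`2 * (rank + 1) = [F : ℚ]`. -/
theorem bnc_totallyComplex : TotallyComplexStatement := by
  intro p _ hp F _ _ ζ hζ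
  have h0 : NumberField.InfinitePlace.nrRealPlaces F = 0 :=
    NumberField.InfinitePlace.IsPrimitiveRoot.nrRealPlaces_eq_zero_of_two_lt (by omega) hζ
  have h1 := NumberField.InfinitePlace.card_add_two_mul_card_eq_rank F
  have h2 := NumberField.InfinitePlace.card_eq_nrRealPlaces_add_nrComplexPlaces F
  have h3 : 0 < Fintype.card (InfinitePlace F) := Fintype.card_pos
  have h4 : NumberField.Units.rank F = Fintype.card (InfinitePlace F) - 1 := rfl
  rw [h0] at h1 h2
  omega

end Fermat.Agent.S14
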