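/-
S14 / shared basics: Dirichlet's S-unit theorem in rank form (`SUnitRankStatement`), triplet A.

Route: the valuation-exponent map `S.unit F → ℤ^S` has kernel the image of `(𝓞 F)ˣ` (rank
`Units.rank F`, Dirichlet's unit theorem in Mathlib) and its image contains `h • ℤ^S`, `h` the
class number; rank-nullity over `ℤ`.
-/
import Fermat.Agent.S14.Interfaces

set_option autoImplicit false

open NumberField IsDedekindDomain

namespace Fermat.Agent.S14

noncomputable section

variable (F : Type) [Field F] [NumberField F]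

/-- The valuation-exponent vector of an `S`-unit, as a `ℤ`-linear map. -/
def bsua_val (S : Finset (HeightOneSpectrum (𝓞 F))) :
    Additive ((S : Set (HeightOneSpectrum (𝓞 F))).unit F) →ₗ[ℤ] (S → ℤ) :=
  (AddMonoidHom.mk' (G := S → ℤ)
    (fun (x : Additive ((S : Set (HeightOneSpectrum (𝓞 F))).unit F)) (v : S) =>
      WithZero.log ((v : HeightOneSpectrum (𝓞 F)).valuation F
      (((Additive.toMul x : (S : Set (HeightOneSpectrum (𝓞 F))).unit F) : Fˣ) : F)))
    (fun x y => by
      funext v
      simp only [toMul_add, Subgroup.coe_mul, Units.val_mul, map_mul, Pi.add_apply]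
      rw [WithZero.log_mul] <;> simp)).toIntLinearMap

theorem bsua_val_apply (S : Finset (HeightOneSpectrum (𝓞 F)))
    (x : Additive ((S : Set (HeightOneSpectrum (𝓞 F))).unit F)) (v : S) :
    bsua_val F S x v = WithZero.log ((v : HeightOneSpectrum (𝓞 F)).valuation F
      (((Additive.toMul x : (S : Set (HeightOneSpectrum (𝓞 F))).unit F) : Fˣ) : F)) := rfl

/-- Units of the ring of integers are `S`-units. -/
def bsua_unitHom (S : Finset (HeightOneSpectrum (𝓞 F))) :
    (𝓞 F)ˣ →* (S : Set (HeightOneSpectrum (𝓞 F))).unit F :=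
  (Units.map (algebraMap (𝓞 F) F).toMonoidHom).codRestrict _ (fun u v _ => by
    show v.valuation F (algebraMap (𝓞 F) F (u : 𝓞 F)) = 1
    rw [HeightOneSpectrum.valuation_eq_one_iff_notMem]
    intro hmem
    exact v.isPrime.ne_top (Ideal.eq_top_of_isUnit_mem _ hmem u.isUnit))

theorem bsua_unitHom_coe (S : Finset (HeightOneSpectrum (𝓞 F))) (u : (𝓞 F)ˣ) :
    (((bsua_unitHom F S u : (S : Set (HeightOneSpectrum (𝓞 F))).unit F) : Fˣ) : F)
      = algebraMap (𝓞 F) F (u : 𝓞 F) := rfl

/-- The inclusion of the units into the `S`-units, as a `ℤ`-linear map. -/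
def bsua_incl (S : Finset (HeightOneSpectrum (𝓞 F))) :
    Additive (𝓞 F)ˣ →ₗ[ℤ] Additive ((S : Set (HeightOneSpectrum (𝓞 F))).unit F) :=
  (MonoidHom.toAdditive (bsua_unitHom F S)).toIntLinearMap

theorem bsua_incl_injective (S : Finset (HeightOneSpectrum (𝓞 F))) :
    Function.Injective (bsua_incl F S) := by
  intro x y hxy
  have h1 : bsua_unitHom F S (Additive.toMul x) = bsua_unitHom F S (Additive.toMul y) :=
    congrArg Additive.toMul hxy
  have h2 : algebraMap (𝓞 F) F ((Additive.toMul x : (𝓞 F)ˣ) : 𝓞 F)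
      = algebraMap (𝓞 F) F ((Additive.toMul y : (𝓞 F)ˣ) : 𝓞 F) := by
    rw [← bsua_unitHom_coe F S, ← bsua_unitHom_coe F S, h1]
  have h3 := FaithfulSMul.algebraMap_injective (𝓞 F) F h2
  exact congrArg Additive.ofMul (Units.ext h3)

theorem bsua_range_incl (S : Finset (HeightOneSpectrum (𝓞 F))) :
    LinearMap.range (bsua_incl F S) = LinearMap.ker (bsua_val F S) := by
  ext x
  rw [LinearMap.mem_range, LinearMap.mem_ker]
  constructor
  · rintro ⟨u, rfl⟩
    funext v
    rw [bsua_val_apply]
    show WithZero.log ((v : HeightOneSpectrum (𝓞 F)).valuation F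
      (algebraMap (𝓞 F) F ((Additive.toMul u : (𝓞 F)ˣ) : 𝓞 F))) = 0
    have h1 : (v : HeightOneSpectrum (𝓞 F)).valuation F
        (algebraMap (𝓞 F) F ((Additive.toMul u : (𝓞 F)ˣ) : 𝓞 F)) = 1 := by
      rw [HeightOneSpectrum.valuation_eq_one_iff_notMem]
      intro hmem
      exact (v : HeightOneSpectrum (𝓞 F)).isPrime.ne_top
        (Ideal.eq_top_of_isUnit_mem _ hmem (Additive.toMul u).isUnit)
    rw [h1, WithZero.log_one]
  · intro hx
    -- all valuations of `x` are `1`
    have hval : ∀ v : HeightOneSpectrum (𝓞 F), v.valuation F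
        (((Additive.toMul x : (S : Set (HeightOneSpectrum (𝓞 F))).unit F) : Fˣ) : F) = 1 := by
      intro v
      by_cases hv : v ∈ S
      · have h1 := congrFun hx ⟨v, hv⟩
        rw [bsua_val_apply] at h1
        have hne : v.valuation F
            (((Additive.toMul x : (S : Set (HeightOneSpectrum (𝓞 F))).unit F) : Fˣ) : F) ≠ 0 :=
          (Valuation.ne_zero_iff _).mpr (Units.ne_zero _)
        rw [← WithZero.exp_log hne]
        show WithZero.exp (WithZero.log (v.valuation F
            (((Additive.toMul x : (S : Set (HeightOneSpectrum (𝓞 F))).unit F) : Fˣ) : F))) = 1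
        rw [show WithZero.log (v.valuation F
            (((Additive.toMul x : (S : Set (HeightOneSpectrum (𝓞 F))).unit F) : Fˣ) : F)) = 0
          from h1]
        exact WithZero.exp_zero
      · exact (Additive.toMul x).2 v (by simpa using hv)
    have hval' : ∀ v : HeightOneSpectrum (𝓞 F), v.valuation F
        (((Additive.toMul x : (S : Set (HeightOneSpectrum (𝓞 F))).unit F) : Fˣ) : F)⁻¹ = 1 := by
      intro v
      rw [map_inv₀, hval v, inv_one]
    obtain ⟨a, ha⟩ := HeightOneSpectrum.mem_integers_of_valuation_le_one F _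
      (fun v => (hval v).le)
    obtain ⟨b, hb⟩ := HeightOneSpectrum.mem_integers_of_valuation_le_one F _
      (fun v => (hval' v).le)
    have hab : a * b = 1 := by
      apply FaithfulSMul.algebraMap_injective (𝓞 F) F
      rw [map_mul, ha, hb, map_one]
      exact mul_inv_cancel₀ (Units.ne_zero _)
    have hba : b * a = 1 := by rw [mul_comm, hab]
    refine ⟨Additive.ofMul ⟨a, b, hab, hba⟩, ?_⟩
    apply congrArg Additive.ofMul (a₂ := Additive.toMul x)
    apply Subtype.ext
    apply Units.ext
    exact ha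

/-- A power (the class number) of a prime ideal is principal. -/
theorem bsua_exists_gen (v : HeightOneSpectrum (𝓞 F)) :
    ∃ a : 𝓞 F, a ≠ 0 ∧ v.asIdeal ^ (Fintype.card (ClassGroup (𝓞 F))) = Ideal.span {a} := by
  have hI : v.asIdeal ∈ nonZeroDivisors (Ideal (𝓞 F)) :=
    mem_nonZeroDivisors_iff_ne_zero.mpr v.ne_bot
  have hIh : v.asIdeal ^ (Fintype.card (ClassGroup (𝓞 F))) ∈ nonZeroDivisors (Ideal (𝓞 F)) :=
    pow_mem hI _
  have h1 : ClassGroup.mk0 (⟨v.asIdeal ^ (Fintype.card (ClassGroup (𝓞 F))), hIh⟩ :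
      nonZeroDivisors (Ideal (𝓞 F))) = 1 := by
    have h2 : (⟨v.asIdeal ^ (Fintype.card (ClassGroup (𝓞 F))), hIh⟩ :
        nonZeroDivisors (Ideal (𝓞 F))) = ⟨v.asIdeal, hI⟩ ^ (Fintype.card (ClassGroup (𝓞 F))) :=
      rfl
    rw [h2, map_pow, pow_card_eq_one]
  rw [ClassGroup.mk0_eq_one_iff] at h1
  obtain ⟨a, ha⟩ := h1.principal
  refine ⟨a, ?_, ha⟩
  rintro rfl
  have h3 : v.asIdeal ^ (Fintype.card (ClassGroup (𝓞 F))) = ⊥ := by
    rw [ha]
    simp
  exact v.ne_bot (pow_eq_zero_iff (Fintype.card_ne_zero) |>.mp h3)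

/-- For each `v ∈ S` there is an `S`-unit whose valuation vector is `-h` at `v` and `0`
elsewhere (`h` the class number). -/
theorem bsua_exists_sunit (S : Finset (HeightOneSpectrum (𝓞 F))) (v : S) :
    ∃ x : Additive ((S : Set (HeightOneSpectrum (𝓞 F))).unit F),
      bsua_val F S x v = -(Fintype.card (ClassGroup (𝓞 F)) : ℤ) ∧
      ∀ w : S, w ≠ v → bsua_val F S x w = 0 := by
  obtain ⟨a, ha0, ha⟩ := bsua_exists_gen F (v : HeightOneSpectrum (𝓞 F))
  have haF : algebraMap (𝓞 F) F a ≠ 0 := by
    simpa using ha0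
  -- valuations of `a` away from `v`
  have hw : ∀ w : HeightOneSpectrum (𝓞 F), w ≠ (v : HeightOneSpectrum (𝓞 F)) →
      w.valuation F (algebraMap (𝓞 F) F a) = 1 := by
    intro w hwv
    rw [HeightOneSpectrum.valuation_eq_one_iff_notMem]
    intro hmem
    have h1 : (v : HeightOneSpectrum (𝓞 F)).asIdeal ^ (Fintype.card (ClassGroup (𝓞 F)))
        ≤ w.asIdeal := by
      rw [ha, Ideal.span_singleton_le_iff_mem]
      exact hmem
    have h2 : (v : HeightOneSpectrum (𝓞 F)).asIdeal ≤ w.asIdeal :=
      w.isPrime.le_of_pow_le h1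
    have h3 : (v : HeightOneSpectrum (𝓞 F)).asIdeal = w.asIdeal :=
      (v : HeightOneSpectrum (𝓞 F)).isMaximal.eq_of_le w.isPrime.ne_top h2
    exact hwv (HeightOneSpectrum.ext h3.symm)
  -- valuation of `a` at `v`
  have hv : WithZero.log ((v : HeightOneSpectrum (𝓞 F)).valuation F (algebraMap (𝓞 F) F a))
      = -(Fintype.card (ClassGroup (𝓞 F)) : ℤ) := by
    have hne : (v : HeightOneSpectrum (𝓞 F)).valuation F (algebraMap (𝓞 F) F a) ≠ 0 :=
      (Valuation.ne_zero_iff _).mpr haF
    have h1 : WithZero.log ((v : HeightOneSpectrum (𝓞 F)).valuation F (algebraMap (𝓞 F) F a))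
        ≤ -(Fintype.card (ClassGroup (𝓞 F)) : ℤ) := by
      rw [WithZero.log_le_iff_le_exp hne, HeightOneSpectrum.valuation_of_algebraMap,
        HeightOneSpectrum.intValuation_le_pow_iff_mem, ha]
      exact Ideal.mem_span_singleton_self a
    have h2 : ¬ WithZero.log ((v : HeightOneSpectrum (𝓞 F)).valuation F (algebraMap (𝓞 F) F a))
        ≤ -((Fintype.card (ClassGroup (𝓞 F)) + 1 : ℕ) : ℤ) := by
      rw [WithZero.log_le_iff_le_exp hne, HeightOneSpectrum.valuation_of_algebraMap,
        HeightOneSpectrum.intValuation_le_pow_iff_mem]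
      intro hmem
      have h3 : (v : HeightOneSpectrum (𝓞 F)).asIdeal ^ (Fintype.card (ClassGroup (𝓞 F)))
          ≤ (v : HeightOneSpectrum (𝓞 F)).asIdeal ^ (Fintype.card (ClassGroup (𝓞 F)) + 1) := by
        rw [ha, Ideal.span_singleton_le_iff_mem]
        exact hmem
      exact absurd (Ideal.pow_succ_lt_pow (v : HeightOneSpectrum (𝓞 F)).ne_bot _)
        (not_lt_of_ge h3)
    push_cast at h2
    omega
  -- the `S`-unit `a`
  have haS : Units.mk0 (algebraMap (𝓞 F) F a) haF
      ∈ (S : Set (HeightOneSpectrum (𝓞 F))).unit F := by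
    intro w hwS
    refine hw w ?_
    rintro rfl
    exact hwS v.2
  refine ⟨Additive.ofMul ⟨Units.mk0 (algebraMap (𝓞 F) F a) haF, haS⟩, hv, ?_⟩
  intro w hwv
  have hwv' : (w : HeightOneSpectrum (𝓞 F)) ≠ (v : HeightOneSpectrum (𝓞 F)) :=
    fun h => hwv (Subtype.ext h)
  rw [bsua_val_apply]
  show WithZero.log ((w : HeightOneSpectrum (𝓞 F)).valuation F (algebraMap (𝓞 F) F a)) = 0
  rw [hw _ hwv', WithZero.log_one]

/-- The range of the valuation map has full rank. -/
theorem bsua_finrank_range (S : Finset (HeightOneSpectrum (𝓞 F))) :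
    Module.finrank ℤ (LinearMap.range (bsua_val F S)) = S.card := by
  have hcard : Module.finrank ℤ (S → ℤ) = S.card := by
    rw [Module.finrank_fintype_fun_eq_card, Fintype.card_coe]
  apply le_antisymm
  · rw [← hcard]
    exact Submodule.finrank_le _
  · -- multiplication by the class number is injective with range inside the range
    set h : ℤ := (Fintype.card (ClassGroup (𝓞 F)) : ℤ) with hh
    have hh0 : h ≠ 0 := by
      rw [hh]
      exact_mod_cast Fintype.card_ne_zero
    let m : (S → ℤ) →ₗ[ℤ] (S → ℤ) := h • LinearMap.id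
    have hm : Function.Injective m := by
      intro y z hyz
      funext w
      have h1 := congrFun hyz w
      simp only [m, LinearMap.smul_apply, LinearMap.id_coe, id_eq, Pi.smul_apply, smul_eq_mul]
        at h1
      exact mul_left_cancel₀ hh0 h1
    choose X hX1 hX2 using bsua_exists_sunit F S
    have hle : LinearMap.range m ≤ LinearMap.range (bsua_val F S) := by
      rintro _ ⟨y, rfl⟩
      refine ⟨∑ v : S, (-(y v)) • X v, ?_⟩
      funext w
      rw [map_sum, Finset.sum_apply, Finset.sum_eq_single w]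
      · rw [map_smul, Pi.smul_apply, hX1 w]
        simp only [m, LinearMap.smul_apply, LinearMap.id_coe, id_eq, Pi.smul_apply, smul_eq_mul]
        ring
      · intro v _ hvw
        rw [map_smul, Pi.smul_apply, hX2 v w (Ne.symm hvw), smul_zero]
      · intro hw
        exact absurd (Finset.mem_univ w) hw
    calc S.card = Module.finrank ℤ (S → ℤ) := hcard.symm
      _ = Module.finrank ℤ (LinearMap.range m) := (LinearMap.finrank_range_of_inj hm).symm
      _ ≤ Module.finrank ℤ (LinearMap.range (bsua_val F S)) := Submodule.finrank_mono hle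

/-- Dirichlet's `S`-unit theorem (rank form). -/
theorem bsua_sUnitRank : SUnitRankStatement := by
  intro F _ _ S
  have hker : Module.Finite ℤ (LinearMap.ker (bsua_val F S)) := by
    rw [← bsua_range_incl F S]
    exact Module.Finite.range _
  have hfin : Module.Finite ℤ
      (Additive ((S : Set (HeightOneSpectrum (𝓞 F))).unit F)) := by
    refine ⟨Submodule.fg_of_fg_map_of_fg_inf_ker (bsua_val F S) ?_ ?_⟩
    · exact IsNoetherian.noetherian _
    · rw [inf_of_le_right le_top]
      exact (Submodule.fg_top _).mp hker.fg_top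
  refine ⟨hfin, ?_⟩
  have h1 := Submodule.finrank_quotient_add_finrank (LinearMap.ker (bsua_val F S))
  rw [(bsua_val F S).quotKerEquivRange.finrank_eq, bsua_finrank_range F S] at h1
  have h2 : Module.finrank ℤ (LinearMap.ker (bsua_val F S)) = NumberField.Units.rank F := by
    rw [← bsua_range_incl F S, LinearMap.finrank_range_of_inj (bsua_incl_injective F S)]
    exact NumberField.Units.finrank_eq F
  rw [h2] at h1
  omega

end

end Fermat.Agent.S14
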