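/-
S14, block H (first inequality): FROZEN interfaces of the work packages.
Owner: helper180 (block lead H).  Do not edit.  Everything is a `def`; packages prove the `…Statement`
Props (possibly from other Props taken as hypotheses) in their own files `Fermat/Agent/S14/H<Pkg>.lean`.

Setting (`HCtx`): `p ≥ 3` prime, `ζ ∈ F` a primitive `p`-th root of unity, `N = F(y)`, `y ^ p = x₀ ∈ 𝓞 F`,
`[N : F] = p`, `τ` a generator of `Gal(N/F)` with `τ y = ζ y`, `T' = tameSet p F x₀`, `N/F` unramified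
outside `T'` and totally ramified at `T'`.
`Σ` = the set of primes of `F` dividing a nonzero ideal `𝔪` of `𝓞 F` (`hS 𝔪` as a set of height-one
primes); `Σ_N` = the primes of `N` above `Σ` = the primes dividing `𝔪 𝓞_N`.
`hUF F 𝔪` = `Σ`-units of `F`, `hUN F N 𝔪` = `Σ_N`-units of `N` (Mathlib's `Set.unit`),
`hNormGrp F N 𝔪` = norms of `Σ_N`-units, `hNonsplit F N 𝔪` = primes in `Σ` which do not split completely.
Valuations: `v.valuation F x = WithZero.exp (- ord_v x)` for `v : HeightOneSpectrum (𝓞 F)`.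
-/
import Mathlib
import Fermat.Agent.S14.Interfaces

set_option autoImplicit false

open NumberField

namespace Fermat.Agent.S14

/-! ## Definitions -/

/-- The height-one primes of a Dedekind domain dividing (= containing) the ideal `𝔪`. -/
def hS {R : Type} [CommRing R] [IsDedekindDomain R] (𝔪 : Ideal R) :
    Set (IsDedekindDomain.HeightOneSpectrum R) :=
  {v | 𝔪 ≤ v.asIdeal}

/-- `Σ`-units of `F`, where `Σ` is the set of primes dividing `𝔪`. -/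
noncomputable def hUF (F : Type) [Field F] [NumberField F] (𝔪 : Ideal (𝓞 F)) : Subgroup Fˣ :=
  (hS 𝔪).unit F

/-- `Σ_N`-units of `N`, where `Σ_N` is the set of primes of `N` dividing `𝔪 𝓞_N`. -/
noncomputable def hUN (F N : Type) [Field F] [NumberField F] [Field N] [NumberField N] [Algebra F N]
    (𝔪 : Ideal (𝓞 F)) : Subgroup Nˣ :=
  (hS (𝔪.map (algebraMap (𝓞 F) (𝓞 N)))).unit N

/-- The group of norms (in `Fˣ`) of the `Σ_N`-units of `N`. -/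
noncomputable def hNormGrp (F N : Type) [Field F] [NumberField F] [Field N] [NumberField N]
    [Algebra F N] (𝔪 : Ideal (𝓞 F)) : Subgroup Fˣ :=
  (hUN F N 𝔪).map (Units.map (Algebra.norm F : N →* F))

/-- The primes of `F` dividing `𝔪` which do not split completely in `N`. -/
def hNonsplit (F N : Type) [Field F] [NumberField F] [Field N] [NumberField N] [Algebra F N]
    (𝔪 : Ideal (𝓞 F)) : Set (Ideal (𝓞 F)) :=
  {𝔮 | 𝔮.IsPrime ∧ 𝔪 ≤ 𝔮 ∧ ¬ SplitsCompletely F N 𝔮}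

/-- Standing hypotheses of G1-tame, together with a generator `τ` of the Galois group and the
consequence of `KummerRamStatement` at the primes of `tameSet p F x₀`. -/
def HCtx (p : ℕ) (F N : Type) [Field F] [NumberField F] [Field N] [NumberField N] [Algebra F N]
    (ζ : F) (x₀ : 𝓞 F) (y : N) (τ : N ≃ₐ[F] N) : Prop :=
  3 ≤ p ∧ IsPrimitiveRoot ζ p ∧ Module.finrank F N = p ∧ x₀ ≠ 0 ∧
  y ^ p = algebraMap F N (x₀ : F) ∧ y ∉ Set.range (algebraMap F N) ∧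
  (∀ 𝔔 : Ideal (𝓞 N), 𝔔.IsPrime → 𝔔 ≠ ⊥ → 𝔔.under (𝓞 F) ∉ tameSet p F x₀ →
    𝔔.ramificationIdx (𝓞 F) = 1) ∧
  IsGalois F N ∧ τ y = algebraMap F N ζ * y ∧ (∀ σ : N ≃ₐ[F] N, ∃ i : ℕ, σ = τ ^ i) ∧
  (∀ 𝔮 ∈ tameSet p F x₀, ∀ 𝔔 ∈ 𝔮.primesOver (𝓞 N), 𝔔.ramificationIdx (𝓞 F) = p)

/-- `𝔪` is a good modulus: nonzero, divisible by `x₀`, every ideal class of `F` contains an ideal
all of whose prime factors divide `𝔪`, and every ideal class of `N` contains an ideal all of whose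
prime factors lie above primes dividing `𝔪`. -/
def HSigmaOK (F N : Type) [Field F] [NumberField F] [Field N] [NumberField N] [Algebra F N]
    (x₀ : 𝓞 F) (𝔪 : Ideal (𝓞 F)) : Prop :=
  𝔪 ≠ ⊥ ∧ 𝔪 ≤ Ideal.span {x₀} ∧
  (∀ 𝔟 : Ideal (𝓞 F), 𝔟 ≠ ⊥ → ∃ (x y : 𝓞 F) (𝔰 : Ideal (𝓞 F)), x ≠ 0 ∧ y ≠ 0 ∧
    Ideal.span {x} * 𝔟 = Ideal.span {y} * 𝔰 ∧
    ∀ 𝔮 : Ideal (𝓞 F), 𝔮.IsPrime → 𝔰 ≤ 𝔮 → 𝔪 ≤ 𝔮) ∧
  (∀ 𝔅 : Ideal (𝓞 N), 𝔅 ≠ ⊥ → ∃ (x y : 𝓞 N) (𝔖 : Ideal (𝓞 N)), x ≠ 0 ∧ y ≠ 0 ∧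
    Ideal.span {x} * 𝔅 = Ideal.span {y} * 𝔖 ∧
    ∀ 𝔔 : Ideal (𝓞 N), 𝔔.IsPrime → 𝔖 ≤ 𝔔 → 𝔪 ≤ 𝔔.under (𝓞 F))

/-! ## Package statements -/

/-- (Sigma) existence of a good modulus. -/
def HSigmaStatement : Prop :=
  ∀ (F N : Type) [Field F] [NumberField F] [Field N] [NumberField N] [Algebra F N] (x₀ : 𝓞 F),
    x₀ ≠ 0 → ∃ 𝔪 : Ideal (𝓞 F), HSigmaOK F N x₀ 𝔪

/-- (AlgLattice) `L` a free `ℤ`-module of finite rank with an endomorphism `τ` such that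
`1 + τ + … + τ^(p-1) = 0`.  Then `[L : (τ - 1) L]` is finite and `p ^ rank L ≤ [L : (τ - 1) L] ^ (p - 1)`. -/
def HAlgLatticeStatement : Prop :=
  ∀ (p : ℕ) [Fact p.Prime] (L : Type) [AddCommGroup L] [Module.Free ℤ L] [Module.Finite ℤ L]
    (τ : L →ₗ[ℤ] L), (∑ i ∈ Finset.range p, τ ^ i) = 0 →
    (LinearMap.range (τ - 1)).toAddSubgroup.index ≠ 0 ∧
    p ^ Module.finrank ℤ L ≤ (LinearMap.range (τ - 1)).toAddSubgroup.index ^ (p - 1)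

/-- (AlgFG) `A` a finitely generated abelian group whose `p`-torsion is contained in a cyclic
subgroup.  Then `[A : pA]` is finite and `≤ p ^ (rank A + 1)`. -/
def HAlgFGStatement : Prop :=
  ∀ (p : ℕ) [Fact p.Prime] (A : Type) [AddCommGroup A] [Module.Finite ℤ A] (a : A),
    (∀ b : A, p • b = 0 → b ∈ AddSubgroup.zmultiples a) →
    (LinearMap.range ((p : ℤ) • (LinearMap.id : A →ₗ[ℤ] A))).toAddSubgroup.index ≠ 0 ∧
    (LinearMap.range ((p : ℤ) • (LinearMap.id : A →ₗ[ℤ] A))).toAddSubgroup.index ≤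
      p ^ (Module.finrank ℤ A + 1)

/-- (Alg) the index bound for the norm in a finitely generated module over a cyclic group of odd
prime order `p` with vanishing `Ĥ⁻¹`:  with `U = ker (τ - 1)` (invariants) and
`V = range (1 + τ + … + τ^(p-1))` (norms), if `rank A = rank U + (p - 1) k` then `[U : V] · p ^ k ≤ p ^ rank U`. -/
def HAlgStatement : Prop :=
  ∀ (p : ℕ) [Fact p.Prime], 3 ≤ p →
  ∀ (A : Type) [AddCommGroup A] [Module.Finite ℤ A] (τ : A →ₗ[ℤ] A), τ ^ p = 1 →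
    (∀ x : A, (∑ i ∈ Finset.range p, τ ^ i) x = 0 → ∃ z : A, x = τ z - z) →
    (∃ a y : A, τ a = a ∧ a ≠ 0 ∧ (∀ b : A, p • b = 0 → b ∈ AddSubgroup.zmultiples a) ∧
      τ y = a + y) →
    ∀ k : ℕ, Module.finrank ℤ A = Module.finrank ℤ (LinearMap.ker (τ - 1)) + (p - 1) * k →
      (LinearMap.range (∑ i ∈ Finset.range p, τ ^ i)).toAddSubgroup.relIndex
          (LinearMap.ker (τ - 1)).toAddSubgroup ≠ 0 ∧
      (LinearMap.range (∑ i ∈ Finset.range p, τ ^ i)).toAddSubgroup.relIndex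
          (LinearMap.ker (τ - 1)).toAddSubgroup * p ^ k ≤
        p ^ Module.finrank ℤ (LinearMap.ker (τ - 1))

/-- (GalVal) Galois action on the primes of `N` and their valuations. -/
def HGalValStatement : Prop :=
  ∀ (F N : Type) [Field F] [NumberField F] [Field N] [NumberField N] [Algebra F N] [IsGalois F N],
    (∀ (σ : N ≃ₐ[F] N) (w : IsDedekindDomain.HeightOneSpectrum (𝓞 N)),
      ∃ w' : IsDedekindDomain.HeightOneSpectrum (𝓞 N),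
        w'.asIdeal.under (𝓞 F) = w.asIdeal.under (𝓞 F) ∧
        ∀ x : N, w'.valuation N (σ x) = w.valuation N x) ∧
    (∀ w w' : IsDedekindDomain.HeightOneSpectrum (𝓞 N),
      w'.asIdeal.under (𝓞 F) = w.asIdeal.under (𝓞 F) →
      ∃ σ : N ≃ₐ[F] N, ∀ x : N, w'.valuation N (σ x) = w.valuation N x)

/-- (RankUnits) `F ∋ ζ_p` (`p ≥ 3`), `[N : F] = p`: both fields are totally complex, so the numbers
of infinite places satisfy `r_N = p · r_F`. -/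
def HRankUnitsStatement : Prop :=
  ∀ (p : ℕ) [Fact p.Prime], 3 ≤ p →
  ∀ (F N : Type) [Field F] [NumberField F] [Field N] [NumberField N] [Algebra F N]
    (ζ : F), IsPrimitiveRoot ζ p → Module.finrank F N = p →
    NumberField.Units.rank N + 1 = p * (NumberField.Units.rank F + 1)

/-- (RankPrimes) counting the primes of `N` above `Σ` in a Galois extension of prime degree `p`. -/
def HRankPrimesStatement : Prop :=
  ∀ (p : ℕ) [Fact p.Prime]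
    (F N : Type) [Field F] [NumberField F] [Field N] [NumberField N] [Algebra F N] [IsGalois F N],
    Module.finrank F N = p → ∀ 𝔪 : Ideal (𝓞 F), 𝔪 ≠ ⊥ →
    (hS 𝔪).Finite ∧ (hS (𝔪.map (algebraMap (𝓞 F) (𝓞 N)))).Finite ∧ (hNonsplit F N 𝔪).Finite ∧
    (hNonsplit F N 𝔪).ncard ≤ (hS 𝔪).ncard ∧
    (hS (𝔪.map (algebraMap (𝓞 F) (𝓞 N)))).ncard + (p - 1) * (hNonsplit F N 𝔪).ncard =
      p * (hS 𝔪).ncard

/-- (Rank) the ranks of the `Σ`-unit groups. -/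
def HRankStatement : Prop :=
  ∀ (p : ℕ) [Fact p.Prime], 3 ≤ p →
  ∀ (F N : Type) [Field F] [NumberField F] [Field N] [NumberField N] [Algebra F N] [IsGalois F N]
    (ζ : F), IsPrimitiveRoot ζ p → Module.finrank F N = p → ∀ 𝔪 : Ideal (𝓞 F), 𝔪 ≠ ⊥ →
    Module.Finite ℤ (Additive (hUF F 𝔪)) ∧ Module.Finite ℤ (Additive (hUN F N 𝔪)) ∧
    ∃ k : ℕ,
      Module.finrank ℤ (Additive (hUN F N 𝔪)) =
        Module.finrank ℤ (Additive (hUF F 𝔪)) + (p - 1) * k ∧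
      Module.finrank ℤ (Additive (hUF F 𝔪)) + 1 = k + (hNonsplit F N 𝔪).ncard

/-- (Princ) if every ideal class of `F` contains an ideal supported on the primes dividing `𝔪`, then
every finitely supported family of exponents at the primes not dividing `𝔪` is realised by an element
of `Fˣ`. -/
def HPrincStatement : Prop :=
  ∀ (F : Type) [Field F] [NumberField F] (𝔪 : Ideal (𝓞 F)), 𝔪 ≠ ⊥ →
    (∀ 𝔟 : Ideal (𝓞 F), 𝔟 ≠ ⊥ → ∃ (x y : 𝓞 F) (𝔰 : Ideal (𝓞 F)), x ≠ 0 ∧ y ≠ 0 ∧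
      Ideal.span {x} * 𝔟 = Ideal.span {y} * 𝔰 ∧
      ∀ 𝔮 : Ideal (𝓞 F), 𝔮.IsPrime → 𝔰 ≤ 𝔮 → 𝔪 ≤ 𝔮) →
    ∀ n : IsDedekindDomain.HeightOneSpectrum (𝓞 F) → ℤ, (Function.support n).Finite →
      ∃ c : Fˣ, ∀ v : IsDedekindDomain.HeightOneSpectrum (𝓞 F), v ∉ hS 𝔪 →
        v.valuation F (c : F) = WithZero.exp (n v)

/-- (UnitsGal) Galois structure of the `Σ_N`-units. -/
def HUnitsGalStatement : Prop :=
  ∀ (p : ℕ) [Fact p.Prime]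
    (F N : Type) [Field F] [NumberField F] [Field N] [NumberField N] [Algebra F N]
    (ζ : F) (x₀ : 𝓞 F) (y : N) (τ : N ≃ₐ[F] N), HCtx p F N ζ x₀ y τ →
  ∀ 𝔪 : Ideal (𝓞 F), 𝔪 ≠ ⊥ → 𝔪 ≤ Ideal.span {x₀} →
    τ ^ p = 1 ∧
    (∀ w : N, algebraMap F N (Algebra.norm F w) = ∏ i ∈ Finset.range p, (τ ^ i) w) ∧
    (∀ w : N, τ w = w → w ∈ Set.range (algebraMap F N)) ∧
    (∀ w : Nˣ, w ∈ hUN F N 𝔪 → Units.map (τ : N →* N) w ∈ hUN F N 𝔪) ∧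
    (∀ u : Fˣ, u ∈ hUF F 𝔪 ↔ Units.map (algebraMap F N : F →* N) u ∈ hUN F N 𝔪) ∧
    (∀ w : Nˣ, (w : N) = y → w ∈ hUN F N 𝔪) ∧
    (∀ w : Nˣ, (w : N) ^ p = 1 → w ∈ hUN F N 𝔪 ∧ ∃ j : ℕ, (w : N) = algebraMap F N ζ ^ j)

/-- (H90) Hilbert 90 for `Σ_N`-units: a `Σ_N`-unit of norm `1` is `τ z / z` with `z` a `Σ_N`-unit. -/
def HH90Statement : Prop :=
  ∀ (p : ℕ) [Fact p.Prime]
    (F N : Type) [Field F] [NumberField F] [Field N] [NumberField N] [Algebra F N]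
    (ζ : F) (x₀ : 𝓞 F) (y : N) (τ : N ≃ₐ[F] N), HCtx p F N ζ x₀ y τ →
  ∀ 𝔪 : Ideal (𝓞 F), HSigmaOK F N x₀ 𝔪 →
  ∀ w : Nˣ, w ∈ hUN F N 𝔪 → Algebra.norm F (w : N) = 1 →
    ∃ z : Nˣ, z ∈ hUN F N 𝔪 ∧ (w : N) = τ (z : N) / (z : N)

/-- (Index) the index of the norms of `Σ_N`-units in the `Σ`-units of `F` is at most `p ^ (s - 1)`,
`s` = number of primes of `Σ` which do not split completely. -/
def HIndexStatement : Prop :=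
  ∀ (p : ℕ) [Fact p.Prime]
    (F N : Type) [Field F] [NumberField F] [Field N] [NumberField N] [Algebra F N]
    (ζ : F) (x₀ : 𝓞 F) (y : N) (τ : N ≃ₐ[F] N), HCtx p F N ζ x₀ y τ →
  ∀ 𝔪 : Ideal (𝓞 F), HSigmaOK F N x₀ 𝔪 →
    (hNormGrp F N 𝔪).relIndex (hUF F 𝔪) ≠ 0 ∧
    (hNormGrp F N 𝔪).relIndex (hUF F 𝔪) * p ≤ p ^ (hNonsplit F N 𝔪).ncard

/-- (NormSupp) a prime of `F` containing the norm of a nonzero ideal `𝔄` of `N` lies under a prime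
containing `𝔄`. -/
def HNormSuppStatement : Prop :=
  ∀ (F N : Type) [Field F] [NumberField F] [Field N] [NumberField N] [Algebra F N]
    (𝔄 : Ideal (𝓞 N)) (𝔮 : Ideal (𝓞 F)), 𝔄 ≠ ⊥ → 𝔮.IsPrime → Ideal.relNorm (𝓞 F) 𝔄 ≤ 𝔮 →
    ∃ 𝔔 : Ideal (𝓞 N), 𝔔.IsPrime ∧ 𝔄 ≤ 𝔔 ∧ 𝔔.under (𝓞 F) = 𝔮

/-- (Inert) in a Galois extension of prime degree `p`, at an unramified prime `𝔮` which does not
split completely, the `𝔮`-adic valuation of every ideal norm is divisible by `p`. -/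
def HInertStatement : Prop :=
  ∀ (p : ℕ) [Fact p.Prime]
    (F N : Type) [Field F] [NumberField F] [Field N] [NumberField N] [Algebra F N] [IsGalois F N],
    Module.finrank F N = p →
  ∀ 𝔮 : Ideal (𝓞 F), 𝔮.IsPrime → 𝔮 ≠ ⊥ →
    (∀ 𝔔 ∈ 𝔮.primesOver (𝓞 N), 𝔔.ramificationIdx (𝓞 F) = 1) → ¬ SplitsCompletely F N 𝔮 →
  ∀ 𝔄 : Ideal (𝓞 N), 𝔄 ≠ ⊥ →
    ∃ (n : ℕ) (𝔟 : Ideal (𝓞 F)), Ideal.relNorm (𝓞 F) 𝔄 = 𝔮 ^ (p * n) * 𝔟 ∧ ¬ 𝔟 ≤ 𝔮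

/-- (Tame) the norm-residue character at a tamely ramified prime `𝔮 ∈ T'`: a character of `Fˣ` of
order `p`, trivial on norms from `Nˣ` and on `𝔮`-units which are `p`-th power residues, and
surjective on the integral `𝔮`-units. -/
def HTameStatement : Prop :=
  ∀ (p : ℕ) [Fact p.Prime]
    (F N : Type) [Field F] [NumberField F] [Field N] [NumberField N] [Algebra F N]
    (ζ : F) (x₀ : 𝓞 F) (y : N) (τ : N ≃ₐ[F] N), HCtx p F N ζ x₀ y τ →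
  ∀ 𝔮 ∈ tameSet p F x₀, ∃ χ : Fˣ →* Multiplicative (ZMod p),
    (∀ w : Nˣ, χ (Units.map (Algebra.norm F : N →* F) w) = 1) ∧
    (∀ (β₁ β₂ : 𝓞 F) (u : Fˣ), β₁ ∉ 𝔮 → β₂ ∉ 𝔮 → (∃ c : 𝓞 F, β₁ - c ^ p * β₂ ∈ 𝔮) →
      (u : F) * (β₂ : F) = (β₁ : F) → χ u = 1) ∧
    (∀ t : Multiplicative (ZMod p), ∃ (a : 𝓞 F) (u : Fˣ), a ∉ 𝔮 ∧ (u : F) = (a : F) ∧ χ u = t)

/-- The negation of the conclusion of G1-tame: every nonzero ideal prime to `T'` is of the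
excluded form. -/
def HAllNorms (p : ℕ) (F N : Type) [Field F] [NumberField F] [Field N] [NumberField N]
    [Algebra F N] (x₀ : 𝓞 F) : Prop :=
  ∀ 𝔞 : Ideal (𝓞 F), 𝔞 ≠ ⊥ → (∀ 𝔮 ∈ tameSet p F x₀, ¬ 𝔞 ≤ 𝔮) →
    ∃ (β₁ β₂ : 𝓞 F) (𝔄₁ 𝔄₂ : Ideal (𝓞 N)),
      β₁ ≠ 0 ∧ β₂ ≠ 0 ∧ 𝔄₁ ≠ ⊥ ∧ 𝔄₂ ≠ ⊥ ∧
      (∀ 𝔮 ∈ tameSet p F x₀, β₁ ∉ 𝔮 ∧ β₂ ∉ 𝔮 ∧ (∃ c : 𝓞 F, β₁ - c ^ p * β₂ ∈ 𝔮) ∧
          ¬ Ideal.relNorm (𝓞 F) 𝔄₁ ≤ 𝔮 ∧ ¬ Ideal.relNorm (𝓞 F) 𝔄₂ ≤ 𝔮) ∧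
      𝔞 * Ideal.span {β₂} * Ideal.relNorm (𝓞 F) 𝔄₂ =
        Ideal.span {β₁} * Ideal.relNorm (𝓞 F) 𝔄₁

/-- (Real) realisation: if every ideal prime to `T'` is of the excluded form, then for every choice
of residues `a₀ 𝔮` (`𝔮 ∈ T'`) and exponents `n v` there is a `Σ`-unit `u = a · (β₂/β₁) · N(w)` with
`a ≡ a₀ 𝔮` mod `𝔮`, `β₁/β₂` a `p`-th power residue mod `𝔮` (`𝔮 ∈ T'`), and `- ord_v u ≡ n v` mod `p` at
every nonsplit prime `v ∈ Σ` outside `T'`. -/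
def HRealStatement : Prop :=
  ∀ (p : ℕ) [Fact p.Prime]
    (F N : Type) [Field F] [NumberField F] [Field N] [NumberField N] [Algebra F N]
    (ζ : F) (x₀ : 𝓞 F) (y : N) (τ : N ≃ₐ[F] N), HCtx p F N ζ x₀ y τ →
  ∀ 𝔪 : Ideal (𝓞 F), HSigmaOK F N x₀ 𝔪 → HAllNorms p F N x₀ →
  ∀ (a₀ : Ideal (𝓞 F) → 𝓞 F), (∀ 𝔮 ∈ tameSet p F x₀, a₀ 𝔮 ∉ 𝔮) →
  ∀ (n : IsDedekindDomain.HeightOneSpectrum (𝓞 F) → ℕ),
    ∃ (u : Fˣ) (a β₁ β₂ : 𝓞 F) (w : Nˣ), u ∈ hUF F 𝔪 ∧ a ≠ 0 ∧ β₁ ≠ 0 ∧ β₂ ≠ 0 ∧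
      (u : F) * (β₁ : F) = (a : F) * (β₂ : F) * Algebra.norm F (w : N) ∧
      (∀ 𝔮 ∈ tameSet p F x₀, a - a₀ 𝔮 ∈ 𝔮 ∧ β₁ ∉ 𝔮 ∧ β₂ ∉ 𝔮 ∧ ∃ c : 𝓞 F, β₁ - c ^ p * β₂ ∈ 𝔮) ∧
      (∀ v : IsDedekindDomain.HeightOneSpectrum (𝓞 F), v.asIdeal ∈ hNonsplit F N 𝔪 →
        v.asIdeal ∉ tameSet p F x₀ →
        ∃ j : ℤ, v.valuation F (u : F) = WithZero.exp ((n v : ℤ) + (p : ℤ) * j))

/-- (Final) G1-tame for a good modulus `𝔪`, given the index bound. -/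
def HFinalStatement : Prop :=
  ∀ (p : ℕ) [Fact p.Prime]
    (F N : Type) [Field F] [NumberField F] [Field N] [NumberField N] [Algebra F N]
    (ζ : F) (x₀ : 𝓞 F) (y : N) (τ : N ≃ₐ[F] N), HCtx p F N ζ x₀ y τ →
  ∀ 𝔪 : Ideal (𝓞 F), HSigmaOK F N x₀ 𝔪 →
    ((hNormGrp F N 𝔪).relIndex (hUF F 𝔪) ≠ 0 ∧
      (hNormGrp F N 𝔪).relIndex (hUF F 𝔪) * p ≤ p ^ (hNonsplit F N 𝔪).ncard) →
    ¬ HAllNorms p F N x₀

end Fermat.Agent.S14
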