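/-
S14, block H, package Alg: the Herbrand-quotient style index bound
`halg_main : HAlgLatticeStatement → HAlgFGStatement → HAlgStatement`.
-/
import Mathlib
import Fermat.Agent.S14.HInterfaces

set_option autoImplicit false

namespace Fermat.Agent.S14

/-- `(τ ^ i) u = u` for a fixed point `u`. -/
theorem halg_pow_fixed {A : Type} [AddCommGroup A] (τ : A →ₗ[ℤ] A) {u : A} (hu : τ u = u)
    (i : ℕ) : (τ ^ i) u = u := by
  induction i with
  | zero => simp
  | succ i ih => rw [pow_succ, Module.End.mul_apply, hu, ih]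

/-- `(τ ^ i) y = i • a + y` when `τ y = a + y` and `τ a = a`. -/
theorem halg_pow_shift {A : Type} [AddCommGroup A] (τ : A →ₗ[ℤ] A) {a y : A} (ha : τ a = a)
    (hy : τ y = a + y) (i : ℕ) : (τ ^ i) y = i • a + y := by
  induction i with
  | zero => simp
  | succ i ih =>
    rw [pow_succ', Module.End.mul_apply, ih, map_add, map_nsmul, ha, hy, succ_nsmul]
    abel

/-- The norm of a fixed point `u` is `p • u`. -/
theorem halg_Nm_fixed {A : Type} [AddCommGroup A] (p : ℕ) (τ : A →ₗ[ℤ] A) {u : A}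
    (hu : τ u = u) : (∑ i ∈ Finset.range p, τ ^ i) u = p • u := by
  rw [LinearMap.sum_apply]
  simp [halg_pow_fixed τ hu]

/-- Norms are fixed points. -/
theorem halg_tau_Nm {A : Type} [AddCommGroup A] (p : ℕ) (τ : A →ₗ[ℤ] A) (hτ : τ ^ p = 1)
    (x : A) : τ ((∑ i ∈ Finset.range p, τ ^ i) x) = (∑ i ∈ Finset.range p, τ ^ i) x := by
  have h : (τ - 1) * (∑ i ∈ Finset.range p, τ ^ i) = 0 := by
    rw [mul_geom_sum, hτ, sub_self]
  have h2 := LinearMap.congr_fun h x
  rw [Module.End.mul_apply, LinearMap.sub_apply, Module.End.one_apply, LinearMap.zero_apply,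
    sub_eq_zero] at h2
  exact h2

/-- The norm kills `τ z - z`. -/
theorem halg_Nm_D {A : Type} [AddCommGroup A] (p : ℕ) (τ : A →ₗ[ℤ] A) (hτ : τ ^ p = 1)
    (z : A) : (∑ i ∈ Finset.range p, τ ^ i) (τ z - z) = 0 := by
  have h : (∑ i ∈ Finset.range p, τ ^ i) * (τ - 1) = 0 := by
    rw [geom_sum_mul, hτ, sub_self]
  have h2 := LinearMap.congr_fun h z
  rw [Module.End.mul_apply, LinearMap.sub_apply, Module.End.one_apply, LinearMap.zero_apply] at h2
  exact h2

/-- The norm of `y` when `τ y = a + y`, `τ a = a`, `p` odd and `p • a = 0`. -/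
theorem halg_Nm_shift {A : Type} [AddCommGroup A] (p : ℕ) (hodd : Odd p) (τ : A →ₗ[ℤ] A)
    {a y : A} (ha : τ a = a) (hy : τ y = a + y) (hpa : p • a = 0) :
    (∑ i ∈ Finset.range p, τ ^ i) y = p • y := by
  rw [LinearMap.sum_apply]
  simp only [halg_pow_shift τ ha hy]
  rw [Finset.sum_add_distrib, ← Finset.sum_smul, Finset.sum_const, Finset.card_range]
  obtain ⟨m, hm⟩ := hodd
  have h1 : (∑ i ∈ Finset.range p, i) = p * m := by
    rw [Finset.sum_range_id, hm]
    have : 2 * m + 1 - 1 = m * 2 := by omega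
    rw [this, ← Nat.mul_assoc, Nat.mul_div_cancel _ (by norm_num : 0 < 2)]
  rw [h1, mul_comm, mul_smul, hpa, smul_zero, zero_add]

/-- Steps 3–4 of the plan: the quotient `L` of `A` by the saturation `K` of a `τ`-stable submodule
`U` containing all norms is a lattice on which the norm vanishes; so the lattice statement gives
`p ^ k ≤ [A : (τ - 1) A + K]` when `rank A = rank U + (p - 1) k`. -/
theorem halg_index_quot (hLat : HAlgLatticeStatement) (p : ℕ) [Fact p.Prime]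
    {A : Type} [AddCommGroup A] [Module.Finite ℤ A]
    (τ : A →ₗ[ℤ] A) (U : Submodule ℤ A) (hU : ∀ u ∈ U, τ u ∈ U)
    (hNm : ∀ x, (∑ i ∈ Finset.range p, τ ^ i) x ∈ U)
    (k : ℕ) (hrank : Module.finrank ℤ A = Module.finrank ℤ U + (p - 1) * k) :
    ∃ K : Submodule ℤ A, U ≤ K ∧ (∀ x : A, ∀ n : ℤ, n ≠ 0 → n • x ∈ U → x ∈ K) ∧
      ((LinearMap.range (τ - 1)).toAddSubgroup ⊔ K.toAddSubgroup).index ≠ 0 ∧
      p ^ k ≤ ((LinearMap.range (τ - 1)).toAddSubgroup ⊔ K.toAddSubgroup).index := by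
  classical
  have hUle : U ≤ U.comap τ := fun u hu => hU u hu
  have hTle : Submodule.torsion ℤ (A ⧸ U) ≤
      (Submodule.torsion ℤ (A ⧸ U)).comap (U.mapQ U τ hUle) := by
    intro x hx
    rw [Submodule.mem_comap]
    obtain ⟨n, hn⟩ := (Submodule.mem_torsion_iff x).1 hx
    refine (Submodule.mem_torsion_iff _).2 ⟨n, ?_⟩
    have hn' : (n : ℤ) • x = 0 := hn
    show (n : ℤ) • (U.mapQ U τ hUle) x = 0
    rw [← map_smul, hn', map_zero]
  -- the projection
  have hπsurj : Function.Surjective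
      ((Submodule.torsion ℤ (A ⧸ U)).mkQ ∘ₗ U.mkQ : A →ₗ[ℤ] ((A ⧸ U) ⧸ Submodule.torsion ℤ (A ⧸ U))) :=
    (Submodule.mkQ_surjective _).comp (Submodule.mkQ_surjective U)
  have hcomm : ∀ x : A, ((Submodule.torsion ℤ (A ⧸ U)).mapQ _ (U.mapQ U τ hUle) hTle)
      (((Submodule.torsion ℤ (A ⧸ U)).mkQ ∘ₗ U.mkQ) x) =
      ((Submodule.torsion ℤ (A ⧸ U)).mkQ ∘ₗ U.mkQ) (τ x) := by
    intro x
    simp
  have hcommpow : ∀ (i : ℕ) (x : A),
      (((Submodule.torsion ℤ (A ⧸ U)).mapQ _ (U.mapQ U τ hUle) hTle) ^ i)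
      (((Submodule.torsion ℤ (A ⧸ U)).mkQ ∘ₗ U.mkQ) x) =
      ((Submodule.torsion ℤ (A ⧸ U)).mkQ ∘ₗ U.mkQ) ((τ ^ i) x) := by
    intro i
    induction i with
    | zero => intro x; simp
    | succ i ih =>
      intro x
      rw [pow_succ, Module.End.mul_apply, hcomm, ih, pow_succ, Module.End.mul_apply]
  have hUker : ∀ u ∈ U, ((Submodule.torsion ℤ (A ⧸ U)).mkQ ∘ₗ U.mkQ) u = 0 := by
    intro u hu
    have : U.mkQ u = 0 := by simpa using hu
    rw [LinearMap.comp_apply, this, map_zero]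
  have hsum : (∑ i ∈ Finset.range p,
      ((Submodule.torsion ℤ (A ⧸ U)).mapQ _ (U.mapQ U τ hUle) hTle) ^ i) = 0 := by
    refine LinearMap.ext fun z => ?_
    obtain ⟨x, rfl⟩ := hπsurj z
    rw [LinearMap.sum_apply]
    simp only [hcommpow]
    rw [← map_sum, ← LinearMap.sum_apply, hUker _ (hNm x), LinearMap.zero_apply]
  obtain ⟨h1, h2⟩ := hLat p ((A ⧸ U) ⧸ Submodule.torsion ℤ (A ⧸ U))
    ((Submodule.torsion ℤ (A ⧸ U)).mapQ _ (U.mapQ U τ hUle) hTle) hsum
  -- rank
  have hr1 : Module.finrank ℤ ((A ⧸ U) ⧸ Submodule.torsion ℤ (A ⧸ U)) =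
      Module.finrank ℤ (A ⧸ U) := finrank_quotient_eq_of_le_torsion le_rfl
  have hr2 : Module.finrank ℤ (A ⧸ U) + Module.finrank ℤ U = Module.finrank ℤ A :=
    Submodule.finrank_quotient_add_finrank U
  have hr : Module.finrank ℤ ((A ⧸ U) ⧸ Submodule.torsion ℤ (A ⧸ U)) = (p - 1) * k := by
    omega
  -- the index
  have hrange : (LinearMap.range
      (((Submodule.torsion ℤ (A ⧸ U)).mapQ _ (U.mapQ U τ hUle) hTle) - 1)).toAddSubgroup =
      ((LinearMap.range (τ - 1)).toAddSubgroup).map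
        ((Submodule.torsion ℤ (A ⧸ U)).mkQ ∘ₗ U.mkQ).toAddMonoidHom := by
    ext z
    simp only [Submodule.mem_toAddSubgroup, LinearMap.mem_range, AddSubgroup.mem_map]
    constructor
    · rintro ⟨w, rfl⟩
      obtain ⟨x, rfl⟩ := hπsurj w
      refine ⟨(τ - 1) x, ⟨x, rfl⟩, ?_⟩
      rw [LinearMap.sub_apply, LinearMap.sub_apply, hcomm]
      simp
    · rintro ⟨_, ⟨x, rfl⟩, rfl⟩
      refine ⟨((Submodule.torsion ℤ (A ⧸ U)).mkQ ∘ₗ U.mkQ) x, ?_⟩
      rw [LinearMap.sub_apply, hcomm]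
      simp
  have hidx : (LinearMap.range
      (((Submodule.torsion ℤ (A ⧸ U)).mapQ _ (U.mapQ U τ hUle) hTle) - 1)).toAddSubgroup.index =
      ((LinearMap.range (τ - 1)).toAddSubgroup ⊔
        (LinearMap.ker ((Submodule.torsion ℤ (A ⧸ U)).mkQ ∘ₗ U.mkQ)).toAddSubgroup).index := by
    rw [hrange, AddSubgroup.index_map]
    have hrg : ((Submodule.torsion ℤ (A ⧸ U)).mkQ ∘ₗ U.mkQ).toAddMonoidHom.range = ⊤ :=
      AddMonoidHom.range_eq_top.2 hπsurj
    have hkr : ((Submodule.torsion ℤ (A ⧸ U)).mkQ ∘ₗ U.mkQ).toAddMonoidHom.ker =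
        (LinearMap.ker ((Submodule.torsion ℤ (A ⧸ U)).mkQ ∘ₗ U.mkQ)).toAddSubgroup := by
      ext z
      simp [AddMonoidHom.mem_ker]
    rw [hrg, hkr, AddSubgroup.index_top, mul_one]
  refine ⟨LinearMap.ker ((Submodule.torsion ℤ (A ⧸ U)).mkQ ∘ₗ U.mkQ), ?_, ?_, ?_, ?_⟩
  · intro u hu
    exact LinearMap.mem_ker.2 (hUker u hu)
  · intro x n hn hx
    rw [LinearMap.mem_ker, LinearMap.comp_apply]
    have h3 : U.mkQ x ∈ Submodule.torsion ℤ (A ⧸ U) := by
      refine (Submodule.mem_torsion_iff _).2 ⟨⟨n, mem_nonZeroDivisors_of_ne_zero hn⟩, ?_⟩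
      show n • U.mkQ x = 0
      have h4 : U.mkQ (n • x) = 0 := (Submodule.Quotient.mk_eq_zero U).2 hx
      rw [map_smul] at h4
      exact h4
    simpa using h3
  · rw [← hidx]; exact h1
  · rw [← hidx]
    rw [hr, mul_comm, pow_mul] at h2
    have hp1 : p - 1 ≠ 0 := by
      have := (Fact.out : p.Prime).two_le
      omega
    exact (Nat.pow_le_pow_iff_left hp1).1 h2

/-- (Alg) the index bound for the norm: `[U : V] ≠ 0` and `[U : V] · p ^ k ≤ p ^ rank U`. -/
theorem halg_main : HAlgLatticeStatement → HAlgFGStatement → HAlgStatement := by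
  intro hLat hFG p _ hp3 A _ _ τ hτ hH90 hay k hrank
  obtain ⟨a, y, hτa, ha0, hpt, hτy⟩ := hay
  have hpprime : p.Prime := Fact.out
  have hodd : Odd p := hpprime.odd_of_ne_two (by omega)
  -- Step 1
  have hpa : p • a = 0 := by
    have h1 := halg_pow_shift τ hτa hτy p
    rw [hτ, Module.End.one_apply] at h1
    have h2 : p • a + y = 0 + y := by rw [zero_add]; exact h1.symm
    exact add_right_cancel h2
  have hNy : (∑ i ∈ Finset.range p, τ ^ i) y = p • y := halg_Nm_shift p hodd τ hτa hτy hpa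
  have hτpy : τ (p • y) = p • y := by
    rw [map_nsmul, hτy, smul_add, hpa, zero_add]
  have hmemU : ∀ x : A, x ∈ LinearMap.ker (τ - 1) ↔ τ x = x := by
    intro x
    rw [LinearMap.mem_ker, LinearMap.sub_apply, Module.End.one_apply, sub_eq_zero]
  -- Step 2
  have hy2 : y ∉ (LinearMap.ker (τ - 1)).toAddSubgroup ⊔
      (LinearMap.range (τ - 1)).toAddSubgroup := by
    intro hy
    obtain ⟨u, hu, d, hd, hud⟩ := AddSubgroup.mem_sup.1 hy
    have hu' : τ u = u := (hmemU u).1 hu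
    obtain ⟨z, rfl⟩ := hd
    have h1 : (∑ i ∈ Finset.range p, τ ^ i) y = p • u := by
      rw [← hud, map_add, halg_Nm_fixed p τ hu', LinearMap.sub_apply, Module.End.one_apply,
        halg_Nm_D p τ hτ z, add_zero]
    rw [hNy] at h1
    have h2 : p • (y - u) = 0 := by rw [smul_sub, h1, sub_self]
    obtain ⟨n, hn⟩ := AddSubgroup.mem_zmultiples_iff.1 (hpt _ h2)
    have h3 : τ (y - u) = y - u := by rw [← hn, map_zsmul, hτa]
    rw [map_sub, hτy, hu'] at h3
    apply ha0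
    have h4 : a + (y - u) = 0 + (y - u) := by rw [zero_add, ← add_sub_assoc]; exact h3
    exact add_right_cancel h4
  -- Steps 3–4
  obtain ⟨K, hUK, hKsat, hK1, hK2⟩ := halg_index_quot hLat p τ (LinearMap.ker (τ - 1))
    (fun u hu => by rw [hmemU] at hu ⊢; rw [hu, hu])
    (fun x => (hmemU _).2 (halg_tau_Nm p τ hτ x)) k hrank
  have hyK : y ∈ K := hKsat y (p : ℤ) (by exact_mod_cast hpprime.ne_zero) (by
    rw [natCast_zsmul]; exact (hmemU _).2 hτpy)
  -- Step 6
  obtain ⟨hF1, hF2⟩ := hFG p (LinearMap.ker (τ - 1)) ⟨a, (hmemU a).2 hτa⟩ (by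
    intro b hb
    have hb' : p • (b : A) = 0 := by
      have h1 := congrArg Subtype.val hb
      simpa using h1
    obtain ⟨n, hn⟩ := AddSubgroup.mem_zmultiples_iff.1 (hpt _ hb')
    exact AddSubgroup.mem_zmultiples_iff.2 ⟨n, Subtype.ext (by simpa using hn)⟩)
  have hE : (LinearMap.range ((p : ℤ) • (LinearMap.id :
        (LinearMap.ker (τ - 1)) →ₗ[ℤ] (LinearMap.ker (τ - 1))))).toAddSubgroup =
      (((LinearMap.ker (τ - 1)).toAddSubgroup.map
        (∑ i ∈ Finset.range p, τ ^ i).toAddMonoidHom).comap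
          (LinearMap.ker (τ - 1)).subtype.toAddMonoidHom) := by
    ext x
    rw [Submodule.mem_toAddSubgroup, LinearMap.mem_range, AddSubgroup.mem_comap,
      AddSubgroup.mem_map]
    constructor
    · rintro ⟨w, rfl⟩
      refine ⟨w.1, w.2, ?_⟩
      have h1 := halg_Nm_fixed p τ ((hmemU _).1 w.2)
      simpa using h1
    · rintro ⟨u, hu, hux⟩
      refine ⟨⟨u, hu⟩, Subtype.ext ?_⟩
      have h1 := halg_Nm_fixed p τ ((hmemU _).1 hu)
      have h2 : p • u = (x : A) := by rw [← h1]; exact hux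
      simpa using h2
  have hrgU : (LinearMap.ker (τ - 1)).subtype.toAddMonoidHom.range =
      (LinearMap.ker (τ - 1)).toAddSubgroup := by
    ext x
    simp
  rw [hE, AddSubgroup.index_comap, hrgU] at hF1 hF2
  -- Steps 5, 7
  have hVU : (LinearMap.range (∑ i ∈ Finset.range p, τ ^ i)).toAddSubgroup ≤
      (LinearMap.ker (τ - 1)).toAddSubgroup := by
    rintro _ ⟨x, rfl⟩
    exact (hmemU _).2 (halg_tau_Nm p τ hτ x)
  have hVtop : (LinearMap.range (∑ i ∈ Finset.range p, τ ^ i)).toAddSubgroup =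
      (⊤ : AddSubgroup A).map (∑ i ∈ Finset.range p, τ ^ i).toAddMonoidHom := by
    ext z
    simp
  have hpUV : (LinearMap.ker (τ - 1)).toAddSubgroup.map
      (∑ i ∈ Finset.range p, τ ^ i).toAddMonoidHom ≤
      (LinearMap.range (∑ i ∈ Finset.range p, τ ^ i)).toAddSubgroup := by
    rw [hVtop]; exact AddSubgroup.map_mono le_top
  have hmul := AddSubgroup.relIndex_mul_relIndex _ _ _ hpUV hVU
  have hker : (∑ i ∈ Finset.range p, τ ^ i).toAddMonoidHom.ker =
      (LinearMap.range (τ - 1)).toAddSubgroup := by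
    ext x
    rw [AddMonoidHom.mem_ker, Submodule.mem_toAddSubgroup, LinearMap.mem_range]
    constructor
    · intro hx
      obtain ⟨z, hz⟩ := hH90 x hx
      exact ⟨z, by rw [LinearMap.sub_apply, Module.End.one_apply]; exact hz.symm⟩
    · rintro ⟨z, rfl⟩
      rw [LinearMap.sub_apply, Module.End.one_apply]
      exact halg_Nm_D p τ hτ z
  have hrel : ((LinearMap.ker (τ - 1)).toAddSubgroup.map
      (∑ i ∈ Finset.range p, τ ^ i).toAddMonoidHom).relIndex
      (LinearMap.range (∑ i ∈ Finset.range p, τ ^ i)).toAddSubgroup =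
      ((LinearMap.ker (τ - 1)).toAddSubgroup ⊔ (LinearMap.range (τ - 1)).toAddSubgroup).index := by
    rw [hVtop, AddSubgroup.relIndex_map_map, hker, top_sup_eq, AddSubgroup.relIndex_top_right]
  -- Step 4 (second half)
  have hle : (LinearMap.ker (τ - 1)).toAddSubgroup ⊔ (LinearMap.range (τ - 1)).toAddSubgroup ≤
      (LinearMap.range (τ - 1)).toAddSubgroup ⊔ K.toAddSubgroup :=
    sup_le (le_sup_of_le_right (fun x hx => hUK hx)) le_sup_left
  have hmul2 := AddSubgroup.relIndex_mul_index hle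
  have hdvd : p ∣ ((LinearMap.ker (τ - 1)).toAddSubgroup ⊔
      (LinearMap.range (τ - 1)).toAddSubgroup).relIndex
      ((LinearMap.range (τ - 1)).toAddSubgroup ⊔ K.toAddSubgroup) := by
    have hyW : y ∈ (LinearMap.range (τ - 1)).toAddSubgroup ⊔ K.toAddSubgroup :=
      (le_sup_right : K.toAddSubgroup ≤ _) hyK
    have hg1 : p • (QuotientAddGroup.mk (⟨y, hyW⟩ :
        ↥((LinearMap.range (τ - 1)).toAddSubgroup ⊔ K.toAddSubgroup)) :
        _ ⧸ (((LinearMap.ker (τ - 1)).toAddSubgroup ⊔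
          (LinearMap.range (τ - 1)).toAddSubgroup).addSubgroupOf
          ((LinearMap.range (τ - 1)).toAddSubgroup ⊔ K.toAddSubgroup))) = 0 := by
      rw [← QuotientAddGroup.mk_nsmul, QuotientAddGroup.eq_zero_iff,
        AddSubgroup.mem_addSubgroupOf]
      exact (le_sup_left : (LinearMap.ker (τ - 1)).toAddSubgroup ≤ _) ((hmemU _).2 hτpy)
    have hg2 : (QuotientAddGroup.mk (⟨y, hyW⟩ :
        ↥((LinearMap.range (τ - 1)).toAddSubgroup ⊔ K.toAddSubgroup)) :
        _ ⧸ (((LinearMap.ker (τ - 1)).toAddSubgroup ⊔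
          (LinearMap.range (τ - 1)).toAddSubgroup).addSubgroupOf
          ((LinearMap.range (τ - 1)).toAddSubgroup ⊔ K.toAddSubgroup))) ≠ 0 := by
      intro h
      rw [QuotientAddGroup.eq_zero_iff, AddSubgroup.mem_addSubgroupOf] at h
      exact hy2 h
    have h3 := addOrderOf_eq_prime hg1 hg2
    rw [← h3]
    exact addOrderOf_dvd_natCard _
  -- arithmetic
  have ht0 := hF1
  rw [← hmul] at ht0
  have ha1 := left_ne_zero_of_mul ht0
  have ha2 := right_ne_zero_of_mul ht0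
  rw [hrel, ← hmul2] at ha1
  have hc0 := left_ne_zero_of_mul ha1
  have hpc := Nat.le_of_dvd (Nat.pos_of_ne_zero hc0) hdvd
  have h5 := Nat.mul_le_mul hpc hK2
  rw [hmul2, ← hrel] at h5
  refine ⟨ha2, ?_⟩
  have h6 : (LinearMap.range (∑ i ∈ Finset.range p, τ ^ i)).toAddSubgroup.relIndex
      (LinearMap.ker (τ - 1)).toAddSubgroup * p ^ k * p ≤
      p ^ Module.finrank ℤ (LinearMap.ker (τ - 1)) * p := by
    rw [← pow_succ]
    refine le_trans ?_ hF2
    rw [← hmul, mul_assoc, mul_comm (p ^ k) p, mul_comm]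
    exact Nat.mul_le_mul_right _ h5
  exact Nat.le_of_mul_le_mul_right h6 hpprime.pos

end Fermat.Agent.S14
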