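/-
S14, block H, package AlgFG: for a finitely generated abelian group `A` whose `p`-torsion is
contained in a cyclic subgroup, `[A : pA]` is finite and `≤ p ^ (rank A + 1)`.
-/
import Mathlib
import Fermat.Agent.S14.HInterfaces

set_option autoImplicit false

namespace Fermat.Agent.S14

/-- In a finite additive commutative group, `[G : nG] = |G[n]|`. -/
theorem halgf_index_range_eq_card_ker (G : Type) [AddCommGroup G] [Finite G] (n : ℕ) :
    (nsmulAddMonoidHom (α := G) n).range.index =
      Nat.card (nsmulAddMonoidHom (α := G) n).ker := by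
  have h1 := AddSubgroup.card_mul_index (nsmulAddMonoidHom (α := G) n).ker
  have h2 := AddSubgroup.card_mul_index (nsmulAddMonoidHom (α := G) n).range
  have h3 := AddSubgroup.index_ker (nsmulAddMonoidHom (α := G) n)
  have h4 : 0 < Nat.card (nsmulAddMonoidHom (α := G) n).range := Nat.card_pos
  rw [h3] at h1
  have h5 : Nat.card (nsmulAddMonoidHom (α := G) n).range *
        (nsmulAddMonoidHom (α := G) n).range.index =
      Nat.card (nsmulAddMonoidHom (α := G) n).range *
        Nat.card (nsmulAddMonoidHom (α := G) n).ker := by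
    rw [h2, ← h1, mul_comm]
  exact Nat.eq_of_mul_eq_mul_left h4 h5

/-- A group killed by `p` which embeds into a cyclic group has order dividing `p`. -/
theorem halgf_card_dvd (p : ℕ) (A : Type) [AddCommGroup A] (a : A) (K : Type) [AddCommGroup K]
    (φ : K →+ A) (hφ : Function.Injective φ) (hK : ∀ k : K, φ k ∈ AddSubgroup.zmultiples a)
    (hp : ∀ k : K, p • k = 0) : Nat.card K ∣ p := by
  have : IsAddCyclic K := by
    refine isAddCyclic_of_injective (φ.codRestrict (AddSubgroup.zmultiples a) hK) ?_
    intro x y hxy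
    apply hφ
    exact congrArg Subtype.val hxy
  obtain ⟨g, hg⟩ := IsAddCyclic.exists_generator (α := K)
  rw [← addOrderOf_eq_card_of_forall_mem_zmultiples hg]
  exact addOrderOf_dvd_of_nsmul_eq_zero (hp g)

theorem halgf_main : HAlgFGStatement := by
  intro p hp A _ _ a ha
  have hp0 : p ≠ 0 := hp.out.ne_zero
  -- the torsion submodule and the (free) quotient by it
  let T : Submodule ℤ A := Submodule.torsion ℤ A
  have hfree : Module.Free ℤ (A ⧸ T) := inferInstance
  have hr : Module.finrank ℤ (A ⧸ T) = Module.finrank ℤ A :=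
    finrank_quotient_eq_of_le_torsion le_rfl
  have hB : (nsmulAddMonoidHom (α := A ⧸ T) p).range.index = p ^ Module.finrank ℤ A := by
    rw [AddSubgroup.index_range_nsmul, hr]
  -- `P = pA`
  set P : AddSubgroup A :=
    (LinearMap.range ((p : ℤ) • (LinearMap.id : A →ₗ[ℤ] A))).toAddSubgroup with hP
  have hPmem : ∀ x : A, x ∈ P ↔ ∃ y : A, p • y = x := by
    intro x
    simp [hP]
  -- `P ⊔ T` is the preimage of `p (A/T)`
  have hcomap : P ⊔ T.toAddSubgroup =
      (nsmulAddMonoidHom (α := A ⧸ T) p).range.comap (T.mkQ : A →ₗ[ℤ] A ⧸ T).toAddMonoidHom := by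
    ext x
    rw [AddSubgroup.mem_sup, AddSubgroup.mem_comap]
    constructor
    · rintro ⟨y, hy, z, hz, rfl⟩
      obtain ⟨w, rfl⟩ := (hPmem y).1 hy
      refine ⟨T.mkQ w, ?_⟩
      have hz' : T.mkQ z = 0 := by
        rw [Submodule.mkQ_apply, Submodule.Quotient.mk_eq_zero]
        exact hz
      simp only [nsmulAddMonoidHom_apply, LinearMap.toAddMonoidHom_coe, map_add, map_nsmul, hz',
        add_zero]
    · rintro ⟨b, hb⟩
      obtain ⟨w, rfl⟩ := Submodule.mkQ_surjective T b
      refine ⟨p • w, (hPmem _).2 ⟨w, rfl⟩, x - p • w, ?_, by abel⟩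
      change x - p • w ∈ T
      rw [← Submodule.Quotient.mk_eq_zero, Submodule.Quotient.mk_sub, sub_eq_zero]
      simp only [nsmulAddMonoidHom_apply, LinearMap.toAddMonoidHom_coe] at hb
      rw [← Submodule.mkQ_apply, ← Submodule.mkQ_apply, ← hb, map_nsmul]
  have hidx : (P ⊔ T.toAddSubgroup).index = p ^ Module.finrank ℤ A := by
    rw [hcomap, AddSubgroup.index_comap_of_surjective _ (Submodule.mkQ_surjective T)]
    exact hB
  -- the torsion part
  have hTfin : Finite T :=
    Module.finite_of_fg_torsion T (Submodule.torsion_isTorsion (R := ℤ) (M := A))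
  have hrel : P.relIndex T.toAddSubgroup ∣ p := by
    have hle : (nsmulAddMonoidHom (α := T) p).range ≤ P.addSubgroupOf T.toAddSubgroup := by
      rintro x ⟨t, rfl⟩
      rw [AddSubgroup.mem_addSubgroupOf]
      exact (hPmem _).2 ⟨(t : A), rfl⟩
    have h1 : P.relIndex T.toAddSubgroup ∣ (nsmulAddMonoidHom (α := T) p).range.index :=
      AddSubgroup.index_dvd_of_le hle
    rw [halgf_index_range_eq_card_ker] at h1
    refine h1.trans ?_
    refine halgf_card_dvd p A a _ (T.subtype.toAddMonoidHom.comp
      (nsmulAddMonoidHom (α := T) p).ker.subtype) ?_ ?_ ?_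
    · intro x y hxy
      exact Subtype.ext (Subtype.ext hxy)
    · intro k
      apply ha
      have hk : p • (k : T) = 0 := k.2
      have hk' : T.subtype (p • (k : T)) = T.subtype 0 := congrArg T.subtype hk
      rw [map_nsmul, map_zero] at hk'
      exact hk'
    · intro k
      apply Subtype.ext
      have hk : p • (k : T) = 0 := k.2
      rw [AddSubgroup.coe_nsmul, AddSubgroup.coe_zero]
      exact hk
  have hmain : P.index = P.relIndex T.toAddSubgroup * p ^ Module.finrank ℤ A := by
    rw [← hidx, ← AddSubgroup.relIndex_sup_left T.toAddSubgroup P,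
      AddSubgroup.relIndex_mul_index le_sup_left]
  have hrel0 : P.relIndex T.toAddSubgroup ≠ 0 := fun h0 => hp0 (by
    rw [h0] at hrel
    exact Nat.eq_zero_of_zero_dvd hrel)
  have hrelle : P.relIndex T.toAddSubgroup ≤ p := Nat.le_of_dvd hp.out.pos hrel
  refine ⟨?_, ?_⟩
  · rw [hmain]
    exact mul_ne_zero hrel0 (pow_ne_zero _ hp0)
  · rw [hmain, pow_succ, mul_comm]
    exact Nat.mul_le_mul_left _ hrelle

end Fermat.Agent.S14
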