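/-
S14, block H, package AlgLattice: `halgl_main : HAlgLatticeStatement`.

`L` a free `ℤ`-module of finite rank `r`, `τ ∈ End L` with `1 + τ + … + τ^(p-1) = 0`, `D = τ - 1`.
Then `[L : D L] = |det D|`, `D` divides `p` in `ℤ[τ]` (so `det D ≠ 0`), and `D^(p-1) ∈ p ℤ[τ]`
(so `p^r ∣ det D ^ (p-1)`).
-/
import Mathlib
import Fermat.Agent.S14.HInterfaces

set_option autoImplicit false

namespace Fermat.Agent.S14

/-- In `ℤ[X]`: `(X - 1)^(p-1) = (1 + X + … + X^(p-1)) + p * Q`. -/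
theorem halgl_poly (p : ℕ) [Fact p.Prime] :
    ∃ Q : Polynomial ℤ, (Polynomial.X - 1 : Polynomial ℤ) ^ (p - 1) =
      (∑ i ∈ Finset.range p, (Polynomial.X : Polynomial ℤ) ^ i) + Polynomial.C (p : ℤ) * Q := by
  have hp : p.Prime := Fact.out
  have hp1 : p - 1 + 1 = p := Nat.sub_add_cancel hp.one_le
  have h0 : ((Polynomial.X - 1 : Polynomial ℤ) ^ (p - 1) -
      ∑ i ∈ Finset.range p, (Polynomial.X : Polynomial ℤ) ^ i).map (Int.castRingHom (ZMod p)) = 0 := by
    have hX : (Polynomial.X - 1 : Polynomial (ZMod p)) ≠ 0 := by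
      have := Polynomial.X_sub_C_ne_zero (1 : ZMod p)
      simpa using this
    apply mul_left_cancel₀ hX
    rw [mul_zero]
    simp only [Polynomial.map_sub, Polynomial.map_pow, Polynomial.map_X, Polynomial.map_one,
      Polynomial.map_sum]
    rw [mul_sub, ← pow_succ', hp1, mul_geom_sum, sub_pow_char, one_pow, sub_self]
  have hdvd : Polynomial.C (p : ℤ) ∣ ((Polynomial.X - 1 : Polynomial ℤ) ^ (p - 1) -
      ∑ i ∈ Finset.range p, (Polynomial.X : Polynomial ℤ) ^ i) := by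
    rw [Polynomial.C_dvd_iff_dvd_coeff]
    intro i
    have := congrArg (fun q => Polynomial.coeff q i) h0
    simp only [Polynomial.coeff_map, Polynomial.coeff_zero] at this
    exact (ZMod.intCast_zmod_eq_zero_iff_dvd _ p).mp this
  obtain ⟨Q, hQ⟩ := hdvd
  exact ⟨Q, by rw [← hQ]; ring⟩

/-- In `ℤ[X]`: `(1 + X + … + X^(p-1)) - p = (X - 1) * E`. -/
theorem halgl_poly' (p : ℕ) :
    ∃ E : Polynomial ℤ, (∑ i ∈ Finset.range p, (Polynomial.X : Polynomial ℤ) ^ i) -
      Polynomial.C (p : ℤ) = (Polynomial.X - 1) * E := by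
  have h := Polynomial.X_sub_C_dvd_sub_C_eval (a := (1 : ℤ))
    (p := ∑ i ∈ Finset.range p, (Polynomial.X : Polynomial ℤ) ^ i)
  have h1 : Polynomial.eval (1 : ℤ) (∑ i ∈ Finset.range p, (Polynomial.X : Polynomial ℤ) ^ i)
      = (p : ℤ) := by
    simp [Polynomial.eval_finsetSum]
  rw [h1] at h
  obtain ⟨E, hE⟩ := h
  exact ⟨E, by rw [hE]; simp⟩

theorem halgl_main : HAlgLatticeStatement := by
  intro p _ L _ _ _ τ hτ
  have hp : p.Prime := Fact.out
  obtain ⟨Q, hQ⟩ := halgl_poly p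
  obtain ⟨E, hE⟩ := halgl_poly' p
  have h1 : Polynomial.aeval τ (Polynomial.X - 1 : Polynomial ℤ) = τ - 1 := by simp
  have h2 : Polynomial.aeval τ (∑ i ∈ Finset.range p, (Polynomial.X : Polynomial ℤ) ^ i) = 0 := by
    simpa using hτ
  have h3 : (τ - 1) ^ (p - 1) = (p : ℤ) • Polynomial.aeval τ Q := by
    have h := congrArg (Polynomial.aeval τ) hQ
    rw [map_pow, h1, map_add, h2, zero_add, map_mul] at h
    rw [h, Polynomial.aeval_C, Algebra.smul_def]
  have h4 : (τ - 1) * (- Polynomial.aeval τ E) = (p : ℤ) • (1 : Module.End ℤ L) := by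
    have h := congrArg (Polynomial.aeval τ) hE
    rw [map_sub, h2, zero_sub, map_mul, h1, Polynomial.aeval_C] at h
    rw [mul_neg, ← h, neg_neg, Algebra.smul_def, mul_one]
  have h5 : (- Polynomial.aeval τ E) * (τ - 1) = (p : ℤ) • (1 : Module.End ℤ L) := by
    rw [← h4, ← h1, ← map_neg, ← map_mul, ← map_mul, mul_comm]
  have hpz : ((p : ℤ) ^ Module.finrank ℤ L) ≠ 0 := pow_ne_zero _ (by exact_mod_cast hp.ne_zero)
  have hdet1 : LinearMap.det (τ - 1) * LinearMap.det (- Polynomial.aeval τ E) =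
      (p : ℤ) ^ Module.finrank ℤ L := by
    rw [← map_mul, h4, LinearMap.det_smul, map_one, mul_one]
  have hdet2 : LinearMap.det (τ - 1) ^ (p - 1) =
      (p : ℤ) ^ Module.finrank ℤ L * LinearMap.det (Polynomial.aeval τ Q) := by
    rw [← map_pow, h3, LinearMap.det_smul]
  have hdetne : LinearMap.det (τ - 1) ≠ 0 := by
    intro h
    rw [h, zero_mul] at hdet1
    exact hpz hdet1.symm
  have hinj : Function.Injective (⇑(τ - 1 : L →ₗ[ℤ] L)) := by
    rw [← LinearMap.ker_eq_bot, LinearMap.ker_eq_bot']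
    intro x hx
    have h := congrArg (fun f : Module.End ℤ L => f x) h5
    simp only [Module.End.mul_apply, hx, map_zero, LinearMap.smul_apply, Module.End.one_apply] at h
    have hpz' : (p : ℤ) ≠ 0 := by exact_mod_cast hp.ne_zero
    exact (smul_eq_zero.mp h.symm).resolve_left hpz'
  have hidx : (LinearMap.range (τ - 1)).toAddSubgroup.index = (LinearMap.det (τ - 1)).natAbs := by
    have h := Submodule.natAbs_det_equiv (LinearMap.range (τ - 1))
      (LinearEquiv.ofInjective (τ - 1) hinj)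
    have h' : (LinearMap.range (τ - 1)).subtype ∘ₗ
        AddMonoidHom.toIntLinearMap ((LinearEquiv.ofInjective (τ - 1) hinj : L →+ _)) = τ - 1 := by
      ext x
      simp
    rw [h'] at h
    rw [h]
    rfl
  refine ⟨?_, ?_⟩
  · rw [hidx]
    exact Int.natAbs_ne_zero.mpr hdetne
  · rw [hidx, ← Int.natAbs_pow]
    have hdvd : ((p : ℤ) ^ Module.finrank ℤ L) ∣ LinearMap.det (τ - 1) ^ (p - 1) :=
      ⟨_, hdet2⟩
    have hne : LinearMap.det (τ - 1) ^ (p - 1) ≠ 0 := pow_ne_zero _ hdetne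
    have h := Int.natAbs_dvd_natAbs.mpr hdvd
    rw [Int.natAbs_pow, Int.natAbs_natCast] at h
    exact Nat.le_of_dvd (Nat.pos_of_ne_zero (Int.natAbs_ne_zero.mpr hne)) h

end Fermat.Agent.S14
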