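/-
S14, block H, package Final: the counting argument deducing G1-tame (for a good modulus `𝔪`) from
the index bound.  Owner: helper210.

Main theorem: `hfin_main : HTameStatement → HInertStatement → HRealStatement →
  HRankPrimesStatement → HFinalStatement`.
-/
import Mathlib
import Fermat.Agent.S14.HInterfaces

set_option autoImplicit false

open NumberField

namespace Fermat.Agent.S14

/-- If `(x) = v ^ m * 𝔟` with `v ∤ 𝔟`, then the `v`-adic valuation of `x` is `exp (-m)`. -/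
theorem hfin_intValuation_eq {R : Type} [CommRing R] [IsDedekindDomain R]
    (v : IsDedekindDomain.HeightOneSpectrum R) (x : R) (m : ℕ) (𝔟 : Ideal R)
    (h : Ideal.span {x} = v.asIdeal ^ m * 𝔟) (hb : ¬ 𝔟 ≤ v.asIdeal) :
    v.intValuation x = WithZero.exp (-(m : ℤ)) := by
  have hx : x ≠ 0 := by
    rintro rfl
    apply hb
    have h0 : v.asIdeal ^ m * 𝔟 = ⊥ := by rw [← h]; simp
    rcases mul_eq_zero.mp h0 with h1 | h1
    · exact absurd h1 (pow_ne_zero _ v.ne_bot)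
    · rw [h1]; exact bot_le
  rw [v.intValuation_eq_exp_neg_multiplicity hx]
  have hm : multiplicity v.asIdeal (Ideal.span {x}) = m := by
    apply multiplicity_eq_of_dvd_of_not_dvd
    · exact Dvd.intro _ h.symm
    · rw [h, pow_succ]
      intro hd
      have h2 := (mul_dvd_mul_iff_left (pow_ne_zero m v.ne_bot)).mp hd
      exact hb (Ideal.dvd_iff_le.mp h2)
  rw [hm]

/-- If every ideal norm from `N` has `v`-adic valuation divisible by `p`, then so has the norm of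
every element of `Nˣ`. -/
theorem hfin_norm_val (p : ℕ) (F N : Type) [Field F] [NumberField F] [Field N] [NumberField N]
    [Algebra F N] (v : IsDedekindDomain.HeightOneSpectrum (𝓞 F))
    (hI : ∀ 𝔄 : Ideal (𝓞 N), 𝔄 ≠ ⊥ → ∃ (n : ℕ) (𝔟 : Ideal (𝓞 F)),
      Ideal.relNorm (𝓞 F) 𝔄 = v.asIdeal ^ (p * n) * 𝔟 ∧ ¬ 𝔟 ≤ v.asIdeal)
    (w : Nˣ) :
    ∃ j : ℤ, v.valuation F (Algebra.norm F (w : N)) = WithZero.exp ((p : ℤ) * j) := by
  obtain ⟨a, b, hb, hab⟩ := IsFractionRing.div_surjective (A := 𝓞 N) (w : N)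
  have hb0 : b ≠ 0 := nonZeroDivisors.ne_zero hb
  have ha0 : a ≠ 0 := by
    rintro rfl
    rw [map_zero, zero_div] at hab
    exact w.ne_zero hab.symm
  obtain ⟨na, 𝔟a, h1, h2⟩ := hI (Ideal.span {a}) (by simpa using ha0)
  obtain ⟨nb, 𝔟b, h3, h4⟩ := hI (Ideal.span {b}) (by simpa using hb0)
  rw [Ideal.relNorm_singleton] at h1 h3
  have e1 := hfin_intValuation_eq v _ _ _ h1 h2
  have e2 := hfin_intValuation_eq v _ _ _ h3 h4
  refine ⟨(nb : ℤ) - na, ?_⟩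
  rw [← hab, div_eq_mul_inv, map_mul, Algebra.norm_inv, ← div_eq_mul_inv,
    ← Algebra.algebraMap_intNorm (A := 𝓞 F) (K := F) (B := 𝓞 N) (L := N),
    ← Algebra.algebraMap_intNorm (A := 𝓞 F) (K := F) (B := 𝓞 N) (L := N), map_div₀,
    IsDedekindDomain.HeightOneSpectrum.valuation_of_algebraMap,
    IsDedekindDomain.HeightOneSpectrum.valuation_of_algebraMap, e1, e2, ← WithZero.exp_sub]
  congr 1
  push_cast
  ring

/-- The character `u ↦ - ord_v u mod p` of `Fˣ`. -/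
noncomputable def hfin_valChar (p : ℕ) (F : Type) [Field F] [NumberField F]
    (v : IsDedekindDomain.HeightOneSpectrum (𝓞 F)) : Fˣ →* Multiplicative (ZMod p) where
  toFun u := Multiplicative.ofAdd ((WithZero.log (v.valuation F (u : F)) : ℤ) : ZMod p)
  map_one' := by simp
  map_mul' a b := by
    have ha : v.valuation F (a : F) ≠ 0 := (Valuation.ne_zero_iff _).mpr a.ne_zero
    have hb : v.valuation F (b : F) ≠ 0 := (Valuation.ne_zero_iff _).mpr b.ne_zero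
    rw [Units.val_mul, map_mul, WithZero.log_mul ha hb, Int.cast_add, ofAdd_add]

/-- The tame primes divide `𝔪` and do not split completely. -/
theorem hfin_tame_sub (p : ℕ) [Fact p.Prime]
    (F N : Type) [Field F] [NumberField F] [Field N] [NumberField N] [Algebra F N]
    (ζ : F) (x₀ : 𝓞 F) (y : N) (τ : N ≃ₐ[F] N) (hctx : HCtx p F N ζ x₀ y τ)
    (𝔪 : Ideal (𝓞 F)) (hσ : HSigmaOK F N x₀ 𝔪) :
    tameSet p F x₀ ⊆ hNonsplit F N 𝔪 := by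
  intro 𝔮 h𝔮
  have h𝔮' := h𝔮
  obtain ⟨hprime, hne, hp, n, hn1, hn2, hn3⟩ := h𝔮'
  refine ⟨hprime, ?_, ?_⟩
  · have hn0 : n ≠ 0 := by
      rintro rfl
      exact hn3 (dvd_zero p)
    have hx : x₀ ∈ 𝔮 := Ideal.pow_le_self hn0 hn1
    exact hσ.2.1.trans ((Ideal.span_singleton_le_iff_mem _).mpr hx)
  · intro hsplit
    have := hprime
    obtain ⟨⟨𝔔, h𝔔⟩⟩ := (inferInstance : Nonempty (𝔮.primesOver (𝓞 N)))
    have h1 := (hsplit 𝔔 h𝔔).1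
    have h2 := hctx.2.2.2.2.2.2.2.2.2.2 𝔮 h𝔮 𝔔 h𝔔
    rw [h2] at h1
    exact (Fact.out : p.Prime).one_lt.ne' h1

/-- For each nonsplit prime `𝔮` dividing `𝔪` there is a character of `Fˣ` which is trivial on
norms; at the tame primes it is the norm residue character of `HTameStatement`, elsewhere it is
the valuation modulo `p`. -/
theorem hfin_char_exists (hT : HTameStatement) (hI : HInertStatement) (p : ℕ) [Fact p.Prime]
    (F N : Type) [Field F] [NumberField F] [Field N] [NumberField N] [Algebra F N]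
    (ζ : F) (x₀ : 𝓞 F) (y : N) (τ : N ≃ₐ[F] N) (hctx : HCtx p F N ζ x₀ y τ)
    (𝔪 : Ideal (𝓞 F)) (hσ : HSigmaOK F N x₀ 𝔪) (𝔮 : Ideal (𝓞 F))
    (h𝔮 : 𝔮 ∈ hNonsplit F N 𝔪) :
    ∃ ψ : Fˣ →* Multiplicative (ZMod p),
      (∀ w : Nˣ, ψ (Units.map (Algebra.norm F : N →* F) w) = 1) ∧
      (𝔮 ∈ tameSet p F x₀ →
        (∀ (β₁ β₂ : 𝓞 F) (u : Fˣ), β₁ ∉ 𝔮 → β₂ ∉ 𝔮 → (∃ c : 𝓞 F, β₁ - c ^ p * β₂ ∈ 𝔮) →
          (u : F) * (β₂ : F) = (β₁ : F) → ψ u = 1) ∧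
        (∀ t : Multiplicative (ZMod p), ∃ (a : 𝓞 F) (u : Fˣ),
          a ∉ 𝔮 ∧ (u : F) = (a : F) ∧ ψ u = t)) ∧
      (𝔮 ∉ tameSet p F x₀ → ∃ v : IsDedekindDomain.HeightOneSpectrum (𝓞 F), v.asIdeal = 𝔮 ∧
        ∀ u : Fˣ, ψ u =
          Multiplicative.ofAdd ((WithZero.log (v.valuation F (u : F)) : ℤ) : ZMod p)) := by
  by_cases hq : 𝔮 ∈ tameSet p F x₀
  · obtain ⟨χ, h1, h2, h3⟩ := hT p F N ζ x₀ y τ hctx 𝔮 hq
    exact ⟨χ, h1, fun _ => ⟨h2, h3⟩, fun hn => absurd hq hn⟩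
  · obtain ⟨hprime, hle, hns⟩ := h𝔮
    have hne : 𝔮 ≠ ⊥ := by
      rintro rfl
      exact hσ.1 (le_bot_iff.mp hle)
    have : IsGalois F N := hctx.2.2.2.2.2.2.2.1
    have hunr : ∀ 𝔔 ∈ 𝔮.primesOver (𝓞 N), 𝔔.ramificationIdx (𝓞 F) = 1 := by
      intro 𝔔 h𝔔
      have hne' : 𝔔 ≠ ⊥ := Ideal.ne_bot_of_mem_primesOver hne h𝔔
      have hun : 𝔔.under (𝓞 F) = 𝔮 := h𝔔.2.over.symm
      exact hctx.2.2.2.2.2.2.1 𝔔 h𝔔.1 hne' (by rw [hun]; exact hq)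
    have hin := hI p F N hctx.2.2.1 𝔮 hprime hne hunr hns
    let v : IsDedekindDomain.HeightOneSpectrum (𝓞 F) := ⟨𝔮, hprime, hne⟩
    refine ⟨hfin_valChar p F v, ?_, fun h => absurd h hq, fun _ => ⟨v, rfl, fun u => rfl⟩⟩
    intro w
    obtain ⟨j, hj⟩ := hfin_norm_val p F N v hin w
    show Multiplicative.ofAdd ((WithZero.log (v.valuation F
      ((Units.map (Algebra.norm F : N →* F) w : Fˣ) : F)) : ℤ) : ZMod p) = 1
    rw [Units.coe_map, hj, WithZero.log_exp]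
    simp

/-- Counting: if `V ≤ ker Λ` and `Λ` maps `U` onto `J → ℤ/p`, then `p ^ #J ∣ [U : V ∩ U]`. -/
theorem hfin_count (p : ℕ) [Fact p.Prime] {G J : Type} [CommGroup G] [Finite J]
    (U V : Subgroup G) (Λ : G →* (J → Multiplicative (ZMod p))) (hV : V ≤ Λ.ker)
    (hsurj : ∀ t : J → Multiplicative (ZMod p), ∃ u ∈ U, Λ u = t) :
    p ^ Nat.card J ∣ V.relIndex U := by
  have h1 : Λ.ker.relIndex U = p ^ Nat.card J := by
    rw [Subgroup.relIndex_ker]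
    have h2 : U.map Λ = ⊤ := by
      rw [eq_top_iff]
      intro t _
      obtain ⟨u, hu, hut⟩ := hsurj t
      exact ⟨u, hu, hut⟩
    rw [h2, Subgroup.card_top, Nat.card_fun, Nat.card_congr Multiplicative.toAdd,
      Nat.card_zmod]
  rw [← h1]
  exact Subgroup.relIndex_dvd_of_le_left U hV

/-- Realisation: the family of characters maps the `Σ`-units onto `J → ℤ/p`. -/
theorem hfin_realise (hR : HRealStatement) (p : ℕ) [Fact p.Prime]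
    (F N : Type) [Field F] [NumberField F] [Field N] [NumberField N] [Algebra F N]
    (ζ : F) (x₀ : 𝓞 F) (y : N) (τ : N ≃ₐ[F] N) (hctx : HCtx p F N ζ x₀ y τ)
    (𝔪 : Ideal (𝓞 F)) (hσ : HSigmaOK F N x₀ 𝔪) (hall : HAllNorms p F N x₀)
    (ψ : ↥(hNonsplit F N 𝔪) → (Fˣ →* Multiplicative (ZMod p)))
    (hψ : ∀ 𝔮 : ↥(hNonsplit F N 𝔪),
      (∀ w : Nˣ, ψ 𝔮 (Units.map (Algebra.norm F : N →* F) w) = 1) ∧
      ((𝔮 : Ideal (𝓞 F)) ∈ tameSet p F x₀ →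
        (∀ (β₁ β₂ : 𝓞 F) (u : Fˣ), β₁ ∉ (𝔮 : Ideal (𝓞 F)) → β₂ ∉ (𝔮 : Ideal (𝓞 F)) →
          (∃ c : 𝓞 F, β₁ - c ^ p * β₂ ∈ (𝔮 : Ideal (𝓞 F))) →
          (u : F) * (β₂ : F) = (β₁ : F) → ψ 𝔮 u = 1) ∧
        (∀ t : Multiplicative (ZMod p), ∃ (a : 𝓞 F) (u : Fˣ),
          a ∉ (𝔮 : Ideal (𝓞 F)) ∧ (u : F) = (a : F) ∧ ψ 𝔮 u = t)) ∧
      ((𝔮 : Ideal (𝓞 F)) ∉ tameSet p F x₀ →
        ∃ v : IsDedekindDomain.HeightOneSpectrum (𝓞 F), v.asIdeal = (𝔮 : Ideal (𝓞 F)) ∧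
        ∀ u : Fˣ, ψ 𝔮 u =
          Multiplicative.ofAdd ((WithZero.log (v.valuation F (u : F)) : ℤ) : ZMod p)))
    (t : ↥(hNonsplit F N 𝔪) → Multiplicative (ZMod p)) :
    ∃ u ∈ hUF F 𝔪, ∀ 𝔮 : ↥(hNonsplit F N 𝔪), ψ 𝔮 u = t 𝔮 := by
  have hTJ := hfin_tame_sub p F N ζ x₀ y τ hctx 𝔪 hσ
  have hp : NeZero p := ⟨(Fact.out : p.Prime).ne_zero⟩
  -- the residues at the tame primes
  have hex : ∀ 𝔮 : Ideal (𝓞 F), ∃ a : 𝓞 F, ∀ h : 𝔮 ∈ hNonsplit F N 𝔪, 𝔮 ∈ tameSet p F x₀ →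
      a ∉ 𝔮 ∧ ∃ u : Fˣ, (u : F) = (a : F) ∧ ψ ⟨𝔮, h⟩ u = t ⟨𝔮, h⟩ := by
    intro 𝔮
    by_cases h : 𝔮 ∈ hNonsplit F N 𝔪 ∧ 𝔮 ∈ tameSet p F x₀
    · obtain ⟨a, u, ha, hu, hψu⟩ := ((hψ ⟨𝔮, h.1⟩).2.1 h.2).2 (t ⟨𝔮, h.1⟩)
      exact ⟨a, fun _ _ => ⟨ha, u, hu, hψu⟩⟩
    · exact ⟨0, fun h1 h2 => absurd ⟨h1, h2⟩ h⟩
  choose a₀ ha₀ using hex
  -- the exponents at the other primes
  classical
  let n : IsDedekindDomain.HeightOneSpectrum (𝓞 F) → ℕ := fun v =>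
    if h : v.asIdeal ∈ hNonsplit F N 𝔪 then ZMod.val (Multiplicative.toAdd (t ⟨v.asIdeal, h⟩))
    else 0
  have hn : ∀ (v : IsDedekindDomain.HeightOneSpectrum (𝓞 F)) (h : v.asIdeal ∈ hNonsplit F N 𝔪),
      ((n v : ℕ) : ZMod p) = Multiplicative.toAdd (t ⟨v.asIdeal, h⟩) := by
    intro v h
    simp only [n, dif_pos h]
    exact ZMod.natCast_zmod_val _
  obtain ⟨u, a, β₁, β₂, w, huU, ha, hβ₁, hβ₂, heq, htame, hval⟩ :=
    hR p F N ζ x₀ y τ hctx 𝔪 hσ hall a₀ (fun 𝔮 h𝔮 => (ha₀ 𝔮 (hTJ h𝔮) h𝔮).1) n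
  refine ⟨u, huU, fun 𝔮 => ?_⟩
  by_cases hq : (𝔮 : Ideal (𝓞 F)) ∈ tameSet p F x₀
  · obtain ⟨hχnorm, htm, -⟩ := hψ 𝔮
    obtain ⟨hii, -⟩ := htm hq
    obtain ⟨ha0notin, u₀, hu₀, hψu₀⟩ := ha₀ 𝔮.1 𝔮.2 hq
    obtain ⟨haa, hb1, hb2, c, hc⟩ := htame 𝔮.1 hq
    have haF : (a : F) ≠ 0 := RingOfIntegers.coe_ne_zero_iff.mpr ha
    have hβ₁F : (β₁ : F) ≠ 0 := RingOfIntegers.coe_ne_zero_iff.mpr hβ₁
    have hβ₂F : (β₂ : F) ≠ 0 := RingOfIntegers.coe_ne_zero_iff.mpr hβ₂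
    have hanotin : a ∉ (𝔮 : Ideal (𝓞 F)) := by
      intro hmem
      apply ha0notin
      have := (𝔮 : Ideal (𝓞 F)).sub_mem hmem haa
      simpa using this
    have h1 : ψ 𝔮 (Units.mk0 (β₁ : F) hβ₁F / Units.mk0 (β₂ : F) hβ₂F) = 1 :=
      hii β₁ β₂ _ hb1 hb2 ⟨c, hc⟩ (by
        rw [Units.val_div_eq_div_val, Units.val_mk0, Units.val_mk0, div_mul_cancel₀ _ hβ₂F])
    have h2 : ψ 𝔮 (Units.mk0 (a : F) haF / u₀) = 1 :=
      hii a (a₀ 𝔮.1) _ hanotin ha0notin ⟨1, by simpa using haa⟩ (by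
        rw [Units.val_div_eq_div_val, Units.val_mk0, ← hu₀, div_mul_cancel₀ _ u₀.ne_zero])
    have h3 : u * (Units.mk0 (β₁ : F) hβ₁F / Units.mk0 (β₂ : F) hβ₂F) =
        Units.mk0 (a : F) haF * Units.map (Algebra.norm F : N →* F) w := by
      ext
      rw [Units.val_mul, Units.val_div_eq_div_val, Units.val_mk0, Units.val_mk0, Units.val_mul,
        Units.val_mk0, Units.coe_map, ← mul_div_assoc, heq]
      field_simp
    have h4 := hχnorm w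
    calc ψ 𝔮 u = ψ 𝔮 u * ψ 𝔮 (Units.mk0 (β₁ : F) hβ₁F / Units.mk0 (β₂ : F) hβ₂F) := by
          rw [h1, mul_one]
      _ = ψ 𝔮 (u * (Units.mk0 (β₁ : F) hβ₁F / Units.mk0 (β₂ : F) hβ₂F)) := (map_mul _ _ _).symm
      _ = ψ 𝔮 (Units.mk0 (a : F) haF) := by rw [h3, map_mul, h4, mul_one]
      _ = ψ 𝔮 (Units.mk0 (a : F) haF / u₀) * ψ 𝔮 u₀ := by rw [← map_mul, div_mul_cancel]
      _ = t 𝔮 := by rw [h2, one_mul, hψu₀]
  · obtain ⟨v, hv, hψv⟩ := (hψ 𝔮).2.2 hq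
    have hvJ : v.asIdeal ∈ hNonsplit F N 𝔪 := by rw [hv]; exact 𝔮.2
    obtain ⟨j, hj⟩ := hval v hvJ (by rw [hv]; exact hq)
    have hnv := hn v hvJ
    have h𝔮 : (⟨v.asIdeal, hvJ⟩ : ↥(hNonsplit F N 𝔪)) = 𝔮 := Subtype.ext hv
    rw [h𝔮] at hnv
    rw [hψv u, hj, WithZero.log_exp]
    apply Multiplicative.toAdd.injective
    rw [toAdd_ofAdd, ← hnv]
    push_cast
    simp

/-- **Package S14/H/Final**: the counting argument. -/
theorem hfin_main : HTameStatement → HInertStatement → HRealStatement → HRankPrimesStatement →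
    HFinalStatement := by
  intro hT hI hR hRP p _ F N _ _ _ _ _ ζ x₀ y τ hctx 𝔪 hσ hidx hall
  have hgal : IsGalois F N := hctx.2.2.2.2.2.2.2.1
  have hfin : (hNonsplit F N 𝔪).Finite := (hRP p F N hctx.2.2.1 𝔪 hσ.1).2.2.1
  have hfin' : Finite ↥(hNonsplit F N 𝔪) := hfin.to_subtype
  have hex := fun 𝔮 : ↥(hNonsplit F N 𝔪) =>
    hfin_char_exists hT hI p F N ζ x₀ y τ hctx 𝔪 hσ 𝔮.1 𝔮.2
  choose ψ hψ using hex
  have hsurj := hfin_realise hR p F N ζ x₀ y τ hctx 𝔪 hσ hall ψ hψ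
  have hker : hNormGrp F N 𝔪 ≤ (MonoidHom.pi ψ).ker := by
    rintro _ ⟨w, -, rfl⟩
    rw [MonoidHom.mem_ker]
    funext 𝔮
    exact (hψ 𝔮).1 w
  have hdvd := hfin_count p (hUF F 𝔪) (hNormGrp F N 𝔪) (MonoidHom.pi ψ) hker (by
    intro t
    obtain ⟨u, hu, hut⟩ := hsurj t
    exact ⟨u, hu, funext hut⟩)
  rw [Nat.card_coe_set_eq] at hdvd
  have hle := Nat.le_of_dvd (Nat.pos_of_ne_zero hidx.1) hdvd
  have hpos : 0 < p ^ (hNonsplit F N 𝔪).ncard := pow_pos (Fact.out : p.Prime).pos _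
  have h2 : 2 ≤ p := (Fact.out : p.Prime).two_le
  have := hidx.2
  nlinarith

end Fermat.Agent.S14
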