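/-
S14/H/G1: the unramified first inequality `G1Statement` from the tame version `G1TameStatement`
(glue).  Owner: helper222.  Prefix: `hg1_`.
-/
import Fermat.Agent.S14.Interfaces
import Fermat.Agent.S14.Basics2

set_option autoImplicit false

open NumberField

namespace Fermat.Agent.S14

/-- (G1) from (G1-tame): for an everywhere unramified `N/F` the tame set of a Kummer generator is
empty, so the conditions at the tame set are vacuous, and an ideal `𝔞` whose class is a norm class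
would contradict (G1-tame). -/
theorem hg1_main : G1TameStatement → KummerGenStatement → KummerRamStatement →
    NormClassesMemStatement → G1Statement := by
  intro hTame hGen hRam hMem p _ hp3 F N _ _ _ _ _ _ ζ hζ hdeg hunr htop
  obtain ⟨x₀, y, hx₀, hy, hyF⟩ := hGen p F N ζ hζ hdeg
  -- the tame set is empty
  have hempty : ∀ 𝔮 : Ideal (𝓞 F), 𝔮 ∉ tameSet p F x₀ := by
    rintro 𝔮 ⟨hprime, hne, -, hord⟩
    have := hprime
    obtain ⟨⟨𝔔, h𝔔⟩⟩ := 𝔮.nonempty_primesOver (S := 𝓞 N)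
    have h1 := hRam p F N ζ hζ hdeg x₀ y hy hyF 𝔮 hprime hne hord 𝔔 h𝔔
    have h2 := hunr 𝔔 h𝔔.1 (Ideal.ne_bot_of_mem_primesOver hne h𝔔)
    have hp1 : p = 1 := by rw [← h1, h2]
    omega
  obtain ⟨𝔞, h𝔞, -, hno⟩ := hTame p hp3 F N ζ hζ hdeg x₀ y hx₀ hy hyF
    (fun 𝔔 h1 h2 _ => hunr 𝔔 h1 h2)
  apply hno
  -- the class of `𝔞` is a norm class
  have h𝔞' : 𝔞 ∈ nonZeroDivisors (Ideal (𝓞 F)) := mem_nonZeroDivisors_iff_ne_zero.mpr h𝔞
  have hmem : ClassGroup.mk0 ⟨𝔞, h𝔞'⟩ ∈ normClasses F N := by rw [htop]; trivial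
  obtain ⟨𝔄, h𝔄, heq⟩ := (hMem F N _).1 hmem
  rw [ClassGroup.mk0_eq_mk0_iff] at heq
  obtain ⟨x, z, hx, hz, hxz⟩ := heq
  have h𝔄ne : 𝔄 ≠ ⊥ := by
    rintro rfl
    exact (mem_nonZeroDivisors_iff_ne_zero.mp h𝔄) (by simp)
  refine ⟨z, x, 𝔄, ⊤, hz, hx, h𝔄ne, top_ne_bot, fun 𝔮 h𝔮 => absurd h𝔮 (hempty 𝔮), ?_⟩
  rw [Ideal.relNorm_top, ← Ideal.one_eq_top, mul_one, mul_comm]
  exact hxz

end Fermat.Agent.S14
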