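/-
S14, block H, package GalVal (twin B): Galois action on the primes of `N` and their valuations.

Main result: `hgvb_main : HGalValStatement`.

For `σ ∈ Gal(N/F)` and a prime `w` of `𝓞 N`, the prime `σ • w` lies over the same prime of `F` and
`(σ • w).valuation (σ x) = w.valuation x`; the Galois group acts transitively on the primes above a
given prime of `F`.
-/
import Fermat.Agent.S14.HInterfaces

set_option autoImplicit false

open NumberField IsDedekindDomain
open scoped Pointwise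

namespace Fermat.Agent.S14

/-- Two nonzero elements `≤ 1` of `ℤᵐ⁰` below the same `exp (-n)`, `n : ℕ`, are equal. -/
theorem hgvb_eq_of_forall_le {u v : WithZero (Multiplicative ℤ)} (hu : u ≠ 0) (hv : v ≠ 0)
    (hu1 : u ≤ 1) (hv1 : v ≤ 1)
    (h : ∀ n : ℕ, u ≤ WithZero.exp (-(n : ℤ)) ↔ v ≤ WithZero.exp (-(n : ℤ))) : u = v := by
  have key : ∀ {a b : WithZero (Multiplicative ℤ)}, a ≠ 0 → b ≠ 0 → a ≤ 1 →
      (∀ n : ℕ, a ≤ WithZero.exp (-(n : ℤ)) → b ≤ WithZero.exp (-(n : ℤ))) → b ≤ a := by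
    intro a b ha hb ha1 hab
    have h0 : WithZero.log a ≤ 0 := by
      rw [WithZero.log_le_iff_le_exp ha, WithZero.exp_zero]
      exact ha1
    have h1 : (-((-WithZero.log a).toNat : ℤ)) = WithZero.log a := by
      rw [Int.toNat_of_nonneg (by omega)]
      ring
    have h2 : a ≤ WithZero.exp (-((-WithZero.log a).toNat : ℤ)) := by
      rw [h1, WithZero.exp_log ha]
    have h3 := hab _ h2
    rwa [h1, WithZero.exp_log ha] at h3
  exact le_antisymm (key hv hu hv1 fun n => (h n).mpr) (key hu hv hu1 fun n => (h n).mp)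

variable {F N : Type} [Field F] [NumberField F] [Field N] [NumberField N] [Algebra F N]

omit [NumberField F] in
/-- Integral version: `(σ • w).intValuation (σ • a) = w.intValuation a`. -/
theorem hgvb_intValuation_smul (σ : N ≃ₐ[F] N) (w w' : HeightOneSpectrum (𝓞 N))
    (hw : w'.asIdeal = σ • w.asIdeal) (a : 𝓞 N) :
    w'.intValuation (σ • a) = w.intValuation a := by
  by_cases ha : a = 0
  · rw [ha, smul_zero, map_zero, map_zero]
  · have hσa : σ • a ≠ 0 := by
      intro h0
      apply ha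
      have h1 : σ⁻¹ • (σ • a) = σ⁻¹ • (0 : 𝓞 N) := by rw [h0]
      rwa [inv_smul_smul, smul_zero] at h1
    apply hgvb_eq_of_forall_le (w'.intValuation_ne_zero _ hσa) (w.intValuation_ne_zero _ ha)
      (w'.intValuation_le_one _) (w.intValuation_le_one _)
    intro n
    rw [HeightOneSpectrum.intValuation_le_pow_iff_mem, HeightOneSpectrum.intValuation_le_pow_iff_mem,
      hw, ← smul_pow', Ideal.smul_mem_pointwise_smul_iff]

omit [NumberField F] in
/-- `(σ • w).valuation (σ x) = w.valuation x`. -/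
theorem hgvb_valuation_smul (σ : N ≃ₐ[F] N) (w w' : HeightOneSpectrum (𝓞 N))
    (hw : w'.asIdeal = σ • w.asIdeal) (x : N) :
    w'.valuation N (σ x) = w.valuation N x := by
  obtain ⟨a, b, -, rfl⟩ := IsFractionRing.div_surjective (𝓞 N) x
  have h1 : ∀ c : 𝓞 N, σ (algebraMap (𝓞 N) N c) = algebraMap (𝓞 N) N (σ • c) := fun c => rfl
  rw [map_div₀, h1, h1, map_div₀, map_div₀, HeightOneSpectrum.valuation_of_algebraMap,
    HeightOneSpectrum.valuation_of_algebraMap, HeightOneSpectrum.valuation_of_algebraMap,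
    HeightOneSpectrum.valuation_of_algebraMap, hgvb_intValuation_smul σ w w' hw,
    hgvb_intValuation_smul σ w w' hw]

/-- Package GalVal. -/
theorem hgvb_main : HGalValStatement := by
  intro F N _ _ _ _ _ _
  refine ⟨?_, ?_⟩
  · intro σ w
    have hprime : (σ • w.asIdeal).IsPrime := Ideal.IsPrime.smul σ
    have hbot : σ • w.asIdeal ≠ ⊥ := by
      intro h0
      apply w.ne_bot
      have h1 : σ⁻¹ • (σ • w.asIdeal) = σ⁻¹ • (⊥ : Ideal (𝓞 N)) := by rw [h0]
      rwa [inv_smul_smul, Ideal.smul_bot] at h1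
    refine ⟨⟨σ • w.asIdeal, hprime, hbot⟩, Ideal.under_smul (𝓞 F) w.asIdeal σ, ?_⟩
    intro x
    exact hgvb_valuation_smul σ w _ rfl x
  · intro w w' hww'
    have h1 : w.asIdeal.LiesOver (w.asIdeal.under (𝓞 F)) := ⟨rfl⟩
    have h2 : w'.asIdeal.LiesOver (w.asIdeal.under (𝓞 F)) := ⟨hww'.symm⟩
    obtain ⟨σ, hσ⟩ := Ideal.exists_smul_eq_of_isGaloisGroup (w.asIdeal.under (𝓞 F)) w.asIdeal
      w'.asIdeal (N ≃ₐ[F] N)
    exact ⟨σ, fun x => hgvb_valuation_smul σ w w' hσ.symm x⟩

end Fermat.Agent.S14
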