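/-
S14, block H, package H90: Hilbert 90 for `Σ_N`-units.

A `Σ_N`-unit `w` of `N` with `N_{N/F}(w) = 1` is of the form `τ z / z` with `z` a `Σ_N`-unit.
Field-level Hilbert 90 gives `z₀ ∈ Nˣ` with `τ z₀ / z₀ = w`; the valuations of `z₀` at the primes of
`N` outside `Σ_N` are constant along the fibres over `F` (GalVal), and the corresponding divisor of
`F` is principal up to `Σ` (Princ); dividing `z₀` by a generator gives `z`.
-/
import Fermat.Agent.S14.HInterfaces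

set_option autoImplicit false

open NumberField IsDedekindDomain

namespace Fermat.Agent.S14

/-- For a nonzero element of the fraction field of a Dedekind domain, the valuation is `1` at all
but finitely many height-one primes. -/
theorem hh90_finite_valuation_ne_one {R K : Type*} [CommRing R] [IsDedekindDomain R] [Field K]
    [Algebra R K] [IsFractionRing R K] (x : K) (hx : x ≠ 0) :
    {v : HeightOneSpectrum R | v.valuation K x ≠ 1}.Finite := by
  refine ((HeightOneSpectrum.Support.finite R x).union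
    (HeightOneSpectrum.Support.finite R x⁻¹)).subset ?_
  intro v hv
  have hpos : 0 < v.valuation K x := by
    rw [zero_lt_iff]
    exact (Valuation.ne_zero_iff _).mpr hx
  rcases lt_or_gt_of_ne hv with h | h
  · right
    show 1 < v.valuation K x⁻¹
    rw [map_inv₀]
    exact (one_lt_inv₀ hpos).mpr h
  · left
    exact h

/-- Membership in `hS (𝔪 𝓞_N)` in terms of the prime below. -/
theorem hh90_mem_hS_map_iff {F N : Type} [Field F] [NumberField F] [Field N] [NumberField N]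
    [Algebra F N] (𝔪 : Ideal (𝓞 F)) (w : HeightOneSpectrum (𝓞 N)) :
    w ∈ hS (𝔪.map (algebraMap (𝓞 F) (𝓞 N))) ↔ 𝔪 ≤ w.asIdeal.under (𝓞 F) := by
  show 𝔪.map (algebraMap (𝓞 F) (𝓞 N)) ≤ w.asIdeal ↔ _
  exact Ideal.map_le_iff_le_comap

/-- If `τ z₀` and `z₀` have the same valuation at all primes of `N` outside `Σ_N`, then so do
`τ ^ i z₀` and `z₀`. -/
theorem hh90_val_pow {F N : Type} [Field F] [NumberField F] [Field N] [NumberField N]
    [Algebra F N] [IsGalois F N] (hGV : HGalValStatement) (𝔪 : Ideal (𝓞 F)) (τ : N ≃ₐ[F] N)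
    (z₀ : N)
    (hz : ∀ w : HeightOneSpectrum (𝓞 N), ¬ 𝔪 ≤ w.asIdeal.under (𝓞 F) →
      w.valuation N (τ z₀) = w.valuation N z₀) (i : ℕ) :
    ∀ w : HeightOneSpectrum (𝓞 N), ¬ 𝔪 ≤ w.asIdeal.under (𝓞 F) →
      w.valuation N ((τ ^ i) z₀) = w.valuation N z₀ := by
  induction i with
  | zero =>
    intro w _
    simp
  | succ i ih =>
    intro w hw
    obtain ⟨w', hw', hval⟩ := (hGV F N).1 τ⁻¹ w
    have hw'' : ¬ 𝔪 ≤ w'.asIdeal.under (𝓞 F) := by
      rw [hw']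
      exact hw
    have h1 : w.valuation N ((τ ^ (i + 1)) z₀) = w'.valuation N ((τ ^ i) z₀) := by
      rw [← hval, pow_succ', AlgEquiv.mul_apply, AlgEquiv.aut_inv, AlgEquiv.symm_apply_apply]
    have h2 : w'.valuation N z₀ = w.valuation N (τ z₀) := by
      rw [← hval, AlgEquiv.aut_inv, AlgEquiv.symm_apply_apply]
    rw [h1, ih w' hw'', h2, hz w hw]

/-- If `τ z₀` and `z₀` have the same valuation at all primes of `N` outside `Σ_N`, and `τ` generates
the Galois group, then `z₀` has the same valuation at any two primes outside `Σ_N` above the same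
prime of `F`. -/
theorem hh90_val_eq {F N : Type} [Field F] [NumberField F] [Field N] [NumberField N]
    [Algebra F N] [IsGalois F N] (hGV : HGalValStatement) (𝔪 : Ideal (𝓞 F)) (τ : N ≃ₐ[F] N)
    (hgen : ∀ σ : N ≃ₐ[F] N, ∃ i : ℕ, σ = τ ^ i) (z₀ : N)
    (hz : ∀ w : HeightOneSpectrum (𝓞 N), ¬ 𝔪 ≤ w.asIdeal.under (𝓞 F) →
      w.valuation N (τ z₀) = w.valuation N z₀)
    (w₁ w₂ : HeightOneSpectrum (𝓞 N))
    (h12 : w₂.asIdeal.under (𝓞 F) = w₁.asIdeal.under (𝓞 F))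
    (hw : ¬ 𝔪 ≤ w₂.asIdeal.under (𝓞 F)) :
    w₂.valuation N z₀ = w₁.valuation N z₀ := by
  obtain ⟨σ, hσ⟩ := (hGV F N).2 w₁ w₂ h12
  obtain ⟨i, rfl⟩ := hgen σ
  rw [← hσ z₀, hh90_val_pow hGV 𝔪 τ z₀ hz i w₂ hw]

/-- Every height-one prime of `𝓞 F` lies under a height-one prime of `𝓞 N`. -/
theorem hh90_exists_over {F N : Type} [Field F] [NumberField F] [Field N] [NumberField N]
    [Algebra F N] (v : HeightOneSpectrum (𝓞 F)) :
    ∃ w : HeightOneSpectrum (𝓞 N), w.asIdeal.under (𝓞 F) = v.asIdeal := by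
  have : v.asIdeal.IsPrime := v.isPrime
  obtain ⟨⟨𝔔, h𝔔p, h𝔔o⟩⟩ := (inferInstance : Nonempty (v.asIdeal.primesOver (𝓞 N)))
  have : 𝔔.LiesOver v.asIdeal := h𝔔o
  exact ⟨⟨𝔔, h𝔔p, Ideal.ne_bot_of_liesOver_of_ne_bot v.ne_bot 𝔔⟩, (h𝔔o.over).symm⟩

/-- **Hilbert 90 for `Σ_N`-units.** -/
theorem hh90_main : HGalValStatement → HPrincStatement → HH90Statement := by
  intro hGV hPr p _ F N _ _ _ _ _ ζ x₀ y τ hctx 𝔪 hSig w hw hnorm
  obtain ⟨-, -, hfin, -, -, -, hunr, hgal, -, hτgen, -⟩ := hctx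
  obtain ⟨h𝔪0, h𝔪x, hclF, -⟩ := hSig
  have : IsGalois F N := hgal
  -- field-level Hilbert 90
  have hgen : ∀ σ : N ≃ₐ[F] N, σ ∈ Subgroup.zpowers τ := fun σ => by
    obtain ⟨i, rfl⟩ := hτgen σ
    exact Subgroup.pow_mem _ (Subgroup.mem_zpowers τ) i
  have : IsCyclic (N ≃ₐ[F] N) := ⟨τ, hgen⟩
  obtain ⟨y₀, hy₀⟩ := groupCohomology.exists_div_of_norm_eq_one hgen hnorm
  have hy₀0 : (y₀ : N) ≠ 0 := y₀.ne_zero
  have hτy₀0 : τ (y₀ : N) ≠ 0 := (map_ne_zero τ).mpr hy₀0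
  -- `z₀ = y₀⁻¹` satisfies `τ z₀ = w * z₀`
  have hτz₀ : τ ((y₀ : N)⁻¹) = (w : N) * (y₀ : N)⁻¹ := by
    rw [map_inv₀, ← hy₀]
    field_simp
  have hz : ∀ w' : HeightOneSpectrum (𝓞 N), ¬ 𝔪 ≤ w'.asIdeal.under (𝓞 F) →
      w'.valuation N (τ ((y₀ : N)⁻¹)) = w'.valuation N ((y₀ : N)⁻¹) := by
    intro w' hw'
    have h1 : w'.valuation N (w : N) = 1 :=
      hw w' (fun h => hw' ((hh90_mem_hS_map_iff 𝔪 w').mp h))
    rw [hτz₀, map_mul, h1, one_mul]
  -- a prime of `N` above each prime of `F`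
  choose g hg using fun v : HeightOneSpectrum (𝓞 F) => hh90_exists_over (N := N) v
  have hginj : Function.Injective g := by
    intro v v' hvv'
    apply HeightOneSpectrum.ext
    rw [← hg v, ← hg v', hvv']
  -- the exponents
  classical
  let n : HeightOneSpectrum (𝓞 F) → ℤ := fun v =>
    if v ∈ hS 𝔪 then 0 else WithZero.log ((g v).valuation N ((y₀ : N)⁻¹))
  have hn : (Function.support n).Finite := by
    have hfinN := hh90_finite_valuation_ne_one (R := 𝓞 N) ((y₀ : N)⁻¹) (inv_ne_zero hy₀0)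
    refine (hfinN.preimage (Set.injOn_of_injective hginj)).subset ?_
    intro v hv
    show (g v).valuation N ((y₀ : N)⁻¹) ≠ 1
    intro h1
    apply hv
    show (if v ∈ hS 𝔪 then 0 else WithZero.log ((g v).valuation N ((y₀ : N)⁻¹))) = 0
    rw [h1]
    simp
  obtain ⟨c, hc⟩ := hPr F 𝔪 h𝔪0 hclF n hn
  have hc0 : algebraMap F N (c : F) ≠ 0 := (map_ne_zero _).mpr c.ne_zero
  refine ⟨y₀⁻¹ * (Units.map (algebraMap F N : F →* N) c)⁻¹, ?_, ?_⟩
  · -- `z` is a `Σ_N`-unit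
    intro 𝔔 h𝔔
    have h𝔔' : ¬ 𝔪 ≤ 𝔔.asIdeal.under (𝓞 F) := fun h => h𝔔 ((hh90_mem_hS_map_iff 𝔪 𝔔).mpr h)
    have : 𝔔.asIdeal.IsPrime := 𝔔.isPrime
    let v : HeightOneSpectrum (𝓞 F) :=
      ⟨𝔔.asIdeal.under (𝓞 F), inferInstance, Ideal.under_ne_bot (𝓞 F) 𝔔.ne_bot⟩
    have hv : v ∉ hS 𝔪 := h𝔔'
    have : 𝔔.asIdeal.LiesOver v.asIdeal := ⟨rfl⟩
    -- unramified at `𝔔`
    have hnot : 𝔔.asIdeal.under (𝓞 F) ∉ tameSet p F x₀ := by
      rintro ⟨-, -, -, k, hk1, -, hk3⟩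
      apply h𝔔'
      have hk0 : k ≠ 0 := by
        rintro rfl
        exact hk3 (dvd_zero p)
      have hx₀mem : x₀ ∈ 𝔔.asIdeal.under (𝓞 F) := Ideal.pow_le_self hk0 hk1
      exact h𝔪x.trans ((Ideal.span_singleton_le_iff_mem _).mpr hx₀mem)
    have he : v.asIdeal.ramificationIdx' 𝔔.asIdeal = 1 := by
      rw [Ideal.ramificationIdx'_eq_ramificationIdx v.asIdeal 𝔔.asIdeal v.ne_bot]
      exact hunr 𝔔.asIdeal 𝔔.isPrime 𝔔.ne_bot hnot
    have hvalc : 𝔔.valuation N (algebraMap F N (c : F)) = 𝔔.valuation N ((y₀ : N)⁻¹) := by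
      rw [← HeightOneSpectrum.valuation_liesOver N v 𝔔 (c : F), he, pow_one, hc v hv]
      show WithZero.exp (if v ∈ hS 𝔪 then 0 else WithZero.log ((g v).valuation N ((y₀ : N)⁻¹)))
        = _
      rw [if_neg hv, WithZero.exp_log ((Valuation.ne_zero_iff _).mpr (inv_ne_zero hy₀0))]
      exact hh90_val_eq hGV 𝔪 τ hτgen _ hz 𝔔 (g v) (hg v) (by rw [hg v]; exact h𝔔')
    show 𝔔.valuation N (((y₀⁻¹ * (Units.map (algebraMap F N : F →* N) c)⁻¹ : Nˣ) : N)) = 1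
    have hcoe : ((y₀⁻¹ * (Units.map (algebraMap F N : F →* N) c)⁻¹ : Nˣ) : N)
        = (y₀ : N)⁻¹ * (algebraMap F N (c : F))⁻¹ := by
      simp
    rw [hcoe, map_mul, map_inv₀ (𝔔.valuation N) (algebraMap F N (c : F)), hvalc]
    exact mul_inv_cancel₀ ((Valuation.ne_zero_iff _).mpr (inv_ne_zero hy₀0))
  · -- `w = τ z / z`
    have hcoe : ((y₀⁻¹ * (Units.map (algebraMap F N : F →* N) c)⁻¹ : Nˣ) : N)
        = (y₀ : N)⁻¹ * (algebraMap F N (c : F))⁻¹ := by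
      simp
    rw [hcoe, map_mul, hτz₀, map_inv₀, AlgEquiv.commutes]
    field_simp

end Fermat.Agent.S14
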