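/-
S14 basics, package Trichotomy (twin A): decomposition of a prime in a Galois extension of prime
degree `p` (split completely / inert / totally ramified).
-/
import Fermat.Agent.S14.Basics2

set_option autoImplicit false

open NumberField

namespace Fermat.Agent.S14

/-- In a Galois extension of number fields, `g * (e * f) = [N : F]` for a prime `𝔮` of `F`. -/
theorem bpta_fundamental (F N : Type) [Field F] [NumberField F] [Field N] [NumberField N]
    [Algebra F N] [IsGalois F N] (𝔮 : Ideal (𝓞 F)) [𝔮.IsPrime] :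
    (𝔮.primesOver (𝓞 N)).ncard * (𝔮.ramificationIdxIn (𝓞 N) * 𝔮.inertiaDegIn (𝓞 N))
      = Module.finrank F N := by
  rw [Ideal.ncard_primesOver_mul_ramificationIdxIn_mul_inertiaDegIn 𝔮 (𝓞 N) (N ≃ₐ[F] N),
    IsGalois.card_aut_eq_finrank]

/-- The common ramification index and inertia degree are those of any prime above `𝔮`. -/
theorem bpta_idx_eq (F N : Type) [Field F] [NumberField F] [Field N] [NumberField N]
    [Algebra F N] [IsGalois F N] (𝔮 : Ideal (𝓞 F)) [𝔮.IsPrime] (𝔔 : Ideal (𝓞 N))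
    (h𝔔 : 𝔔 ∈ 𝔮.primesOver (𝓞 N)) :
    𝔮.ramificationIdxIn (𝓞 N) = 𝔔.ramificationIdx (𝓞 F) ∧
      𝔮.inertiaDegIn (𝓞 N) = 𝔔.inertiaDeg (𝓞 F) := by
  have := h𝔔.1
  have := h𝔔.2
  exact ⟨Ideal.ramificationIdxIn_eq_ramificationIdx 𝔮 𝔔 (N ≃ₐ[F] N),
    Ideal.inertiaDegIn_eq_inertiaDeg 𝔮 𝔔 (N ≃ₐ[F] N)⟩

/-- Decomposition of a prime in a Galois extension of prime degree `p`: split completely
(`p` primes above), inert, or totally ramified. -/
theorem bpta_primeTrichotomy : PrimeTrichotomyStatement := by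
  intro p hp F N _ _ _ _ _ _ hdeg 𝔮 h𝔮 _
  have := h𝔮
  have hpp : p.Prime := hp.out
  have hfund := bpta_fundamental F N 𝔮
  rw [hdeg] at hfund
  set g := (𝔮.primesOver (𝓞 N)).ncard with hg
  set e := 𝔮.ramificationIdxIn (𝓞 N) with he
  set f := 𝔮.inertiaDegIn (𝓞 N) with hf
  rcases (Nat.dvd_prime hpp).mp ⟨e * f, hfund.symm⟩ with hg1 | hgp
  · -- a single prime above `𝔮`
    right
    obtain ⟨𝔔, h𝔔⟩ := Set.ncard_eq_one.mp hg1
    have hmem : 𝔔 ∈ 𝔮.primesOver (𝓞 N) := by rw [h𝔔]; exact Set.mem_singleton 𝔔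
    obtain ⟨hE, hF⟩ := bpta_idx_eq F N 𝔮 𝔔 hmem
    rw [hg1, one_mul] at hfund
    rcases (Nat.dvd_prime hpp).mp ⟨f, hfund.symm⟩ with he1 | hep
    · left
      refine ⟨𝔔, h𝔔, hE ▸ he1, ?_⟩
      rw [he1, one_mul] at hfund
      exact hF ▸ hfund
    · right
      refine ⟨𝔔, h𝔔, hE ▸ hep, ?_⟩
      rw [hep] at hfund
      have hf1 : f = 1 := by
        have h := Nat.eq_of_mul_eq_mul_left hpp.pos (hfund.trans (mul_one p).symm)
        exact h
      exact hF ▸ hf1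
  · -- `p` primes above `𝔮`
    left
    rw [hgp] at hfund
    have hef : e * f = 1 := Nat.eq_of_mul_eq_mul_left hpp.pos (hfund.trans (mul_one p).symm)
    have he1 : e = 1 := Nat.eq_one_of_mul_eq_one_right hef
    have hf1 : f = 1 := Nat.eq_one_of_mul_eq_one_left hef
    refine ⟨fun 𝔔 h𝔔 => ?_, hgp⟩
    obtain ⟨hE, hF⟩ := bpta_idx_eq F N 𝔮 𝔔 h𝔔
    exact ⟨hE ▸ he1, hF ▸ hf1⟩

end Fermat.Agent.S14
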