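/-
S14, block H, package Inert: in a Galois extension of prime degree `p`, at an unramified prime `𝔮`
which does not split completely, the `𝔮`-adic valuation of every ideal norm is divisible by `p`.
-/
import Mathlib
import Fermat.Agent.S14.HInterfaces
import Fermat.Agent.S14.BTrichotomyA

set_option autoImplicit false

open NumberField

namespace Fermat.Agent.S14

/-- Under the hypotheses of `HInertStatement`, there is a unique prime `𝔔` above `𝔮`, and its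
relative norm is `𝔮 ^ p`. -/
theorem hin_unique (p : ℕ) [Fact p.Prime]
    (F N : Type) [Field F] [NumberField F] [Field N] [NumberField N] [Algebra F N] [IsGalois F N]
    (hdeg : Module.finrank F N = p) (𝔮 : Ideal (𝓞 F)) (h𝔮 : 𝔮.IsPrime) (h𝔮0 : 𝔮 ≠ ⊥)
    (hunr : ∀ 𝔔 ∈ 𝔮.primesOver (𝓞 N), 𝔔.ramificationIdx (𝓞 F) = 1)
    (hns : ¬ SplitsCompletely F N 𝔮) :
    ∃ 𝔔 : Ideal (𝓞 N), 𝔮.primesOver (𝓞 N) = {𝔔} ∧ 𝔔.IsPrime ∧ 𝔔 ≠ ⊤ ∧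
      Ideal.relNorm (𝓞 F) 𝔔 = 𝔮 ^ p := by
  have hpp : p.Prime := Fact.out
  rcases bpta_primeTrichotomy p F N hdeg 𝔮 h𝔮 h𝔮0 with h | ⟨𝔔, h𝔔, -, hf⟩ | ⟨𝔔, h𝔔, he, -⟩
  · exact absurd h.1 hns
  · have hmem : 𝔔 ∈ 𝔮.primesOver (𝓞 N) := by rw [h𝔔]; exact Set.mem_singleton 𝔔
    have hpr : 𝔔.IsPrime := hmem.1
    have hlo : 𝔔.LiesOver 𝔮 := hmem.2
    have hmax𝔮 : 𝔮.IsMaximal := Ring.DimensionLEOne.maximalOfPrime h𝔮0 h𝔮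
    have hmax𝔔 : 𝔔.IsMaximal := Ideal.IsMaximal.of_liesOver_isMaximal 𝔔 𝔮
    refine ⟨𝔔, h𝔔, hpr, hpr.ne_top, ?_⟩
    rw [Ideal.relNorm_eq_pow_of_isMaximal 𝔔 𝔮, hf]
  · have hmem : 𝔔 ∈ 𝔮.primesOver (𝓞 N) := by rw [h𝔔]; exact Set.mem_singleton 𝔔
    have h1 := hunr 𝔔 hmem
    rw [he] at h1
    exact absurd h1 hpp.one_lt.ne'

theorem hin_main : HNormSuppStatement → HInertStatement := by
  intro hNS p _ F N _ _ _ _ _ _ hdeg 𝔮 h𝔮 h𝔮0 hunr hns 𝔄 h𝔄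
  obtain ⟨𝔔, h𝔔, hpr, htop, hnorm⟩ := hin_unique p F N hdeg 𝔮 h𝔮 h𝔮0 hunr hns
  have hnu : ¬ IsUnit 𝔔 := fun h => htop (Ideal.isUnit_iff.1 h)
  obtain ⟨n, 𝔅, hndvd, h𝔄eq⟩ := WfDvdMonoid.max_power_factor' (a₀ := 𝔄) (x := 𝔔) h𝔄 hnu
  have h𝔅0 : 𝔅 ≠ ⊥ := by
    rintro rfl
    apply h𝔄
    rw [h𝔄eq]
    exact mul_zero _
  refine ⟨n, Ideal.relNorm (𝓞 F) 𝔅, ?_, ?_⟩
  · rw [h𝔄eq, map_mul, map_pow, hnorm, ← pow_mul]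
  · intro hle
    obtain ⟨𝔔', hpr', h𝔅le, hunder⟩ := hNS F N 𝔅 𝔮 h𝔅0 h𝔮 hle
    have hmem : 𝔔' ∈ 𝔮.primesOver (𝓞 N) := ⟨hpr', ⟨hunder.symm⟩⟩
    rw [h𝔔] at hmem
    have h𝔔' : 𝔔' = 𝔔 := hmem
    rw [h𝔔'] at h𝔅le
    exact hndvd (Ideal.dvd_iff_le.2 h𝔅le)

end Fermat.Agent.S14
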