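/-
S14, block H, package NormSupp: a prime of `F` containing the relative norm of a nonzero ideal `𝔄`
of `N` lies under a prime of `N` containing `𝔄`.
-/
import Mathlib
import Fermat.Agent.S14.HInterfaces

set_option autoImplicit false

open NumberField

namespace Fermat.Agent.S14

/-- The case of a nonzero prime ideal: a prime of `F` containing the norm of a nonzero prime `𝔓`
of `N` is the prime below `𝔓`. -/
theorem hns_prime (F N : Type) [Field F] [NumberField F] [Field N] [NumberField N] [Algebra F N]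
    (𝔓 : Ideal (𝓞 N)) (𝔮 : Ideal (𝓞 F)) (h𝔓 : 𝔓.IsPrime) (h𝔓0 : 𝔓 ≠ ⊥) (h𝔮 : 𝔮.IsPrime)
    (hle : Ideal.relNorm (𝓞 F) 𝔓 ≤ 𝔮) : 𝔓.under (𝓞 F) = 𝔮 := by
  have hlo : 𝔓.LiesOver (𝔓.under (𝓞 F)) := ⟨rfl⟩
  have hpr : (𝔓.under (𝓞 F)).IsPrime := Ideal.IsPrime.under (𝓞 F) 𝔓
  obtain ⟨s, hs⟩ := Ideal.exists_relNorm_eq_pow_of_isPrime 𝔓 (𝔓.under (𝓞 F))
  rw [hs] at hle
  have hle' : 𝔓.under (𝓞 F) ≤ 𝔮 := Ideal.IsPrime.le_of_pow_le hle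
  have hne : 𝔓.under (𝓞 F) ≠ ⊥ := Ideal.under_ne_bot (𝓞 F) h𝔓0
  have hmax : (𝔓.under (𝓞 F)).IsMaximal :=
    Ring.DimensionLEOne.maximalOfPrime hne hpr
  exact hmax.eq_of_le h𝔮.ne_top hle'

theorem hns_main : HNormSuppStatement := by
  intro F N _ _ _ _ _ 𝔄 𝔮 h𝔄 h𝔮 hle
  have key := Multiset.prod_induction
    (fun I : Ideal (𝓞 N) => Ideal.relNorm (𝓞 F) I ≤ 𝔮 →
      ∃ 𝔔 : Ideal (𝓞 N), 𝔔.IsPrime ∧ I ≤ 𝔔 ∧ 𝔔.under (𝓞 F) = 𝔮)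
    (UniqueFactorizationMonoid.normalizedFactors 𝔄) ?_ ?_ ?_
  · rw [Ideal.prod_normalizedFactors_eq_self h𝔄] at key
    exact key hle
  · intro I J hI hJ hle
    rw [map_mul] at hle
    rcases (Ideal.IsPrime.mul_le h𝔮).1 hle with h | h
    · obtain ⟨𝔔, h1, h2, h3⟩ := hI h
      exact ⟨𝔔, h1, le_trans Ideal.mul_le_left h2, h3⟩
    · obtain ⟨𝔔, h1, h2, h3⟩ := hJ h
      exact ⟨𝔔, h1, le_trans Ideal.mul_le_right h2, h3⟩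
  · intro hle
    exfalso
    rw [Ideal.one_eq_top, Ideal.relNorm_top] at hle
    exact h𝔮.ne_top (top_le_iff.1 hle)
  · intro 𝔓 h𝔓 hle
    have h𝔓0 : 𝔓 ≠ ⊥ := UniqueFactorizationMonoid.ne_zero_of_mem_normalizedFactors h𝔓
    rw [Ideal.mem_normalizedFactors_iff h𝔄] at h𝔓
    exact ⟨𝔓, h𝔓.1, le_refl _, hns_prime F N 𝔓 𝔮 h𝔓.1 h𝔓0 h𝔮 hle⟩

end Fermat.Agent.S14
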