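/-
S14, block H, package Princ: if every ideal class of `F` contains an ideal supported on the primes
dividing `𝔪`, then every finitely supported family of exponents at the primes not dividing `𝔪` is
realised by an element of `Fˣ`.

Main theorem: `hpr_main : HPrincStatement`.
-/
import Mathlib
import Fermat.Agent.S14.HInterfaces

set_option autoImplicit false

open NumberField

namespace Fermat.Agent.S14

/-- For a nonzero element `r` of a Dedekind domain, the multiplicity of `v` in `(r)` is finite. -/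
theorem hpr_finiteMultiplicity {R : Type} [CommRing R] [IsDedekindDomain R]
    (v : IsDedekindDomain.HeightOneSpectrum R) {I : Ideal R} (hI : I ≠ ⊥) :
    FiniteMultiplicity v.asIdeal I :=
  FiniteMultiplicity.of_prime_left v.prime hI

open scoped Classical in
/-- The multiplicity of the prime `v` in the prime `w` is `1` if `v = w` and `0` otherwise. -/
theorem hpr_emultiplicity_prime {R : Type} [CommRing R] [IsDedekindDomain R]
    (v w : IsDedekindDomain.HeightOneSpectrum R) :
    emultiplicity v.asIdeal w.asIdeal = if v = w then 1 else 0 := by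
  split_ifs with hvw
  · subst hvw
    exact (hpr_finiteMultiplicity v v.ne_bot).emultiplicity_self
  · rw [emultiplicity_eq_zero, Ideal.dvd_iff_le]
    intro hle
    have hmax : w.asIdeal.IsMaximal := w.isMaximal
    have hne : v.asIdeal ≠ ⊤ := v.isPrime.ne_top
    exact hvw (IsDedekindDomain.HeightOneSpectrum.ext (hmax.eq_of_le hne hle).symm)

open scoped Classical in
/-- Key computation: if `(x) * w = (y) * 𝔰` and `𝔰 ⊄ v`, then `v(y / x) = exp (-[v = w])`. -/
theorem hpr_valuation_div (F : Type) [Field F] [NumberField F]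
    (v w : IsDedekindDomain.HeightOneSpectrum (𝓞 F)) (x y : 𝓞 F) (𝔰 : Ideal (𝓞 F))
    (hx : x ≠ 0) (hy : y ≠ 0) (h : Ideal.span {x} * w.asIdeal = Ideal.span {y} * 𝔰)
    (hs : ¬ 𝔰 ≤ v.asIdeal) :
    v.valuation F ((y : F) / (x : F)) = if v = w then WithZero.exp (-1 : ℤ) else 1 := by
  have hxs : Ideal.span {x} ≠ (⊥ : Ideal (𝓞 F)) := by
    rw [Ne, Ideal.span_singleton_eq_bot]; exact hx
  have hys : Ideal.span {y} ≠ (⊥ : Ideal (𝓞 F)) := by
    rw [Ne, Ideal.span_singleton_eq_bot]; exact hy
  have hmul := congrArg (emultiplicity v.asIdeal) h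
  rw [emultiplicity_mul v.prime, emultiplicity_mul v.prime, hpr_emultiplicity_prime,
    (hpr_finiteMultiplicity v hxs).emultiplicity_eq_multiplicity,
    (hpr_finiteMultiplicity v hys).emultiplicity_eq_multiplicity,
    emultiplicity_eq_zero.mpr (by rwa [Ideal.dvd_iff_le]), add_zero] at hmul
  have hvx : v.valuation F (x : F) =
      WithZero.exp (-(multiplicity v.asIdeal (Ideal.span {x}) : ℤ)) := by
    rw [show (x : F) = algebraMap (𝓞 F) F x from rfl, v.valuation_of_algebraMap,
      v.intValuation_eq_exp_neg_multiplicity hx]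
  have hvy : v.valuation F (y : F) =
      WithZero.exp (-(multiplicity v.asIdeal (Ideal.span {y}) : ℤ)) := by
    rw [show (y : F) = algebraMap (𝓞 F) F y from rfl, v.valuation_of_algebraMap,
      v.intValuation_eq_exp_neg_multiplicity hy]
  rw [map_div₀, hvx, hvy, ← WithZero.exp_sub]
  split_ifs with hvw
  · rw [if_pos hvw] at hmul
    have h1 : multiplicity v.asIdeal (Ideal.span {x}) + 1 =
        multiplicity v.asIdeal (Ideal.span {y}) := by exact_mod_cast hmul
    rw [← h1]
    congr 1
    push_cast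
    ring
  · rw [if_neg hvw, add_zero] at hmul
    have h1 : multiplicity v.asIdeal (Ideal.span {x}) =
        multiplicity v.asIdeal (Ideal.span {y}) := by exact_mod_cast hmul
    rw [← h1, ← WithZero.exp_zero]
    congr 1
    ring

open scoped Classical in
/-- The case of a single prime `w`: an element of `Fˣ` with valuation `exp (-1)` at `w` and `1`
at the other primes not dividing `𝔪`. -/
theorem hpr_single (F : Type) [Field F] [NumberField F] (𝔪 : Ideal (𝓞 F))
    (h : ∀ 𝔟 : Ideal (𝓞 F), 𝔟 ≠ ⊥ → ∃ (x y : 𝓞 F) (𝔰 : Ideal (𝓞 F)), x ≠ 0 ∧ y ≠ 0 ∧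
      Ideal.span {x} * 𝔟 = Ideal.span {y} * 𝔰 ∧
      ∀ 𝔮 : Ideal (𝓞 F), 𝔮.IsPrime → 𝔰 ≤ 𝔮 → 𝔪 ≤ 𝔮)
    (w : IsDedekindDomain.HeightOneSpectrum (𝓞 F)) :
    ∃ c : Fˣ, ∀ v : IsDedekindDomain.HeightOneSpectrum (𝓞 F), v ∉ hS 𝔪 →
      v.valuation F (c : F) = if v = w then WithZero.exp (-1 : ℤ) else 1 := by
  obtain ⟨x, y, 𝔰, hx, hy, hxy, hs⟩ := h w.asIdeal w.ne_bot
  have hxF : (x : F) ≠ 0 := by
    intro h0; exact hx (by exact_mod_cast h0)
  have hyF : (y : F) ≠ 0 := by
    intro h0; exact hy (by exact_mod_cast h0)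
  refine ⟨Units.mk0 ((y : F) / (x : F)) (div_ne_zero hyF hxF), fun v hv => ?_⟩
  rw [Units.val_mk0]
  exact hpr_valuation_div F v w x y 𝔰 hx hy hxy (fun hle => hv (hs v.asIdeal v.isPrime hle))

/-- **Package Princ.** -/
theorem hpr_main : HPrincStatement := by
  intro F _ _ 𝔪 _ h n hn
  classical
  choose c hc using hpr_single F 𝔪 h
  refine ⟨∏ w ∈ hn.toFinset, c w ^ (-(n w)), fun v hv => ?_⟩
  rw [Units.coe_prod, map_prod]
  have hterm : ∀ w ∈ hn.toFinset,
      v.valuation F ((c w ^ (-(n w)) : Fˣ) : F) =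
        if v = w then WithZero.exp (n v) else 1 := by
    intro w _
    rw [Units.val_zpow_eq_zpow_val, map_zpow₀, hc w v hv]
    split_ifs with hvw
    · subst hvw
      rw [← WithZero.exp_zsmul]
      congr 1
      simp
    · exact one_zpow _
  rw [Finset.prod_congr rfl hterm, Finset.prod_ite_eq]
  split_ifs with hmem
  · rfl
  · have h0 : n v = 0 := by
      by_contra hne
      exact hmem (hn.mem_toFinset.mpr hne)
    rw [h0, WithZero.exp_zero]

end Fermat.Agent.S14
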