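/-
S14, block H, package Rank: the ranks of the `Σ`-unit groups of `F` and of the `Σ_N`-unit groups of `N`.
-/
import Mathlib
import Fermat.Agent.S14.HInterfaces
import Fermat.Agent.S14.Basics2

set_option autoImplicit false

open NumberField

namespace Fermat.Agent.S14

/-- The natural-number arithmetic behind `hrk_main`. -/
theorem hrk_arith (p r R σ σN s : ℕ) (hp : 3 ≤ p) (hR : R + 1 = p * (r + 1)) (hs : s ≤ σ)
    (hσ : σN + (p - 1) * s = p * σ) :
    ∃ k : ℕ, R + σN = r + σ + (p - 1) * k ∧ r + σ + 1 = k + s := by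
  obtain ⟨q, rfl⟩ : ∃ q, p = q + 1 := ⟨p - 1, by omega⟩
  obtain ⟨d, rfl⟩ : ∃ d, σ = s + d := ⟨σ - s, by omega⟩
  rw [Nat.add_sub_cancel] at hσ ⊢
  refine ⟨r + 1 + d, ?_, by ring⟩
  have e1 : R + 1 = q * r + q + r + 1 := by rw [hR]; ring
  have e2 : σN + q * s = q * s + q * d + s + d := by rw [hσ]; ring
  have e3 : q * (r + 1 + d) = q * r + q + q * d := by ring
  rw [e3]
  omega

theorem hrk_main :
    SUnitRankStatement → HRankUnitsStatement → HRankPrimesStatement → HRankStatement := by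
  intro hSU hRU hRP p _ hp F N _ _ _ _ _ _ ζ hζ hFN 𝔪 h𝔪
  obtain ⟨hfin1, hfin2, -, hle, heq⟩ := hRP p F N hFN 𝔪 h𝔪
  have hr : NumberField.Units.rank N + 1 = p * (NumberField.Units.rank F + 1) :=
    hRU p hp F N ζ hζ hFN
  obtain ⟨hF1, hF2⟩ := hSU F hfin1.toFinset
  obtain ⟨hN1, hN2⟩ := hSU N hfin2.toFinset
  rw [← Set.ncard_coe_finset] at hF2 hN2
  rw [Set.Finite.coe_toFinset] at hF1 hF2 hN1 hN2
  refine ⟨hF1, hN1, ?_⟩
  have hF2' : Module.finrank ℤ (Additive (hUF F 𝔪)) =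
      NumberField.Units.rank F + (hS 𝔪).ncard := hF2
  have hN2' : Module.finrank ℤ (Additive (hUN F N 𝔪)) =
      NumberField.Units.rank N + (hS (𝔪.map (algebraMap (𝓞 F) (𝓞 N)))).ncard := hN2
  rw [hF2', hN2']
  exact hrk_arith p _ _ _ _ _ hp hr hle heq

end Fermat.Agent.S14
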