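/-
S14, block H, package RankPrimes: counting the primes of `N` above the primes dividing a nonzero
ideal `𝔪` of `F`, in a Galois extension `N/F` of prime degree `p`.
-/
import Fermat.Agent.S14.HInterfaces
import Fermat.Agent.S14.BTrichotomyA

set_option autoImplicit false

open NumberField

namespace Fermat.Agent.S14

/-- Only finitely many height-one primes contain a given nonzero ideal. -/
theorem hrp_hS_finite {R : Type} [CommRing R] [IsDedekindDomain R] (𝔪 : Ideal R) (h𝔪 : 𝔪 ≠ ⊥) :
    (hS 𝔪).Finite := by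
  refine (Ideal.finite_factors h𝔪).subset ?_
  intro v hv
  exact Ideal.dvd_iff_le.mpr hv

/-- The prime of `F` below a (height-one) prime of `N`. -/
noncomputable def hrp_below (F N : Type) [Field F] [NumberField F] [Field N] [NumberField N]
    [Algebra F N] (w : IsDedekindDomain.HeightOneSpectrum (𝓞 N)) :
    IsDedekindDomain.HeightOneSpectrum (𝓞 F) :=
  ⟨w.asIdeal.under (𝓞 F), Ideal.IsPrime.under (𝓞 F) w.asIdeal (hP := w.isPrime),
    Ideal.under_ne_bot (𝓞 F) w.ne_bot⟩

/-- `asIdeal` is injective on the height-one spectrum. -/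
theorem hrp_asIdeal_injective (R : Type) [CommRing R] [IsDedekindDomain R] :
    Function.Injective (fun v : IsDedekindDomain.HeightOneSpectrum R => v.asIdeal) :=
  fun _ _ h => IsDedekindDomain.HeightOneSpectrum.ext h

/-- The fibre of `hrp_below` over `v` is (in bijection with) the set of primes over `v`. -/
theorem hrp_fiber_ncard (F N : Type) [Field F] [NumberField F] [Field N] [NumberField N]
    [Algebra F N] (v : IsDedekindDomain.HeightOneSpectrum (𝓞 F)) :
    {w : IsDedekindDomain.HeightOneSpectrum (𝓞 N) | hrp_below F N w = v}.ncard =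
      (v.asIdeal.primesOver (𝓞 N)).ncard := by
  have himage : (fun w : IsDedekindDomain.HeightOneSpectrum (𝓞 N) => w.asIdeal) ''
      {w | hrp_below F N w = v} = v.asIdeal.primesOver (𝓞 N) := by
    ext 𝔔
    constructor
    · rintro ⟨w, hw, rfl⟩
      refine ⟨w.isPrime, ⟨?_⟩⟩
      rw [← hw]
      rfl
    · rintro ⟨hprime, hover⟩
      have hne : 𝔔 ≠ ⊥ := Ideal.ne_bot_of_liesOver_of_ne_bot v.ne_bot 𝔔
      refine ⟨⟨𝔔, hprime, hne⟩, ?_, rfl⟩
      apply IsDedekindDomain.HeightOneSpectrum.ext
      exact hover.over.symm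
  rw [← himage, Set.ncard_image_of_injective _ (hrp_asIdeal_injective (𝓞 N))]

/-- (RankPrimes) counting the primes of `N` above `Σ` in a Galois extension of prime degree `p`. -/
theorem hrp_main : HRankPrimesStatement := by
  intro p hp F N _ _ _ _ _ _ hdeg 𝔪 h𝔪
  classical
  have hpp : p.Prime := hp.out
  have hfin : (hS 𝔪).Finite := hrp_hS_finite 𝔪 h𝔪
  have hmap : 𝔪.map (algebraMap (𝓞 F) (𝓞 N)) ≠ ⊥ := by
    rw [Ne, Ideal.map_eq_bot_iff_of_injective (FaithfulSMul.algebraMap_injective (𝓞 F) (𝓞 N))]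
    exact h𝔪
  have hfinN : (hS (𝔪.map (algebraMap (𝓞 F) (𝓞 N)))).Finite := hrp_hS_finite _ hmap
  -- the nonsplit primes, as a set of height-one primes
  have hns : hNonsplit F N 𝔪 = (fun v : IsDedekindDomain.HeightOneSpectrum (𝓞 F) => v.asIdeal) ''
      {v | v ∈ hS 𝔪 ∧ ¬ SplitsCompletely F N v.asIdeal} := by
    ext 𝔮
    constructor
    · rintro ⟨hprime, hle, hnot⟩
      have hne : 𝔮 ≠ ⊥ := by
        rintro rfl
        exact h𝔪 (le_bot_iff.mp hle)
      exact ⟨⟨𝔮, hprime, hne⟩, ⟨hle, hnot⟩, rfl⟩
    · rintro ⟨v, ⟨hle, hnot⟩, rfl⟩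
      exact ⟨v.isPrime, hle, hnot⟩
  have hsubfin : {v : IsDedekindDomain.HeightOneSpectrum (𝓞 F) |
      v ∈ hS 𝔪 ∧ ¬ SplitsCompletely F N v.asIdeal}.Finite := hfin.subset (fun v hv => hv.1)
  have hnsfin : (hNonsplit F N 𝔪).Finite := by
    rw [hns]
    exact hsubfin.image _
  have hnscard : (hNonsplit F N 𝔪).ncard = {v : IsDedekindDomain.HeightOneSpectrum (𝓞 F) |
      v ∈ hS 𝔪 ∧ ¬ SplitsCompletely F N v.asIdeal}.ncard := by
    rw [hns, Set.ncard_image_of_injective _ (hrp_asIdeal_injective (𝓞 F))]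
  refine ⟨hfin, hfinN, hnsfin, ?_, ?_⟩
  · rw [hnscard]
    exact Set.ncard_le_ncard (fun v hv => hv.1) hfin
  · -- the count
    have hmemS : ∀ v, v ∈ hfin.toFinset ↔ v ∈ hS 𝔪 := fun v => Set.Finite.mem_toFinset hfin
    have hmemSN : ∀ w, w ∈ hfinN.toFinset ↔ w ∈ hS (𝔪.map (algebraMap (𝓞 F) (𝓞 N))) :=
      fun w => Set.Finite.mem_toFinset hfinN
    have hiff : ∀ w : IsDedekindDomain.HeightOneSpectrum (𝓞 N),
        w ∈ hS (𝔪.map (algebraMap (𝓞 F) (𝓞 N))) ↔ hrp_below F N w ∈ hS 𝔪 := by
      intro w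
      exact Ideal.map_le_iff_le_comap
    have hmaps : (hfinN.toFinset : Set _).MapsTo (hrp_below F N) hfin.toFinset := by
      intro w hw
      rw [Finset.mem_coe] at hw ⊢
      rw [hmemS, ← hiff, ← hmemSN]
      exact hw
    have h1 : hfinN.toFinset.card =
        ∑ v ∈ hfin.toFinset, (hfinN.toFinset.filter (fun w => hrp_below F N w = v)).card :=
      Finset.card_eq_sum_card_fiberwise hmaps
    have h2 : ∀ v ∈ hfin.toFinset,
        (hfinN.toFinset.filter (fun w => hrp_below F N w = v)).card =
          if SplitsCompletely F N v.asIdeal then p else 1 := by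
      intro v hv
      have hvS : v ∈ hS 𝔪 := (hmemS v).mp hv
      have hfilter : ((hfinN.toFinset.filter (fun w => hrp_below F N w = v) :
          Finset (IsDedekindDomain.HeightOneSpectrum (𝓞 N))) : Set _) =
          {w | hrp_below F N w = v} := by
        ext w
        rw [Finset.mem_coe, Finset.mem_filter, hmemSN, hiff]
        constructor
        · exact fun h => h.2
        · intro h
          have h' : hrp_below F N w = v := h
          refine ⟨?_, h⟩
          rw [h']
          exact hvS
      have hcard : (hfinN.toFinset.filter (fun w => hrp_below F N w = v)).card =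
          (v.asIdeal.primesOver (𝓞 N)).ncard := by
        rw [← hrp_fiber_ncard F N v, ← hfilter, Set.ncard_coe_finset]
      rw [hcard]
      rcases bpta_primeTrichotomy p F N hdeg v.asIdeal v.isPrime v.ne_bot with
        ⟨hsplit, hc⟩ | ⟨𝔔, hQ, he, hf⟩ | ⟨𝔔, hQ, he, hf⟩
      · rw [if_pos hsplit, hc]
      · have hnot : ¬ SplitsCompletely F N v.asIdeal := by
          intro h
          have h' := (h 𝔔 (by rw [hQ]; exact Set.mem_singleton _)).2
          rw [hf] at h'
          exact hpp.ne_one h'
        rw [if_neg hnot, hQ, Set.ncard_singleton]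
      · have hnot : ¬ SplitsCompletely F N v.asIdeal := by
          intro h
          have h' := (h 𝔔 (by rw [hQ]; exact Set.mem_singleton _)).1
          rw [he] at h'
          exact hpp.ne_one h'
        rw [if_neg hnot, hQ, Set.ncard_singleton]
    have h3 : (hS (𝔪.map (algebraMap (𝓞 F) (𝓞 N)))).ncard = hfinN.toFinset.card :=
      Set.ncard_eq_toFinset_card _ hfinN
    have h4 : (hS 𝔪).ncard = hfin.toFinset.card := Set.ncard_eq_toFinset_card _ hfin
    have h5 : (hNonsplit F N 𝔪).ncard =
        (hfin.toFinset.filter (fun v => ¬ SplitsCompletely F N v.asIdeal)).card := by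
      rw [hnscard, ← Set.ncard_coe_finset]
      congr 1
      ext v
      rw [Finset.mem_coe, Finset.mem_filter, hmemS]
      rfl
    rw [h3, h4, h5, h1, Finset.sum_congr rfl h2, Finset.card_filter, Finset.mul_sum,
      ← Finset.sum_add_distrib]
    have h6 : ∀ v ∈ hfin.toFinset,
        ((if SplitsCompletely F N v.asIdeal then p else 1) +
          (p - 1) * (if ¬ SplitsCompletely F N v.asIdeal then 1 else 0)) = p := by
      intro v _
      have h1p := hpp.one_le
      by_cases h : SplitsCompletely F N v.asIdeal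
      · rw [if_pos h, if_neg (not_not.mpr h)]
        omega
      · rw [if_neg h, if_pos h]
        omega
    rw [Finset.sum_congr rfl h6, Finset.sum_const, smul_eq_mul, mul_comm]

end Fermat.Agent.S14
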