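/-
S14, block H, package RankUnits: `F ∋ ζ_p` (`p ≥ 3`), `[N : F] = p`; both fields are totally complex,
hence `rank N + 1 = p * (rank F + 1)`.
-/
import Mathlib
import Fermat.Agent.S14.HInterfaces
import Fermat.Agent.S14.Basics2

set_option autoImplicit false

open NumberField

namespace Fermat.Agent.S14

theorem hru_main : TotallyComplexStatement → HRankUnitsStatement := by
  intro hTC p _ hp F N _ _ _ _ _ ζ hζ hFN
  have h1 : 2 * (NumberField.Units.rank F + 1) = Module.finrank ℚ F := hTC p hp F ζ hζ
  have hζN : IsPrimitiveRoot (algebraMap F N ζ) p :=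
    hζ.map_of_injective (algebraMap F N).injective
  have h2 : 2 * (NumberField.Units.rank N + 1) = Module.finrank ℚ N :=
    hTC p hp N (algebraMap F N ζ) hζN
  have h3 : Module.finrank ℚ F * Module.finrank F N = Module.finrank ℚ N :=
    Module.finrank_mul_finrank ℚ F N
  rw [hFN, ← h1, ← h2] at h3
  have h4 : 2 * (NumberField.Units.rank N + 1) = 2 * (p * (NumberField.Units.rank F + 1)) := by
    rw [← h3]; ring
  exact Nat.eq_of_mul_eq_mul_left (by norm_num) h4

end Fermat.Agent.S14
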