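/-
S14, block H, package (Real): realisation.
`hreal_main : HInertStatement → HNormSuppStatement → HRealStatement`.

Ideal bookkeeping: by the Chinese remainder theorem choose `a ≠ 0` with `a ≡ a₀ 𝔮` mod `𝔮` (`𝔮 ∈ T'`),
put `𝔞 = (a) · ∏_{v ∈ I} v ^ (n v)` (`I` = nonsplit primes dividing `𝔪` outside `T'`), apply
`HAllNorms`, move the ideals `𝔄ᵢ` of `N` into the support of `𝔪` (`HSigmaOK`), take norms and read
off the valuations of `u = (a β₂ Nμ₁ Nν₂) / (β₁ Nμ₂ Nν₁)`.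
-/
import Mathlib
import Fermat.Agent.S14.HInterfaces

set_option autoImplicit false

open NumberField IsDedekindDomain

namespace Fermat.Agent.S14

/-- If `(r) · J = (s) · J'` (everything nonzero) in a Dedekind domain, the `v`-adic valuation of
`r / s` is `exp (mult_v J - mult_v J')`. -/
theorem hreal_val_div {R : Type*} [CommRing R] [IsDedekindDomain R] (K : Type*) [Field K]
    [Algebra R K] [IsFractionRing R K] (v : HeightOneSpectrum R) {r s : R} {J J' : Ideal R}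
    (hr : r ≠ 0) (hs : s ≠ 0) (hJ : J ≠ ⊥) (hJ' : J' ≠ ⊥)
    (h : Ideal.span {r} * J = Ideal.span {s} * J') :
    v.valuation K (algebraMap R K r / algebraMap R K s) =
      WithZero.exp ((multiplicity v.asIdeal J : ℤ) - (multiplicity v.asIdeal J' : ℤ)) := by
  have hsr : Ideal.span {r} ≠ ⊥ := by simpa using hr
  have hss : Ideal.span {s} ≠ ⊥ := by simpa using hs
  have h1 : multiplicity v.asIdeal (Ideal.span {r} * J) =
      multiplicity v.asIdeal (Ideal.span {r}) + multiplicity v.asIdeal J :=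
    multiplicity_mul v.prime (FiniteMultiplicity.of_prime_left v.prime (mul_ne_zero hsr hJ))
  have h2 : multiplicity v.asIdeal (Ideal.span {s} * J') =
      multiplicity v.asIdeal (Ideal.span {s}) + multiplicity v.asIdeal J' :=
    multiplicity_mul v.prime (FiniteMultiplicity.of_prime_left v.prime (mul_ne_zero hss hJ'))
  rw [h] at h1
  rw [map_div₀, HeightOneSpectrum.valuation_of_algebraMap,
    HeightOneSpectrum.valuation_of_algebraMap,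
    HeightOneSpectrum.intValuation_eq_exp_neg_multiplicity v hr,
    HeightOneSpectrum.intValuation_eq_exp_neg_multiplicity v hs, ← WithZero.exp_sub]
  congr 1
  omega

/-- A prime `v` outside the finite set `s` does not contain `∏_{v' ∈ s} v' ^ n v'`. -/
theorem hreal_not_prod_le {R : Type*} [CommRing R] [IsDedekindDomain R] (v : HeightOneSpectrum R)
    (s : Finset (HeightOneSpectrum R)) (n : HeightOneSpectrum R → ℕ) (hv : v ∉ s) :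
    ¬ ∏ v' ∈ s, v'.asIdeal ^ n v' ≤ v.asIdeal := by
  intro h
  obtain ⟨v', hv', hle⟩ := (Ideal.IsPrime.prod_le v.isPrime).1 h
  have h1 : v'.asIdeal ≤ v.asIdeal := Ideal.IsPrime.le_of_pow_le (hP := v.isPrime) hle
  have h2 : v'.asIdeal = v.asIdeal := v'.isMaximal.eq_of_le v.isPrime.ne_top h1
  exact hv (HeightOneSpectrum.ext h2 ▸ hv')

/-- The multiplicity of `v` in an ideal not contained in `v` is zero. -/
theorem hreal_mult_eq_zero {R : Type*} [CommRing R] [IsDedekindDomain R] (v : HeightOneSpectrum R)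
    (J : Ideal R) (h : ¬ J ≤ v.asIdeal) : multiplicity v.asIdeal J = 0 :=
  multiplicity_eq_zero.2 (fun hd => h (Ideal.le_of_dvd hd))

/-- The multiplicity of `v` in `v ^ k · 𝔟` with `𝔟` prime to `v`. -/
theorem hreal_mult_pow_mul {R : Type*} [CommRing R] [IsDedekindDomain R] (v : HeightOneSpectrum R)
    (k : ℕ) (𝔟 : Ideal R) (h : ¬ 𝔟 ≤ v.asIdeal) :
    multiplicity v.asIdeal (v.asIdeal ^ k * 𝔟) = k := by
  have h𝔟 : 𝔟 ≠ ⊥ := by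
    rintro rfl
    exact h bot_le
  rw [multiplicity_mul v.prime (FiniteMultiplicity.of_prime_left v.prime
      (mul_ne_zero (pow_ne_zero _ v.ne_bot) h𝔟)),
    multiplicity_pow_self_of_prime v.prime, hreal_mult_eq_zero v 𝔟 h, add_zero]

/-- The multiplicity of `v ∈ s` in `∏_{v' ∈ s} v' ^ n v'`. -/
theorem hreal_mult_prod {R : Type*} [CommRing R] [IsDedekindDomain R] (v : HeightOneSpectrum R)
    (s : Finset (HeightOneSpectrum R)) (n : HeightOneSpectrum R → ℕ) (hv : v ∈ s) :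
    multiplicity v.asIdeal (∏ v' ∈ s, v'.asIdeal ^ n v') = n v := by
  classical
  rw [← Finset.mul_prod_erase s _ hv]
  exact hreal_mult_pow_mul v (n v) _ (hreal_not_prod_le v (s.erase v) n (Finset.notMem_erase v s))

theorem hreal_main : HInertStatement → HNormSuppStatement → HRealStatement := by
  intro hInert hNS p _ F N _ _ _ _ _ ζ x₀ y τ hctx 𝔪 hσ hall a₀ ha₀ n
  obtain ⟨hp3, hζ, hfr, hx₀, hy, hyF, hunr, hgal, hτy, hτgen, hram⟩ := hctx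
  obtain ⟨h𝔪, h𝔪x, hclF, hclN⟩ := hσ
  classical
  have hfin : {v : HeightOneSpectrum (𝓞 F) | v.asIdeal ∣ 𝔪}.Finite := Ideal.finite_factors h𝔪
  -- every prime of `T'` divides `𝔪`
  have hT𝔪 : ∀ 𝔮 ∈ tameSet p F x₀, 𝔪 ≤ 𝔮 := by
    rintro 𝔮 ⟨hq, hq0, hpq, k, hk1, hk2, hk3⟩
    have hk0 : k ≠ 0 := by
      rintro rfl
      exact hk3 (dvd_zero p)
    have hx𝔮 : x₀ ∈ 𝔮 := Ideal.pow_le_self hk0 hk1
    exact h𝔪x.trans ((Ideal.span_singleton_le_iff_mem 𝔮).2 hx𝔮)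
  set Tf : Finset (HeightOneSpectrum (𝓞 F)) :=
    hfin.toFinset.filter (fun v => v.asIdeal ∈ tameSet p F x₀) with hTf
  set If : Finset (HeightOneSpectrum (𝓞 F)) :=
    hfin.toFinset.filter
      (fun v => v.asIdeal ∈ hNonsplit F N 𝔪 ∧ v.asIdeal ∉ tameSet p F x₀) with hIf
  -- Step 1: Chinese remainder theorem
  obtain ⟨a, ha0, ha⟩ : ∃ a : 𝓞 F, a ≠ 0 ∧ ∀ 𝔮 ∈ tameSet p F x₀, a - a₀ 𝔮 ∈ 𝔮 := by
    obtain ⟨b, hb⟩ := IsDedekindDomain.exists_forall_sub_mem_ideal (s := Tf)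
      (fun v => v.asIdeal) (fun _ => 1) (fun v _ => v.prime)
      (fun v _ w _ hvw h => hvw (HeightOneSpectrum.ext h)) (fun v => a₀ v.1.asIdeal)
    have hb' : ∀ 𝔮 ∈ tameSet p F x₀, b - a₀ 𝔮 ∈ 𝔮 := by
      intro 𝔮 hq
      have hmem : (⟨𝔮, hq.1, hq.2.1⟩ : HeightOneSpectrum (𝓞 F)) ∈ Tf := by
        rw [hTf, Finset.mem_filter, Set.Finite.mem_toFinset]
        exact ⟨Ideal.dvd_iff_le.2 (hT𝔪 𝔮 hq), hq⟩
      simpa using hb _ hmem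
    by_cases hb0 : b = 0
    · refine ⟨1, one_ne_zero, fun 𝔮 hq => ?_⟩
      exfalso
      have h1 := hb' 𝔮 hq
      rw [hb0, zero_sub] at h1
      exact ha₀ 𝔮 hq (by simpa using h1)
    · exact ⟨b, hb0, hb'⟩
  -- Step 2: the ideal `𝔞 = (a) · P`
  set P : Ideal (𝓞 F) := ∏ v ∈ If, v.asIdeal ^ n v with hP
  have hP0 : P ≠ ⊥ := by
    rw [hP]
    exact Finset.prod_ne_zero_iff.2 (fun v _ => pow_ne_zero _ v.ne_bot)
  have hsa : Ideal.span {a} ≠ ⊥ := by simpa using ha0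
  have h𝔞0 : Ideal.span {a} * P ≠ ⊥ := mul_ne_zero hsa hP0
  have h𝔞T : ∀ 𝔮 ∈ tameSet p F x₀, ¬ Ideal.span {a} * P ≤ 𝔮 := by
    intro 𝔮 hq hle
    rcases (Ideal.IsPrime.mul_le hq.1).1 hle with h1 | h1
    · have ha𝔮 : a ∈ 𝔮 := (Ideal.span_singleton_le_iff_mem 𝔮).1 h1
      have h2 := ha 𝔮 hq
      exact ha₀ 𝔮 hq (by simpa using sub_mem ha𝔮 h2)
    · have hw : (⟨𝔮, hq.1, hq.2.1⟩ : HeightOneSpectrum (𝓞 F)) ∉ If := by
        rw [hIf, Finset.mem_filter]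
        rintro ⟨_, _, h⟩
        exact h hq
      exact hreal_not_prod_le _ If n hw h1
  obtain ⟨β₁, β₂, 𝔄₁, 𝔄₂, hβ₁, hβ₂, h𝔄₁, h𝔄₂, hT, heq⟩ := hall _ h𝔞0 h𝔞T
  -- Step 3: move `𝔄ᵢ` into the support of `𝔪`
  obtain ⟨μ₁, ν₁, 𝔖₁, hμ₁, hν₁, he₁, hS₁⟩ := hclN 𝔄₁ h𝔄₁
  obtain ⟨μ₂, ν₂, 𝔖₂, hμ₂, hν₂, he₂, hS₂⟩ := hclN 𝔄₂ h𝔄₂
  have h𝔖₁ : 𝔖₁ ≠ ⊥ := by
    rintro rfl
    have hsμ : Ideal.span {μ₁} ≠ ⊥ := by simpa using hμ₁
    exact mul_ne_zero hsμ h𝔄₁ (by rw [he₁]; simp)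
  have h𝔖₂ : 𝔖₂ ≠ ⊥ := by
    rintro rfl
    have hsμ : Ideal.span {μ₂} ≠ ⊥ := by simpa using hμ₂
    exact mul_ne_zero hsμ h𝔄₂ (by rw [he₂]; simp)
  have hN₁ : Ideal.span {Algebra.intNorm (𝓞 F) (𝓞 N) μ₁} * Ideal.relNorm (𝓞 F) 𝔄₁ =
      Ideal.span {Algebra.intNorm (𝓞 F) (𝓞 N) ν₁} * Ideal.relNorm (𝓞 F) 𝔖₁ := by
    rw [← Ideal.relNorm_singleton, ← Ideal.relNorm_singleton, ← map_mul, ← map_mul, he₁]
  have hN₂ : Ideal.span {Algebra.intNorm (𝓞 F) (𝓞 N) μ₂} * Ideal.relNorm (𝓞 F) 𝔄₂ =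
      Ideal.span {Algebra.intNorm (𝓞 F) (𝓞 N) ν₂} * Ideal.relNorm (𝓞 F) 𝔖₂ := by
    rw [← Ideal.relNorm_singleton, ← Ideal.relNorm_singleton, ← map_mul, ← map_mul, he₂]
  have hR₁ : Ideal.relNorm (𝓞 F) 𝔖₁ ≠ ⊥ := fun h => h𝔖₁ (Ideal.relNorm_eq_bot_iff.1 h)
  have hR₂ : Ideal.relNorm (𝓞 F) 𝔖₂ ≠ ⊥ := fun h => h𝔖₂ (Ideal.relNorm_eq_bot_iff.1 h)
  have hstar : Ideal.span {a * β₂ * Algebra.intNorm (𝓞 F) (𝓞 N) μ₁ *
        Algebra.intNorm (𝓞 F) (𝓞 N) ν₂} * (P * Ideal.relNorm (𝓞 F) 𝔖₂) =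
      Ideal.span {β₁ * Algebra.intNorm (𝓞 F) (𝓞 N) μ₂ * Algebra.intNorm (𝓞 F) (𝓞 N) ν₁} *
        Ideal.relNorm (𝓞 F) 𝔖₁ := by
    simp only [← Ideal.span_singleton_mul_span_singleton]
    calc Ideal.span {a} * Ideal.span {β₂} * Ideal.span {Algebra.intNorm (𝓞 F) (𝓞 N) μ₁} *
          Ideal.span {Algebra.intNorm (𝓞 F) (𝓞 N) ν₂} * (P * Ideal.relNorm (𝓞 F) 𝔖₂)
        = (Ideal.span {a} * P * Ideal.span {β₂}) *
            Ideal.span {Algebra.intNorm (𝓞 F) (𝓞 N) μ₁} *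
            (Ideal.span {Algebra.intNorm (𝓞 F) (𝓞 N) ν₂} * Ideal.relNorm (𝓞 F) 𝔖₂) := by ring
      _ = (Ideal.span {a} * P * Ideal.span {β₂}) *
            Ideal.span {Algebra.intNorm (𝓞 F) (𝓞 N) μ₁} *
            (Ideal.span {Algebra.intNorm (𝓞 F) (𝓞 N) μ₂} * Ideal.relNorm (𝓞 F) 𝔄₂) := by
          rw [hN₂]
      _ = (Ideal.span {a} * P * Ideal.span {β₂} * Ideal.relNorm (𝓞 F) 𝔄₂) *
            Ideal.span {Algebra.intNorm (𝓞 F) (𝓞 N) μ₁} *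
            Ideal.span {Algebra.intNorm (𝓞 F) (𝓞 N) μ₂} := by ring
      _ = (Ideal.span {β₁} * Ideal.relNorm (𝓞 F) 𝔄₁) *
            Ideal.span {Algebra.intNorm (𝓞 F) (𝓞 N) μ₁} *
            Ideal.span {Algebra.intNorm (𝓞 F) (𝓞 N) μ₂} := by rw [heq]
      _ = Ideal.span {β₁} * Ideal.span {Algebra.intNorm (𝓞 F) (𝓞 N) μ₂} *
            (Ideal.span {Algebra.intNorm (𝓞 F) (𝓞 N) μ₁} * Ideal.relNorm (𝓞 F) 𝔄₁) := by ring
      _ = Ideal.span {β₁} * Ideal.span {Algebra.intNorm (𝓞 F) (𝓞 N) μ₂} *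
            (Ideal.span {Algebra.intNorm (𝓞 F) (𝓞 N) ν₁} * Ideal.relNorm (𝓞 F) 𝔖₁) := by
          rw [hN₁]
      _ = Ideal.span {β₁} * Ideal.span {Algebra.intNorm (𝓞 F) (𝓞 N) μ₂} *
            Ideal.span {Algebra.intNorm (𝓞 F) (𝓞 N) ν₁} * Ideal.relNorm (𝓞 F) 𝔖₁ := by ring
  -- Step 4: the elements `u` and `w`
  have hr0 : a * β₂ * Algebra.intNorm (𝓞 F) (𝓞 N) μ₁ * Algebra.intNorm (𝓞 F) (𝓞 N) ν₂ ≠ 0 :=
    mul_ne_zero (mul_ne_zero (mul_ne_zero ha0 hβ₂) (Algebra.intNorm_ne_zero.2 hμ₁))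
      (Algebra.intNorm_ne_zero.2 hν₂)
  have hs0 : β₁ * Algebra.intNorm (𝓞 F) (𝓞 N) μ₂ * Algebra.intNorm (𝓞 F) (𝓞 N) ν₁ ≠ 0 :=
    mul_ne_zero (mul_ne_zero hβ₁ (Algebra.intNorm_ne_zero.2 hμ₂)) (Algebra.intNorm_ne_zero.2 hν₁)
  have hinjF : Function.Injective (algebraMap (𝓞 F) F) := IsFractionRing.injective (𝓞 F) F
  have hinjN : Function.Injective (algebraMap (𝓞 N) N) := IsFractionRing.injective (𝓞 N) N
  have hrF : algebraMap (𝓞 F) F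
      (a * β₂ * Algebra.intNorm (𝓞 F) (𝓞 N) μ₁ * Algebra.intNorm (𝓞 F) (𝓞 N) ν₂) ≠ 0 :=
    (map_ne_zero_iff _ hinjF).2 hr0
  have hsF : algebraMap (𝓞 F) F
      (β₁ * Algebra.intNorm (𝓞 F) (𝓞 N) μ₂ * Algebra.intNorm (𝓞 F) (𝓞 N) ν₁) ≠ 0 :=
    (map_ne_zero_iff _ hinjF).2 hs0
  have hμ₁N : algebraMap (𝓞 N) N μ₁ ≠ 0 := (map_ne_zero_iff _ hinjN).2 hμ₁
  have hμ₂N : algebraMap (𝓞 N) N μ₂ ≠ 0 := (map_ne_zero_iff _ hinjN).2 hμ₂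
  have hν₁N : algebraMap (𝓞 N) N ν₁ ≠ 0 := (map_ne_zero_iff _ hinjN).2 hν₁
  have hν₂N : algebraMap (𝓞 N) N ν₂ ≠ 0 := (map_ne_zero_iff _ hinjN).2 hν₂
  have hnorm : ∀ x : 𝓞 N, algebraMap (𝓞 F) F (Algebra.intNorm (𝓞 F) (𝓞 N) x) =
      Algebra.norm F (algebraMap (𝓞 N) N x) := fun x => Algebra.algebraMap_intNorm (L := N) x
  -- valuations of `u`
  have hval : ∀ v : HeightOneSpectrum (𝓞 F),
      v.valuation F (algebraMap (𝓞 F) F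
          (a * β₂ * Algebra.intNorm (𝓞 F) (𝓞 N) μ₁ * Algebra.intNorm (𝓞 F) (𝓞 N) ν₂) /
        algebraMap (𝓞 F) F
          (β₁ * Algebra.intNorm (𝓞 F) (𝓞 N) μ₂ * Algebra.intNorm (𝓞 F) (𝓞 N) ν₁)) =
      WithZero.exp ((multiplicity v.asIdeal (P * Ideal.relNorm (𝓞 F) 𝔖₂) : ℤ) -
        (multiplicity v.asIdeal (Ideal.relNorm (𝓞 F) 𝔖₁) : ℤ)) := fun v =>
    hreal_val_div F v hr0 hs0 (mul_ne_zero hP0 hR₂) hR₁ hstar
  -- a prime not dividing `𝔪` does not contain the norm of `𝔖ᵢ`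
  have hout₁ : ∀ v : HeightOneSpectrum (𝓞 F), v ∉ hS 𝔪 →
      ¬ Ideal.relNorm (𝓞 F) 𝔖₁ ≤ v.asIdeal := by
    intro v hv hle
    obtain ⟨𝔔, h𝔔, h𝔖𝔔, hu⟩ := hNS F N 𝔖₁ v.asIdeal h𝔖₁ v.isPrime hle
    exact hv (by
      show 𝔪 ≤ v.asIdeal
      rw [← hu]
      exact hS₁ 𝔔 h𝔔 h𝔖𝔔)
  have hout₂ : ∀ v : HeightOneSpectrum (𝓞 F), v ∉ hS 𝔪 →
      ¬ Ideal.relNorm (𝓞 F) 𝔖₂ ≤ v.asIdeal := by
    intro v hv hle
    obtain ⟨𝔔, h𝔔, h𝔖𝔔, hu⟩ := hNS F N 𝔖₂ v.asIdeal h𝔖₂ v.isPrime hle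
    exact hv (by
      show 𝔪 ≤ v.asIdeal
      rw [← hu]
      exact hS₂ 𝔔 h𝔔 h𝔖𝔔)
  have hIfS : ∀ v : HeightOneSpectrum (𝓞 F), v ∈ If → v ∈ hS 𝔪 := by
    intro v hv
    rw [hIf, Finset.mem_filter, Set.Finite.mem_toFinset] at hv
    exact Ideal.dvd_iff_le.1 hv.1
  refine ⟨Units.mk0 _ (div_ne_zero hrF hsF), a, β₁, β₂,
    Units.mk0 ((algebraMap (𝓞 N) N μ₁ * algebraMap (𝓞 N) N ν₂) /
      (algebraMap (𝓞 N) N μ₂ * algebraMap (𝓞 N) N ν₁))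
      (div_ne_zero (mul_ne_zero hμ₁N hν₂N) (mul_ne_zero hμ₂N hν₁N)),
    ?_, ha0, hβ₁, hβ₂, ?_, ?_, ?_⟩
  · -- `u` is a `Σ`-unit
    show ∀ v : HeightOneSpectrum (𝓞 F), v ∉ hS 𝔪 → v.valuation F _ = 1
    intro v hv
    rw [Units.val_mk0, hval v]
    have hvI : v ∉ If := fun h => hv (hIfS v h)
    have h1 : multiplicity v.asIdeal (P * Ideal.relNorm (𝓞 F) 𝔖₂) = 0 := by
      apply hreal_mult_eq_zero
      intro hle
      rcases (Ideal.IsPrime.mul_le v.isPrime).1 hle with h | h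
      · exact hreal_not_prod_le v If n hvI h
      · exact hout₂ v hv h
    have h2 : multiplicity v.asIdeal (Ideal.relNorm (𝓞 F) 𝔖₁) = 0 :=
      hreal_mult_eq_zero v _ (hout₁ v hv)
    rw [h1, h2]
    simp
  · -- the norm equation
    rw [Units.val_mk0, Units.val_mk0]
    show _ * algebraMap (𝓞 F) F β₁ = algebraMap (𝓞 F) F a * algebraMap (𝓞 F) F β₂ * _
    have hw : Algebra.norm F ((algebraMap (𝓞 N) N μ₁ * algebraMap (𝓞 N) N ν₂) /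
          (algebraMap (𝓞 N) N μ₂ * algebraMap (𝓞 N) N ν₁)) =
        (algebraMap (𝓞 F) F (Algebra.intNorm (𝓞 F) (𝓞 N) μ₁) *
            algebraMap (𝓞 F) F (Algebra.intNorm (𝓞 F) (𝓞 N) ν₂)) /
          (algebraMap (𝓞 F) F (Algebra.intNorm (𝓞 F) (𝓞 N) μ₂) *
            algebraMap (𝓞 F) F (Algebra.intNorm (𝓞 F) (𝓞 N) ν₁)) := by
      rw [div_eq_mul_inv, map_mul, Algebra.norm_inv, map_mul, map_mul, ← hnorm, ← hnorm, ← hnorm,
        ← hnorm, div_eq_mul_inv]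
    rw [hw]
    simp only [map_mul] at hrF hsF ⊢
    have hβ₁F : algebraMap (𝓞 F) F β₁ ≠ 0 := (map_ne_zero_iff _ hinjF).2 hβ₁
    have h1 : algebraMap (𝓞 F) F (Algebra.intNorm (𝓞 F) (𝓞 N) μ₂) ≠ 0 :=
      (map_ne_zero_iff _ hinjF).2 (Algebra.intNorm_ne_zero.2 hμ₂)
    have h2 : algebraMap (𝓞 F) F (Algebra.intNorm (𝓞 F) (𝓞 N) ν₁) ≠ 0 :=
      (map_ne_zero_iff _ hinjF).2 (Algebra.intNorm_ne_zero.2 hν₁)
    field_simp
  · -- conditions at `T'`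
    intro 𝔮 hq
    obtain ⟨h1, h2, h3, -, -⟩ := hT 𝔮 hq
    exact ⟨ha 𝔮 hq, h1, h2, h3⟩
  · -- valuations at the nonsplit primes outside `T'`
    intro v hvns hvT
    have hvI : v ∈ If := by
      rw [hIf, Finset.mem_filter, Set.Finite.mem_toFinset]
      exact ⟨Ideal.dvd_iff_le.2 hvns.2.1, hvns, hvT⟩
    have hgal' : IsGalois F N := hgal
    have hunrv : ∀ 𝔔 ∈ v.asIdeal.primesOver (𝓞 N), 𝔔.ramificationIdx (𝓞 F) = 1 := by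
      intro 𝔔 h𝔔
      have hlo : 𝔔.LiesOver v.asIdeal := h𝔔.2
      have hne : 𝔔 ≠ ⊥ := Ideal.ne_bot_of_liesOver_of_ne_bot v.ne_bot 𝔔
      refine hunr 𝔔 h𝔔.1 hne ?_
      rw [← Ideal.over_def 𝔔 v.asIdeal]
      exact hvT
    obtain ⟨k₁, 𝔟₁, hk₁, hb₁⟩ :=
      hInert p F N hfr v.asIdeal v.isPrime v.ne_bot hunrv hvns.2.2 𝔖₁ h𝔖₁
    obtain ⟨k₂, 𝔟₂, hk₂, hb₂⟩ :=
      hInert p F N hfr v.asIdeal v.isPrime v.ne_bot hunrv hvns.2.2 𝔖₂ h𝔖₂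
    refine ⟨(k₂ : ℤ) - (k₁ : ℤ), ?_⟩
    rw [Units.val_mk0, hval v]
    have h1 : multiplicity v.asIdeal (P * Ideal.relNorm (𝓞 F) 𝔖₂) = n v + p * k₂ := by
      rw [multiplicity_mul v.prime (FiniteMultiplicity.of_prime_left v.prime
        (mul_ne_zero hP0 hR₂)), hP, hreal_mult_prod v If n hvI, hk₂,
        hreal_mult_pow_mul v _ _ hb₂]
    have h2 : multiplicity v.asIdeal (Ideal.relNorm (𝓞 F) 𝔖₁) = p * k₁ := by
      rw [hk₁, hreal_mult_pow_mul v _ _ hb₁]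
    rw [h1, h2]
    congr 1
    push_cast
    ring

end Fermat.Agent.S14
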