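/-
S14, block H, package Sigma: existence of a good modulus `𝔪` (`HSigmaStatement`).

For a number field `K` the class group of `𝓞 K` is finite; choosing a nonzero integral ideal in every
class and multiplying them gives a nonzero ideal `𝔐` such that every nonzero ideal is equivalent to an
ideal containing `𝔐`.  The modulus is `𝔪 = (x₀) * 𝔐_F * N_{N/F}(𝔐_N)`.
-/
import Mathlib
import Fermat.Agent.S14.HInterfaces

set_option autoImplicit false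

open NumberField
open scoped nonZeroDivisors

namespace Fermat.Agent.S14

/-- In a number field `K` there is a nonzero ideal `𝔐` of `𝓞 K` such that every nonzero ideal is
equivalent (in the class group) to an integral ideal containing `𝔐`. -/
theorem hsig_classReps (K : Type) [Field K] [NumberField K] :
    ∃ 𝔐 : Ideal (𝓞 K), 𝔐 ≠ ⊥ ∧
      ∀ 𝔟 : Ideal (𝓞 K), 𝔟 ≠ ⊥ → ∃ (x y : 𝓞 K) (𝔰 : Ideal (𝓞 K)), x ≠ 0 ∧ y ≠ 0 ∧
        Ideal.span {x} * 𝔟 = Ideal.span {y} * 𝔰 ∧ 𝔐 ≤ 𝔰 := by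
  classical
  choose rep hrep using
    (ClassGroup.mk0_surjective : Function.Surjective
      (ClassGroup.mk0 : (Ideal (𝓞 K))⁰ → ClassGroup (𝓞 K)))
  refine ⟨∏ c : ClassGroup (𝓞 K), (rep c : Ideal (𝓞 K)), ?_, ?_⟩
  · rw [← Ideal.zero_eq_bot, Finset.prod_ne_zero_iff]
    intro c _
    exact nonZeroDivisors.coe_ne_zero (rep c)
  · intro 𝔟 h𝔟
    have h𝔟' : 𝔟 ∈ (Ideal (𝓞 K))⁰ := mem_nonZeroDivisors_iff_ne_zero.mpr h𝔟
    set c : ClassGroup (𝓞 K) := ClassGroup.mk0 ⟨𝔟, h𝔟'⟩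
    have hcls : ClassGroup.mk0 (⟨𝔟, h𝔟'⟩ : (Ideal (𝓞 K))⁰) = ClassGroup.mk0 (rep c) :=
      (hrep c).symm
    obtain ⟨x, y, hx, hy, hxy⟩ := ClassGroup.mk0_eq_mk0_iff.mp hcls
    refine ⟨x, y, (rep c : Ideal (𝓞 K)), hx, hy, hxy, ?_⟩
    exact Ideal.le_of_dvd (Finset.dvd_prod_of_mem _ (Finset.mem_univ c))

/-- (Sigma) existence of a good modulus. -/
theorem hsig_main : HSigmaStatement := by
  intro F N _ _ _ _ _ x₀ hx₀
  obtain ⟨𝔐F, h𝔐F, hF⟩ := hsig_classReps F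
  obtain ⟨𝔐N, h𝔐N, hN⟩ := hsig_classReps N
  have hx₀' : Ideal.span {x₀} ≠ (⊥ : Ideal (𝓞 F)) := by
    simpa [Ideal.span_singleton_eq_bot] using hx₀
  have hrel : Ideal.relNorm (𝓞 F) 𝔐N ≠ ⊥ := by
    rw [Ne, Ideal.relNorm_eq_bot_iff]
    exact h𝔐N
  refine ⟨Ideal.span {x₀} * 𝔐F * Ideal.relNorm (𝓞 F) 𝔐N, ?_, ?_, ?_, ?_⟩
  · rw [← Ideal.zero_eq_bot]
    exact mul_ne_zero (mul_ne_zero hx₀' h𝔐F) hrel
  · exact le_trans Ideal.mul_le_left Ideal.mul_le_left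
  · intro 𝔟 h𝔟
    obtain ⟨x, y, 𝔰, hx, hy, hxy, hle⟩ := hF 𝔟 h𝔟
    refine ⟨x, y, 𝔰, hx, hy, hxy, ?_⟩
    intro 𝔮 _ h𝔰𝔮
    exact le_trans (le_trans Ideal.mul_le_left Ideal.mul_le_right) (le_trans hle h𝔰𝔮)
  · intro 𝔅 h𝔅
    obtain ⟨x, y, 𝔖, hx, hy, hxy, hle⟩ := hN 𝔅 h𝔅
    refine ⟨x, y, 𝔖, hx, hy, hxy, ?_⟩
    intro 𝔔 _ h𝔖𝔔
    refine le_trans Ideal.mul_le_right ?_
    refine le_trans (Ideal.relNorm_le_comap (R := 𝓞 F) 𝔐N) ?_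
    exact Ideal.comap_mono (le_trans hle h𝔖𝔔)

end Fermat.Agent.S14
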