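/-
S14, block H, package Tame: the norm-residue character at a tamely ramified prime `𝔮 ∈ T'`.

`H := P ⊔ Nm`, where `P` is the group of `𝔮`-units of `F` which are `p`-th power residues and `Nm`
the group of norms from `Nˣ`.  The quotient `Fˣ ⧸ H` is killed by `p`, generated by the class of a
lift of a generator of the residue field, and nontrivial; so it is cyclic of order `p`.
-/
import Fermat.Agent.S14.HInterfaces
import Fermat.Agent.S14.BTrichotomyA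

set_option autoImplicit false

open NumberField IsDedekindDomain

namespace Fermat.Agent.S14

/-- The subgroup of `𝔮`-units of `F` which are `p`-th power residues modulo the maximal ideal `𝔮`. -/
def htame_P (p : ℕ) (F : Type) [Field F] [NumberField F] (𝔮 : Ideal (𝓞 F)) (h𝔮 : 𝔮.IsMaximal) :
    Subgroup Fˣ where
  carrier := {u | ∃ β₁ β₂ c : 𝓞 F, β₁ ∉ 𝔮 ∧ β₂ ∉ 𝔮 ∧ β₁ - c ^ p * β₂ ∈ 𝔮 ∧
    (u : F) * (β₂ : F) = (β₁ : F)}
  one_mem' := by
    have h1 : (1 : 𝓞 F) ∉ 𝔮 := (Ideal.ne_top_iff_one 𝔮).mp h𝔮.ne_top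
    exact ⟨1, 1, 1, h1, h1, by simp, by simp⟩
  mul_mem' := by
    rintro u u' ⟨β₁, β₂, c, h1, h2, h3, h4⟩ ⟨β₁', β₂', c', h1', h2', h3', h4'⟩
    have hpr : 𝔮.IsPrime := h𝔮.isPrime
    refine ⟨β₁ * β₁', β₂ * β₂', c * c', ?_, ?_, ?_, ?_⟩
    · exact fun h => (hpr.mem_or_mem h).elim h1 h1'
    · exact fun h => (hpr.mem_or_mem h).elim h2 h2'
    · have : β₁ * β₁' - (c * c') ^ p * (β₂ * β₂') =
          β₁ * (β₁' - c' ^ p * β₂') + c' ^ p * β₂' * (β₁ - c ^ p * β₂) := by ring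
      rw [this]
      exact 𝔮.add_mem (𝔮.mul_mem_left _ h3') (𝔮.mul_mem_left _ h3)
    · push_cast
      linear_combination ((u' : F) * (β₂' : F)) * h4 + (β₁ : F) * h4'
  inv_mem' := by
    rintro u ⟨β₁, β₂, c, h1, h2, h3, h4⟩
    have hpr : 𝔮.IsPrime := h𝔮.isPrime
    have hb2 : (β₂ : F) ≠ 0 := by
      intro h
      apply h2
      have : β₂ = 0 := by exact_mod_cast h
      rw [this]; exact 𝔮.zero_mem
    have h4' : ((u⁻¹ : Fˣ) : F) * (β₁ : F) = (β₂ : F) := by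
      rw [Units.val_inv_eq_inv_val, ← h4]
      field_simp
    by_cases hp0 : p = 0
    · subst hp0
      refine ⟨β₂, β₁, 1, h2, h1, ?_, h4'⟩
      have : β₂ - 1 ^ 0 * β₁ = -(β₁ - c ^ 0 * β₂) := by ring
      rw [this]
      exact 𝔮.neg_mem h3
    have hc : c ∉ 𝔮 := by
      intro hc
      apply h1
      have : β₁ = (β₁ - c ^ p * β₂) + c ^ p * β₂ := by ring
      rw [this]
      exact 𝔮.add_mem h3 (𝔮.mul_mem_right _ (𝔮.pow_mem_of_mem hc p (Nat.pos_of_ne_zero hp0)))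
    obtain ⟨c', i, hi, hci⟩ := h𝔮.exists_inv hc
    refine ⟨β₂, β₁, c', h2, h1, ?_, h4'⟩
    have h5 : (1 : 𝓞 F) - (c' * c) ^ p ∈ 𝔮 := by
      have h6 : (1 : 𝓞 F) - c' * c ∣ 1 ^ p - (c' * c) ^ p := sub_dvd_pow_sub_pow 1 (c' * c) p
      rw [one_pow] at h6
      refine 𝔮.mem_of_dvd h6 ?_
      have : (1 : 𝓞 F) - c' * c = i := by rw [← hci]; ring
      rw [this]; exact hi
    have : β₂ - c' ^ p * β₁ = β₂ * (1 - (c' * c) ^ p) - c' ^ p * (β₁ - c ^ p * β₂) := by ring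
    rw [this]
    exact 𝔮.sub_mem (𝔮.mul_mem_left _ h5) (𝔮.mul_mem_left _ h3)

/-- Valuation of a norm at a totally ramified prime with Galois-invariant valuation. -/
theorem htame_val_norm {p : ℕ} (hp : p ≠ 0) {F N : Type} [Field F] [NumberField F] [Field N]
    [NumberField N] [Algebra F N] [IsGalois F N] (hdeg : Module.finrank F N = p)
    (v : HeightOneSpectrum (𝓞 F)) (w : HeightOneSpectrum (𝓞 N))
    (hV1 : ∀ x : F, w.valuation N (algebraMap F N x) = v.valuation F x ^ p)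
    (hV2 : ∀ (σ : N ≃ₐ[F] N) (x : N), w.valuation N (σ x) = w.valuation N x) (z : N) :
    v.valuation F (Algebra.norm F z) = w.valuation N z := by
  have h1 : w.valuation N (algebraMap F N (Algebra.norm F z)) = w.valuation N z ^ p := by
    rw [Algebra.norm_eq_prod_automorphisms, map_prod]
    simp only [hV2, Finset.prod_const, Finset.card_univ]
    rw [← Nat.card_eq_fintype_card, IsGalois.card_aut_eq_finrank, hdeg]
  rw [hV1] at h1
  exact (pow_left_inj₀ zero_le zero_le hp).mp h1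

/-- The norm of an integer of `N` is congruent to a `p`-th power at a totally ramified prime
with residue degree one. -/
theorem htame_norm_residue {p : ℕ} {F N : Type} [Field F] [NumberField F] [Field N]
    [NumberField N] [Algebra F N] [IsGalois F N] (hdeg : Module.finrank F N = p)
    (𝔮 : Ideal (𝓞 F)) (w : HeightOneSpectrum (𝓞 N))
    (hover : ∀ x : 𝓞 F, algebraMap (𝓞 F) (𝓞 N) x ∈ w.asIdeal ↔ x ∈ 𝔮)
    (hV2 : ∀ (σ : N ≃ₐ[F] N) (x : N), w.valuation N (σ x) = w.valuation N x)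
    (a : 𝓞 N) (c : 𝓞 F) (hac : a - algebraMap (𝓞 F) (𝓞 N) c ∈ w.asIdeal) :
    RingOfIntegers.norm F a - c ^ p ∈ 𝔮 := by
  have h1 : ∀ σ : N ≃ₐ[F] N, σ • a - algebraMap (𝓞 F) (𝓞 N) c ∈ w.asIdeal := by
    intro σ
    rw [← w.valuation_lt_one_iff_mem (K := N)] at hac ⊢
    have hc : algebraMap (𝓞 N) N (algebraMap (𝓞 F) (𝓞 N) c) =
        σ (algebraMap (𝓞 N) N (algebraMap (𝓞 F) (𝓞 N) c)) := by
      rw [← IsScalarTower.algebraMap_apply (𝓞 F) (𝓞 N) N,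
        IsScalarTower.algebraMap_apply (𝓞 F) F N, AlgEquiv.commutes]
    have ha : algebraMap (𝓞 N) N (σ • a) = σ (algebraMap (𝓞 N) N a) := algebraMap.smul' σ a N
    have : algebraMap (𝓞 N) N (σ • a - algebraMap (𝓞 F) (𝓞 N) c) =
        σ (algebraMap (𝓞 N) N (a - algebraMap (𝓞 F) (𝓞 N) c)) := by
      rw [map_sub, map_sub, map_sub, ha, ← hc]
    show w.valuation N (algebraMap (𝓞 N) N (σ • a - algebraMap (𝓞 F) (𝓞 N) c)) < 1
    rw [this, hV2]
    exact hac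
  have h2 : algebraMap (𝓞 F) (𝓞 N) (RingOfIntegers.norm F a) = ∏ σ : N ≃ₐ[F] N, σ • a := by
    apply RingOfIntegers.ext
    rw [RingOfIntegers.coe_algebraMap_norm, Algebra.norm_eq_prod_automorphisms]
    show _ = algebraMap (𝓞 N) N (∏ σ : N ≃ₐ[F] N, σ • a)
    rw [map_prod]
    exact Finset.prod_congr rfl (fun σ _ => (algebraMap.smul' σ a N).symm)
  rw [← hover, map_sub, map_pow, h2, ← Ideal.Quotient.eq, map_prod, map_pow]
  rw [Finset.prod_congr rfl (fun σ _ => Ideal.Quotient.eq.mpr (h1 σ)), Finset.prod_const,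
    Finset.card_univ, ← Nat.card_eq_fintype_card, IsGalois.card_aut_eq_finrank, hdeg]

/-- The residue field at a prime `𝔮 ∤ p` of a field containing `ζ_p`: its unit group is generated
by the class of some `a₀`, which is not a `p`-th power residue. -/
theorem htame_residue (p : ℕ) [hp : Fact p.Prime] (F : Type) [Field F] [NumberField F] (ζ : F)
    (hζ : IsPrimitiveRoot ζ p) (𝔮 : Ideal (𝓞 F)) (h𝔮 : 𝔮.IsPrime) (h𝔮0 : 𝔮 ≠ ⊥)
    (hp𝔮 : (p : 𝓞 F) ∉ 𝔮) :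
    ∃ a₀ : 𝓞 F, a₀ ∉ 𝔮 ∧ (∀ a : 𝓞 F, a ∉ 𝔮 → ∃ i : ℕ, a - a₀ ^ i ∈ 𝔮) ∧
      ¬ ∃ c : 𝓞 F, a₀ - c ^ p ∈ 𝔮 := by
  have hmax : 𝔮.IsMaximal := h𝔮.isMaximal h𝔮0
  let _ : Field (𝓞 F ⧸ 𝔮) := Ideal.Quotient.field 𝔮
  have : Finite (𝓞 F ⧸ 𝔮) := Ideal.finiteQuotientOfFreeOfNeBot 𝔮 h𝔮0
  obtain ⟨γ, hγ⟩ := IsCyclic.exists_monoid_generator (α := (𝓞 F ⧸ 𝔮)ˣ)
  obtain ⟨a₀, ha₀⟩ := Ideal.Quotient.mk_surjective (γ : 𝓞 F ⧸ 𝔮)
  have hmk : ∀ a : 𝓞 F, a ∉ 𝔮 ↔ Ideal.Quotient.mk 𝔮 a ≠ 0 := fun a => by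
    rw [Ne, Ideal.Quotient.eq_zero_iff_mem]
  refine ⟨a₀, ?_, ?_, ?_⟩
  · rw [hmk, ha₀]; exact γ.ne_zero
  · intro a ha
    rw [hmk] at ha
    obtain ⟨i, hi⟩ := hγ (Units.mk0 _ ha)
    refine ⟨i, ?_⟩
    rw [← Ideal.Quotient.eq, map_pow, ha₀]
    have := congrArg Units.val hi
    simpa using this.symm
  · rintro ⟨c, hc⟩
    rw [← Ideal.Quotient.eq, map_pow, ha₀] at hc
    have hc0 : Ideal.Quotient.mk 𝔮 c ≠ 0 := by
      intro h
      rw [h, zero_pow hp.out.ne_zero] at hc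
      exact γ.ne_zero hc
    have hγp : γ = (Units.mk0 _ hc0) ^ p := Units.ext (by simpa using hc)
    have hsurj : Function.Surjective (fun x : (𝓞 F ⧸ 𝔮)ˣ => x ^ p) := by
      intro x
      obtain ⟨i, hi⟩ := hγ x
      have hi' : γ ^ i = x := hi
      refine ⟨(Units.mk0 _ hc0) ^ i, ?_⟩
      show ((Units.mk0 _ hc0) ^ i) ^ p = x
      rw [← hi', hγp, ← pow_mul, ← pow_mul, mul_comm]
    have hinj := Finite.injective_iff_surjective.mpr hsurj
    have hζ' : IsPrimitiveRoot hζ.toInteger p := hζ.toInteger_isPrimitiveRoot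
    set z := Ideal.Quotient.mk 𝔮 hζ.toInteger with hz
    have hzp : z ^ p = 1 := by rw [hz, ← map_pow, hζ'.pow_eq_one, map_one]
    have hz0 : z ≠ 0 := by
      intro h; rw [h, zero_pow hp.out.ne_zero] at hzp; exact zero_ne_one hzp
    have h1 : Units.mk0 z hz0 = 1 := hinj (by simp [Units.ext_iff, hzp])
    have hz1 : z = 1 := by simpa [Units.ext_iff] using h1
    apply hp𝔮
    rw [← Ideal.Quotient.eq_zero_iff_mem]
    have hsum := congrArg (Ideal.Quotient.mk 𝔮) (hζ'.geom_sum_eq_zero hp.out.one_lt)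
    rw [map_sum] at hsum
    simp only [map_pow, ← hz, hz1, one_pow, Finset.sum_const, Finset.card_range, map_zero,
      nsmul_eq_mul, mul_one] at hsum
    rw [map_natCast]; exact hsum

/-- A commutative group `G` with a subgroup `H` containing all `p`-th powers, such that `G` is
generated by `H` and one element `u₀ ∉ H`, has a character of order `p` which is trivial on `H`
and surjective on the powers of `u₀`. -/
theorem htame_char (p : ℕ) [hp : Fact p.Prime] {G : Type} [CommGroup G] (H : Subgroup G) (u₀ : G)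
    (hpow : ∀ u : G, u ^ p ∈ H) (hgen : ∀ u : G, u ∈ H ⊔ Subgroup.zpowers u₀) (hu₀ : u₀ ∉ H) :
    ∃ χ : G →* Multiplicative (ZMod p), (∀ u ∈ H, χ u = 1) ∧
      ∀ t : Multiplicative (ZMod p), ∃ i : ℕ, χ (u₀ ^ i) = t := by
  have hp0 : p ≠ 0 := hp.out.ne_zero
  let π : G →* G ⧸ H := QuotientGroup.mk' H
  have hπ1 : ∀ u : G, u ∈ H → π u = 1 := fun u hu => (QuotientGroup.eq_one_iff u).mpr hu
  have hπp : ∀ u : G, π u ^ p = 1 := fun u => by rw [← map_pow]; exact hπ1 _ (hpow u)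
  have h8 : π u₀ ≠ 1 := fun h => hu₀ ((QuotientGroup.eq_one_iff u₀).mp h)
  have hord : orderOf (π u₀) = p := orderOf_eq_prime (hπp u₀) h8
  have hall : ∀ g : G ⧸ H, g ∈ Subgroup.zpowers (π u₀) := by
    intro g
    obtain ⟨u, rfl⟩ := QuotientGroup.mk'_surjective H g
    obtain ⟨h, hh, z, hz, rfl⟩ := Subgroup.mem_sup.mp (hgen u)
    obtain ⟨i, rfl⟩ := Subgroup.mem_zpowers_iff.mp hz
    rw [map_mul, hπ1 h hh, one_mul, map_zpow]
    exact Subgroup.zpow_mem_zpowers _ _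
  have hcard : Nat.card (G ⧸ H) = p := by
    rw [← orderOf_eq_card_of_forall_mem_zpowers hall, hord]
  have hfin : Finite (G ⧸ H) := Nat.finite_of_card_ne_zero (by rw [hcard]; exact hp0)
  let e : (G ⧸ H) ≃* Multiplicative (ZMod p) := mulEquivOfPrimeCardEq hcard (by simp)
  refine ⟨e.toMonoidHom.comp π, ?_, ?_⟩
  · intro u hu
    show e (π u) = 1
    rw [hπ1 u hu, map_one]
  · intro t
    have hmem := hall (e.symm t)
    rw [← mem_powers_iff_mem_zpowers] at hmem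
    obtain ⟨i, hi⟩ := hmem
    have hi' : π u₀ ^ i = e.symm t := hi
    refine ⟨i, ?_⟩
    show e (π (u₀ ^ i)) = t
    rw [map_pow, hi', MulEquiv.apply_symm_apply]

/-- The abstract core: construction of the character from the local data at `𝔮 = v.asIdeal`. -/
theorem htame_core (p : ℕ) [hp : Fact p.Prime] (F N : Type) [Field F] [NumberField F] [Field N]
    [NumberField N] [Algebra F N] [IsGalois F N] (hdeg : Module.finrank F N = p)
    (v : HeightOneSpectrum (𝓞 F)) (w : HeightOneSpectrum (𝓞 N))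
    (hV1 : ∀ x : F, w.valuation N (algebraMap F N x) = v.valuation F x ^ p)
    (hV2 : ∀ (σ : N ≃ₐ[F] N) (x : N), w.valuation N (σ x) = w.valuation N x)
    (hover : ∀ x : 𝓞 F, algebraMap (𝓞 F) (𝓞 N) x ∈ w.asIdeal ↔ x ∈ v.asIdeal)
    (hsurj : ∀ a : 𝓞 N, ∃ c : 𝓞 F, a - algebraMap (𝓞 F) (𝓞 N) c ∈ w.asIdeal)
    (a₀ : 𝓞 F) (ha₀ : a₀ ∉ v.asIdeal)
    (hgen : ∀ a : 𝓞 F, a ∉ v.asIdeal → ∃ i : ℕ, a - a₀ ^ i ∈ v.asIdeal)
    (hnp : ¬ ∃ c : 𝓞 F, a₀ - c ^ p ∈ v.asIdeal)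
    (m : ℕ) (hm : ¬ p ∣ m) (y : Nˣ) (hy : w.valuation N (y : N) = WithZero.exp (-(m : ℤ))) :
    ∃ χ : Fˣ →* Multiplicative (ZMod p),
      (∀ z : Nˣ, χ (Units.map (Algebra.norm F : N →* F) z) = 1) ∧
      (∀ (β₁ β₂ : 𝓞 F) (u : Fˣ), β₁ ∉ v.asIdeal → β₂ ∉ v.asIdeal →
        (∃ c : 𝓞 F, β₁ - c ^ p * β₂ ∈ v.asIdeal) → (u : F) * (β₂ : F) = (β₁ : F) → χ u = 1) ∧
      (∀ t : Multiplicative (ZMod p), ∃ (a : 𝓞 F) (u : Fˣ),
        a ∉ v.asIdeal ∧ (u : F) = (a : F) ∧ χ u = t) := by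
  have hpp : p.Prime := hp.out
  have hp0 : p ≠ 0 := hpp.ne_zero
  have hmax : v.asIdeal.IsMaximal := v.isMaximal
  have hpr : v.asIdeal.IsPrime := v.isPrime
  set P : Subgroup Fˣ := htame_P p F v.asIdeal hmax with hP
  set Nm : Subgroup Fˣ := (Units.map (Algebra.norm F : N →* F)).range with hNm
  set H : Subgroup Fˣ := P ⊔ Nm with hH
  have hPH : P ≤ H := le_sup_left
  have hNH : Nm ≤ H := le_sup_right
  have hvn : ∀ z : N, v.valuation F (Algebra.norm F z) = w.valuation N z :=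
    htame_val_norm hp0 hdeg v w hV1 hV2
  have hne : ∀ a : 𝓞 F, a ∉ v.asIdeal → (a : F) ≠ 0 := by
    intro a ha h
    apply ha
    have : a = 0 := by exact_mod_cast h
    rw [this]; exact zero_mem _
  have hPmem : ∀ (a c : 𝓞 F) (u : Fˣ), a ∉ v.asIdeal → a - c ^ p ∈ v.asIdeal → (u : F) = a →
      u ∈ P := by
    intro a c u ha hc hu
    exact ⟨a, 1, c, ha, (Ideal.ne_top_iff_one _).mp hpr.ne_top, by simpa using hc, by simp [hu]⟩
  have hPval : ∀ u ∈ P, v.valuation F (u : F) = 1 := by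
    rintro u ⟨β₁, β₂, c, h1, h2, -, h4⟩
    have e1 : v.valuation F (algebraMap (𝓞 F) F β₁) = 1 := (v.valuation_eq_one_iff_notMem).mpr h1
    have e2 : v.valuation F (algebraMap (𝓞 F) F β₂) = 1 := (v.valuation_eq_one_iff_notMem).mpr h2
    have h5 : v.valuation F ((u : F) * algebraMap (𝓞 F) F β₂) =
        v.valuation F (algebraMap (𝓞 F) F β₁) := congrArg (v.valuation F) h4
    rw [map_mul, e1, e2, mul_one] at h5
    exact h5
  have hPint : ∀ (a : 𝓞 F) (u : Fˣ), (u : F) = a → u ∈ P → ∃ c : 𝓞 F, a - c ^ p ∈ v.asIdeal := by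
    rintro a u hu ⟨β₁, β₂, c, h1, h2, h3, h4⟩
    refine ⟨c, ?_⟩
    have h5 : a * β₂ = β₁ := by
      apply RingOfIntegers.ext
      rw [← h4, hu]
      exact map_mul (algebraMap (𝓞 F) F) a β₂
    have h6 : (a - c ^ p) * β₂ ∈ v.asIdeal := by
      have : (a - c ^ p) * β₂ = β₁ - c ^ p * β₂ := by rw [← h5]; ring
      rw [this]; exact h3
    exact (hpr.mem_or_mem h6).resolve_right h2
  -- norms of `w`-units are `p`-th power residues
  have hK : ∀ z : Nˣ, w.valuation N (z : N) = 1 →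
      Units.map (Algebra.norm F : N →* F) z ∈ P := by
    intro z hz
    obtain ⟨n, ⟨d, hd⟩, hnd⟩ := w.exists_primeCompl_mul_eq_of_integer (z : N) (le_of_eq hz)
    have hd' : d ∉ w.asIdeal := hd
    have hwd : w.valuation N (algebraMap (𝓞 N) N d) = 1 :=
      (w.valuation_eq_one_iff_notMem).mpr hd'
    have hn' : n ∉ w.asIdeal := by
      rw [← w.valuation_eq_one_iff_notMem (K := N), ← hnd, map_mul, hz, hwd, one_mul]
    have key : ∀ b : 𝓞 N, b ∉ w.asIdeal →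
        ∃ ub : Fˣ, ub ∈ P ∧ (ub : F) = Algebra.norm F (algebraMap (𝓞 N) N b) := by
      intro b hb
      obtain ⟨c, hc⟩ := hsurj b
      have hres := htame_norm_residue hdeg v.asIdeal w hover hV2 b c hc
      have hc' : c ∉ v.asIdeal := by
        intro hcm
        apply hb
        have : b = (b - algebraMap (𝓞 F) (𝓞 N) c) + algebraMap (𝓞 F) (𝓞 N) c := by ring
        rw [this]
        exact Ideal.add_mem _ hc ((hover c).mpr hcm)
      have hnb : RingOfIntegers.norm F b ∉ v.asIdeal := by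
        intro hmem
        have : c ^ p ∈ v.asIdeal := by
          have : c ^ p = RingOfIntegers.norm F b - (RingOfIntegers.norm F b - c ^ p) := by ring
          rw [this]; exact Ideal.sub_mem _ hmem hres
        exact hc' (hpr.mem_of_pow_mem p this)
      exact ⟨Units.mk0 ((RingOfIntegers.norm F b : 𝓞 F) : F) (hne _ hnb),
        hPmem _ c _ hnb hres rfl, rfl⟩
    obtain ⟨un, hun, hun'⟩ := key n hn'
    obtain ⟨ud, hud, hud'⟩ := key d hd'
    have : Units.map (Algebra.norm F : N →* F) z = un / ud := by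
      rw [eq_div_iff_mul_eq']
      apply Units.ext
      rw [Units.val_mul, hun', hud']
      show Algebra.norm F (z : N) * Algebra.norm F (algebraMap (𝓞 N) N d) =
        Algebra.norm F (algebraMap (𝓞 N) N n)
      rw [← map_mul, hnd]
    rw [this]; exact P.div_mem hun hud
  have hNp : ∀ u : Fˣ, u ^ p ∈ H := by
    intro u
    apply hNH
    refine ⟨Units.map (algebraMap F N : F →* N) u, Units.ext ?_⟩
    simp [Algebra.norm_algebraMap, hdeg]
  -- the subgroup generated by `H` and the class of `a₀`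
  let u₀ : Fˣ := Units.mk0 (a₀ : F) (hne a₀ ha₀)
  set K : Subgroup Fˣ := H ⊔ Subgroup.zpowers u₀ with hK'
  have hHK : H ≤ K := le_sup_left
  have h4 : ∀ (a : 𝓞 F) (u : Fˣ), a ∉ v.asIdeal → (u : F) = a → u ∈ K := by
    intro a u ha hu
    obtain ⟨i, hi⟩ := hgen a ha
    have h1 : u / u₀ ^ i ∈ P := by
      refine ⟨a, a₀ ^ i, 1, ha, fun h => ha₀ (hpr.mem_of_pow_mem i h), by simpa using hi, ?_⟩
      have h0 : (a₀ : F) ≠ 0 := hne a₀ ha₀
      rw [Units.val_div_eq_div_val, hu, Units.val_pow_eq_pow_val]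
      show (a : F) / (a₀ : F) ^ i * algebraMap (𝓞 F) F (a₀ ^ i) = (a : F)
      rw [map_pow]
      show (a : F) / (a₀ : F) ^ i * (a₀ : F) ^ i = (a : F)
      field_simp
    have h2 : u = u / u₀ ^ i * u₀ ^ i := (div_mul_cancel u (u₀ ^ i)).symm
    rw [h2]
    exact K.mul_mem (hHK (hPH h1))
      ((le_sup_right : Subgroup.zpowers u₀ ≤ K) (Subgroup.npow_mem_zpowers u₀ i))
  have h5 : ∀ u : Fˣ, v.valuation F (u : F) = 1 → u ∈ K := by
    intro u hu
    obtain ⟨n, ⟨d, hd⟩, hnd⟩ := v.exists_primeCompl_mul_eq_of_integer (u : F) (le_of_eq hu)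
    have hd' : d ∉ v.asIdeal := hd
    have hvd : v.valuation F (algebraMap (𝓞 F) F d) = 1 :=
      (v.valuation_eq_one_iff_notMem).mpr hd'
    have hn' : n ∉ v.asIdeal := by
      rw [← v.valuation_eq_one_iff_notMem (K := F), ← hnd, map_mul, hu, hvd, one_mul]
    have hi := h4 n (Units.mk0 _ (hne n hn')) hn' rfl
    have hj := h4 d (Units.mk0 _ (hne d hd')) hd' rfl
    have : u = Units.mk0 _ (hne n hn') / Units.mk0 _ (hne d hd') := by
      rw [eq_div_iff_mul_eq']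
      exact Units.ext hnd
    rw [this]
    exact K.div_mem hi hj
  have h7 : ∀ u : Fˣ, u ∈ K := by
    intro u
    let uy : Fˣ := Units.map (Algebra.norm F : N →* F) y
    have huy : v.valuation F (uy : F) = WithZero.exp (-(m : ℤ)) := by
      rw [← hy]; exact hvn _
    have huyK : uy ∈ K := hHK (hNH ⟨y, rfl⟩)
    have hu0 : v.valuation F (u : F) ≠ 0 := (Valuation.ne_zero_iff _).mpr u.ne_zero
    have hvu : v.valuation F (u : F) = WithZero.exp (WithZero.log (v.valuation F (u : F))) :=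
      (WithZero.exp_log hu0).symm
    generalize WithZero.log (v.valuation F (u : F)) = ℓ at hvu
    have h1 : v.valuation F ((u ^ m * uy ^ ℓ : Fˣ) : F) = 1 := by
      rw [Units.val_mul, Units.val_pow_eq_pow_val, Units.val_zpow_eq_zpow_val, map_mul, map_pow,
        map_zpow₀, hvu, huy, ← WithZero.exp_nsmul, ← WithZero.exp_zsmul, ← WithZero.exp_add,
        WithZero.exp_eq_one]
      simp only [smul_eq_mul, nsmul_eq_mul]
      ring
    have h2 : u ^ m * uy ^ ℓ ∈ K := h5 _ h1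
    have h3 : u ^ m ∈ K := by
      have : u ^ m = u ^ m * uy ^ ℓ * (uy ^ ℓ)⁻¹ := (mul_inv_cancel_right _ _).symm
      rw [this]
      exact K.mul_mem h2 (K.inv_mem (K.zpow_mem huyK ℓ))
    have hcop : IsCoprime (m : ℤ) (p : ℤ) := by
      rw [Nat.isCoprime_iff_coprime]
      exact ((Nat.Prime.coprime_iff_not_dvd hpp).mpr hm).symm
    obtain ⟨a, b, hab⟩ := hcop
    have : u = (u ^ m) ^ a * (u ^ p) ^ b := by
      calc u = u ^ (a * m + b * p : ℤ) := by rw [hab, zpow_one]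
        _ = (u ^ m) ^ a * (u ^ p) ^ b := by
          rw [zpow_add, mul_comm a, mul_comm b, zpow_mul, zpow_mul, zpow_natCast, zpow_natCast]
    rw [this]
    exact K.mul_mem (K.zpow_mem h3 a) (K.zpow_mem (hHK (hNp u)) b)
  have h8 : u₀ ∉ H := by
    intro hu₀
    obtain ⟨u₁, hu₁, u₂, ⟨z, rfl⟩, h12⟩ := Subgroup.mem_sup.mp hu₀
    have e1 := hPval u₁ hu₁
    have e0 : v.valuation F (algebraMap (𝓞 F) F a₀) = 1 :=
      (v.valuation_eq_one_iff_notMem).mpr ha₀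
    have e2 : w.valuation N (z : N) = 1 := by
      rw [← hvn]
      have h3 : v.valuation F ((u₁ : F) * Algebra.norm F (z : N)) =
          v.valuation F (algebraMap (𝓞 F) F a₀) :=
        congrArg (fun t : Fˣ => v.valuation F (t : F)) h12
      rw [map_mul, e1, one_mul, e0] at h3
      exact h3
    have : u₀ ∈ P := by rw [← h12]; exact P.mul_mem hu₁ (hK z e2)
    exact hnp (hPint a₀ u₀ rfl this)
  obtain ⟨χ, hχ1, hχ2⟩ := htame_char p H u₀ hNp h7 h8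
  refine ⟨χ, fun z => hχ1 _ (hNH ⟨z, rfl⟩), ?_, ?_⟩
  · rintro β₁ β₂ u h1 h2 ⟨c, hc⟩ h4
    exact hχ1 u (hPH ⟨β₁, β₂, c, h1, h2, hc, h4⟩)
  · intro t
    obtain ⟨i, hi⟩ := hχ2 t
    refine ⟨a₀ ^ i, u₀ ^ i, fun h => ha₀ (hpr.mem_of_pow_mem i h), ?_, hi⟩
    rw [Units.val_pow_eq_pow_val]
    exact (map_pow (algebraMap (𝓞 F) F) a₀ i).symm

/-- **S14/H/Tame**: the norm-residue character at a tamely ramified prime. -/
theorem htame_main : HGalValStatement → HTameStatement := by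
  intro hGV p hp F N _ _ _ _ _ ζ x₀ y τ hctx 𝔮 h𝔮T
  obtain ⟨-, hζ, hdeg, hx0, hy, hyF, -, hGal, -, -, hram⟩ := hctx
  have hram𝔮 := hram 𝔮 h𝔮T
  obtain ⟨h𝔮, h𝔮0, hp𝔮, m, hm1, hm2, hm3⟩ := h𝔮T
  have hpp : p.Prime := hp.out
  have hp0 : p ≠ 0 := hpp.ne_zero
  have h𝔮max : 𝔮.IsMaximal := h𝔮.isMaximal h𝔮0
  -- a unique prime above `𝔮`, with residue degree one
  obtain ⟨𝔔, h𝔔s, h𝔔f⟩ : ∃ 𝔔 : Ideal (𝓞 N), 𝔮.primesOver (𝓞 N) = {𝔔} ∧
      𝔔.inertiaDeg (𝓞 F) = 1 := by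
    rcases bpta_primeTrichotomy p F N hdeg 𝔮 h𝔮 h𝔮0 with
      ⟨hs, -⟩ | ⟨𝔔, h1, h2, -⟩ | ⟨𝔔, h1, -, h2⟩
    · exfalso
      obtain ⟨⟨𝔔, h𝔔⟩⟩ : Nonempty (𝔮.primesOver (𝓞 N)) := inferInstance
      have h2 := (hs 𝔔 h𝔔).1
      rw [hram𝔮 𝔔 h𝔔] at h2
      exact hpp.one_lt.ne' h2
    · exfalso
      have h𝔔 : 𝔔 ∈ 𝔮.primesOver (𝓞 N) := by rw [h1]; exact Set.mem_singleton 𝔔
      rw [hram𝔮 𝔔 h𝔔] at h2
      exact hpp.one_lt.ne' h2
    · exact ⟨𝔔, h1, h2⟩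
  have h𝔔mem : 𝔔 ∈ 𝔮.primesOver (𝓞 N) := by rw [h𝔔s]; exact Set.mem_singleton 𝔔
  have h𝔔e := hram𝔮 𝔔 h𝔔mem
  have h𝔔p : 𝔔.IsPrime := h𝔔mem.1
  have h𝔔o : 𝔔.LiesOver 𝔮 := h𝔔mem.2
  have h𝔔0 : 𝔔 ≠ ⊥ := Ideal.ne_bot_of_liesOver_of_ne_bot h𝔮0 𝔔
  let v : HeightOneSpectrum (𝓞 F) := ⟨𝔮, h𝔮, h𝔮0⟩
  let w : HeightOneSpectrum (𝓞 N) := ⟨𝔔, h𝔔p, h𝔔0⟩
  have hV1 : ∀ x : F, w.valuation N (algebraMap F N x) = v.valuation F x ^ p := by
    intro x
    have : w.asIdeal.LiesOver v.asIdeal := h𝔔o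
    rw [← HeightOneSpectrum.valuation_liesOver N v w x]
    have he : v.asIdeal.ramificationIdx' w.asIdeal = p := by
      show 𝔮.ramificationIdx' 𝔔 = p
      rw [Ideal.ramificationIdx'_eq_ramificationIdx 𝔮 𝔔 h𝔮0, h𝔔e]
    rw [he]
  have hV2 : ∀ (σ : N ≃ₐ[F] N) (x : N), w.valuation N (σ x) = w.valuation N x := by
    intro σ x
    obtain ⟨w', hw'1, hw'2⟩ := (hGV F N).1 σ w
    have hw' : w' = w := by
      apply HeightOneSpectrum.ext
      have hmem : w'.asIdeal ∈ 𝔮.primesOver (𝓞 N) :=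
        ⟨w'.isPrime, ⟨by rw [hw'1]; exact h𝔔o.over⟩⟩
      rw [h𝔔s] at hmem
      exact hmem
    have h1 := hw'2 x
    rw [hw'] at h1
    exact h1
  have hover : ∀ x : 𝓞 F, algebraMap (𝓞 F) (𝓞 N) x ∈ w.asIdeal ↔ x ∈ v.asIdeal :=
    fun x => (Ideal.mem_of_liesOver 𝔔 𝔮 x).symm
  have hsurj : ∀ a : 𝓞 N, ∃ c : 𝓞 F, a - algebraMap (𝓞 F) (𝓞 N) c ∈ w.asIdeal := by
    intro a
    have h𝔔max : 𝔔.IsMaximal := .of_liesOver_isMaximal 𝔔 𝔮
    have hf := h𝔔f
    rw [Ideal.inertiaDeg_eq_of_isMaximal 𝔮 𝔔] at hf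
    let _ := Ideal.Quotient.field 𝔮
    have hbij := Module.Free.bijective_algebraMap_of_finrank_eq_one hf
    obtain ⟨cbar, hc⟩ := hbij.2 (Ideal.Quotient.mk 𝔔 a)
    obtain ⟨c, rfl⟩ := Ideal.Quotient.mk_surjective cbar
    refine ⟨c, ?_⟩
    have h1 : Ideal.Quotient.mk 𝔔 (algebraMap (𝓞 F) (𝓞 N) c) = Ideal.Quotient.mk 𝔔 a := hc
    exact Ideal.Quotient.eq.mp h1.symm
  obtain ⟨a₀, ha₀, hgen, hnp⟩ := htame_residue p F ζ hζ 𝔮 h𝔮 h𝔮0 hp𝔮
  -- the valuation of `y`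
  have hy0 : y ≠ 0 := by
    rintro rfl
    exact hyF ⟨0, map_zero _⟩
  have hvx : v.valuation F (x₀ : F) = WithZero.exp (-(m : ℤ)) := by
    rw [show (x₀ : F) = algebraMap (𝓞 F) F x₀ from rfl, HeightOneSpectrum.valuation_of_algebraMap]
    have h1 : v.intValuation x₀ ≤ WithZero.exp (-(m : ℤ)) :=
      (v.intValuation_le_pow_iff_mem x₀ m).mpr hm1
    have h2 : ¬ v.intValuation x₀ ≤ WithZero.exp (-((m + 1 : ℕ) : ℤ)) :=
      fun h => hm2 ((v.intValuation_le_pow_iff_mem x₀ (m + 1)).mp h)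
    have ha : v.intValuation x₀ ≠ 0 := v.intValuation_ne_zero x₀ hx0
    rw [← WithZero.exp_log ha] at h1 h2 ⊢
    rw [WithZero.exp_le_exp] at h1 h2
    rw [WithZero.exp_inj]
    push_cast at h2
    omega
  have hwy : w.valuation N y = WithZero.exp (-(m : ℤ)) := by
    have h1 : w.valuation N y ^ p = v.valuation F (x₀ : F) ^ p := by
      rw [← map_pow, hy, hV1]
    rw [← hvx]
    exact (pow_left_inj₀ zero_le zero_le hp0).mp h1
  exact htame_core p F N hdeg v w hV1 hV2 hover hsurj a₀ ha₀ hgen hnp m hm3 (Units.mk0 y hy0) hwy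

end Fermat.Agent.S14
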