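/-
S14, block H, package UnitsGal: Galois structure of the `Σ_N`-units.
`hug_main : HGalValStatement → HUnitsGalStatement`.
-/
import Mathlib
import Fermat.Agent.S14.HInterfaces

set_option autoImplicit false

open NumberField

namespace Fermat.Agent.S14

/-- In `ℤᵐ⁰`, `a ^ n = 1` with `n ≠ 0` forces `a = 1`. -/
theorem hug_pow_eq_one {a : WithZero (Multiplicative ℤ)} {n : ℕ} (hn : n ≠ 0) (h : a ^ n = 1) :
    a = 1 :=
  (pow_eq_one_iff_of_nonneg zero_le hn).1 h

/-- Membership in `Σ_N` only depends on the prime below. -/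
theorem hug_mem_hS_map_iff {F N : Type} [Field F] [NumberField F] [Field N] [NumberField N]
    [Algebra F N] (𝔪 : Ideal (𝓞 F)) (w : IsDedekindDomain.HeightOneSpectrum (𝓞 N)) :
    w ∈ hS (𝔪.map (algebraMap (𝓞 F) (𝓞 N))) ↔ 𝔪 ≤ w.asIdeal.under (𝓞 F) := by
  unfold hS
  rw [Set.mem_ofPred_eq, Ideal.map_le_iff_le_comap, Ideal.under_def]

/-- The prime of `F` below a prime of `N`, as a height-one prime. -/
theorem hug_exists_under {F N : Type} [Field F] [NumberField F] [Field N] [NumberField N]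
    [Algebra F N] (w : IsDedekindDomain.HeightOneSpectrum (𝓞 N)) :
    ∃ v : IsDedekindDomain.HeightOneSpectrum (𝓞 F), v.asIdeal = w.asIdeal.under (𝓞 F) := by
  have hw : w.asIdeal.IsPrime := w.isPrime
  exact ⟨⟨w.asIdeal.under (𝓞 F), inferInstance, Ideal.under_ne_bot (𝓞 F) w.ne_bot⟩, rfl⟩

/-- Every prime of `F` has a prime of `N` above it. -/
theorem hug_exists_over {F N : Type} [Field F] [NumberField F] [Field N] [NumberField N]
    [Algebra F N] (v : IsDedekindDomain.HeightOneSpectrum (𝓞 F)) :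
    ∃ w : IsDedekindDomain.HeightOneSpectrum (𝓞 N), w.asIdeal.under (𝓞 F) = v.asIdeal := by
  have hv : v.asIdeal.IsPrime := v.isPrime
  obtain ⟨⟨P, hP, hPv⟩⟩ := v.asIdeal.nonempty_primesOver (S := 𝓞 N)
  exact ⟨⟨P, hP, Ideal.ne_bot_of_liesOver_of_ne_bot v.ne_bot P⟩, (hPv.over).symm⟩

/-- Valuations of elements of `F` at a prime of `N` in terms of the prime below. -/
theorem hug_valuation_algebraMap {F N : Type} [Field F] [NumberField F] [Field N] [NumberField N]
    [Algebra F N] (v : IsDedekindDomain.HeightOneSpectrum (𝓞 F))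
    (w : IsDedekindDomain.HeightOneSpectrum (𝓞 N)) (hvw : v.asIdeal = w.asIdeal.under (𝓞 F)) :
    ∃ e : ℕ, e ≠ 0 ∧ ∀ x : F, v.valuation F x ^ e = w.valuation N (algebraMap F N x) := by
  have hw : w.asIdeal.IsPrime := w.isPrime
  have hlo : w.asIdeal.LiesOver v.asIdeal := ⟨hvw⟩
  exact ⟨v.asIdeal.ramificationIdx' w.asIdeal,
    Ideal.IsDedekindDomain.ramificationIdx'_ne_zero_of_liesOver w.asIdeal v.ne_bot,
    fun x => IsDedekindDomain.HeightOneSpectrum.valuation_liesOver N v w x⟩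

/-- Facts (i)-(iii): the cyclic structure of the Galois group. -/
theorem hug_cyclic {p : ℕ} [Fact p.Prime] {F N : Type} [Field F] [Field N] [Algebra F N]
    [FiniteDimensional F N] [IsGalois F N] (hfin : Module.finrank F N = p) (τ : N ≃ₐ[F] N)
    (hgen : ∀ σ : N ≃ₐ[F] N, ∃ i : ℕ, σ = τ ^ i) :
    τ ^ p = 1 ∧
    (∀ w : N, algebraMap F N (Algebra.norm F w) = ∏ i ∈ Finset.range p, (τ ^ i) w) ∧
    (∀ w : N, τ w = w → w ∈ Set.range (algebraMap F N)) := by
  have hp : p.Prime := Fact.out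
  have hcard : Nat.card (N ≃ₐ[F] N) = p := by rw [IsGalois.card_aut_eq_finrank, hfin]
  have hτp : τ ^ p = 1 := by rw [← hcard]; exact pow_card_eq_one'
  have hord : orderOf τ = p := by
    rw [← hcard]
    apply orderOf_eq_card_of_forall_mem_zpowers
    intro σ
    obtain ⟨i, rfl⟩ := hgen σ
    exact Subgroup.npow_mem_zpowers τ i
  refine ⟨hτp, ?_, ?_⟩
  · intro w
    rw [Algebra.norm_eq_prod_automorphisms]
    symm
    refine Finset.prod_bij (fun i _ => τ ^ i) (fun _ _ => Finset.mem_univ _) ?_ ?_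
      (fun _ _ => rfl)
    · intro i hi j hj hij
      have hi' : i < orderOf τ := by rw [hord]; exact Finset.mem_range.1 hi
      have hj' : j < orderOf τ := by rw [hord]; exact Finset.mem_range.1 hj
      exact pow_injOn_Iio_orderOf hi' hj' hij
    · intro σ _
      obtain ⟨i, rfl⟩ := hgen σ
      refine ⟨i % p, Finset.mem_range.2 (Nat.mod_lt _ hp.pos), ?_⟩
      show τ ^ (i % p) = τ ^ i
      rw [← hord, pow_mod_orderOf]
  · intro w hw
    rw [IsGalois.mem_range_algebraMap_iff_fixed]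
    intro σ
    obtain ⟨i, rfl⟩ := hgen σ
    induction i with
    | zero => simp
    | succ n ih => rw [pow_succ, AlgEquiv.mul_apply, hw, ih]

/-- Membership in the group of `Σ_N`-units, unfolded. -/
theorem hug_mem_hUN_iff {F N : Type} [Field F] [NumberField F] [Field N] [NumberField N]
    [Algebra F N] (𝔪 : Ideal (𝓞 F)) (w : Nˣ) :
    w ∈ hUN F N 𝔪 ↔ ∀ v : IsDedekindDomain.HeightOneSpectrum (𝓞 N),
      v ∉ hS (𝔪.map (algebraMap (𝓞 F) (𝓞 N))) → v.valuation N (w : N) = 1 :=
  Iff.rfl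

/-- Membership in the group of `Σ`-units, unfolded. -/
theorem hug_mem_hUF_iff {F : Type} [Field F] [NumberField F] (𝔪 : Ideal (𝓞 F)) (u : Fˣ) :
    u ∈ hUF F 𝔪 ↔ ∀ v : IsDedekindDomain.HeightOneSpectrum (𝓞 F),
      v ∉ hS 𝔪 → v.valuation F (u : F) = 1 :=
  Iff.rfl

/-- (UnitsGal) Galois structure of the `Σ_N`-units. -/
theorem hug_main : HGalValStatement → HUnitsGalStatement := by
  intro hGV p _ F N _ _ _ _ _ ζ x₀ y τ hctx 𝔪 _ hle
  obtain ⟨_, hζ, hfin, _, hy, _, _, hgal, _, hgen, _⟩ := hctx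
  have hp : p.Prime := Fact.out
  have hfd : FiniteDimensional F N :=
    Module.finite_of_finrank_pos (by rw [hfin]; exact hp.pos)
  obtain ⟨h1, h2, h3⟩ := hug_cyclic hfin τ hgen
  refine ⟨h1, h2, h3, ?_, ?_, ?_, ?_⟩
  · -- (iv) `τ` preserves `Σ_N`-units
    intro w hw
    rw [hug_mem_hUN_iff] at hw ⊢
    intro v hv
    obtain ⟨v', hv', hval⟩ := (hGV F N).1 τ⁻¹ v
    have hv'S : v' ∉ hS (𝔪.map (algebraMap (𝓞 F) (𝓞 N))) := by
      rw [hug_mem_hS_map_iff, hv', ← hug_mem_hS_map_iff]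
      exact hv
    have h := hval (τ (w : N))
    have hinv : τ⁻¹ (τ (w : N)) = (w : N) := by
      rw [← AlgEquiv.mul_apply, inv_mul_cancel, AlgEquiv.one_apply]
    rw [hinv] at h
    show v.valuation N (τ (w : N)) = 1
    rw [← h]
    exact hw v' hv'S
  · -- (v) `Σ`-units of `F` are the `Σ_N`-units lying in `F`
    intro u
    rw [hug_mem_hUN_iff, hug_mem_hUF_iff]
    constructor
    · intro hu w hw
      obtain ⟨v, hv⟩ := hug_exists_under (F := F) w
      obtain ⟨e, _, hval⟩ := hug_valuation_algebraMap v w hv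
      have hvS : v ∉ hS 𝔪 := by
        intro h
        apply hw
        rw [hug_mem_hS_map_iff, ← hv]
        exact h
      show w.valuation N (algebraMap F N (u : F)) = 1
      rw [← hval, hu v hvS, one_pow]
    · intro hu v hv
      obtain ⟨w, hw⟩ := hug_exists_over (N := N) v
      obtain ⟨e, he, hval⟩ := hug_valuation_algebraMap v w hw.symm
      have hwS : w ∉ hS (𝔪.map (algebraMap (𝓞 F) (𝓞 N))) := by
        rw [hug_mem_hS_map_iff, hw]
        exact hv
      have h : w.valuation N (algebraMap F N (u : F)) = 1 := hu w hwS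
      exact hug_pow_eq_one he ((hval (u : F)).trans h)
  · -- (vi) `y` is a `Σ_N`-unit
    intro w hwy
    rw [hug_mem_hUN_iff]
    intro v hv
    rw [hwy]
    obtain ⟨v₀, hv₀⟩ := hug_exists_under (F := F) v
    obtain ⟨e, _, hval⟩ := hug_valuation_algebraMap v₀ v hv₀
    have hv₀S : v₀ ∉ hS 𝔪 := by
      intro h
      apply hv
      rw [hug_mem_hS_map_iff, ← hv₀]
      exact h
    have hx₀v : x₀ ∉ v₀.asIdeal := by
      intro h
      apply hv₀S
      exact hle.trans ((Ideal.span_singleton_le_iff_mem _).2 h)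
    have h1 : v₀.valuation F (algebraMap (𝓞 F) F x₀) = 1 :=
      (IsDedekindDomain.HeightOneSpectrum.valuation_eq_one_iff_notMem v₀).2 hx₀v
    apply hug_pow_eq_one hp.ne_zero
    rw [← map_pow, hy, ← hval]
    show v₀.valuation F (algebraMap (𝓞 F) F x₀) ^ e = 1
    rw [h1, one_pow]
  · -- (vii) roots of unity
    intro w hw
    constructor
    · rw [hug_mem_hUN_iff]
      intro v _
      apply hug_pow_eq_one hp.ne_zero
      rw [← map_pow, hw, map_one]
    · have hζN : IsPrimitiveRoot (algebraMap F N ζ) p :=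
        hζ.map_of_injective (algebraMap F N).injective
      have hne : NeZero p := ⟨hp.ne_zero⟩
      obtain ⟨i, -, hi⟩ := hζN.eq_pow_of_pow_eq_one hw
      exact ⟨i, hi.symm⟩

end Fermat.Agent.S14
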