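/-
S14, block H (first inequality): assembly.
`h_g1tame_of`: G1-tame from the three top packages of block H and the Kummer basics;
`h_g1tame : G1TameStatement` and `h_g1 : G1Statement` (unconditional: all packages of the block and the
shared basics KummerGalois, KummerGen, KummerRam, SUnitRank, TotallyComplex, NormClassesMem,
PrimeTrichotomy are imported as theorems);
`h_g1tame_of_tame` / `h_g1_of_tame`: the same from the norm-residue character package `HTameStatement`.
-/
import Mathlib
import Fermat.Agent.S14.Interfaces
import Fermat.Agent.S14.Basics2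
import Fermat.Agent.S14.HInterfaces
import Fermat.Agent.S14.BKummerGal
import Fermat.Agent.S14.BKummerRamA
import Fermat.Agent.S14.BSUnitA
import Fermat.Agent.S14.BNormCl
import Fermat.Agent.S14.HSigma
import Fermat.Agent.S14.HAlgLattice
import Fermat.Agent.S14.HAlgFG
import Fermat.Agent.S14.HAlg
import Fermat.Agent.S14.HGalValB
import Fermat.Agent.S14.HRankUnits
import Fermat.Agent.S14.HRankPrimes
import Fermat.Agent.S14.HRank
import Fermat.Agent.S14.HPrinc
import Fermat.Agent.S14.HH90
import Fermat.Agent.S14.HUnitsGal
import Fermat.Agent.S14.HIndex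
import Fermat.Agent.S14.HNormSupp
import Fermat.Agent.S14.HInert
import Fermat.Agent.S14.HReal
import Fermat.Agent.S14.HFinal
import Fermat.Agent.S14.HTame
import Fermat.Agent.S14.HG1

set_option autoImplicit false

open NumberField

namespace Fermat.Agent.S14

/-- G1-tame from the three top packages of block H (good modulus, index bound, final counting) and
the Kummer basics. -/
theorem h_g1tame_of (hsig : HSigmaStatement) (hidx : HIndexStatement) (hfin : HFinalStatement)
    (kgal : KummerGaloisStatement) (kram : KummerRamStatement) : G1TameStatement := by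
  intro p _ hp3 F N _ _ _ _ _ ζ hζ hdeg x₀ y hx₀ hy hyF hunr
  obtain ⟨hgal, τ, hτy, hτgen⟩ := kgal p F N ζ hζ hdeg (x₀ : F) y hy hyF
  have hctx : HCtx p F N ζ x₀ y τ :=
    ⟨hp3, hζ, hdeg, hx₀, hy, hyF, hunr, hgal, hτy, hτgen,
      fun 𝔮 h𝔮 => kram p F N ζ hζ hdeg x₀ y hy hyF 𝔮 h𝔮.1 h𝔮.2.1 h𝔮.2.2.2⟩
  obtain ⟨𝔪, h𝔪⟩ := hsig F N x₀ hx₀
  have hI := hidx p F N ζ x₀ y τ hctx 𝔪 h𝔪
  have hF := hfin p F N ζ x₀ y τ hctx 𝔪 h𝔪 hI
  by_contra hcon
  apply hF
  intro 𝔞 h1 h2
  by_contra h3
  exact hcon ⟨𝔞, h1, h2, h3⟩

/-- The index bound `[E_{F,Σ} : N E_{N,Σ}] · p ≤ p ^ #{nonsplit primes in Σ}` (all packages proved). -/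
theorem h_index : HIndexStatement :=
  hidx_main (halg_main halgl_main halgf_main)
    (hrk_main bsua_sUnitRank (hru_main bnc_totallyComplex) hrp_main)
    (hh90_main hgvb_main hpr_main) (hug_main hgvb_main)

/-- G1-tame from the norm-residue character package. -/
theorem h_g1tame_of_tame (htame : HTameStatement) : G1TameStatement :=
  h_g1tame_of hsig_main h_index
    (hfin_main htame (hin_main hns_main) (hreal_main (hin_main hns_main) hns_main) hrp_main)
    bkg_kummerGalois bkra_kummerRam

/-- G1 from the norm-residue character package. -/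
theorem h_g1_of_tame (htame : HTameStatement) : G1Statement :=
  hg1_main (h_g1tame_of_tame htame) bkg_kummerGen bkra_kummerRam bnc_normClassesMem

/-- (G1-tame) the first inequality in its tame form. -/
theorem h_g1tame : G1TameStatement :=
  h_g1tame_of_tame (htame_main hgvb_main)

/-- (G1) the first inequality for unramified cyclic extensions of degree `p`. -/
theorem h_g1 : G1Statement :=
  h_g1_of_tame (htame_main hgvb_main)

end Fermat.Agent.S14
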