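/-
S14 / shared basics: Kummer splitting criterion at a prime `𝔮 ∤ p·x₀` (twin B).
Deliverable: `bksb_kummerSplit : KummerGaloisStatement → KummerSplitStatement`.
-/
import Fermat.Agent.S14.Interfaces

set_option autoImplicit false

open NumberField

open scoped Pointwise

namespace Fermat.Agent.S14

/-- `τ y = ζ y` implies `τ ^ i y = ζ ^ i y`. -/
theorem bksb_pow_apply {F N : Type} [Field F] [Field N] [Algebra F N] {ζ : F} {y : N}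
    (τ : N ≃ₐ[F] N) (hτ : τ y = algebraMap F N ζ * y) (i : ℕ) :
    (τ ^ i) y = algebraMap F N (ζ ^ i) * y := by
  induction i with
  | zero => simp
  | succ i ih =>
    rw [pow_succ', AlgEquiv.mul_apply, ih, map_mul, AlgEquiv.commutes, hτ, pow_succ, map_mul]
    ring

/-- Key lemma: the Kummer generator `y` is integral, and at a prime `𝔔` of `N` above a prime
`𝔮 ∤ p·x₀` of `F`, no nontrivial element `σ` of the Galois group satisfies `σ y ≡ y mod 𝔔`. -/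
theorem bksb_key (hKG : KummerGaloisStatement) {p : ℕ} [Fact p.Prime]
    {F N : Type} [Field F] [NumberField F] [Field N] [NumberField N] [Algebra F N]
    (ζ : F) (hζ : IsPrimitiveRoot ζ p) (hdeg : Module.finrank F N = p)
    (x₀ : 𝓞 F) (y : N) (hy : y ^ p = algebraMap F N (x₀ : F))
    (hyF : y ∉ Set.range (algebraMap F N)) :
    IsGalois F N ∧ ∃ Y : 𝓞 N, Y ^ p = algebraMap (𝓞 F) (𝓞 N) x₀ ∧
      ∀ (𝔮 : Ideal (𝓞 F)), (p : 𝓞 F) ∉ 𝔮 → x₀ ∉ 𝔮 →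
      ∀ (𝔔 : Ideal (𝓞 N)), 𝔔.IsPrime → 𝔔.LiesOver 𝔮 →
        ∀ σ : N ≃ₐ[F] N, σ • Y - Y ∈ 𝔔 → σ = 1 := by
  obtain ⟨hgal, τ, hτ, hgen⟩ := hKG p F N ζ hζ hdeg (x₀ : F) y hy hyF
  refine ⟨hgal, ?_⟩
  have hp : p.Prime := Fact.out
  have hyint : IsIntegral ℤ y := by
    apply IsIntegral.of_pow hp.pos
    rw [hy]
    exact (RingOfIntegers.isIntegral_coe x₀).algebraMap
  obtain ⟨Y, hY⟩ : ∃ Y : 𝓞 N, algebraMap (𝓞 N) N Y = y := ⟨⟨y, hyint⟩, rfl⟩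
  have hcoe : ∀ a : 𝓞 F, algebraMap (𝓞 N) N (algebraMap (𝓞 F) (𝓞 N) a)
      = algebraMap F N (algebraMap (𝓞 F) F a) := fun a =>
    (IsScalarTower.algebraMap_apply (𝓞 F) (𝓞 N) N a).symm.trans
      (IsScalarTower.algebraMap_apply (𝓞 F) F N a)
  have hYp : Y ^ p = algebraMap (𝓞 F) (𝓞 N) x₀ := by
    apply RingOfIntegers.ext
    show algebraMap (𝓞 N) N (Y ^ p) = algebraMap (𝓞 N) N (algebraMap (𝓞 F) (𝓞 N) x₀)
    rw [map_pow, hY, hy, hcoe]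
  refine ⟨Y, hYp, ?_⟩
  intro 𝔮 hp𝔮 hx𝔮 𝔔 h𝔔 hover σ hσ
  by_contra hσ1
  obtain ⟨i, rfl⟩ := hgen σ
  have hcard : Nat.card (N ≃ₐ[F] N) = p := by rw [IsGalois.card_aut_eq_finrank, hdeg]
  have hord : orderOf τ = p := by
    rw [← hcard]
    apply orderOf_eq_card_of_forall_mem_zpowers
    intro σ
    obtain ⟨j, rfl⟩ := hgen σ
    exact Subgroup.npow_mem_zpowers τ j
  have hi : ¬ p ∣ i := fun h => hσ1 (by
    rw [← hord] at h
    exact orderOf_dvd_iff_pow_eq_one.mp h)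
  have hη : IsPrimitiveRoot (ζ ^ i) p :=
    hζ.pow_of_coprime i ((Nat.Prime.coprime_iff_not_dvd hp).mpr hi).symm
  have : NeZero p := ⟨hp.ne_zero⟩
  have hη' : IsPrimitiveRoot hη.toInteger p := hη.toInteger_isPrimitiveRoot
  have hsmul : (τ ^ i) • Y = algebraMap (𝓞 F) (𝓞 N) hη.toInteger * Y := by
    apply RingOfIntegers.ext
    show algebraMap (𝓞 N) N ((τ ^ i) • Y)
      = algebraMap (𝓞 N) N (algebraMap (𝓞 F) (𝓞 N) hη.toInteger * Y)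
    have hcoeη : algebraMap (𝓞 F) F hη.toInteger = ζ ^ i := hη.coe_toInteger
    rw [map_mul, hcoe, hY, hcoeη, ← bksb_pow_apply τ hτ i, ← hY]
    rfl
  rw [hsmul] at hσ
  have h1 : (algebraMap (𝓞 F) (𝓞 N) hη.toInteger - 1) * Y ∈ 𝔔 := by
    convert hσ using 1
    ring
  rcases h𝔔.mem_or_mem h1 with h2 | h2
  · have h3 : hη.toInteger - 1 ∈ 𝔮 := by
      rw [Ideal.mem_of_liesOver 𝔔 𝔮, map_sub, map_one]
      exact h2
    obtain ⟨z, -, hz⟩ := hη'.self_sub_one_pow_dvd_order (k := 1) hp.one_lt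
    apply hp𝔮
    rw [hz, pow_one]
    exact 𝔮.mul_mem_left z h3
  · apply hx𝔮
    rw [Ideal.mem_of_liesOver 𝔔 𝔮, ← hYp]
    exact Ideal.pow_mem_of_mem 𝔔 h2 p hp.pos

/-- **Kummer splitting criterion** at a prime `𝔮 ∤ p·x₀`: every prime above `𝔮` is unramified, and
`𝔮` splits completely iff `x₀` is a `p`-th power residue modulo `𝔮`. -/
theorem bksb_kummerSplit : KummerGaloisStatement → KummerSplitStatement := by
  intro hKG p _ F N _ _ _ _ _ ζ hζ hdeg x₀ y hy hyF 𝔮 h𝔮 h𝔮0 hp𝔮 hx𝔮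
  obtain ⟨hgal, Y, hYp, hkey⟩ := bksb_key hKG ζ hζ hdeg x₀ y hy hyF
  have hp : p.Prime := Fact.out
  have : NeZero p := ⟨hp.ne_zero⟩
  have hunram : ∀ 𝔔 ∈ 𝔮.primesOver (𝓞 N), 𝔔.ramificationIdx (𝓞 F) = 1 := by
    rintro 𝔔 ⟨h𝔔, hover⟩
    rw [← Ideal.ramificationIdxIn_eq_ramificationIdx 𝔮 𝔔 (N ≃ₐ[F] N),
      ← Ideal.card_inertia_eq_ramificationIdxIn (G := N ≃ₐ[F] N) 𝔮 𝔔]
    have hbot : 𝔔.inertia (N ≃ₐ[F] N) = ⊥ := by
      rw [eq_bot_iff]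
      intro σ hσ
      exact Subgroup.mem_bot.mpr (hkey 𝔮 hp𝔮 hx𝔮 𝔔 h𝔔 hover σ (hσ Y))
    rw [hbot, Subgroup.card_bot]
  refine ⟨⟨?_, ?_⟩, hunram⟩
  · -- splits completely ⇒ `x₀` is a `p`-th power residue
    intro hsplit
    obtain ⟨⟨𝔔, h𝔔, hover⟩⟩ : Nonempty (𝔮.primesOver (𝓞 N)) := inferInstance
    have hf := (hsplit 𝔔 ⟨h𝔔, hover⟩).2
    have h𝔮max : 𝔮.IsMaximal := h𝔮.isMaximal h𝔮0
    have h𝔔max : 𝔔.IsMaximal := .of_liesOver_isMaximal 𝔔 𝔮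
    rw [Ideal.inertiaDeg_eq_of_isMaximal 𝔮 𝔔] at hf
    let := Ideal.Quotient.field 𝔮
    have hbij := Module.Free.bijective_algebraMap_of_finrank_eq_one hf
    obtain ⟨cbar, hc⟩ := hbij.2 (Ideal.Quotient.mk 𝔔 Y)
    obtain ⟨c, rfl⟩ := Ideal.Quotient.mk_surjective cbar
    refine ⟨c, ?_⟩
    have h1 : Ideal.Quotient.mk 𝔔 (algebraMap (𝓞 F) (𝓞 N) c) = Ideal.Quotient.mk 𝔔 Y := hc
    rw [Ideal.Quotient.eq] at h1
    rw [Ideal.mem_of_liesOver 𝔔 𝔮, map_sub, map_pow, ← hYp]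
    have h2 := sub_dvd_pow_sub_pow (algebraMap (𝓞 F) (𝓞 N) c) Y p
    have h3 := 𝔔.mem_of_dvd h2 h1
    have h4 := 𝔔.neg_mem h3
    convert h4 using 1
    ring
  · -- `x₀` is a `p`-th power residue ⇒ splits completely
    rintro ⟨c, hc⟩ 𝔔 ⟨h𝔔, hover⟩
    refine ⟨hunram 𝔔 ⟨h𝔔, hover⟩, ?_⟩
    have hζ' : IsPrimitiveRoot hζ.toInteger p := hζ.toInteger_isPrimitiveRoot
    have hZ : IsPrimitiveRoot (algebraMap (𝓞 F) (𝓞 N) hζ.toInteger) p :=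
      hζ'.map_of_injective (FaithfulSMul.algebraMap_injective (𝓞 F) (𝓞 N))
    have hfac := hZ.pow_sub_pow_eq_prod_sub_mul Y (algebraMap (𝓞 F) (𝓞 N) c) hp.pos
    have hmem : Y ^ p - (algebraMap (𝓞 F) (𝓞 N) c) ^ p ∈ 𝔔 := by
      rw [hYp, ← map_pow, ← map_sub, ← Ideal.mem_of_liesOver 𝔔 𝔮]
      exact hc
    rw [hfac, Ideal.IsPrime.prod_mem_iff] at hmem
    obtain ⟨η, hη, hηmem⟩ := hmem
    have hη1 : η ^ p = 1 := (Polynomial.mem_nthRootsFinset hp.pos 1).mp hη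
    obtain ⟨k, -, rfl⟩ := hZ.eq_pow_of_pow_eq_one hη1
    have hstab : MulAction.stabilizer (N ≃ₐ[F] N) 𝔔 = ⊥ := by
      rw [eq_bot_iff]
      intro σ hσ
      rw [MulAction.mem_stabilizer_iff] at hσ
      apply Subgroup.mem_bot.mpr
      apply hkey 𝔮 hp𝔮 hx𝔮 𝔔 h𝔔 hover σ
      have h1 : σ • (Y - algebraMap (𝓞 F) (𝓞 N) hζ.toInteger ^ k * algebraMap (𝓞 F) (𝓞 N) c)
          ∈ 𝔔 := by
        have h2 := Ideal.smul_mem_pointwise_smul σ _ 𝔔 hηmem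
        rwa [hσ] at h2
      rw [smul_sub, ← map_pow, ← map_mul, smul_algebraMap] at h1
      have h3 := 𝔔.sub_mem h1 hηmem
      rw [← map_pow, ← map_mul] at h3
      convert h3 using 1
      ring
    have h1 := Ideal.card_stabilizer_eq (G := N ≃ₐ[F] N) 𝔮 𝔔
    rw [hstab, Subgroup.card_bot, Ideal.ramificationIdxIn_eq_ramificationIdx 𝔮 𝔔 (N ≃ₐ[F] N),
      Ideal.inertiaDegIn_eq_inertiaDeg 𝔮 𝔔 (N ≃ₐ[F] N)] at h1
    exact Nat.eq_one_of_mul_eq_one_left h1.symm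

end Fermat.Agent.S14
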