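/-
S14 basics package KummerUnram: Kummer, `𝔮 ∤ p` and `p ∣ v_𝔮(x₀)` implies unramified above `𝔮`.

Proof: change the Kummer generator `y` (with `y ^ p = x₀`) to `y' = (s / t) * y`, where
`s ^ p * x₀ = t ^ p * z` with `s ∉ 𝔮`, `t ≠ 0`, `z ∉ 𝔮`; then `y' ^ p = z` is a unit at `𝔮` and the
Kummer splitting criterion applies.
-/
import Fermat.Agent.S14.Interfaces

set_option autoImplicit false

open NumberField

namespace Fermat.Agent.S14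

/-- Changing the Kummer generator: if `x₀ ∈ 𝔮 ^ (p * m) ∖ 𝔮 ^ (p * m + 1)`, there are
`s, t, z ∈ 𝓞 F` with `s ∉ 𝔮`, `t ≠ 0`, `z ∉ 𝔮` and `s ^ p * x₀ = t ^ p * z`. -/
theorem bku_exists_unit_rep {F : Type} [Field F] [NumberField F] (p m : ℕ) (x₀ : 𝓞 F)
    (𝔮 : Ideal (𝓞 F)) (h𝔮 : 𝔮.IsPrime) (h𝔮0 : 𝔮 ≠ ⊥)
    (hx : x₀ ∈ 𝔮 ^ (p * m)) (hx' : x₀ ∉ 𝔮 ^ (p * m + 1)) :
    ∃ s t z : 𝓞 F, s ∉ 𝔮 ∧ t ≠ 0 ∧ z ∉ 𝔮 ∧ s ^ p * x₀ = t ^ p * z := by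
  have := h𝔮
  -- pick `t ∈ 𝔮 ^ m ∖ 𝔮 ^ (m + 1)`
  obtain ⟨t, htm, htm'⟩ := SetLike.exists_of_lt (Ideal.pow_succ_lt_pow h𝔮0 m)
  have ht0 : t ≠ 0 := by
    rintro rfl
    exact htm' (Ideal.zero_mem _)
  -- `(t) = 𝔮 ^ m * 𝔠₀` with `𝔠₀` not contained in `𝔮`
  obtain ⟨𝔠₀, h𝔠₀⟩ : 𝔮 ^ m ∣ Ideal.span {t} :=
    Ideal.dvd_iff_le.mpr ((Ideal.span_singleton_le_iff_mem _).mpr htm)
  have h𝔠₀q : ¬ 𝔠₀ ≤ 𝔮 := by
    intro hle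
    apply htm'
    have hle' : Ideal.span {t} ≤ 𝔮 ^ (m + 1) := by
      rw [h𝔠₀, pow_succ]
      exact Ideal.mul_mono_right hle
    exact hle' (Ideal.mem_span_singleton_self t)
  obtain ⟨s, hs𝔠, hs𝔮⟩ := SetLike.not_le_iff_exists.mp h𝔠₀q
  -- `s ^ p * x₀ ∈ (t ^ p) = 𝔠₀ ^ p * 𝔮 ^ (p * m)`
  have hmem : s ^ p * x₀ ∈ Ideal.span {t ^ p} := by
    rw [← Ideal.span_singleton_pow, h𝔠₀, mul_pow, ← pow_mul, mul_comm (𝔮 ^ (m * p)),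
      mul_comm m p]
    exact Ideal.mul_mem_mul (Ideal.pow_mem_pow hs𝔠 p) hx
  obtain ⟨z, hz⟩ := Ideal.mem_span_singleton'.mp hmem
  refine ⟨s, t, z, hs𝔮, ht0, ?_, ?_⟩
  · intro hz𝔮
    have h1 : s ^ p * x₀ ∈ 𝔮 ^ (p * m + 1) := by
      rw [← hz, pow_succ, mul_comm z]
      refine Ideal.mul_mem_mul ?_ hz𝔮
      rw [mul_comm p m, pow_mul]
      exact Ideal.pow_mem_pow htm p
    rcases Ideal.IsPrime.mul_mem_pow 𝔮 h1 with h2 | h2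
    · exact hs𝔮 (h𝔮.mem_of_pow_mem p h2)
    · exact hx' h2
  · rw [← hz, mul_comm]

/-- Kummer: `𝔮 ∤ p` and `p ∣ v_𝔮(x₀)` implies unramified above `𝔮`. -/
theorem bku_kummerUnram : KummerSplitStatement → KummerUnramStatement := by
  intro hKS p _ F N _ _ _ _ _ ζ hζ hdeg x₀ y hy hyF 𝔮 h𝔮 h𝔮0 hp𝔮 hord
  obtain ⟨n, hxn, hxn', m, rfl⟩ := hord
  obtain ⟨s, t, z, hs, ht, hz, hstz⟩ := bku_exists_unit_rep p m x₀ 𝔮 h𝔮 h𝔮0 hxn hxn'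
  have hs0 : s ≠ 0 := by
    rintro rfl
    exact hs (Ideal.zero_mem _)
  have hsF : (s : F) ≠ 0 := RingOfIntegers.coe_ne_zero_iff.mpr hs0
  have htF : (t : F) ≠ 0 := RingOfIntegers.coe_ne_zero_iff.mpr ht
  have hF : ((s : F) / (t : F)) ^ p * (x₀ : F) = (z : F) := by
    have h : (s : F) ^ p * (x₀ : F) = (t : F) ^ p * (z : F) := by
      have h' := congrArg (fun a : 𝓞 F => (a : F)) hstz
      simpa using h'
    rw [div_pow, div_mul_eq_mul_div, h, mul_div_assoc, mul_comm, div_mul_cancel₀]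
    exact pow_ne_zero p htF
  have hy'p : (algebraMap F N ((s : F) / (t : F)) * y) ^ p = algebraMap F N (z : F) := by
    rw [mul_pow, hy, ← map_pow, ← map_mul, hF]
  have hy'F : algebraMap F N ((s : F) / (t : F)) * y ∉ Set.range (algebraMap F N) := by
    rintro ⟨w, hw⟩
    apply hyF
    have hne : algebraMap F N ((s : F) / (t : F)) ≠ 0 :=
      (map_ne_zero (algebraMap F N)).mpr (div_ne_zero hsF htF)
    refine ⟨w / ((s : F) / (t : F)), ?_⟩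
    rw [map_div₀, hw, mul_div_assoc, mul_comm, div_mul_cancel₀ _ hne]
  exact (hKS p F N ζ hζ hdeg z _ hy'p hy'F 𝔮 h𝔮 h𝔮0 hp𝔮 hz).2

end Fermat.Agent.S14
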