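/-
S14, block K (second inequality): FROZEN interfaces of the work packages.
Owner: helper181 (block lead K).  Do not edit.

Uniform conventions of block K (in addition to those of `Interfaces.lean`):
* finite sets of primes are `S T : Finset (HeightOneSpectrum (𝓞 F))`; the ideal of `v` is `v.asIdeal`;
* "numbers" are elements of the group `Fˣ`; valuations are `v.valuation F (a : F) : ℤᵐ⁰`
  (`= 1` means "unit at `v`"); `S`-units are Mathlib's `(S : Set (HeightOneSpectrum (𝓞 F))).unit F`,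
  a `Subgroup Fˣ`;
* `k_pow p F` is the subgroup of `p`-th powers of `Fˣ`;
* `k_unitsAt S` is the subgroup of elements of `Fˣ` which are units at every `v ∈ S`;
* `k_congOne 𝔪` is the subgroup of `a ∈ Fˣ` with `a ≡ 1 mod^× 𝔪`
  (`a = c₁ / c₂` with `c₁, c₂ ∈ 𝓞 F`, `c₂` prime to `𝔪`, `c₁ - c₂ ∈ 𝔪`);
* `lam : 𝓞 F` is `1 - ζ`; the modulus is `k_modulus p S lam = (p * lam) * ∏_{v ∈ S} v`
  (at `v ∤ p` its exponent is `1`, at `v ∣ p` it is `v(p) + v(lam) + 1 = p * v(lam) + 1`);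
* `k_D p S lam = k_pow p F ⊔ k_congOne (k_modulus p S lam)` (the "local `p`-th powers at `S`");
* `k_PowRes p 𝔮 a`: `a ∈ F` is a unit at the prime `𝔮` and a `p`-th power residue modulo `𝔮`.
-/
import Mathlib
import Fermat.Agent.S14.Interfaces

set_option autoImplicit false

open NumberField IsDedekindDomain

namespace Fermat.Agent.S14

/-! ## Definitions -/

/-- The subgroup of `p`-th powers of `Fˣ`. -/
noncomputable def k_pow (p : ℕ) (F : Type) [Field F] : Subgroup Fˣ :=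
  (powMonoidHom p : Fˣ →* Fˣ).range

/-- The elements of `Fˣ` which are units at every `v ∈ S`. -/
noncomputable def k_unitsAt {F : Type} [Field F] [NumberField F]
    (S : Finset (HeightOneSpectrum (𝓞 F))) : Subgroup Fˣ where
  carrier := {a | ∀ v ∈ S, v.valuation F (a : F) = 1}
  one_mem' := fun v _ => by simp
  mul_mem' := fun {a b} ha hb v hv => by
    have h1 := ha v hv
    have h2 := hb v hv
    simp only [Units.val_mul, map_mul, h1, h2, mul_one]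
  inv_mem' := fun {a} ha v hv => by
    have h1 := ha v hv
    simp only [Units.val_inv_eq_inv_val, map_inv₀, h1, inv_one]

/-- `a ≡ 1 mod^× 𝔪`: `a = c₁ / c₂` with `c₁, c₂ ∈ 𝓞 F`, `c₂` prime to `𝔪` and `c₁ ≡ c₂ mod 𝔪`. -/
noncomputable def k_congOne {F : Type} [Field F] [NumberField F] (𝔪 : Ideal (𝓞 F)) :
    Subgroup Fˣ where
  carrier := {a | ∃ c₁ c₂ : 𝓞 F, Ideal.span {c₂} ⊔ 𝔪 = ⊤ ∧ c₁ - c₂ ∈ 𝔪 ∧
    (a : F) * (c₂ : F) = (c₁ : F)}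
  one_mem' := ⟨1, 1, by simp, by simp, by simp⟩
  mul_mem' := by
    rintro a b ⟨c₁, c₂, hc, hm, he⟩ ⟨d₁, d₂, hd, hn, hf⟩
    refine ⟨c₁ * d₁, c₂ * d₂, ?_, ?_, ?_⟩
    · rw [eq_top_iff, ← Ideal.mul_top (⊤ : Ideal (𝓞 F))]
      nth_rewrite 1 [← hc]
      rw [← hd]
      rw [Ideal.sup_mul, Ideal.mul_sup, Ideal.mul_sup, Ideal.span_singleton_mul_span_singleton]
      refine sup_le (sup_le le_sup_left (le_sup_of_le_right Ideal.mul_le_right)) ?_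
      exact sup_le (le_sup_of_le_right Ideal.mul_le_left) (le_sup_of_le_right Ideal.mul_le_left)
    · have : c₁ * d₁ - c₂ * d₂ = c₁ * (d₁ - d₂) + d₂ * (c₁ - c₂) := by ring
      rw [this]
      exact 𝔪.add_mem (𝔪.mul_mem_left _ hn) (𝔪.mul_mem_left _ hm)
    · push_cast
      linear_combination ((b : F) * (d₂ : F)) * he + (c₁ : F) * hf
  inv_mem' := by
    rintro a ⟨c₁, c₂, hc, hm, he⟩
    refine ⟨c₂, c₁, ?_, ?_, ?_⟩
    · rw [eq_top_iff, ← hc]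
      refine sup_le ?_ le_sup_right
      rw [Ideal.span_singleton_le_iff_mem]
      have : c₂ = c₁ - (c₁ - c₂) := by ring
      rw [this]
      exact Ideal.sub_mem _ (Ideal.mem_sup_left (Ideal.mem_span_singleton_self c₁))
        (Ideal.mem_sup_right hm)
    · have : c₂ - c₁ = -(c₁ - c₂) := by ring
      rw [this]
      exact 𝔪.neg_mem hm
    · rw [← he, Units.val_inv_eq_inv_val]
      field_simp

/-- The modulus `(p * lam) * ∏_{v ∈ S} v` (`lam = 1 - ζ`). -/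
noncomputable def k_modulus (p : ℕ) {F : Type} [Field F] [NumberField F]
    (S : Finset (HeightOneSpectrum (𝓞 F))) (lam : 𝓞 F) : Ideal (𝓞 F) :=
  Ideal.span {(p : 𝓞 F) * lam} * ∏ v ∈ S, v.asIdeal

/-- `Fˣ^p · {a ≡ 1 mod^× k_modulus}`. -/
noncomputable def k_D (p : ℕ) {F : Type} [Field F] [NumberField F]
    (S : Finset (HeightOneSpectrum (𝓞 F))) (lam : 𝓞 F) : Subgroup Fˣ :=
  k_pow p F ⊔ k_congOne (k_modulus p S lam)

/-- `a ∈ F` is a unit at the prime `𝔮`: `a = a₁ / a₂` with `a₁, a₂ ∈ 𝓞 F ∖ 𝔮`. -/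
def k_UnitAt {F : Type} [Field F] [NumberField F] (𝔮 : Ideal (𝓞 F)) (a : F) : Prop :=
  ∃ a₁ a₂ : 𝓞 F, a₁ ∉ 𝔮 ∧ a₂ ∉ 𝔮 ∧ a * (a₂ : F) = (a₁ : F)

/-- `a ∈ F` is a unit at `𝔮` and a `p`-th power residue modulo `𝔮`:
`a = a₁ / a₂` with `a₁, a₂ ∈ 𝓞 F ∖ 𝔮` and `a₁ ≡ c ^ p * a₂ mod 𝔮` for some `c ∈ 𝓞 F`. -/
def k_PowRes (p : ℕ) {F : Type} [Field F] [NumberField F] (𝔮 : Ideal (𝓞 F)) (a : F) : Prop :=
  ∃ a₁ a₂ c : 𝓞 F, a₁ ∉ 𝔮 ∧ a₂ ∉ 𝔮 ∧ a * (a₂ : F) = (a₁ : F) ∧ a₁ - c ^ p * a₂ ∈ 𝔮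

/-- The primes of `S` generate the class group, in elementary form: every nonzero ideal becomes
principal after multiplication by a product of primes of `S`. -/
def k_SGen {F : Type} [Field F] [NumberField F] (S : Finset (HeightOneSpectrum (𝓞 F))) : Prop :=
  ∀ 𝔞 : Ideal (𝓞 F), 𝔞 ≠ ⊥ → ∃ (γ : 𝓞 F) (n : HeightOneSpectrum (𝓞 F) → ℕ), γ ≠ 0 ∧
    𝔞 * ∏ v ∈ S, v.asIdeal ^ n v = Ideal.span {γ}

/-- (Lemma A) The `S`-units surject onto `∏_{𝔮 ∈ T} k(𝔮)ˣ / k(𝔮)ˣ^p`: for every choice of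
`t 𝔮 ∈ 𝓞 F ∖ 𝔮` (`𝔮 ∈ T`) there is an `S`-unit `u` with `u * t 𝔮` a `p`-th power residue at every
`𝔮 ∈ T`. -/
def k_LemmaA (p : ℕ) {F : Type} [Field F] [NumberField F]
    (S T : Finset (HeightOneSpectrum (𝓞 F))) : Prop :=
  ∀ t : HeightOneSpectrum (𝓞 F) → 𝓞 F, (∀ 𝔮 ∈ T, t 𝔮 ∉ 𝔮.asIdeal) →
    ∃ u : Fˣ, u ∈ (S : Set (HeightOneSpectrum (𝓞 F))).unit F ∧
      ∀ 𝔮 ∈ T, k_PowRes p 𝔮.asIdeal ((u : F) * (t 𝔮 : F))

/-! ## Work packages: small general facts -/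

/-- (Ex) Existence of the Kummer field `F(x^{1/p})` as an abstract number field. -/
def k_KummerExistsStatement : Prop :=
  ∀ (p : ℕ) [Fact p.Prime] (F : Type) [Field F] [NumberField F] (x : F), (∀ b : F, b ^ p ≠ x) →
    ∃ (N : Type) (_ : Field N) (_ : NumberField N) (_ : Algebra F N),
      Module.finrank F N = p ∧ ∃ y : N, y ^ p = algebraMap F N x ∧ y ∉ Set.range (algebraMap F N)

/-- (KPow, plan K2) `Fˣ ∩ Nˣ^p = ⟨x⟩ Fˣ^p` for `N = F(x^{1/p})`. -/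
def k_KummerPowStatement : Prop :=
  ∀ (p : ℕ) [Fact p.Prime],
  ∀ (F N : Type) [Field F] [NumberField F] [Field N] [NumberField N] [Algebra F N]
    (ζ : F), IsPrimitiveRoot ζ p → Module.finrank F N = p →
  ∀ (x : F) (y : N), y ^ p = algebraMap F N x → y ∉ Set.range (algebraMap F N) →
  ∀ (u : F) (z : N), z ^ p = algebraMap F N u → ∃ (j : ℕ) (b : F), u = x ^ j * b ^ p

/-- (Inert) If `p` divides the inertia degree of `𝔔` over `F`, every element of `𝓞 F` is a `p`-th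
power modulo `𝔔`. -/
def k_InertPowStatement : Prop :=
  ∀ (p : ℕ) [Fact p.Prime],
  ∀ (F N : Type) [Field F] [NumberField F] [Field N] [NumberField N] [Algebra F N]
    (ζ : F), IsPrimitiveRoot ζ p →
  ∀ 𝔔 : Ideal (𝓞 N), 𝔔.IsPrime → 𝔔 ≠ ⊥ → (p : 𝓞 N) ∉ 𝔔 → p ∣ 𝔔.inertiaDeg (𝓞 F) →
  ∀ u : 𝓞 F, ∃ c : 𝓞 N, algebraMap (𝓞 F) (𝓞 N) u - c ^ p ∈ 𝔔

/-- (GalPrime) In a Galois extension of prime degree `p`, a prime either splits completely or has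
exactly one prime above it, with `e * f = p`. -/
def k_GalPrimeStatement : Prop :=
  ∀ (p : ℕ) [Fact p.Prime],
  ∀ (F N : Type) [Field F] [NumberField F] [Field N] [NumberField N] [Algebra F N] [IsGalois F N],
    Module.finrank F N = p →
  ∀ 𝔮 : Ideal (𝓞 F), 𝔮.IsPrime → 𝔮 ≠ ⊥ →
    SplitsCompletely F N 𝔮 ∨
    ((∀ 𝔔 ∈ 𝔮.primesOver (𝓞 N), ∀ 𝔔' ∈ 𝔮.primesOver (𝓞 N), 𝔔 = 𝔔') ∧
      ∀ 𝔔 ∈ 𝔮.primesOver (𝓞 N), 𝔔.ramificationIdx (𝓞 F) * 𝔔.inertiaDeg (𝓞 F) = p)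

/-- (ProdPow) Valuation pigeonhole: if a product of `n` elements lies in `𝔳 ^ (n * k + 1)`, one of
the factors lies in `𝔳 ^ (k + 1)`. -/
def k_ProdPowStatement : Prop :=
  ∀ (F : Type) [Field F] [NumberField F] (𝔳 : Ideal (𝓞 F)), 𝔳.IsPrime → 𝔳 ≠ ⊥ →
  ∀ (s : Finset ℕ) (f : ℕ → 𝓞 F) (k : ℕ),
    ∏ i ∈ s, f i ∈ 𝔳 ^ (s.card * k + 1) → ∃ i ∈ s, f i ∈ 𝔳 ^ (k + 1)

/-- (LamDvd) `(1 - ζ) ^ (p - 1)` divides `p`. -/
def k_LamDvdStatement : Prop :=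
  ∀ (p : ℕ) [Fact p.Prime] (F : Type) [Field F] [NumberField F] (ζ : F), IsPrimitiveRoot ζ p →
  ∀ lam : 𝓞 F, (lam : F) = 1 - ζ → ∃ w : 𝓞 F, (p : 𝓞 F) = lam ^ (p - 1) * w

/-- (Modulus) Basic properties of the modulus. -/
def k_ModulusStatement : Prop :=
  ∀ (p : ℕ) [Fact p.Prime] (F : Type) [Field F] [NumberField F] (ζ : F), IsPrimitiveRoot ζ p →
  ∀ lam : 𝓞 F, (lam : F) = 1 - ζ →
  ∀ S : Finset (HeightOneSpectrum (𝓞 F)),
    (∀ v : HeightOneSpectrum (𝓞 F), (p : 𝓞 F) ∈ v.asIdeal → v ∈ S) →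
    k_modulus p S lam ≠ ⊥ ∧
    (∀ v : HeightOneSpectrum (𝓞 F), k_modulus p S lam ≤ v.asIdeal ↔ v ∈ S) ∧
    (∀ v ∈ S, k_modulus p S lam ≤ v.asIdeal * Ideal.span {lam} ^ p)

/-- (UnitAt) Valuation `1` at `v` means: a quotient of two elements of `𝓞 F ∖ v`. -/
def k_UnitAtStatement : Prop :=
  ∀ (F : Type) [Field F] [NumberField F] (v : HeightOneSpectrum (𝓞 F)) (a : F),
    v.valuation F a = 1 ↔ k_UnitAt v.asIdeal a

/-- (CongUnit) Elements `≡ 1 mod^× 𝔪` are units at the primes dividing `𝔪`. -/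
def k_CongUnitStatement : Prop :=
  ∀ (F : Type) [Field F] [NumberField F] (𝔪 : Ideal (𝓞 F))
    (S : Finset (HeightOneSpectrum (𝓞 F))), (∀ v ∈ S, 𝔪 ≤ v.asIdeal) →
    k_congOne 𝔪 ≤ k_unitsAt S

/-- (Approx) There are elements of `Fˣ` with prescribed valuations at finitely many primes. -/
def k_ApproxStatement : Prop :=
  ∀ (F : Type) [Field F] [NumberField F] (S : Finset (HeightOneSpectrum (𝓞 F)))
    (n : HeightOneSpectrum (𝓞 F) → ℤ),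
    ∃ a : Fˣ, ∀ v ∈ S, v.valuation F (a : F) = WithZero.exp (n v)

/-- (Rank) A number field containing `ζ_p`, `p ≥ 3`, is totally complex: `[F : ℚ] = 2 (r + 1)`. -/
def k_RankStatement : Prop :=
  ∀ (p : ℕ) [Fact p.Prime], 3 ≤ p → ∀ (F : Type) [Field F] [NumberField F] (ζ : F),
    IsPrimitiveRoot ζ p → Module.finrank ℚ F = 2 * (NumberField.Units.rank F + 1)

/-! ## `p`-th power residues -/

/-- (PowResMul) -/
def k_PowResMulStatement : Prop :=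
  ∀ (p : ℕ) (F : Type) [Field F] [NumberField F] (𝔮 : Ideal (𝓞 F)), 𝔮.IsPrime →
  ∀ a b : F, k_PowRes p 𝔮 a → k_PowRes p 𝔮 b → k_PowRes p 𝔮 (a * b)

/-- (PowResInv) -/
def k_PowResInvStatement : Prop :=
  ∀ (p : ℕ) (F : Type) [Field F] [NumberField F] (𝔮 : Ideal (𝓞 F)), 𝔮.IsPrime → 𝔮 ≠ ⊥ →
  ∀ a : F, k_PowRes p 𝔮 a → k_PowRes p 𝔮 a⁻¹

/-- (PowResCyclic) `k(𝔮)ˣ / k(𝔮)ˣ^p` is cyclic of order dividing `p`: it is generated by any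
non-residue. -/
def k_PowResCyclicStatement : Prop :=
  ∀ (p : ℕ) [Fact p.Prime] (F : Type) [Field F] [NumberField F] (𝔮 : Ideal (𝓞 F)),
    𝔮.IsPrime → 𝔮 ≠ ⊥ →
  ∀ a b : F, k_UnitAt 𝔮 a → k_UnitAt 𝔮 b → ¬ k_PowRes p 𝔮 b →
    ∃ j : ℕ, j < p ∧ k_PowRes p 𝔮 (a * b ^ j)

/-! ## `S`-units (plan K1) -/

/-- (AbIndex) For a finitely generated abelian group `A`:
`[A : A^p] = p ^ rank(A) * #A[p]`. -/
def k_AbIndexStatement : Prop :=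
  ∀ (p : ℕ) [Fact p.Prime] (A : Type) [CommGroup A], Module.Finite ℤ (Additive A) →
    (powMonoidHom p : A →* A).range.index =
      p ^ Module.finrank ℤ (Additive A) * Nat.card {a : A // a ^ p = 1}

/-- (SUnitIndex, plan K1) `[F_S : F_S ∩ Fˣ^p] = p ^ (#S + r + 1)`. -/
def k_SUnitIndexStatement : Prop :=
  ∀ (p : ℕ) [Fact p.Prime] (F : Type) [Field F] [NumberField F] (ζ : F), IsPrimitiveRoot ζ p →
  ∀ S : Finset (HeightOneSpectrum (𝓞 F)),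
    (k_pow p F).relIndex ((S : Set (HeightOneSpectrum (𝓞 F))).unit F) =
      p ^ (S.card + NumberField.Units.rank F + 1)

/-- (SUnitFrac) An `S`-unit is a quotient of two integral `S`-units. -/
def k_SUnitFracStatement : Prop :=
  ∀ (F : Type) [Field F] [NumberField F] (S : Finset (HeightOneSpectrum (𝓞 F))) (u : Fˣ),
    u ∈ (S : Set (HeightOneSpectrum (𝓞 F))).unit F →
    ∃ (u₁ u₂ : 𝓞 F) (m₁ m₂ : HeightOneSpectrum (𝓞 F) → ℕ), u₁ ≠ 0 ∧ u₂ ≠ 0 ∧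
      (u : F) * (u₂ : F) = (u₁ : F) ∧
      Ideal.span {u₁} = ∏ v ∈ S, v.asIdeal ^ m₁ v ∧ Ideal.span {u₂} = ∏ v ∈ S, v.asIdeal ^ m₂ v

/-! ## Choice of the auxiliary primes `T` (plan K4) -/

/-- (Step, plan K4) One step of the greedy choice: if `u ∉ ⟨x₀⟩ Fˣ^p` there is a prime `𝔮`,
outside any given finite set, not dividing `p x₀ u`, which splits completely in `N = F(x₀^{1/p})`
and modulo which `u` is not a `p`-th power. -/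
def k_StepStatement : Prop :=
  ∀ (p : ℕ) [Fact p.Prime], 3 ≤ p →
  ∀ (F N : Type) [Field F] [NumberField F] [Field N] [NumberField N] [Algebra F N] [IsGalois F N]
    (ζ : F), IsPrimitiveRoot ζ p → Module.finrank F N = p →
  ∀ (x₀ : 𝓞 F) (y : N), y ^ p = algebraMap F N (x₀ : F) → y ∉ Set.range (algebraMap F N) →
  ∀ u : 𝓞 F, (∀ (j : ℕ) (b : F), (u : F) ≠ (x₀ : F) ^ j * b ^ p) →
  ∀ T₀ : Finset (Ideal (𝓞 F)),
    ∃ 𝔮 : Ideal (𝓞 F), 𝔮.IsPrime ∧ 𝔮 ≠ ⊥ ∧ 𝔮 ∉ T₀ ∧ (p : 𝓞 F) ∉ 𝔮 ∧ x₀ ∉ 𝔮 ∧ u ∉ 𝔮 ∧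
      SplitsCompletely F N 𝔮 ∧ ¬ ∃ c : 𝓞 F, u - c ^ p ∈ 𝔮

/-- (ChooseT, plan K4 + Lemma A) There is a set `T` of `#S + r` primes outside `S`, each split
completely in `N`, for which Lemma A holds. -/
def k_ChooseTStatement : Prop :=
  ∀ (p : ℕ) [Fact p.Prime], 3 ≤ p →
  ∀ (F N : Type) [Field F] [NumberField F] [Field N] [NumberField N] [Algebra F N] [IsGalois F N]
    (ζ : F), IsPrimitiveRoot ζ p → Module.finrank F N = p →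
  ∀ (x₀ : 𝓞 F) (y : N), y ^ p = algebraMap F N (x₀ : F) → y ∉ Set.range (algebraMap F N) →
  ∀ S : Finset (HeightOneSpectrum (𝓞 F)),
    (∀ v : HeightOneSpectrum (𝓞 F), (p : 𝓞 F) ∈ v.asIdeal → v ∈ S) →
    (∀ v : HeightOneSpectrum (𝓞 F), x₀ ∈ v.asIdeal → v ∈ S) →
    ∃ T : Finset (HeightOneSpectrum (𝓞 F)), Disjoint S T ∧
      T.card = S.card + NumberField.Units.rank F ∧
      (∀ 𝔮 ∈ T, SplitsCompletely F N 𝔮.asIdeal) ∧ k_LemmaA p S T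

/-! ## Local conditions at `S` (plan K5) -/

/-- (SplitP, plan K5) If `x₀ ≡ b ^ p` modulo `𝔳 * (1 - ζ) ^ p` with `b` prime to `𝔳`, then `𝔳`
splits completely in `F(x₀^{1/p})` (also for `𝔳 ∣ p`). -/
def k_SplitPStatement : Prop :=
  ∀ (p : ℕ) [Fact p.Prime], 3 ≤ p →
  ∀ (F N : Type) [Field F] [NumberField F] [Field N] [NumberField N] [Algebra F N]
    (ζ : F), IsPrimitiveRoot ζ p → Module.finrank F N = p →
  ∀ (x₀ : 𝓞 F) (y : N), y ^ p = algebraMap F N (x₀ : F) → y ∉ Set.range (algebraMap F N) →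
  ∀ (lam b : 𝓞 F), (lam : F) = 1 - ζ →
  ∀ 𝔳 : Ideal (𝓞 F), 𝔳.IsPrime → 𝔳 ≠ ⊥ → b ∉ 𝔳 →
    x₀ - b ^ p ∈ 𝔳 * Ideal.span {lam} ^ p → SplitsCompletely F N 𝔳

/-- (RootCong) If `x ^ p ≡ 1` modulo `𝔳 * (1 - ζ) ^ p` then `x ≡ ζ ^ i` modulo `𝔳 ^ (v(1 - ζ) + 1)`
for some `i`. -/
def k_RootCongStatement : Prop :=
  ∀ (p : ℕ) [Fact p.Prime] (F : Type) [Field F] [NumberField F] (ζ : F), IsPrimitiveRoot ζ p →
  ∀ (zeta lam : 𝓞 F), (zeta : F) = ζ → (lam : F) = 1 - ζ →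
  ∀ 𝔳 : Ideal (𝓞 F), 𝔳.IsPrime → 𝔳 ≠ ⊥ →
  ∀ x : 𝓞 F, x ^ p - 1 ∈ 𝔳 * Ideal.span {lam} ^ p →
    ∃ i : ℕ, i < p ∧ ∀ n : ℕ, lam ∈ 𝔳 ^ n → x - zeta ^ i ∈ 𝔳 ^ (n + 1)

/-- (TorsionCount, plan K5) `#{r ∈ (𝓞 F / 𝔪)ˣ : r ^ p = 1} ≤ p ^ (#S + [F : ℚ])` for the modulus
`𝔪 = k_modulus p S lam`, `S ⊇ {v ∣ p}`. -/
def k_TorsionCountStatement : Prop :=
  ∀ (p : ℕ) [Fact p.Prime], 3 ≤ p → ∀ (F : Type) [Field F] [NumberField F] (ζ : F),
    IsPrimitiveRoot ζ p →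
  ∀ lam : 𝓞 F, (lam : F) = 1 - ζ →
  ∀ S : Finset (HeightOneSpectrum (𝓞 F)),
    (∀ v : HeightOneSpectrum (𝓞 F), (p : 𝓞 F) ∈ v.asIdeal → v ∈ S) →
    Nat.card {r : (𝓞 F ⧸ k_modulus p S lam)ˣ // r ^ p = 1} ≤ p ^ (S.card + Module.finrank ℚ F)

/-- (ValIndex) `[Fˣ : Fˣ^p · U_S] ≤ p ^ #S` (and the index is finite). -/
def k_ValIndexStatement : Prop :=
  ∀ (p : ℕ) [Fact p.Prime] (F : Type) [Field F] [NumberField F]
    (S : Finset (HeightOneSpectrum (𝓞 F))),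
    (k_pow p F ⊔ k_unitsAt S).index ≠ 0 ∧ (k_pow p F ⊔ k_unitsAt S).index ≤ p ^ S.card

/-- (Red) Reduction modulo `𝔪` on the units at `S` (`S` = set of primes dividing `𝔪`): a surjective
homomorphism onto `(𝓞 F / 𝔪)ˣ` with kernel `k_congOne 𝔪`. -/
def k_RedStatement : Prop :=
  ∀ (F : Type) [Field F] [NumberField F] (S : Finset (HeightOneSpectrum (𝓞 F)))
    (𝔪 : Ideal (𝓞 F)), 𝔪 ≠ ⊥ →
    (∀ v : HeightOneSpectrum (𝓞 F), 𝔪 ≤ v.asIdeal ↔ v ∈ S) →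
    ∃ red : k_unitsAt S →* (𝓞 F ⧸ 𝔪)ˣ, Function.Surjective red ∧
      ∀ a : k_unitsAt S, red a = 1 ↔ (a : Fˣ) ∈ k_congOne 𝔪

/-- (IndexD, plan K5) `[Fˣ : Fˣ^p · {a ≡ 1 mod^× 𝔪}] ≤ p ^ #S * #(𝓞 F / 𝔪)ˣ[p]`, finite. -/
def k_IndexDStatement : Prop :=
  ∀ (p : ℕ) [Fact p.Prime] (F : Type) [Field F] [NumberField F]
    (S : Finset (HeightOneSpectrum (𝓞 F))) (𝔪 : Ideal (𝓞 F)), 𝔪 ≠ ⊥ →
    (∀ v : HeightOneSpectrum (𝓞 F), 𝔪 ≤ v.asIdeal ↔ v ∈ S) →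
    (k_pow p F ⊔ k_congOne 𝔪).index ≠ 0 ∧
    (k_pow p F ⊔ k_congOne 𝔪).index ≤ p ^ S.card * Nat.card {r : (𝓞 F ⧸ 𝔪)ˣ // r ^ p = 1}

/-! ## Norms and the class group -/

/-- (SplitNorm) A prime which splits completely is the norm of a (prime) ideal. -/
def k_SplitNormStatement : Prop :=
  ∀ (F N : Type) [Field F] [NumberField F] [Field N] [NumberField N] [Algebra F N]
    (𝔮 : Ideal (𝓞 F)), 𝔮.IsPrime → 𝔮 ≠ ⊥ → SplitsCompletely F N 𝔮 →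
    ∃ 𝔔 : Ideal (𝓞 N), 𝔔 ≠ ⊥ ∧ Ideal.relNorm (𝓞 F) 𝔔 = 𝔮

/-- (PowNorm) `[N : F]`-th powers of ideal classes are norm classes. -/
def k_PowNormStatement : Prop :=
  ∀ (F N : Type) [Field F] [NumberField F] [Field N] [NumberField N] [Algebra F N]
    (C : ClassGroup (𝓞 F)), C ^ Module.finrank F N ∈ normClasses F N

/-- (ExistsS) There is a finite set of primes containing all primes dividing `m` and generating the
class group. -/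
def k_ExistsSStatement : Prop :=
  ∀ (F : Type) [Field F] [NumberField F] (m : 𝓞 F), m ≠ 0 →
    ∃ S : Finset (HeightOneSpectrum (𝓞 F)),
      (∀ v : HeightOneSpectrum (𝓞 F), m ∈ v.asIdeal → v ∈ S) ∧ k_SGen S

/-- (Phi, plan K7) The map `a ↦ class of the prime-to-S part of (a)`: a surjective homomorphism
`Fˣ → Cl(F)`, trivial on the units at `S`, and mapping `S ∪ T`-units into the subgroup generated by
the classes of the primes of `T`. -/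
def k_PhiStatement : Prop :=
  ∀ (F : Type) [Field F] [NumberField F] (S T : Finset (HeightOneSpectrum (𝓞 F))),
    Disjoint S T → k_SGen S →
    ∃ φ : Fˣ →* ClassGroup (𝓞 F), Function.Surjective φ ∧
      (∀ a ∈ k_unitsAt S, φ a = 1) ∧
      (∀ a ∈ ((S : Set (HeightOneSpectrum (𝓞 F))) ∪ (T : Set (HeightOneSpectrum (𝓞 F)))).unit F,
        φ a ∈ Subgroup.closure {c | ∃ (𝔮 : HeightOneSpectrum (𝓞 F))
          (h : 𝔮.asIdeal ∈ nonZeroDivisors (Ideal (𝓞 F))), 𝔮 ∈ T ∧ c = ClassGroup.mk0 ⟨𝔮.asIdeal, h⟩})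

/-! ## Lemma B (plan K6) -/

/-- (LemmaBCore, plan K6) Integral form of Lemma B: if `x₀ ∈ 𝓞 F` is, at every `v ∈ S`, congruent
to a `p`-th power of a `v`-unit modulo `v * (1 - ζ) ^ p`, and its tame set is contained in `T`,
then `x₀` is a `p`-th power in `F`. -/
def k_LemmaBCoreStatement : Prop :=
  ∀ (p : ℕ) [Fact p.Prime], 3 ≤ p → ∀ (F : Type) [Field F] [NumberField F] (ζ : F),
    IsPrimitiveRoot ζ p →
  ∀ lam : 𝓞 F, (lam : F) = 1 - ζ →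
  ∀ S T : Finset (HeightOneSpectrum (𝓞 F)),
    (∀ v : HeightOneSpectrum (𝓞 F), (p : 𝓞 F) ∈ v.asIdeal → v ∈ S) →
    k_SGen S → Disjoint S T → k_LemmaA p S T →
  ∀ x₀ c₂ : 𝓞 F, (∀ v ∈ S, c₂ ∉ v.asIdeal) →
    (∀ v ∈ S, x₀ - c₂ ^ p ∈ v.asIdeal * Ideal.span {lam} ^ p) →
    (∀ 𝔮 ∈ tameSet p F x₀, ∃ w ∈ T, w.asIdeal = 𝔮) →
    ∃ b : F, b ^ p = (x₀ : F)

/-- (LemmaB, plan K6) An `S ∪ T`-unit which lies in `k_D p S lam` is a `p`-th power. -/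
def k_LemmaBStatement : Prop :=
  ∀ (p : ℕ) [Fact p.Prime], 3 ≤ p → ∀ (F : Type) [Field F] [NumberField F] (ζ : F),
    IsPrimitiveRoot ζ p →
  ∀ lam : 𝓞 F, (lam : F) = 1 - ζ →
  ∀ S T : Finset (HeightOneSpectrum (𝓞 F)),
    (∀ v : HeightOneSpectrum (𝓞 F), (p : 𝓞 F) ∈ v.asIdeal → v ∈ S) →
    k_SGen S → Disjoint S T → k_LemmaA p S T →
    ((S : Set (HeightOneSpectrum (𝓞 F))) ∪ (T : Set (HeightOneSpectrum (𝓞 F)))).unit F ⊓
      k_D p S lam ≤ k_pow p F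

end Fermat.Agent.S14
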