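/-
S14, block K, package K/AbIndex: for a finitely generated abelian group `A`,
`[A : A^p] = p ^ rank(A) * #A[p]`.
-/
import Mathlib
import Fermat.Agent.S14.Interfaces
import Fermat.Agent.S14.KInterfaces
set_option autoImplicit false
open NumberField IsDedekindDomain
namespace Fermat.Agent.S14

/-- Finite case: kernel and cokernel of multiplication by `n` have the same cardinality. -/
theorem k_ab_finite (n : ℕ) (T : Type) [AddCommGroup T] [Finite T] :
    (nsmulAddMonoidHom (α := T) n).range.index =
      Nat.card (nsmulAddMonoidHom (α := T) n).ker := by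
  have h1 := AddSubgroup.index_ker (nsmulAddMonoidHom (α := T) n)
  have h2 := AddSubgroup.card_mul_index (nsmulAddMonoidHom (α := T) n).ker
  have h3 := AddSubgroup.card_mul_index (nsmulAddMonoidHom (α := T) n).range
  have h4 : 0 < Nat.card (nsmulAddMonoidHom (α := T) n).range := Nat.card_pos
  rw [h1] at h2
  have h5 : Nat.card (nsmulAddMonoidHom (α := T) n).range *
      (nsmulAddMonoidHom (α := T) n).range.index =
      Nat.card (nsmulAddMonoidHom (α := T) n).range *
        Nat.card (nsmulAddMonoidHom (α := T) n).ker := by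
    rw [h3, mul_comm, h2]
  exact Nat.eq_of_mul_eq_mul_left h4 h5

/-- The range of multiplication by `n` on a product. -/
theorem k_ab_range_prod (n : ℕ) (G T : Type) [AddCommGroup G] [AddCommGroup T] :
    (nsmulAddMonoidHom (α := G × T) n).range =
      (nsmulAddMonoidHom (α := G) n).range.prod (nsmulAddMonoidHom (α := T) n).range := by
  ext ⟨g, t⟩
  simp only [AddMonoidHom.mem_range, AddSubgroup.mem_prod, nsmulAddMonoidHom_apply]
  constructor
  · rintro ⟨⟨a, b⟩, h⟩
    exact ⟨⟨a, congrArg Prod.fst h⟩, ⟨b, congrArg Prod.snd h⟩⟩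
  · rintro ⟨⟨a, ha⟩, ⟨b, hb⟩⟩
    exact ⟨(a, b), Prod.ext ha hb⟩

/-- The kernel of multiplication by `n` on a product. -/
theorem k_ab_ker_prod (n : ℕ) (G T : Type) [AddCommGroup G] [AddCommGroup T] :
    (nsmulAddMonoidHom (α := G × T) n).ker =
      (nsmulAddMonoidHom (α := G) n).ker.prod (nsmulAddMonoidHom (α := T) n).ker := by
  ext ⟨g, t⟩
  simp only [AddMonoidHom.mem_ker, AddSubgroup.mem_prod, nsmulAddMonoidHom_apply]
  constructor
  · intro h
    exact ⟨congrArg Prod.fst h, congrArg Prod.snd h⟩
  · rintro ⟨ha, hb⟩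
    exact Prod.ext ha hb

/-- The rank of a product with a finite group. -/
theorem k_ab_finrank_prod (G T : Type) [AddCommGroup G] [AddCommGroup T] [Finite T] :
    Module.finrank ℤ (G × T) = Module.finrank ℤ G := by
  have hle : LinearMap.ker (LinearMap.fst ℤ G T) ≤ Submodule.torsion ℤ (G × T) := by
    rintro ⟨g, t⟩ hx
    rw [LinearMap.mem_ker, LinearMap.fst_apply] at hx
    rw [Submodule.mem_torsion_iff]
    have hc : (Nat.card T : ℤ) ≠ 0 := by
      exact_mod_cast (Nat.card_pos (α := T)).ne'
    refine ⟨⟨(Nat.card T : ℤ), mem_nonZeroDivisors_of_ne_zero hc⟩, ?_⟩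
    change ((Nat.card T : ℤ)) • (g, t) = 0
    have ht : Nat.card T • t = 0 := card_nsmul_eq_zero'
    simp only at hx
    subst hx
    ext
    · simp
    · simp [ht]
  rw [← finrank_quotient_eq_of_le_torsion hle]
  exact (LinearMap.quotKerEquivOfSurjective (LinearMap.fst ℤ G T)
    LinearMap.fst_surjective).finrank_eq

/-- The formula for a product of a free group and a finite group. -/
theorem k_ab_prod (n : ℕ) (hn : n ≠ 0) (G T : Type) [AddCommGroup G] [AddCommGroup T]
    [Module.Free ℤ G] [Module.Finite ℤ G] [Finite T] :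
    (nsmulAddMonoidHom (α := G × T) n).range.index =
      n ^ Module.finrank ℤ (G × T) * Nat.card (nsmulAddMonoidHom (α := G × T) n).ker := by
  have hinj : Function.Injective (nsmulAddMonoidHom (α := G) n) :=
    AddSubgroup.nsmulAddMonoidHom_injective_of_isTorsionFree hn
  have hker : (nsmulAddMonoidHom (α := G) n).ker = ⊥ :=
    (AddMonoidHom.ker_eq_bot_iff _).mpr hinj
  rw [k_ab_range_prod, AddSubgroup.index_prod, k_ab_ker_prod, k_ab_finrank_prod,
    AddSubgroup.index_range_nsmul, k_ab_finite, hker,
    Nat.card_congr (AddSubgroup.prodEquiv _ _).toEquiv, Nat.card_prod]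
  simp

/-- Additive form of the statement. -/
theorem k_ab_add (n : ℕ) (hn : n ≠ 0) (M : Type) [AddCommGroup M] [Module.Finite ℤ M] :
    (nsmulAddMonoidHom (α := M) n).range.index =
      n ^ Module.finrank ℤ M * Nat.card (nsmulAddMonoidHom (α := M) n).ker := by
  have : AddGroup.FG M := Module.Finite.iff_addGroup_fg.mp inferInstance
  obtain ⟨m, ι, _, q, hq, e, ⟨f⟩⟩ := AddCommGroup.equiv_free_prod_directSum_zmod M
  classical
  have : ∀ i, NeZero (q i ^ e i) := fun i => ⟨pow_ne_zero _ (hq i).ne_zero⟩
  have : Finite (DirectSum ι fun i => ZMod (q i ^ e i)) :=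
    Finite.of_equiv _ (DirectSum.addEquivProd _).toEquiv.symm
  have key := k_ab_prod n hn (Fin m →₀ ℤ) (DirectSum ι fun i => ZMod (q i ^ e i))
  have h1 : (nsmulAddMonoidHom (α := M) n).range.index =
      (nsmulAddMonoidHom
        (α := (Fin m →₀ ℤ) × DirectSum ι fun i => ZMod (q i ^ e i)) n).range.index := by
    rw [← AddEquiv.map_range_nsmulAddMonoidHom f n, AddSubgroup.index_map_equiv]
  have h2 : Module.finrank ℤ M =
      Module.finrank ℤ ((Fin m →₀ ℤ) × DirectSum ι fun i => ZMod (q i ^ e i)) :=
    f.toIntLinearEquiv.finrank_eq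
  have h3 : Nat.card (nsmulAddMonoidHom (α := M) n).ker =
      Nat.card (nsmulAddMonoidHom
        (α := (Fin m →₀ ℤ) × DirectSum ι fun i => ZMod (q i ^ e i)) n).ker := by
    refine Nat.card_congr (f.toEquiv.subtypeEquiv ?_)
    intro a
    simp only [AddMonoidHom.mem_ker, nsmulAddMonoidHom_apply, AddEquiv.toEquiv_eq_coe,
      EquivLike.coe_coe]
    rw [← map_nsmul, EmbeddingLike.map_eq_zero_iff]
  rw [h1, h2, h3]
  exact key

/-- (AbIndex) For a finitely generated abelian group `A`: `[A : A^p] = p ^ rank(A) * #A[p]`. -/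
theorem k_ab_main : k_AbIndexStatement := by
  intro p hp A _ hfin
  have := hfin
  have key := k_ab_add p hp.out.ne_zero (Additive A)
  have h1 : (powMonoidHom p : A →* A).range.index =
      (nsmulAddMonoidHom (α := Additive A) p).range.index := by
    rw [← Subgroup.index_toAddSubgroup]
    congr 1
  have h3 : Nat.card {a : A // a ^ p = 1} =
      Nat.card (nsmulAddMonoidHom (α := Additive A) p).ker := by
    refine Nat.card_congr (Additive.ofMul.subtypeEquiv ?_)
    intro a
    simp only [AddMonoidHom.mem_ker, nsmulAddMonoidHom_apply]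
    rw [← ofMul_pow, ofMul_eq_zero]
  rw [h1, h3]
  exact key

end Fermat.Agent.S14
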