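/-
S14, block K, package K/Approx: elements of `Fˣ` with prescribed valuations at finitely many primes.
Main theorem: `k_ap_main : k_ApproxStatement`.
-/
import Mathlib
import Fermat.Agent.S14.Interfaces
import Fermat.Agent.S14.KInterfaces
set_option autoImplicit false
open NumberField IsDedekindDomain
namespace Fermat.Agent.S14

/-- For a prime `v` and a finite set `S` of primes there is `y ∈ 𝓞 F` which is a uniformizer at `v`
and a unit at every `w ∈ S`, `w ≠ v`. -/
theorem k_ap_exists_y {F : Type} [Field F] [NumberField F]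
    (S : Finset (HeightOneSpectrum (𝓞 F))) (v : HeightOneSpectrum (𝓞 F)) :
    ∃ y : 𝓞 F, v.intValuation y = WithZero.exp (-1 : ℤ) ∧
      ∀ w ∈ S, w ≠ v → w.intValuation y = 1 := by
  classical
  obtain ⟨π, hπ⟩ := v.intValuation_exists_uniformizer
  obtain ⟨y, hy⟩ := IsDedekindDomain.exists_forall_sub_mem_ideal (s := insert v S)
    (fun w => w.asIdeal) (fun w => if w = v then 2 else 1) (fun w _ => w.prime)
    (fun w _ w' _ hne h => hne (HeightOneSpectrum.ext h))
    (fun w => if (w : HeightOneSpectrum (𝓞 F)) = v then π else 1)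
  refine ⟨y, ?_, ?_⟩
  · have h := hy v (Finset.mem_insert_self v S)
    simp only [if_true] at h
    have h2 : v.intValuation (y - π) ≤ WithZero.exp (-((2 : ℕ) : ℤ)) :=
      (v.intValuation_le_pow_iff_mem _ 2).mpr h
    have h3 : v.intValuation (y - π) < v.intValuation π := by
      rw [hπ]
      refine lt_of_le_of_lt h2 ?_
      rw [WithZero.exp_lt_exp]
      norm_num
    have h4 : y = π + (y - π) := by ring
    rw [h4, Valuation.map_add_eq_of_lt_left _ h3, hπ]
  · intro w hw hne
    have h := hy w (Finset.mem_insert_of_mem hw)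
    simp only [if_neg hne, pow_one] at h
    rw [HeightOneSpectrum.intValuation_eq_one_iff]
    intro hyw
    have h1 : (1 : 𝓞 F) ∈ w.asIdeal := by
      have h5 : (1 : 𝓞 F) = y - (y - 1) := by ring
      rw [h5]
      exact Ideal.sub_mem _ hyw h
    exact w.isPrime.ne_top ((Ideal.eq_top_iff_one _).mpr h1)

/-- (Approx) There are elements of `Fˣ` with prescribed valuations at finitely many primes. -/
theorem k_ap_main : k_ApproxStatement := by
  intro F _ _ S n
  classical
  choose y hy1 hy2 using k_ap_exists_y S
  have hy0 : ∀ v : HeightOneSpectrum (𝓞 F), algebraMap (𝓞 F) F (y v) ≠ 0 := by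
    intro v h
    have h0 : y v = 0 := by
      apply FaithfulSMul.algebraMap_injective (𝓞 F) F
      rw [h, map_zero]
    have h1 := hy1 v
    rw [h0, map_zero] at h1
    exact WithZero.exp_ne_zero h1.symm
  refine ⟨∏ v ∈ S, (Units.mk0 _ (hy0 v)) ^ (- n v), ?_⟩
  intro w hw
  rw [Units.coe_prod, map_prod, Finset.prod_eq_single w]
  · rw [Units.val_zpow_eq_zpow_val, map_zpow₀, Units.val_mk0,
      HeightOneSpectrum.valuation_of_algebraMap, hy1, ← WithZero.exp_zsmul]
    simp
  · intro v _ hne
    rw [Units.val_zpow_eq_zpow_val, map_zpow₀, Units.val_mk0,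
      HeightOneSpectrum.valuation_of_algebraMap, hy2 v w hw hne.symm, one_zpow]
  · intro h
    exact absurd hw h

end Fermat.Agent.S14
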