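/-
S14, block K, package K/ExistsS: there is a finite set `S` of primes containing every prime
dividing a given `m ≠ 0` and generating the class group (`k_SGen S`).
-/
import Mathlib
import Fermat.Agent.S14.Interfaces
import Fermat.Agent.S14.KInterfaces
set_option autoImplicit false
open NumberField IsDedekindDomain
namespace Fermat.Agent.S14

/-- A nonzero ideal of a Dedekind domain is the product, over any finite set `S` of primes
containing all its prime divisors, of prime powers. -/
theorem k_es_prod_eq {R : Type*} [CommRing R] [IsDedekindDomain R] (I : Ideal R) (hI : I ≠ ⊥)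
    (S : Finset (HeightOneSpectrum R)) (hS : ∀ v : HeightOneSpectrum R, v.asIdeal ∣ I → v ∈ S) :
    ∏ v ∈ S, v.asIdeal ^ ((Associates.mk v.asIdeal).count (Associates.mk I).factors) = I := by
  have h1 := Ideal.finprod_heightOneSpectrum_factorization (I := I) hI
  have hsub : Function.mulSupport (fun v : HeightOneSpectrum R => v.maxPowDividing I) ⊆
      (S : Set (HeightOneSpectrum R)) := by
    intro v hv
    rw [Function.mem_mulSupport] at hv
    have hne : (Associates.mk v.asIdeal).count (Associates.mk I).factors ≠ 0 := by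
      intro h0
      apply hv
      simp only [IsDedekindDomain.HeightOneSpectrum.maxPowDividing, h0, pow_zero]
    exact Finset.mem_coe.mpr (hS v ((Associates.count_ne_zero_iff_dvd hI v.irreducible).mp hne))
  rw [finprod_eq_prod_of_mulSupport_subset _ hsub] at h1
  exact h1

/-- (ExistsS) There is a finite set of primes containing all primes dividing `m` and generating
the class group. -/
theorem k_es_main : k_ExistsSStatement := by
  intro F _ _ m hm
  classical
  -- representatives of the ideal classes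
  have hsurj := ClassGroup.mk0_surjective (R := 𝓞 F)
  choose I hI using hsurj
  have hIne : ∀ c : ClassGroup (𝓞 F), ((I c : nonZeroDivisors (Ideal (𝓞 F))) : Ideal (𝓞 F)) ≠ ⊥ :=
    fun c => nonZeroDivisors.coe_ne_zero (I c)
  set J : Ideal (𝓞 F) :=
    Ideal.span {m} * ∏ c : ClassGroup (𝓞 F), ((I c : nonZeroDivisors (Ideal (𝓞 F))) : Ideal (𝓞 F))
    with hJdef
  have hJ : J ≠ ⊥ := by
    rw [hJdef]
    refine mul_ne_zero ?_ ?_
    · rw [Ne, Ideal.zero_eq_bot, Ideal.span_singleton_eq_bot]
      exact hm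
    · exact Finset.prod_ne_zero_iff.mpr (fun c _ => hIne c)
  refine ⟨(Ideal.finite_factors (I := J) hJ).toFinset, ?_, ?_⟩
  · intro v hv
    rw [Set.Finite.mem_toFinset, Set.mem_ofPred_eq]
    exact dvd_mul_of_dvd_left (Ideal.dvd_span_singleton.mpr hv) _
  · intro 𝔞 h𝔞
    have h𝔞' : 𝔞 ∈ nonZeroDivisors (Ideal (𝓞 F)) := mem_nonZeroDivisors_of_ne_zero h𝔞
    set c : ClassGroup (𝓞 F) := (ClassGroup.mk0 ⟨𝔞, h𝔞'⟩)⁻¹ with hc
    have h2 : ClassGroup.mk0 ⟨𝔞, h𝔞'⟩ = (ClassGroup.mk0 (I c))⁻¹ := by
      rw [hI c, hc, inv_inv]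
    obtain ⟨γ, hγ, hγe⟩ := ClassGroup.mk0_eq_mk0_inv_iff.mp h2
    refine ⟨γ, fun v => (Associates.mk v.asIdeal).count
      (Associates.mk ((I c : nonZeroDivisors (Ideal (𝓞 F))) : Ideal (𝓞 F))).factors, hγ, ?_⟩
    rw [k_es_prod_eq _ (hIne c)]
    · exact hγe
    · intro v hv
      rw [Set.Finite.mem_toFinset, Set.mem_ofPred_eq]
      exact dvd_mul_of_dvd_right
        (hv.trans (Finset.dvd_prod_of_mem (fun c : ClassGroup (𝓞 F) =>
          ((I c : nonZeroDivisors (Ideal (𝓞 F))) : Ideal (𝓞 F))) (Finset.mem_univ c))) _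

end Fermat.Agent.S14
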