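/-
S14, block K: glue between the shared basics (Basics2.lean) and the block-K formulations.
-/
import Mathlib
import Fermat.Agent.S14.Interfaces
import Fermat.Agent.S14.Basics2
import Fermat.Agent.S14.KInterfaces

set_option autoImplicit false

open NumberField IsDedekindDomain

namespace Fermat.Agent.S14

/-- Existence of Kummer fields, block-K form (with `y ∉ F`). -/
theorem k_glue_kummerExists : KummerExistsStatement → k_KummerExistsStatement := by
  intro h p _ F _ _ x hx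
  obtain ⟨N, i1, i2, i3, hdeg, y, hy⟩ := h p F x hx
  refine ⟨N, i1, i2, i3, hdeg, y, hy, ?_⟩
  rintro ⟨b, rfl⟩
  rw [← map_pow] at hy
  exact hx b ((algebraMap F N).injective hy)

/-- Totally complex, block-K form. -/
theorem k_glue_rank : TotallyComplexStatement → k_RankStatement := by
  intro h p _ hp3 F _ _ ζ hζ
  exact (h p hp3 F ζ hζ).symm

/-- Prime decomposition in Galois extensions of prime degree, block-K form. -/
theorem k_glue_galPrime : PrimeTrichotomyStatement → k_GalPrimeStatement := by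
  intro h p _ F N _ _ _ _ _ _ hdeg 𝔮 h𝔮 h𝔮0
  rcases h p F N hdeg 𝔮 h𝔮 h𝔮0 with h1 | ⟨𝔔, h𝔔, he, hf⟩ | ⟨𝔔, h𝔔, he, hf⟩
  · exact Or.inl h1.1
  · refine Or.inr ⟨?_, ?_⟩
    · intro 𝔔₁ h₁ 𝔔₂ h₂
      rw [h𝔔] at h₁ h₂
      rw [Set.mem_singleton_iff] at h₁ h₂
      rw [h₁, h₂]
    · intro 𝔔₁ h₁
      rw [h𝔔, Set.mem_singleton_iff] at h₁
      rw [h₁, he, hf, one_mul]
  · refine Or.inr ⟨?_, ?_⟩
    · intro 𝔔₁ h₁ 𝔔₂ h₂
      rw [h𝔔] at h₁ h₂
      rw [Set.mem_singleton_iff] at h₁ h₂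
      rw [h₁, h₂]
    · intro 𝔔₁ h₁
      rw [h𝔔, Set.mem_singleton_iff] at h₁
      rw [h₁, he, hf, mul_one]

end Fermat.Agent.S14
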