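/-
S14, block K, package K/IndexD:
`[Fˣ : Fˣ^p · {a ≡ 1 mod^× 𝔪}] ≤ p ^ #S * #(𝓞 F / 𝔪)ˣ[p]` (finite index), by group theory in `Fˣ`,
from (ValIndex), (Red), (CongUnit).
-/
import Mathlib
import Fermat.Agent.S14.Interfaces
import Fermat.Agent.S14.KInterfaces
set_option autoImplicit false
open NumberField IsDedekindDomain
namespace Fermat.Agent.S14

/-- In a finite commutative group, the index of the subgroup of `n`-th powers is the number of
`n`-torsion elements. -/
theorem k_id_index_range_pow (R : Type*) [CommGroup R] [Finite R] (n : ℕ) :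
    (powMonoidHom n : R →* R).range.index = Nat.card {r : R // r ^ n = 1} := by
  set f : R →* R := powMonoidHom n with hf
  have h1 : Nat.card f.ker * f.ker.index = Nat.card R := Subgroup.card_mul_index _
  have h2 : Nat.card f.range * f.range.index = Nat.card R := Subgroup.card_mul_index _
  have h3 : f.ker.index = Nat.card f.range := Subgroup.index_ker f
  have h4 : Nat.card f.range ≠ 0 := Nat.card_pos.ne'
  have h5 : Nat.card f.ker = Nat.card {r : R // r ^ n = 1} := by
    refine Nat.card_congr (Equiv.subtypeEquivRight fun r => ?_)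
    rw [MonoidHom.mem_ker, hf, powMonoidHom_apply]
  rw [← h5]
  have h6 : Nat.card f.range * f.range.index = Nat.card f.range * Nat.card f.ker := by
    rw [h2, ← h1, h3, mul_comm]
  exact Nat.eq_of_mul_eq_mul_left (Nat.pos_of_ne_zero h4) h6

/-- If `b ^ n` is a unit at `v` (`n ≠ 0`), then so is `b`. -/
theorem k_id_val_eq_one_of_pow {F : Type} [Field F] [NumberField F]
    (v : HeightOneSpectrum (𝓞 F)) (b : F) (n : ℕ) (hn : n ≠ 0)
    (h : v.valuation F (b ^ n) = 1) : v.valuation F b = 1 := by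
  rw [map_pow] at h
  exact (pow_eq_one_iff_of_nonneg zero_le hn).mp h

/-- Group-theoretic core of (IndexD): in a commutative group `G` with subgroups `C ≤ U`, if
`red : U →* R` is surjective with kernel `C` (`R` finite) and `U` contains every element whose
`n`-th power lies in `U`, then
`[G : G^n · C] = #R[n] * [G : G^n · U]`. -/
theorem k_id_index_eq {G R : Type*} [CommGroup G] [CommGroup R] [Finite R] (n : ℕ)
    (C U : Subgroup G) (hCU : C ≤ U)
    (hU : ∀ b : G, b ^ n ∈ U → b ∈ U)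
    (red : U →* R) (hsurj : Function.Surjective red)
    (hker : ∀ a : U, red a = 1 ↔ (a : G) ∈ C) :
    ((powMonoidHom n : G →* G).range ⊔ C).index =
      Nat.card {r : R // r ^ n = 1} * ((powMonoidHom n : G →* G).range ⊔ U).index := by
  set P : Subgroup G := (powMonoidHom n : G →* G).range with hP
  set D : Subgroup G := P ⊔ C with hD
  set E : Subgroup G := P ⊔ U with hE
  have hDE : D ≤ E := sup_le_sup_left hCU P
  have hEeq : E = U ⊔ D := by
    rw [hD, hE, sup_comm U, sup_assoc, sup_eq_right.mpr hCU]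
  have h1 : D.relIndex E * E.index = D.index := Subgroup.relIndex_mul_index hDE
  have h2 : D.relIndex E = D.relIndex U := by
    rw [hEeq]
    exact Subgroup.relIndex_sup_right U D
  have h3 : D.subgroupOf U = ((powMonoidHom n : R →* R).range).comap red := by
    ext a
    rw [Subgroup.mem_subgroupOf, Subgroup.mem_comap, hD, Subgroup.mem_sup]
    constructor
    · rintro ⟨y, ⟨b, rfl⟩, c, hc, hyc⟩
      have hcU : c ∈ U := hCU hc
      have hbU : b ^ n ∈ U := by
        have : b ^ n = (a : G) * c⁻¹ := by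
          rw [← hyc, powMonoidHom_apply, mul_inv_cancel_right]
        rw [this]
        exact U.mul_mem a.2 (U.inv_mem hcU)
      have hb : b ∈ U := hU b hbU
      have ha : a = (⟨b, hb⟩ : U) ^ n * ⟨c, hcU⟩ := by
        apply Subtype.ext
        rw [← hyc, powMonoidHom_apply]
        rfl
      have hc1 : red ⟨c, hcU⟩ = 1 := (hker ⟨c, hcU⟩).mpr hc
      refine ⟨red ⟨b, hb⟩, ?_⟩
      rw [powMonoidHom_apply, ha, map_mul, map_pow, hc1, mul_one]
    · rintro ⟨r, hr⟩
      obtain ⟨b, rfl⟩ := hsurj r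
      rw [powMonoidHom_apply] at hr
      have hc : red (a * (b ^ n)⁻¹) = 1 := by
        rw [map_mul, map_inv, map_pow, hr, mul_inv_cancel]
      have hcC : ((a * (b ^ n)⁻¹ : U) : G) ∈ C := (hker _).mp hc
      refine ⟨(b : G) ^ n, ⟨(b : G), rfl⟩, ((a * (b ^ n)⁻¹ : U) : G), hcC, ?_⟩
      simp
  have h4 : D.relIndex U = Nat.card {r : R // r ^ n = 1} := by
    rw [Subgroup.relIndex, h3, Subgroup.index_comap_of_surjective _ hsurj,
      k_id_index_range_pow]
  rw [← h1, h2, h4]

/-- (IndexD) from (ValIndex), (Red), (CongUnit). -/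
theorem k_id_main :
    k_ValIndexStatement → k_RedStatement → k_CongUnitStatement → k_IndexDStatement := by
  intro hVal hRed hCong p _ F _ _ S 𝔪 h𝔪 h
  obtain ⟨hE0, hEle⟩ := hVal p F S
  obtain ⟨red, hsurj, hker⟩ := hRed F S 𝔪 h𝔪 h
  have hCU : k_congOne 𝔪 ≤ k_unitsAt S := hCong F 𝔪 S (fun v hv => (h v).mpr hv)
  have hp : p ≠ 0 := (Fact.out : p.Prime).ne_zero
  have : Finite (𝓞 F ⧸ 𝔪) := Ideal.finiteQuotientOfFreeOfNeBot 𝔪 h𝔪
  have hU : ∀ b : Fˣ, b ^ p ∈ k_unitsAt S → b ∈ k_unitsAt S := by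
    intro b hb v hv
    have := hb v hv
    rw [Units.val_pow_eq_pow_val] at this
    exact k_id_val_eq_one_of_pow v (b : F) p hp this
  have key := k_id_index_eq p (k_congOne 𝔪) (k_unitsAt S) hCU hU red hsurj hker
  have hkey : (k_pow p F ⊔ k_congOne 𝔪).index =
      Nat.card {r : (𝓞 F ⧸ 𝔪)ˣ // r ^ p = 1} * (k_pow p F ⊔ k_unitsAt S).index := key
  have hT0 : Nat.card {r : (𝓞 F ⧸ 𝔪)ˣ // r ^ p = 1} ≠ 0 := by
    have : Nonempty {r : (𝓞 F ⧸ 𝔪)ˣ // r ^ p = 1} := ⟨⟨1, one_pow p⟩⟩
    exact Nat.card_pos.ne'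
  refine ⟨?_, ?_⟩
  · rw [hkey]
    exact mul_ne_zero hT0 hE0
  · rw [hkey, mul_comm]
    exact Nat.mul_le_mul_right _ hEle

end Fermat.Agent.S14
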