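/-
S14, block K, package K/InertPow (helper241).
If `p` divides the inertia degree of `𝔔` over `F`, every element of `𝓞 F` is a `p`-th power
modulo `𝔔`.
-/
import Mathlib
import Fermat.Agent.S14.Interfaces
import Fermat.Agent.S14.KInterfaces
set_option autoImplicit false
open NumberField IsDedekindDomain
namespace Fermat.Agent.S14

/-- If `p ∣ f` and `p ∣ q - 1` then `p ∣ 1 + q + ⋯ + q ^ (f - 1)`. -/
theorem k_ip_dvd_geom (p q f : ℕ) (hq : 0 < q) (hpf : p ∣ f) (hpq : p ∣ q - 1) :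
    p ∣ ∑ i ∈ Finset.range f, q ^ i := by
  have h1 : (q : ZMod p) = 1 := by
    have h : ((q - 1 : ℕ) : ZMod p) = 0 := (ZMod.natCast_eq_zero_iff _ _).2 hpq
    rw [Nat.cast_sub hq, Nat.cast_one, sub_eq_zero] at h
    exact h
  have h2 : (f : ZMod p) = 0 := (ZMod.natCast_eq_zero_iff _ _).2 hpf
  rw [← ZMod.natCast_eq_zero_iff]
  push_cast
  simp [h1, h2]

/-- In a finite field `K` with `q ^ f` elements, `p ∣ f`, an element fixed by `x ↦ x ^ q` is a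
`p`-th power. -/
theorem k_ip_field (p : ℕ) (hp : p.Prime) (K : Type) [Field K] [Finite K] (q f : ℕ) (hq : 1 < q)
    (hcard : Nat.card K = q ^ f) (hpf : p ∣ f) (g : K) (hg : g ^ q = g) :
    ∃ c : K, c ^ p = g := by
  by_cases hg0 : g = 0
  · exact ⟨0, by rw [hg0, zero_pow hp.ne_zero]⟩
  have hg1 : g ^ (q - 1) = 1 := by
    have h : g ^ (q - 1) * g = 1 * g := by
      rw [← pow_succ, Nat.sub_add_cancel hq.le, hg, one_mul]
    exact mul_right_cancel₀ hg0 h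
  by_cases hpq : p ∣ q - 1
  · -- `p` divides `s = 1 + q + ⋯ + q ^ (f - 1)`; use a generator of `Kˣ`
    have hs := k_ip_dvd_geom p q f (by omega) hpf hpq
    obtain ⟨γ, hγ⟩ := IsCyclic.exists_monoid_generator (α := Kˣ)
    obtain ⟨m, hm⟩ := hγ (Units.mk0 g hg0)
    have hm : γ ^ m = Units.mk0 g hg0 := hm
    have hord : orderOf γ = q ^ f - 1 := by
      rw [orderOf_eq_card_of_forall_mem_powers hγ, Nat.card_units, hcard]
    have hgeom : (∑ i ∈ Finset.range f, q ^ i) * (q - 1) = q ^ f - 1 := by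
      have h := geom_sum_mul_add (q - 1) f
      rw [Nat.sub_add_cancel hq.le] at h
      omega
    have h1 : γ ^ (m * (q - 1)) = 1 := by
      rw [pow_mul, hm]
      apply Units.ext
      rw [Units.val_pow_eq_pow_val, Units.val_mk0, hg1, Units.val_one]
    have h2 : (∑ i ∈ Finset.range f, q ^ i) * (q - 1) ∣ m * (q - 1) := by
      rw [hgeom, ← hord]
      exact orderOf_dvd_of_pow_eq_one h1
    have h3 : (∑ i ∈ Finset.range f, q ^ i) ∣ m :=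
      Nat.dvd_of_mul_dvd_mul_right (by omega) h2
    obtain ⟨m', hm'⟩ := hs.trans h3
    refine ⟨((γ ^ m' : Kˣ) : K), ?_⟩
    rw [← Units.val_pow_eq_pow_val, ← pow_mul, mul_comm, ← hm', hm, Units.val_mk0]
  · -- `p` is prime to `q - 1`: Bezout
    have hcop : Nat.gcd p (q - 1) = 1 := (Nat.Prime.coprime_iff_not_dvd hp).2 hpq
    have hab : ((p : ℤ)) * Nat.gcdA p (q - 1) + ((q - 1 : ℕ) : ℤ) * Nat.gcdB p (q - 1) = 1 := by
      have h := Nat.gcd_eq_gcd_ab p (q - 1)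
      rw [hcop] at h
      rw [← h]
      rfl
    refine ⟨g ^ (Nat.gcdA p (q - 1)), ?_⟩
    calc (g ^ (Nat.gcdA p (q - 1))) ^ p = g ^ ((p : ℤ) * Nat.gcdA p (q - 1)) := by
          rw [← zpow_natCast, ← zpow_mul, mul_comm]
      _ = g ^ ((p : ℤ) * Nat.gcdA p (q - 1)) * (g ^ (q - 1)) ^ (Nat.gcdB p (q - 1)) := by
          rw [hg1, one_zpow, mul_one]
      _ = g ^ ((p : ℤ) * Nat.gcdA p (q - 1) + ((q - 1 : ℕ) : ℤ) * Nat.gcdB p (q - 1)) := by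
          rw [zpow_add₀ hg0, zpow_mul g ((q - 1 : ℕ) : ℤ), zpow_natCast]
      _ = g := by rw [hab, zpow_one]

theorem k_ip_main : k_InertPowStatement := by
  intro p hp F N _ _ _ _ _ ζ hζ 𝔔 h𝔔 h𝔔0 hp𝔔 hpf u
  have h𝔔max : 𝔔.IsMaximal := Ideal.IsPrime.isMaximal h𝔔 h𝔔0
  have h𝔮0 : 𝔔.under (𝓞 F) ≠ ⊥ := Ideal.under_ne_bot (𝓞 F) h𝔔0
  have h𝔮max : (𝔔.under (𝓞 F)).IsMaximal := Ideal.IsMaximal.under (𝓞 F) 𝔔
  have hlies : 𝔔.LiesOver (𝔔.under (𝓞 F)) := ⟨rfl⟩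
  have hcard : (𝔔.under (𝓞 F)).cardQuot ^ 𝔔.inertiaDeg (𝓞 F) = 𝔔.cardQuot :=
    Ideal.cardQuot_pow_inertiaDeg (𝔔.under (𝓞 F)) 𝔔
  rw [Submodule.cardQuot_apply, Submodule.cardQuot_apply] at hcard
  let : Field (𝓞 F ⧸ 𝔔.under (𝓞 F)) := Ideal.Quotient.field _
  let : Field (𝓞 N ⧸ 𝔔) := Ideal.Quotient.field _
  have : Finite (𝓞 F ⧸ 𝔔.under (𝓞 F)) := Ideal.finiteQuotientOfFreeOfNeBot _ h𝔮0
  have : Finite (𝓞 N ⧸ 𝔔) := Ideal.finiteQuotientOfFreeOfNeBot _ h𝔔0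
  have hq : 1 < Nat.card (𝓞 F ⧸ 𝔔.under (𝓞 F)) := Finite.one_lt_card
  -- the image of `u` in the residue field of `𝔔` is fixed by `x ↦ x ^ q`
  have hu : (Ideal.Quotient.mk (𝔔.under (𝓞 F)) u) ^ Nat.card (𝓞 F ⧸ 𝔔.under (𝓞 F)) =
      Ideal.Quotient.mk (𝔔.under (𝓞 F)) u := by
    have : Fintype (𝓞 F ⧸ 𝔔.under (𝓞 F)) := Fintype.ofFinite _
    rw [Nat.card_eq_fintype_card]
    exact FiniteField.pow_card _
  have hg : (Ideal.Quotient.mk 𝔔 (algebraMap (𝓞 F) (𝓞 N) u)) ^ Nat.card (𝓞 F ⧸ 𝔔.under (𝓞 F)) =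
      Ideal.Quotient.mk 𝔔 (algebraMap (𝓞 F) (𝓞 N) u) := by
    have h := congrArg (Ideal.quotientMap 𝔔 (algebraMap (𝓞 F) (𝓞 N)) (le_refl _)) hu
    rw [map_pow, Ideal.quotientMap_mk] at h
    exact h
  obtain ⟨c', hc'⟩ := k_ip_field p hp.out (𝓞 N ⧸ 𝔔) (Nat.card (𝓞 F ⧸ 𝔔.under (𝓞 F)))
    (𝔔.inertiaDeg (𝓞 F)) hq hcard.symm hpf _ hg
  obtain ⟨c, rfl⟩ := Ideal.Quotient.mk_surjective c'
  refine ⟨c, ?_⟩
  rw [← Ideal.Quotient.eq_zero_iff_mem, map_sub, map_pow, hc', sub_self]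

end Fermat.Agent.S14
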