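/-
S14, block K, package K/KummerPow (plan item K2).
If `u ∈ F` is a `p`-th power in `N = F(y)`, `y ^ p = x`, then `u = x ^ j * b ^ p` with `b ∈ F`.
-/
import Mathlib
import Fermat.Agent.S14.Interfaces
import Fermat.Agent.S14.KInterfaces
set_option autoImplicit false
open NumberField IsDedekindDomain
namespace Fermat.Agent.S14

/-- An element fixed by `τ` is fixed by every power of `τ`. -/
theorem k_kp_pow_fixed {F N : Type} [Field F] [Field N] [Algebra F N] (τ : N ≃ₐ[F] N) (w : N)
    (hw : τ w = w) (k : ℕ) : (τ ^ k) w = w := by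
  induction k with
  | zero => simp
  | succ k ih => rw [pow_succ, AlgEquiv.mul_apply, hw, ih]

/-- Core Kummer computation: with a generator `τ` of the Galois group acting on `y` by `ζ`,
an element of `F` which is a `p`-th power in `N` is of the form `x ^ j * b ^ p`. -/
theorem k_kp_core (p : ℕ) [Fact p.Prime]
    (F N : Type) [Field F] [Field N] [Algebra F N] [FiniteDimensional F N] [IsGalois F N]
    (ζ : F) (hζ : IsPrimitiveRoot ζ p)
    (x : F) (y : N) (hy : y ^ p = algebraMap F N x) (hyF : y ∉ Set.range (algebraMap F N))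
    (τ : N ≃ₐ[F] N) (hτy : τ y = algebraMap F N ζ * y) (hτ : ∀ σ : N ≃ₐ[F] N, ∃ i : ℕ, σ = τ ^ i)
    (u : F) (z : N) (hz : z ^ p = algebraMap F N u) :
    ∃ (j : ℕ) (b : F), u = x ^ j * b ^ p := by
  have hp : p.Prime := Fact.out
  have hp0 : p ≠ 0 := hp.ne_zero
  have : NeZero p := ⟨hp0⟩
  have hinj : Function.Injective (algebraMap F N) := (algebraMap F N).injective
  by_cases hz0 : z = 0
  · refine ⟨0, 0, ?_⟩
    apply hinj
    rw [← hz, hz0, zero_pow hp0, zero_pow hp0, mul_zero, map_zero]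
  · have hy0 : y ≠ 0 := by
      intro h
      exact hyF ⟨0, by rw [map_zero, h]⟩
    have hζ' : IsPrimitiveRoot (algebraMap F N ζ) p := hζ.map_of_injective hinj
    have hζ0 : algebraMap F N ζ ≠ 0 := hζ'.ne_zero hp0
    have hτz : (τ z / z) ^ p = 1 := by
      rw [div_pow, ← map_pow, hz, AlgEquiv.commutes]
      exact div_self (by rw [← hz]; exact pow_ne_zero p hz0)
    obtain ⟨i, -, hi⟩ := hζ'.eq_pow_of_pow_eq_one hτz
    have hτz' : τ z = algebraMap F N ζ ^ i * z := by
      rw [hi, div_mul_cancel₀ _ hz0]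
    have hw : τ (z / y ^ i) = z / y ^ i := by
      rw [map_div₀, map_pow, hτy, hτz', mul_pow]
      exact mul_div_mul_left z (y ^ i) (pow_ne_zero i hζ0)
    have hfix : ∀ σ : N ≃ₐ[F] N, σ (z / y ^ i) = z / y ^ i := by
      intro σ
      obtain ⟨k, rfl⟩ := hτ σ
      exact k_kp_pow_fixed τ _ hw k
    obtain ⟨b, hb⟩ := (IsGalois.mem_range_algebraMap_iff_fixed (F := F) (E := N) (z / y ^ i)).2 hfix
    refine ⟨i, b, ?_⟩
    apply hinj
    have hzb : z = algebraMap F N b * y ^ i := by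
      rw [hb, div_mul_cancel₀ _ (pow_ne_zero i hy0)]
    rw [← hz, hzb, mul_pow, ← pow_mul, mul_comm i p, pow_mul, hy, map_mul, map_pow, map_pow,
      mul_comm]

/-- (KPow, plan K2) `Fˣ ∩ Nˣ^p = ⟨x⟩ Fˣ^p` for `N = F(x^{1/p})`. -/
theorem k_kp_main : KummerGaloisStatement → k_KummerPowStatement := by
  intro hG p _ F N _ _ _ _ _ ζ hζ hdeg x y hy hyF u z hz
  obtain ⟨hgal, τ, hτy, hτ⟩ := hG p F N ζ hζ hdeg x y hy hyF
  have : IsGalois F N := hgal
  have : FiniteDimensional F N := by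
    apply Module.finite_of_finrank_pos
    rw [hdeg]
    exact (Fact.out : p.Prime).pos
  exact k_kp_core p F N ζ hζ x y hy hyF τ hτy hτ u z hz

end Fermat.Agent.S14
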