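/-
S14, block K, package K/LemmaBCore (plan item K6, Lemma B in integral form).
Main theorem: `k_bc_main`.
-/
import Mathlib
import Fermat.Agent.S14.Interfaces
import Fermat.Agent.S14.KInterfaces
set_option autoImplicit false
open NumberField IsDedekindDomain
namespace Fermat.Agent.S14

/-- A product of powers of primes of `S` is not contained in a prime outside `S`. -/
theorem k_bc_prod_not_le {F : Type} [Field F] [NumberField F]
    (S : Finset (HeightOneSpectrum (𝓞 F))) (m : HeightOneSpectrum (𝓞 F) → ℕ)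
    (w : HeightOneSpectrum (𝓞 F)) (hw : w ∉ S) :
    ¬ ∏ v ∈ S, v.asIdeal ^ m v ≤ w.asIdeal := by
  intro h
  obtain ⟨v, hvS, hv⟩ := (w.isPrime.prod_le).1 h
  have hwp := w.isPrime
  have h1 : v.asIdeal ≤ w.asIdeal := Ideal.IsPrime.le_of_pow_le hv
  have h2 : v.asIdeal = w.asIdeal := v.isMaximal.eq_of_le w.isPrime.ne_top h1
  have h3 : v = w := HeightOneSpectrum.ext h2
  exact hw (h3 ▸ hvS)

/-- A nonzero element has an exact order at every prime. -/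
theorem k_bc_exists_ord {F : Type} [Field F] [NumberField F] (𝔮 : Ideal (𝓞 F)) (h𝔮 : 𝔮.IsPrime)
    (x₀ : 𝓞 F) (hx₀ : x₀ ≠ 0) : ∃ n : ℕ, x₀ ∈ 𝔮 ^ n ∧ x₀ ∉ 𝔮 ^ (n + 1) := by
  have hex : ∃ n : ℕ, x₀ ∉ 𝔮 ^ n := by
    by_contra hcon
    push Not at hcon
    have hmem : x₀ ∈ (⨅ i : ℕ, 𝔮 ^ i) := by
      rw [Ideal.mem_iInf]
      exact hcon
    rw [Ideal.iInf_pow_eq_bot_of_isDomain 𝔮 h𝔮.ne_top] at hmem
    exact hx₀ (by simpa using hmem)
  classical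
  have hmin := Nat.find_spec hex
  have hlt := fun m => Nat.find_min hex (m := m)
  cases hn : Nat.find hex with
  | zero =>
    rw [hn] at hmin
    simp at hmin
  | succ k =>
    refine ⟨k, ?_, ?_⟩
    · by_contra hk
      exact hlt k (by omega) hk
    · rw [hn] at hmin
      exact hmin

/-- Step (3): the Kummer extension is unramified outside the tame set, provided the primes above
`p` lie in `S` and the primes of `S` split completely. -/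
theorem k_bc_unram (hKU : KummerUnramStatement) (p : ℕ) [Fact p.Prime]
    (F N : Type) [Field F] [NumberField F] [Field N] [NumberField N] [Algebra F N]
    (ζ : F) (hζ : IsPrimitiveRoot ζ p) (hdeg : Module.finrank F N = p)
    (x₀ : 𝓞 F) (y : N) (hx₀ : x₀ ≠ 0) (hy : y ^ p = algebraMap F N (x₀ : F))
    (hyF : y ∉ Set.range (algebraMap F N))
    (S : Finset (HeightOneSpectrum (𝓞 F)))
    (hSp : ∀ v : HeightOneSpectrum (𝓞 F), (p : 𝓞 F) ∈ v.asIdeal → v ∈ S)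
    (hsplit : ∀ v ∈ S, SplitsCompletely F N v.asIdeal) :
    ∀ 𝔔 : Ideal (𝓞 N), 𝔔.IsPrime → 𝔔 ≠ ⊥ → 𝔔.under (𝓞 F) ∉ tameSet p F x₀ →
      𝔔.ramificationIdx (𝓞 F) = 1 := by
  intro 𝔔 h𝔔 h𝔔0 hnot
  have hq : (𝔔.under (𝓞 F)).IsPrime := Ideal.IsPrime.under (𝓞 F) 𝔔
  have hq0 : 𝔔.under (𝓞 F) ≠ ⊥ := Ideal.under_ne_bot (𝓞 F) h𝔔0
  have hmem : 𝔔 ∈ (𝔔.under (𝓞 F)).primesOver (𝓞 N) := ⟨h𝔔, Ideal.over_under (A := 𝓞 F) 𝔔⟩
  by_cases hpq : (p : 𝓞 F) ∈ 𝔔.under (𝓞 F)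
  · have hv : (⟨𝔔.under (𝓞 F), hq, hq0⟩ : HeightOneSpectrum (𝓞 F)) ∈ S := hSp _ hpq
    exact (hsplit _ hv 𝔔 hmem).1
  · obtain ⟨n, hn1, hn2⟩ := k_bc_exists_ord _ hq x₀ hx₀
    have hdvd : p ∣ n := by
      by_contra hnd
      exact hnot ⟨hq, hq0, hpq, n, hn1, hn2, hnd⟩
    exact hKU p F N ζ hζ hdeg x₀ y hy hyF _ hq hq0 hpq ⟨n, hn1, hn2, hdvd⟩ 𝔔 hmem

/-- (LemmaBCore, plan K6) Integral form of Lemma B. -/
theorem k_bc_main : G1TameStatement → KummerUnramStatement → k_KummerExistsStatement →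
    k_SplitPStatement → k_SUnitFracStatement → k_SplitNormStatement → k_LemmaBCoreStatement := by
  intro hG1 hKU hKE hSP hSF hSN p _ hp3 F _ _ ζ hζ lam hlam S T hSp hSGen hdisj hLA x₀ c₂ hc₂
    hcong htame
  by_contra hcon
  push Not at hcon
  have hp0 : p ≠ 0 := (Fact.out : p.Prime).ne_zero
  have hx₀ : x₀ ≠ 0 := by
    rintro rfl
    exact hcon 0 (by simp [hp0])
  obtain ⟨N, _, _, _, hdeg, y, hy, hyF⟩ := hKE p F (x₀ : F) hcon
  -- (2) the primes of `S` split completely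
  have hsplit : ∀ v ∈ S, SplitsCompletely F N v.asIdeal := fun v hv =>
    hSP p hp3 F N ζ hζ hdeg x₀ y hy hyF lam c₂ hlam v.asIdeal v.isPrime v.ne_bot (hc₂ v hv)
      (hcong v hv)
  -- (3), (4)
  obtain ⟨𝔞, h𝔞0, h𝔞T, hno⟩ := hG1 p hp3 F N ζ hζ hdeg x₀ y hx₀ hy hyF
    (k_bc_unram hKU p F N ζ hζ hdeg x₀ y hx₀ hy hyF S hSp hsplit)
  apply hno
  -- (5)
  obtain ⟨γ, n, hγ0, hγ⟩ := hSGen 𝔞 h𝔞0
  have htame' : ∀ 𝔮 ∈ tameSet p F x₀, ∃ w : HeightOneSpectrum (𝓞 F),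
      w ∈ T ∧ w ∉ S ∧ w.asIdeal = 𝔮 := by
    intro 𝔮 h𝔮
    obtain ⟨w, hwT, hw⟩ := htame 𝔮 h𝔮
    exact ⟨w, hwT, fun hwS => Finset.disjoint_left.1 hdisj hwS hwT, hw⟩
  have hγT : ∀ 𝔮 ∈ tameSet p F x₀, γ ∉ 𝔮 := by
    intro 𝔮 h𝔮 hγq
    obtain ⟨w, hwT, hwS, rfl⟩ := htame' 𝔮 h𝔮
    have h1 : 𝔞 * ∏ v ∈ S, v.asIdeal ^ n v ≤ w.asIdeal := by
      rw [hγ, Ideal.span_singleton_le_iff_mem]
      exact hγq
    rcases (w.isPrime.mul_le).1 h1 with h2 | h2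
    · exact h𝔞T _ h𝔮 h2
    · exact k_bc_prod_not_le S n w hwS h2
  -- (6)
  classical
  obtain ⟨u, huS, hu⟩ := hLA (fun w => if w.asIdeal ∈ tameSet p F x₀ then γ else 1) (by
    intro w hwT
    by_cases hw : w.asIdeal ∈ tameSet p F x₀
    · simp only [hw, if_true]
      exact hγT _ hw
    · simp only [hw, if_false]
      exact fun h1 => w.isPrime.ne_top ((Ideal.eq_top_iff_one _).2 h1))
  obtain ⟨u₁, u₂, m₁, m₂, hu₁0, hu₂0, huu, hu₁, hu₂⟩ := hSF F S u huS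
  -- (7)
  have hex : ∀ v ∈ S, ∃ 𝔔 : Ideal (𝓞 N), 𝔔 ≠ ⊥ ∧ Ideal.relNorm (𝓞 F) 𝔔 = v.asIdeal :=
    fun v hv => hSN F N v.asIdeal v.isPrime v.ne_bot (hsplit v hv)
  choose! 𝔙 h𝔙 using hex
  have hnorm : ∀ m : HeightOneSpectrum (𝓞 F) → ℕ,
      Ideal.relNorm (𝓞 F) (∏ v ∈ S, 𝔙 v ^ m v) = ∏ v ∈ S, v.asIdeal ^ m v := by
    intro m
    rw [map_prod]
    refine Finset.prod_congr rfl fun v hv => ?_
    rw [map_pow, (h𝔙 v hv).2]
  have hne : ∀ m : HeightOneSpectrum (𝓞 F) → ℕ, (∏ v ∈ S, 𝔙 v ^ m v) ≠ ⊥ := by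
    intro m
    rw [← Ideal.zero_eq_bot, Finset.prod_ne_zero_iff]
    intro v hv
    exact pow_ne_zero _ (by rw [Ideal.zero_eq_bot]; exact (h𝔙 v hv).1)
  refine ⟨γ * u₁, u₂, ∏ v ∈ S, 𝔙 v ^ m₂ v, ∏ v ∈ S, 𝔙 v ^ (m₁ v + n v),
    mul_ne_zero hγ0 hu₁0, hu₂0, hne _, hne _, ?_, ?_⟩
  · -- (8) local conditions at the tame primes
    intro 𝔮 h𝔮
    obtain ⟨w, hwT, hwS, rfl⟩ := htame' 𝔮 h𝔮
    have hu₁w : u₁ ∉ w.asIdeal := by
      intro h
      rw [← Ideal.span_singleton_le_iff_mem, hu₁] at h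
      exact k_bc_prod_not_le S m₁ w hwS h
    have hu₂w : u₂ ∉ w.asIdeal := by
      intro h
      rw [← Ideal.span_singleton_le_iff_mem, hu₂] at h
      exact k_bc_prod_not_le S m₂ w hwS h
    refine ⟨?_, hu₂w, ?_, ?_, ?_⟩
    · intro h
      rcases w.isPrime.mem_or_mem h with h | h
      · exact hγT _ h𝔮 h
      · exact hu₁w h
    · obtain ⟨a₁, a₂, c, ha₁, ha₂, hmul, hc⟩ := hu w hwT
      simp only [h𝔮, if_true] at hmul
      refine ⟨c, ?_⟩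
      have hkey : γ * u₁ * a₂ = a₁ * u₂ := by
        apply RingOfIntegers.coe_injective
        push_cast
        linear_combination (-(γ : F) * (a₂ : F)) * huu + (u₂ : F) * hmul
      have hmem : a₂ * (γ * u₁ - c ^ p * u₂) ∈ w.asIdeal := by
        have h2 : a₂ * (γ * u₁ - c ^ p * u₂) = u₂ * (a₁ - c ^ p * a₂) := by
          linear_combination hkey
        rw [h2]
        exact Ideal.mul_mem_left _ _ hc
      exact (w.isPrime.mem_or_mem hmem).resolve_left ha₂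
    · rw [hnorm]
      exact k_bc_prod_not_le S m₂ w hwS
    · rw [hnorm]
      exact k_bc_prod_not_le S _ w hwS
  · -- the ideal identity
    rw [hnorm, hnorm]
    have h1 : ∏ v ∈ S, v.asIdeal ^ (m₁ v + n v) =
        (∏ v ∈ S, v.asIdeal ^ m₁ v) * ∏ v ∈ S, v.asIdeal ^ n v := by
      rw [← Finset.prod_mul_distrib]
      exact Finset.prod_congr rfl fun v _ => pow_add _ _ _
    rw [h1, ← hu₁, ← hu₂, ← Ideal.span_singleton_mul_span_singleton, ← hγ]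
    ring

end Fermat.Agent.S14
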