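/-
S14, block K, package LemmaB (twin L): an `S ∪ T`-unit which lies in `k_D p S lam` is a `p`-th
power (wrapper around the integral core `k_LemmaBCoreStatement`).
-/
import Mathlib
import Fermat.Agent.S14.Interfaces
import Fermat.Agent.S14.KInterfaces

set_option autoImplicit false

open NumberField IsDedekindDomain

namespace Fermat.Agent.S14

/-- A natural number `p ≥ 2` is not a unit of `𝓞 F`. -/
theorem k_lbl_not_isUnit_natCast (F : Type) [Field F] [NumberField F] (p : ℕ) (hp : 2 ≤ p) :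
    ¬ IsUnit ((p : ℕ) : 𝓞 F) := by
  rintro ⟨u, hu⟩
  have hp0 : (p : ℚ) ≠ 0 := by
    have : (0 : ℚ) < p := by exact_mod_cast (by omega : 0 < p)
    exact this.ne'
  have h1 : ((u⁻¹ : (𝓞 F)ˣ) : 𝓞 F) * (p : 𝓞 F) = 1 := by
    rw [← hu]
    simp
  have h2 : algebraMap (𝓞 F) F ((u⁻¹ : (𝓞 F)ˣ) : 𝓞 F) * (p : F) = 1 := by
    have h := congrArg (algebraMap (𝓞 F) F) h1
    simpa using h
  have h3 : algebraMap (𝓞 F) F ((u⁻¹ : (𝓞 F)ˣ) : 𝓞 F) = algebraMap ℚ F ((p : ℚ)⁻¹) := by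
    have hpF : (p : F) ≠ 0 := by
      have : algebraMap ℚ F (p : ℚ) ≠ 0 := (map_ne_zero (algebraMap ℚ F)).mpr hp0
      simpa using this
    rw [map_inv₀, map_natCast]
    exact eq_inv_of_mul_eq_one_left h2
  have hint : IsIntegral ℤ (algebraMap ℚ F ((p : ℚ)⁻¹)) := by
    rw [← h3]
    exact RingOfIntegers.isIntegral_coe _
  rw [isIntegral_algebraMap_iff (algebraMap ℚ F).injective] at hint
  obtain ⟨n, hn⟩ := IsIntegrallyClosed.isIntegral_iff.mp hint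
  have h4 : (n : ℚ) * (p : ℚ) = 1 := by
    have : (algebraMap ℤ ℚ n) = (n : ℚ) := rfl
    rw [← this, hn]
    exact inv_mul_cancel₀ hp0
  have h5 : n * (p : ℤ) = 1 := by exact_mod_cast h4
  have h6 : n.natAbs * p = 1 := by
    have := congrArg Int.natAbs h5
    simpa [Int.natAbs_mul] using this
  have h7 : p = 1 := Nat.eq_one_of_mul_eq_one_left h6
  omega

/-- There is a prime of `𝓞 F` containing the natural number `p ≥ 2`. -/
theorem k_lbl_exists_prime_natCast (F : Type) [Field F] [NumberField F] (p : ℕ) (hp : 2 ≤ p) :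
    ∃ v : HeightOneSpectrum (𝓞 F), (p : 𝓞 F) ∈ v.asIdeal := by
  have hne : Ideal.span {(p : 𝓞 F)} ≠ ⊤ := by
    rw [Ne, Ideal.span_singleton_eq_top]
    exact k_lbl_not_isUnit_natCast F p hp
  obtain ⟨M, hM, hle⟩ := Ideal.exists_le_maximal _ hne
  have hpM : (p : 𝓞 F) ∈ M := hle (Ideal.mem_span_singleton_self _)
  have hM0 : M ≠ ⊥ := by
    rintro rfl
    rw [Ideal.mem_bot] at hpM
    have : (p : 𝓞 F) ≠ 0 := by
      have hp0 : p ≠ 0 := by omega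
      exact_mod_cast hp0
    exact this hpM
  exact ⟨⟨M, hM.isPrime, hM0⟩, hpM⟩

/-- The valuation of an element of `v ^ n ∖ v ^ (n + 1)` is `exp (-n)`. -/
theorem k_lbl_valuation_eq {F : Type} [Field F] [NumberField F] (v : HeightOneSpectrum (𝓞 F))
    (x₀ : 𝓞 F) (n : ℕ) (h1 : x₀ ∈ v.asIdeal ^ n) (h2 : x₀ ∉ v.asIdeal ^ (n + 1)) :
    v.valuation F (x₀ : F) = WithZero.exp (-(n : ℤ)) := by
  have hx0 : x₀ ≠ 0 := by
    rintro rfl
    exact h2 (Ideal.zero_mem _)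
  have hne := v.intValuation_ne_zero x₀ hx0
  have hle := (v.intValuation_le_pow_iff_mem x₀ n).mpr h1
  have hnle : ¬ v.intValuation x₀ ≤ WithZero.exp (-((n + 1 : ℕ) : ℤ)) :=
    fun h => h2 ((v.intValuation_le_pow_iff_mem x₀ (n + 1)).mp h)
  have hval : v.valuation F (x₀ : F) = v.intValuation x₀ := v.valuation_of_algebraMap x₀
  rw [hval]
  rw [← WithZero.exp_log hne] at hle hnle ⊢
  rw [WithZero.exp_le_exp] at hle hnle
  congr 1
  push_cast at hnle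
  omega

/-- (LemmaB) An `S ∪ T`-unit which lies in `k_D p S lam` is a `p`-th power. -/
theorem k_lbl_main : k_LemmaBCoreStatement → k_ModulusStatement → k_LemmaBStatement := by
  intro hCore hMod p _ hp3 F _ _ ζ hζ lam hlam S T hS hSGen hdisj hA x hx
  have hp0 : p ≠ 0 := by omega
  obtain ⟨hxU, hxD⟩ := hx
  obtain ⟨hm0, hmS, hmlam⟩ := hMod p F ζ hζ lam hlam S hS
  -- decompose `x = b' ^ p * c`
  obtain ⟨y, hy, c, hc, hyc⟩ := Subgroup.mem_sup.mp hxD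
  obtain ⟨b', hb'⟩ := hy
  obtain ⟨c₁, c₂, hc₂m, hc₁₂, hcc⟩ := hc
  have hxF : (x : F) = (b' : F) ^ p * (c : F) := by
    rw [← hyc, ← hb']
    simp
  -- `c₂` is prime to `S`
  have hc₂S : ∀ v ∈ S, c₂ ∉ v.asIdeal := by
    intro v hv h
    have hle : (⊤ : Ideal (𝓞 F)) ≤ v.asIdeal := by
      rw [← hc₂m]
      exact sup_le ((Ideal.span_singleton_le_iff_mem _).mpr h) ((hmS v).mpr hv)
    exact v.isPrime.ne_top (top_le_iff.mp hle)
  have hc₂0 : c₂ ≠ 0 := by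
    obtain ⟨v, hv⟩ := k_lbl_exists_prime_natCast F p (by omega)
    intro h0
    exact hc₂S v (hS v hv) (h0 ▸ Ideal.zero_mem _)
  have hc₂F : (c₂ : F) ≠ 0 := RingOfIntegers.coe_ne_zero_iff.mpr hc₂0
  have hb'F : (b' : F) ≠ 0 := b'.ne_zero
  have hcF : (c : F) ≠ 0 := c.ne_zero
  -- the integral element `x₀ = c₁ * c₂ ^ (p - 1)`
  have hpp : p - 1 + 1 = p := by omega
  have hx₀F : ((c₁ * c₂ ^ (p - 1) : 𝓞 F) : F) = (c : F) * (c₂ : F) ^ p := by
    have h : ((c₁ * c₂ ^ (p - 1) : 𝓞 F) : F) = (c₁ : F) * (c₂ : F) ^ (p - 1) := by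
      simp only [map_mul, map_pow]
    rw [h, ← hcc, mul_assoc, ← pow_succ', hpp]
  have hcong : c₁ * c₂ ^ (p - 1) - c₂ ^ p ∈ k_modulus p S lam := by
    have h : c₁ * c₂ ^ (p - 1) - c₂ ^ p = c₂ ^ (p - 1) * (c₁ - c₂) := by
      conv_lhs => rw [← hpp, pow_succ]
      rw [hpp]
      ring
    rw [h]
    exact Ideal.mul_mem_left _ _ hc₁₂
  -- the tame set of `x₀` is contained in `T`
  have htame : ∀ 𝔮 ∈ tameSet p F (c₁ * c₂ ^ (p - 1)), ∃ w ∈ T, w.asIdeal = 𝔮 := by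
    rintro 𝔮 ⟨h𝔮, h𝔮0, hp𝔮, n, hn1, hn2, hpn⟩
    by_cases hwS : (⟨𝔮, h𝔮, h𝔮0⟩ : HeightOneSpectrum (𝓞 F)) ∈ S
    · exfalso
      have hc₂𝔮 : c₂ ∉ 𝔮 := hc₂S _ hwS
      have hm𝔮 : k_modulus p S lam ≤ 𝔮 := (hmS ⟨𝔮, h𝔮, h𝔮0⟩).mpr hwS
      have hx₀𝔮 : c₁ * c₂ ^ (p - 1) ∉ 𝔮 := by
        intro h
        have h' : c₂ ^ p ∈ 𝔮 := by
          have := 𝔮.sub_mem h (hm𝔮 hcong)
          simpa using this
        exact hc₂𝔮 (h𝔮.mem_of_pow_mem p h')
      have hn0 : n = 0 := by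
        by_contra hn
        apply hx₀𝔮
        have hle : 𝔮 ^ n ≤ 𝔮 := Ideal.pow_le_self hn
        exact hle hn1
      exact hpn (hn0 ▸ dvd_zero p)
    · by_cases hwT : (⟨𝔮, h𝔮, h𝔮0⟩ : HeightOneSpectrum (𝓞 F)) ∈ T
      · exact ⟨_, hwT, rfl⟩
      · exfalso
        have hw : (⟨𝔮, h𝔮, h𝔮0⟩ : HeightOneSpectrum (𝓞 F)) ∉
            ((S : Set (HeightOneSpectrum (𝓞 F))) ∪ (T : Set (HeightOneSpectrum (𝓞 F)))) := by
          simp [hwS, hwT]
        have hvx : (⟨𝔮, h𝔮, h𝔮0⟩ : HeightOneSpectrum (𝓞 F)).valuation F (x : F) = 1 := hxU _ hw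
        have hvx₀ := k_lbl_valuation_eq (⟨𝔮, h𝔮, h𝔮0⟩ : HeightOneSpectrum (𝓞 F))
          (c₁ * c₂ ^ (p - 1)) n hn1 hn2
        -- `x₀ * b' ^ p = x * c₂ ^ p`
        have hrel : ((c₁ * c₂ ^ (p - 1) : 𝓞 F) : F) * (b' : F) ^ p = (x : F) * (c₂ : F) ^ p := by
          rw [hx₀F, hxF]
          ring
        have hval := congrArg ((⟨𝔮, h𝔮, h𝔮0⟩ : HeightOneSpectrum (𝓞 F)).valuation F) hrel
        rw [map_mul, map_mul, map_pow, map_pow, hvx, hvx₀, one_mul] at hval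
        have hb'v : (⟨𝔮, h𝔮, h𝔮0⟩ : HeightOneSpectrum (𝓞 F)).valuation F (b' : F) ≠ 0 :=
          (Valuation.ne_zero_iff _).mpr hb'F
        have hc₂v : (⟨𝔮, h𝔮, h𝔮0⟩ : HeightOneSpectrum (𝓞 F)).valuation F (c₂ : F) ≠ 0 :=
          (Valuation.ne_zero_iff _).mpr hc₂F
        have hlog := congrArg WithZero.log hval
        rw [WithZero.log_mul WithZero.exp_ne_zero (pow_ne_zero p hb'v), WithZero.log_exp,
          WithZero.log_pow, WithZero.log_pow] at hlog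
        apply hpn
        have hdvd : (p : ℤ) ∣ (n : ℤ) := by
          refine ⟨WithZero.log ((⟨𝔮, h𝔮, h𝔮0⟩ : HeightOneSpectrum (𝓞 F)).valuation F (b' : F))
            - WithZero.log ((⟨𝔮, h𝔮, h𝔮0⟩ : HeightOneSpectrum (𝓞 F)).valuation F (c₂ : F)), ?_⟩
          simp only [nsmul_eq_mul] at hlog
          linear_combination (-1 : ℤ) * hlog
        exact_mod_cast hdvd
  -- apply the core
  obtain ⟨b, hb⟩ := hCore p hp3 F ζ hζ lam hlam S T hS hSGen hdisj hA (c₁ * c₂ ^ (p - 1)) c₂ hc₂S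
    (fun v hv => hmlam v hv hcong) htame
  -- conclude
  have hbx : (b * (b' : F) / (c₂ : F)) ^ p = (x : F) := by
    rw [div_pow, mul_pow, hb, hx₀F, hxF]
    field_simp
  have hne : b * (b' : F) / (c₂ : F) ≠ 0 := by
    intro h0
    rw [h0, zero_pow hp0] at hbx
    exact x.ne_zero hbx.symm
  refine ⟨Units.mk0 _ hne, Units.ext ?_⟩
  simpa using hbx

end Fermat.Agent.S14
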