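/-
S14, block K (second inequality): assembly of the work packages (no package proofs are imported here;
the final theorem `k_g2` is in `KMain.lean`).
-/
import Mathlib
import Fermat.Agent.S14.Interfaces
import Fermat.Agent.S14.Basics2
import Fermat.Agent.S14.KInterfaces
import Fermat.Agent.S14.KGlue

set_option autoImplicit false

open NumberField IsDedekindDomain

namespace Fermat.Agent.S14

/-- pure group theory: the final count -/
theorem k_main_count {G : Type} [CommGroup G] (A D P : Subgroup G) (n : ℕ) (p : ℕ) (hp : 0 < p)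
    (hD0 : D.index ≠ 0) (hD : D.index ≤ p ^ (n + 1)) (hA : P.relIndex A = p ^ n)
    (hAD : A ⊓ D ≤ P) :
    (A ⊔ D).index ≠ 0 ∧ (A ⊔ D).index ≤ p := by
  have h1 : D.relIndex (A ⊔ D) * (A ⊔ D).index = D.index :=
    Subgroup.relIndex_mul_index le_sup_right
  have h2 : D.relIndex (A ⊔ D) = D.relIndex A := by
    rw [sup_comm]; exact Subgroup.relIndex_sup_left A D
  have h3 : P.relIndex A ∣ D.relIndex A := by
    have : (A ⊓ D).relIndex A = D.relIndex A := by
      rw [inf_comm]; exact Subgroup.inf_relIndex_right D A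
    rw [← this]
    have h4 : (A ⊓ D) ≤ (A ⊓ P) := le_inf inf_le_left hAD
    have h5 : (A ⊓ P).relIndex A = P.relIndex A := by
      rw [inf_comm]; exact Subgroup.inf_relIndex_right P A
    rw [← h5]
    exact Subgroup.relIndex_dvd_of_le_left A h4
  have hne : (A ⊔ D).index ≠ 0 := by
    intro h; rw [h, mul_zero] at h1; exact hD0 h1.symm
  refine ⟨hne, ?_⟩
  have hrel0 : D.relIndex A ≠ 0 := by
    intro h; rw [h2, h, zero_mul] at h1; exact hD0 h1.symm
  have h6 : p ^ n ≤ D.relIndex A := by
    rw [← hA]; exact Nat.le_of_dvd (Nat.pos_of_ne_zero hrel0) h3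
  have h7 : p ^ n * (A ⊔ D).index ≤ p ^ n * p := by
    calc p ^ n * (A ⊔ D).index ≤ D.relIndex A * (A ⊔ D).index := Nat.mul_le_mul_right _ h6
      _ = D.index := by rw [← h2, h1]
      _ ≤ p ^ (n + 1) := hD
      _ = p ^ n * p := pow_succ p n
  exact Nat.le_of_mul_le_mul_left h7 (pow_pos hp n)


/-- The second inequality from the top-level packages of block K. -/
theorem k_g2_of_packages
    (hGen : KummerGenStatement)
    (hExS : k_ExistsSStatement) (hChT : k_ChooseTStatement) (hLB : k_LemmaBStatement)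
    (hPhi : k_PhiStatement) (hIdx : k_IndexDStatement) (hTor : k_TorsionCountStatement)
    (hMod : k_ModulusStatement) (hRank : k_RankStatement) (hSU : k_SUnitIndexStatement)
    (hCU : k_CongUnitStatement) (hSN : k_SplitNormStatement) (hPN : k_PowNormStatement) :
    G2Statement := by
  classical
  intro p _ hp3 F N _ _ _ _ _ _ ζ hζ hdeg
  have hpp : p.Prime := Fact.out
  obtain ⟨x₀, y, hx₀, hy, hyF⟩ := hGen p F N ζ hζ hdeg
  -- `lam = 1 - ζ` as an algebraic integer
  have hζint : IsIntegral ℤ ζ := hζ.isIntegral hpp.pos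
  let zeta : 𝓞 F := ⟨ζ, hζint⟩
  let lam : 𝓞 F := 1 - zeta
  have hlam : (lam : F) = 1 - ζ := by
    show algebraMap (𝓞 F) F (1 - zeta) = 1 - ζ
    rw [map_sub, map_one]; rfl
  -- the set `S`
  have hp0 : (p : 𝓞 F) ≠ 0 := by exact_mod_cast hpp.ne_zero
  obtain ⟨S, hSm, hSgen⟩ := hExS F ((p : 𝓞 F) * x₀) (mul_ne_zero hp0 hx₀)
  have hSp : ∀ v : HeightOneSpectrum (𝓞 F), (p : 𝓞 F) ∈ v.asIdeal → v ∈ S :=
    fun v hv => hSm v (v.asIdeal.mul_mem_right _ hv)
  have hSx : ∀ v : HeightOneSpectrum (𝓞 F), x₀ ∈ v.asIdeal → v ∈ S :=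
    fun v hv => hSm v (v.asIdeal.mul_mem_left _ hv)
  -- the set `T`
  obtain ⟨T, hST, hTcard, hTsplit, hA⟩ := hChT p hp3 F N ζ hζ hdeg x₀ y hy hyF S hSp hSx
  -- Lemma B
  have hB := hLB p hp3 F ζ hζ lam hlam S T hSp hSgen hST hA
  -- the map `φ`
  obtain ⟨φ, hφsurj, hφunit, hφT⟩ := hPhi F S T hST hSgen
  -- the modulus
  obtain ⟨hm0, hmS, -⟩ := hMod p F ζ hζ lam hlam S hSp
  -- counts
  obtain ⟨hD0, hD1⟩ := hIdx p F S (k_modulus p S lam) hm0 hmS
  have hT1 := hTor p hp3 F ζ hζ lam hlam S hSp
  have hrk := hRank p hp3 F ζ hζ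
  set r := NumberField.Units.rank F with hr
  have hDle : (k_D p S lam).index ≤ p ^ ((2 * S.card + 2 * r + 1) + 1) := by
    refine hD1.trans ?_
    calc p ^ S.card * Nat.card {r : (𝓞 F ⧸ k_modulus p S lam)ˣ // r ^ p = 1}
        ≤ p ^ S.card * p ^ (S.card + Module.finrank ℚ F) := Nat.mul_le_mul_left _ hT1
      _ = p ^ ((2 * S.card + 2 * r + 1) + 1) := by
          rw [← pow_add, hrk]; congr 1; ring
  have hUcoe : (((S ∪ T : Finset (HeightOneSpectrum (𝓞 F))) :
      Set (HeightOneSpectrum (𝓞 F)))) = (S : Set (HeightOneSpectrum (𝓞 F))) ∪ T :=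
    Finset.coe_union S T
  have hAidx : (k_pow p F).relIndex
      (((S : Set (HeightOneSpectrum (𝓞 F))) ∪ (T : Set (HeightOneSpectrum (𝓞 F)))).unit F) =
      p ^ (2 * S.card + 2 * r + 1) := by
    have h := hSU p F ζ hζ (S ∪ T)
    rw [hUcoe, Finset.card_union_of_disjoint hST, hTcard] at h
    rw [h]; congr 1; ring
  obtain ⟨hne, hle⟩ := k_main_count
    (((S : Set (HeightOneSpectrum (𝓞 F))) ∪ (T : Set (HeightOneSpectrum (𝓞 F)))).unit F)
    (k_D p S lam) (k_pow p F) (2 * S.card + 2 * r + 1) p hpp.pos hD0 hDle hAidx hB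
  -- `A ⊔ D` maps into the norm classes
  have hTnorm : ∀ 𝔮 ∈ T, ∀ h : 𝔮.asIdeal ∈ nonZeroDivisors (Ideal (𝓞 F)),
      ClassGroup.mk0 ⟨𝔮.asIdeal, h⟩ ∈ normClasses F N := by
    intro 𝔮 h𝔮 h
    obtain ⟨𝔔, h𝔔0, h𝔔⟩ := hSN F N 𝔮.asIdeal 𝔮.isPrime 𝔮.ne_bot (hTsplit 𝔮 h𝔮)
    refine Subgroup.subset_closure ⟨𝔔, ?_, ?_⟩
    · rw [h𝔔]; exact h
    · congr 1; exact Subtype.ext h𝔔.symm
  have hsub : ((S : Set (HeightOneSpectrum (𝓞 F))) ∪ (T : Set (HeightOneSpectrum (𝓞 F)))).unit F ⊔
      k_D p S lam ≤ (normClasses F N).comap φ := by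
    refine sup_le ?_ (sup_le ?_ ?_)
    · intro a ha
      rw [Subgroup.mem_comap]
      refine (Subgroup.closure_le _).mpr ?_ (hφT a ha)
      rintro c ⟨𝔮, h, h𝔮, rfl⟩
      exact hTnorm 𝔮 h𝔮 h
    · rintro a ⟨b, rfl⟩
      rw [Subgroup.mem_comap]
      have := hPN F N (φ b)
      rw [hdeg] at this
      simpa using this
    · intro a ha
      rw [Subgroup.mem_comap, hφunit a (hCU F (k_modulus p S lam) S (fun v hv => (hmS v).mpr hv) ha)]
      exact Subgroup.one_mem _
  have hidx : (normClasses F N).index = ((normClasses F N).comap φ).index :=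
    (Subgroup.index_comap_of_surjective _ hφsurj).symm
  rw [hidx]
  exact (Nat.le_of_dvd (Nat.pos_of_ne_zero hne) (Subgroup.index_dvd_of_le hsub)).trans hle


/-- The second inequality from the leaf packages of block K (each hypothesis has exactly the type
of the theorem delivered by the corresponding package) and the shared basics. -/
theorem k_g2_of_leaves
    -- shared basics
    (hGen : KummerGenStatement) (hGal : KummerGaloisStatement) (hSplit : KummerSplitStatement)
    (hUnram : KummerUnramStatement) (hSUR : SUnitRankStatement) (hEx : KummerExistsStatement)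
    (hTri : PrimeTrichotomyStatement) (hTC : TotallyComplexStatement)
    -- block-K packages
    (kp : KummerGaloisStatement → k_KummerPowStatement)
    (ip : k_InertPowStatement)
    (pp : k_ProdPowStatement)
    (lamDvd : k_LamDvdStatement)
    (md : k_ModulusStatement)
    (ua : k_UnitAtStatement)
    (cu : k_CongUnitStatement)
    (ap : k_ApproxStatement)
    (prm : k_PowResMulStatement)
    (pri : k_PowResInvStatement)
    (pc : k_PowResCyclicStatement)
    (ab : k_AbIndexStatement)
    (su : SUnitRankStatement → k_AbIndexStatement → k_SUnitIndexStatement)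
    (sf : k_SUnitFracStatement)
    (st : K3Statement → KummerGaloisStatement → KummerSplitStatement → k_KummerExistsStatement →
      k_KummerPowStatement → k_InertPowStatement → k_GalPrimeStatement → k_StepStatement)
    (ct : k_StepStatement → k_SUnitIndexStatement → k_UnitAtStatement → k_PowResMulStatement →
      k_PowResInvStatement → k_PowResCyclicStatement → k_ChooseTStatement)
    (sp : KummerGaloisStatement → k_GalPrimeStatement → k_ProdPowStatement → k_SplitPStatement)
    (rc : k_ProdPowStatement → k_RootCongStatement)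
    (tc : k_RootCongStatement → k_LamDvdStatement → k_TorsionCountStatement)
    (vi : k_ApproxStatement → k_ValIndexStatement)
    (rd : k_UnitAtStatement → k_RedStatement)
    (idx : k_ValIndexStatement → k_RedStatement → k_CongUnitStatement → k_IndexDStatement)
    (sn : k_SplitNormStatement)
    (pn : k_PowNormStatement)
    (es : k_ExistsSStatement)
    (ph : k_ApproxStatement → k_PhiStatement)
    (bc : G1TameStatement → KummerUnramStatement → k_KummerExistsStatement → k_SplitPStatement →
      k_SUnitFracStatement → k_SplitNormStatement → k_LemmaBCoreStatement)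
    (lb : k_LemmaBCoreStatement → k_ModulusStatement → k_LemmaBStatement) :
    G1TameStatement → K3Statement → G2Statement := by
  intro hG1 hK3
  have kEx : k_KummerExistsStatement := k_glue_kummerExists hEx
  have kGP : k_GalPrimeStatement := k_glue_galPrime hTri
  have kRank : k_RankStatement := k_glue_rank hTC
  have kSU : k_SUnitIndexStatement := su hSUR ab
  have kStep : k_StepStatement := st hK3 hGal hSplit kEx (kp hGal) ip kGP
  have kChT : k_ChooseTStatement := ct kStep kSU ua prm pri pc
  have kSP : k_SplitPStatement := sp hGal kGP pp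
  have kTor : k_TorsionCountStatement := tc (rc pp) lamDvd
  have kIdx : k_IndexDStatement := idx (vi ap) (rd ua) cu
  have kLB : k_LemmaBStatement := lb (bc hG1 hUnram kEx kSP sf sn) md
  exact k_g2_of_packages hGen es kChT kLB (ph ap) kIdx kTor md kRank kSU cu sn pn

end Fermat.Agent.S14
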