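/-
S14, block K, package K/Modulus: `(1 - ζ)^(p-1) ∣ p` and basic properties of the modulus
`k_modulus p S lam = (p * lam) * ∏_{v ∈ S} v`.
-/
import Mathlib
import Fermat.Agent.S14.Interfaces
import Fermat.Agent.S14.KInterfaces
set_option autoImplicit false
open NumberField IsDedekindDomain
namespace Fermat.Agent.S14

/-- `(1 - ζ) ^ (p - 1)` divides `p` in `𝓞 F` (explicit form of `k_LamDvdStatement`). -/
theorem k_md_lamDvd_aux (p : ℕ) [Fact p.Prime] (F : Type) [Field F] [NumberField F] (ζ : F)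
    (hζ : IsPrimitiveRoot ζ p) (lam : 𝓞 F) (hlam : (lam : F) = 1 - ζ) :
    ∃ w : 𝓞 F, (p : 𝓞 F) = lam ^ (p - 1) * w := by
  have hp : p.Prime := Fact.out
  have hint : IsIntegral ℤ ζ := hζ.isIntegral hp.pos
  obtain ⟨zeta, hzc⟩ : ∃ zeta : 𝓞 F, algebraMap (𝓞 F) F zeta = ζ := ⟨⟨ζ, hint⟩, rfl⟩
  have hz : IsPrimitiveRoot zeta p := by
    refine IsPrimitiveRoot.of_map_of_injective (f := algebraMap (𝓞 F) F) ?_
      RingOfIntegers.coe_injective
    rw [hzc]
    exact hζ
  have hl : lam = 1 - zeta := by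
    apply RingOfIntegers.ext
    rw [hlam, ← hzc]
    simp
  obtain ⟨n, hn⟩ : ∃ n, p = n + 1 := ⟨p - 1, (Nat.sub_add_cancel hp.pos).symm⟩
  have hn' : p - 1 = n := by omega
  rw [hn']
  have hz' : IsPrimitiveRoot zeta (n + 1) := hn ▸ hz
  have hprod := hz'.prod_one_sub_pow_eq_order
  have hdvd : lam ^ n ∣ ∏ k ∈ Finset.range n, (1 - zeta ^ (k + 1)) := by
    have h1 : ∏ _k ∈ Finset.range n, lam = lam ^ n := by
      rw [Finset.prod_const, Finset.card_range]
    rw [← h1]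
    refine Finset.prod_dvd_prod_of_dvd _ _ (fun k _ => ?_)
    rw [hl]
    exact one_sub_dvd_one_sub_pow _ _
  obtain ⟨w, hw⟩ := hdvd
  refine ⟨w, ?_⟩
  rw [← hw, hprod, hn]
  push_cast
  rfl

/-- (LamDvd) `(1 - ζ) ^ (p - 1)` divides `p`. -/
theorem k_md_lamDvd : k_LamDvdStatement := by
  intro p _ F _ _ ζ hζ lam hlam
  exact k_md_lamDvd_aux p F ζ hζ lam hlam

/-- `lam = 1 - ζ` is nonzero. -/
theorem k_md_lam_ne_zero (p : ℕ) [Fact p.Prime] (F : Type) [Field F] [NumberField F] (ζ : F)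
    (hζ : IsPrimitiveRoot ζ p) (lam : 𝓞 F) (hlam : (lam : F) = 1 - ζ) : lam ≠ 0 := by
  have hp : p.Prime := Fact.out
  intro h
  have h1 : (lam : F) = 0 := by rw [h]; rfl
  rw [hlam, sub_eq_zero] at h1
  exact hζ.ne_one hp.one_lt h1.symm

/-- `p * lam = lam ^ p * w` for some `w`. -/
theorem k_md_p_mul_lam (p : ℕ) [Fact p.Prime] (F : Type) [Field F] [NumberField F] (ζ : F)
    (hζ : IsPrimitiveRoot ζ p) (lam : 𝓞 F) (hlam : (lam : F) = 1 - ζ) :
    ∃ w : 𝓞 F, (p : 𝓞 F) * lam = lam ^ p * w := by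
  have hp : p.Prime := Fact.out
  obtain ⟨w, hw⟩ := k_md_lamDvd_aux p F ζ hζ lam hlam
  refine ⟨w, ?_⟩
  rw [hw]
  have h2 : lam ^ p = lam ^ (p - 1) * lam := by
    rw [← pow_succ, Nat.sub_add_cancel hp.pos]
  rw [h2]
  ring

/-- The product of the primes of `S` is contained in each of them. -/
theorem k_md_prod_le {F : Type} [Field F] [NumberField F]
    (S : Finset (HeightOneSpectrum (𝓞 F))) (v : HeightOneSpectrum (𝓞 F)) (hv : v ∈ S) :
    ∏ w ∈ S, w.asIdeal ≤ v.asIdeal :=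
  Ideal.le_of_dvd (Finset.dvd_prod_of_mem _ hv)

/-- (Modulus) Basic properties of the modulus (explicit form). -/
theorem k_md_main_aux (p : ℕ) [Fact p.Prime] (F : Type) [Field F] [NumberField F] (ζ : F)
    (hζ : IsPrimitiveRoot ζ p) (lam : 𝓞 F) (hlam : (lam : F) = 1 - ζ)
    (S : Finset (HeightOneSpectrum (𝓞 F)))
    (hS : ∀ v : HeightOneSpectrum (𝓞 F), (p : 𝓞 F) ∈ v.asIdeal → v ∈ S) :
    k_modulus p S lam ≠ ⊥ ∧
    (∀ v : HeightOneSpectrum (𝓞 F), k_modulus p S lam ≤ v.asIdeal ↔ v ∈ S) ∧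
    (∀ v ∈ S, k_modulus p S lam ≤ v.asIdeal * Ideal.span {lam} ^ p) := by
  have hp : p.Prime := Fact.out
  have hlam0 : lam ≠ 0 := k_md_lam_ne_zero p F ζ hζ lam hlam
  have hp0 : (p : 𝓞 F) ≠ 0 := Nat.cast_ne_zero.mpr hp.ne_zero
  obtain ⟨w, hw⟩ := k_md_lamDvd_aux p F ζ hζ lam hlam
  obtain ⟨w', hw'⟩ := k_md_p_mul_lam p F ζ hζ lam hlam
  refine ⟨?_, ?_, ?_⟩
  · unfold k_modulus
    intro h
    rw [← Ideal.zero_eq_bot, mul_eq_zero] at h
    rcases h with h | h
    · rw [Ideal.zero_eq_bot, Ideal.span_singleton_eq_bot] at h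
      exact mul_ne_zero hp0 hlam0 h
    · rw [Finset.prod_eq_zero_iff] at h
      obtain ⟨v, _, hv⟩ := h
      exact v.ne_bot hv
  · intro v
    unfold k_modulus
    constructor
    · intro h
      rcases (Ideal.IsPrime.mul_le v.isPrime).mp h with h | h
      · rw [Ideal.span_singleton_le_iff_mem] at h
        rcases v.isPrime.mem_or_mem h with h | h
        · exact hS v h
        · apply hS v
          rw [hw]
          refine Ideal.mul_mem_right _ _ ?_
          have h3 : p - 1 ≠ 0 := by have := hp.two_le; omega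
          exact Ideal.pow_mem_of_mem _ h _ (Nat.pos_of_ne_zero h3)
      · obtain ⟨u, huS, hu⟩ := (Ideal.IsPrime.prod_le v.isPrime).mp h
        have hmax : u.asIdeal.IsMaximal := u.isPrime.isMaximal u.ne_bot
        have heq : u.asIdeal = v.asIdeal := hmax.eq_of_le v.isPrime.ne_top hu
        have : u = v := HeightOneSpectrum.ext heq
        exact this ▸ huS
    · intro hv
      exact le_trans Ideal.mul_le_right (k_md_prod_le S v hv)
  · intro v hv
    unfold k_modulus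
    rw [mul_comm v.asIdeal]
    refine Ideal.mul_mono ?_ (k_md_prod_le S v hv)
    rw [Ideal.span_singleton_pow, Ideal.span_singleton_le_span_singleton]
    exact ⟨w', hw'⟩

/-- (Modulus) Basic properties of the modulus. -/
theorem k_md_main : k_ModulusStatement := by
  intro p _ F _ _ ζ hζ lam hlam S hS
  exact k_md_main_aux p F ζ hζ lam hlam S hS

end Fermat.Agent.S14
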