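/-
S14, block K, package K/Norm: a completely split prime is a norm; `[N : F]`-th powers of ideal
classes are norm classes.
-/
import Mathlib
import Fermat.Agent.S14.Interfaces
import Fermat.Agent.S14.KInterfaces
set_option autoImplicit false
open NumberField IsDedekindDomain
namespace Fermat.Agent.S14

/-- (SplitNorm) A prime which splits completely is the norm of a (prime) ideal. -/
theorem k_nm_splitNorm : k_SplitNormStatement := by
  intro F N _ _ _ _ _ 𝔮 h𝔮 h𝔮0 hsplit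
  have : 𝔮.IsPrime := h𝔮
  have : 𝔮.IsMaximal := Ideal.IsPrime.isMaximal h𝔮 h𝔮0
  obtain ⟨⟨𝔔, h𝔔⟩⟩ : Nonempty (𝔮.primesOver (𝓞 N)) := inferInstance
  have : 𝔔.IsPrime := h𝔔.1
  have : 𝔔.LiesOver 𝔮 := h𝔔.2
  have h𝔔0 : 𝔔 ≠ ⊥ := Ideal.ne_bot_of_mem_primesOver h𝔮0 h𝔔
  have : 𝔔.IsMaximal := Ideal.IsPrime.isMaximal h𝔔.1 h𝔔0
  refine ⟨𝔔, h𝔔0, ?_⟩
  rw [Ideal.relNorm_eq_pow_of_isMaximal 𝔔 𝔮, (hsplit 𝔔 h𝔔).2, pow_one]

/-- (PowNorm) `[N : F]`-th powers of ideal classes are norm classes. -/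
theorem k_nm_powNorm : k_PowNormStatement := by
  intro F N _ _ _ _ _ C
  obtain ⟨I, rfl⟩ := ClassGroup.mk0_surjective C
  have hfr : Module.finrank (𝓞 F) (𝓞 N) = Module.finrank F N :=
    (IsFractionRing.finrank_eq (𝓞 F) F (𝓞 N) N).symm
  have hnorm : Ideal.relNorm (𝓞 F) ((I : Ideal (𝓞 F)).map (algebraMap (𝓞 F) (𝓞 N))) =
      (I : Ideal (𝓞 F)) ^ Module.finrank F N := by
    rw [Ideal.relNorm_algebraMap, hfr]
  have hmem : Ideal.relNorm (𝓞 F) ((I : Ideal (𝓞 F)).map (algebraMap (𝓞 F) (𝓞 N))) ∈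
      nonZeroDivisors (Ideal (𝓞 F)) := by
    rw [hnorm]
    exact (I ^ Module.finrank F N).2
  refine Subgroup.subset_closure ⟨(I : Ideal (𝓞 F)).map (algebraMap (𝓞 F) (𝓞 N)), hmem, ?_⟩
  rw [← map_pow]
  congr 1
  exact Subtype.ext hnorm.symm

end Fermat.Agent.S14
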