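/-
S14, block K, package K/Phi (plan item K7).

For disjoint finite sets `S, T` of primes with `k_SGen S` we construct a surjective homomorphism
`φ : Fˣ →* ClassGroup (𝓞 F)`, trivial on `k_unitsAt S`, mapping `(S ∪ T)`-units into the closure of
the classes of the primes of `T`:  `φ a = ∏ v ∈ S, [v] ^ e_v(a)` with `v.valuation F a = exp (e_v a)`.
-/
import Mathlib
import Fermat.Agent.S14.Interfaces
import Fermat.Agent.S14.KInterfaces

set_option autoImplicit false

open NumberField IsDedekindDomain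

namespace Fermat.Agent.S14

/-- The class of the prime `v` in the class group. -/
noncomputable def k_ph_cl {F : Type} [Field F] [NumberField F] (v : HeightOneSpectrum (𝓞 F)) :
    ClassGroup (𝓞 F) :=
  ClassGroup.mk0 ⟨v.asIdeal, mem_nonZeroDivisors_iff_ne_zero.mpr v.ne_bot⟩

/-- The exponent of `v` in the factorisation of `(x)`. -/
noncomputable def k_ph_cnt {F : Type} [Field F] [NumberField F] (v : HeightOneSpectrum (𝓞 F))
    (x : 𝓞 F) : ℕ :=
  (Associates.mk v.asIdeal).count (Associates.mk (Ideal.span {x})).factors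

theorem k_ph_intVal {F : Type} [Field F] [NumberField F] (v : HeightOneSpectrum (𝓞 F))
    (x : 𝓞 F) (hx : x ≠ 0) : v.intValuation x = WithZero.exp (-(k_ph_cnt v x : ℤ)) :=
  v.intValuation_if_neg hx

theorem k_ph_cnt_eq_zero {F : Type} [Field F] [NumberField F] (v : HeightOneSpectrum (𝓞 F))
    (x : 𝓞 F) (hx : x ≠ 0) (hxv : x ∉ v.asIdeal) : k_ph_cnt v x = 0 := by
  have h1 : v.intValuation x = 1 := (v.intValuation_eq_one_iff_mem_primeCompl x).mpr hxv
  rw [k_ph_intVal v x hx, WithZero.exp_eq_one] at h1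
  omega

/-- The class of a product of prime powers. -/
theorem k_ph_mk0_prod {F : Type} [Field F] [NumberField F]
    (W : Finset (HeightOneSpectrum (𝓞 F))) (n : HeightOneSpectrum (𝓞 F) → ℕ)
    (h : ∏ w ∈ W, w.asIdeal ^ n w ∈ nonZeroDivisors (Ideal (𝓞 F))) :
    ClassGroup.mk0 ⟨∏ w ∈ W, w.asIdeal ^ n w, h⟩ = ∏ w ∈ W, k_ph_cl w ^ n w := by
  have h1 : (⟨∏ w ∈ W, w.asIdeal ^ n w, h⟩ : nonZeroDivisors (Ideal (𝓞 F))) =
      ∏ w ∈ W, (⟨w.asIdeal, mem_nonZeroDivisors_iff_ne_zero.mpr w.ne_bot⟩ :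
        nonZeroDivisors (Ideal (𝓞 F))) ^ n w := by
    apply Subtype.ext
    rw [Submonoid.coe_finsetProd]
    rfl
  rw [h1, map_prod]
  refine Finset.prod_congr rfl fun w _ => ?_
  rw [map_pow]
  rfl

/-- Product formula for integral elements, in the class group. -/
theorem k_ph_prod_int {F : Type} [Field F] [NumberField F] (x : 𝓞 F) (hx : x ≠ 0)
    (W : Finset (HeightOneSpectrum (𝓞 F))) (hW : ∀ w, w ∉ W → x ∉ w.asIdeal) :
    ∏ w ∈ W, k_ph_cl w ^ k_ph_cnt w x = 1 := by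
  have hI : Ideal.span {x} ≠ (0 : Ideal (𝓞 F)) := by
    rw [Ne, Ideal.zero_eq_bot, Ideal.span_singleton_eq_bot]
    exact hx
  have h1 := Ideal.finprod_heightOneSpectrum_factorization hI
  have h2 : (Function.mulSupport fun v : HeightOneSpectrum (𝓞 F) =>
      v.maxPowDividing (Ideal.span {x})) ⊆ (W : Set (HeightOneSpectrum (𝓞 F))) := by
    intro w hw
    by_contra hwW
    apply hw
    have h3 := k_ph_cnt_eq_zero w x hx (hW w hwW)
    show w.asIdeal ^ k_ph_cnt w x = 1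
    rw [h3, pow_zero]
  rw [finprod_eq_prod_of_mulSupport_subset _ h2] at h1
  have h4 : ∏ w ∈ W, w.asIdeal ^ k_ph_cnt w x = Ideal.span {x} := h1
  have h5 : ∏ w ∈ W, w.asIdeal ^ k_ph_cnt w x ∈ nonZeroDivisors (Ideal (𝓞 F)) := by
    rw [h4]
    exact mem_nonZeroDivisors_iff_ne_zero.mpr hI
  rw [← k_ph_mk0_prod W (fun w => k_ph_cnt w x) h5, ClassGroup.mk0_eq_one_iff, h4]
  exact ⟨⟨x, rfl⟩⟩

/-- The exponent of `v` at a quotient of integral elements. -/
theorem k_ph_toAdd {F : Type} [Field F] [NumberField F] (v : HeightOneSpectrum (𝓞 F))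
    (a : Fˣ) (x y : 𝓞 F) (hx : x ≠ 0) (hy : y ≠ 0)
    (ha : algebraMap (𝓞 F) F x / algebraMap (𝓞 F) F y = (a : F)) :
    Multiplicative.toAdd (v.valuationOfNeZero a) = (k_ph_cnt v y : ℤ) - (k_ph_cnt v x : ℤ) := by
  have h1 : ((v.valuationOfNeZero a : Multiplicative ℤ) : WithZero (Multiplicative ℤ)) =
      v.valuation F (a : F) := v.valuationOfNeZero_eq a
  rw [← ha, map_div₀, v.valuation_of_algebraMap, v.valuation_of_algebraMap, k_ph_intVal v x hx,
    k_ph_intVal v y hy, ← WithZero.exp_sub] at h1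
  have h2 : WithZero.exp (Multiplicative.toAdd (v.valuationOfNeZero a)) =
      WithZero.exp (-(k_ph_cnt v x : ℤ) - -(k_ph_cnt v y : ℤ)) := h1
  rw [WithZero.exp_inj] at h2
  rw [h2]
  ring

/-- If the valuation is `1`, the exponent vanishes. -/
theorem k_ph_toAdd_eq_zero {F : Type} [Field F] [NumberField F] (v : HeightOneSpectrum (𝓞 F))
    (a : Fˣ) (h : v.valuation F (a : F) = 1) :
    Multiplicative.toAdd (v.valuationOfNeZero a) = 0 := by
  have h1 : ((v.valuationOfNeZero a : Multiplicative ℤ) : WithZero (Multiplicative ℤ)) =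
      v.valuation F (a : F) := v.valuationOfNeZero_eq a
  rw [h] at h1
  have h2 : WithZero.exp (Multiplicative.toAdd (v.valuationOfNeZero a)) = 1 := h1
  rwa [WithZero.exp_eq_one] at h2

/-- If the valuation is `exp n`, the exponent is `n`. -/
theorem k_ph_toAdd_eq {F : Type} [Field F] [NumberField F] (v : HeightOneSpectrum (𝓞 F))
    (a : Fˣ) (n : ℤ) (h : v.valuation F (a : F) = WithZero.exp n) :
    Multiplicative.toAdd (v.valuationOfNeZero a) = n := by
  have h1 : ((v.valuationOfNeZero a : Multiplicative ℤ) : WithZero (Multiplicative ℤ)) =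
      v.valuation F (a : F) := v.valuationOfNeZero_eq a
  rw [h] at h1
  have h2 : WithZero.exp (Multiplicative.toAdd (v.valuationOfNeZero a)) = WithZero.exp n := h1
  rwa [WithZero.exp_inj] at h2

/-- KEY LEMMA: the product formula in the class group. -/
theorem k_ph_key {F : Type} [Field F] [NumberField F] (a : Fˣ)
    (W : Finset (HeightOneSpectrum (𝓞 F))) (hW : ∀ w, w ∉ W → w.valuation F (a : F) = 1) :
    ∏ w ∈ W, k_ph_cl w ^ Multiplicative.toAdd (w.valuationOfNeZero a) = 1 := by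
  classical
  obtain ⟨x, y, hy, hxy⟩ := IsFractionRing.div_surjective (A := 𝓞 F) (a : F)
  have hy0 : y ≠ 0 := nonZeroDivisors.ne_zero hy
  have hx0 : x ≠ 0 := by
    rintro rfl
    rw [map_zero, zero_div] at hxy
    exact a.ne_zero hxy.symm
  have hIx : Ideal.span {x} ≠ (0 : Ideal (𝓞 F)) := by
    rw [Ne, Ideal.zero_eq_bot, Ideal.span_singleton_eq_bot]
    exact hx0
  have hIy : Ideal.span {y} ≠ (0 : Ideal (𝓞 F)) := by
    rw [Ne, Ideal.zero_eq_bot, Ideal.span_singleton_eq_bot]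
    exact hy0
  set W' : Finset (HeightOneSpectrum (𝓞 F)) :=
    W ∪ (Ideal.finite_factors hIx).toFinset ∪ (Ideal.finite_factors hIy).toFinset with hW'
  have hWx : ∀ w, w ∉ W' → x ∉ w.asIdeal := by
    intro w hw hxw
    apply hw
    rw [hW', Finset.mem_union, Finset.mem_union]
    refine Or.inl (Or.inr ?_)
    rw [Set.Finite.mem_toFinset]
    exact Ideal.dvd_span_singleton.mpr hxw
  have hWy : ∀ w, w ∉ W' → y ∉ w.asIdeal := by
    intro w hw hyw
    apply hw
    rw [hW', Finset.mem_union]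
    refine Or.inr ?_
    rw [Set.Finite.mem_toFinset]
    exact Ideal.dvd_span_singleton.mpr hyw
  have h1 := k_ph_prod_int x hx0 W' hWx
  have h2 := k_ph_prod_int y hy0 W' hWy
  have hsub : W ⊆ W' := by
    intro w hw
    rw [hW', Finset.mem_union, Finset.mem_union]
    exact Or.inl (Or.inl hw)
  rw [Finset.prod_subset hsub (fun w _ hw => by
    rw [k_ph_toAdd_eq_zero w a (hW w hw), zpow_zero])]
  have h3 : ∀ w ∈ W', k_ph_cl w ^ Multiplicative.toAdd (w.valuationOfNeZero a) =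
      k_ph_cl w ^ k_ph_cnt w y / k_ph_cl w ^ k_ph_cnt w x := by
    intro w _
    rw [k_ph_toAdd w a x y hx0 hy0 hxy, zpow_sub, zpow_natCast, zpow_natCast, div_eq_mul_inv]
  rw [Finset.prod_congr rfl h3, Finset.prod_div_distrib, h1, h2, div_one]

/-- The homomorphism `a ↦ ∏ v ∈ S, [v] ^ e_v(a)`. -/
noncomputable def k_ph_phi {F : Type} [Field F] [NumberField F]
    (S : Finset (HeightOneSpectrum (𝓞 F))) : Fˣ →* ClassGroup (𝓞 F) :=
  ∏ v ∈ S, (zpowersHom (ClassGroup (𝓞 F)) (k_ph_cl v)).comp v.valuationOfNeZero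

theorem k_ph_phi_apply {F : Type} [Field F] [NumberField F]
    (S : Finset (HeightOneSpectrum (𝓞 F))) (a : Fˣ) :
    k_ph_phi S a = ∏ v ∈ S, k_ph_cl v ^ Multiplicative.toAdd (v.valuationOfNeZero a) := by
  rw [k_ph_phi, MonoidHom.finsetProd_apply]
  rfl

/-- (1) `φ` is trivial on the units at `S`. -/
theorem k_ph_phi_unitsAt {F : Type} [Field F] [NumberField F]
    (S : Finset (HeightOneSpectrum (𝓞 F))) (a : Fˣ) (ha : a ∈ k_unitsAt S) :
    k_ph_phi S a = 1 := by
  rw [k_ph_phi_apply]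
  refine Finset.prod_eq_one fun v hv => ?_
  rw [k_ph_toAdd_eq_zero v a (ha v hv), zpow_zero]

/-- (3) `φ` maps `S ∪ T`-units into the subgroup generated by the classes of the primes of `T`. -/
theorem k_ph_phi_unit {F : Type} [Field F] [NumberField F]
    (S T : Finset (HeightOneSpectrum (𝓞 F))) (hST : Disjoint S T) (a : Fˣ)
    (ha : a ∈ ((S : Set (HeightOneSpectrum (𝓞 F))) ∪
      (T : Set (HeightOneSpectrum (𝓞 F)))).unit F) :
    k_ph_phi S a ∈ Subgroup.closure {c | ∃ (𝔮 : HeightOneSpectrum (𝓞 F))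
      (h : 𝔮.asIdeal ∈ nonZeroDivisors (Ideal (𝓞 F))), 𝔮 ∈ T ∧
        c = ClassGroup.mk0 ⟨𝔮.asIdeal, h⟩} := by
  classical
  have hW : ∀ w, w ∉ S ∪ T → w.valuation F (a : F) = 1 := by
    intro w hw
    refine ha w ?_
    intro hw'
    apply hw
    rcases hw' with h | h
    · exact Finset.mem_union_left _ (Finset.mem_coe.mp h)
    · exact Finset.mem_union_right _ (Finset.mem_coe.mp h)
  have h1 := k_ph_key a (S ∪ T) hW
  rw [Finset.prod_union hST, ← k_ph_phi_apply] at h1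
  rw [eq_inv_of_mul_eq_one_left h1]
  refine Subgroup.inv_mem _ (Subgroup.prod_mem _ fun w hw => Subgroup.zpow_mem _ ?_ _)
  exact Subgroup.subset_closure ⟨w, mem_nonZeroDivisors_iff_ne_zero.mpr w.ne_bot, hw, rfl⟩

/-- (4) `φ` is surjective if the primes of `S` generate the class group. -/
theorem k_ph_phi_surj (hA : k_ApproxStatement) {F : Type} [Field F] [NumberField F]
    (S : Finset (HeightOneSpectrum (𝓞 F))) (hS : k_SGen S) :
    Function.Surjective (k_ph_phi S) := by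
  intro C
  obtain ⟨I, hI⟩ := ClassGroup.mk0_surjective C⁻¹
  obtain ⟨γ, n, hγ, hn⟩ := hS (I : Ideal (𝓞 F)) (mem_nonZeroDivisors_iff_ne_zero.mp I.2)
  have hγ' : Ideal.span {γ} ≠ (0 : Ideal (𝓞 F)) := by
    rw [Ne, Ideal.zero_eq_bot, Ideal.span_singleton_eq_bot]
    exact hγ
  have hP : ∏ v ∈ S, v.asIdeal ^ n v ∈ nonZeroDivisors (Ideal (𝓞 F)) := by
    rw [mem_nonZeroDivisors_iff_ne_zero]
    intro h0
    rw [h0, mul_zero] at hn
    exact hγ' hn.symm
  have h1 : I * ⟨∏ v ∈ S, v.asIdeal ^ n v, hP⟩ =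
      (⟨Ideal.span {γ}, mem_nonZeroDivisors_iff_ne_zero.mpr hγ'⟩ :
        nonZeroDivisors (Ideal (𝓞 F))) := Subtype.ext hn
  have h2 : ClassGroup.mk0 (I * ⟨∏ v ∈ S, v.asIdeal ^ n v, hP⟩) = 1 := by
    rw [h1, ClassGroup.mk0_eq_one_iff]
    exact ⟨⟨γ, rfl⟩⟩
  rw [map_mul, hI, k_ph_mk0_prod S n hP, inv_mul_eq_one] at h2
  obtain ⟨a, ha⟩ := hA F S (fun v => (n v : ℤ))
  refine ⟨a, ?_⟩
  rw [k_ph_phi_apply, h2]
  refine Finset.prod_congr rfl fun v hv => ?_
  rw [k_ph_toAdd_eq v a (n v : ℤ) (ha v hv), zpow_natCast]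

/-- Package K/Phi. -/
theorem k_ph_main : k_ApproxStatement → k_PhiStatement := by
  intro hA F _ _ S T hST hS
  exact ⟨k_ph_phi S, k_ph_phi_surj hA S hS, fun a ha => k_ph_phi_unitsAt S a ha,
    fun a ha => k_ph_phi_unit S T hST a ha⟩

end Fermat.Agent.S14
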