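/-
S14, block K, package K/PowRes: `p`-th power residues modulo a prime are closed under
multiplication and inversion.
-/
import Mathlib
import Fermat.Agent.S14.Interfaces
import Fermat.Agent.S14.KInterfaces
set_option autoImplicit false
open NumberField IsDedekindDomain
namespace Fermat.Agent.S14

/-- (PowResMul) The product of two `p`-th power residues modulo a prime `𝔮` is one. -/
theorem k_pr_mul : k_PowResMulStatement := by
  intro p F _ _ 𝔮 h𝔮 a b ha hb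
  obtain ⟨a₁, a₂, c, ha₁, ha₂, hae, hac⟩ := ha
  obtain ⟨b₁, b₂, d, hb₁, hb₂, hbe, hbd⟩ := hb
  refine ⟨a₁ * b₁, a₂ * b₂, c * d, ?_, ?_, ?_, ?_⟩
  · intro h
    rcases h𝔮.mem_or_mem h with h | h
    · exact ha₁ h
    · exact hb₁ h
  · intro h
    rcases h𝔮.mem_or_mem h with h | h
    · exact ha₂ h
    · exact hb₂ h
  · push_cast
    linear_combination (b * (b₂ : F)) * hae + (a₁ : F) * hbe
  · have hid : a₁ * b₁ - (c * d) ^ p * (a₂ * b₂) =
        a₁ * (b₁ - d ^ p * b₂) + d ^ p * b₂ * (a₁ - c ^ p * a₂) := by ring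
    rw [hid]
    exact 𝔮.add_mem (𝔮.mul_mem_left _ hbd) (𝔮.mul_mem_left _ hac)

/-- (PowResInv) The inverse of a `p`-th power residue modulo a nonzero prime `𝔮` is one. -/
theorem k_pr_inv : k_PowResInvStatement := by
  intro p F _ _ 𝔮 h𝔮 h𝔮0 a ha
  obtain ⟨a₁, a₂, c, ha₁, ha₂, hae, hac⟩ := ha
  have hmax : 𝔮.IsMaximal := Ideal.IsPrime.isMaximal h𝔮 h𝔮0
  let _ := Ideal.Quotient.field 𝔮
  obtain ⟨c', hc'⟩ := Ideal.Quotient.mk_surjective ((Ideal.Quotient.mk 𝔮 c)⁻¹)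
  have h1 : Ideal.Quotient.mk 𝔮 a₁ = (Ideal.Quotient.mk 𝔮 c) ^ p * Ideal.Quotient.mk 𝔮 a₂ := by
    have h := Ideal.Quotient.eq_zero_iff_mem.mpr hac
    rw [map_sub, map_mul, map_pow, sub_eq_zero] at h
    exact h
  have h2 : Ideal.Quotient.mk 𝔮 a₁ ≠ 0 := fun h => ha₁ (Ideal.Quotient.eq_zero_iff_mem.mp h)
  have h3 : (Ideal.Quotient.mk 𝔮 c) ^ p ≠ 0 := by
    intro h
    rw [h, zero_mul] at h1
    exact h2 h1
  refine ⟨a₂, a₁, c', ha₂, ha₁, ?_, ?_⟩
  · have ha₁0 : (a₁ : F) ≠ 0 := by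
      intro h
      apply ha₁
      have h0 : a₁ = 0 := RingOfIntegers.coe_eq_zero_iff.mp h
      rw [h0]
      exact 𝔮.zero_mem
    have ha0 : a ≠ 0 := by
      intro h
      rw [h, zero_mul] at hae
      exact ha₁0 hae.symm
    rw [← hae, inv_mul_cancel_left₀ ha0]
  · rw [← Ideal.Quotient.eq_zero_iff_mem, map_sub, map_mul, map_pow, hc', h1, inv_pow,
      inv_mul_cancel_left₀ h3, sub_self]

end Fermat.Agent.S14
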