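/-
S14, block K, package K/PowResCyclic.

`k_pc_main : k_PowResCyclicStatement`: for a nonzero prime `𝔮` of `𝓞 F`, units `a`, `b` at `𝔮` with
`b` not a `p`-th power residue modulo `𝔮`, some `a * b ^ j` (`j < p`) is a `p`-th power residue.

Auxiliary lemmas (all with prefix `k_pc_`):
* `k_pc_exists_mul_dvd`: for `m` prime to `p` and any `l` there is `j < p` with `p ∣ l + j * m`;
* `k_pc_cyclic`: in a cyclic group, if `h` is not a `p`-th power then for every `g` some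
  `g * h ^ j` with `j < p` is a `p`-th power;
* `k_pc_powRes_iff`: `k_PowRes p 𝔮 a` can be tested on any representation `a = a₁ / a₂`.
-/
import Mathlib
import Fermat.Agent.S14.Interfaces
import Fermat.Agent.S14.KInterfaces

set_option autoImplicit false

open NumberField IsDedekindDomain

namespace Fermat.Agent.S14

/-- If `p` is prime and `p ∤ m`, then for every `l` there is `j < p` with `p ∣ l + j * m`. -/
theorem k_pc_exists_mul_dvd (p : ℕ) [Fact p.Prime] (l m : ℤ) (hm : ¬ (p : ℤ) ∣ m) :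
    ∃ j : ℕ, j < p ∧ (p : ℤ) ∣ l + (j : ℤ) * m := by
  have hm0 : (m : ZMod p) ≠ 0 := fun h => hm ((ZMod.intCast_zmod_eq_zero_iff_dvd m p).mp h)
  refine ⟨(-(l : ZMod p) * (m : ZMod p)⁻¹).val, ZMod.val_lt _, ?_⟩
  rw [← ZMod.intCast_zmod_eq_zero_iff_dvd]
  push_cast
  rw [ZMod.natCast_zmod_val]
  field_simp
  ring

/-- In a cyclic group, a non-`p`-th power `h` generates the group modulo `p`-th powers: every `g`
becomes a `p`-th power after multiplication by some `h ^ j`, `j < p`. -/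
theorem k_pc_cyclic (p : ℕ) [Fact p.Prime] {G : Type*} [CommGroup G] [IsCyclic G]
    (g h : G) (hh : ¬ ∃ z : G, z ^ p = h) :
    ∃ j : ℕ, j < p ∧ ∃ z : G, z ^ p = g * h ^ j := by
  obtain ⟨γ, hγ⟩ := IsCyclic.exists_generator (α := G)
  obtain ⟨m, rfl⟩ := Subgroup.mem_zpowers_iff.mp (hγ h)
  obtain ⟨l, rfl⟩ := Subgroup.mem_zpowers_iff.mp (hγ g)
  have hpm : ¬ (p : ℤ) ∣ m := by
    rintro ⟨m', rfl⟩
    exact hh ⟨γ ^ m', by rw [← zpow_natCast, ← zpow_mul, mul_comm]⟩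
  obtain ⟨j, hj, t, ht⟩ := k_pc_exists_mul_dvd p l m hpm
  refine ⟨j, hj, γ ^ t, ?_⟩
  rw [← zpow_natCast (γ ^ t), ← zpow_mul, ← zpow_natCast (γ ^ m), ← zpow_mul, ← zpow_add,
    mul_comm t, ← ht, mul_comm m]

/-- `k_PowRes` can be tested on any representation `a = a₁ / a₂` with `a₁, a₂ ∉ 𝔮`. -/
theorem k_pc_powRes_iff (p : ℕ) {F : Type} [Field F] [NumberField F] (𝔮 : Ideal (𝓞 F))
    (h𝔮 : 𝔮.IsPrime) (a : F) (a₁ a₂ : 𝓞 F) (ha₁ : a₁ ∉ 𝔮) (ha₂ : a₂ ∉ 𝔮)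
    (hae : a * (a₂ : F) = (a₁ : F)) :
    k_PowRes p 𝔮 a ↔ ∃ c : 𝓞 F, a₁ - c ^ p * a₂ ∈ 𝔮 := by
  constructor
  · rintro ⟨a₁', a₂', c, _, ha₂', hae', hc⟩
    refine ⟨c, ?_⟩
    have hcross : a₁ * a₂' = a₁' * a₂ := by
      apply RingOfIntegers.coe_injective
      rw [map_mul, map_mul]
      change (a₁ : F) * (a₂' : F) = (a₁' : F) * (a₂ : F)
      rw [← hae, ← hae']
      ring
    have hmem : a₂' * (a₁ - c ^ p * a₂) ∈ 𝔮 := by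
      have : a₂' * (a₁ - c ^ p * a₂) = a₂ * (a₁' - c ^ p * a₂') := by
        linear_combination hcross
      rw [this]
      exact 𝔮.mul_mem_left _ hc
    exact (h𝔮.mem_or_mem hmem).resolve_left ha₂'
  · rintro ⟨c, hc⟩
    exact ⟨a₁, a₂, c, ha₁, ha₂, hae, hc⟩

/-- (PowResCyclic) `k(𝔮)ˣ / k(𝔮)ˣ^p` is generated by any non-residue. -/
theorem k_pc_main : k_PowResCyclicStatement := by
  intro p _ F _ _ 𝔮 h𝔮 h𝔮0 a b ha hb hnb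
  obtain ⟨a₁, a₂, ha₁, ha₂, hae⟩ := ha
  obtain ⟨b₁, b₂, hb₁, hb₂, hbe⟩ := hb
  have : 𝔮.IsMaximal := h𝔮.isMaximal h𝔮0
  let _ : Field (𝓞 F ⧸ 𝔮) := Ideal.Quotient.field 𝔮
  have : Finite (𝓞 F ⧸ 𝔮) := Ideal.finiteQuotientOfFreeOfNeBot 𝔮 h𝔮0
  have hne : ∀ x : 𝓞 F, x ∉ 𝔮 → Ideal.Quotient.mk 𝔮 x ≠ 0 :=
    fun x hx h => hx (Ideal.Quotient.eq_zero_iff_mem.mp h)
  -- the classes of `a` and `b` in `k(𝔮)ˣ`
  obtain ⟨α, hα⟩ : ∃ α : (𝓞 F ⧸ 𝔮)ˣ,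
      (α : 𝓞 F ⧸ 𝔮) * Ideal.Quotient.mk 𝔮 a₂ = Ideal.Quotient.mk 𝔮 a₁ :=
    ⟨Units.mk0 _ (hne a₁ ha₁) / Units.mk0 _ (hne a₂ ha₂), by
      rw [Units.val_div_eq_div_val, Units.val_mk0, Units.val_mk0,
        div_mul_cancel₀ _ (hne a₂ ha₂)]⟩
  obtain ⟨β, hβ⟩ : ∃ β : (𝓞 F ⧸ 𝔮)ˣ,
      (β : 𝓞 F ⧸ 𝔮) * Ideal.Quotient.mk 𝔮 b₂ = Ideal.Quotient.mk 𝔮 b₁ :=
    ⟨Units.mk0 _ (hne b₁ hb₁) / Units.mk0 _ (hne b₂ hb₂), by
      rw [Units.val_div_eq_div_val, Units.val_mk0, Units.val_mk0,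
        div_mul_cancel₀ _ (hne b₂ hb₂)]⟩
  -- `β` is not a `p`-th power
  have hβp : ¬ ∃ z : (𝓞 F ⧸ 𝔮)ˣ, z ^ p = β := by
    rintro ⟨z, hz⟩
    obtain ⟨c, hc⟩ := Ideal.Quotient.mk_surjective (z : 𝓞 F ⧸ 𝔮)
    apply hnb
    refine ⟨b₁, b₂, c, hb₁, hb₂, hbe, ?_⟩
    rw [← Ideal.Quotient.eq_zero_iff_mem, map_sub, map_mul, map_pow, hc, sub_eq_zero, ← hβ,
      ← hz, Units.val_pow_eq_pow_val]
  obtain ⟨j, hj, z, hz⟩ := k_pc_cyclic p α β hβp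
  obtain ⟨c, hc⟩ := Ideal.Quotient.mk_surjective (z : 𝓞 F ⧸ 𝔮)
  refine ⟨j, hj, a₁ * b₁ ^ j, a₂ * b₂ ^ j, c, ?_, ?_, ?_, ?_⟩
  · exact fun h => (h𝔮.mem_or_mem h).elim ha₁ (fun h' => hb₁ (h𝔮.mem_of_pow_mem j h'))
  · exact fun h => (h𝔮.mem_or_mem h).elim ha₂ (fun h' => hb₂ (h𝔮.mem_of_pow_mem j h'))
  · have h1 : (((a₁ * b₁ ^ j : 𝓞 F) : F)) = (a₁ : F) * (b₁ : F) ^ j := by push_cast; rfl
    have h2 : (((a₂ * b₂ ^ j : 𝓞 F) : F)) = (a₂ : F) * (b₂ : F) ^ j := by push_cast; rfl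
    rw [h1, h2, ← hae, ← hbe]
    ring
  · have hz' : (z : 𝓞 F ⧸ 𝔮) ^ p = (α : 𝓞 F ⧸ 𝔮) * (β : 𝓞 F ⧸ 𝔮) ^ j := by
      rw [← Units.val_pow_eq_pow_val, hz, Units.val_mul, Units.val_pow_eq_pow_val]
    rw [← Ideal.Quotient.eq_zero_iff_mem, map_sub, map_mul, map_mul, map_mul, map_pow, map_pow,
      map_pow, hc, sub_eq_zero, ← hα, ← hβ, hz']
    ring

end Fermat.Agent.S14
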