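/-
S14, block K, package K/ProdPow: valuation pigeonhole in the Dedekind domain `𝓞 F`.
If a product of `n` elements lies in `𝔳 ^ (n * k + 1)`, one of the factors lies in `𝔳 ^ (k + 1)`.
-/
import Mathlib
import Fermat.Agent.S14.Interfaces
import Fermat.Agent.S14.KInterfaces
set_option autoImplicit false
open NumberField IsDedekindDomain
namespace Fermat.Agent.S14

/-- In `ℤᵐ⁰`: `exp (-(m + 1)) < x` implies `exp (-m) ≤ x`. -/
theorem k_pp_exp_le {x : WithZero (Multiplicative ℤ)} {m : ℕ}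
    (h : WithZero.exp (-((m + 1 : ℕ) : ℤ)) < x) : WithZero.exp (-(m : ℤ)) ≤ x := by
  have hx : x ≠ 0 := by
    rintro rfl
    exact absurd h (by simp)
  rw [← WithZero.le_log_iff_exp_le hx]
  rw [← WithZero.lt_log_iff_exp_lt hx] at h
  push_cast at h
  omega

/-- In a Dedekind domain: if `a ∉ v ^ (m + 1)` and `b ∉ v ^ (n + 1)` then
`a * b ∉ v ^ (m + n + 1)`. -/
theorem k_pp_mul_notMem {R : Type*} [CommRing R] [IsDedekindDomain R] (v : HeightOneSpectrum R)
    {a b : R} {m n : ℕ} (ha : a ∉ v.asIdeal ^ (m + 1)) (hb : b ∉ v.asIdeal ^ (n + 1)) :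
    a * b ∉ v.asIdeal ^ (m + n + 1) := by
  rw [← v.intValuation_le_pow_iff_mem, not_le] at ha hb ⊢
  have h1 := k_pp_exp_le ha
  have h2 := k_pp_exp_le hb
  rw [map_mul]
  calc WithZero.exp (-((m + n + 1 : ℕ) : ℤ))
      < WithZero.exp (-(m : ℤ)) * WithZero.exp (-(n : ℤ)) := by
        rw [← WithZero.exp_add, WithZero.exp_lt_exp]
        push_cast
        omega
    _ ≤ v.intValuation a * v.intValuation b := mul_le_mul' h1 h2

/-- In a Dedekind domain: if no factor lies in `v ^ (k + 1)`, the product of the `f i`, `i ∈ s`,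
does not lie in `v ^ (#s * k + 1)`. -/
theorem k_pp_prod_notMem {R : Type*} [CommRing R] [IsDedekindDomain R] (v : HeightOneSpectrum R)
    (s : Finset ℕ) (f : ℕ → R) (k : ℕ) (h : ∀ i ∈ s, f i ∉ v.asIdeal ^ (k + 1)) :
    ∏ i ∈ s, f i ∉ v.asIdeal ^ (s.card * k + 1) := by
  induction s using Finset.induction_on with
  | empty =>
    rw [Finset.prod_empty, Finset.card_empty, Nat.zero_mul, Nat.zero_add, pow_one]
    exact fun h1 => v.isPrime.ne_top ((Ideal.eq_top_iff_one _).2 h1)
  | insert a s ha ih =>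
    rw [Finset.prod_insert ha, Finset.card_insert_of_notMem ha]
    have h1 := h a (Finset.mem_insert_self a s)
    have h2 := ih (fun i hi => h i (Finset.mem_insert_of_mem hi))
    have h3 := k_pp_mul_notMem v h1 h2
    have e : (s.card + 1) * k + 1 = k + s.card * k + 1 := by ring
    rw [e]
    exact h3

/-- (ProdPow) Valuation pigeonhole: if a product of `n` elements lies in `𝔳 ^ (n * k + 1)`, one of
the factors lies in `𝔳 ^ (k + 1)`. -/
theorem k_pp_main : k_ProdPowStatement := by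
  intro F _ _ 𝔳 h𝔳 h𝔳0 s f k hprod
  by_contra hcon
  exact k_pp_prod_notMem (⟨𝔳, h𝔳, h𝔳0⟩ : HeightOneSpectrum (𝓞 F)) s f k
    (fun i hi hmem => hcon ⟨i, hi, hmem⟩) hprod

end Fermat.Agent.S14
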