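/-
S14, block K, package K/Red: reduction modulo `𝔪` on the units at `S`.

Main theorem: `k_rd_main : k_UnitAtStatement → k_RedStatement`.

The reduction map is defined through its graph `k_rd_P 𝔪 a u`
("`a = c₁ / c₂` with `c₂` prime to `𝔪` and `c₁ ≡ u * c₂ mod 𝔪`"), which is shown to be the graph of
a surjective homomorphism `k_unitsAt S →* (𝓞 F ⧸ 𝔪)ˣ` whose kernel is `k_congOne 𝔪`.
-/
import Mathlib
import Fermat.Agent.S14.Interfaces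
import Fermat.Agent.S14.KInterfaces

set_option autoImplicit false

open NumberField IsDedekindDomain

namespace Fermat.Agent.S14

/-- The class of `c` is a unit of `𝓞 F ⧸ 𝔪` iff `c` is prime to `𝔪`. -/
theorem k_rd_isUnit_iff {F : Type} [Field F] [NumberField F] (𝔪 : Ideal (𝓞 F)) (c : 𝓞 F) :
    IsUnit (Ideal.Quotient.mk 𝔪 c) ↔ Ideal.span {c} ⊔ 𝔪 = ⊤ := by
  constructor
  · intro h
    obtain ⟨b, hb⟩ := h.exists_right_inv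
    obtain ⟨r, rfl⟩ := Ideal.Quotient.mk_surjective b
    rw [← map_mul, ← map_one (Ideal.Quotient.mk 𝔪), Ideal.Quotient.eq] at hb
    rw [Ideal.eq_top_iff_one]
    have h1 : (1 : 𝓞 F) = c * r - (c * r - 1) := by ring
    rw [h1]
    exact Ideal.sub_mem _
      (Ideal.mem_sup_left (Ideal.mul_mem_right _ _ (Ideal.mem_span_singleton_self c)))
      (Ideal.mem_sup_right hb)
  · intro h
    have h1 : (1 : 𝓞 F) ∈ Ideal.span {c} ⊔ 𝔪 := by rw [h]; trivial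
    obtain ⟨x, hx, m, hm, hxm⟩ := Submodule.mem_sup.mp h1
    obtain ⟨r, rfl⟩ := Ideal.mem_span_singleton'.mp hx
    have h2 : Ideal.Quotient.mk 𝔪 c * Ideal.Quotient.mk 𝔪 r = 1 := by
      have h3 : Ideal.Quotient.mk 𝔪 (r * c + m) = 1 := by rw [hxm, map_one]
      rw [map_add, Ideal.Quotient.eq_zero_iff_mem.mpr hm, add_zero, map_mul] at h3
      rw [mul_comm]
      exact h3
    exact IsUnit.of_mul_eq_one _ h2

/-- If the primes dividing `𝔪 ≠ ⊥` are exactly those of `S`, then `c` is prime to `𝔪` iff `c` lies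
in no prime of `S`. -/
theorem k_rd_coprime_iff {F : Type} [Field F] [NumberField F]
    (S : Finset (HeightOneSpectrum (𝓞 F))) (𝔪 : Ideal (𝓞 F)) (h𝔪 : 𝔪 ≠ ⊥)
    (hS : ∀ v : HeightOneSpectrum (𝓞 F), 𝔪 ≤ v.asIdeal ↔ v ∈ S) (c : 𝓞 F) :
    Ideal.span {c} ⊔ 𝔪 = ⊤ ↔ ∀ v ∈ S, c ∉ v.asIdeal := by
  constructor
  · intro h v hv hc
    have hle : Ideal.span {c} ⊔ 𝔪 ≤ v.asIdeal :=
      sup_le ((Ideal.span_singleton_le_iff_mem _).mpr hc) ((hS v).mpr hv)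
    rw [h] at hle
    exact v.isPrime.ne_top (top_le_iff.mp hle)
  · intro h
    by_contra hne
    obtain ⟨M, hM, hle⟩ := Ideal.exists_le_maximal _ hne
    have hM0 : M ≠ ⊥ := by
      rintro rfl
      exact h𝔪 (le_bot_iff.mp (le_trans le_sup_right hle))
    have hv : (⟨M, hM.isPrime, hM0⟩ : HeightOneSpectrum (𝓞 F)) ∈ S :=
      (hS ⟨M, hM.isPrime, hM0⟩).mp (le_trans le_sup_right hle)
    exact h _ hv (hle (Ideal.mem_sup_left (Ideal.mem_span_singleton_self c)))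

/-- Coprime numerator and denominator: an element which is a unit at every `v ∈ S` is a quotient of
two integers lying in no prime of `S`. -/
theorem k_rd_exists_rep (hU : k_UnitAtStatement) {F : Type} [Field F] [NumberField F]
    (S : Finset (HeightOneSpectrum (𝓞 F))) (a : Fˣ) (ha : a ∈ k_unitsAt S) :
    ∃ a₁ a₂ : 𝓞 F, (∀ v ∈ S, a₁ ∉ v.asIdeal) ∧ (∀ v ∈ S, a₂ ∉ v.asIdeal) ∧
      (a : F) * (a₂ : F) = (a₁ : F) := by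
  classical
  rcases S.eq_empty_or_nonempty with rfl | ⟨v₀, _⟩
  · exact ⟨0, 0, by simp, by simp, by simp⟩
  -- the denominator ideal of `a`
  let 𝔡 : Ideal (𝓞 F) :=
    { carrier := {d | ∃ n : 𝓞 F, (a : F) * (d : F) = (n : F)}
      add_mem' := by
        rintro x y ⟨n, hn⟩ ⟨m, hm⟩
        exact ⟨n + m, by push_cast; rw [mul_add, hn, hm]⟩
      zero_mem' := ⟨0, by simp⟩
      smul_mem' := by
        rintro r x ⟨n, hn⟩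
        exact ⟨r * n, by rw [smul_eq_mul]; push_cast; linear_combination (r : F) * hn⟩ }
  have hunit : ∀ v ∈ S, k_UnitAt v.asIdeal (a : F) := fun v hv => (hU F v a).mp (ha v hv)
  have hnot : ¬ ((𝔡 : Set (𝓞 F)) ⊆
      ⋃ v ∈ (S : Set (HeightOneSpectrum (𝓞 F))), (v.asIdeal : Set (𝓞 F))) := by
    intro hsub
    rw [Ideal.subset_union_prime (f := fun v : HeightOneSpectrum (𝓞 F) => v.asIdeal) v₀ v₀
      (fun v _ _ _ => v.isPrime)] at hsub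
    obtain ⟨v, hv, hle⟩ := hsub
    obtain ⟨b₁, b₂, _, hb₂, hb⟩ := hunit v hv
    exact hb₂ (hle ⟨b₁, hb⟩)
  obtain ⟨a₂, ⟨a₁, he⟩, ha₂⟩ := Set.not_subset.mp hnot
  have ha₂' : ∀ v ∈ S, a₂ ∉ v.asIdeal := by
    intro v hv hmem
    exact ha₂ (Set.mem_iUnion₂.mpr ⟨v, hv, hmem⟩)
  refine ⟨a₁, a₂, ?_, ha₂', he⟩
  intro v hv hmem
  obtain ⟨b₁, b₂, hb₁, hb₂, hb⟩ := hunit v hv
  have key : a₁ * b₂ = b₁ * a₂ := by
    apply RingOfIntegers.coe_injective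
    push_cast
    linear_combination (a₂ : F) * hb - (b₂ : F) * he
  have h1 : b₁ * a₂ ∈ v.asIdeal := by
    rw [← key]
    exact Ideal.mul_mem_right _ _ hmem
  rcases v.isPrime.mem_or_mem h1 with h2 | h2
  · exact hb₁ h2
  · exact ha₂' v hv h2

/-- The graph of the reduction map: `a = c₁ / c₂` with `c₂` prime to `𝔪` and
`c₁ ≡ u * c₂ mod 𝔪`. -/
def k_rd_P {F : Type} [Field F] [NumberField F] (𝔪 : Ideal (𝓞 F)) (a : Fˣ)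
    (u : (𝓞 F ⧸ 𝔪)ˣ) : Prop :=
  ∃ c₁ c₂ : 𝓞 F, Ideal.span {c₂} ⊔ 𝔪 = ⊤ ∧ (a : F) * (c₂ : F) = (c₁ : F) ∧
    Ideal.Quotient.mk 𝔪 c₁ = (u : 𝓞 F ⧸ 𝔪) * Ideal.Quotient.mk 𝔪 c₂

theorem k_rd_P_unique {F : Type} [Field F] [NumberField F] (𝔪 : Ideal (𝓞 F)) (a : Fˣ)
    (u u' : (𝓞 F ⧸ 𝔪)ˣ) (h : k_rd_P 𝔪 a u) (h' : k_rd_P 𝔪 a u') : u = u' := by
  obtain ⟨c₁, c₂, hc, he, hm⟩ := h
  obtain ⟨d₁, d₂, hd, hf, hn⟩ := h'
  have hcu := (k_rd_isUnit_iff 𝔪 c₂).mpr hc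
  have hdu := (k_rd_isUnit_iff 𝔪 d₂).mpr hd
  have key : c₁ * d₂ = d₁ * c₂ := by
    apply RingOfIntegers.coe_injective
    push_cast
    linear_combination (c₂ : F) * hf - (d₂ : F) * he
  have key2 := congrArg (Ideal.Quotient.mk 𝔪) key
  rw [map_mul, map_mul, hm, hn] at key2
  apply Units.ext
  have h3 : (u : 𝓞 F ⧸ 𝔪) * (Ideal.Quotient.mk 𝔪 c₂ * Ideal.Quotient.mk 𝔪 d₂) =
      (u' : 𝓞 F ⧸ 𝔪) * (Ideal.Quotient.mk 𝔪 c₂ * Ideal.Quotient.mk 𝔪 d₂) := by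
    rw [← mul_assoc, key2]
    ring
  exact (hcu.mul hdu).mul_right_cancel h3

theorem k_rd_P_exists (hU : k_UnitAtStatement) {F : Type} [Field F] [NumberField F]
    (S : Finset (HeightOneSpectrum (𝓞 F))) (𝔪 : Ideal (𝓞 F)) (h𝔪 : 𝔪 ≠ ⊥)
    (hS : ∀ v : HeightOneSpectrum (𝓞 F), 𝔪 ≤ v.asIdeal ↔ v ∈ S) (a : Fˣ)
    (ha : a ∈ k_unitsAt S) : ∃ u : (𝓞 F ⧸ 𝔪)ˣ, k_rd_P 𝔪 a u := by
  obtain ⟨a₁, a₂, h1, h2, he⟩ := k_rd_exists_rep hU S a ha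
  have hc1 := (k_rd_coprime_iff S 𝔪 h𝔪 hS a₁).mpr h1
  have hc2 := (k_rd_coprime_iff S 𝔪 h𝔪 hS a₂).mpr h2
  obtain ⟨w₁, hw₁⟩ := (k_rd_isUnit_iff 𝔪 a₁).mpr hc1
  obtain ⟨w₂, hw₂⟩ := (k_rd_isUnit_iff 𝔪 a₂).mpr hc2
  refine ⟨w₁ * w₂⁻¹, a₁, a₂, hc2, he, ?_⟩
  rw [← hw₁, ← hw₂, Units.val_mul, mul_assoc, Units.inv_mul, mul_one]

theorem k_rd_P_one {F : Type} [Field F] [NumberField F] (𝔪 : Ideal (𝓞 F)) :
    k_rd_P 𝔪 1 1 :=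
  ⟨1, 1, by simp, by simp, by simp⟩

theorem k_rd_P_mul {F : Type} [Field F] [NumberField F] (𝔪 : Ideal (𝓞 F)) (a b : Fˣ)
    (u w : (𝓞 F ⧸ 𝔪)ˣ) (h : k_rd_P 𝔪 a u) (h' : k_rd_P 𝔪 b w) :
    k_rd_P 𝔪 (a * b) (u * w) := by
  obtain ⟨c₁, c₂, hc, he, hm⟩ := h
  obtain ⟨d₁, d₂, hd, hf, hn⟩ := h'
  have hcu := (k_rd_isUnit_iff 𝔪 c₂).mpr hc
  have hdu := (k_rd_isUnit_iff 𝔪 d₂).mpr hd
  refine ⟨c₁ * d₁, c₂ * d₂, ?_, ?_, ?_⟩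
  · rw [← k_rd_isUnit_iff, map_mul]
    exact hcu.mul hdu
  · push_cast
    linear_combination ((b : F) * (d₂ : F)) * he + (c₁ : F) * hf
  · rw [map_mul, map_mul, hm, hn, Units.val_mul]
    ring

theorem k_rd_P_surj (hU : k_UnitAtStatement) {F : Type} [Field F] [NumberField F]
    (S : Finset (HeightOneSpectrum (𝓞 F))) (𝔪 : Ideal (𝓞 F)) (h𝔪 : 𝔪 ≠ ⊥)
    (hS : ∀ v : HeightOneSpectrum (𝓞 F), 𝔪 ≤ v.asIdeal ↔ v ∈ S) (u : (𝓞 F ⧸ 𝔪)ˣ) :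
    ∃ a : Fˣ, a ∈ k_unitsAt S ∧ k_rd_P 𝔪 a u := by
  obtain ⟨c, hc, hc0⟩ : ∃ c : 𝓞 F, Ideal.Quotient.mk 𝔪 c = (u : 𝓞 F ⧸ 𝔪) ∧ c ≠ 0 := by
    obtain ⟨c, hc⟩ := Ideal.Quotient.mk_surjective (u : 𝓞 F ⧸ 𝔪)
    by_cases h0 : c = 0
    · obtain ⟨m, hm, hm0⟩ := Submodule.exists_mem_ne_zero_of_ne_bot h𝔪
      refine ⟨m, ?_, hm0⟩
      rw [← hc, h0, map_zero]
      exact Ideal.Quotient.eq_zero_iff_mem.mpr hm
    · exact ⟨c, hc, h0⟩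
  have hcF : (c : F) ≠ 0 := fun h => hc0 (RingOfIntegers.coe_eq_zero_iff.mp h)
  have hcop : Ideal.span {c} ⊔ 𝔪 = ⊤ := by
    rw [← k_rd_isUnit_iff, hc]
    exact u.isUnit
  have hnot := (k_rd_coprime_iff S 𝔪 h𝔪 hS c).mp hcop
  refine ⟨Units.mk0 (c : F) hcF, ?_, c, 1, by simp, by simp, by simp [hc]⟩
  intro v hv
  refine (hU F v _).mpr ⟨c, 1, hnot v hv, ?_, by simp⟩
  exact fun h1 => v.isPrime.ne_top ((Ideal.eq_top_iff_one _).mpr h1)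

theorem k_rd_P_ker {F : Type} [Field F] [NumberField F] (𝔪 : Ideal (𝓞 F)) (a : Fˣ) :
    k_rd_P 𝔪 a 1 ↔ a ∈ k_congOne 𝔪 := by
  constructor
  · rintro ⟨c₁, c₂, hc, he, hm⟩
    rw [Units.val_one, one_mul] at hm
    exact ⟨c₁, c₂, hc, Ideal.Quotient.eq.mp hm, he⟩
  · rintro ⟨c₁, c₂, hc, hm, he⟩
    refine ⟨c₁, c₂, hc, he, ?_⟩
    rw [Units.val_one, one_mul]
    exact Ideal.Quotient.eq.mpr hm

/-- (Red) Reduction modulo `𝔪` on the units at `S`. -/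
theorem k_rd_main : k_UnitAtStatement → k_RedStatement := by
  intro hU F _ _ S 𝔪 h𝔪 hS
  have hex : ∀ a : k_unitsAt S, ∃ u : (𝓞 F ⧸ 𝔪)ˣ, k_rd_P 𝔪 (a : Fˣ) u :=
    fun a => k_rd_P_exists hU S 𝔪 h𝔪 hS a a.2
  choose f hf using hex
  have hiff : ∀ (a : k_unitsAt S) (u : (𝓞 F ⧸ 𝔪)ˣ), f a = u ↔ k_rd_P 𝔪 (a : Fˣ) u :=
    fun a u => ⟨fun h => h ▸ hf a, fun h => k_rd_P_unique 𝔪 _ _ _ (hf a) h⟩
  refine ⟨{ toFun := f, map_one' := ?_, map_mul' := ?_ }, ?_, ?_⟩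
  · exact (hiff 1 1).mpr (k_rd_P_one 𝔪)
  · intro a b
    exact (hiff (a * b) (f a * f b)).mpr (k_rd_P_mul 𝔪 _ _ _ _ (hf a) (hf b))
  · intro u
    obtain ⟨a, ha, hP⟩ := k_rd_P_surj hU S 𝔪 h𝔪 hS u
    exact ⟨⟨a, ha⟩, (hiff ⟨a, ha⟩ u).mpr hP⟩
  · intro a
    exact (hiff a 1).trans (k_rd_P_ker 𝔪 a)

end Fermat.Agent.S14
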