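/-
S14, block K, package K/RootCong.

`k_rc_main : k_ProdPowStatement → k_RootCongStatement`:
if `x ^ p ≡ 1` modulo `𝔳 * (1 - ζ) ^ p` then `x ≡ ζ ^ i` modulo `𝔳 ^ (v(1 - ζ) + 1)` for some `i < p`.
-/
import Mathlib
import Fermat.Agent.S14.Interfaces
import Fermat.Agent.S14.KInterfaces

set_option autoImplicit false

open NumberField IsDedekindDomain

namespace Fermat.Agent.S14

/-- The `n`-th roots of unity in a domain are the powers `ζ ^ i`, `i < n`, of a primitive `n`-th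
root of unity `ζ`. -/
theorem k_rc_nthRootsFinset_eq {R : Type} [CommRing R] [IsDomain R] [DecidableEq R] {ζ : R}
    {n : ℕ} (hpos : 0 < n) (h : IsPrimitiveRoot ζ n) :
    Polynomial.nthRootsFinset n (1 : R) = (Finset.range n).image (fun i => ζ ^ i) := by
  symm
  apply Finset.eq_of_subset_of_card_le
  · intro y hy
    rw [Finset.mem_image] at hy
    obtain ⟨i, -, rfl⟩ := hy
    rw [Polynomial.mem_nthRootsFinset hpos, ← pow_mul, mul_comm, pow_mul, h.pow_eq_one, one_pow]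
  · rw [h.card_nthRootsFinset, Finset.card_image_of_injOn, Finset.card_range]
    intro i hi j hj hij
    exact h.pow_inj (Finset.mem_range.mp hi) (Finset.mem_range.mp hj) hij

/-- `x ^ n - 1 = ∏_{i < n} (x - ζ ^ i)` for a primitive `n`-th root of unity `ζ` in a domain. -/
theorem k_rc_factor {R : Type} [CommRing R] [IsDomain R] {ζ : R} {n : ℕ}
    (hpos : 0 < n) (h : IsPrimitiveRoot ζ n) (x : R) :
    x ^ n - 1 = ∏ i ∈ Finset.range n, (x - ζ ^ i) := by
  classical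
  have h1 := h.pow_sub_pow_eq_prod_sub_mul x 1 hpos
  rw [one_pow] at h1
  rw [h1, k_rc_nthRootsFinset_eq hpos h, Finset.prod_image]
  · simp
  · intro i hi j hj hij
    exact h.pow_inj (Finset.mem_range.mp hi) (Finset.mem_range.mp hj) hij

/-- A nonzero element of `𝓞 F` has an exact exponent at a prime `𝔳`. -/
theorem k_rc_exists_exact {F : Type} [Field F] [NumberField F] (𝔳 : Ideal (𝓞 F))
    (h𝔳 : 𝔳.IsPrime) (lam : 𝓞 F) (hlam : lam ≠ 0) :
    ∃ k : ℕ, lam ∈ 𝔳 ^ k ∧ lam ∉ 𝔳 ^ (k + 1) := by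
  classical
  have hex : ∃ n : ℕ, lam ∉ 𝔳 ^ n := by
    by_contra hcon
    have hmem : lam ∈ (⨅ i : ℕ, 𝔳 ^ i) := by
      rw [Ideal.mem_iInf]
      intro n
      by_contra hn
      exact hcon ⟨n, hn⟩
    rw [Ideal.iInf_pow_eq_bot_of_isDomain 𝔳 h𝔳.ne_top] at hmem
    exact hlam (by simpa using hmem)
  have hn := Nat.find_spec hex
  have hmin := fun m => Nat.find_min hex (m := m)
  have hpos : Nat.find hex ≠ 0 := by
    intro h0
    rw [h0] at hn
    simp at hn
  obtain ⟨k, hk⟩ := Nat.exists_eq_succ_of_ne_zero hpos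
  refine ⟨k, ?_, ?_⟩
  · by_contra hc
    exact hmin k (by omega) hc
  · rw [← Nat.succ_eq_add_one, ← hk]
    exact hn

/-- (RootCong) If `x ^ p ≡ 1` modulo `𝔳 * (1 - ζ) ^ p` then `x ≡ ζ ^ i` modulo
`𝔳 ^ (v(1 - ζ) + 1)` for some `i < p`. -/
theorem k_rc_main : k_ProdPowStatement → k_RootCongStatement := by
  intro hPP p _ F _ _ ζ hζ zeta lam hzeta hlam 𝔳 h𝔳 h𝔳0 x hx
  have hp : p.Prime := Fact.out
  have hzeta' : IsPrimitiveRoot zeta p := by
    apply IsPrimitiveRoot.of_map_of_injective (f := algebraMap (𝓞 F) F)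
    · show IsPrimitiveRoot ((zeta : F)) p
      rw [hzeta]
      exact hζ
    · exact RingOfIntegers.coe_injective
  have hlam' : lam = 1 - zeta := by
    apply RingOfIntegers.ext
    rw [hlam, ← hzeta]
    simp
  have hlam0 : lam ≠ 0 := by
    rw [hlam']
    intro h
    exact hzeta'.ne_one hp.one_lt (sub_eq_zero.mp h).symm
  obtain ⟨k, hk1, hk2⟩ := k_rc_exists_exact 𝔳 h𝔳 lam hlam0
  have hle : 𝔳 * Ideal.span {lam} ^ p ≤ 𝔳 ^ (p * k + 1) := by
    have h1 : Ideal.span {lam} ≤ 𝔳 ^ k := by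
      rw [Ideal.span_singleton_le_iff_mem]
      exact hk1
    have h2 : Ideal.span {lam} ^ p ≤ 𝔳 ^ (p * k) := by
      calc Ideal.span {lam} ^ p ≤ (𝔳 ^ k) ^ p := Ideal.pow_right_mono h1 p
        _ = 𝔳 ^ (p * k) := by rw [← pow_mul, mul_comm]
    rw [pow_succ']
    exact Ideal.mul_mono_right h2
  have hprod : ∏ i ∈ Finset.range p, (x - zeta ^ i) ∈ 𝔳 ^ ((Finset.range p).card * k + 1) := by
    rw [Finset.card_range, ← k_rc_factor hp.pos hzeta' x]
    exact hle hx
  obtain ⟨i, hi, hxi⟩ := hPP F 𝔳 h𝔳 h𝔳0 (Finset.range p) (fun i => x - zeta ^ i) k hprod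
  refine ⟨i, Finset.mem_range.mp hi, fun n hn => ?_⟩
  have hnk : n ≤ k := by
    by_contra hc
    exact hk2 (Ideal.pow_le_pow_right (Nat.lt_of_not_le hc) hn)
  exact Ideal.pow_le_pow_right (by omega) hxi

end Fermat.Agent.S14
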