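/-
S14, block K, package SUnitFrac (twin L): an `S`-unit is a quotient of two integral `S`-units.
Class-number trick: `v ^ h` is principal for every prime `v`.
-/
import Mathlib
import Fermat.Agent.S14.Interfaces
import Fermat.Agent.S14.KInterfaces

set_option autoImplicit false

open NumberField IsDedekindDomain

namespace Fermat.Agent.S14

/-- The class-number power of a prime ideal is principal. -/
theorem k_sfl_exists_gen (F : Type) [Field F] [NumberField F] (v : HeightOneSpectrum (𝓞 F)) :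
    ∃ a : 𝓞 F, a ≠ 0 ∧ v.asIdeal ^ (Fintype.card (ClassGroup (𝓞 F))) = Ideal.span {a} := by
  have hI : v.asIdeal ∈ nonZeroDivisors (Ideal (𝓞 F)) :=
    mem_nonZeroDivisors_iff_ne_zero.mpr v.ne_bot
  have hIh : v.asIdeal ^ (Fintype.card (ClassGroup (𝓞 F))) ∈ nonZeroDivisors (Ideal (𝓞 F)) :=
    pow_mem hI _
  have h1 : ClassGroup.mk0 (⟨v.asIdeal ^ (Fintype.card (ClassGroup (𝓞 F))), hIh⟩ :
      nonZeroDivisors (Ideal (𝓞 F))) = 1 := by
    have h2 : (⟨v.asIdeal ^ (Fintype.card (ClassGroup (𝓞 F))), hIh⟩ :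
        nonZeroDivisors (Ideal (𝓞 F))) = ⟨v.asIdeal, hI⟩ ^ (Fintype.card (ClassGroup (𝓞 F))) :=
      rfl
    rw [h2, map_pow, pow_card_eq_one]
  rw [ClassGroup.mk0_eq_one_iff] at h1
  obtain ⟨a, ha⟩ := h1.principal
  refine ⟨a, ?_, ha⟩
  rintro rfl
  have h3 : v.asIdeal ^ (Fintype.card (ClassGroup (𝓞 F))) = ⊥ := by
    rw [ha]
    simp
  exact v.ne_bot (pow_eq_zero_iff (Fintype.card_ne_zero) |>.mp h3)

/-- A nonzero element of `𝓞 F` lying in no prime outside `S` generates an ideal supported on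
`S`. -/
theorem k_sfl_span_eq_prod (F : Type) [Field F] [NumberField F]
    (S : Finset (HeightOneSpectrum (𝓞 F))) (x : 𝓞 F) (hx : x ≠ 0)
    (hS : ∀ w : HeightOneSpectrum (𝓞 F), w ∉ S → x ∉ w.asIdeal) :
    Ideal.span {x} = ∏ v ∈ S, v.asIdeal ^
      (Associates.mk v.asIdeal).count (Associates.mk (Ideal.span {x})).factors := by
  have hI : Ideal.span {x} ≠ (0 : Ideal (𝓞 F)) := by
    rw [Ne, Ideal.zero_eq_bot, Ideal.span_singleton_eq_bot]
    exact hx
  have h1 := Ideal.finprod_heightOneSpectrum_factorization hI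
  rw [finprod_eq_prod_of_mulSupport_subset (s := S)] at h1
  · exact h1.symm
  · intro w hw
    rw [Function.mem_mulSupport] at hw
    by_contra hwS
    apply hw
    have hcount : (Associates.mk w.asIdeal).count (Associates.mk (Ideal.span {x})).factors = 0 := by
      by_contra hne
      have hdvd := (Associates.count_ne_zero_iff_dvd hI w.irreducible).mp hne
      exact hS w hwS (Ideal.dvd_span_singleton.mp hdvd)
    rw [HeightOneSpectrum.maxPowDividing, hcount, pow_zero]

/-- (SUnitFrac) An `S`-unit is a quotient of two integral `S`-units. -/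
theorem k_sfl_main : k_SUnitFracStatement := by
  intro F _ _ S u hu
  classical
  have hpos : 0 < Fintype.card (ClassGroup (𝓞 F)) := Fintype.card_pos
  choose π hπ0 hπ using k_sfl_exists_gen F
  -- exponents of the denominator
  let a : HeightOneSpectrum (𝓞 F) → ℕ := fun v => (WithZero.log (v.valuation F (u : F))).toNat
  have hu₂span : Ideal.span {∏ v ∈ S, π v ^ a v}
      = ∏ v ∈ S, v.asIdeal ^ (Fintype.card (ClassGroup (𝓞 F)) * a v) := by
    rw [← Ideal.prod_span_singleton]
    refine Finset.prod_congr rfl fun v _ => ?_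
    rw [← Ideal.span_singleton_pow, ← hπ v, ← pow_mul]
  have hu₂0 : (∏ v ∈ S, π v ^ a v) ≠ 0 :=
    Finset.prod_ne_zero_iff.mpr fun v _ => pow_ne_zero _ (hπ0 v)
  -- the denominator is a unit outside `S`
  have hu₂w : ∀ w : HeightOneSpectrum (𝓞 F), w ∉ S → (∏ v ∈ S, π v ^ a v) ∉ w.asIdeal := by
    intro w hwS hmem
    have h1 : ∏ v ∈ S, v.asIdeal ^ (Fintype.card (ClassGroup (𝓞 F)) * a v) ≤ w.asIdeal := by
      rw [← hu₂span, Ideal.span_singleton_le_iff_mem]
      exact hmem
    obtain ⟨v, hvS, hv⟩ := (w.isPrime.prod_le).mp h1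
    have h2 : v.asIdeal ≤ w.asIdeal := w.isPrime.le_of_pow_le hv
    have h3 : v.asIdeal = w.asIdeal := v.isMaximal.eq_of_le w.isPrime.ne_top h2
    exact hwS (HeightOneSpectrum.ext h3 ▸ hvS)
  -- `u * u₂` is integral
  have hval_le : ∀ w : HeightOneSpectrum (𝓞 F),
      w.valuation F ((u : F) * algebraMap (𝓞 F) F (∏ v ∈ S, π v ^ a v)) ≤ 1 := by
    intro w
    rw [map_mul]
    by_cases hw : w ∈ S
    · have hune : w.valuation F (u : F) ≠ 0 := (Valuation.ne_zero_iff _).mpr (Units.ne_zero u)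
      have h1 : w.valuation F (algebraMap (𝓞 F) F (∏ v ∈ S, π v ^ a v))
          ≤ WithZero.exp (-((Fintype.card (ClassGroup (𝓞 F)) * a w : ℕ) : ℤ)) := by
        rw [HeightOneSpectrum.valuation_of_algebraMap,
          HeightOneSpectrum.intValuation_le_pow_iff_mem]
        have h2 : Ideal.span {∏ v ∈ S, π v ^ a v}
            ≤ w.asIdeal ^ (Fintype.card (ClassGroup (𝓞 F)) * a w) := by
          rw [hu₂span]
          exact Ideal.prod_le_inf.trans (Finset.inf_le hw)
        exact h2 (Ideal.mem_span_singleton_self _)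
      have h3 : w.valuation F (u : F)
          = WithZero.exp (WithZero.log (w.valuation F (u : F))) := (WithZero.exp_log hune).symm
      have h4 : a w ≤ Fintype.card (ClassGroup (𝓞 F)) * a w := Nat.le_mul_of_pos_left _ hpos
      have h5 : WithZero.log (w.valuation F (u : F)) ≤ (a w : ℤ) := Int.self_le_toNat _
      calc w.valuation F (u : F) * w.valuation F (algebraMap (𝓞 F) F (∏ v ∈ S, π v ^ a v))
          ≤ WithZero.exp (WithZero.log (w.valuation F (u : F)))
            * WithZero.exp (-((Fintype.card (ClassGroup (𝓞 F)) * a w : ℕ) : ℤ)) := by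
            rw [← h3]
            exact mul_le_mul_right h1 _
        _ = WithZero.exp (WithZero.log (w.valuation F (u : F))
            + -((Fintype.card (ClassGroup (𝓞 F)) * a w : ℕ) : ℤ)) := (WithZero.exp_add _ _).symm
        _ ≤ WithZero.exp 0 := by
            rw [WithZero.exp_le_exp]
            have h6 : (a w : ℤ) ≤ ((Fintype.card (ClassGroup (𝓞 F)) * a w : ℕ) : ℤ) := by
              exact_mod_cast h4
            omega
        _ = 1 := WithZero.exp_zero
    · have h1 : w.valuation F (u : F) = 1 := hu w (by simpa using hw)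
      rw [h1, one_mul]
      exact w.valuation_le_one _
  obtain ⟨u₁, hu₁⟩ := HeightOneSpectrum.mem_integers_of_valuation_le_one F _ hval_le
  have hu₂F : algebraMap (𝓞 F) F (∏ v ∈ S, π v ^ a v) ≠ 0 := fun h0 =>
    hu₂0 (FaithfulSMul.algebraMap_injective (𝓞 F) F (h0.trans (map_zero _).symm))
  have hu₁0 : u₁ ≠ 0 := by
    rintro rfl
    rw [map_zero] at hu₁
    exact mul_ne_zero (Units.ne_zero u) hu₂F hu₁.symm
  -- `u₁` is a unit outside `S`
  have hu₁w : ∀ w : HeightOneSpectrum (𝓞 F), w ∉ S → u₁ ∉ w.asIdeal := by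
    intro w hwS
    rw [← HeightOneSpectrum.valuation_eq_one_iff_notMem (K := F), hu₁, map_mul,
      hu w (by simpa using hwS), one_mul, HeightOneSpectrum.valuation_eq_one_iff_notMem]
    exact hu₂w w hwS
  refine ⟨u₁, ∏ v ∈ S, π v ^ a v,
    fun v => (Associates.mk v.asIdeal).count (Associates.mk (Ideal.span {u₁})).factors,
    fun v => Fintype.card (ClassGroup (𝓞 F)) * a v, hu₁0, hu₂0, hu₁.symm, ?_, hu₂span⟩
  exact k_sfl_span_eq_prod F S u₁ hu₁0 hu₁w

end Fermat.Agent.S14
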