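/-
S14, block K, package K/SUnitIndex (plan K1): `[F_S : F_S ∩ Fˣ^p] = p ^ (#S + r + 1)`,
deduced from Dirichlet's `S`-unit theorem (rank form) and the index formula
`[A : A^p] = p ^ rank(A) * #A[p]` for finitely generated abelian groups.
-/
import Mathlib
import Fermat.Agent.S14.Interfaces
import Fermat.Agent.S14.KInterfaces
set_option autoImplicit false
open NumberField IsDedekindDomain
namespace Fermat.Agent.S14

/-- In `ℤᵐ⁰`, `x ^ p = 1` with `p ≠ 0` forces `x = 1`. -/
theorem k_su_val_eq_one {p : ℕ} (hp : p ≠ 0) (x : WithZero (Multiplicative ℤ)) (h : x ^ p = 1) :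
    x = 1 :=
  (pow_eq_one_iff_of_nonneg zero_le hp).mp h

/-- If the `p`-th power of `b` is an `S`-unit then so is `b`. -/
theorem k_su_mem_of_pow_mem {p : ℕ} (hp : p ≠ 0) {F : Type} [Field F] [NumberField F]
    (S : Set (HeightOneSpectrum (𝓞 F))) (b : Fˣ) (h : b ^ p ∈ S.unit F) : b ∈ S.unit F := by
  intro v hv
  have h1 : v.valuation F ((b ^ p : Fˣ) : F) = 1 := h v hv
  rw [Units.val_pow_eq_pow_val, map_pow] at h1
  exact k_su_val_eq_one hp _ h1

/-- The `p`-th powers of `Fˣ` lying in the `S`-units are exactly the `p`-th powers of `S`-units. -/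
theorem k_su_subgroupOf_eq {p : ℕ} (hp : p ≠ 0) {F : Type} [Field F] [NumberField F]
    (S : Set (HeightOneSpectrum (𝓞 F))) :
    (k_pow p F).subgroupOf (S.unit F) = (powMonoidHom p : S.unit F →* S.unit F).range := by
  ext a
  rw [Subgroup.mem_subgroupOf, MonoidHom.mem_range]
  constructor
  · rintro ⟨b, hb⟩
    have hb' : b ^ p = (a : Fˣ) := hb
    have hbS : b ∈ S.unit F := k_su_mem_of_pow_mem hp S b (hb' ▸ a.2)
    exact ⟨⟨b, hbS⟩, Subtype.ext hb'⟩
  · rintro ⟨b, rfl⟩
    exact ⟨(b : Fˣ), rfl⟩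

/-- The `p`-torsion of the `S`-units is the group of `p`-th roots of unity of `F`. -/
noncomputable def k_su_torsionEquiv {p : ℕ} (hp : p ≠ 0) {F : Type} [Field F] [NumberField F]
    (S : Set (HeightOneSpectrum (𝓞 F))) :
    {a : S.unit F // a ^ p = 1} ≃ rootsOfUnity p F where
  toFun a := ⟨((a : S.unit F) : Fˣ), (mem_rootsOfUnity p _).mpr (congrArg Subtype.val a.2)⟩
  invFun u := ⟨⟨(u : Fˣ), k_su_mem_of_pow_mem hp S (u : Fˣ) (by
      rw [(mem_rootsOfUnity p _).mp u.2]; exact one_mem _)⟩,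
    Subtype.ext ((mem_rootsOfUnity p _).mp u.2)⟩
  left_inv _ := rfl
  right_inv _ := rfl

/-- The `S`-units contain exactly `p` elements of order dividing `p` (if `ζ_p ∈ F`). -/
theorem k_su_card_torsion {p : ℕ} (hp : p ≠ 0) {F : Type} [Field F] [NumberField F] {ζ : F}
    (hζ : IsPrimitiveRoot ζ p) (S : Set (HeightOneSpectrum (𝓞 F))) :
    Nat.card {a : S.unit F // a ^ p = 1} = p := by
  have : NeZero p := ⟨hp⟩
  rw [Nat.card_congr (k_su_torsionEquiv hp S)]
  exact hζ.card_rootsOfUnity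

/-- (SUnitIndex, plan K1) `[F_S : F_S ∩ Fˣ^p] = p ^ (#S + r + 1)`. -/
theorem k_su_main : SUnitRankStatement → k_AbIndexStatement → k_SUnitIndexStatement := by
  intro hR hA p _ F _ _ ζ hζ S
  have hp : p ≠ 0 := (Fact.out : p.Prime).ne_zero
  obtain ⟨hfin, hrank⟩ := hR F S
  have h1 := hA p ((S : Set (HeightOneSpectrum (𝓞 F))).unit F) hfin
  rw [Subgroup.relIndex, k_su_subgroupOf_eq hp, h1, hrank, k_su_card_torsion hp hζ]
  ring

end Fermat.Agent.S14
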