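/-
S14, block K, package SplitP (twin Z): splitting at the primes of `S` (plan item K5).
`N = F(y)`, `y ^ p = x₀`, `b ∉ 𝔳`, `x₀ - b ^ p ∈ 𝔳 * (1 - ζ) ^ p`  ⟹  `𝔳` splits completely in `N`.

Proof: `N / F` is Galois with `τ y = ζ y`.  If `𝔳` does not split completely there is a unique
prime `𝔙` of `N` above `𝔳`; it is stable under `τ`.  Let `k` be the exact exponent of `𝔙` in
`L = 1 - ζ`.  Then `∏_{i < p} (y - ζ ^ i b) = x₀ - b ^ p ∈ 𝔙 ^ (p k + 1)`, so some factor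
`y - ζ ^ i b` lies in `𝔙 ^ (k + 1)`; applying `τ` and subtracting `ζ (y - ζ ^ i b)` gives
`ζ ^ i b (1 - ζ) ∈ 𝔙 ^ (k + 1)`, hence `1 - ζ ∈ 𝔙 ^ (k + 1)`: contradiction.
-/
import Mathlib
import Fermat.Agent.S14.Interfaces
import Fermat.Agent.S14.KInterfaces

set_option autoImplicit false

open NumberField IsDedekindDomain

open scoped Pointwise

namespace Fermat.Agent.S14

/-- Exact exponent of a proper ideal in a nonzero element of a noetherian domain. -/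
theorem kzsplitp_exact_exp {R : Type} [CommRing R] [IsDomain R] [IsNoetherianRing R]
    (𝔙 : Ideal R) (h𝔙 : 𝔙 ≠ ⊤) (L : R) (hL : L ≠ 0) :
    ∃ k : ℕ, L ∈ 𝔙 ^ k ∧ L ∉ 𝔙 ^ (k + 1) := by
  classical
  have hex : ∃ n : ℕ, L ∉ 𝔙 ^ n := by
    by_contra hcon
    have hall : ∀ n : ℕ, L ∈ 𝔙 ^ n := fun n => by
      by_contra hn
      exact hcon ⟨n, hn⟩
    have hmem : L ∈ (⨅ i : ℕ, 𝔙 ^ i) := by
      rw [Ideal.mem_iInf]
      exact hall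
    rw [Ideal.iInf_pow_eq_bot_of_isDomain 𝔙 h𝔙] at hmem
    exact hL (by simpa using hmem)
  have hspec := Nat.find_spec hex
  obtain ⟨k, hk⟩ : ∃ k, Nat.find hex = k + 1 := by
    refine Nat.exists_eq_succ_of_ne_zero ?_
    intro h0
    rw [h0] at hspec
    exact hspec (by simp)
  refine ⟨k, ?_, ?_⟩
  · by_contra hk'
    exact Nat.find_min hex (by omega : k < Nat.find hex) hk'
  · rw [← hk]
    exact hspec

/-- Core computation: if a ring endomorphism `σ` stabilises the prime `𝔙`, fixes `Z` and `B`,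
maps `Y` to `Z * Y`, and `Y - Z ^ i * B ∈ 𝔙 ^ (k + 1)` with `B ∉ 𝔙`, then
`1 - Z ∈ 𝔙 ^ (k + 1)`. -/
theorem kzsplitp_core {R : Type} [CommRing R] [IsDedekindDomain R] (𝔙 : Ideal R) [𝔙.IsPrime]
    (σ : R →+* R) (hσ : 𝔙.map σ ≤ 𝔙) (p : ℕ) (hp : p ≠ 0) (Y Z B L : R) (hZ : Z ^ p = 1)
    (hL : L = 1 - Z) (hσY : σ Y = Z * Y) (hσZ : σ Z = Z) (hσB : σ B = B) (hB : B ∉ 𝔙)
    (k i : ℕ) (hi : Y - Z ^ i * B ∈ 𝔙 ^ (k + 1)) : L ∈ 𝔙 ^ (k + 1) := by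
  have h1 : σ (Y - Z ^ i * B) ∈ 𝔙 ^ (k + 1) := by
    have h := Ideal.mem_map_of_mem σ hi
    rw [Ideal.map_pow] at h
    exact Ideal.pow_right_mono hσ (k + 1) h
  rw [map_sub, map_mul, map_pow, hσY, hσZ, hσB] at h1
  have h2 : Z * (Y - Z ^ i * B) ∈ 𝔙 ^ (k + 1) := Ideal.mul_mem_left _ _ hi
  have h3 : Z ^ i * (B * L) ∈ 𝔙 ^ (k + 1) := by
    have he : Z ^ i * (B * L) = Z * (Y - Z ^ i * B) - (Z * Y - Z ^ i * B) := by
      rw [hL]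
      ring
    rw [he]
    exact Ideal.sub_mem _ h2 h1
  have hu : IsUnit (Z ^ i) := (IsUnit.of_pow_eq_one hZ hp).pow i
  have h4 : B * L ∈ 𝔙 ^ (k + 1) := (Ideal.unit_mul_mem_iff_mem _ hu).mp h3
  exact (Ideal.IsPrime.mul_mem_pow 𝔙 h4).resolve_left hB

/-- (SplitP, plan K5) -/
theorem kzsplitp_main : KummerGaloisStatement → k_GalPrimeStatement → k_ProdPowStatement →
    k_SplitPStatement := by
  intro hKG hGP hPP p _ _ F N _ _ _ _ _ ζ hζ hdeg x₀ y hy hyn lam b hlam 𝔳 h𝔳 h𝔳0 hb hx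
  obtain ⟨hGal, τ, hτy, -⟩ := hKG p F N ζ hζ hdeg (x₀ : F) y hy hyn
  have hpprime : p.Prime := Fact.out
  have hppos : 0 < p := hpprime.pos
  rcases hGP p F N hdeg 𝔳 h𝔳 h𝔳0 with hsplit | ⟨huniq, -⟩
  · exact hsplit
  exfalso
  -- a prime `𝔙` above `𝔳`
  obtain ⟨⟨𝔙, h𝔙⟩⟩ := 𝔳.nonempty_primesOver (S := 𝓞 N)
  have h𝔙p : 𝔙.IsPrime := h𝔙.1
  have h𝔙o : 𝔙.LiesOver 𝔳 := h𝔙.2
  have h𝔙0 : 𝔙 ≠ ⊥ := Ideal.ne_bot_of_mem_primesOver h𝔳0 h𝔙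
  -- the integral element `Y = y`
  have hyint : IsIntegral ℤ y := by
    have h1 : IsIntegral ℤ (y ^ p) := by
      rw [hy]
      exact (RingOfIntegers.isIntegral_coe x₀).map (IsScalarTower.toAlgHom ℤ F N)
    exact IsIntegral.of_pow hppos h1
  obtain ⟨Y, hYy⟩ : ∃ Y : 𝓞 N, algebraMap (𝓞 N) N Y = y := ⟨⟨y, hyint⟩, rfl⟩
  -- the integral element `zeta = ζ`
  have hzeta : algebraMap (𝓞 F) F (1 - lam) = ζ := by
    have h1 : algebraMap (𝓞 F) F lam = 1 - ζ := hlam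
    rw [map_sub, map_one, h1]
    ring
  have hzprim : IsPrimitiveRoot (1 - lam) p := by
    refine IsPrimitiveRoot.of_map_of_injective (f := algebraMap (𝓞 F) F) ?_
      (FaithfulSMul.algebraMap_injective _ _)
    rw [hzeta]
    exact hζ
  have hinj : Function.Injective (algebraMap (𝓞 F) (𝓞 N)) :=
    FaithfulSMul.algebraMap_injective _ _
  have hZprim : IsPrimitiveRoot (algebraMap (𝓞 F) (𝓞 N) (1 - lam)) p :=
    hzprim.map_of_injective hinj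
  have hcoe : ∀ a : 𝓞 F, algebraMap (𝓞 N) N (algebraMap (𝓞 F) (𝓞 N) a)
      = algebraMap F N (algebraMap (𝓞 F) F a) := fun a => rfl
  have hL : algebraMap (𝓞 F) (𝓞 N) lam = 1 - algebraMap (𝓞 F) (𝓞 N) (1 - lam) := by
    rw [map_sub, map_one]
    ring
  have hlam0 : lam ≠ 0 := by
    intro h0
    have h1 : (1 : 𝓞 F) - lam = 1 := by rw [h0, sub_zero]
    exact hzprim.ne_one hpprime.one_lt h1
  have hL0 : algebraMap (𝓞 F) (𝓞 N) lam ≠ 0 := by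
    intro h0
    exact hlam0 (hinj (by rw [h0, map_zero]))
  have hYp : Y ^ p = algebraMap (𝓞 F) (𝓞 N) x₀ := by
    apply RingOfIntegers.ext
    show algebraMap (𝓞 N) N (Y ^ p) = algebraMap (𝓞 N) N (algebraMap (𝓞 F) (𝓞 N) x₀)
    rw [hcoe, map_pow, hYy]
    exact hy
  have hτY : τ • Y = algebraMap (𝓞 F) (𝓞 N) (1 - lam) * Y := by
    apply RingOfIntegers.ext
    show algebraMap (𝓞 N) N (τ • Y)
      = algebraMap (𝓞 N) N (algebraMap (𝓞 F) (𝓞 N) (1 - lam) * Y)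
    rw [map_mul, hcoe, hYy, hzeta, ← hτy, ← hYy]
    exact algebraMap.coe_smul' τ Y N
  have hBmem : algebraMap (𝓞 F) (𝓞 N) b ∉ 𝔙 := by
    intro h
    exact hb ((Ideal.mem_of_liesOver 𝔙 𝔳 b).mpr h)
  -- the exact exponent of `𝔙` in `L`
  obtain ⟨k, hk1, hk2⟩ := kzsplitp_exact_exp 𝔙 h𝔙p.ne_top (algebraMap (𝓞 F) (𝓞 N) lam) hL0
  -- the product of the `Y - Z ^ i * B`
  have hprod : ∏ i ∈ Finset.range p,
      (Y - algebraMap (𝓞 F) (𝓞 N) (1 - lam) ^ i * algebraMap (𝓞 F) (𝓞 N) b) =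
      algebraMap (𝓞 F) (𝓞 N) (x₀ - b ^ p) := by
    have h := X_pow_sub_C_eq_prod hZprim hppos
      (rfl : algebraMap (𝓞 F) (𝓞 N) b ^ p = algebraMap (𝓞 F) (𝓞 N) b ^ p)
    have h2 := congrArg (Polynomial.eval Y) h
    simp only [Polynomial.eval_sub, Polynomial.eval_pow, Polynomial.eval_X, Polynomial.eval_C,
      Polynomial.eval_prod] at h2
    rw [← h2, hYp, map_sub, map_pow]
  have hmem : algebraMap (𝓞 F) (𝓞 N) (x₀ - b ^ p) ∈ 𝔙 ^ (p * k + 1) := by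
    have h1 := Ideal.mem_map_of_mem (algebraMap (𝓞 F) (𝓞 N)) hx
    rw [Ideal.map_mul, Ideal.map_pow, Ideal.map_span, Set.image_singleton] at h1
    have h2 : Ideal.map (algebraMap (𝓞 F) (𝓞 N)) 𝔳 ≤ 𝔙 := by
      rw [Ideal.map_le_iff_le_comap]
      exact (h𝔙o.over).le
    have h3 : Ideal.span {algebraMap (𝓞 F) (𝓞 N) lam} ≤ 𝔙 ^ k := by
      rw [Ideal.span_singleton_le_iff_mem]
      exact hk1
    have h4 : Ideal.map (algebraMap (𝓞 F) (𝓞 N)) 𝔳 *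
        Ideal.span {algebraMap (𝓞 F) (𝓞 N) lam} ^ p ≤ 𝔙 ^ (p * k + 1) := by
      calc Ideal.map (algebraMap (𝓞 F) (𝓞 N)) 𝔳 * Ideal.span {algebraMap (𝓞 F) (𝓞 N) lam} ^ p
          ≤ 𝔙 * (𝔙 ^ k) ^ p := Ideal.mul_mono h2 (Ideal.pow_right_mono h3 p)
        _ = 𝔙 ^ (p * k + 1) := by rw [← pow_mul, mul_comm k p, pow_succ']
    exact h4 h1
  obtain ⟨i, -, hi⟩ := hPP N 𝔙 h𝔙p h𝔙0 (Finset.range p)
    (fun i => Y - algebraMap (𝓞 F) (𝓞 N) (1 - lam) ^ i * algebraMap (𝓞 F) (𝓞 N) b) k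
    (by rw [Finset.card_range, hprod]; exact hmem)
  -- `τ` stabilises `𝔙`
  have hstab : τ • 𝔙 = 𝔙 := huniq (τ • 𝔙) ⟨inferInstance, inferInstance⟩ 𝔙 h𝔙
  have hσ : 𝔙.map (MulSemiringAction.toRingHom (N ≃ₐ[F] N) (𝓞 N) τ) ≤ 𝔙 := hstab.le
  have hfix : ∀ a : 𝓞 F, MulSemiringAction.toRingHom (N ≃ₐ[F] N) (𝓞 N) τ
      (algebraMap (𝓞 F) (𝓞 N) a) = algebraMap (𝓞 F) (𝓞 N) a := fun a => smul_algebraMap τ a
  exact hk2 (kzsplitp_core 𝔙 (MulSemiringAction.toRingHom (N ≃ₐ[F] N) (𝓞 N) τ) hσ p hppos.ne'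
    Y (algebraMap (𝓞 F) (𝓞 N) (1 - lam)) (algebraMap (𝓞 F) (𝓞 N) b)
    (algebraMap (𝓞 F) (𝓞 N) lam) hZprim.pow_eq_one hL hτY (hfix _) (hfix _) hBmem k i hi)

end Fermat.Agent.S14
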