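/-
S14, block K, package K/Step (plan item K4, one greedy step).

Setting: `N = F(y)`, `y ^ p = x₀ ∈ 𝓞 F`, Galois of degree `p`; `u ∈ 𝓞 F` with `u ∉ x₀^ℕ · F^p`;
`T₀` a finite set of ideals.  We find a prime `𝔮 ∉ T₀`, `𝔮 ∤ p x₀ u`, splitting completely in `N`,
with `u` not a `p`-th power modulo `𝔮`.
-/
import Mathlib
import Fermat.Agent.S14.Interfaces
import Fermat.Agent.S14.KInterfaces
set_option autoImplicit false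
open NumberField IsDedekindDomain
namespace Fermat.Agent.S14

/-- A finite set of ideals containing every nonzero prime ideal which contains a given nonzero
element. -/
theorem k_st_finite_primes (N : Type) [Field N] [NumberField N] (M : 𝓞 N) (hM : M ≠ 0) :
    ∃ T₁ : Finset (Ideal (𝓞 N)), ∀ 𝔔 : Ideal (𝓞 N), 𝔔.IsPrime → 𝔔 ≠ ⊥ → M ∈ 𝔔 → 𝔔 ∈ T₁ := by
  classical
  have hI : Ideal.span {M} ≠ (0 : Ideal (𝓞 N)) := by
    rw [Ideal.zero_eq_bot, Ne, Ideal.span_singleton_eq_bot]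
    exact hM
  refine ⟨(Ideal.finite_factors hI).toFinset.image HeightOneSpectrum.asIdeal, ?_⟩
  intro 𝔔 h𝔔 h𝔔0 hM𝔔
  rw [Finset.mem_image]
  refine ⟨⟨𝔔, h𝔔, h𝔔0⟩, ?_, rfl⟩
  rw [Set.Finite.mem_toFinset, Set.mem_ofPred_eq, Ideal.dvd_span_singleton]
  exact hM𝔔

/-- A nonzero element lying in every nonzero ideal of a given finite set. -/
theorem k_st_exists_elem (F : Type) [Field F] [NumberField F] (T₀ : Finset (Ideal (𝓞 F))) :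
    ∃ e : 𝓞 F, e ≠ 0 ∧ ∀ 𝔱 ∈ T₀, 𝔱 ≠ ⊥ → e ∈ 𝔱 := by
  classical
  induction T₀ using Finset.induction_on with
  | empty => exact ⟨1, one_ne_zero, by simp⟩
  | insert 𝔱 s _ ih =>
    obtain ⟨e, he, hes⟩ := ih
    by_cases h0 : 𝔱 = ⊥
    · refine ⟨e, he, ?_⟩
      intro 𝔱' h𝔱' h𝔱'0
      rcases Finset.mem_insert.mp h𝔱' with rfl | h
      · exact absurd h0 h𝔱'0
      · exact hes 𝔱' h h𝔱'0
    · obtain ⟨a, ha, ha0⟩ := Submodule.exists_mem_ne_zero_of_ne_bot h0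
      refine ⟨a * e, mul_ne_zero ha0 he, ?_⟩
      intro 𝔱' h𝔱' h𝔱'0
      rcases Finset.mem_insert.mp h𝔱' with rfl | h
      · exact Ideal.mul_mem_right _ _ ha
      · exact Ideal.mul_mem_left _ _ (hes 𝔱' h h𝔱'0)

theorem k_st_main : K3Statement → KummerGaloisStatement → KummerSplitStatement →
    k_KummerExistsStatement → k_KummerPowStatement → k_InertPowStatement → k_GalPrimeStatement →
    k_StepStatement := by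
  intro hK3 _ hKS hKE hKP hIP hGP p _ _ F N _ _ _ _ _ _ ζ hζ hdeg x₀ y hy hyN u hu T₀
  classical
  have hp : p.Prime := Fact.out
  -- (1) `u ≠ 0`
  have hu0 : u ≠ 0 := by
    intro h
    apply hu 0 0
    rw [h]
    simp [hp.ne_zero]
  have hx0 : x₀ ≠ 0 := by
    intro h
    apply hyN
    refine ⟨0, ?_⟩
    rw [h] at hy
    simp only [map_zero] at hy
    rw [map_zero]
    exact ((pow_eq_zero_iff hp.ne_zero).mp hy).symm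
  -- (2) the image of `u` is not a `p`-th power in `N`
  have huN : ∀ b : N, b ^ p ≠ algebraMap F N (u : F) := by
    intro z hz
    obtain ⟨j, b, hjb⟩ := hKP p F N ζ hζ hdeg (x₀ : F) y hy hyN (u : F) z hz
    exact hu j b hjb
  -- (3) the Kummer extension `N' = N(u^{1/p})`
  obtain ⟨N', _, _, _, hdeg', z, hz, hzN⟩ := hKE p N (algebraMap F N (u : F)) huN
  -- (4) the auxiliary element
  obtain ⟨e, he0, heT⟩ := k_st_exists_elem F T₀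
  have hpF : (p : 𝓞 F) ≠ 0 := Nat.cast_ne_zero.mpr hp.ne_zero
  have hm0 : (p : 𝓞 F) * x₀ * u * e ≠ 0 :=
    mul_ne_zero (mul_ne_zero (mul_ne_zero hpF hx0) hu0) he0
  have hinj : Function.Injective (algebraMap (𝓞 F) (𝓞 N)) :=
    FaithfulSMul.algebraMap_injective (𝓞 F) (𝓞 N)
  have hM0 : algebraMap (𝓞 F) (𝓞 N) ((p : 𝓞 F) * x₀ * u * e) ≠ 0 := by
    intro h
    exact hm0 (hinj (by rw [h, map_zero]))
  obtain ⟨T₁, hT₁⟩ := k_st_finite_primes N _ hM0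
  -- (5) a prime of `N` which does not split completely in `N'`
  obtain ⟨𝔔, h𝔔, h𝔔0, h𝔔T, h𝔔ns⟩ := hK3 N N' (by rw [hdeg']; exact hp.two_le) T₁
  have hM𝔔 : algebraMap (𝓞 F) (𝓞 N) ((p : 𝓞 F) * x₀ * u * e) ∉ 𝔔 :=
    fun h => h𝔔T (hT₁ 𝔔 h𝔔 h𝔔0 h)
  have h𝔮 : (𝔔.under (𝓞 F)).IsPrime := Ideal.IsPrime.under (𝓞 F) 𝔔
  have h𝔮0 : 𝔔.under (𝓞 F) ≠ ⊥ := Ideal.under_ne_bot (𝓞 F) h𝔔0
  have hm𝔮 : (p : 𝓞 F) * x₀ * u * e ∉ 𝔔.under (𝓞 F) := fun h => hM𝔔 (Ideal.mem_comap.mp h)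
  have hp𝔮 : (p : 𝓞 F) ∉ 𝔔.under (𝓞 F) := fun h =>
    hm𝔮 (Ideal.mul_mem_right _ _ (Ideal.mul_mem_right _ _ (Ideal.mul_mem_right _ _ h)))
  have hx𝔮 : x₀ ∉ 𝔔.under (𝓞 F) := fun h =>
    hm𝔮 (Ideal.mul_mem_right _ _ (Ideal.mul_mem_right _ _ (Ideal.mul_mem_left _ _ h)))
  have hu𝔮 : u ∉ 𝔔.under (𝓞 F) := fun h =>
    hm𝔮 (Ideal.mul_mem_right _ _ (Ideal.mul_mem_left _ _ h))
  have he𝔮 : e ∉ 𝔔.under (𝓞 F) := fun h => hm𝔮 (Ideal.mul_mem_left _ _ h)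
  have h𝔮T : 𝔔.under (𝓞 F) ∉ T₀ := fun h => he𝔮 (heT _ h h𝔮0)
  have hp𝔔 : (p : 𝓞 N) ∉ 𝔔 := by
    intro h
    apply hp𝔮
    rw [Ideal.under, Ideal.mem_comap, map_natCast]
    exact h
  have hu𝔔 : algebraMap (𝓞 F) (𝓞 N) u ∉ 𝔔 := fun h => hu𝔮 (Ideal.mem_comap.mpr h)
  -- (6) Kummer splitting criterion for `N'/N` at `𝔔`
  have hζN : IsPrimitiveRoot (algebraMap F N ζ) p :=
    hζ.map_of_injective (algebraMap F N).injective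
  have hKS1 := (hKS p N N' (algebraMap F N ζ) hζN hdeg' (algebraMap (𝓞 F) (𝓞 N) u) z hz hzN
    𝔔 h𝔔 h𝔔0 hp𝔔 hu𝔔).1
  have h6a : ¬ ∃ c : 𝓞 N, algebraMap (𝓞 F) (𝓞 N) u - c ^ p ∈ 𝔔 := fun h => h𝔔ns (hKS1.mpr h)
  have h6a' : ¬ ∃ c : 𝓞 F, u - c ^ p ∈ 𝔔.under (𝓞 F) := by
    rintro ⟨c, hc⟩
    apply h6a
    refine ⟨algebraMap (𝓞 F) (𝓞 N) c, ?_⟩
    have := Ideal.mem_comap.mp hc
    rwa [map_sub, map_pow] at this
  have h6b : ¬ p ∣ 𝔔.inertiaDeg (𝓞 F) := fun hdvd =>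
    h6a (hIP p F N ζ hζ 𝔔 h𝔔 h𝔔0 hp𝔔 hdvd u)
  -- (7) `𝔮` splits completely in `N`
  have hKS2 := (hKS p F N ζ hζ hdeg x₀ y hy hyN (𝔔.under (𝓞 F)) h𝔮 h𝔮0 hp𝔮 hx𝔮).2
  have h𝔔mem : 𝔔 ∈ (𝔔.under (𝓞 F)).primesOver (𝓞 N) := ⟨h𝔔, ⟨rfl⟩⟩
  have hsplit : SplitsCompletely F N (𝔔.under (𝓞 F)) := by
    rcases hGP p F N hdeg (𝔔.under (𝓞 F)) h𝔮 h𝔮0 with h | ⟨_, h⟩
    · exact h
    · exfalso
      apply h6b
      have h1 := h 𝔔 h𝔔mem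
      rw [hKS2 𝔔 h𝔔mem, one_mul] at h1
      rw [h1]
  exact ⟨𝔔.under (𝓞 F), h𝔮, h𝔮0, h𝔮T, hp𝔮, hx𝔮, hu𝔮, hsplit, h6a'⟩

end Fermat.Agent.S14
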