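/-
S14, block K, package K/TorsionCount (plan item K5, the local count).

For the modulus `𝔪 = k_modulus p S lam = span {p * lam} * ∏ v ∈ S, v.asIdeal` with `S ⊇ {v : p ∈ v}`:
`Nat.card {r : (𝓞 F ⧸ 𝔪)ˣ // r ^ p = 1} ≤ p ^ (S.card + finrank ℚ F)`.

Main theorem: `k_tc_main : k_RootCongStatement → k_LamDvdStatement → k_TorsionCountStatement`.
-/
import Mathlib
import Fermat.Agent.S14.Interfaces
import Fermat.Agent.S14.KInterfaces

set_option autoImplicit false

open NumberField IsDedekindDomain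

namespace Fermat.Agent.S14

/-- Factorisation of `lam` over a finite set `S` of primes containing all primes dividing `lam`:
there are exponents `c v` with `lam ∈ v ^ c v` for `v ∈ S`, such that every `y` lying in
`v ^ (c v + 1)` for all `v ∈ S` belongs to `span {lam} * ∏ v ∈ S, v`. -/
theorem k_tc_factor {F : Type} [Field F] [NumberField F] (lam : 𝓞 F) (hlam0 : lam ≠ 0)
    (S : Finset (HeightOneSpectrum (𝓞 F)))
    (hS : ∀ v : HeightOneSpectrum (𝓞 F), lam ∈ v.asIdeal → v ∈ S) :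
    ∃ c : HeightOneSpectrum (𝓞 F) → ℕ, (∀ v ∈ S, lam ∈ v.asIdeal ^ c v) ∧
      ∀ y : 𝓞 F, (∀ v ∈ S, y ∈ v.asIdeal ^ (c v + 1)) →
        y ∈ Ideal.span {lam} * ∏ v ∈ S, v.asIdeal := by
  classical
  have hI0 : Ideal.span {lam} ≠ (0 : Ideal (𝓞 F)) := by
    rw [Ideal.zero_eq_bot, Ne, Ideal.span_singleton_eq_bot]
    exact hlam0
  have hfact : ∏ v ∈ S, v.asIdeal ^
      ((Associates.mk v.asIdeal).count (Associates.mk (Ideal.span {lam})).factors) =
      Ideal.span {lam} := by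
    conv_rhs => rw [← Ideal.finprod_heightOneSpectrum_factorization hI0]
    symm
    apply finprod_eq_prod_of_mulSupport_subset
    intro v hv
    rw [Function.mem_mulSupport] at hv
    apply hS
    by_contra hlv
    apply hv
    have h0 : (Associates.mk v.asIdeal).count (Associates.mk (Ideal.span {lam})).factors = 0 := by
      by_contra h0
      have hdvd := (Associates.count_ne_zero_iff_dvd hI0 v.irreducible).mp h0
      exact hlv (Ideal.le_of_dvd hdvd (Ideal.mem_span_singleton_self lam))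
    show v.asIdeal ^ _ = 1
    rw [h0, pow_zero]
  refine ⟨fun v => (Associates.mk v.asIdeal).count (Associates.mk (Ideal.span {lam})).factors,
    ?_, ?_⟩
  · intro v hv
    have hle : Ideal.span {lam} ≤ v.asIdeal ^
        ((Associates.mk v.asIdeal).count (Associates.mk (Ideal.span {lam})).factors) := by
      conv_lhs => rw [← hfact]
      exact Ideal.le_of_dvd (Finset.dvd_prod_of_mem _ hv)
    exact hle (Ideal.mem_span_singleton_self lam)
  · intro y hy
    have hprod : Ideal.span {lam} * ∏ v ∈ S, v.asIdeal = ∏ v ∈ S, v.asIdeal ^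
        ((Associates.mk v.asIdeal).count (Associates.mk (Ideal.span {lam})).factors + 1) := by
      conv_lhs => rw [← hfact]
      rw [← Finset.prod_mul_distrib]
      simp only [pow_succ]
    have hinf := HeightOneSpectrum.inf_pow_eq_prod S
      (fun v => (Associates.mk v.asIdeal).count (Associates.mk (Ideal.span {lam})).factors + 1)
      id (fun i _ j _ h => h)
    simp only [id] at hinf
    rw [hprod, ← hinf, Finset.inf_eq_iInf]
    simp only [Ideal.mem_iInf]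
    exact hy

/-- Counting by fibres: if on every fibre of `Ψ : X → A` the map `d · r₀ : X → B` is injective,
then `#X ≤ #A * #B`. -/
theorem k_tc_card_le {X A B : Type} [Finite A] [Finite B] (Ψ : X → A) (d : X → X → B)
    (hd : ∀ r₀ r r' : X, Ψ r = Ψ r₀ → Ψ r' = Ψ r₀ → d r r₀ = d r' r₀ → r = r') :
    Nat.card X ≤ Nat.card A * Nat.card B := by
  classical
  rcases isEmpty_or_nonempty X with hX | hX
  · simp
  rw [← Nat.card_prod]
  refine Nat.card_le_card_of_injective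
    (fun r => (Ψ r, d r (Function.invFun Ψ (Ψ r)))) ?_
  intro r r' h
  simp only [Prod.mk.injEq] at h
  obtain ⟨h1, h2⟩ := h
  have e1 : Ψ (Function.invFun Ψ (Ψ r)) = Ψ r := Function.invFun_eq ⟨r, rfl⟩
  rw [← h1] at h2
  exact hd (Function.invFun Ψ (Ψ r)) r r' e1.symm (h1.symm.trans e1.symm) h2

/-- The image of `𝔫` in `𝓞 F ⧸ 𝔞 * 𝔫` has `absNorm 𝔞` elements. -/
theorem k_tc_card_map {F : Type} [Field F] [NumberField F] (𝔪 𝔞 𝔫 : Ideal (𝓞 F))
    (h𝔪 : 𝔪 = 𝔞 * 𝔫) (h𝔫 : 𝔫 ≠ ⊥) :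
    Nat.card (𝔫.map (Ideal.Quotient.mk 𝔪)) = Ideal.absNorm 𝔞 := by
  have hle : 𝔪 ≤ 𝔫 := by
    rw [h𝔪]
    exact Ideal.mul_le_right
  have h1 := Submodule.card_eq_card_quotient_mul_card (𝔫.map (Ideal.Quotient.mk 𝔪))
  have h2 : Nat.card ((𝓞 F ⧸ 𝔪) ⧸ 𝔫.map (Ideal.Quotient.mk 𝔪)) = Nat.card (𝓞 F ⧸ 𝔫) :=
    Nat.card_congr (DoubleQuot.quotQuotEquivQuotOfLE hle).toEquiv
  have h3 : Nat.card (𝓞 F ⧸ 𝔪) = Ideal.absNorm 𝔞 * Ideal.absNorm 𝔫 := by
    rw [← map_mul, ← h𝔪, Ideal.absNorm_apply, Submodule.cardQuot_apply]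
  have h4 : Nat.card (𝓞 F ⧸ 𝔫) = Ideal.absNorm 𝔫 := by
    rw [Ideal.absNorm_apply, Submodule.cardQuot_apply]
  have h5 : Ideal.absNorm 𝔫 ≠ 0 := fun h => h𝔫 (Ideal.absNorm_eq_zero_iff.mp h)
  rw [h2, h3, h4] at h1
  exact (Nat.eq_of_mul_eq_mul_right (Nat.pos_of_ne_zero h5) h1).symm

/-- (TorsionCount, plan K5). -/
theorem k_tc_main : k_RootCongStatement → k_LamDvdStatement → k_TorsionCountStatement := by
  intro hRC hLD p _ _ F _ _ ζ hζ lam hlam S hS
  classical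
  have hp : p.Prime := Fact.out
  -- `zeta = 1 - lam`
  have hzeta : (((1 - lam : 𝓞 F)) : F) = ζ := by
    rw [RingOfIntegers.coe_eq_algebraMap] at hlam ⊢
    rw [map_sub, map_one, hlam]
    ring
  obtain ⟨w, hw⟩ := hLD p F ζ hζ lam hlam
  have hlam0 : lam ≠ 0 := by
    intro h
    rw [h] at hlam
    have h1 : ζ = 1 := by
      rw [RingOfIntegers.coe_eq_algebraMap, map_zero] at hlam
      linear_combination hlam
    exact hζ.ne_one hp.one_lt h1
  have hp0 : (p : 𝓞 F) ≠ 0 := Nat.cast_ne_zero.mpr hp.ne_zero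
  -- the ideal `𝔫`
  have h𝔪 : k_modulus p S lam =
      Ideal.span {(p : 𝓞 F)} * (Ideal.span {lam} * ∏ v ∈ S, v.asIdeal) := by
    rw [k_modulus, ← mul_assoc, Ideal.span_singleton_mul_span_singleton]
  have hprod0 : (∏ v ∈ S, v.asIdeal) ≠ (⊥ : Ideal (𝓞 F)) := by
    rw [← Ideal.zero_eq_bot, Finset.prod_ne_zero_iff]
    intro v _
    exact v.ne_bot
  have h𝔫0 : Ideal.span {lam} * ∏ v ∈ S, v.asIdeal ≠ (⊥ : Ideal (𝓞 F)) := by
    rw [← Ideal.zero_eq_bot]
    refine mul_ne_zero ?_ hprod0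
    rw [Ideal.zero_eq_bot, Ne, Ideal.span_singleton_eq_bot]
    exact hlam0
  have h𝔪0 : k_modulus p S lam ≠ ⊥ := by
    rw [h𝔪, ← Ideal.zero_eq_bot]
    refine mul_ne_zero ?_ h𝔫0
    rw [Ideal.zero_eq_bot, Ne, Ideal.span_singleton_eq_bot]
    exact hp0
  have hfin : Finite (𝓞 F ⧸ k_modulus p S lam) := Ideal.finiteQuotientOfFreeOfNeBot _ h𝔪0
  -- primes containing `lam` are in `S`
  have hSlam : ∀ v : HeightOneSpectrum (𝓞 F), lam ∈ v.asIdeal → v ∈ S := by
    intro v hv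
    apply hS
    rw [hw]
    exact Ideal.mul_mem_right _ _ (Ideal.pow_mem_of_mem _ hv _ (Nat.sub_pos_of_lt hp.one_lt))
  obtain ⟨c, hc1, hc2⟩ := k_tc_factor lam hlam0 S hSlam
  -- (1) `𝔪 ≤ v * (lam) ^ p`
  have h1 : ∀ v ∈ S, k_modulus p S lam ≤ v.asIdeal * Ideal.span {lam} ^ p := by
    intro v hv
    rw [k_modulus, mul_comm]
    apply Ideal.mul_mono
    · exact Ideal.le_of_dvd (Finset.dvd_prod_of_mem _ hv)
    · rw [Ideal.span_singleton_pow, Ideal.span_singleton_le_span_singleton]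
      refine ⟨w, ?_⟩
      rw [hw, ← pow_sub_one_mul hp.ne_zero lam]
      ring
  -- (2) roots of unity modulo `𝔪` are congruent to powers of `zeta`
  have h2 : ∀ x : 𝓞 F, x ^ p - 1 ∈ k_modulus p S lam → ∀ v ∈ S,
      ∃ i : Fin p, x - (1 - lam) ^ (i : ℕ) ∈ v.asIdeal ^ (c v + 1) := by
    intro x hx v hv
    obtain ⟨i, hi, hin⟩ := hRC p F ζ hζ (1 - lam) lam hzeta hlam v.asIdeal v.isPrime v.ne_bot x
      (h1 v hv hx)
    exact ⟨⟨i, hi⟩, hin (c v) (hc1 v hv)⟩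
  -- lifts
  have hlift : ∀ r : {r : (𝓞 F ⧸ k_modulus p S lam)ˣ // r ^ p = 1}, ∃ x : 𝓞 F,
      Ideal.Quotient.mk (k_modulus p S lam) x =
        ((r : (𝓞 F ⧸ k_modulus p S lam)ˣ) : 𝓞 F ⧸ k_modulus p S lam) :=
    fun r => Ideal.Quotient.mk_surjective _
  choose lift hliftspec using hlift
  have hliftpow : ∀ r, lift r ^ p - 1 ∈ k_modulus p S lam := by
    intro r
    rw [← Ideal.Quotient.eq, map_pow, map_one, hliftspec, ← Units.val_pow_eq_pow_val, r.2,
      Units.val_one]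
  have h3 : ∀ (r : {r : (𝓞 F ⧸ k_modulus p S lam)ˣ // r ^ p = 1}) (v : S), ∃ i : Fin p,
      lift r - (1 - lam) ^ (i : ℕ) ∈ (v : HeightOneSpectrum (𝓞 F)).asIdeal ^
        (c (v : HeightOneSpectrum (𝓞 F)) + 1) :=
    fun r v => h2 (lift r) (hliftpow r) v v.2
  choose Ψ hΨ using h3
  have h4 : ∀ r r', Ψ r = Ψ r' →
      lift r - lift r' ∈ Ideal.span {lam} * ∏ v ∈ S, v.asIdeal := by
    intro r r' h
    apply hc2
    intro v hv
    have e1 := hΨ r ⟨v, hv⟩
    have e2 := hΨ r' ⟨v, hv⟩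
    rw [h] at e1
    have e3 := Ideal.sub_mem _ e1 e2
    simpa using e3
  have h5 : ∀ r r', Ψ r = Ψ r' →
      ((r : (𝓞 F ⧸ k_modulus p S lam)ˣ) : 𝓞 F ⧸ k_modulus p S lam) -
        ((r' : (𝓞 F ⧸ k_modulus p S lam)ˣ) : 𝓞 F ⧸ k_modulus p S lam) ∈
        (Ideal.span {lam} * ∏ v ∈ S, v.asIdeal).map (Ideal.Quotient.mk (k_modulus p S lam)) := by
    intro r r' h
    rw [← hliftspec, ← hliftspec, ← map_sub]
    exact Ideal.mem_map_of_mem _ (h4 r r' h)
  -- the counting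
  have hfinB : Finite ((Ideal.span {lam} * ∏ v ∈ S, v.asIdeal).map
      (Ideal.Quotient.mk (k_modulus p S lam))) := inferInstance
  have hcount := k_tc_card_le (B := (Ideal.span {lam} * ∏ v ∈ S, v.asIdeal).map
      (Ideal.Quotient.mk (k_modulus p S lam))) Ψ
    (fun r r₀ => if h : ((r : (𝓞 F ⧸ k_modulus p S lam)ˣ) : 𝓞 F ⧸ k_modulus p S lam) -
        ((r₀ : (𝓞 F ⧸ k_modulus p S lam)ˣ) : 𝓞 F ⧸ k_modulus p S lam) ∈
        (Ideal.span {lam} * ∏ v ∈ S, v.asIdeal).map (Ideal.Quotient.mk (k_modulus p S lam))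
      then ⟨_, h⟩ else 0) ?_
  · refine hcount.trans (le_of_eq ?_)
    rw [k_tc_card_map _ _ _ h𝔪 h𝔫0, Ideal.absNorm_span_natCast, RingOfIntegers.rank,
      Nat.card_fun, Nat.card_fin, Nat.card_eq_fintype_card, Fintype.card_coe, pow_add]
  · intro r₀ r r' hr hr' hd
    rw [dif_pos (h5 r r₀ hr), dif_pos (h5 r' r₀ hr')] at hd
    have hd' := congrArg Subtype.val hd
    simp only [sub_left_inj] at hd'
    exact Subtype.ext (Units.ext hd')

end Fermat.Agent.S14
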