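/-
S14, block K, package K/UnitAt.

* `k_ua_unitAt : k_UnitAtStatement`: for `v : HeightOneSpectrum (𝓞 F)` and `a : F`,
  `v.valuation F a = 1` iff `a` is a quotient of two elements of `𝓞 F` outside `v`.
* `k_ua_congUnit : k_CongUnitStatement`: elements `≡ 1 mod^× 𝔪` are units at the primes
  dividing `𝔪`.
-/
import Mathlib
import Fermat.Agent.S14.Interfaces
import Fermat.Agent.S14.KInterfaces

set_option autoImplicit false

open NumberField IsDedekindDomain

namespace Fermat.Agent.S14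

/-- The valuation of an integer is `1` iff the integer is outside the prime. -/
theorem k_ua_val_int_eq_one_iff {F : Type} [Field F] [NumberField F]
    (v : HeightOneSpectrum (𝓞 F)) (r : 𝓞 F) :
    v.valuation F (r : F) = 1 ↔ r ∉ v.asIdeal :=
  HeightOneSpectrum.valuation_eq_one_iff_notMem (K := F) (v := v) (r := r)

/-- If `a * a₂ = a₁` with `a₁, a₂ ∈ 𝓞 F ∖ v`, then `a` has valuation `1` at `v`. -/
theorem k_ua_val_eq_one_of_frac {F : Type} [Field F] [NumberField F]
    (v : HeightOneSpectrum (𝓞 F)) (a : F) (a₁ a₂ : 𝓞 F) (h1 : a₁ ∉ v.asIdeal)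
    (h2 : a₂ ∉ v.asIdeal) (h3 : a * (a₂ : F) = (a₁ : F)) : v.valuation F a = 1 := by
  have e1 : v.valuation F (a₁ : F) = 1 := (k_ua_val_int_eq_one_iff v a₁).2 h1
  have e2 : v.valuation F (a₂ : F) = 1 := (k_ua_val_int_eq_one_iff v a₂).2 h2
  have e3 : v.valuation F a * v.valuation F (a₂ : F) = v.valuation F (a₁ : F) := by
    rw [← map_mul, h3]
  rw [e1, e2, mul_one] at e3
  exact e3

/-- (UnitAt) Valuation `1` at `v` means: a quotient of two elements of `𝓞 F ∖ v`. -/
theorem k_ua_unitAt : k_UnitAtStatement := by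
  intro F _ _ v a
  constructor
  · intro h
    obtain ⟨n, ⟨d, hd⟩, hnd⟩ := v.exists_primeCompl_mul_eq_of_integer a h.le
    have hd' : d ∉ v.asIdeal := hd
    have e2 : v.valuation F (d : F) = 1 := (k_ua_val_int_eq_one_iff v d).2 hd'
    have e3 : v.valuation F a * v.valuation F (d : F) = v.valuation F (n : F) := by
      rw [← map_mul]
      exact congrArg (v.valuation F) hnd
    rw [h, e2, mul_one] at e3
    exact ⟨n, d, (k_ua_val_int_eq_one_iff v n).1 e3.symm, hd', hnd⟩
  · rintro ⟨a₁, a₂, h1, h2, h3⟩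
    exact k_ua_val_eq_one_of_frac v a a₁ a₂ h1 h2 h3

/-- (CongUnit) Elements `≡ 1 mod^× 𝔪` are units at the primes dividing `𝔪`. -/
theorem k_ua_congUnit : k_CongUnitStatement := by
  intro F _ _ 𝔪 S hS a ha
  obtain ⟨c₁, c₂, h1, h2, h3⟩ := ha
  intro v hv
  have hm : 𝔪 ≤ v.asIdeal := hS v hv
  have hc₂ : c₂ ∉ v.asIdeal := by
    intro hc
    apply v.isPrime.ne_top
    rw [eq_top_iff, ← h1]
    exact sup_le ((Ideal.span_singleton_le_iff_mem _).2 hc) hm
  have hc₁ : c₁ ∉ v.asIdeal := by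
    intro hc
    apply hc₂
    have e : c₂ = c₁ - (c₁ - c₂) := by ring
    rw [e]
    exact Ideal.sub_mem _ hc (hm h2)
  exact k_ua_val_eq_one_of_frac v (a : F) c₁ c₂ hc₁ hc₂ h3

end Fermat.Agent.S14
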