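/-
S14, block K, package K/ValIndex: `[Fˣ : Fˣ^p · U_S] ≤ p ^ #S` (and the index is finite).
-/
import Mathlib
import Fermat.Agent.S14.Interfaces
import Fermat.Agent.S14.KInterfaces
set_option autoImplicit false
open NumberField IsDedekindDomain
namespace Fermat.Agent.S14

/-- The homomorphism `a ↦ (v(a) mod p)_{v ∈ S}`. -/
noncomputable def k_vi_psi (p : ℕ) (F : Type) [Field F] [NumberField F]
    (S : Finset (HeightOneSpectrum (𝓞 F))) : Fˣ →* (S → Multiplicative (ZMod p)) :=
  MonoidHom.pi fun v : S =>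
    (AddMonoidHom.toMultiplicative (Int.castAddHom (ZMod p))).comp
      ((v : HeightOneSpectrum (𝓞 F)).valuationOfNeZero)

theorem k_vi_psi_apply (p : ℕ) (F : Type) [Field F] [NumberField F]
    (S : Finset (HeightOneSpectrum (𝓞 F))) (a : Fˣ) (v : S) :
    k_vi_psi p F S a v = Multiplicative.ofAdd
      ((Multiplicative.toAdd ((v : HeightOneSpectrum (𝓞 F)).valuationOfNeZero a) : ℤ) : ZMod p) :=
  rfl

/-- The valuation of a unit, as `exp` of an integer. -/
theorem k_vi_val_eq_exp (F : Type) [Field F] [NumberField F] (v : HeightOneSpectrum (𝓞 F))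
    (a : Fˣ) :
    v.valuation F (a : F) = WithZero.exp (Multiplicative.toAdd (v.valuationOfNeZero a)) := by
  rw [← HeightOneSpectrum.valuationOfNeZero_eq]
  rfl

/-- The kernel of `k_vi_psi` consists of `p`-th powers times units at `S`. -/
theorem k_vi_ker_le (hA : k_ApproxStatement) (p : ℕ) (F : Type) [Field F]
    [NumberField F] (S : Finset (HeightOneSpectrum (𝓞 F))) :
    (k_vi_psi p F S).ker ≤ k_pow p F ⊔ k_unitsAt S := by
  intro a ha
  rw [MonoidHom.mem_ker] at ha
  have hdvd : ∀ v ∈ S, (p : ℤ) ∣ Multiplicative.toAdd (v.valuationOfNeZero a) := by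
    intro v hv
    have h1 := congrFun ha ⟨v, hv⟩
    rw [k_vi_psi_apply] at h1
    have h2 : ((Multiplicative.toAdd (v.valuationOfNeZero a) : ℤ) : ZMod p) = 0 :=
      Multiplicative.ofAdd.injective h1
    exact (ZMod.intCast_zmod_eq_zero_iff_dvd _ p).mp h2
  obtain ⟨b, hb⟩ := hA F S (fun v => Multiplicative.toAdd (v.valuationOfNeZero a) / (p : ℤ))
  rw [Subgroup.mem_sup]
  refine ⟨b ^ p, ⟨b, rfl⟩, (b ^ p)⁻¹ * a, ?_, mul_inv_cancel_left _ _⟩
  intro v hv
  have h1 := k_vi_val_eq_exp F v a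
  have h2 := hb v hv
  have h3 : v.valuation F ((b ^ p : Fˣ) : F) = v.valuation F (a : F) := by
    rw [Units.val_pow_eq_pow_val, map_pow, h2, h1, ← WithZero.exp_nsmul, nsmul_eq_mul,
      Int.mul_ediv_cancel' (hdvd v hv)]
  have h4 : v.valuation F (a : F) ≠ 0 := by
    rw [h1]
    exact WithZero.exp_ne_zero
  change v.valuation F (((b ^ p)⁻¹ * a : Fˣ) : F) = 1
  rw [Units.val_mul, Units.val_inv_eq_inv_val, map_mul, map_inv₀, h3]
  exact inv_mul_cancel₀ h4

theorem k_vi_main : k_ApproxStatement → k_ValIndexStatement := by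
  intro hA p _ F _ _ S
  have hp : p ≠ 0 := (Fact.out : p.Prime).ne_zero
  have : NeZero p := ⟨hp⟩
  have hdvd := Subgroup.index_dvd_of_le (k_vi_ker_le hA p F S)
  have hcard : Nat.card (S → Multiplicative (ZMod p)) = p ^ S.card := by
    rw [Nat.card_fun, Nat.card_eq_fintype_card (α := S), Fintype.card_coe]
    congr 1
    exact Nat.card_zmod p
  have hker1 : (k_vi_psi p F S).ker.index ≠ 0 := by
    rw [Subgroup.index_ker]
    exact Nat.card_pos.ne'
  have hker2 : (k_vi_psi p F S).ker.index ≤ p ^ S.card := by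
    rw [Subgroup.index_ker, ← hcard]
    exact Subgroup.card_le_card_group _
  refine ⟨fun h => hker1 ?_, ?_⟩
  · rw [h] at hdvd
    exact Nat.eq_zero_of_zero_dvd hdvd
  · exact (Nat.le_of_dvd (Nat.pos_of_ne_zero hker1) hdvd).trans hker2

end Fermat.Agent.S14
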