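/-
S14, block K (second inequality): the deliverable `k_g2`.
Everything is assembled in `KMainAux.lean` (`k_g2_of_leaves`); here the landed proofs of the leaf
packages of block K and of the shared basics are plugged in.
-/
import Mathlib
import Fermat.Agent.S14.Interfaces
import Fermat.Agent.S14.Basics2
import Fermat.Agent.S14.KInterfaces
import Fermat.Agent.S14.KGlue
import Fermat.Agent.S14.KMainAux
-- shared basics
import Fermat.Agent.S14.BKummerGal
import Fermat.Agent.S14.BKummerSplitB
import Fermat.Agent.S14.BKummerUnram
import Fermat.Agent.S14.BKummerExists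
import Fermat.Agent.S14.BTrichotomyA
import Fermat.Agent.S14.BNormCl
import Fermat.Agent.S14.BSUnitA
-- block-K packages
import Fermat.Agent.S14.KKummerPow
import Fermat.Agent.S14.KInertPow
import Fermat.Agent.S14.KProdPow
import Fermat.Agent.S14.KModulus
import Fermat.Agent.S14.KUnitAt
import Fermat.Agent.S14.KApprox
import Fermat.Agent.S14.KPowRes
import Fermat.Agent.S14.KPowResCyclic
import Fermat.Agent.S14.KAbIndex
import Fermat.Agent.S14.KSUnitIndex
import Fermat.Agent.S14.KSUnitFracL
import Fermat.Agent.S14.KStep
import Fermat.Agent.S14.KChooseT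
import Fermat.Agent.S14.KSplitPZ
import Fermat.Agent.S14.KRootCong
import Fermat.Agent.S14.KTorsionCount
import Fermat.Agent.S14.KValIndex
import Fermat.Agent.S14.KRed
import Fermat.Agent.S14.KIndexD
import Fermat.Agent.S14.KNorm
import Fermat.Agent.S14.KExistsS
import Fermat.Agent.S14.KPhi
import Fermat.Agent.S14.KLemmaBCore
import Fermat.Agent.S14.KLemmaBL

set_option autoImplicit false

namespace Fermat.Agent.S14

/-- (G2, second inequality) from G1-tame and K3. -/
theorem k_g2 : G1TameStatement → K3Statement → G2Statement :=
  k_g2_of_leaves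
    bkg_kummerGen bkg_kummerGalois (bksb_kummerSplit bkg_kummerGalois)
    (bku_kummerUnram (bksb_kummerSplit bkg_kummerGalois)) bsua_sUnitRank bke_kummerExists
    bpta_primeTrichotomy bnc_totallyComplex
    k_kp_main k_ip_main k_pp_main k_md_lamDvd k_md_main k_ua_unitAt k_ua_congUnit k_ap_main
    k_pr_mul k_pr_inv k_pc_main k_ab_main k_su_main k_sfl_main k_st_main k_ct_main kzsplitp_main
    k_rc_main k_tc_main k_vi_main k_rd_main k_id_main k_nm_splitNorm k_nm_powNorm k_es_main
    k_ph_main k_bc_main k_lbl_main

end Fermat.Agent.S14
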