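/-
S14, block P (glue, plan item P0): FROZEN interface statements of the work packages of block P.
Owner: helper182 (block lead).  Do not edit.  Everything is a `def … : Prop`; each package proves
its statement(s) (possibly from other statements taken as hypotheses) in its own file, and
`Fermat/Agent/S14/PMain.lean` assembles them into `p_glue : GlueStatement`.

Setting: `p` a prime, `G = Gal(ℚ̄/ℚ)` (`P0Gal`), `V` an `𝔽_p`-vector space with an action of `G`,
`C ⊆ V` a submodule, `IsAdmissibleExtensionCts p V C` (frozen definition in the Prelude).  We write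
`χ(σ) = (cycloExp p σ : ZMod p)` for the mod `p` cyclotomic character.
-/
import Mathlib
import Fermat.Prelude.Def_ExtCitation_AdmissibleExtension_v2
import Fermat.Agent.S14.Interfaces

set_option autoImplicit false

open NumberField

namespace Fermat.Agent.S14

/-- The field `ℚ̄`. -/
abbrev P0Kbar : Type := AlgebraicClosure ℚ

/-- The absolute Galois group of `ℚ`. -/
abbrev P0Gal : Type := P0Kbar ≃ₐ[ℚ] P0Kbar

/-- Package `Cyclo`: the mod `p` cyclotomic character `χ = cycloExp p` (cast to `ZMod p`) is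
multiplicative, is characterised by the action on a primitive `p`-th root of unity, such a root
exists in `ℚ̄`, and `χ` is onto `(ℤ/p)ˣ` (irreducibility of the cyclotomic polynomial). -/
def P0CycloStatement : Prop :=
  ∀ (p : ℕ) [Fact p.Prime],
    (∀ σ τ : P0Gal, (ExtCitation.cycloExp p (σ * τ) : ZMod p) =
      (ExtCitation.cycloExp p σ : ZMod p) * (ExtCitation.cycloExp p τ : ZMod p)) ∧
    (∀ (σ : P0Gal) (ζ : P0Kbar), IsPrimitiveRoot ζ p → ∀ a : ℕ,
      (σ ζ = ζ ^ a ↔ (a : ZMod p) = (ExtCitation.cycloExp p σ : ZMod p))) ∧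
    (∃ ζ : P0Kbar, IsPrimitiveRoot ζ p) ∧
    (∀ a : ℕ, ¬ p ∣ a → ∃ σ : P0Gal, (ExtCitation.cycloExp p σ : ZMod p) = (a : ZMod p))

/-- Package `Split` (case (a) of P0): if every `σ` with `χ(σ) = 1` acts trivially on `V`, the
extension splits globally. -/
def P0SplitStatement : Prop :=
  ∀ (p : ℕ) [Fact p.Prime], 3 ≤ p →
  ∀ (V : Type) [AddCommGroup V] [Module (ZMod p) V] [DistribMulAction P0Gal V]
    [SMulCommClass P0Gal (ZMod p) V] (C : Submodule (ZMod p) V),
    ExtCitation.IsAdmissibleExtensionCts p V C →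
    (∀ σ : P0Gal, (ExtCitation.cycloExp p σ : ZMod p) = 1 → ∀ v : V, σ • v = v) →
    ExtCitation.SplitsGlobally C

/-- Package `Rep`, part 1: an element acting trivially on `V` has `χ = 1`. -/
def P0KerStatement : Prop :=
  ∀ (p : ℕ) [Fact p.Prime],
  ∀ (V : Type) [AddCommGroup V] [Module (ZMod p) V] [DistribMulAction P0Gal V]
    [SMulCommClass P0Gal (ZMod p) V] (C : Submodule (ZMod p) V),
    ExtCitation.IsAdmissibleExtensionCts p V C →
    ∀ σ : P0Gal, (∀ v : V, σ • v = v) → (ExtCitation.cycloExp p σ : ZMod p) = 1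

/-- Package `Rep`, part 2 (conjugation rule): if `χ(τ) = 1` and `χ(σ) = a` then `σ⁻¹ τ σ` and
`τ ^ a` act in the same way on `V`. -/
def P0ConjStatement : Prop :=
  ∀ (p : ℕ) [Fact p.Prime],
  ∀ (V : Type) [AddCommGroup V] [Module (ZMod p) V] [DistribMulAction P0Gal V]
    [SMulCommClass P0Gal (ZMod p) V] (C : Submodule (ZMod p) V),
    ExtCitation.IsAdmissibleExtensionCts p V C →
    ∀ (σ τ : P0Gal) (a : ℕ), (ExtCitation.cycloExp p τ : ZMod p) = 1 →
      (a : ZMod p) = (ExtCitation.cycloExp p σ : ZMod p) →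
      ∀ v : V, (σ⁻¹ * τ * σ) • v = (τ ^ a) • v

/-- Package `Rep`, part 3 (local splitting at `p`): an element of the decomposition subgroup of a
valuation subring over `p` with `χ = 1` acts trivially on `V`. -/
def P0LocalStatement : Prop :=
  ∀ (p : ℕ) [Fact p.Prime],
  ∀ (V : Type) [AddCommGroup V] [Module (ZMod p) V] [DistribMulAction P0Gal V]
    [SMulCommClass P0Gal (ZMod p) V] (C : Submodule (ZMod p) V),
    ExtCitation.IsAdmissibleExtensionCts p V C →
    ∀ A : ValuationSubring P0Kbar, A.LiesOverPrime p →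
    ∀ τ : P0Gal, τ ∈ A.decompositionSubgroup ℚ → (ExtCitation.cycloExp p τ : ZMod p) = 1 →
      ∀ v : V, τ • v = v

/-- Package `Index` (case (b) of P0): if some `τ₀` with `χ(τ₀) = 1` acts non-trivially on `V`, the
kernel `U` of the action on `V` has index `p (p - 1)` in `G`. -/
def P0IndexStatement : Prop :=
  ∀ (p : ℕ) [Fact p.Prime],
  ∀ (V : Type) [AddCommGroup V] [Module (ZMod p) V] [DistribMulAction P0Gal V]
    [SMulCommClass P0Gal (ZMod p) V] (C : Submodule (ZMod p) V),
    ExtCitation.IsAdmissibleExtensionCts p V C →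
    (∃ (τ₀ : P0Gal) (v₁ : V), (ExtCitation.cycloExp p τ₀ : ZMod p) = 1 ∧ τ₀ • v₁ ≠ v₁) →
    ∀ U : Subgroup P0Gal, (∀ σ : P0Gal, σ ∈ U ↔ ∀ v : V, σ • v = v) → U.index = p * (p - 1)

/-- Package `Field`: the fixed field `L` of an open normal subgroup `U` of `G` is a finite Galois
extension of `ℚ` of degree `[G : U]`; restriction `res : G → Gal(L/ℚ)` is onto with kernel `U`,
and `L` contains every element of `ℚ̄` fixed by `U`. -/
def P0FieldStatement : Prop :=
  ∀ (U : Subgroup P0Gal), U.Normal → IsOpen (U : Set P0Gal) →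
    ∃ L : IntermediateField ℚ P0Kbar, FiniteDimensional ℚ L ∧ IsGalois ℚ L ∧
      Module.finrank ℚ L = U.index ∧
      (∀ x : P0Kbar, (∀ σ ∈ U, σ x = x) → x ∈ L) ∧
      ∃ res : P0Gal →* (L ≃ₐ[ℚ] L), Function.Surjective res ∧ res.ker = U ∧
        ∀ (σ : P0Gal) (x : L), ((res σ x : L) : P0Kbar) = σ (x : P0Kbar)

/-- Package `Val`: a nonzero prime `P` of the ring of integers of a number field `L ⊆ ℚ̄` contains
a prime number and is cut out by a valuation subring of `ℚ̄`. -/
def P0ValStatement : Prop :=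
  ∀ (L : IntermediateField ℚ P0Kbar) [NumberField L] (P : Ideal (𝓞 L)), P.IsPrime → P ≠ ⊥ →
    (∃ ℓ : ℕ, ℓ.Prime ∧ (ℓ : 𝓞 L) ∈ P) ∧
    ∃ A : ValuationSubring P0Kbar, ∀ x : 𝓞 L, x ∈ P ↔ ((x : L) : P0Kbar) ∈ A.nonunits

/-- Package `Lift`, inertia part (same statement as `Fermat.Agent.S13.InertiaLiftStatement`):
an automorphism of a finite Galois subextension `F/ℚ` of `ℚ̄` which moves every algebraic integer
of `F` by a non-unit of `A` is the restriction of an element of the inertia subgroup of `A`. -/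
def P0InertiaLiftStatement : Prop :=
  ∀ (A : ValuationSubring P0Kbar) (ℓ : ℕ), ℓ.Prime → A.LiesOverPrime ℓ →
    ∀ (F : IntermediateField ℚ P0Kbar) [FiniteDimensional ℚ F] [IsGalois ℚ F] (σ₀ : F ≃ₐ[ℚ] F),
      (∀ x : F, IsIntegral ℤ x → ((σ₀ x : F) : P0Kbar) - (x : P0Kbar) ∈ A.nonunits) →
      ∃ σ : P0Gal, σ ∈ A.inertiaSubgroupIn ℚ ∧ ∀ x : F, σ (x : P0Kbar) = ((σ₀ x : F) : P0Kbar)

/-- Package `Lift`, decomposition part: an automorphism of a finite Galois subextension `F/ℚ` of
`ℚ̄` which maps the prime of the ring of integers of `F` cut out by `A` into itself is the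
restriction of an element of the decomposition subgroup of `A`. -/
def P0DecompLiftStatement : Prop :=
  ∀ (A : ValuationSubring P0Kbar) (ℓ : ℕ), ℓ.Prime → A.LiesOverPrime ℓ →
    ∀ (F : IntermediateField ℚ P0Kbar) [FiniteDimensional ℚ F] [IsGalois ℚ F] (σ₀ : F ≃ₐ[ℚ] F),
      (∀ x : F, IsIntegral ℤ x → (x : P0Kbar) ∈ A.nonunits →
        ((σ₀ x : F) : P0Kbar) ∈ A.nonunits) →
      ∃ σ : P0Gal, σ ∈ A.decompositionSubgroup ℚ ∧
        ∀ x : F, σ (x : P0Kbar) = ((σ₀ x : F) : P0Kbar)

end Fermat.Agent.S14
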