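/-
S14, block P (glue, plan item P0), package `Cyclo` (file A): the mod `p` cyclotomic character
`χ = cycloExp p` (cast to `ZMod p`) on `Gal(ℚ̄/ℚ)` is multiplicative, is characterised by the action
on a primitive `p`-th root of unity, such a root exists in `ℚ̄`, and `χ` is onto `(ℤ/p)ˣ`.
Main theorem: `pcya_cyclo : P0CycloStatement`.
-/
import Mathlib
import Fermat.Agent.S14.PInterfaces

set_option autoImplicit false

open NumberField

namespace Fermat.Agent.S14

/-- `ℚ̄` is an algebraic closure of `ℚ` for the canonical `ℚ`-algebra structure of a division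
ring (the one used in `P0Gal`). -/
theorem pcya_isAlgClosure : IsAlgClosure ℚ P0Kbar := by
  have h : (AlgebraicClosure.instAlgebra ℚ : Algebra ℚ (AlgebraicClosure ℚ)) =
      DivisionRing.toRatAlgebra := Subsingleton.elim _ _
  rw [← h]
  infer_instance

/-- `ℚ̄ / ℚ` is normal. -/
theorem pcya_normal : Normal ℚ P0Kbar :=
  have := pcya_isAlgClosure
  IsAlgClosure.normal ℚ P0Kbar

/-- The cast of `cycloExp p σ` to `ZMod p` is the value of the modular cyclotomic character. -/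
theorem pcya_cast (p : ℕ) [Fact p.Prime] (σ : P0Gal) :
    haveI : NeZero p := ⟨(Fact.out : p.Prime).ne_zero⟩
    (ExtCitation.cycloExp p σ : ZMod p) =
      ((modularCyclotomicCharacter (AlgebraicClosure ℚ) (ExtCitation.card_rootsOfUnity_eq_self p)
        (σ : AlgebraicClosure ℚ ≃+* AlgebraicClosure ℚ) : (ZMod p)ˣ) : ZMod p) := by
  have : NeZero p := ⟨(Fact.out : p.Prime).ne_zero⟩
  unfold ExtCitation.cycloExp
  exact ZMod.natCast_zmod_val _

/-- Multiplicativity of the mod `p` cyclotomic character. -/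
theorem pcya_mul (p : ℕ) [Fact p.Prime] (σ τ : P0Gal) :
    (ExtCitation.cycloExp p (σ * τ) : ZMod p) =
      (ExtCitation.cycloExp p σ : ZMod p) * (ExtCitation.cycloExp p τ : ZMod p) := by
  have : NeZero p := ⟨(Fact.out : p.Prime).ne_zero⟩
  rw [pcya_cast, pcya_cast, pcya_cast]
  have h : ((σ * τ : P0Gal) : P0Kbar ≃+* P0Kbar) =
      (σ : P0Kbar ≃+* P0Kbar) * (τ : P0Kbar ≃+* P0Kbar) := rfl
  rw [h, map_mul, Units.val_mul]

/-- The defining property of the cyclotomic character on a primitive `p`-th root of unity. -/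
theorem pcya_spec (p : ℕ) [Fact p.Prime] (σ : P0Gal) (ζ : P0Kbar) (hζ : IsPrimitiveRoot ζ p) :
    σ ζ = ζ ^ (ExtCitation.cycloExp p σ) := by
  have : NeZero p := ⟨(Fact.out : p.Prime).ne_zero⟩
  have hu : IsUnit ζ := hζ.isUnit (NeZero.ne p)
  have hmem : hu.unit ∈ rootsOfUnity p P0Kbar := by
    rw [mem_rootsOfUnity]
    ext
    simp [hζ.pow_eq_one]
  have h := modularCyclotomicCharacter.spec P0Kbar (ExtCitation.card_rootsOfUnity_eq_self p)
    (σ : P0Kbar ≃+* P0Kbar) hmem
  simpa [ExtCitation.cycloExp] using h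

/-- Characterisation of `χ(σ)` by the action on a primitive `p`-th root of unity. -/
theorem pcya_iff (p : ℕ) [Fact p.Prime] (σ : P0Gal) (ζ : P0Kbar) (hζ : IsPrimitiveRoot ζ p)
    (a : ℕ) : σ ζ = ζ ^ a ↔ (a : ZMod p) = (ExtCitation.cycloExp p σ : ZMod p) := by
  have hfin : IsOfFinOrder ζ := hζ.isOfFinOrder (Fact.out : p.Prime).ne_zero
  rw [pcya_spec p σ ζ hζ, hfin.pow_eq_pow_iff_modEq, ← hζ.eq_orderOf,
    ZMod.natCast_eq_natCast_iff]
  exact ⟨fun h => h.symm, fun h => h.symm⟩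

/-- `ℚ̄` contains a primitive `p`-th root of unity. -/
theorem pcya_exists_primitiveRoot (p : ℕ) [Fact p.Prime] : ∃ ζ : P0Kbar, IsPrimitiveRoot ζ p := by
  have : NeZero p := ⟨(Fact.out : p.Prime).ne_zero⟩
  have : NeZero (p : P0Kbar) := ⟨Nat.cast_ne_zero.mpr (NeZero.ne p)⟩
  exact HasEnoughRootsOfUnity.exists_primitiveRoot P0Kbar p

/-- Surjectivity of the mod `p` cyclotomic character (irreducibility of the cyclotomic
polynomial). -/
theorem pcya_surj (p : ℕ) [Fact p.Prime] (a : ℕ) (ha : ¬ p ∣ a) :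
    ∃ σ : P0Gal, (ExtCitation.cycloExp p σ : ZMod p) = (a : ZMod p) := by
  have hp : p.Prime := Fact.out
  have := pcya_isAlgClosure
  have : Normal ℚ P0Kbar := pcya_normal
  obtain ⟨ζ, hζ⟩ := pcya_exists_primitiveRoot p
  have hcop : a.Coprime p := ((Nat.Prime.coprime_iff_not_dvd hp).mpr ha).symm
  have hζa : IsPrimitiveRoot (ζ ^ a) p := hζ.pow_of_coprime a hcop
  have h1 : minpoly ℚ ζ = Polynomial.cyclotomic p ℚ :=
    (Polynomial.cyclotomic_eq_minpoly_rat hζ hp.pos).symm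
  have h2 : minpoly ℚ (ζ ^ a) = Polynomial.cyclotomic p ℚ :=
    (Polynomial.cyclotomic_eq_minpoly_rat hζa hp.pos).symm
  have hconj : IsConjRoot ℚ (ζ ^ a) ζ := by
    rw [isConjRoot_def, h1, h2]
  obtain ⟨σ, hσ⟩ := isConjRoot_iff_exists_algEquiv.mp hconj
  exact ⟨σ, ((pcya_iff p σ ζ hζ a).mp hσ).symm⟩

/-- Package `Cyclo` of block P. -/
theorem pcya_cyclo : P0CycloStatement := by
  intro p _
  exact ⟨pcya_mul p, fun σ ζ hζ a => pcya_iff p σ ζ hζ a, pcya_exists_primitiveRoot p,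
    pcya_surj p⟩

end Fermat.Agent.S14
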