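/-
S14, block P, package `Field` (file A): the fixed field of an open normal subgroup `U` of
`Gal(ℚ̄/ℚ)` is a finite Galois extension of `ℚ` of degree `[G : U]`, restriction to it is onto
with kernel `U`, and it contains every element fixed by `U`.
-/
import Mathlib
import Fermat.Agent.S14.PInterfaces

set_option autoImplicit false

open NumberField

namespace Fermat.Agent.S14

/-- Infinite Galois theory for an open normal subgroup, over an arbitrary Galois extension
(stated with the intermediate-field algebra structure on the fixed field). -/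
theorem pfda_general (k K : Type) [Field k] [Field K] [Algebra k K] [IsGalois k K]
    (U : Subgroup (K ≃ₐ[k] K)) (hn : U.Normal) (ho : IsOpen (U : Set (K ≃ₐ[k] K))) :
    ∃ L : IntermediateField k K, FiniteDimensional k L ∧ IsGalois k L ∧
      Module.finrank k L = U.index ∧
      (∀ x : K, (∀ σ ∈ U, σ x = x) → x ∈ L) ∧
      ∃ res : (K ≃ₐ[k] K) →* (L ≃ₐ[k] L), Function.Surjective res ∧ res.ker = U ∧
        ∀ (σ : K ≃ₐ[k] K) (x : L), ((res σ x : L) : K) = σ (x : K) := by
  have hclosed : IsClosed (U : Set (K ≃ₐ[k] K)) := Subgroup.isClosed_of_isOpen U ho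
  have hfix : (IntermediateField.fixedField U).fixingSubgroup = U :=
    InfiniteGalois.fixingSubgroup_fixedField (⟨U, hclosed⟩ : ClosedSubgroup (K ≃ₐ[k] K))
  have hfin : FiniteDimensional k (IntermediateField.fixedField U) := by
    rw [← InfiniteGalois.isOpen_iff_finite, hfix]
    exact ho
  have hgal : IsGalois k (IntermediateField.fixedField U) := by
    rw [← InfiniteGalois.normal_iff_isGalois, hfix]
    exact hn
  have hnorm : Normal k (IntermediateField.fixedField U) := hgal.to_normal
  have hsurj : Function.Surjective
      (AlgEquiv.restrictNormalHom (F := k) (K₁ := K) (IntermediateField.fixedField U)) :=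
    AlgEquiv.restrictNormalHom_surjective K
  have hker : (AlgEquiv.restrictNormalHom (F := k) (K₁ := K)
      (IntermediateField.fixedField U)).ker = U := by
    rw [IntermediateField.restrictNormalHom_ker, hfix]
  refine ⟨IntermediateField.fixedField U, hfin, hgal, ?_, ?_,
    AlgEquiv.restrictNormalHom (IntermediateField.fixedField U), hsurj, hker, ?_⟩
  · have hidx : U.index = Nat.card ((IntermediateField.fixedField U) ≃ₐ[k]
        (IntermediateField.fixedField U)) := by
      have h1 := Subgroup.index_ker (AlgEquiv.restrictNormalHom (F := k) (K₁ := K)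
        (IntermediateField.fixedField U))
      rw [hker, MonoidHom.range_eq_top.mpr hsurj, Subgroup.card_top] at h1
      exact h1
    rw [hidx]
    exact (IsGalois.card_aut_eq_finrank k (IntermediateField.fixedField U)).symm
  · intro x hx
    exact (IntermediateField.mem_fixedField_iff U x).mpr hx
  · intro σ x
    exact AlgEquiv.restrictNormalHom_apply (IntermediateField.fixedField U) σ x

/-- `ℚ̄` is an algebraic closure of `ℚ` for the canonical `ℚ`-algebra structure of a division
ring. -/
theorem pfda_isAlgClosure : IsAlgClosure ℚ P0Kbar := by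
  have h : (AlgebraicClosure.instAlgebra ℚ : Algebra ℚ (AlgebraicClosure ℚ)) =
      DivisionRing.toRatAlgebra := Subsingleton.elim _ _
  rw [← h]
  infer_instance

/-- `ℚ̄ / ℚ` is Galois (for the canonical `ℚ`-algebra structure of a division ring). -/
theorem pfda_isGalois : IsGalois ℚ P0Kbar := by
  have : IsAlgClosure ℚ P0Kbar := pfda_isAlgClosure
  have : Algebra.IsAlgebraic ℚ P0Kbar := IsAlgClosure.isAlgebraic
  have : Normal ℚ P0Kbar := IsAlgClosure.normal ℚ P0Kbar
  exact ⟨⟩

/-- Package `Field`. -/
theorem pfda_field : P0FieldStatement := by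
  intro U hn ho
  have : IsGalois ℚ P0Kbar := pfda_isGalois
  exact pfda_general ℚ P0Kbar U hn ho

end Fermat.Agent.S14
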