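/-
S14, block P (glue), package `Index` (twin B).

Given the cyclotomic facts `P0CycloStatement`, for an admissible extension `C ⊆ V` on which some
element `τ₀` of the kernel of the mod `p` cyclotomic character acts non-trivially, the kernel `U`
of the action of `Gal(ℚ̄/ℚ)` on `V` has index `p (p - 1)`.

Main theorem: `pixb_index : P0CycloStatement → P0IndexStatement`.
-/
import Mathlib
import Fermat.Agent.S14.PInterfaces
set_option autoImplicit false
open NumberField
namespace Fermat.Agent.S14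

/-- The mod `p` cyclotomic character sends `1` to `1`. -/
theorem pixb_chi_one (hcyc : P0CycloStatement) (p : ℕ) [Fact p.Prime] :
    (ExtCitation.cycloExp p (1 : P0Gal) : ZMod p) = 1 := by
  obtain ⟨-, h2, ⟨ζ, hζ⟩, -⟩ := hcyc p
  have h := (h2 1 ζ hζ 1).mp (by rw [pow_one]; rfl)
  rw [← h, Nat.cast_one]

/-- The mod `p` cyclotomic character as a surjective group homomorphism to `(ZMod p)ˣ`. -/
theorem pixb_exists_hom (hcyc : P0CycloStatement) (p : ℕ) [Fact p.Prime] :
    ∃ X : P0Gal →* (ZMod p)ˣ,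
      (∀ σ : P0Gal, ((X σ : (ZMod p)ˣ) : ZMod p) = (ExtCitation.cycloExp p σ : ZMod p)) ∧
      Function.Surjective X := by
  have hp : p.Prime := Fact.out
  obtain ⟨h1, -, -, h4⟩ := hcyc p
  let χ : P0Gal →* ZMod p :=
    { toFun := fun σ => (ExtCitation.cycloExp p σ : ZMod p)
      map_one' := pixb_chi_one hcyc p
      map_mul' := h1 }
  refine ⟨χ.toHomUnits, fun σ => rfl, ?_⟩
  intro u
  have hu : ((u : ZMod p).val : ZMod p) = (u : ZMod p) := ZMod.natCast_zmod_val (u : ZMod p)
  have hnd : ¬ p ∣ (u : ZMod p).val := by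
    intro hdvd
    have h0 : ((u : ZMod p).val : ZMod p) = 0 := (ZMod.natCast_eq_zero_iff _ _).mpr hdvd
    rw [hu] at h0
    exact u.ne_zero h0
  obtain ⟨σ, hσ⟩ := h4 _ hnd
  refine ⟨σ, Units.ext ?_⟩
  rw [MonoidHom.coe_toHomUnits]
  exact hσ.trans hu

/-- `C` is a proper submodule of `V`. -/
theorem pixb_exists_notMem (p : ℕ) [Fact p.Prime]
    (V : Type) [AddCommGroup V] [Module (ZMod p) V] [DistribMulAction P0Gal V]
    [SMulCommClass P0Gal (ZMod p) V] (C : Submodule (ZMod p) V)
    (hadm : ExtCitation.IsAdmissibleExtensionCts p V C) : ∃ v₀ : V, v₀ ∉ C := by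
  have hp : p.Prime := Fact.out
  by_contra h
  have h' : ∀ v : V, v ∈ C := fun v => by
    by_contra hv
    exact h ⟨v, hv⟩
  have hcard : Nat.card C = Nat.card V :=
    Nat.card_congr ⟨fun x => x.1, fun v => ⟨v, h' v⟩, fun _ => rfl, fun _ => rfl⟩
  rw [hadm.card_sub, hadm.card_total] at hcard
  have h2 : p * 1 = p * p := by rw [mul_one, ← sq]; exact hcard
  exact hp.one_lt.ne (Nat.eq_of_mul_eq_mul_left hp.pos h2)

/-- An element acting trivially on `V` lies in the kernel of the cyclotomic character. -/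
theorem pixb_ker (p : ℕ) [Fact p.Prime]
    (V : Type) [AddCommGroup V] [Module (ZMod p) V] [DistribMulAction P0Gal V]
    [SMulCommClass P0Gal (ZMod p) V] (C : Submodule (ZMod p) V)
    (hadm : ExtCitation.IsAdmissibleExtensionCts p V C) (σ : P0Gal) (hσ : ∀ v : V, σ • v = v) :
    (ExtCitation.cycloExp p σ : ZMod p) = 1 := by
  obtain ⟨v₀, hv₀⟩ := pixb_exists_notMem p V C hadm
  by_contra hne
  have h1 := hadm.cyclo_quot σ v₀
  rw [hσ v₀] at h1
  have h2 : ((1 : ZMod p) - (ExtCitation.cycloExp p σ : ZMod p)) • v₀ ∈ C := by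
    rw [sub_smul, one_smul]
    exact h1
  have hu : (1 : ZMod p) - (ExtCitation.cycloExp p σ : ZMod p) ≠ 0 :=
    fun h => hne (sub_eq_zero.mp h).symm
  have h3 := C.smul_mem ((1 : ZMod p) - (ExtCitation.cycloExp p σ : ZMod p))⁻¹ h2
  rw [smul_smul, inv_mul_cancel₀ hu, one_smul] at h3
  exact hv₀ h3

/-- An element which fixes a vector outside `C` acts trivially on `V`. -/
theorem pixb_fix_all (p : ℕ) [Fact p.Prime]
    (V : Type) [AddCommGroup V] [Module (ZMod p) V] [DistribMulAction P0Gal V]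
    [SMulCommClass P0Gal (ZMod p) V] (C : Submodule (ZMod p) V)
    (hadm : ExtCitation.IsAdmissibleExtensionCts p V C) (v₀ : V) (hv₀ : v₀ ∉ C)
    (τ : P0Gal) (hτ : τ • v₀ = v₀) : ∀ v : V, τ • v = v := by
  have hp : p.Prime := Fact.out
  have : Finite V := Nat.finite_of_card_ne_zero (by
    rw [hadm.card_total]
    exact pow_ne_zero 2 hp.ne_zero)
  let W : AddSubgroup V :=
    { carrier := {v | τ • v = v}
      add_mem' := fun {a b} ha hb => by
        have ha' : τ • a = a := ha
        have hb' : τ • b = b := hb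
        show τ • (a + b) = a + b
        rw [smul_add, ha', hb']
      zero_mem' := smul_zero τ
      neg_mem' := fun {a} ha => by
        have ha' : τ • a = a := ha
        show τ • (-a) = -a
        rw [smul_neg, ha'] }
  have hCW : C.toAddSubgroup ≤ W := fun x hx => hadm.fixed_sub τ x hx
  have hv₀W : v₀ ∈ W := hτ
  have hcardC : Nat.card C.toAddSubgroup = p := hadm.card_sub
  have h1 : Nat.card C.toAddSubgroup ∣ Nat.card W := AddSubgroup.card_dvd_of_le hCW
  have h2 : Nat.card W ∣ Nat.card V := AddSubgroup.card_addSubgroup_dvd_card W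
  rw [hadm.card_total] at h2
  rw [hcardC] at h1
  obtain ⟨k, hk, hkW⟩ := (Nat.dvd_prime_pow hp).mp h2
  have hW : W = ⊤ := by
    interval_cases k
    · rw [hkW, pow_zero] at h1
      exact absurd (Nat.dvd_one.mp h1) hp.one_lt.ne'
    · exfalso
      have hCW' : C.toAddSubgroup = W :=
        AddSubgroup.eq_of_le_of_card_ge hCW (by rw [hkW, hcardC, pow_one])
      have : v₀ ∈ C.toAddSubgroup := hCW' ▸ hv₀W
      exact hv₀ this
    · exact (AddSubgroup.card_eq_iff_eq_top W).mp (by rw [hkW, hadm.card_total])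
  intro v
  have hv : v ∈ W := hW ▸ AddSubgroup.mem_top v
  exact hv

/-- Package `Index`: the kernel of the action on `V` has index `p (p - 1)`. -/
theorem pixb_index : P0CycloStatement → P0IndexStatement := by
  intro hcyc p _ V _ _ _ _ C hadm hex U hU
  obtain ⟨τ₀, v₁, hτ₀, hτ₀v₁⟩ := hex
  have hp : p.Prime := Fact.out
  obtain ⟨X, hX, hXsurj⟩ := pixb_exists_hom hcyc p
  obtain ⟨v₀, hv₀⟩ := pixb_exists_notMem p V C hadm
  have hker : ∀ σ : P0Gal, σ ∈ X.ker ↔ (ExtCitation.cycloExp p σ : ZMod p) = 1 := by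
    intro σ
    rw [MonoidHom.mem_ker, ← hX, Units.ext_iff, Units.val_one]
  have hUle : U ≤ X.ker := fun σ hσ => (hker σ).mpr (pixb_ker p V C hadm σ ((hU σ).mp hσ))
  -- the index of the kernel of the cyclotomic character
  have hindexK : X.ker.index = p - 1 := by
    rw [Subgroup.index_ker, MonoidHom.range_eq_top.mpr hXsurj, Subgroup.card_top,
      Nat.card_eq_fintype_card, ZMod.card_units]
  -- the cocycle `τ ↦ τ • v₀ - v₀` is a homomorphism on the kernel of the cyclotomic character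
  have hmem : ∀ τ : X.ker, (τ : P0Gal) • v₀ - v₀ ∈ C := by
    intro τ
    have h := hadm.cyclo_quot (τ : P0Gal) v₀
    rw [(hker τ).mp τ.2, one_smul] at h
    exact h
  let φ : X.ker →* Multiplicative C :=
    { toFun := fun τ => Multiplicative.ofAdd ⟨(τ : P0Gal) • v₀ - v₀, hmem τ⟩
      map_one' := by
        show Multiplicative.ofAdd (⟨((1 : X.ker) : P0Gal) • v₀ - v₀, hmem 1⟩ : C) = 1
        rw [← ofAdd_zero]
        congr 1
        apply Subtype.ext
        show ((1 : X.ker) : P0Gal) • v₀ - v₀ = 0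
        rw [Subgroup.coe_one, one_smul, sub_self]
      map_mul' := by
        intro τ τ'
        show Multiplicative.ofAdd (⟨((τ * τ' : X.ker) : P0Gal) • v₀ - v₀, hmem (τ * τ')⟩ : C) =
          Multiplicative.ofAdd (⟨(τ : P0Gal) • v₀ - v₀, hmem τ⟩ : C) *
            Multiplicative.ofAdd (⟨(τ' : P0Gal) • v₀ - v₀, hmem τ'⟩ : C)
        rw [← ofAdd_add]
        congr 1
        apply Subtype.ext
        show ((τ * τ' : X.ker) : P0Gal) • v₀ - v₀ =
          ((τ : P0Gal) • v₀ - v₀) + ((τ' : P0Gal) • v₀ - v₀)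
        have hfix := hadm.fixed_sub (τ : P0Gal) _ (hmem τ')
        rw [smul_sub] at hfix
        rw [Subgroup.coe_mul, mul_smul]
        have : (τ : P0Gal) • (τ' : P0Gal) • v₀ =
            ((τ' : P0Gal) • v₀ - v₀) + (τ : P0Gal) • v₀ := by
          rw [← hfix]; abel
        rw [this]; abel }
  have hφ : ∀ τ : X.ker, φ τ = 1 ↔ (τ : P0Gal) • v₀ = v₀ := by
    intro τ
    show Multiplicative.ofAdd (⟨(τ : P0Gal) • v₀ - v₀, hmem τ⟩ : C) = 1 ↔ _
    rw [ofAdd_eq_one, Subtype.ext_iff]
    show (τ : P0Gal) • v₀ - v₀ = 0 ↔ _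
    exact sub_eq_zero
  have hφker : φ.ker = U.subgroupOf X.ker := by
    ext τ
    rw [MonoidHom.mem_ker, Subgroup.mem_subgroupOf, hU, hφ]
    exact ⟨fun h => pixb_fix_all p V C hadm v₀ hv₀ τ h, fun h => h v₀⟩
  have hcardC : Nat.card (Multiplicative C) = p :=
    (Nat.card_congr Multiplicative.toAdd).trans hadm.card_sub
  have hφrange : φ.range = ⊤ := by
    have : Fact (Nat.card (Multiplicative C)).Prime := ⟨by rw [hcardC]; exact hp⟩
    rcases φ.range.eq_bot_or_eq_top_of_prime_card with h | h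
    · exfalso
      have h1 : φ ⟨τ₀, (hker τ₀).mpr hτ₀⟩ ∈ φ.range := ⟨_, rfl⟩
      rw [h, Subgroup.mem_bot, hφ] at h1
      exact hτ₀v₁ (pixb_fix_all p V C hadm v₀ hv₀ τ₀ h1 v₁)
    · exact h
  have hrel : U.relIndex X.ker = p := by
    rw [Subgroup.relIndex, ← hφker, Subgroup.index_ker, hφrange, Subgroup.card_top, hcardC]
  rw [← Subgroup.relIndex_mul_index hUle, hrel, hindexK]

end Fermat.Agent.S14
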