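/-
S14, block P (glue, plan item P0): assembly of the packages of block P.
`p_glue_of` proves `GlueStatement` from the frozen package Props of `PInterfaces.lean`.
-/
import Mathlib
import Fermat.Agent.S14.Interfaces
import Fermat.Agent.S14.PInterfaces

set_option autoImplicit false

open NumberField

namespace Fermat.Agent.S14

/-- An automorphism of a number field which fixes every algebraic integer is the identity. -/
theorem p_aut_eq_one_of_integers (L : Type) [Field L] [NumberField L] (σ : L ≃ₐ[ℚ] L)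
    (h : ∀ x : 𝓞 L, σ (x : L) = (x : L)) : σ = 1 := by
  ext z
  obtain ⟨x, y, -, rfl⟩ := IsFractionRing.div_surjective (A := 𝓞 L) z
  rw [map_div₀]
  show σ ((x : 𝓞 L) : L) / σ ((y : 𝓞 L) : L) = _
  rw [h x, h y]
  rfl

/-- Assembly of block P: the glue statement from the package statements. -/
theorem p_glue_of (hcy : P0CycloStatement) (hsplit : P0SplitStatement) (hker : P0KerStatement)
    (hconj : P0ConjStatement) (hloc : P0LocalStatement) (hidx : P0IndexStatement)
    (hfield : P0FieldStatement) (hval : P0ValStatement) (hin : P0InertiaLiftStatement)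
    (hdec : P0DecompLiftStatement) : GlueStatement := by
  intro hR p _ h3 V _ _ _ _ C hadm
  by_cases hA : ∀ σ : P0Gal, (ExtCitation.cycloExp p σ : ZMod p) = 1 → ∀ v : V, σ • v = v
  · exact hsplit p h3 V C hadm hA
  exfalso
  -- case (b): some `τ₀` with `χ(τ₀) = 1` acts non-trivially
  have hB : ∃ (τ₀ : P0Gal) (v₁ : V),
      (ExtCitation.cycloExp p τ₀ : ZMod p) = 1 ∧ τ₀ • v₁ ≠ v₁ := by
    by_contra hcon
    apply hA
    intro σ hσ v
    by_contra hne
    exact hcon ⟨σ, v, hσ, hne⟩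
  obtain ⟨-, hchar, ⟨ζ, hζ⟩, -⟩ := hcy p
  -- the kernel of the action on `V`
  let U : Subgroup P0Gal :=
    { carrier := {σ | ∀ v : V, σ • v = v}
      mul_mem' := fun {a b} ha hb v => by rw [mul_smul, hb v, ha v]
      one_mem' := fun v => one_smul _ v
      inv_mem' := fun {a} ha v => by
        rw [inv_smul_eq_iff]
        exact (ha v).symm }
  have hUmem : ∀ σ : P0Gal, σ ∈ U ↔ ∀ v : V, σ • v = v := fun σ => Iff.rfl
  have hUnormal : U.Normal := by
    constructor
    intro n hn g v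
    rw [mul_smul, mul_smul, hn (g⁻¹ • v), smul_inv_smul]
  have hUopen : IsOpen (U : Set P0Gal) := hadm.open_kernel
  obtain ⟨L, hLfin, hLgal, hLrank, hLmem, res, hres_surj, hres_ker, hres⟩ :=
    hfield U hUnormal hUopen
  have hindex : U.index = p * (p - 1) := hidx p V C hadm hB U hUmem
  have : FiniteDimensional ℚ L := hLfin
  have : IsGalois ℚ L := hLgal
  have : NumberField L := ⟨⟩
  -- elements of `U` restrict to the identity, and conversely
  have hres_one : ∀ σ : P0Gal, (∀ v : V, σ • v = v) → res σ = 1 := by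
    intro σ hσ
    have h1 : σ ∈ res.ker := by
      rw [hres_ker]
      exact hσ
    exact MonoidHom.mem_ker.mp h1
  have hres_eq : ∀ (σ : P0Gal) (σ₀ : L ≃ₐ[ℚ] L),
      (∀ x : L, σ (x : P0Kbar) = ((σ₀ x : L) : P0Kbar)) → res σ = σ₀ := by
    intro σ σ₀ h
    ext x
    rw [hres, h]
  -- `χ(σ) = 1` as soon as `σ` fixes `ζ`
  have hchi_one : ∀ σ : P0Gal, σ ζ = ζ → (ExtCitation.cycloExp p σ : ZMod p) = 1 := by
    intro σ hσ
    have h1 := (hchar σ ζ hζ 1).mp (by rw [pow_one]; exact hσ)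
    rw [← h1, Nat.cast_one]
  -- the root of unity lies in `L`
  have hζL : ζ ∈ L := by
    refine hLmem ζ fun σ hσ => ?_
    have h1 : (ExtCitation.cycloExp p σ : ZMod p) = 1 := hker p V C hadm σ hσ
    have h2 := (hchar σ ζ hζ 1).mpr (by rw [h1, Nat.cast_one])
    rwa [pow_one] at h2
  have hζLprim : IsPrimitiveRoot (⟨ζ, hζL⟩ : L) p :=
    IsPrimitiveRoot.coe_submonoidClass_iff.mp hζ
  refine hR p h3 L ⟨ζ, hζL⟩ hζLprim (hLrank.trans hindex) ?_ ?_ ?_
  · -- the conjugation rule
    intro σ τ a hτ hσ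
    obtain ⟨σ', rfl⟩ := hres_surj σ
    obtain ⟨τ', rfl⟩ := hres_surj τ
    have hτ' : τ' ζ = ζ := by
      have h1 := congrArg Subtype.val hτ
      rw [hres] at h1
      exact h1
    have hσ' : σ' ζ = ζ ^ a := by
      have h1 := congrArg Subtype.val hσ
      rw [hres] at h1
      exact h1
    have h1 : (ExtCitation.cycloExp p τ' : ZMod p) = 1 := hchi_one τ' hτ'
    have h2 : (a : ZMod p) = (ExtCitation.cycloExp p σ' : ZMod p) := (hchar σ' ζ hζ a).mp hσ'
    have h4 := hconj p V C hadm σ' τ' a h1 h2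
    have h5 : res ((σ'⁻¹ * τ' * σ')⁻¹ * τ' ^ a) = 1 := by
      apply hres_one
      intro v
      rw [mul_smul, ← h4 v, inv_smul_smul]
    rw [map_mul, map_inv, inv_mul_eq_one] at h5
    rw [← map_inv, ← map_mul, ← map_mul, ← map_pow]
    exact h5
  · -- inertia at primes not above `p`
    intro P hP hpP σ hσ
    by_cases hP0 : P = ⊥
    · apply p_aut_eq_one_of_integers
      intro x
      obtain ⟨y, hy, hyx⟩ := hσ x
      rw [hP0, Ideal.mem_bot] at hy
      rw [hy] at hyx
      have h1 : σ (x : L) - (x : L) = 0 := by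
        rw [← hyx]
        rfl
      exact sub_eq_zero.mp h1
    · obtain ⟨⟨ℓ, hℓ, hℓP⟩, A, hAP⟩ := hval L P hP hP0
      have hne : ℓ ≠ p := by
        rintro rfl
        exact hpP hℓP
      have hAℓ : A.LiesOverPrime ℓ := by
        have h1 := (hAP (ℓ : 𝓞 L)).mp hℓP
        have h2 : (((ℓ : 𝓞 L) : L) : P0Kbar) = (ℓ : P0Kbar) := by
          simp
        rw [h2] at h1
        exact h1
      obtain ⟨σ', hσ'I, hσ'⟩ := hin A ℓ hℓ hAℓ L σ (by
        intro x hx
        obtain ⟨y, hyP, hy⟩ := hσ ⟨x, hx⟩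
        have h1 := (hAP y).mp hyP
        rw [hy] at h1
        exact h1)
      rw [← hres_eq σ' σ hσ']
      exact hres_one σ' (hadm.unramified_outside ℓ hℓ hne A hAℓ σ' hσ'I)
  · -- decomposition groups at primes above `p`
    intro P hP hpP τ hτζ hτP
    have hP0 : P ≠ ⊥ := by
      rintro rfl
      rw [Ideal.mem_bot] at hpP
      have hp0 : (p : 𝓞 L) ≠ 0 := Nat.cast_ne_zero.mpr (Fact.out : p.Prime).ne_zero
      exact hp0 hpP
    obtain ⟨-, A, hAP⟩ := hval L P hP hP0
    have hAp : A.LiesOverPrime p := by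
      have h1 := (hAP (p : 𝓞 L)).mp hpP
      have h2 : (((p : 𝓞 L) : L) : P0Kbar) = (p : P0Kbar) := by
        simp
      rw [h2] at h1
      exact h1
    obtain ⟨τ', hτ'D, hτ'⟩ := hdec A p Fact.out hAp L τ (by
      intro x hx hxA
      have hxP : (⟨x, hx⟩ : 𝓞 L) ∈ P := (hAP ⟨x, hx⟩).mpr hxA
      obtain ⟨y, hyP, hy⟩ := hτP ⟨x, hx⟩ hxP
      have h1 := (hAP y).mp hyP
      rw [hy] at h1
      exact h1)
    have hτ'ζ : τ' ζ = ζ := by
      have h1 := hτ' ⟨ζ, hζL⟩
      rw [hτζ] at h1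
      exact h1
    rw [← hres_eq τ' τ hτ']
    exact hres_one τ' (hloc p V C hadm A hAp τ' hτ'D (hchi_one τ' hτ'ζ))

end Fermat.Agent.S14
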