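/-
S14, block P (glue, plan item P0), package `Rep`: elementary facts about the representation `V`
of an admissible extension.  Proves `P0KerStatement`, `P0ConjStatement`, `P0LocalStatement`.
-/
import Mathlib
import Fermat.Agent.S14.PInterfaces

set_option autoImplicit false

open NumberField

namespace Fermat.Agent.S14

/-- The submodule `C` of an admissible extension is a proper submodule: some `v` is not in `C`. -/
theorem prp_exists_not_mem (p : ℕ) [Fact p.Prime]
    (V : Type) [AddCommGroup V] [Module (ZMod p) V] [DistribMulAction P0Gal V]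
    [SMulCommClass P0Gal (ZMod p) V] (C : Submodule (ZMod p) V)
    (hadm : ExtCitation.IsAdmissibleExtensionCts p V C) : ∃ v : V, v ∉ C := by
  have hp : p.Prime := Fact.out
  by_contra hcon
  have htop : C = ⊤ := by
    rw [eq_top_iff]
    intro v _
    by_contra hv
    exact hcon ⟨v, hv⟩
  have h1 : Nat.card C = Nat.card V := by
    rw [htop]
    exact Nat.card_congr (Submodule.topEquiv (R := ZMod p) (M := V)).toEquiv
  rw [hadm.card_sub, hadm.card_total] at h1
  have h2 : p * 1 = p * p := by rw [mul_one, ← sq]; exact h1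
  have h3 : 1 = p := Nat.eq_of_mul_eq_mul_left hp.pos h2
  exact hp.one_lt.ne h3

/-- If `χ(τ) = 1` then `τ • w - w ∈ C` for all `w`. -/
theorem prp_sub_mem (p : ℕ) [Fact p.Prime]
    (V : Type) [AddCommGroup V] [Module (ZMod p) V] [DistribMulAction P0Gal V]
    [SMulCommClass P0Gal (ZMod p) V] (C : Submodule (ZMod p) V)
    (hadm : ExtCitation.IsAdmissibleExtensionCts p V C) (τ : P0Gal)
    (hτ : (ExtCitation.cycloExp p τ : ZMod p) = 1) (w : V) : τ • w - w ∈ C := by
  have h := hadm.cyclo_quot τ w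
  rwa [hτ, one_smul] at h

/-- If `χ(τ) = 1` then `τ ^ n • w = w + n • (τ • w - w)`. -/
theorem prp_pow_smul (p : ℕ) [Fact p.Prime]
    (V : Type) [AddCommGroup V] [Module (ZMod p) V] [DistribMulAction P0Gal V]
    [SMulCommClass P0Gal (ZMod p) V] (C : Submodule (ZMod p) V)
    (hadm : ExtCitation.IsAdmissibleExtensionCts p V C) (τ : P0Gal)
    (hτ : (ExtCitation.cycloExp p τ : ZMod p) = 1) (n : ℕ) (w : V) :
    (τ ^ n) • w = w + n • (τ • w - w) := by
  induction n with
  | zero => simp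
  | succ n ih =>
    have hd : τ • w - w ∈ C := prp_sub_mem p V C hadm τ hτ w
    have hfix : τ • (n • (τ • w - w)) = n • (τ • w - w) :=
      hadm.fixed_sub τ _ (C.nsmul_mem hd n)
    rw [pow_succ', mul_smul, ih, smul_add, hfix, succ_nsmul]
    abel

/-- Package `Rep`, part 1. -/
theorem prp_ker : P0KerStatement := by
  intro p _ V _ _ _ _ C hadm σ hσ
  obtain ⟨v, hv⟩ := prp_exists_not_mem p V C hadm
  by_contra hχ
  have h1 := hadm.cyclo_quot σ v
  rw [hσ v] at h1
  have h2 : ((1 : ZMod p) - (ExtCitation.cycloExp p σ : ZMod p)) • v ∈ C := by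
    rw [sub_smul, one_smul]; exact h1
  have hne : (1 : ZMod p) - (ExtCitation.cycloExp p σ : ZMod p) ≠ 0 := by
    intro h
    exact hχ (sub_eq_zero.mp h).symm
  have h3 := C.smul_mem ((1 : ZMod p) - (ExtCitation.cycloExp p σ : ZMod p))⁻¹ h2
  rw [smul_smul, inv_mul_cancel₀ hne, one_smul] at h3
  exact hv h3

/-- Package `Rep`, part 2 (conjugation rule). -/
theorem prp_conj : P0ConjStatement := by
  intro p _ V _ _ _ _ C hadm σ τ a hτ ha v
  -- `d v := τ • v - v ∈ C`
  have hd : τ • v - v ∈ C := prp_sub_mem p V C hadm τ hτ v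
  -- `c₁ := σ • v - χ(σ) • v ∈ C`
  have hc₁ : σ • v - (ExtCitation.cycloExp p σ : ZMod p) • v ∈ C := hadm.cyclo_quot σ v
  have hσv : σ • v = (ExtCitation.cycloExp p σ : ZMod p) • v +
      (σ • v - (ExtCitation.cycloExp p σ : ZMod p) • v) := by abel
  -- `τ • σ • v = σ • v + χ(σ) • d v`
  have h1 : τ • σ • v = σ • v + (ExtCitation.cycloExp p σ : ZMod p) • (τ • v - v) := by
    have h2 : τ • σ • v = τ • ((ExtCitation.cycloExp p σ : ZMod p) • v) +
        τ • (σ • v - (ExtCitation.cycloExp p σ : ZMod p) • v) := by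
      rw [← smul_add]
      congr 1
    rw [h2, hadm.fixed_sub τ _ hc₁, smul_comm τ, smul_sub]
    abel
  -- apply `σ⁻¹`
  have h3 : σ⁻¹ • ((ExtCitation.cycloExp p σ : ZMod p) • (τ • v - v)) =
      (ExtCitation.cycloExp p σ : ZMod p) • (τ • v - v) :=
    hadm.fixed_sub σ⁻¹ _ (C.smul_mem _ hd)
  rw [mul_smul, mul_smul, h1, smul_add, inv_smul_smul, h3,
    prp_pow_smul p V C hadm τ hτ a v, ← ha, Nat.cast_smul_eq_nsmul (ZMod p)]

/-- Package `Rep`, part 3 (local splitting at `p`). -/
theorem prp_local : P0LocalStatement := by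
  intro p _ V _ _ _ _ C hadm A hA τ hτA hτ v
  obtain ⟨C', hstab, hcompl⟩ := hadm.locally_split A hA
  have hv : v ∈ C ⊔ C' := by
    rw [hcompl.sup_eq_top]
    exact Submodule.mem_top
  obtain ⟨c, hc, c', hc', rfl⟩ := Submodule.mem_sup.mp hv
  have h1 : τ • c' - c' ∈ C := prp_sub_mem p V C hadm τ hτ c'
  have h2 : τ • c' - c' ∈ C' := C'.sub_mem (hstab τ hτA c' hc') hc'
  have h3 : τ • c' - c' = 0 := (Submodule.disjoint_def.mp hcompl.disjoint) _ h1 h2
  rw [smul_add, hadm.fixed_sub τ c hc, sub_eq_zero.mp h3]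

end Fermat.Agent.S14
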