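/-
S14, block P (glue, plan item P0), package `Split`:
`psp_split : P0CycloStatement → P0SplitStatement`.

If every `σ` with `χ(σ) = 1` acts trivially on `V`, then the action of `G` on `V` is abelian, and
the `χ`-eigenspace `C' = {v | ∀ σ, σ • v = χ(σ) • v}` is a `G`-stable complement of `C`.
Pure linear algebra (`psp_core`); the only inputs from `P0CycloStatement` are the multiplicativity
of `χ` and the existence of elements with `χ = 1` and `χ = 2`.
-/
import Mathlib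
import Fermat.Agent.S14.PInterfaces

set_option autoImplicit false

open NumberField

namespace Fermat.Agent.S14

/-- If `χ : G → k` is multiplicative with `χ 1 = 1`, then `χ σ * χ σ⁻¹ = 1`. -/
theorem psp_chi_mul_inv {G k : Type*} [Group G] [Field k] (χ : G → k)
    (hmul : ∀ σ τ : G, χ (σ * τ) = χ σ * χ τ) (h1 : χ 1 = 1) (σ : G) :
    χ σ * χ σ⁻¹ = 1 := by
  rw [← hmul, mul_inv_cancel, h1]

/-- A multiplicative `χ : G → k` with `χ 1 = 1` is trivial on commutators. -/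
theorem psp_chi_commutator {G k : Type*} [Group G] [Field k] (χ : G → k)
    (hmul : ∀ σ τ : G, χ (σ * τ) = χ σ * χ τ) (h1 : χ 1 = 1) (σ τ : G) :
    χ (σ * τ * σ⁻¹ * τ⁻¹) = 1 := by
  rw [hmul, hmul, hmul]
  calc χ σ * χ τ * χ σ⁻¹ * χ τ⁻¹ = (χ σ * χ σ⁻¹) * (χ τ * χ τ⁻¹) := by ring
    _ = 1 := by rw [psp_chi_mul_inv χ hmul h1, psp_chi_mul_inv χ hmul h1, one_mul]

/-- If the kernel of `χ` acts trivially on `V`, the action of `G` on `V` is commutative. -/
theorem psp_smul_comm {G k V : Type*} [Group G] [Field k] [AddCommGroup V]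
    [DistribMulAction G V] (χ : G → k)
    (hmul : ∀ σ τ : G, χ (σ * τ) = χ σ * χ τ) (h1 : χ 1 = 1)
    (htriv : ∀ σ : G, χ σ = 1 → ∀ v : V, σ • v = v) (σ τ : G) (v : V) :
    σ • τ • v = τ • σ • v := by
  have h := htriv _ (psp_chi_commutator χ hmul h1 σ τ) (τ • σ • v)
  rw [mul_smul, mul_smul, mul_smul, inv_smul_smul, inv_smul_smul] at h
  exact h

/-- The cocycle identity `(χ τ - 1) • β_v(σ) = (χ σ - 1) • β_v(τ)` for
`β_v(σ) = σ • v - χ σ • v`, valid when the action of `G` on `V` is commutative. -/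
theorem psp_key {G k V : Type*} [Group G] [Field k] [AddCommGroup V] [Module k V]
    [DistribMulAction G V] [SMulCommClass G k V] (C : Submodule k V) (χ : G → k)
    (hfix : ∀ σ : G, ∀ x ∈ C, σ • x = x)
    (hquot : ∀ σ : G, ∀ x : V, σ • x - χ σ • x ∈ C)
    (hcomm : ∀ (σ τ : G) (v : V), σ • τ • v = τ • σ • v) (σ τ : G) (v : V) :
    (χ τ - 1) • (σ • v - χ σ • v) = (χ σ - 1) • (τ • v - χ τ • v) := by
  have e1 : σ • (τ • v - χ τ • v) = τ • v - χ τ • v := hfix σ _ (hquot τ v)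
  have e2 : τ • (σ • v - χ σ • v) = σ • v - χ σ • v := hfix τ _ (hquot σ v)
  rw [smul_sub, smul_comm σ (χ τ) v, hcomm σ τ v] at e1
  rw [smul_sub, smul_comm τ (χ σ) v] at e2
  -- e1 : τ • σ • v - χ τ • σ • v = τ • v - χ τ • v
  -- e2 : τ • σ • v - χ σ • τ • v = σ • v - χ σ • v
  generalize τ • σ • v = Z at e1 e2
  generalize σ • v = X at e1 e2 ⊢
  generalize τ • v = Y at e1 e2 ⊢
  linear_combination (norm := module) e2 - e1

/-- Linear-algebra core of package `Split`: let `G` act on the `k`-vector space `V`, trivially on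
the subspace `C` and through the multiplicative map `χ : G → k` on `V ⧸ C`.  If the kernel of `χ`
acts trivially on `V` and `χ σ₀ ≠ 1` for some `σ₀`, then `C` has a `G`-stable complement (namely
the `χ`-eigenspace). -/
theorem psp_core {G k V : Type*} [Group G] [Field k] [AddCommGroup V] [Module k V]
    [DistribMulAction G V] [SMulCommClass G k V] (C : Submodule k V) (χ : G → k)
    (hmul : ∀ σ τ : G, χ (σ * τ) = χ σ * χ τ) (h1 : χ 1 = 1)
    (σ₀ : G) (hσ₀ : χ σ₀ ≠ 1)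
    (hfix : ∀ σ : G, ∀ x ∈ C, σ • x = x)
    (hquot : ∀ σ : G, ∀ x : V, σ • x - χ σ • x ∈ C)
    (htriv : ∀ σ : G, χ σ = 1 → ∀ v : V, σ • v = v) :
    ∃ C' : Submodule k V, (∀ σ : G, ∀ x ∈ C', σ • x ∈ C') ∧ IsCompl C C' := by
  have hcomm : ∀ (σ τ : G) (v : V), σ • τ • v = τ • σ • v :=
    psp_smul_comm χ hmul h1 htriv
  have hu : χ σ₀ - 1 ≠ 0 := sub_ne_zero.2 hσ₀
  -- the `χ`-eigenspace
  let C' : Submodule k V :=
    { carrier := {v | ∀ σ : G, σ • v = χ σ • v}
      add_mem' := by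
        intro a b ha hb σ
        have ha' : σ • a = χ σ • a := ha σ
        have hb' : σ • b = χ σ • b := hb σ
        rw [smul_add, smul_add, ha', hb']
      zero_mem' := by
        intro σ
        rw [smul_zero, smul_zero]
      smul_mem' := by
        intro c v hv σ
        have hv' : σ • v = χ σ • v := hv σ
        rw [smul_comm σ c v, hv', smul_comm c (χ σ) v] }
  have hC' : ∀ v : V, v ∈ C' ↔ ∀ σ : G, σ • v = χ σ • v := fun v => Iff.rfl
  refine ⟨C', ?_, IsCompl.of_eq ?_ ?_⟩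
  · -- stability
    intro σ x hx
    rw [(hC' x).1 hx σ]
    exact C'.smul_mem _ hx
  · -- `C ⊓ C' = ⊥`
    refine (Submodule.eq_bot_iff _).2 ?_
    intro v hv
    obtain ⟨hvC, hvC'⟩ := Submodule.mem_inf.1 hv
    have e1 : σ₀ • v = v := hfix σ₀ v hvC
    have e2 : σ₀ • v = χ σ₀ • v := (hC' v).1 hvC' σ₀
    have e3 : (χ σ₀ - 1) • v = 0 := by
      rw [sub_smul, one_smul, ← e2, e1, sub_self]
    exact (smul_eq_zero.1 e3).resolve_left hu
  · -- `C ⊔ C' = ⊤`
    refine Submodule.eq_top_iff'.2 ?_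
    intro v
    have hc : (χ σ₀ - 1)⁻¹ • (σ₀ • v - χ σ₀ • v) ∈ C := C.smul_mem _ (hquot σ₀ v)
    have hvc : v + (χ σ₀ - 1)⁻¹ • (σ₀ • v - χ σ₀ • v) ∈ C' := by
      refine (hC' _).2 ?_
      intro σ
      have hk := psp_key C χ hfix hquot hcomm σ σ₀ v
      have e1 : σ • v - χ σ • v = (χ σ - 1) • (χ σ₀ - 1)⁻¹ • (σ₀ • v - χ σ₀ • v) := by
        rw [smul_comm (χ σ - 1) (χ σ₀ - 1)⁻¹, ← hk, smul_smul, inv_mul_cancel₀ hu, one_smul]
      rw [smul_add, hfix σ _ hc, smul_add]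
      generalize (χ σ₀ - 1)⁻¹ • (σ₀ • v - χ σ₀ • v) = c at e1 ⊢
      generalize σ • v = X at e1 ⊢
      linear_combination (norm := module) e1
    refine Submodule.mem_sup.2
      ⟨-((χ σ₀ - 1)⁻¹ • (σ₀ • v - χ σ₀ • v)), C.neg_mem hc, _, hvc, ?_⟩
    abel

/-- Package `Split` (case (a) of P0): if every `σ` with `χ(σ) = 1` acts trivially on `V`, the
extension splits globally. -/
theorem psp_split : P0CycloStatement → P0SplitStatement := by
  intro hcyc p _ hp3 V _ _ _ _ C hadm htriv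
  obtain ⟨hmul, -, -, hsurj⟩ := hcyc p
  -- an element with `χ = 1`, giving `χ 1 = 1`
  obtain ⟨σ₁, hσ₁⟩ := hsurj 1 (by
    intro h
    have := Nat.le_of_dvd Nat.one_pos h
    omega)
  -- an element with `χ = 2 ≠ 1`
  obtain ⟨σ₀, hσ₀⟩ := hsurj 2 (by
    intro h
    have := Nat.le_of_dvd Nat.two_pos h
    omega)
  have h1 : ((ExtCitation.cycloExp p (1 : P0Gal) : ℕ) : ZMod p) = 1 := by
    have h := hmul σ₁ 1
    rw [mul_one, hσ₁, Nat.cast_one, one_mul] at h
    exact h.symm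
  have h2 : ((ExtCitation.cycloExp p σ₀ : ℕ) : ZMod p) ≠ 1 := by
    rw [hσ₀]
    intro h
    have h0 : (1 : ZMod p) = 0 := by
      have e : ((2 : ℕ) : ZMod p) = 1 + 1 := by push_cast; ring
      have h' : (1 : ZMod p) + 1 = 1 := by rw [← e]; exact h
      exact add_eq_right.1 h'
    exact one_ne_zero h0
  exact psp_core C (fun σ : P0Gal => ((ExtCitation.cycloExp p σ : ℕ) : ZMod p)) hmul h1 σ₀ h2
    hadm.fixed_sub hadm.cyclo_quot htriv

end Fermat.Agent.S14
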