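/-
S14, block P (glue, plan item P0), package `Val` (file A).
A nonzero prime `P` of the ring of integers of a number field `L ⊆ ℚ̄` contains a prime number and
is cut out by a valuation subring of `ℚ̄`.
-/
import Mathlib
import Fermat.Agent.S14.PInterfaces
set_option autoImplicit false
open NumberField
namespace Fermat.Agent.S14

/-- A nonzero prime ideal of the ring of integers of a number field contains a prime number. -/
theorem pvla_prime_mem (L : Type) [Field L] [NumberField L] (P : Ideal (𝓞 L)) (hP : P.IsPrime)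
    (hP0 : P ≠ ⊥) : ∃ ℓ : ℕ, ℓ.Prime ∧ (ℓ : 𝓞 L) ∈ P := by
  have : P.IsPrime := hP
  have : NeZero P := ⟨hP0⟩
  exact ⟨_, Nat.absNorm_under_prime P, Int.absNorm_under_mem P⟩

/-- A maximal ideal `P` of a commutative ring `S` mapping injectively into a field `K` is cut out
by a valuation subring of `K`. -/
theorem pvla_exists_valuationSubring {S K : Type*} [CommRing S] [Field K] (φ : S →+* K)
    (hφ : Function.Injective φ) (P : Ideal S) (hPmax : P.IsMaximal) :
    ∃ A : ValuationSubring K, ∀ x : S, x ∈ P ↔ φ x ∈ A.nonunits := by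
  let I : Ideal φ.range := P.map φ.rangeRestrict
  have hbij : Function.Bijective φ.rangeRestrict :=
    ⟨fun x y hxy => hφ (congrArg Subtype.val hxy), φ.rangeRestrict_surjective⟩
  have hI : I ≠ ⊤ := by
    intro h
    apply hPmax.ne_top
    have h1 : (P.map φ.rangeRestrict).comap φ.rangeRestrict = P :=
      Ideal.comap_map_of_bijective φ.rangeRestrict hbij
    rw [← h1]
    show I.comap φ.rangeRestrict = ⊤
    rw [h]
    exact Ideal.comap_top
  obtain ⟨B, hRB, hIB⟩ := Ideal.image_subset_nonunits_valuationSubring I hI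
  have hPB : ∀ y : S, y ∈ P → φ y ∈ B.nonunits := fun y hy =>
    hIB ⟨φ.rangeRestrict y, Ideal.mem_map_of_mem _ hy, rfl⟩
  refine ⟨B, fun x => ⟨hPB x, fun hx => ?_⟩⟩
  let ι : S →+* B := φ.codRestrict B.toSubring (fun y => hRB ⟨y, rfl⟩)
  let J : Ideal S := (IsLocalRing.maximalIdeal B).comap ι
  have hJmem : ∀ s : S, s ∈ J ↔ φ s ∈ B.nonunits := by
    intro s
    show ι s ∈ IsLocalRing.maximalIdeal B ↔ _
    rw [← ValuationSubring.coe_mem_nonunits_iff]
    rfl
  have hJprime : J.IsPrime := Ideal.comap_isPrime ι _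
  have hPJ : P ≤ J := fun y hy => (hJmem y).mpr (hPB y hy)
  have hPeq : P = J := hPmax.eq_of_le hJprime.ne_top hPJ
  rw [hPeq, hJmem]
  exact hx

/-- Package `Val`. -/
theorem pvla_val : P0ValStatement := by
  intro L _ P hP hP0
  refine ⟨pvla_prime_mem L P hP hP0, ?_⟩
  let φ : 𝓞 L →+* P0Kbar := (algebraMap L P0Kbar).comp (algebraMap (𝓞 L) L)
  have hφinj : Function.Injective φ := by
    intro x y hxy
    apply RingOfIntegers.coe_injective
    exact Subtype.ext hxy
  have hPmax : P.IsMaximal := Ideal.IsPrime.isMaximal hP hP0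
  obtain ⟨A, hA⟩ := pvla_exists_valuationSubring φ hφinj P hPmax
  exact ⟨A, fun x => hA x⟩

end Fermat.Agent.S14
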