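/-
S14, block P (glue, plan item P0): the deliverable `p_glue : GlueStatement`
(Theorem R implies `ExtCitation.ExtVanishingCts p` for every prime `p ≥ 3`).

Assembly: `p_glue_of` (`PMainAux.lean`) reduces the glue statement to the ten package statements of
`PInterfaces.lean`, which are proved in `PCycloA.lean` (cyclotomic character), `PSplit.lean`
(case (a): the action factors through the cyclotomic character), `PRep.lean` (kernel, conjugation
rule, local splitting), `PIndexB.lean` (index of the kernel of the action), `PFieldA.lean` (fixed
field of an open normal subgroup), `PValA.lean` (valuation subrings over primes of a number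
field) and `PLiftA.lean` (lifting inertia and decomposition groups).
-/
import Mathlib
import Fermat.Agent.S14.Interfaces
import Fermat.Agent.S14.PInterfaces
import Fermat.Agent.S14.PMainAux
import Fermat.Agent.S14.PCycloA
import Fermat.Agent.S14.PSplit
import Fermat.Agent.S14.PRep
import Fermat.Agent.S14.PIndexB
import Fermat.Agent.S14.PFieldA
import Fermat.Agent.S14.PValA
import Fermat.Agent.S14.PLiftA

set_option autoImplicit false

namespace Fermat.Agent.S14

/-- Block P (glue, plan item P0): Theorem R implies the target statement
`ExtCitation.ExtVanishingCts p` for every prime `p ≥ 3`. -/
theorem p_glue : GlueStatement :=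
  p_glue_of pcya_cyclo (psp_split pcya_cyclo) prp_ker prp_conj prp_local (pixb_index pcya_cyclo)
    pfda_field pvla_val plfa_inertiaLift plfa_decompLift

end Fermat.Agent.S14
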