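/-
S14, basics package `CoprimeRep` (prefix `bcr_`).

Coprime representatives: if `(x) * 𝔅₁ = (y) * 𝔅₂` with `𝔅₁`, `𝔅₂` coprime to `𝔪`, then `x`, `y` can
be replaced by elements generating ideals coprime to `𝔪`.

Proof (valid in any commutative domain).  If `𝔪 = ⊤` there is nothing to do.  Otherwise pick
`b₁ ∈ 𝔅₁`, `b₂ ∈ 𝔅₂` congruent to `1` modulo `𝔪`.  Then `x * b₁ = c * y` and `y * b₂ = d * x` for
some `c`, `d`, so `c * d = b₁ * b₂ ≡ 1` modulo `𝔪`.  Take `x' = c`, `y' = b₁`.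
-/
import Fermat.Agent.S14.Basics2

set_option autoImplicit false

open NumberField

namespace Fermat.Agent.S14

/-- Coprime representatives in an arbitrary commutative domain. -/
theorem bcr_coprimeRep_domain {R : Type*} [CommRing R] [IsDomain R] (𝔪 𝔅₁ 𝔅₂ : Ideal R) (x y : R)
    (hx : x ≠ 0) (hy : y ≠ 0) (h₁ : 𝔅₁ ⊔ 𝔪 = ⊤) (h₂ : 𝔅₂ ⊔ 𝔪 = ⊤)
    (h : Ideal.span {x} * 𝔅₁ = Ideal.span {y} * 𝔅₂) :
    ∃ x' y' : R, x' ≠ 0 ∧ y' ≠ 0 ∧ Ideal.span {x'} ⊔ 𝔪 = ⊤ ∧ Ideal.span {y'} ⊔ 𝔪 = ⊤ ∧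
      Ideal.span {x'} * 𝔅₁ = Ideal.span {y'} * 𝔅₂ := by
  by_cases hm : 𝔪 = ⊤
  · exact ⟨x, y, hx, hy, by rw [hm, sup_top_eq], by rw [hm, sup_top_eq], h⟩
  obtain ⟨b₁, hb₁, m₁, hm₁, e₁⟩ := Submodule.mem_sup.mp ((Ideal.eq_top_iff_one _).mp h₁)
  obtain ⟨b₂, hb₂, m₂, hm₂, e₂⟩ := Submodule.mem_sup.mp ((Ideal.eq_top_iff_one _).mp h₂)
  have hxb : x * b₁ ∈ Ideal.span {y} := by
    have h3 : x * b₁ ∈ Ideal.span {x} * 𝔅₁ :=
      Ideal.mul_mem_mul (Ideal.mem_span_singleton_self x) hb₁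
    rw [h] at h3
    exact Ideal.mul_le_left h3
  have hyb : y * b₂ ∈ Ideal.span {x} := by
    have h3 : y * b₂ ∈ Ideal.span {y} * 𝔅₂ :=
      Ideal.mul_mem_mul (Ideal.mem_span_singleton_self y) hb₂
    rw [← h] at h3
    exact Ideal.mul_le_left h3
  obtain ⟨c, hc⟩ := Ideal.mem_span_singleton'.mp hxb
  obtain ⟨d, hd⟩ := Ideal.mem_span_singleton'.mp hyb
  have hcd : b₁ * b₂ = c * d := by
    apply mul_left_cancel₀ hx
    calc x * (b₁ * b₂) = (x * b₁) * b₂ := by ring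
      _ = (c * y) * b₂ := by rw [hc]
      _ = c * (y * b₂) := by ring
      _ = c * (d * x) := by rw [hd]
      _ = x * (c * d) := by ring
  have hb₁0 : b₁ ≠ 0 := by
    rintro rfl
    apply hm
    rw [Ideal.eq_top_iff_one]
    rw [zero_add] at e₁
    rwa [← e₁]
  have hc0 : c ≠ 0 := by
    rintro rfl
    rw [zero_mul] at hc
    exact mul_ne_zero hx hb₁0 hc.symm
  refine ⟨c, b₁, hc0, hb₁0, ?_, ?_, ?_⟩
  · rw [Ideal.eq_top_iff_one]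
    refine Submodule.mem_sup.mpr ⟨c * d,
      Ideal.mul_mem_right d _ (Ideal.mem_span_singleton_self c),
      b₁ * m₂ + m₁ * b₂ + m₁ * m₂, ?_, ?_⟩
    · exact 𝔪.add_mem (𝔪.add_mem (𝔪.mul_mem_left _ hm₂) (𝔪.mul_mem_right _ hm₁))
        (𝔪.mul_mem_left _ hm₂)
    · rw [← hcd]
      calc b₁ * b₂ + (b₁ * m₂ + m₁ * b₂ + m₁ * m₂) = (b₁ + m₁) * (b₂ + m₂) := by ring
        _ = 1 := by rw [e₁, e₂, mul_one]
  · rw [Ideal.eq_top_iff_one]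
    exact Submodule.mem_sup.mpr ⟨b₁, Ideal.mem_span_singleton_self b₁, m₁, hm₁, e₁⟩
  · rw [← Ideal.span_singleton_mul_right_inj hx]
    calc Ideal.span {x} * (Ideal.span {c} * 𝔅₁)
        = Ideal.span {c} * (Ideal.span {x} * 𝔅₁) := mul_left_comm _ _ _
      _ = Ideal.span {c} * (Ideal.span {y} * 𝔅₂) := by rw [h]
      _ = Ideal.span {c * y} * 𝔅₂ := by
          rw [← mul_assoc, Ideal.span_singleton_mul_span_singleton]
      _ = Ideal.span {x * b₁} * 𝔅₂ := by rw [hc]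
      _ = Ideal.span {x} * (Ideal.span {b₁} * 𝔅₂) := by
          rw [← Ideal.span_singleton_mul_span_singleton, mul_assoc]

/-- Coprime representatives (the hypothesis `𝔪 ≠ ⊥` is not needed). -/
theorem bcr_coprimeRep : CoprimeRepStatement := by
  intro F _ _ 𝔪 𝔅₁ 𝔅₂ x y _ hx hy h₁ h₂ h
  exact bcr_coprimeRep_domain 𝔪 𝔅₁ 𝔅₂ x y hx hy h₁ h₂ h

end Fermat.Agent.S14
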