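/-
S14 — shared basics, package `Moving` (prefix `bml_`).

* `bml_exists_mem_coprime`: in a Dedekind domain `R`, for nonzero ideals `𝔠`, `𝔪` there are
  `t ∈ 𝔠`, `t ≠ 0`, and an ideal `𝔲` with `𝔲 ⊔ 𝔪 = ⊤` and `span {t} = 𝔠 * 𝔲`.
* `bml_movingLemma : MovingLemmaStatement`: every ideal class contains an integral ideal coprime
  to a given nonzero ideal.
-/
import Fermat.Agent.S14.Interfaces

set_option autoImplicit false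

open NumberField

namespace Fermat.Agent.S14

/-- In a Dedekind domain, a nonzero element `t` of an ideal `𝔠` generates `𝔠 * 𝔲` for some
ideal `𝔲`. -/
theorem bml_exists_span_eq_mul {R : Type*} [CommRing R] [IsDedekindDomain R] (𝔠 : Ideal R)
    {t : R} (ht : t ∈ 𝔠) : ∃ 𝔲 : Ideal R, Ideal.span {t} = 𝔠 * 𝔲 :=
  Ideal.dvd_iff_le.mpr ((Ideal.span_singleton_le_iff_mem 𝔠).mpr ht)

/-- KEY LEMMA.  In a Dedekind domain `R`, for nonzero ideals `𝔠` and `𝔪` there is a nonzero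
`t ∈ 𝔠` and an ideal `𝔲` coprime to `𝔪` with `span {t} = 𝔠 * 𝔲`. -/
theorem bml_exists_mem_coprime {R : Type*} [CommRing R] [IsDedekindDomain R] (𝔠 𝔪 : Ideal R)
    (h𝔠 : 𝔠 ≠ ⊥) (h𝔪 : 𝔪 ≠ ⊥) :
    ∃ (t : R) (𝔲 : Ideal R), t ∈ 𝔠 ∧ t ≠ 0 ∧ 𝔲 ⊔ 𝔪 = ⊤ ∧ Ideal.span {t} = 𝔠 * 𝔲 := by
  have hle : 𝔠 * 𝔪 ≤ 𝔠 := Ideal.mul_le_left
  have hne : 𝔠 * 𝔪 ≠ 0 := mul_ne_zero h𝔠 h𝔪
  obtain ⟨a, ha⟩ := IsDedekindDomain.exists_sup_span_eq hle hne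
  have ha𝔠 : a ∈ 𝔠 := by
    rw [← ha]
    exact Ideal.mem_sup_right (Ideal.mem_span_singleton_self a)
  by_cases ha0 : a = 0
  · -- then `𝔠 * 𝔪 = 𝔠`, so `𝔪 = ⊤`
    have h1 : 𝔠 * 𝔪 = 𝔠 * ⊤ := by
      rw [Ideal.mul_top]
      rw [ha0] at ha
      simpa using ha
    have h𝔪top : 𝔪 = ⊤ := mul_left_cancel₀ h𝔠 h1
    obtain ⟨t, ht, ht0⟩ := Submodule.exists_mem_ne_zero_of_ne_bot h𝔠
    obtain ⟨𝔲, h𝔲⟩ := bml_exists_span_eq_mul 𝔠 ht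
    exact ⟨t, 𝔲, ht, ht0, by rw [h𝔪top, sup_top_eq], h𝔲⟩
  · obtain ⟨𝔲, h𝔲⟩ := bml_exists_span_eq_mul 𝔠 ha𝔠
    refine ⟨a, 𝔲, ha𝔠, ha0, ?_, h𝔲⟩
    have h1 : 𝔠 * (𝔲 ⊔ 𝔪) = 𝔠 * ⊤ := by
      rw [Ideal.mul_top, Ideal.mul_sup, ← h𝔲, sup_comm]
      exact ha
    exact mul_left_cancel₀ h𝔠 h1

/-- Moving lemma: every ideal class contains an integral ideal coprime to a given nonzero
ideal. -/
theorem bml_movingLemma : MovingLemmaStatement := by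
  intro F _ _ 𝔞 𝔪 h𝔞 h𝔪
  obtain ⟨z, hz, hz0⟩ := Submodule.exists_mem_ne_zero_of_ne_bot h𝔞
  obtain ⟨𝔞', h𝔞'⟩ := bml_exists_span_eq_mul 𝔞 hz
  have h𝔞'0 : 𝔞' ≠ ⊥ := by
    rintro rfl
    rw [Ideal.mul_bot, Ideal.span_singleton_eq_bot] at h𝔞'
    exact hz0 h𝔞'
  obtain ⟨t, 𝔟, _, ht0, h𝔟, hspan⟩ := bml_exists_mem_coprime 𝔞' 𝔪 h𝔞'0 h𝔪
  refine ⟨t, z, 𝔟, ht0, hz0, h𝔟, ?_⟩
  rw [hspan, h𝔞', mul_comm 𝔞' 𝔟, mul_assoc, mul_comm 𝔞 𝔞', mul_comm 𝔟]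

end Fermat.Agent.S14
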