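/-
S14, block R (Theorem R via power-residue symbols and Gauss sums): FROZEN definitions and interfaces.
Owner: helper22.  Do not edit.  Conventions as in Interfaces.lean.  Mathematics: database row 'S14/planB'
(Amendment 2) and the assignment rows 'S14/R/…'.
-/
import Fermat.Agent.S14.Basics2

set_option autoImplicit false

open NumberField

namespace Fermat.Agent.S14

/-! ## Definitions -/

/-- Power residue symbol at a prime `𝔓` of `E` (for `ζ` a primitive `p`-th root of unity in `𝓞 E`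
and `a ∉ 𝔓`, `p ∉ 𝔓`): the `e : ZMod p` with `a ^ ((N𝔓 - 1) / p) ≡ ζ ^ e mod 𝔓`; junk value otherwise. -/
noncomputable def symb (p : ℕ) {E : Type} [Field E] [NumberField E] (ζ a : 𝓞 E)
    (𝔓 : Ideal (𝓞 E)) : ZMod p :=
  open Classical in
  if h : ∃ e : ZMod p, a ^ ((Ideal.absNorm 𝔓 - 1) / p) - ζ ^ e.val ∈ 𝔓 then h.choose else 0

/-- The symbol extended additively to ideals (sum over the prime factors with multiplicity). -/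
noncomputable def symbI (p : ℕ) {E : Type} [Field E] [NumberField E] (ζ a : 𝓞 E)
    (𝔅 : Ideal (𝓞 E)) : ZMod p :=
  ((UniqueFactorizationMonoid.normalizedFactors 𝔅).map (symb p ζ a)).sum

/-- `𝔮' = σ⁻¹(𝔮)` for an automorphism `σ` of `K`. -/
def IsPreimagePrime {K : Type} [Field K] [NumberField K] (σ : K ≃ₐ[ℚ] K)
    (𝔮 𝔮' : Ideal (𝓞 K)) : Prop :=
  ∀ x : 𝓞 K, x ∈ 𝔮' ↔ ∃ y ∈ 𝔮, (y : K) = σ x

/-- The situation of Theorem R seen from `K = ℚ(ζ_p)`: `L = K(θ)`, `θ ^ p = α ∈ 𝓞 K`, `L/K` unramified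
everywhere, `σ(α) ∈ α^(a²)·K^p` when `σ ζ = ζ ^ a`; `B` is a nonzero natural number divisible by `p`
and by `α` (primes not containing `B` are the "good" primes). -/
structure RSetting (p : ℕ) (K L : Type) [Field K] [NumberField K] [Field L] [NumberField L]
    [Algebra K L] (ζ α : 𝓞 K) (B : ℕ) : Prop where
  cyc : IsCyclotomicExtension {p} ℚ K
  prim : IsPrimitiveRoot ζ p
  deg : Module.finrank K L = p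
  gal : IsGalois K L
  gen : ∃ θ : L, θ ^ p = algebraMap K L (α : K) ∧ θ ∉ Set.range (algebraMap K L)
  unram : UnramifiedEverywhere K L
  bad : B ≠ 0 ∧ p ∣ B ∧ α ∣ (B : 𝓞 K)
  equiv : ∀ (σ : K ≃ₐ[ℚ] K) (a : ℕ), σ (ζ : K) = (ζ : K) ^ a →
    ∃ γ : K, γ ≠ 0 ∧ σ (α : K) = (α : K) ^ (a ^ 2) * γ ^ p

/-! ## Generic symbol calculus (any number field `E` with a primitive `p`-th root of unity) -/

/-- (RS1) Characterisation of the symbol at a good prime. -/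
def SymbSpecStatement : Prop :=
  ∀ (p : ℕ) [Fact p.Prime] (E : Type) [Field E] [NumberField E] (ζ : 𝓞 E),
    IsPrimitiveRoot ζ p → ∀ 𝔓 : Ideal (𝓞 E), 𝔓.IsPrime → 𝔓 ≠ ⊥ → (p : 𝓞 E) ∉ 𝔓 →
    p ∣ Ideal.absNorm 𝔓 - 1 ∧
    ∀ a : 𝓞 E, a ∉ 𝔓 →
      a ^ ((Ideal.absNorm 𝔓 - 1) / p) - ζ ^ (symb p ζ a 𝔓).val ∈ 𝔓 ∧
      (∀ e : ℕ, a ^ ((Ideal.absNorm 𝔓 - 1) / p) - ζ ^ e ∈ 𝔓 → symb p ζ a 𝔓 = (e : ZMod p)) ∧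
      (symb p ζ a 𝔓 = 0 ↔ ∃ c : 𝓞 E, a - c ^ p ∈ 𝔓) ∧
      (∀ b : 𝓞 E, b ∉ 𝔓 → symb p ζ (a * b) 𝔓 = symb p ζ a 𝔓 + symb p ζ b 𝔓)

/-- (RS2) Formal properties of `symbI`. -/
def SymbIStatement : Prop :=
  ∀ (p : ℕ) (E : Type) [Field E] [NumberField E] (ζ a : 𝓞 E),
    (∀ 𝔅₁ 𝔅₂ : Ideal (𝓞 E), 𝔅₁ ≠ ⊥ → 𝔅₂ ≠ ⊥ →
      symbI p ζ a (𝔅₁ * 𝔅₂) = symbI p ζ a 𝔅₁ + symbI p ζ a 𝔅₂) ∧
    (∀ 𝔓 : Ideal (𝓞 E), 𝔓.IsPrime → 𝔓 ≠ ⊥ → symbI p ζ a 𝔓 = symb p ζ a 𝔓) ∧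
    symbI p ζ a ⊤ = 0 ∧
    (∀ (𝔅 : Ideal (𝓞 E)) (n : ℕ), 𝔅 ≠ ⊥ → symbI p ζ a (𝔅 ^ n) = n • symbI p ζ a 𝔅)

/-- (RS3 = S1) Compatibility with the ideal norm in an extension `E₂/E`. -/
def SymbNormStatement : Prop :=
  ∀ (p : ℕ) [Fact p.Prime] (E E₂ : Type) [Field E] [NumberField E] [Field E₂] [NumberField E₂]
    [Algebra E E₂] (ζ a : 𝓞 E), IsPrimitiveRoot ζ p →
    ∀ 𝔅 : Ideal (𝓞 E₂), 𝔅 ≠ ⊥ →
      𝔅 ⊔ Ideal.span {(p : 𝓞 E₂) * algebraMap (𝓞 E) (𝓞 E₂) a} = ⊤ →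
      symbI p (algebraMap (𝓞 E) (𝓞 E₂) ζ) (algebraMap (𝓞 E) (𝓞 E₂) a) 𝔅 =
        symbI p ζ a (Ideal.relNorm (𝓞 E) 𝔅)

/-- (RS4 = S4) The symbol of `a` at a good prime vanishes iff the prime splits completely in
`E(a^{1/p})`. -/
def SymbSplitStatement : Prop :=
  ∀ (p : ℕ) [Fact p.Prime] (E E' : Type) [Field E] [NumberField E] [Field E'] [NumberField E']
    [Algebra E E'] (ζ a : 𝓞 E), IsPrimitiveRoot ζ p → Module.finrank E E' = p →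
    ∀ y : E', y ^ p = algebraMap E E' (a : E) → y ∉ Set.range (algebraMap E E') →
    ∀ 𝔓 : Ideal (𝓞 E), 𝔓.IsPrime → 𝔓 ≠ ⊥ → (p : 𝓞 E) ∉ 𝔓 → a ∉ 𝔓 →
      (symb p ζ a 𝔓 = 0 ↔ SplitsCompletely E E' 𝔓)

/-- (RS5 = S2) Norms from `E(a^{1/p})` have trivial symbol. -/
def SymbNormZeroStatement : Prop :=
  ∀ (p : ℕ) [Fact p.Prime] (E E' : Type) [Field E] [NumberField E] [Field E'] [NumberField E']
    [Algebra E E'] (ζ a : 𝓞 E), IsPrimitiveRoot ζ p →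
    ∀ y : E', y ^ p = algebraMap E E' (a : E) →
    ∀ 𝔄 : Ideal (𝓞 E'), 𝔄 ≠ ⊥ →
      𝔄 ⊔ Ideal.span {(p : 𝓞 E') * algebraMap (𝓞 E) (𝓞 E') a} = ⊤ →
      symbI p ζ a (Ideal.relNorm (𝓞 E) 𝔄) = 0

/-- Primes containing a nonzero element form a finite set. -/
def PrimesFinsetStatement : Prop :=
  ∀ (F : Type) [Field F] [NumberField F] (x : 𝓞 F), x ≠ 0 →
    ∃ T : Finset (Ideal (𝓞 F)), ∀ 𝔓 : Ideal (𝓞 F), 𝔓.IsPrime → x ∈ 𝔓 → 𝔓 ∈ T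

/-- Norm classes push down: for towers `K ⊂ L ⊂ E'` and `K ⊂ E ⊂ E'`, the norm from `E` to `K` maps
norm classes of `E'/E` into norm classes of `L/K`. -/
def NormDownStatement : Prop :=
  ∀ (K L E E' : Type) [Field K] [NumberField K] [Field L] [NumberField L] [Field E]
    [NumberField E] [Field E'] [NumberField E'] [Algebra K L] [Algebra K E] [Algebra L E']
    [Algebra E E'] [Algebra K E'] [IsScalarTower K L E'] [IsScalarTower K E E']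
    (𝔅 : Ideal (𝓞 E)) (h : 𝔅 ∈ nonZeroDivisors (Ideal (𝓞 E))),
    ClassGroup.mk0 ⟨𝔅, h⟩ ∈ normClasses E E' →
    ∃ h' : Ideal.relNorm (𝓞 K) 𝔅 ∈ nonZeroDivisors (Ideal (𝓞 K)),
      ClassGroup.mk0 ⟨_, h'⟩ ∈ normClasses K L

/-- Trivial inertia groups imply unramified. -/
def InertiaUnramStatement : Prop :=
  ∀ (K L : Type) [Field K] [NumberField K] [Field L] [NumberField L] [Algebra K L] [IsGalois K L],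
    (∀ P : Ideal (𝓞 L), P.IsPrime → P ≠ ⊥ → ∀ σ : L ≃ₐ[K] L,
      (∀ x : 𝓞 L, ∃ y ∈ P, (y : L) = σ x - x) → σ = 1) →
    UnramifiedEverywhere K L

/-! ## Arithmetic of the cyclotomic field `K = ℚ(ζ_p)` -/

/-- A rational prime `r ≡ 1 mod p` splits completely in `K`: primes above it have norm `r` and
`r` is a uniformiser. -/
def CycloSplitStatement : Prop :=
  ∀ (p : ℕ) [Fact p.Prime], 3 ≤ p →
  ∀ (K : Type) [Field K] [NumberField K] [IsCyclotomicExtension {p} ℚ K]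
    (r : ℕ), r.Prime → r % p = 1 →
    ∀ 𝔯 : Ideal (𝓞 K), 𝔯.IsPrime → (r : 𝓞 K) ∈ 𝔯 →
      Ideal.absNorm 𝔯 = r ∧ (r : 𝓞 K) ∉ 𝔯 ^ 2

/-- (S3) Galois equivariance of the symbol of `α` when `σ(α) = α^(a²)·γ^p`, `σ ζ = ζ^a`:
`s(σ⁻¹𝔮) = a · s(𝔮)`. -/
def SymbEquivStatement : Prop :=
  ∀ (p : ℕ) [Fact p.Prime], 3 ≤ p →
  ∀ (K : Type) [Field K] [NumberField K] (ζ α : 𝓞 K), IsPrimitiveRoot ζ p →
  ∀ (σ : K ≃ₐ[ℚ] K) (a : ℕ) (γ : K), σ (ζ : K) = (ζ : K) ^ a → ¬ p ∣ a → γ ≠ 0 →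
    σ (α : K) = (α : K) ^ (a ^ 2) * γ ^ p →
  ∀ 𝔮 𝔮' : Ideal (𝓞 K), 𝔮.IsPrime → 𝔮 ≠ ⊥ → IsPreimagePrime σ 𝔮 𝔮' →
    (p : 𝓞 K) ∉ 𝔮 → α ∉ 𝔮 → α ∉ 𝔮' →
    symb p ζ α 𝔮' = (a : ZMod p) * symb p ζ α 𝔮

/-- (S5) A good prime of `K` with nonzero symbol has degree one. -/
def SymbDegreeStatement : Prop :=
  ∀ (p : ℕ) [Fact p.Prime], 3 ≤ p →
  ∀ (K : Type) [Field K] [NumberField K] [IsCyclotomicExtension {p} ℚ K] (ζ α : 𝓞 K),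
    IsPrimitiveRoot ζ p →
    (∀ (σ : K ≃ₐ[ℚ] K) (a : ℕ), σ (ζ : K) = (ζ : K) ^ a →
      ∃ γ : K, γ ≠ 0 ∧ σ (α : K) = (α : K) ^ (a ^ 2) * γ ^ p) →
  ∀ 𝔮 : Ideal (𝓞 K), 𝔮.IsPrime → 𝔮 ≠ ⊥ → (p : 𝓞 K) ∉ 𝔮 → α ∉ 𝔮 → symb p ζ α 𝔮 ≠ 0 →
    (Ideal.absNorm 𝔮).Prime

/-- (R4) Auxiliary primes: for a prime `q ≡ 1 mod p` there are primes `r ≡ 1 mod p` outside any
finite set such that `q` is not a `p`-th power modulo `r`. -/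
def AuxPrimeStatement : Prop :=
  ∀ (p : ℕ) [Fact p.Prime], 3 ≤ p → ∀ q : ℕ, q.Prime → q % p = 1 → ∀ X : Finset ℕ,
    ∃ r : ℕ, r.Prime ∧ r % p = 1 ∧ r ∉ X ∧ ¬ ∃ c : ZMod r, c ^ p = (q : ZMod r)

/-- (R3) The Gauss-sum element `c = g(χ_r)^p ∈ 𝓞 K` and the "logarithm" `lam` of the character
`χ_r` of `(ℤ/r)ˣ` of order `p`: the symbol of `c` at any prime `𝔅 ∤ p r` of any number field
`E ⊇ K` is `-lam (N𝔅)`. -/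
def GaussElementStatement : Prop :=
  ∀ (p : ℕ) [Fact p.Prime], 3 ≤ p →
  ∀ (K : Type) [Field K] [NumberField K] [IsCyclotomicExtension {p} ℚ K] (ζ : 𝓞 K),
    IsPrimitiveRoot ζ p → ∀ r : ℕ, r.Prime → r % p = 1 →
    ∃ (c : 𝓞 K) (lam : ZMod r → ZMod p),
      (∀ x y : ZMod r, x ≠ 0 → y ≠ 0 → lam (x * y) = lam x + lam y) ∧
      (∀ x : ZMod r, x ≠ 0 → (lam x = 0 ↔ ∃ z : ZMod r, z ^ p = x)) ∧
      c ∣ (r : 𝓞 K) ^ (p - 1) ∧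
      (∀ 𝔯 : Ideal (𝓞 K), 𝔯.IsPrime → (r : 𝓞 K) ∈ 𝔯 →
        ∃ n : ℕ, 1 ≤ n ∧ n < p ∧ c ∈ 𝔯 ^ n ∧ c ∉ 𝔯 ^ (n + 1)) ∧
      (∀ (E : Type) [Field E] [NumberField E] [Algebra K E] (𝔅 : Ideal (𝓞 E)),
        𝔅.IsPrime → 𝔅 ≠ ⊥ → (p : 𝓞 E) ∉ 𝔅 → (r : 𝓞 E) ∉ 𝔅 →
        symb p (algebraMap (𝓞 K) (𝓞 E) ζ) (algebraMap (𝓞 K) (𝓞 E) c) 𝔅 =
          - lam ((Ideal.absNorm 𝔅 : ℕ) : ZMod r))

/-- (R10) Jacobi-sum factorisation: for a degree-one prime `𝔮 ∤ p` of `K` there is `J ∈ 𝓞 K` with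
`(J) = ∏_{1 ≤ a ≤ (p-1)/2} σ_a⁻¹(𝔮)`, where `σ_a ζ = ζ ^ a`. -/
def JacobiStatement : Prop :=
  ∀ (p : ℕ) [Fact p.Prime], 3 ≤ p →
  ∀ (K : Type) [Field K] [NumberField K] [IsCyclotomicExtension {p} ℚ K] (ζ : 𝓞 K),
    IsPrimitiveRoot ζ p →
  ∀ 𝔮 : Ideal (𝓞 K), 𝔮.IsPrime → (Ideal.absNorm 𝔮).Prime → (p : 𝓞 K) ∉ 𝔮 →
    ∃ (J : 𝓞 K) (Q : ℕ → Ideal (𝓞 K)),
      (∀ a ∈ Finset.Icc 1 ((p - 1) / 2),
        ∃ σ : K ≃ₐ[ℚ] K, σ (ζ : K) = (ζ : K) ^ a ∧ IsPreimagePrime σ 𝔮 (Q a)) ∧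
      Ideal.span {J} = ∏ a ∈ Finset.Icc 1 ((p - 1) / 2), Q a

/-! ## The chain for Theorem R -/

/-- (R0 + R1) From the hypotheses of Theorem R to an `RSetting`. -/
def SetupStatement : Prop :=
  ∀ (p : ℕ) [Fact p.Prime], 3 ≤ p →
  ∀ (L : Type) [Field L] [NumberField L] [IsGalois ℚ L] (ζ : L), IsPrimitiveRoot ζ p →
    Module.finrank ℚ L = p * (p - 1) →
    (∀ (σ τ : L ≃ₐ[ℚ] L) (a : ℕ), τ ζ = ζ → σ ζ = ζ ^ a → σ⁻¹ * τ * σ = τ ^ a) →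
    (∀ P : Ideal (𝓞 L), P.IsPrime → (p : 𝓞 L) ∉ P → ∀ σ : L ≃ₐ[ℚ] L,
      (∀ x : 𝓞 L, ∃ y ∈ P, (y : L) = σ x - x) → σ = 1) →
    (∀ P : Ideal (𝓞 L), P.IsPrime → (p : 𝓞 L) ∈ P → ∀ τ : L ≃ₐ[ℚ] L, τ ζ = ζ →
      (∀ x ∈ P, ∃ y ∈ P, (y : L) = τ x) → τ = 1) →
    ∃ (K : Type) (_ : Field K) (_ : NumberField K) (_ : Algebra K L) (ζ' α : 𝓞 K) (B : ℕ),
      RSetting p K L ζ' α B

/-- (R5 + R6) The auxiliary field `E_𝔮 = K((α c_r^j)^{1/p})` for a good degree-one prime `𝔮` with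
nonzero symbol, and the reciprocity statement R3' for it. -/
def EFieldStatement : Prop :=
  ∀ (p : ℕ) [Fact p.Prime], 3 ≤ p →
  ∀ (K L : Type) [Field K] [NumberField K] [Field L] [NumberField L] [Algebra K L]
    (ζ α : 𝓞 K) (B : ℕ), RSetting p K L ζ α B →
  ∀ 𝔮 : Ideal (𝓞 K), 𝔮.IsPrime → (Ideal.absNorm 𝔮).Prime → (B : 𝓞 K) ∉ 𝔮 →
    symb p ζ α 𝔮 ≠ 0 → ∀ X : Finset ℕ,
    ∃ (r : ℕ) (a : 𝓞 K) (E : Type) (_ : Field E) (_ : NumberField E) (_ : Algebra K E)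
      (θ : 𝓞 E),
      r.Prime ∧ r ∉ X ∧ ¬ r ∣ B ∧ (r : 𝓞 K) ∉ 𝔮 ∧
      Module.finrank K E = p ∧ θ ^ p = algebraMap (𝓞 K) (𝓞 E) a ∧
      (∀ 𝔓 : Ideal (𝓞 K), 𝔓.IsPrime → ((B * r : ℕ) : 𝓞 K) ∉ 𝔓 → a ∉ 𝔓) ∧
      (∀ 𝔯 : Ideal (𝓞 K), 𝔯.IsPrime → (r : 𝓞 K) ∈ 𝔯 → OrdNotDvd p 𝔯 a) ∧
      SplitsCompletely K E 𝔮 ∧
      (∀ z : E, z ^ p ≠ algebraMap K E (α : K)) ∧
      (∀ (E' : Type) [Field E'] [NumberField E'] [Algebra E E'], Module.finrank E E' = p →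
        (∃ y : E', y ^ p = algebraMap E E' (algebraMap K E (α : K))) →
        ∀ 𝔅 : Ideal (𝓞 E), 𝔅 ≠ ⊥ → 𝔅 ⊔ Ideal.span {((B * r : ℕ) : 𝓞 E)} = ⊤ →
          symbI p (algebraMap (𝓞 K) (𝓞 E) ζ) (algebraMap (𝓞 K) (𝓞 E) α) 𝔅 = 0 →
          ∃ h : 𝔅 ∈ nonZeroDivisors (Ideal (𝓞 E)), ClassGroup.mk0 ⟨𝔅, h⟩ ∈ normClasses E E')

/-- (R7) Lang's argument for two good degree-one primes with nonzero symbols: there is a class `κ`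
with `[𝔮_i] ≡ κ ^ s(𝔮_i)` modulo norm classes. -/
def LangStatement : Prop :=
  ∀ (p : ℕ) [Fact p.Prime], 3 ≤ p →
  ∀ (K L : Type) [Field K] [NumberField K] [Field L] [NumberField L] [Algebra K L]
    (ζ α : 𝓞 K) (B : ℕ), RSetting p K L ζ α B →
  ∀ 𝔮₁ 𝔮₂ : Ideal (𝓞 K), 𝔮₁.IsPrime → 𝔮₂.IsPrime → (Ideal.absNorm 𝔮₁).Prime →
    (Ideal.absNorm 𝔮₂).Prime → (B : 𝓞 K) ∉ 𝔮₁ → (B : 𝓞 K) ∉ 𝔮₂ →
    symb p ζ α 𝔮₁ ≠ 0 → symb p ζ α 𝔮₂ ≠ 0 →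
    ∃ κ : ClassGroup (𝓞 K),
      ∀ (h₁ : 𝔮₁ ∈ nonZeroDivisors (Ideal (𝓞 K))) (h₂ : 𝔮₂ ∈ nonZeroDivisors (Ideal (𝓞 K))),
        ClassGroup.mk0 ⟨𝔮₁, h₁⟩ * κ ^ (p - (symb p ζ α 𝔮₁).val) ∈ normClasses K L ∧
        ClassGroup.mk0 ⟨𝔮₂, h₂⟩ * κ ^ (p - (symb p ζ α 𝔮₂).val) ∈ normClasses K L

/-- (R8) There is a class `κ` such that every ideal `𝔞` prime to `B` is `≡ κ ^ s(𝔞)` modulo norm
classes. -/
def M2Statement : Prop :=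
  ∀ (p : ℕ) [Fact p.Prime], 3 ≤ p →
  ∀ (K L : Type) [Field K] [NumberField K] [Field L] [NumberField L] [Algebra K L]
    (ζ α : 𝓞 K) (B : ℕ), RSetting p K L ζ α B →
    ∃ κ : ClassGroup (𝓞 K), ∀ (𝔞 : Ideal (𝓞 K)) (h : 𝔞 ∈ nonZeroDivisors (Ideal (𝓞 K))),
      𝔞 ⊔ Ideal.span {(B : 𝓞 K)} = ⊤ →
      ClassGroup.mk0 ⟨𝔞, h⟩ * κ ^ (p - (symbI p ζ α 𝔞).val) ∈ normClasses K L

/-- (R9) Principal ideals prime to `B` have trivial symbol. -/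
def M3Statement : Prop :=
  ∀ (p : ℕ) [Fact p.Prime], 3 ≤ p →
  ∀ (K L : Type) [Field K] [NumberField K] [Field L] [NumberField L] [Algebra K L]
    (ζ α : 𝓞 K) (B : ℕ), RSetting p K L ζ α B →
    ∀ β : 𝓞 K, Ideal.span {β} ⊔ Ideal.span {(B : 𝓞 K)} = ⊤ → symbI p ζ α (Ideal.span {β}) = 0

/-- (R10 + R11) The final contradiction. -/
def ChainStatement : Prop :=
  ∀ (p : ℕ) [Fact p.Prime], 3 ≤ p →
  ∀ (K L : Type) [Field K] [NumberField K] [Field L] [NumberField L] [Algebra K L]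
    (ζ α : 𝓞 K) (B : ℕ), RSetting p K L ζ α B → False

end Fermat.Agent.S14
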