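/-
S14, sub-block RE (auxiliary fields `E_𝔮` and the reciprocity statement R3'): FROZEN interfaces.
Owner: helper193.  Do not edit.  Conventions as in Interfaces.lean / RInterfaces.lean.
Mathematics: database rows 'S14/block-RE' (overview) and 'S14/RE/<Pkg>' (one per package).

Notation used in the comments: `K = ℚ(ζ_p)`, `α, B` as in `RSetting`, `𝔮` a good prime of `K` of
degree one with nonzero symbol, `r` an auxiliary prime, `c` the Gauss element for `r` with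
"logarithm" `lam`, `a = α * c ^ j`, `E = K(a^{1/p})`, `m = B * r`.
-/
import Fermat.Agent.S14.RInterfaces

set_option autoImplicit false

open NumberField

namespace Fermat.Agent.S14

/-- (RE1) Choice of the auxiliary prime `r`, the Gauss element `c` with its logarithm `lam`, and
the exponent `j` such that `α * c ^ j` is a `p`-th power residue modulo `𝔮`. -/
def REConstructStatement : Prop :=
  ∀ (p : ℕ) [Fact p.Prime], 3 ≤ p →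
  ∀ (K : Type) [Field K] [NumberField K] [IsCyclotomicExtension {p} ℚ K] (ζ α : 𝓞 K) (B : ℕ),
    IsPrimitiveRoot ζ p → B ≠ 0 → p ∣ B → α ∣ (B : 𝓞 K) →
  ∀ 𝔮 : Ideal (𝓞 K), 𝔮.IsPrime → (Ideal.absNorm 𝔮).Prime → (B : 𝓞 K) ∉ 𝔮 →
    symb p ζ α 𝔮 ≠ 0 → ∀ X : Finset ℕ,
    ∃ (r : ℕ) (c : 𝓞 K) (lam : ZMod r → ZMod p) (j : ℕ),
      r.Prime ∧ r % p = 1 ∧ r ∉ X ∧ ¬ r ∣ B ∧ (r : 𝓞 K) ∉ 𝔮 ∧ 0 < j ∧ j < p ∧
      (∀ x y : ZMod r, x ≠ 0 → y ≠ 0 → lam (x * y) = lam x + lam y) ∧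
      (∀ x : ZMod r, x ≠ 0 → (lam x = 0 ↔ ∃ z : ZMod r, z ^ p = x)) ∧
      c ∣ (r : 𝓞 K) ^ (p - 1) ∧
      (∀ 𝔯 : Ideal (𝓞 K), 𝔯.IsPrime → (r : 𝓞 K) ∈ 𝔯 →
        ∃ n : ℕ, 1 ≤ n ∧ n < p ∧ c ∈ 𝔯 ^ n ∧ c ∉ 𝔯 ^ (n + 1)) ∧
      (∀ (E : Type) [Field E] [NumberField E] [Algebra K E] (𝔅 : Ideal (𝓞 E)),
        𝔅.IsPrime → 𝔅 ≠ ⊥ → (p : 𝓞 E) ∉ 𝔅 → (r : 𝓞 E) ∉ 𝔅 →
        symb p (algebraMap (𝓞 K) (𝓞 E) ζ) (algebraMap (𝓞 K) (𝓞 E) c) 𝔅 =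
          - lam ((Ideal.absNorm 𝔅 : ℕ) : ZMod r)) ∧
      (∃ c' : 𝓞 K, α * c ^ j - c' ^ p ∈ 𝔮)

/-- (RE2) Arithmetic of the element `a = α * c ^ j`: it lies in no prime not containing `B * r`,
its valuation at the primes above `r` is not divisible by `p`, and it is not a `p`-th power
in `K`. -/
def REElementStatement : Prop :=
  ∀ (p : ℕ) [Fact p.Prime] (K : Type) [Field K] [NumberField K] (α c : 𝓞 K) (B r j : ℕ),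
    r.Prime → ¬ r ∣ B → α ∣ (B : 𝓞 K) → c ∣ (r : 𝓞 K) ^ (p - 1) → 0 < j → j < p →
    (∀ 𝔯 : Ideal (𝓞 K), 𝔯.IsPrime → (r : 𝓞 K) ∈ 𝔯 →
        ∃ n : ℕ, 1 ≤ n ∧ n < p ∧ c ∈ 𝔯 ^ n ∧ c ∉ 𝔯 ^ (n + 1)) →
    (∀ 𝔓 : Ideal (𝓞 K), 𝔓.IsPrime → ((B * r : ℕ) : 𝓞 K) ∉ 𝔓 → α * c ^ j ∉ 𝔓) ∧
    (∀ 𝔯 : Ideal (𝓞 K), 𝔯.IsPrime → (r : 𝓞 K) ∈ 𝔯 → OrdNotDvd p 𝔯 (α * c ^ j)) ∧
    (∀ z : K, z ^ p ≠ ((α * c ^ j : 𝓞 K) : K))

/-- (RE3) Symbol formula: in a field `E ⊇ K` where `α * c ^ j` is a `p`-th power, the symbol of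
`α` at an ideal `𝔅` prime to `B * r` is `j * lam (N𝔅 mod r)` (and `N𝔅` is prime to `r`). -/
def REFormulaStatement : Prop :=
  ∀ (p : ℕ) [Fact p.Prime] (K E : Type) [Field K] [NumberField K] [Field E] [NumberField E]
    [Algebra K E] (ζ α c : 𝓞 K) (B r j : ℕ) (lam : ZMod r → ZMod p) (θ : 𝓞 E),
    IsPrimitiveRoot ζ p → r.Prime → p ∣ B → α ∣ (B : 𝓞 K) → c ∣ (r : 𝓞 K) ^ (p - 1) →
    (∀ x y : ZMod r, x ≠ 0 → y ≠ 0 → lam (x * y) = lam x + lam y) →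
    (∀ 𝔅 : Ideal (𝓞 E), 𝔅.IsPrime → 𝔅 ≠ ⊥ → (p : 𝓞 E) ∉ 𝔅 → (r : 𝓞 E) ∉ 𝔅 →
        symb p (algebraMap (𝓞 K) (𝓞 E) ζ) (algebraMap (𝓞 K) (𝓞 E) c) 𝔅 =
          - lam ((Ideal.absNorm 𝔅 : ℕ) : ZMod r)) →
    θ ^ p = algebraMap (𝓞 K) (𝓞 E) (α * c ^ j) →
    ∀ 𝔅 : Ideal (𝓞 E), 𝔅 ≠ ⊥ → 𝔅 ⊔ Ideal.span {((B * r : ℕ) : 𝓞 E)} = ⊤ →
      ((Ideal.absNorm 𝔅 : ℕ) : ZMod r) ≠ 0 ∧
      symbI p (algebraMap (𝓞 K) (𝓞 E) ζ) (algebraMap (𝓞 K) (𝓞 E) α) 𝔅 =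
        (j : ZMod p) * lam ((Ideal.absNorm 𝔅 : ℕ) : ZMod r)

/-- (RE4) In a Galois extension `N/F` of prime degree `p`, modulo a totally ramified prime `𝔯`
of `F` the relative norm of every integer is a `p`-th power. -/
def RETotRamNormStatement : Prop :=
  ∀ (p : ℕ) [Fact p.Prime] (F N : Type) [Field F] [NumberField F] [Field N] [NumberField N]
    [Algebra F N] [IsGalois F N], Module.finrank F N = p →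
    ∀ 𝔯 : Ideal (𝓞 F), 𝔯.IsPrime → 𝔯 ≠ ⊥ →
    (∀ 𝔔 ∈ 𝔯.primesOver (𝓞 N), 𝔔.ramificationIdx (𝓞 F) = p) →
    ∀ β : 𝓞 N, ∃ b : 𝓞 F, Algebra.intNorm (𝓞 F) (𝓞 N) β - b ^ p ∈ 𝔯

/-- (RE5) In a Galois number field `K/ℚ`: if `x` is a `p`-th power modulo every prime of `K`
containing `r`, then its absolute norm is a `p`-th power modulo each such prime. -/
def RENormGaloisStatement : Prop :=
  ∀ (p : ℕ) (K : Type) [Field K] [NumberField K] [IsGalois ℚ K] (r : ℕ) (x : 𝓞 K),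
    (∀ 𝔯 : Ideal (𝓞 K), 𝔯.IsPrime → (r : 𝓞 K) ∈ 𝔯 → ∃ b : 𝓞 K, x - b ^ p ∈ 𝔯) →
    ∀ 𝔯₀ : Ideal (𝓞 K), 𝔯₀.IsPrime → (r : 𝓞 K) ∈ 𝔯₀ →
      ∃ w : 𝓞 K, ((Algebra.norm ℤ x : ℤ) : 𝓞 K) - w ^ p ∈ 𝔯₀

/-- (RE6) For `E = K(y)`, `y ^ p = a`, with `p ∤ v_𝔯(a)` at all primes `𝔯 ∣ r` of `K = ℚ(ζ_p)`
(`r ≡ 1 mod p`): the absolute norm of every integer of `E` is a `p`-th power modulo `r`. -/
def RENormPowStatement : Prop :=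
  ∀ (p : ℕ) [Fact p.Prime], 3 ≤ p →
  ∀ (K E : Type) [Field K] [NumberField K] [IsCyclotomicExtension {p} ℚ K] [Field E]
    [NumberField E] [Algebra K E] (ζ : K) (a : 𝓞 K) (y : E) (r : ℕ),
    IsPrimitiveRoot ζ p → Module.finrank K E = p →
    y ^ p = algebraMap K E (a : K) → y ∉ Set.range (algebraMap K E) →
    r.Prime → r % p = 1 →
    (∀ 𝔯 : Ideal (𝓞 K), 𝔯.IsPrime → (r : 𝓞 K) ∈ 𝔯 → OrdNotDvd p 𝔯 a) →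
    ∀ β : 𝓞 E, ∃ z : ZMod r, z ^ p = ((Algebra.norm ℤ β : ℤ) : ZMod r)

/-- (RE7) Principal ideals prime to `m` have trivial symbol, given the symbol formula and the
norm-residue property. -/
def REPrincipalStatement : Prop :=
  ∀ (p : ℕ) [Fact p.Prime], 3 ≤ p →
  ∀ (E : Type) [Field E] [NumberField E] (ζ a : 𝓞 E) (m r j : ℕ) (lam : ZMod r → ZMod p),
    r.Prime →
    (∀ x : ZMod r, x ≠ 0 → (lam x = 0 ↔ ∃ z : ZMod r, z ^ p = x)) →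
    (∀ 𝔅 : Ideal (𝓞 E), 𝔅 ≠ ⊥ → 𝔅 ⊔ Ideal.span {(m : 𝓞 E)} = ⊤ →
      ((Ideal.absNorm 𝔅 : ℕ) : ZMod r) ≠ 0 ∧
      symbI p ζ a 𝔅 = (j : ZMod p) * lam ((Ideal.absNorm 𝔅 : ℕ) : ZMod r)) →
    (∀ β : 𝓞 E, ∃ z : ZMod r, z ^ p = ((Algebra.norm ℤ β : ℤ) : ZMod r)) →
    ∀ β : 𝓞 E, Ideal.span {β} ⊔ Ideal.span {(m : 𝓞 E)} = ⊤ →
      symbI p ζ a (Ideal.span {β}) = 0

/-- (RE8) `α` is not a `p`-th power in `E = K(a^{1/p})`: otherwise `E = K(α^{1/p})` would be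
unramified at a prime `𝔯` where `E/K` is totally ramified. -/
def RENotPowStatement : Prop :=
  ∀ (p : ℕ) [Fact p.Prime] (K L E : Type) [Field K] [NumberField K] [Field L] [NumberField L]
    [Field E] [NumberField E] [Algebra K L] [Algebra K E] (ζ : K) (α a : 𝓞 K),
    IsPrimitiveRoot ζ p → Module.finrank K E = p →
    (∃ θ : L, θ ^ p = algebraMap K L (α : K) ∧ θ ∉ Set.range (algebraMap K L)) →
    ∀ y : E, y ^ p = algebraMap K E (a : K) → y ∉ Set.range (algebraMap K E) →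
    ∀ 𝔯 : Ideal (𝓞 K), 𝔯.IsPrime → 𝔯 ≠ ⊥ → (p : 𝓞 K) ∉ 𝔯 → α ∉ 𝔯 → OrdNotDvd p 𝔯 a →
    ∀ z : E, z ^ p ≠ algebraMap K E (α : K)

/-- (RE9, Claim A) If principal ideals prime to `m` have trivial symbol, then every ideal prime
to `m` whose class is a norm class from `E' ∋ a^{1/p}` has trivial symbol. -/
def REClaimAStatement : Prop :=
  ∀ (p : ℕ) [Fact p.Prime] (E E' : Type) [Field E] [NumberField E] [Field E'] [NumberField E']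
    [Algebra E E'] (ζ a : 𝓞 E) (m : ℕ), IsPrimitiveRoot ζ p →
    m ≠ 0 → p ∣ m → a ∣ (m : 𝓞 E) →
    ∀ y : E', y ^ p = algebraMap E E' (a : E) →
    (∀ β : 𝓞 E, Ideal.span {β} ⊔ Ideal.span {(m : 𝓞 E)} = ⊤ →
      symbI p ζ a (Ideal.span {β}) = 0) →
    ∀ (𝔅 : Ideal (𝓞 E)) (h : 𝔅 ∈ nonZeroDivisors (Ideal (𝓞 E))),
      𝔅 ⊔ Ideal.span {(m : 𝓞 E)} = ⊤ → ClassGroup.mk0 ⟨𝔅, h⟩ ∈ normClasses E E' →
      symbI p ζ a 𝔅 = 0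

/-- (RE10, Claim B) There is an ideal prime to `m` with symbol `1`. -/
def REClaimBStatement : Prop :=
  ∀ (p : ℕ) [Fact p.Prime] (E E' : Type) [Field E] [NumberField E] [Field E'] [NumberField E']
    [Algebra E E'] (ζ a : 𝓞 E) (m : ℕ), IsPrimitiveRoot ζ p → Module.finrank E E' = p →
    m ≠ 0 → p ∣ m → a ∣ (m : 𝓞 E) →
    ∀ y : E', y ^ p = algebraMap E E' (a : E) → y ∉ Set.range (algebraMap E E') →
    ∃ 𝔓₀ : Ideal (𝓞 E), 𝔓₀ ≠ ⊥ ∧ 𝔓₀ ⊔ Ideal.span {(m : 𝓞 E)} = ⊤ ∧ symbI p ζ a 𝔓₀ = 1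

/-- (RE11, counting) If the norm classes have index `≤ p`, ideals prime to `m` in norm classes
have trivial symbol, and some ideal prime to `m` has symbol `1`, then every ideal prime to `m`
with trivial symbol lies in a norm class. -/
def RECountStatement : Prop :=
  ∀ (p : ℕ) [Fact p.Prime] (E E' : Type) [Field E] [NumberField E] [Field E'] [NumberField E']
    [Algebra E E'] (ζ a : 𝓞 E) (m : ℕ),
    (normClasses E E').index ≤ p →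
    (∀ (𝔅 : Ideal (𝓞 E)) (h : 𝔅 ∈ nonZeroDivisors (Ideal (𝓞 E))),
      𝔅 ⊔ Ideal.span {(m : 𝓞 E)} = ⊤ → ClassGroup.mk0 ⟨𝔅, h⟩ ∈ normClasses E E' →
      symbI p ζ a 𝔅 = 0) →
    (∃ 𝔓₀ : Ideal (𝓞 E), 𝔓₀ ≠ ⊥ ∧ 𝔓₀ ⊔ Ideal.span {(m : 𝓞 E)} = ⊤ ∧ symbI p ζ a 𝔓₀ = 1) →
    ∀ 𝔅 : Ideal (𝓞 E), 𝔅 ≠ ⊥ → 𝔅 ⊔ Ideal.span {(m : 𝓞 E)} = ⊤ → symbI p ζ a 𝔅 = 0 →
      ∃ h : 𝔅 ∈ nonZeroDivisors (Ideal (𝓞 E)), ClassGroup.mk0 ⟨𝔅, h⟩ ∈ normClasses E E'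

end Fermat.Agent.S14
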