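/-
S14, block R, package SymbI: formal properties of the symbol `symbI` extended to ideals
(additivity, value at primes, value at the unit ideal, powers), and finiteness of the set of primes
containing a nonzero element.
-/
import Fermat.Agent.S14.RInterfaces

set_option autoImplicit false

open NumberField UniqueFactorizationMonoid

namespace Fermat.Agent.S14

/-- `symbI` is additive on products of nonzero ideals. -/
theorem rsi_symbI_mul (p : ℕ) {E : Type} [Field E] [NumberField E] (ζ a : 𝓞 E)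
    (𝔅₁ 𝔅₂ : Ideal (𝓞 E)) (h₁ : 𝔅₁ ≠ ⊥) (h₂ : 𝔅₂ ≠ ⊥) :
    symbI p ζ a (𝔅₁ * 𝔅₂) = symbI p ζ a 𝔅₁ + symbI p ζ a 𝔅₂ := by
  unfold symbI
  rw [normalizedFactors_mul h₁ h₂, Multiset.map_add, Multiset.sum_add]

/-- `symbI` at a nonzero prime ideal is `symb`. -/
theorem rsi_symbI_prime (p : ℕ) {E : Type} [Field E] [NumberField E] (ζ a : 𝓞 E)
    (𝔓 : Ideal (𝓞 E)) (h𝔓 : 𝔓.IsPrime) (h0 : 𝔓 ≠ ⊥) :
    symbI p ζ a 𝔓 = symb p ζ a 𝔓 := by
  unfold symbI
  rw [normalizedFactors_irreducible (Ideal.prime_of_isPrime h0 h𝔓).irreducible, normalize_eq,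
    Multiset.map_singleton, Multiset.sum_singleton]

/-- `symbI` at the unit ideal vanishes. -/
theorem rsi_symbI_top (p : ℕ) {E : Type} [Field E] [NumberField E] (ζ a : 𝓞 E) :
    symbI p ζ a ⊤ = 0 := by
  unfold symbI
  rw [← Ideal.one_eq_top, normalizedFactors_one, Multiset.map_zero, Multiset.sum_zero]

/-- `symbI` of a power. -/
theorem rsi_symbI_pow (p : ℕ) {E : Type} [Field E] [NumberField E] (ζ a : 𝓞 E)
    (𝔅 : Ideal (𝓞 E)) (n : ℕ) :
    symbI p ζ a (𝔅 ^ n) = n • symbI p ζ a 𝔅 := by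
  unfold symbI
  rw [normalizedFactors_pow, Multiset.map_nsmul, Multiset.sum_nsmul]

/-- (RS2) Formal properties of `symbI`. -/
theorem rsi_symbI : SymbIStatement := by
  intro p E _ _ ζ a
  exact ⟨fun 𝔅₁ 𝔅₂ h₁ h₂ => rsi_symbI_mul p ζ a 𝔅₁ 𝔅₂ h₁ h₂,
    fun 𝔓 h𝔓 h0 => rsi_symbI_prime p ζ a 𝔓 h𝔓 h0, rsi_symbI_top p ζ a,
    fun 𝔅 n _ => rsi_symbI_pow p ζ a 𝔅 n⟩

/-- Primes containing a nonzero element form a finite set. -/
theorem rsi_primesFinset : PrimesFinsetStatement := by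
  intro F _ _ x hx
  classical
  have hspan : Ideal.span {x} ≠ (⊥ : Ideal (𝓞 F)) := by
    rw [Ne, Ideal.span_singleton_eq_bot]
    exact hx
  refine ⟨(normalizedFactors (Ideal.span {x})).toFinset, fun 𝔓 h𝔓 hx𝔓 => ?_⟩
  rw [Multiset.mem_toFinset, Ideal.mem_normalizedFactors_iff hspan]
  exact ⟨h𝔓, (Ideal.span_singleton_le_iff_mem 𝔓).mpr hx𝔓⟩

end Fermat.Agent.S14
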