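/-
S14, block R, package `SymbSpec` (prefix `rss_`): characterisation of the power residue symbol
`symb p ζ a 𝔓` at a prime `𝔓 ∌ p`.

The residue field `k = 𝓞 E ⧸ 𝔓` is a finite field with `N = absNorm 𝔓` elements in which the image
of `ζ` is a primitive `p`-th root of unity; hence `p ∣ N - 1`, every `ā ^ ((N - 1) / p)` (`ā ≠ 0`)
is a power of `ζ̄`, and it is `1` iff `ā` is a `p`-th power (cyclicity of `kˣ`).
-/
import Fermat.Agent.S14.RInterfaces

set_option autoImplicit false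

open NumberField

namespace Fermat.Agent.S14

section FiniteField

variable {k : Type*} [Field k] [Fintype k]

/-- A finite field containing a primitive `p`-th root of unity has `p ∣ #k - 1`. -/
theorem rss_dvd_card_sub_one {p : ℕ} {ω : k} (hω : IsPrimitiveRoot ω p) (hp : p ≠ 0) :
    p ∣ Fintype.card k - 1 :=
  hω.dvd_of_pow_eq_one _ (FiniteField.pow_card_sub_one_eq_one ω (hω.ne_zero hp))

/-- In a finite field with a primitive `p`-th root of unity `ω`, `a ^ ((#k - 1) / p)` is a power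
of `ω` for every `a ≠ 0`. -/
theorem rss_exists_pow {p : ℕ} [NeZero p] {ω : k} (hω : IsPrimitiveRoot ω p) {a : k}
    (ha : a ≠ 0) : ∃ i < p, a ^ ((Fintype.card k - 1) / p) = ω ^ i := by
  have hdvd := rss_dvd_card_sub_one hω (NeZero.ne p)
  have h1 : (a ^ ((Fintype.card k - 1) / p)) ^ p = 1 := by
    rw [← pow_mul, Nat.div_mul_cancel hdvd]
    exact FiniteField.pow_card_sub_one_eq_one a ha
  obtain ⟨i, hi, h⟩ := hω.eq_pow_of_pow_eq_one h1
  exact ⟨i, hi, h.symm⟩

/-- Euler's criterion for `p`-th powers in a finite field with `p ∣ #k - 1`. -/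
theorem rss_pow_eq_one_iff {p : ℕ} (hp : 0 < p) (hdvd : p ∣ Fintype.card k - 1) {a : k}
    (ha : a ≠ 0) : a ^ ((Fintype.card k - 1) / p) = 1 ↔ ∃ c : k, a = c ^ p := by
  constructor
  · intro h
    obtain ⟨g, hg⟩ := IsCyclic.exists_generator (α := kˣ)
    obtain ⟨n, hn⟩ : Units.mk0 a ha ∈ Submonoid.powers g := by
      rw [mem_powers_iff_mem_zpowers]
      apply hg
    have hord : orderOf g = Fintype.card k - 1 := by
      rw [orderOf_eq_card_of_forall_mem_zpowers hg, Nat.card_units, Nat.card_eq_fintype_card]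
    have hm : 0 < (Fintype.card k - 1) / p := by
      refine Nat.div_pos (Nat.le_of_dvd ?_ hdvd) hp
      have := Fintype.one_lt_card (α := k)
      omega
    have hu : (Units.mk0 a ha) ^ ((Fintype.card k - 1) / p) = 1 := by
      apply Units.ext
      rw [Units.val_pow_eq_pow_val, Units.val_mk0, h, Units.val_one]
    rw [← hn, ← pow_mul] at hu
    have key : p * ((Fintype.card k - 1) / p) ∣ n * ((Fintype.card k - 1) / p) := by
      have h3 : orderOf g ∣ n * ((Fintype.card k - 1) / p) := orderOf_dvd_of_pow_eq_one hu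
      rw [hord] at h3
      rw [Nat.mul_div_cancel' hdvd]
      exact h3
    obtain ⟨n', rfl⟩ := Nat.dvd_of_mul_dvd_mul_right hm key
    refine ⟨((g ^ n' : kˣ) : k), ?_⟩
    have h2 : (Units.mk0 a ha : k) = ((g ^ (p * n') : kˣ) : k) := by
      rw [← hn]
    rw [Units.val_mk0] at h2
    rw [h2, ← Units.val_pow_eq_pow_val, ← pow_mul, mul_comm]
  · rintro ⟨c, rfl⟩
    have hc : c ≠ 0 := by
      rintro rfl
      exact ha (zero_pow hp.ne')
    rw [← pow_mul, Nat.mul_div_cancel' hdvd]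
    exact FiniteField.pow_card_sub_one_eq_one c hc

end FiniteField

/-- (RS1) Characterisation of the power residue symbol at a good prime. -/
theorem rss_symbSpec : SymbSpecStatement := by
  intro p hp E _ _ ζ hζ 𝔓 h𝔓 hne hpP
  classical
  have hprime : p.Prime := hp.out
  have : NeZero p := ⟨hprime.ne_zero⟩
  have hmax : 𝔓.IsMaximal := h𝔓.isMaximal hne
  let _ : Field (𝓞 E ⧸ 𝔓) := Ideal.Quotient.field 𝔓
  let _ : Fintype (𝓞 E ⧸ 𝔓) := Fintype.ofFinite _
  have hN : Ideal.absNorm 𝔓 = Fintype.card (𝓞 E ⧸ 𝔓) := by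
    rw [Ideal.absNorm_apply, Submodule.cardQuot_apply, Nat.card_eq_fintype_card]
  have hφ0 : ∀ x : 𝓞 E, Ideal.Quotient.mk 𝔓 x = 0 ↔ x ∈ 𝔓 :=
    fun x => Ideal.Quotient.eq_zero_iff_mem
  have hφsub : ∀ x y : 𝓞 E, x - y ∈ 𝔓 ↔ Ideal.Quotient.mk 𝔓 x = Ideal.Quotient.mk 𝔓 y := by
    intro x y
    rw [← hφ0, map_sub, sub_eq_zero]
  -- the image of `ζ` is a primitive `p`-th root of unity
  have hω : IsPrimitiveRoot (Ideal.Quotient.mk 𝔓 ζ) p := by
    have h1 : (Ideal.Quotient.mk 𝔓 ζ) ^ p = 1 := by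
      rw [← map_pow, hζ.pow_eq_one, map_one]
    have h2 : Ideal.Quotient.mk 𝔓 ζ ≠ 1 := by
      intro h
      apply hpP
      rw [← hφ0]
      have hsum := congrArg (Ideal.Quotient.mk 𝔓) (hζ.geom_sum_eq_zero hprime.one_lt)
      rw [map_sum, map_zero] at hsum
      simp only [map_pow, h, one_pow, Finset.sum_const, Finset.card_range, nsmul_eq_mul,
        mul_one] at hsum
      rw [map_natCast]
      exact hsum
    have h3 := IsPrimitiveRoot.orderOf (Ideal.Quotient.mk 𝔓 ζ)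
    rwa [orderOf_eq_prime h1 h2] at h3
  have hdvd : p ∣ Fintype.card (𝓞 E ⧸ 𝔓) - 1 := rss_dvd_card_sub_one hω hprime.ne_zero
  refine ⟨by rw [hN]; exact hdvd, ?_⟩
  -- existence
  have hex : ∀ a : 𝓞 E, a ∉ 𝔓 →
      ∃ e : ZMod p, a ^ ((Ideal.absNorm 𝔓 - 1) / p) - ζ ^ e.val ∈ 𝔓 := by
    intro a ha
    have ha' : Ideal.Quotient.mk 𝔓 a ≠ 0 := fun h => ha ((hφ0 a).mp h)
    obtain ⟨i, hi, h⟩ := rss_exists_pow hω ha'
    refine ⟨(i : ZMod p), ?_⟩
    rw [ZMod.val_cast_of_lt hi, hφsub, map_pow, map_pow, hN]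
    exact h
  -- the defining congruence
  have hK : ∀ a : 𝓞 E, a ∉ 𝔓 →
      (Ideal.Quotient.mk 𝔓 a) ^ ((Ideal.absNorm 𝔓 - 1) / p)
        = (Ideal.Quotient.mk 𝔓 ζ) ^ (symb p ζ a 𝔓).val := by
    intro a ha
    have h := hex a ha
    have hs : symb p ζ a 𝔓 = h.choose := by
      unfold symb
      exact dif_pos h
    rw [hs, ← map_pow, ← map_pow, ← hφsub]
    exact h.choose_spec
  -- uniqueness
  have hU : ∀ a : 𝓞 E, a ∉ 𝔓 → ∀ e : ℕ,
      (Ideal.Quotient.mk 𝔓 a) ^ ((Ideal.absNorm 𝔓 - 1) / p) = (Ideal.Quotient.mk 𝔓 ζ) ^ e →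
      symb p ζ a 𝔓 = (e : ZMod p) := by
    intro a ha e he
    have hfin : IsOfFinOrder (Ideal.Quotient.mk 𝔓 ζ) :=
      isOfFinOrder_iff_pow_eq_one.mpr ⟨p, hprime.pos, hω.pow_eq_one⟩
    rw [hK a ha, hfin.pow_eq_pow_iff_modEq, ← hω.eq_orderOf] at he
    rw [← ZMod.natCast_zmod_val (symb p ζ a 𝔓)]
    exact (ZMod.natCast_eq_natCast_iff _ _ _).mpr he
  intro a ha
  refine ⟨?_, ?_, ?_, ?_⟩
  · rw [hφsub, map_pow, map_pow]
    exact hK a ha
  · intro e he
    apply hU a ha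
    rw [hφsub, map_pow, map_pow] at he
    exact he
  · have ha' : Ideal.Quotient.mk 𝔓 a ≠ 0 := fun h => ha ((hφ0 a).mp h)
    have hC := rss_pow_eq_one_iff hprime.pos hdvd ha'
    rw [← hN] at hC
    constructor
    · intro hs
      have h1 := hK a ha
      rw [hs, ZMod.val_zero, pow_zero] at h1
      obtain ⟨c', hc'⟩ := hC.mp h1
      obtain ⟨c, rfl⟩ := Ideal.Quotient.mk_surjective c'
      refine ⟨c, ?_⟩
      rw [hφsub, map_pow]
      exact hc'
    · rintro ⟨c, hc⟩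
      rw [hφsub, map_pow] at hc
      have h1 := hC.mpr ⟨Ideal.Quotient.mk 𝔓 c, hc⟩
      have h2 := hU a ha 0 (by rw [h1, pow_zero])
      rw [h2, Nat.cast_zero]
  · intro b hb
    have hab : a * b ∉ 𝔓 := fun h => (h𝔓.mem_or_mem h).elim ha hb
    have h2 := hU (a * b) hab ((symb p ζ a 𝔓).val + (symb p ζ b 𝔓).val) (by
      rw [map_mul, mul_pow, hK a ha, hK b hb, pow_add])
    rw [h2, Nat.cast_add, ZMod.natCast_zmod_val, ZMod.natCast_zmod_val]

end Fermat.Agent.S14
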