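/-
S14, block R, package SymbSplit:
* (RS4) the symbol of `a` at a good prime vanishes iff the prime splits completely in `E(a^{1/p})`
  (from the characterisation of the symbol and the Kummer splitting criterion);
* (RS5) norms from `E(a^{1/p})` have trivial symbol (from the characterisation of the symbol and
  the compatibility of the symbol with the ideal norm).
-/
import Fermat.Agent.S14.RInterfaces

set_option autoImplicit false

open NumberField UniqueFactorizationMonoid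

namespace Fermat.Agent.S14

/-- (RS4 = S4) The symbol of `a` at a good prime vanishes iff the prime splits completely in
`E(a^{1/p})`. -/
theorem rsp_symbSplit : SymbSpecStatement → KummerSplitStatement → SymbSplitStatement := by
  intro hSpec hKum p hp E E' _ _ _ _ _ ζ a hζ hdeg y hy hyE 𝔓 h𝔓 h0 hp𝔓 ha
  have hζE : IsPrimitiveRoot (ζ : E) p :=
    hζ.map_of_injective (f := algebraMap (𝓞 E) E) RingOfIntegers.coe_injective
  have h1 := ((hSpec p E ζ hζ 𝔓 h𝔓 h0 hp𝔓).2 a ha).2.2.1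
  have h2 := (hKum p E E' (ζ : E) hζE hdeg a y hy hyE 𝔓 h𝔓 h0 hp𝔓 ha).1
  exact h1.trans h2.symm

/-- If `𝔄 ⊔ (x) = ⊤` and `𝔓'` is a prime factor of `𝔄`, then `x ∉ 𝔓'`. -/
theorem rsp_not_mem_of_sup_eq_top {R : Type} [CommRing R] (𝔄 𝔓' : Ideal R) (x : R)
    (h𝔓' : 𝔓'.IsPrime) (hle : 𝔄 ≤ 𝔓') (hcop : 𝔄 ⊔ Ideal.span {x} = ⊤) : x ∉ 𝔓' := by
  intro hx
  apply h𝔓'.ne_top
  rw [eq_top_iff, ← hcop]
  exact sup_le hle ((Ideal.span_singleton_le_iff_mem 𝔓').mpr hx)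

/-- The symbol of a `p`-th power (prime to a nonzero ideal `𝔄` and with `p` prime to `𝔄`)
vanishes on `𝔄`. -/
theorem rsp_symbI_pow_eq_zero (hSpec : SymbSpecStatement) (p : ℕ) [Fact p.Prime] (E' : Type)
    [Field E'] [NumberField E'] (ζ' y' : 𝓞 E') (hζ' : IsPrimitiveRoot ζ' p)
    (𝔄 : Ideal (𝓞 E')) (h𝔄 : 𝔄 ≠ ⊥)
    (hcop : 𝔄 ⊔ Ideal.span {(p : 𝓞 E') * y' ^ p} = ⊤) :
    symbI p ζ' (y' ^ p) 𝔄 = 0 := by
  unfold symbI
  refine Multiset.sum_eq_zero fun s hs => ?_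
  obtain ⟨𝔓', h𝔓'mem, rfl⟩ := Multiset.mem_map.mp hs
  obtain ⟨h𝔓', hle⟩ := (Ideal.mem_normalizedFactors_iff h𝔄).mp h𝔓'mem
  have h0 : 𝔓' ≠ ⊥ := fun h => h𝔄 (le_bot_iff.mp (h ▸ hle))
  have hnot := rsp_not_mem_of_sup_eq_top 𝔄 𝔓' _ h𝔓' hle hcop
  have hp𝔓' : (p : 𝓞 E') ∉ 𝔓' := fun h => hnot (𝔓'.mul_mem_right _ h)
  have ha𝔓' : y' ^ p ∉ 𝔓' := fun h => hnot (𝔓'.mul_mem_left _ h)
  refine (((hSpec p E' ζ' hζ' 𝔓' h𝔓' h0 hp𝔓').2 (y' ^ p) ha𝔓').2.2.1).mpr ⟨y', ?_⟩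
  rw [sub_self]
  exact 𝔓'.zero_mem

/-- (RS5 = S2) Norms from `E(a^{1/p})` have trivial symbol. -/
theorem rsp_symbNormZero :
    SymbSpecStatement → SymbIStatement → SymbNormStatement → SymbNormZeroStatement := by
  intro hSpec _ hNorm p hp E E' _ _ _ _ _ ζ a hζ y hy 𝔄 h𝔄 hcop
  have hpp : p.Prime := hp.out
  -- `y` is integral
  have hyint : IsIntegral ℤ y := by
    refine IsIntegral.of_pow hpp.pos ?_
    rw [hy]
    exact RingOfIntegers.isIntegral_coe (algebraMap (𝓞 E) (𝓞 E') a)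
  obtain ⟨y', rfl⟩ : ∃ y' : 𝓞 E', (y' : E') = y := ⟨⟨y, hyint⟩, rfl⟩
  have hy' : algebraMap (𝓞 E) (𝓞 E') a = y' ^ p := by
    apply RingOfIntegers.ext
    have h1 : ((y' ^ p : 𝓞 E') : E') = (y' : E') ^ p := map_pow (algebraMap (𝓞 E') E') y' p
    rw [h1, hy]
    rfl
  have hζ' : IsPrimitiveRoot (algebraMap (𝓞 E) (𝓞 E') ζ) p :=
    hζ.map_of_injective (RingOfIntegers.algebraMap.injective E E')
  rw [← hNorm p E E' ζ a hζ 𝔄 h𝔄 hcop, hy']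
  rw [hy'] at hcop
  exact rsp_symbI_pow_eq_zero hSpec p E' _ y' hζ' 𝔄 h𝔄 hcop

end Fermat.Agent.S14
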