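/-
S14, sub-block RE, package ClaimA (RE9): if principal ideals prime to `m` have trivial symbol,
then every ideal prime to `m` whose class is a norm class from `E' ∋ a^{1/p}` has trivial symbol.
-/
import Fermat.Agent.S14.REInterfaces
import Fermat.Agent.S14.BNormCl
import Fermat.Agent.S14.BMoving
import Fermat.Agent.S14.BCoprimeRep
import Fermat.Agent.S14.RSymbI
import Fermat.Agent.S14.RSymbSpec
import Fermat.Agent.S14.RSymbNorm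
import Fermat.Agent.S14.RSymbSplit

set_option autoImplicit false

open NumberField

namespace Fermat.Agent.S14

/-- If a nonzero ideal `𝔟` is coprime to the natural number `m`, then its absolute norm is
coprime to `m`. -/
theorem reclma_coprime_absNorm {S : Type*} [CommRing S] [IsDedekindDomain S]
    [Module.Free ℤ S] [Module.Finite ℤ S] (𝔟 : Ideal S) (h𝔟 : 𝔟 ≠ ⊥) (m : ℕ)
    (h : 𝔟 ⊔ Ideal.span {(m : S)} = ⊤) : Nat.Coprime (Ideal.absNorm 𝔟) m := by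
  classical
  apply Nat.coprime_of_dvd
  intro ℓ hℓ hn hm
  have : Fact ℓ.Prime := ⟨hℓ⟩
  have : Finite (S ⧸ 𝔟) := Ideal.finiteQuotientOfFreeOfNeBot 𝔟 h𝔟
  let _ : Fintype (S ⧸ 𝔟) := Fintype.ofFinite _
  rw [Ideal.absNorm_apply, Submodule.cardQuot_apply, Nat.card_eq_fintype_card] at hn
  obtain ⟨x, hx⟩ := exists_prime_addOrderOf_dvd_card ℓ hn
  have hx0 : x ≠ 0 := by
    rintro rfl
    rw [addOrderOf_zero] at hx
    exact hℓ.ne_one hx.symm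
  have hℓx : ℓ • x = 0 := by
    rw [← hx]; exact addOrderOf_nsmul_eq_zero x
  have h1 : (1 : S) ∈ 𝔟 ⊔ Ideal.span {(m : S)} := by rw [h]; trivial
  obtain ⟨b, hb, c, hc, hbc⟩ := Submodule.mem_sup.mp h1
  obtain ⟨d, rfl⟩ := Ideal.mem_span_singleton'.mp hc
  obtain ⟨k, rfl⟩ := hm
  apply hx0
  have h2 : (Ideal.Quotient.mk 𝔟 (d * ((ℓ * k : ℕ) : S))) = 1 := by
    rw [← map_one (Ideal.Quotient.mk 𝔟), ← hbc, map_add, Ideal.Quotient.eq_zero_iff_mem.mpr hb,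
      zero_add]
  calc x = 1 * x := (one_mul x).symm
    _ = (Ideal.Quotient.mk 𝔟 (d * ((ℓ * k : ℕ) : S))) * x := by rw [h2]
    _ = Ideal.Quotient.mk 𝔟 (d * k) * (ℓ • x) := by
        rw [nsmul_eq_mul]; push_cast; simp only [map_mul, map_natCast]; ring
    _ = 0 := by rw [hℓx, mul_zero]

/-- The relative norm of a nonzero ideal coprime to `m` is coprime to `m`. -/
theorem reclma_relNorm_sup {E E' : Type} [Field E] [NumberField E] [Field E'] [NumberField E']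
    [Algebra E E'] (𝔟 : Ideal (𝓞 E')) (h𝔟 : 𝔟 ≠ ⊥) (m : ℕ)
    (h : 𝔟 ⊔ Ideal.span {(m : 𝓞 E')} = ⊤) :
    Ideal.relNorm (𝓞 E) 𝔟 ⊔ Ideal.span {(m : 𝓞 E)} = ⊤ := by
  have hcop := reclma_coprime_absNorm 𝔟 h𝔟 m h
  rw [← Ideal.absNorm_relNorm (𝓞 E)] at hcop
  have hmem := Ideal.absNorm_mem (Ideal.relNorm (𝓞 E) 𝔟)
  rw [Ideal.eq_top_iff_one]
  obtain ⟨u, v, huv⟩ := Nat.isCoprime_iff_coprime.mpr hcop
  have h1 : (1 : 𝓞 E) = (u : 𝓞 E) * ((Ideal.absNorm (Ideal.relNorm (𝓞 E) 𝔟) : ℕ) : 𝓞 E)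
      + (v : 𝓞 E) * (m : 𝓞 E) := by
    have := congrArg (Int.cast : ℤ → 𝓞 E) huv
    push_cast at this
    exact this.symm
  rw [h1]
  exact Submodule.add_mem_sup (Ideal.mul_mem_left _ _ hmem)
    (Ideal.mul_mem_left _ _ (Ideal.mem_span_singleton_self _))

/-- An ideal coprime to `m` is coprime to `p * a` when `p ∣ m` and `a ∣ m`. -/
theorem reclma_sup_mul {R : Type*} [CommRing R] (𝔟 : Ideal R) (m q a : R)
    (hq : q ∣ m) (ha : a ∣ m) (h : 𝔟 ⊔ Ideal.span {m} = ⊤) :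
    𝔟 ⊔ Ideal.span {q * a} = ⊤ := by
  have h2 : 𝔟 ⊔ Ideal.span {m} ^ 2 = ⊤ := Ideal.sup_pow_eq_top' h
  have hle : Ideal.span {m} ^ 2 ≤ Ideal.span {q * a} := by
    rw [Ideal.span_singleton_pow, Ideal.span_singleton_le_span_singleton, pow_two]
    exact mul_dvd_mul hq ha
  exact top_le_iff.mp (h2 ▸ sup_le_sup_left hle 𝔟)

/-- (RE9, Claim A). -/
theorem reclma_claimA : REClaimAStatement := by
  intro p hp E E' _ _ _ _ _ ζ a m hζ hm0 hpm ham y hy hprinc 𝔅 h𝔅 h𝔅m hcls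
  have hSpec := rss_symbSpec
  have hI := rsi_symbI
  have hNorm := rsn_symbNorm hSpec hI
  have hNormZero := rsp_symbNormZero hSpec hI hNorm
  -- Step 1
  obtain ⟨𝔄, h𝔄, hcl⟩ := (bnc_normClassesMem E E' _).mp hcls
  have h𝔅0 : 𝔅 ≠ ⊥ := by
    have := mem_nonZeroDivisors_iff_ne_zero.mp h𝔅
    rwa [Ideal.zero_eq_bot] at this
  have h𝔄0 : 𝔄 ≠ ⊥ := by
    have := mem_nonZeroDivisors_iff_ne_zero.mp h𝔄
    rw [Ideal.zero_eq_bot] at this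
    intro h0
    exact this (Ideal.relNorm_eq_bot_iff.mpr h0)
  obtain ⟨x, y₀, hx, hy₀, hxy⟩ := ClassGroup.mk0_eq_mk0_iff.mp hcl
  simp only at hxy
  -- Step 2
  have hmE' : Ideal.span {(m : 𝓞 E')} ≠ ⊥ := by
    rw [Ne, Ideal.span_singleton_eq_bot]
    exact_mod_cast hm0
  have hmE : Ideal.span {(m : 𝓞 E)} ≠ ⊥ := by
    rw [Ne, Ideal.span_singleton_eq_bot]
    exact_mod_cast hm0
  obtain ⟨x', y', 𝔟, hx', hy', h𝔟m, hmov⟩ := bml_movingLemma E' 𝔄 _ h𝔄0 hmE'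
  have h𝔟0 : 𝔟 ≠ ⊥ := by
    rintro rfl
    rw [Ideal.mul_bot] at hmov
    rcases Ideal.mul_eq_bot.mp hmov with h | h
    · exact hx' (Ideal.span_singleton_eq_bot.mp h)
    · exact h𝔄0 h
  have hN := congrArg (Ideal.relNorm (𝓞 E)) hmov
  rw [map_mul, map_mul, Ideal.relNorm_singleton, Ideal.relNorm_singleton] at hN
  have hNx' : Algebra.intNorm (𝓞 E) (𝓞 E') x' ≠ 0 := Algebra.intNorm_ne_zero.mpr hx'
  have hNy' : Algebra.intNorm (𝓞 E) (𝓞 E') y' ≠ 0 := Algebra.intNorm_ne_zero.mpr hy'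
  have hrel : Ideal.span {x * Algebra.intNorm (𝓞 E) (𝓞 E') x'} * 𝔅 =
      Ideal.span {y₀ * Algebra.intNorm (𝓞 E) (𝓞 E') y'} * Ideal.relNorm (𝓞 E) 𝔟 := by
    rw [← Ideal.span_singleton_mul_span_singleton, ← Ideal.span_singleton_mul_span_singleton]
    calc Ideal.span {x} * Ideal.span {Algebra.intNorm (𝓞 E) (𝓞 E') x'} * 𝔅
        = Ideal.span {Algebra.intNorm (𝓞 E) (𝓞 E') x'} * (Ideal.span {x} * 𝔅) := by ring
      _ = Ideal.span {Algebra.intNorm (𝓞 E) (𝓞 E') x'} *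
            (Ideal.span {y₀} * Ideal.relNorm (𝓞 E) 𝔄) := by rw [hxy]
      _ = Ideal.span {y₀} * (Ideal.span {Algebra.intNorm (𝓞 E) (𝓞 E') x'} *
            Ideal.relNorm (𝓞 E) 𝔄) := by ring
      _ = Ideal.span {y₀} * (Ideal.span {Algebra.intNorm (𝓞 E) (𝓞 E') y'} *
            Ideal.relNorm (𝓞 E) 𝔟) := by rw [hN]
      _ = Ideal.span {y₀} * Ideal.span {Algebra.intNorm (𝓞 E) (𝓞 E') y'} *
            Ideal.relNorm (𝓞 E) 𝔟 := by ring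
  -- Step 3
  have hrelm : Ideal.relNorm (𝓞 E) 𝔟 ⊔ Ideal.span {(m : 𝓞 E)} = ⊤ :=
    reclma_relNorm_sup 𝔟 h𝔟0 m h𝔟m
  -- Step 4
  obtain ⟨x'', y'', hx'', hy'', hx''m, hy''m, hrel'⟩ :=
    bcr_coprimeRep E (Ideal.span {(m : 𝓞 E)}) 𝔅 (Ideal.relNorm (𝓞 E) 𝔟) _ _ hmE
      (mul_ne_zero hx hNx') (mul_ne_zero hy₀ hNy') h𝔅m hrelm hrel
  -- Step 5
  obtain ⟨hmul, -, -, -⟩ := hI p E ζ a
  have hrel𝔟0 : Ideal.relNorm (𝓞 E) 𝔟 ≠ ⊥ := fun h0 => h𝔟0 (Ideal.relNorm_eq_bot_iff.mp h0)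
  have hsx'' : Ideal.span {x''} ≠ ⊥ := by
    rw [Ne, Ideal.span_singleton_eq_bot]; exact hx''
  have hsy'' : Ideal.span {y''} ≠ ⊥ := by
    rw [Ne, Ideal.span_singleton_eq_bot]; exact hy''
  have hsum := congrArg (symbI p ζ a) hrel'
  rw [hmul _ _ hsx'' h𝔅0, hmul _ _ hsy'' hrel𝔟0, hprinc x'' hx''m, hprinc y'' hy''m,
    zero_add, zero_add] at hsum
  rw [hsum]
  apply hNormZero p E E' ζ a hζ y hy 𝔟 h𝔟0
  have hpm' : (p : 𝓞 E') ∣ (m : 𝓞 E') := by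
    obtain ⟨k, rfl⟩ := hpm
    exact ⟨(k : 𝓞 E'), by push_cast; rfl⟩
  have ham' : algebraMap (𝓞 E) (𝓞 E') a ∣ (m : 𝓞 E') := by
    obtain ⟨k, hk⟩ := ham
    refine ⟨algebraMap (𝓞 E) (𝓞 E') k, ?_⟩
    rw [← map_mul, ← hk, map_natCast]
  exact reclma_sup_mul 𝔟 _ _ _ hpm' ham' h𝔟m

end Fermat.Agent.S14
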