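/-
S14 basics, package KummerSplit (twin A): the Kummer splitting criterion at a prime `𝔮 ∤ p x₀`
of `F` for `N = F(y)`, `y ^ p = x₀`: such a prime is unramified, and it splits completely iff
`x₀` is a `p`-th power residue modulo `𝔮`.

Proof: `Gal(N/F) = ⟨τ⟩`, `τ y = ζ y` (hypothesis `KummerGaloisStatement`).  If `σ = τ ^ i`
satisfies `σ y ≡ y` modulo a prime `𝔔` above `𝔮`, then `(ζ ^ i - 1) y ∈ 𝔔`, which forces `p ∣ i`
(as `ζ ^ i - 1` divides `p` otherwise, and `y ^ p = x₀ ∉ 𝔮`), i.e. `σ = 1`.  Hence the inertia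
group is trivial; if `x₀ ≡ c ^ p`, some `y - ζ ^ j c` lies in `𝔔` and the decomposition group is
trivial as well.  The cardinalities of these groups are `e` and `e f`.
-/
import Fermat.Agent.S14.Interfaces

set_option autoImplicit false

open NumberField

open scoped Pointwise

namespace Fermat.Agent.S14

/-- If `Z` is a primitive `p`-th root of unity in a domain, `p ∤ i`, and an ideal contains
`Z ^ i - 1`, then it contains `p`. -/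
theorem bksa_natCast_mem_of_pow_sub_one_mem {A : Type*} [CommRing A] [IsDomain A] {p : ℕ}
    {Z : A} (hZ : IsPrimitiveRoot Z p) (I : Ideal A) {i : ℕ} (hi : ¬ p ∣ i)
    (h : Z ^ i - 1 ∈ I) : (p : A) ∈ I := by
  have h1 : (Z ^ i) ^ p = 1 := by
    rw [← pow_mul, mul_comm, pow_mul, hZ.pow_eq_one, one_pow]
  have h2 : Z ^ i ≠ 1 := fun h => hi ((hZ.pow_eq_one_iff_dvd i).mp h)
  obtain ⟨d, hd⟩ := sub_one_dvd_natCast_of_pow_eq_one h1 h2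
  rw [hd]
  exact I.mul_mem_right d h

/-- The action of `τ ^ i` on the Kummer generator (inside the ring of integers). -/
theorem bksa_pow_smul {F N : Type} [Field F] [NumberField F] [Field N] [NumberField N]
    [Algebra F N] [IsGalois F N] (Z : 𝓞 F) (Y : 𝓞 N) (τ : N ≃ₐ[F] N)
    (hτY : τ • Y = algebraMap (𝓞 F) (𝓞 N) Z * Y) (i : ℕ) :
    (τ ^ i) • Y = algebraMap (𝓞 F) (𝓞 N) Z ^ i * Y := by
  induction i with
  | zero => simp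
  | succ i ih =>
    rw [pow_succ, mul_smul, hτY, smul_mul', smul_algebraMap, ih]
    ring

/-- Key lemma: an automorphism `σ` with `σ y ≡ y` modulo a prime `𝔔` above `𝔮 ∤ p x₀` is
trivial. -/
theorem bksa_eq_one_of_smul_sub_mem {p : ℕ} [Fact p.Prime] {F N : Type} [Field F] [NumberField F]
    [Field N] [NumberField N] [Algebra F N] [IsGalois F N] (hdeg : Module.finrank F N = p)
    (Z : 𝓞 F) (hZ : IsPrimitiveRoot Z p) (x₀ : 𝓞 F) (Y : 𝓞 N)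
    (hY : Y ^ p = algebraMap (𝓞 F) (𝓞 N) x₀) (τ : N ≃ₐ[F] N)
    (hτY : τ • Y = algebraMap (𝓞 F) (𝓞 N) Z * Y) (hτ : ∀ σ : N ≃ₐ[F] N, ∃ i : ℕ, σ = τ ^ i)
    (𝔮 : Ideal (𝓞 F)) (hp : (p : 𝓞 F) ∉ 𝔮) (hx : x₀ ∉ 𝔮)
    (𝔔 : Ideal (𝓞 N)) [𝔔.IsPrime] [𝔔.LiesOver 𝔮] (σ : N ≃ₐ[F] N) (hσ : σ • Y - Y ∈ 𝔔) :
    σ = 1 := by
  obtain ⟨i, rfl⟩ := hτ σ
  have hYQ : Y ∉ 𝔔 := by
    intro hYQ
    apply hx
    rw [Ideal.mem_of_liesOver 𝔔 𝔮, ← hY]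
    exact Ideal.pow_mem_of_mem 𝔔 hYQ p (Fact.out : p.Prime).pos
  have h1 : algebraMap (𝓞 F) (𝓞 N) (Z ^ i - 1) * Y ∈ 𝔔 := by
    have : algebraMap (𝓞 F) (𝓞 N) (Z ^ i - 1) * Y = (τ ^ i) • Y - Y := by
      rw [bksa_pow_smul Z Y τ hτY i, map_sub, map_pow, map_one]
      ring
    rw [this]
    exact hσ
  have h2 : Z ^ i - 1 ∈ 𝔮 := by
    rw [Ideal.mem_of_liesOver 𝔔 𝔮]
    exact ((Ideal.IsPrime.mem_or_mem inferInstance h1).resolve_right hYQ)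
  have h3 : p ∣ i := by
    by_contra hi
    exact hp (bksa_natCast_mem_of_pow_sub_one_mem hZ 𝔮 hi h2)
  have hord : orderOf τ = p := by
    rw [orderOf_eq_card_of_forall_mem_zpowers, IsGalois.card_aut_eq_finrank, hdeg]
    intro σ
    obtain ⟨j, rfl⟩ := hτ σ
    exact Subgroup.npow_mem_zpowers τ j
  exact orderOf_dvd_iff_pow_eq_one.mp (hord ▸ h3)

/-- **Kummer splitting criterion** (from `KummerGaloisStatement`). -/
theorem bksa_kummerSplit : KummerGaloisStatement → KummerSplitStatement := by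
  intro hKG p _ F N _ _ _ _ _ ζ hζ hdeg x₀ y hy hyF 𝔮 h𝔮 h𝔮0 hp𝔮 hx𝔮
  obtain ⟨hGal, τ, hτy, hτ⟩ := hKG p F N ζ hζ hdeg (x₀ : F) y hy hyF
  have hppos : 0 < p := (Fact.out : p.Prime).pos
  have hne : NeZero p := ⟨hppos.ne'⟩
  have hmax : 𝔮.IsMaximal := Ring.DimensionLEOne.maximalOfPrime h𝔮0 h𝔮
  have hfin : Finite (𝓞 F ⧸ 𝔮) := Ideal.finiteQuotientOfFreeOfNeBot 𝔮 h𝔮0
  have hperf : PerfectField 𝔮.ResidueField := inferInstance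
  -- the integral elements `Y = y` and `Z = ζ`
  have hyint : IsIntegral ℤ y := by
    have h1 : IsIntegral ℤ (y ^ p) := by
      rw [hy]
      exact (RingOfIntegers.isIntegral_coe x₀).map (IsScalarTower.toAlgHom ℤ F N)
    exact IsIntegral.of_pow hppos h1
  obtain ⟨Y, hYy⟩ : ∃ Y : 𝓞 N, (Y : N) = y := ⟨⟨y, hyint⟩, rfl⟩
  obtain ⟨Z, hZζ⟩ : ∃ Z : 𝓞 F, (Z : F) = ζ := ⟨hζ.toInteger, rfl⟩
  have hZ : IsPrimitiveRoot Z p := by
    have := hζ.toInteger_isPrimitiveRoot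
    have hZ' : Z = hζ.toInteger := RingOfIntegers.ext hZζ
    rwa [hZ']
  have hcoe : ∀ a : 𝓞 F, algebraMap (𝓞 N) N (algebraMap (𝓞 F) (𝓞 N) a)
      = algebraMap F N (algebraMap (𝓞 F) F a) := fun a => rfl
  have hYy' : algebraMap (𝓞 N) N Y = y := hYy
  have hZζ' : algebraMap (𝓞 F) F Z = ζ := hZζ
  have hYp : Y ^ p = algebraMap (𝓞 F) (𝓞 N) x₀ := by
    apply RingOfIntegers.ext
    show algebraMap (𝓞 N) N (Y ^ p) = algebraMap (𝓞 N) N (algebraMap (𝓞 F) (𝓞 N) x₀)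
    rw [hcoe, map_pow, hYy']
    exact hy
  have hτY : τ • Y = algebraMap (𝓞 F) (𝓞 N) Z * Y := by
    apply RingOfIntegers.ext
    show algebraMap (𝓞 N) N (τ • Y)
      = algebraMap (𝓞 N) N (algebraMap (𝓞 F) (𝓞 N) Z * Y)
    rw [map_mul, hcoe, hYy', hZζ', ← hτy, ← hYy']
    exact algebraMap.coe_smul' τ Y N
  have key : ∀ 𝔔 ∈ 𝔮.primesOver (𝓞 N), ∀ σ : N ≃ₐ[F] N, σ • Y - Y ∈ 𝔔 → σ = 1 := by
    intro 𝔔 h𝔔 σ hσ
    have := h𝔔.1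
    have := h𝔔.2
    exact bksa_eq_one_of_smul_sub_mem hdeg Z hZ x₀ Y hYp τ hτY hτ 𝔮 hp𝔮 hx𝔮 𝔔 σ hσ
  -- unramified
  have hunram : ∀ 𝔔 ∈ 𝔮.primesOver (𝓞 N), 𝔔.ramificationIdx (𝓞 F) = 1 := by
    intro 𝔔 h𝔔
    have := h𝔔.1
    have := h𝔔.2
    have hI : Ideal.inertia (N ≃ₐ[F] N) 𝔔 = ⊥ := by
      rw [Subgroup.eq_bot_iff_forall]
      intro σ hσ
      exact key 𝔔 h𝔔 σ (hσ _)
    have hc := Ideal.card_inertia_eq_ramificationIdxIn (G := N ≃ₐ[F] N) 𝔮 𝔔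
    rw [hI, Subgroup.card_bot] at hc
    rw [← Ideal.ramificationIdxIn_eq_ramificationIdx 𝔮 𝔔 (N ≃ₐ[F] N), ← hc]
  refine ⟨⟨?_, ?_⟩, hunram⟩
  · -- split completely implies `x₀` is a `p`-th power residue
    intro hsplit
    obtain ⟨⟨𝔔, h𝔔⟩⟩ := 𝔮.nonempty_primesOver (S := 𝓞 N)
    have := h𝔔.1
    have := h𝔔.2
    have hf := (hsplit 𝔔 h𝔔).2
    have h𝔔max : 𝔔.IsMaximal := Ideal.IsMaximal.of_liesOver_isMaximal 𝔔 𝔮
    rw [Ideal.inertiaDeg_eq_of_isMaximal 𝔮 𝔔] at hf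
    let _ : Field (𝓞 F ⧸ 𝔮) := Ideal.Quotient.field 𝔮
    obtain ⟨c', hc'⟩ := (finrank_eq_one_iff_of_nonzero' (K := 𝓞 F ⧸ 𝔮) (1 : 𝓞 N ⧸ 𝔔)
      one_ne_zero).mp hf (Ideal.Quotient.mk 𝔔 Y)
    obtain ⟨c, rfl⟩ := Ideal.Quotient.mk_surjective c'
    refine ⟨c, ?_⟩
    have h1 : Y - algebraMap (𝓞 F) (𝓞 N) c ∈ 𝔔 := by
      rw [← Ideal.Quotient.eq, ← hc', Algebra.smul_def, mul_one,
        Ideal.Quotient.algebraMap_mk_of_liesOver]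
    have h2 : Y ^ p - algebraMap (𝓞 F) (𝓞 N) c ^ p ∈ 𝔔 :=
      Ideal.mem_of_dvd 𝔔 (sub_dvd_pow_sub_pow _ _ p) h1
    rw [hYp, ← map_pow, ← map_sub] at h2
    exact (Ideal.mem_of_liesOver 𝔔 𝔮 _).mpr h2
  · -- a `p`-th power residue implies split completely
    rintro ⟨c, hc⟩ 𝔔 h𝔔
    have := h𝔔.1
    have := h𝔔.2
    refine ⟨hunram 𝔔 h𝔔, ?_⟩
    have hZ' : IsPrimitiveRoot (algebraMap (𝓞 F) (𝓞 N) Z) p :=
      hZ.map_of_injective (FaithfulSMul.algebraMap_injective _ _)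
    have hmem : Y ^ p - algebraMap (𝓞 F) (𝓞 N) c ^ p ∈ 𝔔 := by
      rw [hYp, ← map_pow, ← map_sub]
      exact (Ideal.mem_of_liesOver 𝔔 𝔮 _).mp hc
    rw [hZ'.pow_sub_pow_eq_prod_sub_mul _ _ hppos] at hmem
    obtain ⟨ξ, hξ, hξmem⟩ := Ideal.IsPrime.prod_mem_iff.mp hmem
    have hS : MulAction.stabilizer (N ≃ₐ[F] N) 𝔔 = ⊥ := by
      rw [Subgroup.eq_bot_iff_forall]
      intro σ hσ
      apply key 𝔔 h𝔔 σ
      obtain ⟨j, -, rfl⟩ := hZ'.eq_pow_of_pow_eq_one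
        ((Polynomial.mem_nthRootsFinset hppos 1).mp hξ)
      have h1 : σ • (Y - algebraMap (𝓞 F) (𝓞 N) Z ^ j * algebraMap (𝓞 F) (𝓞 N) c) ∈ 𝔔 := by
        have := Ideal.smul_mem_pointwise_smul σ _ 𝔔 hξmem
        rwa [MulAction.mem_stabilizer_iff.mp hσ] at this
      rw [smul_sub, smul_mul', smul_pow', smul_algebraMap, smul_algebraMap] at h1
      have := 𝔔.sub_mem h1 hξmem
      convert this using 1
      ring
    have hc' := Ideal.card_stabilizer_eq (G := N ≃ₐ[F] N) 𝔮 𝔔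
    rw [hS, Subgroup.card_bot] at hc'
    rw [← Ideal.inertiaDegIn_eq_inertiaDeg 𝔮 𝔔 (N ≃ₐ[F] N)]
    exact Nat.eq_one_of_mul_eq_one_left hc'.symm

end Fermat.Agent.S14
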