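/-
S14, block Z (zeta pole argument, plan item K3/P5): FROZEN interfaces of the work packages.
Owner: helper179 (block lead).  Do not edit.

Overview of the argument for `K3Statement` (by contradiction): let `N/F` have degree `≥ 2`, `T₀` a
finite set of ideals of `F`, and assume every nonzero prime `𝔮 ∉ T₀` of `F` splits completely in `N`.
* (`ZTwoPrimesStatement`) above every such `𝔮` there are two distinct primes `𝔔₁ ≠ 𝔔₂` of `N` with
  absolute norm `N𝔮`;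
* (`ZPairMapStatement`) hence there is a map `Φ` from pairs of ideals of `F` to ideals of `N`,
  injective on pairs of "good" ideals (nonzero, prime to `T₀`), with `N(Φ(𝔞,𝔟)) = N𝔞 · N𝔟`;
* (`ZSquareStatement`) hence `(∑_{𝔞 good} N𝔞^{-s})² ≤ ∑_{𝔄} N𝔄^{-s}` (sum over ideals of `N`);
* (`ZCorrStatement`) `∑_{𝔞} N𝔞^{-s} ≤ 2^{|T₀|} ∑_{𝔞 good} N𝔞^{-s}`;
* (`ZPoleStatement`) for every number field `K`, `Z_K(s) := ∑_{I} (N I)^{-s}` converges for real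
  `s > 1` and `(s - 1) Z_K(s) → c_K > 0` as `s → 1⁺`.
So `((s-1) Z_F(s))² ≤ 4^{|T₀|} (s-1) · ((s-1) Z_N(s))`; the left side tends to `c_F² > 0`, the right
side to `0`: contradiction (done in `ZMain.lean`).

Convention: all sums are over ALL ideals `I : Ideal (𝓞 K)` with the term
`(Ideal.absNorm I : ℝ) ^ (-s)` (real power `Real.rpow`); the zero ideal contributes `0 ^ (-s) = 0`
for `s ≠ 0`.
-/
import Mathlib
import Fermat.Agent.S14.Interfaces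

set_option autoImplicit false

open NumberField

namespace Fermat.Agent.S14

/-- The ideal `𝔞` of `F` is nonzero and no prime ideal belonging to `T₀` contains it
("`𝔞` is prime to `T₀`").  Non-prime members of `T₀` are ignored. -/
def ZGood {F : Type} [Field F] [NumberField F] (T₀ : Finset (Ideal (𝓞 F)))
    (𝔞 : Ideal (𝓞 F)) : Prop :=
  𝔞 ≠ ⊥ ∧ ∀ 𝔮 ∈ T₀, 𝔮.IsPrime → ¬ 𝔞 ≤ 𝔮

/-- Above `𝔮` there are two distinct primes of `N` of the same absolute norm as `𝔮`. -/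
def ZHasTwoPrimes (F N : Type) [Field F] [NumberField F] [Field N] [NumberField N] [Algebra F N]
    (𝔮 : Ideal (𝓞 F)) : Prop :=
  ∃ 𝔔₁ 𝔔₂ : Ideal (𝓞 N), 𝔔₁ ≠ 𝔔₂ ∧ 𝔔₁.IsPrime ∧ 𝔔₂.IsPrime ∧
    𝔔₁.comap (algebraMap (𝓞 F) (𝓞 N)) = 𝔮 ∧ 𝔔₂.comap (algebraMap (𝓞 F) (𝓞 N)) = 𝔮 ∧
    Ideal.absNorm 𝔔₁ = Ideal.absNorm 𝔮 ∧ Ideal.absNorm 𝔔₂ = Ideal.absNorm 𝔮

/-- `Φ` maps pairs of ideals of `F` to ideals of `N`, is injective on pairs of good ideals and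
multiplies absolute norms on such pairs. -/
def ZIsPairMap {F N : Type} [Field F] [NumberField F] [Field N] [NumberField N]
    (T₀ : Finset (Ideal (𝓞 F))) (Φ : Ideal (𝓞 F) × Ideal (𝓞 F) → Ideal (𝓞 N)) : Prop :=
  (∀ x y : Ideal (𝓞 F) × Ideal (𝓞 F), ZGood T₀ x.1 → ZGood T₀ x.2 → ZGood T₀ y.1 → ZGood T₀ y.2 →
      Φ x = Φ y → x = y) ∧
  ∀ x : Ideal (𝓞 F) × Ideal (𝓞 F), ZGood T₀ x.1 → ZGood T₀ x.2 →
      Ideal.absNorm (Φ x) = Ideal.absNorm x.1 * Ideal.absNorm x.2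

/-! ## Work packages -/

/-- (Z-Pole) Convergence of the ideal sum for `s > 1` and the simple pole at `s = 1`
(from Mathlib's `NumberField.tendsto_sub_one_mul_dedekindZeta_nhdsGT`,
`NumberField.dedekindZeta_residue_pos`). -/
def ZPoleStatement : Prop :=
  ∀ (K : Type) [Field K] [NumberField K],
    (∀ s : ℝ, 1 < s → Summable (fun I : Ideal (𝓞 K) => (Ideal.absNorm I : ℝ) ^ (-s))) ∧
    ∃ c : ℝ, 0 < c ∧
      Filter.Tendsto (fun s : ℝ => (s - 1) * ∑' I : Ideal (𝓞 K), (Ideal.absNorm I : ℝ) ^ (-s))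
        (nhdsWithin 1 (Set.Ioi 1)) (nhds c)

/-- (Z-TwoPrimes) A prime that splits completely in an extension of degree `≥ 2` has two distinct
primes above it, both of the same absolute norm. -/
def ZTwoPrimesStatement : Prop :=
  ∀ (F N : Type) [Field F] [NumberField F] [Field N] [NumberField N] [Algebra F N],
    2 ≤ Module.finrank F N → ∀ 𝔮 : Ideal (𝓞 F), 𝔮.IsPrime → 𝔮 ≠ ⊥ → SplitsCompletely F N 𝔮 →
    ZHasTwoPrimes F N 𝔮

/-- (Z-PairMap) If every nonzero prime outside `T₀` has two distinct primes above it of the same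
norm, there is a norm-multiplicative map on pairs of good ideals, injective on such pairs. -/
def ZPairMapStatement : Prop :=
  ∀ (F N : Type) [Field F] [NumberField F] [Field N] [NumberField N] [Algebra F N]
    (T₀ : Finset (Ideal (𝓞 F))),
    (∀ 𝔮 : Ideal (𝓞 F), 𝔮.IsPrime → 𝔮 ≠ ⊥ → 𝔮 ∉ T₀ → ZHasTwoPrimes F N 𝔮) →
    ∃ Φ : Ideal (𝓞 F) × Ideal (𝓞 F) → Ideal (𝓞 N), ZIsPairMap T₀ Φ

/-- (Z-Square) A pair map gives `(∑_{𝔞 good} N𝔞^{-s})² ≤ ∑_{𝔄 ⊂ 𝓞 N} N𝔄^{-s}`. -/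
def ZSquareStatement : Prop :=
  ∀ (F N : Type) [Field F] [NumberField F] [Field N] [NumberField N]
    (T₀ : Finset (Ideal (𝓞 F))) (Φ : Ideal (𝓞 F) × Ideal (𝓞 F) → Ideal (𝓞 N)) (s : ℝ),
    ZIsPairMap T₀ Φ →
    Summable (fun I : Ideal (𝓞 F) => (Ideal.absNorm I : ℝ) ^ (-s)) →
    Summable (fun J : Ideal (𝓞 N) => (Ideal.absNorm J : ℝ) ^ (-s)) →
    (∑' I : {I : Ideal (𝓞 F) // ZGood T₀ I}, (Ideal.absNorm I.1 : ℝ) ^ (-s)) ^ 2 ≤
      ∑' J : Ideal (𝓞 N), (Ideal.absNorm J : ℝ) ^ (-s)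

/-- (Z-Corr) Removing the Euler factors at `T₀` costs at most a factor `2 ^ |T₀|`. -/
def ZCorrStatement : Prop :=
  ∀ (F : Type) [Field F] [NumberField F] (T₀ : Finset (Ideal (𝓞 F))) (s : ℝ), 1 < s →
    Summable (fun I : Ideal (𝓞 F) => (Ideal.absNorm I : ℝ) ^ (-s)) →
    ∑' I : Ideal (𝓞 F), (Ideal.absNorm I : ℝ) ^ (-s) ≤
      (2 : ℝ) ^ T₀.card * ∑' I : {I : Ideal (𝓞 F) // ZGood T₀ I}, (Ideal.absNorm I.1 : ℝ) ^ (-s)

end Fermat.Agent.S14
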