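/-
S14, block Z, package Z-Corr: removing the Euler factors at a finite set `T₀` of ideals costs at
most a factor `2 ^ |T₀|`:
`∑_{I} N(I)^{-s} ≤ 2 ^ |T₀| * ∑_{I good for T₀} N(I)^{-s}` for real `s > 1`.

Proof: induction on `T₀`; the key step `S(T) ≤ 2 * S(insert 𝔮 T)` uses that a good-for-`T` ideal
is either good for `insert 𝔮 T` or of the form `𝔮 * J` with `J` good for `T`, and that
`N(𝔮)^{-s} ≤ 1/2` for a nonzero prime `𝔮`.
-/
import Mathlib
import Fermat.Agent.S14.Interfaces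
import Fermat.Agent.S14.ZInterfaces

set_option autoImplicit false

open NumberField

namespace Fermat.Agent.S14

/-- `N(𝔮)^(-s) ≤ 1/2` for a nonzero prime `𝔮` of a number field and real `s > 1`. -/
theorem zcorr_norm_rpow_le_half {F : Type} [Field F] [NumberField F] (𝔮 : Ideal (𝓞 F))
    (hq : 𝔮.IsPrime) (hq0 : 𝔮 ≠ ⊥) (s : ℝ) (hs : 1 < s) :
    (Ideal.absNorm 𝔮 : ℝ) ^ (-s) ≤ 1 / 2 := by
  have h0 : Ideal.absNorm 𝔮 ≠ 0 := by
    rw [Ne, Ideal.absNorm_eq_zero_iff]; exact hq0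
  have h1 : Ideal.absNorm 𝔮 ≠ 1 := by
    rw [Ne, Ideal.absNorm_eq_one_iff]; exact hq.ne_top
  have h2 : (2 : ℝ) ≤ (Ideal.absNorm 𝔮 : ℝ) := by
    have : 2 ≤ Ideal.absNorm 𝔮 := by omega
    exact_mod_cast this
  calc (Ideal.absNorm 𝔮 : ℝ) ^ (-s) ≤ (2 : ℝ) ^ (-s) :=
        Real.rpow_le_rpow_of_nonpos (by norm_num) h2 (by linarith)
    _ ≤ (2 : ℝ) ^ (-1 : ℝ) := Real.rpow_le_rpow_of_exponent_le (by norm_num) (by linarith)
    _ = 1 / 2 := by rw [Real.rpow_neg_one]; norm_num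

/-- Key step: adding one ideal `𝔮` to `T` costs at most a factor `2`. -/
theorem zcorr_step {F : Type} [Field F] [NumberField F] (T : Finset (Ideal (𝓞 F)))
    (𝔮 : Ideal (𝓞 F)) (s : ℝ) (hs : 1 < s)
    (hsum : Summable (fun I : Ideal (𝓞 F) => (Ideal.absNorm I : ℝ) ^ (-s))) :
    ∑' I : {I : Ideal (𝓞 F) // ZGood T I}, (Ideal.absNorm I.1 : ℝ) ^ (-s) ≤
      2 * ∑' I : {I : Ideal (𝓞 F) // ZGood (insert 𝔮 T) I}, (Ideal.absNorm I.1 : ℝ) ^ (-s) := by
  classical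
  have hf0 : ∀ I : Ideal (𝓞 F), 0 ≤ (Ideal.absNorm I : ℝ) ^ (-s) :=
    fun I => Real.rpow_nonneg (Nat.cast_nonneg _) _
  by_cases hq : 𝔮.IsPrime ∧ 𝔮 ≠ ⊥
  · obtain ⟨hqp, hq0⟩ := hq
    have hinj : Set.InjOn (fun J : Ideal (𝓞 F) => 𝔮 * J) {I | ZGood T I} :=
      fun J₁ _ J₂ _ h => mul_left_cancel₀ hq0 h
    have hC : ∑' I : ((fun J : Ideal (𝓞 F) => 𝔮 * J) '' {I | ZGood T I} : Set (Ideal (𝓞 F))),
          (Ideal.absNorm I.1 : ℝ) ^ (-s)
        = (Ideal.absNorm 𝔮 : ℝ) ^ (-s) *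
          ∑' J : ({I | ZGood T I} : Set (Ideal (𝓞 F))), (Ideal.absNorm J.1 : ℝ) ^ (-s) := by
      rw [tsum_image (fun I : Ideal (𝓞 F) => (Ideal.absNorm I : ℝ) ^ (-s)) hinj, ← tsum_mul_left]
      refine tsum_congr fun J => ?_
      simp only [map_mul, Nat.cast_mul]
      rw [Real.mul_rpow (Nat.cast_nonneg _) (Nat.cast_nonneg _)]
    have hpt : ∀ I : Ideal (𝓞 F),
        Set.indicator {I | ZGood T I} (fun I : Ideal (𝓞 F) => (Ideal.absNorm I : ℝ) ^ (-s)) I ≤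
        Set.indicator {I | ZGood (insert 𝔮 T) I}
            (fun I : Ideal (𝓞 F) => (Ideal.absNorm I : ℝ) ^ (-s)) I +
          Set.indicator ((fun J : Ideal (𝓞 F) => 𝔮 * J) '' {I | ZGood T I})
            (fun I : Ideal (𝓞 F) => (Ideal.absNorm I : ℝ) ^ (-s)) I := by
      intro I
      have hB := Set.indicator_nonneg (s := {I : Ideal (𝓞 F) | ZGood (insert 𝔮 T) I})
        (fun I _ => hf0 I) I
      have hCn := Set.indicator_nonneg
        (s := (fun J : Ideal (𝓞 F) => 𝔮 * J) '' {I : Ideal (𝓞 F) | ZGood T I})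
        (fun I _ => hf0 I) I
      by_cases hIA : I ∈ {I : Ideal (𝓞 F) | ZGood T I}
      · rw [Set.indicator_of_mem hIA]
        by_cases hIq : I ≤ 𝔮
        · have hIC : I ∈ (fun J : Ideal (𝓞 F) => 𝔮 * J) '' {I : Ideal (𝓞 F) | ZGood T I} := by
            obtain ⟨J, rfl⟩ := Ideal.dvd_iff_le.mpr hIq
            refine ⟨J, ⟨?_, ?_⟩, rfl⟩
            · rintro rfl
              exact hIA.1 (by simp)
            · intro 𝔭 h𝔭 h𝔭p hJ𝔭
              exact hIA.2 𝔭 h𝔭 h𝔭p (le_trans Ideal.mul_le_right hJ𝔭)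
          rw [Set.indicator_of_mem hIC] at hCn ⊢
          linarith
        · have hIB : I ∈ {I : Ideal (𝓞 F) | ZGood (insert 𝔮 T) I} := by
            refine ⟨hIA.1, ?_⟩
            intro 𝔭 h𝔭 h𝔭p
            rcases Finset.mem_insert.mp h𝔭 with rfl | h𝔭T
            · exact hIq
            · exact hIA.2 𝔭 h𝔭T h𝔭p
          rw [Set.indicator_of_mem hIB] at hB ⊢
          linarith
      · rw [Set.indicator_of_notMem hIA]
        exact add_nonneg hB hCn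
    have hSA : ∑' I : ({I | ZGood T I} : Set (Ideal (𝓞 F))), (Ideal.absNorm I.1 : ℝ) ^ (-s) ≤
        ∑' I : ({I | ZGood (insert 𝔮 T) I} : Set (Ideal (𝓞 F))), (Ideal.absNorm I.1 : ℝ) ^ (-s) +
        ∑' I : ((fun J : Ideal (𝓞 F) => 𝔮 * J) '' {I | ZGood T I} : Set (Ideal (𝓞 F))),
          (Ideal.absNorm I.1 : ℝ) ^ (-s) := by
      rw [tsum_subtype {I : Ideal (𝓞 F) | ZGood T I}
          (fun I : Ideal (𝓞 F) => (Ideal.absNorm I : ℝ) ^ (-s)),
        tsum_subtype {I : Ideal (𝓞 F) | ZGood (insert 𝔮 T) I}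
          (fun I : Ideal (𝓞 F) => (Ideal.absNorm I : ℝ) ^ (-s)),
        tsum_subtype ((fun J : Ideal (𝓞 F) => 𝔮 * J) '' {I : Ideal (𝓞 F) | ZGood T I})
          (fun I : Ideal (𝓞 F) => (Ideal.absNorm I : ℝ) ^ (-s)),
        ← Summable.tsum_add (hsum.indicator _) (hsum.indicator _)]
      exact Summable.tsum_le_tsum hpt (hsum.indicator _)
        ((hsum.indicator _).add (hsum.indicator _))
    have hhalf := zcorr_norm_rpow_le_half 𝔮 hqp hq0 s hs
    have hA0 : 0 ≤ ∑' J : ({I | ZGood T I} : Set (Ideal (𝓞 F))), (Ideal.absNorm J.1 : ℝ) ^ (-s) :=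
      tsum_nonneg fun J => hf0 J.1
    rw [hC] at hSA
    have hmul : (Ideal.absNorm 𝔮 : ℝ) ^ (-s) *
          ∑' J : ({I | ZGood T I} : Set (Ideal (𝓞 F))), (Ideal.absNorm J.1 : ℝ) ^ (-s) ≤
        (1 / 2) * ∑' J : ({I | ZGood T I} : Set (Ideal (𝓞 F))), (Ideal.absNorm J.1 : ℝ) ^ (-s) :=
      mul_le_mul_of_nonneg_right hhalf hA0
    change ∑' I : ({I | ZGood T I} : Set (Ideal (𝓞 F))), (Ideal.absNorm I.1 : ℝ) ^ (-s) ≤
      2 * ∑' I : ({I | ZGood (insert 𝔮 T) I} : Set (Ideal (𝓞 F))), (Ideal.absNorm I.1 : ℝ) ^ (-s)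
    linarith
  · have hiff : ∀ I : Ideal (𝓞 F), ZGood (insert 𝔮 T) I ↔ ZGood T I := by
      intro I
      constructor
      · intro h
        exact ⟨h.1, fun 𝔭 h𝔭 => h.2 𝔭 (Finset.mem_insert_of_mem h𝔭)⟩
      · intro h
        refine ⟨h.1, fun 𝔭 h𝔭 h𝔭p hI => ?_⟩
        rcases Finset.mem_insert.mp h𝔭 with rfl | h𝔭T
        · have h𝔭0 : 𝔭 = ⊥ := by
            by_contra hne
            exact hq ⟨h𝔭p, hne⟩
          subst h𝔭0
          exact h.1 (le_bot_iff.mp hI)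
        · exact h.2 𝔭 h𝔭T h𝔭p hI
    have hset : ZGood (insert 𝔮 T) = ZGood T := funext fun I => propext (hiff I)
    rw [hset]
    have hA0 : 0 ≤ ∑' J : {I : Ideal (𝓞 F) // ZGood T I}, (Ideal.absNorm J.1 : ℝ) ^ (-s) :=
      tsum_nonneg fun J => hf0 J.1
    linarith

/-- (Z-Corr) Removing the Euler factors at `T₀` costs at most a factor `2 ^ |T₀|`. -/
theorem zcorr_main : ZCorrStatement := by
  intro F _ _ T₀ s hs hsum
  classical
  induction T₀ using Finset.induction_on with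
  | empty =>
    simp only [Finset.card_empty, pow_zero, one_mul]
    have h : (fun I : Ideal (𝓞 F) => (Ideal.absNorm I : ℝ) ^ (-s)) =
        Set.indicator {I | ZGood ∅ I} (fun I : Ideal (𝓞 F) => (Ideal.absNorm I : ℝ) ^ (-s)) := by
      funext I
      by_cases hI : I = ⊥
      · subst hI
        rw [Set.indicator_of_notMem (fun h => h.1 rfl)]
        simp [Real.zero_rpow (by linarith : -s ≠ 0)]
      · rw [Set.indicator_of_mem]
        exact ⟨hI, fun 𝔮 h𝔮 => absurd h𝔮 (Finset.notMem_empty 𝔮)⟩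
    have h2 := tsum_subtype {I : Ideal (𝓞 F) | ZGood ∅ I}
      (fun I : Ideal (𝓞 F) => (Ideal.absNorm I : ℝ) ^ (-s))
    rw [← h] at h2
    exact le_of_eq h2.symm
  | insert 𝔮 T h𝔮 ih =>
    rw [Finset.card_insert_of_notMem h𝔮, pow_succ, mul_assoc]
    refine le_trans ih ?_
    exact mul_le_mul_of_nonneg_left (zcorr_step T 𝔮 s hs hsum) (by positivity)

end Fermat.Agent.S14
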