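/-
S14, block Z: assembly of `K3Statement` from the package statements of `ZInterfaces.lean`.
-/
import Mathlib
import Fermat.Agent.S14.Interfaces
import Fermat.Agent.S14.ZInterfaces

set_option autoImplicit false

open NumberField

namespace Fermat.Agent.S14

/-- `K3Statement` from the five package statements of block Z. -/
theorem z_k3_of (hpole : ZPoleStatement) (htwo : ZTwoPrimesStatement)
    (hpair : ZPairMapStatement) (hsq : ZSquareStatement) (hcorr : ZCorrStatement) :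
    K3Statement := by
  intro F N _ _ _ _ _ hd T₀
  by_contra hcon
  have hcon' : ∀ 𝔮 : Ideal (𝓞 F), 𝔮.IsPrime → 𝔮 ≠ ⊥ → 𝔮 ∉ T₀ → SplitsCompletely F N 𝔮 := by
    intro 𝔮 h1 h2 h3
    by_contra h4
    exact hcon ⟨𝔮, h1, h2, h3, h4⟩
  obtain ⟨Φ, hΦ⟩ := hpair F N T₀
    (fun 𝔮 h1 h2 h3 => htwo F N hd 𝔮 h1 h2 (hcon' 𝔮 h1 h2 h3))
  obtain ⟨hsumF, cF, hcF, htF⟩ := hpole F
  obtain ⟨hsumN, cN, hcN, htN⟩ := hpole N
  have key : ∀ s : ℝ, 1 < s →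
      ((s - 1) * ∑' I : Ideal (𝓞 F), (Ideal.absNorm I : ℝ) ^ (-s)) ^ 2 ≤
        (4 : ℝ) ^ T₀.card * ((s - 1) *
          ((s - 1) * ∑' J : Ideal (𝓞 N), (Ideal.absNorm J : ℝ) ^ (-s))) := by
    intro s hs
    have h1 := hcorr F T₀ s hs (hsumF s hs)
    have h2 := hsq F N T₀ Φ s hΦ (hsumF s hs) (hsumN s hs)
    set ZF := ∑' I : Ideal (𝓞 F), (Ideal.absNorm I : ℝ) ^ (-s) with hZF
    set ZN := ∑' J : Ideal (𝓞 N), (Ideal.absNorm J : ℝ) ^ (-s) with hZN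
    set G := ∑' I : {I : Ideal (𝓞 F) // ZGood T₀ I}, (Ideal.absNorm I.1 : ℝ) ^ (-s) with hG
    have hZF0 : 0 ≤ ZF := tsum_nonneg (fun I => Real.rpow_nonneg (Nat.cast_nonneg _) _)
    have hG0 : 0 ≤ G := tsum_nonneg (fun I => Real.rpow_nonneg (Nat.cast_nonneg _) _)
    have h3 : ZF ^ 2 ≤ ((2 : ℝ) ^ T₀.card * G) ^ 2 := pow_le_pow_left₀ hZF0 h1 2
    have h4 : ((2 : ℝ) ^ T₀.card * G) ^ 2 = (4 : ℝ) ^ T₀.card * G ^ 2 := by
      rw [mul_pow, ← pow_mul, mul_comm T₀.card 2, pow_mul]; norm_num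
    have h5 : ZF ^ 2 ≤ (4 : ℝ) ^ T₀.card * ZN := by
      rw [h4] at h3
      exact h3.trans (mul_le_mul_of_nonneg_left h2 (by positivity))
    have hs0 : 0 ≤ (s - 1) ^ 2 := by positivity
    calc ((s - 1) * ZF) ^ 2 = (s - 1) ^ 2 * ZF ^ 2 := by ring
      _ ≤ (s - 1) ^ 2 * ((4 : ℝ) ^ T₀.card * ZN) := mul_le_mul_of_nonneg_left h5 hs0
      _ = (4 : ℝ) ^ T₀.card * ((s - 1) * ((s - 1) * ZN)) := by ring
  have hlim1 : Filter.Tendsto
      (fun s : ℝ => ((s - 1) * ∑' I : Ideal (𝓞 F), (Ideal.absNorm I : ℝ) ^ (-s)) ^ 2)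
      (nhdsWithin 1 (Set.Ioi 1)) (nhds (cF ^ 2)) := htF.pow 2
  have hs1 : Filter.Tendsto (fun s : ℝ => s - 1) (nhdsWithin 1 (Set.Ioi 1)) (nhds 0) := by
    have : Filter.Tendsto (fun s : ℝ => s - 1) (nhds 1) (nhds (1 - 1)) :=
      (continuous_id.sub continuous_const).tendsto 1
    rw [sub_self] at this
    exact tendsto_nhdsWithin_of_tendsto_nhds this
  have hlim2 : Filter.Tendsto
      (fun s : ℝ => (4 : ℝ) ^ T₀.card * ((s - 1) *
          ((s - 1) * ∑' J : Ideal (𝓞 N), (Ideal.absNorm J : ℝ) ^ (-s))))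
      (nhdsWithin 1 (Set.Ioi 1)) (nhds ((4 : ℝ) ^ T₀.card * (0 * cN))) :=
    (hs1.mul htN).const_mul _
  have hle : cF ^ 2 ≤ (4 : ℝ) ^ T₀.card * (0 * cN) :=
    le_of_tendsto_of_tendsto hlim1 hlim2
      (eventually_nhdsWithin_of_forall (fun s hs => key s hs))
  have hpos : 0 < cF ^ 2 := by positivity
  rw [zero_mul, mul_zero] at hle
  exact absurd hle (not_le.mpr hpos)

end Fermat.Agent.S14
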