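/-
S14, block Z: proof of `ZPoleStatement` (the ideal sum `∑_I (N I)^{-s}` converges for real
`s > 1`, equals the Dedekind zeta function there, and has a simple pole at `s = 1`).
-/
import Mathlib
import Fermat.Agent.S14.Interfaces
import Fermat.Agent.S14.ZInterfaces
set_option autoImplicit false
open NumberField Filter Topology
namespace Fermat.Agent.S14

/-- summability of the Dedekind L-series at real `s > 1` -/
theorem z_pole_lsummable (K : Type) [Field K] [NumberField K] (s : ℝ) (hs : 1 < s) :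
    LSeriesSummable (fun n ↦ (Nat.card {I : Ideal (𝓞 K) // Ideal.absNorm I = n} : ℂ)) (s : ℂ) := by
  have hlim : Tendsto (fun n : ℕ ↦ (∑ k ∈ Finset.Icc 1 n,
      (Nat.card {I : Ideal (𝓞 K) // Ideal.absNorm I = k} : ℝ)) / (n : ℝ)) atTop
      (𝓝 (dedekindZeta_residue K)) := by
    refine ((NumberField.Ideal.tendsto_norm_le_div_atTop₀ K).comp tendsto_natCast_atTop_atTop).congr fun n ↦ ?_
    simp only [Function.comp_apply, Nat.cast_le, ← Nat.cast_sum]
    congr
    rw [← add_left_inj 1, ← Ideal.card_norm_le_eq_card_norm_le_add_one,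
      show Finset.Icc 1 n = Finset.Ioc 0 n from Finset.Icc_succ_left_eq_Ioc _ _,
      show 1 = Nat.card {I : Ideal (𝓞 K) // Ideal.absNorm I = 0} by simp [Ideal.absNorm_eq_zero_iff],
      Finset.sum_Ioc_add_eq_sum_Icc (n.zero_le),
      ← Finset.card_preimage_eq_sum_card_image_eq (fun k _ ↦ Ideal.finite_setOfPred_absNorm_eq k)]
    simp [Set.coe_eq_subtype]
  refine LSeriesSummable_of_sum_norm_bigO_and_nonneg
    (f := fun n ↦ (Nat.card {I : Ideal (𝓞 K) // Ideal.absNorm I = n} : ℝ)) ?_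
    (fun _ ↦ Nat.cast_nonneg _) zero_le_one (by simpa using hs)
  exact Asymptotics.isBigO_atTop_natCast_rpow_of_tendsto_div_rpow (by simpa using hlim)

theorem z_pole_term (K : Type) [Field K] [NumberField K] (s : ℝ) (hs : s ≠ 0) (n : ℕ) :
    LSeries.term (fun n ↦ (Nat.card {I : Ideal (𝓞 K) // Ideal.absNorm I = n} : ℂ)) (s : ℂ) n
      = (((Nat.card {I : Ideal (𝓞 K) // Ideal.absNorm I = n} : ℝ) * (n : ℝ) ^ (-s) : ℝ) : ℂ) := by
  rw [LSeries.term_def]
  split_ifs with h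
  · subst h
    simp [Real.zero_rpow (neg_ne_zero.mpr hs)]
  · rw [Real.rpow_neg (Nat.cast_nonneg n)]
    push_cast
    rw [Complex.ofReal_cpow (Nat.cast_nonneg n)]
    simp [div_eq_mul_inv]

theorem z_pole_fiber (K : Type) [Field K] [NumberField K] (s : ℝ) (n : ℕ) :
    (Summable fun y : {I : Ideal (𝓞 K) // Ideal.absNorm I = n} => (Ideal.absNorm y.1 : ℝ) ^ (-s)) ∧
    ∑' y : {I : Ideal (𝓞 K) // Ideal.absNorm I = n}, (Ideal.absNorm y.1 : ℝ) ^ (-s) =
      (Nat.card {I : Ideal (𝓞 K) // Ideal.absNorm I = n} : ℝ) * (n : ℝ) ^ (-s) := by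
  have hfin : Finite {I : Ideal (𝓞 K) // Ideal.absNorm I = n} :=
    (Ideal.finite_setOfPred_absNorm_eq n).to_subtype
  refine ⟨Summable.of_finite, ?_⟩
  have : (fun y : {I : Ideal (𝓞 K) // Ideal.absNorm I = n} => (Ideal.absNorm y.1 : ℝ) ^ (-s)) =
      fun _ => (n : ℝ) ^ (-s) := by
    funext y
    rw [y.2]
  rw [this, tsum_const, nsmul_eq_mul]

theorem z_pole_sum (K : Type) [Field K] [NumberField K] (s : ℝ) (hs : 1 < s) :
    Summable (fun I : Ideal (𝓞 K) => (Ideal.absNorm I : ℝ) ^ (-s)) ∧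
    dedekindZeta K (s : ℂ) = ((∑' I : Ideal (𝓞 K), (Ideal.absNorm I : ℝ) ^ (-s) : ℝ) : ℂ) := by
  have hs0 : s ≠ 0 := by linarith
  have hL := z_pole_lsummable K s hs
  rw [LSeriesSummable, funext (z_pole_term K s hs0)] at hL
  have hLr : Summable (fun n : ℕ => (Nat.card {I : Ideal (𝓞 K) // Ideal.absNorm I = n} : ℝ) *
      (n : ℝ) ^ (-s)) := Complex.summable_ofReal.mp hL
  let e := Equiv.sigmaFiberEquiv (fun I : Ideal (𝓞 K) => Ideal.absNorm I)
  have hnn : ∀ x : (Σ n : ℕ, {I : Ideal (𝓞 K) // Ideal.absNorm I = n}),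
      0 ≤ (fun I : Ideal (𝓞 K) => (Ideal.absNorm I : ℝ) ^ (-s)) (e x) :=
    fun x => Real.rpow_nonneg (Nat.cast_nonneg _) _
  have hsig : Summable (fun x : (Σ n : ℕ, {I : Ideal (𝓞 K) // Ideal.absNorm I = n}) =>
      (fun I : Ideal (𝓞 K) => (Ideal.absNorm I : ℝ) ^ (-s)) (e x)) := by
    rw [summable_sigma_of_nonneg hnn]
    refine ⟨fun n => (z_pole_fiber K s n).1, ?_⟩
    refine hLr.congr (fun n => ?_)
    exact ((z_pole_fiber K s n).2).symm
  have hsum : Summable (fun I : Ideal (𝓞 K) => (Ideal.absNorm I : ℝ) ^ (-s)) :=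
    (e.summable_iff).mp hsig
  refine ⟨hsum, ?_⟩
  have h1 : ∑' I : Ideal (𝓞 K), (Ideal.absNorm I : ℝ) ^ (-s) =
      ∑' n : ℕ, (Nat.card {I : Ideal (𝓞 K) // Ideal.absNorm I = n} : ℝ) * (n : ℝ) ^ (-s) := by
    rw [← e.tsum_eq, hsig.tsum_sigma' (fun n => (z_pole_fiber K s n).1)]
    exact tsum_congr (fun n => (z_pole_fiber K s n).2)
  rw [h1, Complex.ofReal_tsum]
  unfold dedekindZeta LSeries
  exact tsum_congr (fun n => z_pole_term K s hs0 n)

theorem z_pole : ZPoleStatement := by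
  intro K _ _
  refine ⟨fun s hs => (z_pole_sum K s hs).1, dedekindZeta_residue K, dedekindZeta_residue_pos K, ?_⟩
  have h := tendsto_sub_one_mul_dedekindZeta_nhdsGT K
  have h2 := (Complex.continuous_re.tendsto _).comp h
  rw [Complex.ofReal_re] at h2
  refine h2.congr' ?_
  refine eventually_nhdsWithin_of_forall (fun s hs => ?_)
  simp only [Function.comp_apply]
  rw [(z_pole_sum K s hs).2]
  rw [← Complex.ofReal_one, ← Complex.ofReal_sub, ← Complex.ofReal_mul, Complex.ofReal_re]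

end Fermat.Agent.S14
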