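/-
S14, block Z: proof of `ZSquareStatement` (a pair map gives
`(∑_{𝔞 good} N𝔞^{-s})² ≤ ∑_{𝔄} N𝔄^{-s}`).
-/
import Mathlib
import Fermat.Agent.S14.Interfaces
import Fermat.Agent.S14.ZInterfaces

set_option autoImplicit false

open NumberField

namespace Fermat.Agent.S14

theorem z_sq : ZSquareStatement := by
  intro F N _ _ _ _ T₀ Φ s hΦ hF hN
  obtain ⟨hinj, hnorm⟩ := hΦ
  set f : {I : Ideal (𝓞 F) // ZGood T₀ I} → ℝ := fun I => (Ideal.absNorm I.1 : ℝ) ^ (-s) with hf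
  have hfs : Summable f := hF.subtype _
  have hf0 : 0 ≤ f := fun I => Real.rpow_nonneg (Nat.cast_nonneg _) _
  have hprod : Summable
      (fun z : {I : Ideal (𝓞 F) // ZGood T₀ I} × {I : Ideal (𝓞 F) // ZGood T₀ I} =>
        f z.1 * f z.2) := hfs.mul_of_nonneg hfs hf0 hf0
  rw [sq, hfs.tsum_mul_tsum hfs hprod]
  refine Summable.tsum_le_tsum_of_inj (fun z => Φ (z.1.1, z.2.1)) ?_ ?_ ?_ hprod hN
  · intro z w hzw
    have := hinj (z.1.1, z.2.1) (w.1.1, w.2.1) z.1.2 z.2.2 w.1.2 w.2.2 hzw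
    exact Prod.ext (Subtype.ext (congrArg Prod.fst this)) (Subtype.ext (congrArg Prod.snd this))
  · intro c _
    exact Real.rpow_nonneg (Nat.cast_nonneg _) _
  · intro z
    have h := hnorm (z.1.1, z.2.1) z.1.2 z.2.2
    simp only at h
    rw [h, Nat.cast_mul, Real.mul_rpow (Nat.cast_nonneg _) (Nat.cast_nonneg _)]

end Fermat.Agent.S14
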