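/-
S14, block Z: proof of `ZTwoPrimesStatement` (a prime that splits completely in an extension of
degree `≥ 2` has two distinct primes above it, of the same absolute norm).
-/
import Mathlib
import Fermat.Agent.S14.Interfaces
import Fermat.Agent.S14.ZInterfaces

set_option autoImplicit false

open NumberField

namespace Fermat.Agent.S14

theorem z_two : ZTwoPrimesStatement := by
  intro F N _ _ _ _ _ hd 𝔮 hq hq0 hsplit
  have : 𝔮.IsPrime := hq
  have hfin : (𝔮.primesOver (𝓞 N)).Finite := Algebra.QuasiFinite.finite_primesOver 𝔮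
  let _ : Fintype (𝔮.primesOver (𝓞 N)) := hfin.fintype
  have hsum := Ideal.sum_ramification_inertia_eq_finrank 𝔮 (𝓞 N)
  have hrank : Module.finrank F N = Module.finrank (𝓞 F) (𝓞 N) :=
    IsFractionRing.finrank_eq (𝓞 F) F (𝓞 N) N
  have hcard : Fintype.card (𝔮.primesOver (𝓞 N)) = Module.finrank F N := by
    rw [hrank, ← hsum]
    rw [Finset.sum_congr rfl (fun q _ => by
      rw [(hsplit q.1 q.2).1, (hsplit q.1 q.2).2])]
    simp
  have h1 : 1 < Fintype.card (𝔮.primesOver (𝓞 N)) := by omega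
  obtain ⟨Q₁, Q₂, hne⟩ := Fintype.exists_pair_of_one_lt_card h1
  refine ⟨Q₁.1, Q₂.1, fun h => hne (Subtype.ext h), Q₁.2.1, Q₂.2.1, ?_, ?_, ?_, ?_⟩
  · exact (Q₁.2.2.over).symm
  · exact (Q₂.2.2.over).symm
  · have := Q₁.2.1
    have := Q₁.2.2
    have h := Ideal.absNorm_pow_inertiaDeg 𝔮 Q₁.1
    rw [(hsplit Q₁.1 Q₁.2).2, pow_one] at h
    exact h.symm
  · have := Q₂.2.1
    have := Q₂.2.2
    have h := Ideal.absNorm_pow_inertiaDeg 𝔮 Q₂.1
    rw [(hsplit Q₂.1 Q₂.2).2, pow_one] at h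
    exact h.symm

end Fermat.Agent.S14
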