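/-
S14, block Z, package Z-PairMap: from two distinct primes of the same norm above every nonzero
prime outside `T₀`, build a norm-multiplicative map on pairs of ideals, injective on pairs of good
ideals (unique factorisation of ideals in Dedekind domains).
-/
import Mathlib
import Fermat.Agent.S14.Interfaces
import Fermat.Agent.S14.ZInterfaces

set_option autoImplicit false

open NumberField

namespace Fermat.Agent.S14

open UniqueFactorizationMonoid in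
/-- (Z-PairMap) If every nonzero prime outside `T₀` has two distinct primes above it of the same
norm, there is a norm-multiplicative map on pairs of good ideals, injective on such pairs. -/
theorem zpair_main : ZPairMapStatement := by
  classical
  intro F N _ _ _ _ _ T₀ hyp
  -- non-dependent form of the hypothesis, then choice functions
  have hyp' : ∀ 𝔮 : Ideal (𝓞 F), ∃ 𝔔₁ 𝔔₂ : Ideal (𝓞 N), 𝔮.IsPrime → 𝔮 ≠ ⊥ → 𝔮 ∉ T₀ →
      (𝔔₁ ≠ 𝔔₂ ∧ 𝔔₁.IsPrime ∧ 𝔔₂.IsPrime ∧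
        𝔔₁.comap (algebraMap (𝓞 F) (𝓞 N)) = 𝔮 ∧ 𝔔₂.comap (algebraMap (𝓞 F) (𝓞 N)) = 𝔮 ∧
        Ideal.absNorm 𝔔₁ = Ideal.absNorm 𝔮 ∧ Ideal.absNorm 𝔔₂ = Ideal.absNorm 𝔮) := by
    intro 𝔮
    by_cases h : 𝔮.IsPrime ∧ 𝔮 ≠ ⊥ ∧ 𝔮 ∉ T₀
    · obtain ⟨𝔔₁, 𝔔₂, h'⟩ := hyp 𝔮 h.1 h.2.1 h.2.2
      exact ⟨𝔔₁, 𝔔₂, fun _ _ _ => h'⟩
    · exact ⟨⊤, ⊤, fun h1 h2 h3 => absurd ⟨h1, h2, h3⟩ h⟩
  choose g₁ g₂ hg using hyp'
  -- contraction of ideals
  have hubot : (⊥ : Ideal (𝓞 N)).comap (algebraMap (𝓞 F) (𝓞 N)) = ⊥ :=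
    Ideal.comap_bot_of_injective _ (RingOfIntegers.algebraMap.injective F N)
  -- the prime factors of a good ideal are nonzero primes outside `T₀`
  have hfac : ∀ 𝔞 : Ideal (𝓞 F), ZGood T₀ 𝔞 → ∀ 𝔮 ∈ normalizedFactors 𝔞,
      𝔮.IsPrime ∧ 𝔮 ≠ ⊥ ∧ 𝔮 ∉ T₀ := by
    intro 𝔞 h𝔞 𝔮 h𝔮
    have hpr : Prime 𝔮 := prime_of_normalized_factor 𝔮 h𝔮
    have hip : 𝔮.IsPrime := Ideal.isPrime_of_prime hpr
    have hle : 𝔞 ≤ 𝔮 := Ideal.dvd_iff_le.mp (dvd_of_mem_normalizedFactors h𝔮)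
    exact ⟨hip, hpr.ne_zero, fun hT => h𝔞.2 𝔮 hT hip hle⟩
  -- the chosen primes above such a prime are prime elements of the monoid of ideals
  have hg₁prime : ∀ 𝔮 : Ideal (𝓞 F), 𝔮.IsPrime → 𝔮 ≠ ⊥ → 𝔮 ∉ T₀ → Prime (g₁ 𝔮) := by
    intro 𝔮 h1 h2 h3
    obtain ⟨-, hp₁, -, hc₁, -, -, -⟩ := hg 𝔮 h1 h2 h3
    refine Ideal.prime_of_isPrime ?_ hp₁
    intro hbot
    rw [hbot, hubot] at hc₁
    exact h2 hc₁.symm
  have hg₂prime : ∀ 𝔮 : Ideal (𝓞 F), 𝔮.IsPrime → 𝔮 ≠ ⊥ → 𝔮 ∉ T₀ → Prime (g₂ 𝔮) := by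
    intro 𝔮 h1 h2 h3
    obtain ⟨-, -, hp₂, -, hc₂, -, -⟩ := hg 𝔮 h1 h2 h3
    refine Ideal.prime_of_isPrime ?_ hp₂
    intro hbot
    rw [hbot, hubot] at hc₂
    exact h2 hc₂.symm
  -- a nonzero ideal is the product of its normalized factors
  have hprod : ∀ 𝔞 : Ideal (𝓞 F), 𝔞 ≠ ⊥ → (normalizedFactors 𝔞).prod = 𝔞 := by
    intro 𝔞 h𝔞
    exact associated_iff_eq.mp (prod_normalizedFactors h𝔞)
  -- the map
  refine ⟨fun x => ((normalizedFactors x.1).map g₁).prod * ((normalizedFactors x.2).map g₂).prod,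
    ?_, ?_⟩
  · -- injectivity on pairs of good ideals
    -- the factorisation of the image
    have hnf : ∀ 𝔞 𝔟 : Ideal (𝓞 F), ZGood T₀ 𝔞 → ZGood T₀ 𝔟 →
        normalizedFactors
          (((normalizedFactors 𝔞).map g₁).prod * ((normalizedFactors 𝔟).map g₂).prod) =
        (normalizedFactors 𝔞).map g₁ + (normalizedFactors 𝔟).map g₂ := by
      intro 𝔞 𝔟 h𝔞 h𝔟
      rw [← Multiset.prod_add]
      refine normalizedFactors_prod_of_prime ?_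
      intro 𝔔 h𝔔
      rcases Multiset.mem_add.mp h𝔔 with h | h
      · obtain ⟨𝔮, h𝔮, rfl⟩ := Multiset.mem_map.mp h
        obtain ⟨h1, h2, h3⟩ := hfac 𝔞 h𝔞 𝔮 h𝔮
        exact hg₁prime 𝔮 h1 h2 h3
      · obtain ⟨𝔮, h𝔮, rfl⟩ := Multiset.mem_map.mp h
        obtain ⟨h1, h2, h3⟩ := hfac 𝔟 h𝔟 𝔮 h𝔮
        exact hg₂prime 𝔮 h1 h2 h3
    -- the filter separating the two parts
    have hfilt₁ : ∀ 𝔞 : Ideal (𝓞 F), ZGood T₀ 𝔞 →
        ((normalizedFactors 𝔞).map g₁).filter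
          (fun 𝔔 => g₁ (𝔔.comap (algebraMap (𝓞 F) (𝓞 N))) = 𝔔) = (normalizedFactors 𝔞).map g₁ := by
      intro 𝔞 h𝔞
      refine Multiset.filter_eq_self.mpr ?_
      intro 𝔔 h𝔔
      obtain ⟨𝔮, h𝔮, rfl⟩ := Multiset.mem_map.mp h𝔔
      obtain ⟨h1, h2, h3⟩ := hfac 𝔞 h𝔞 𝔮 h𝔮
      obtain ⟨-, -, -, hc₁, -, -, -⟩ := hg 𝔮 h1 h2 h3
      rw [hc₁]
    have hfilt₂ : ∀ 𝔟 : Ideal (𝓞 F), ZGood T₀ 𝔟 →
        ((normalizedFactors 𝔟).map g₂).filter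
          (fun 𝔔 => g₁ (𝔔.comap (algebraMap (𝓞 F) (𝓞 N))) = 𝔔) = 0 := by
      intro 𝔟 h𝔟
      refine Multiset.filter_eq_nil.mpr ?_
      intro 𝔔 h𝔔
      obtain ⟨𝔮, h𝔮, rfl⟩ := Multiset.mem_map.mp h𝔔
      obtain ⟨h1, h2, h3⟩ := hfac 𝔟 h𝔟 𝔮 h𝔮
      obtain ⟨hne, -, -, -, hc₂, -, -⟩ := hg 𝔮 h1 h2 h3
      rw [hc₂]
      exact hne
    -- recover the factors by contraction
    have hmap₁ : ∀ 𝔞 : Ideal (𝓞 F), ZGood T₀ 𝔞 →
        ((normalizedFactors 𝔞).map g₁).map (fun 𝔔 => 𝔔.comap (algebraMap (𝓞 F) (𝓞 N))) =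
          normalizedFactors 𝔞 := by
      intro 𝔞 h𝔞
      rw [Multiset.map_map]
      conv_rhs => rw [← Multiset.map_id (normalizedFactors 𝔞)]
      refine Multiset.map_congr rfl ?_
      intro 𝔮 h𝔮
      obtain ⟨h1, h2, h3⟩ := hfac 𝔞 h𝔞 𝔮 h𝔮
      obtain ⟨-, -, -, hc₁, -, -, -⟩ := hg 𝔮 h1 h2 h3
      simpa using hc₁
    have hmap₂ : ∀ 𝔟 : Ideal (𝓞 F), ZGood T₀ 𝔟 →
        ((normalizedFactors 𝔟).map g₂).map (fun 𝔔 => 𝔔.comap (algebraMap (𝓞 F) (𝓞 N))) =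
          normalizedFactors 𝔟 := by
      intro 𝔟 h𝔟
      rw [Multiset.map_map]
      conv_rhs => rw [← Multiset.map_id (normalizedFactors 𝔟)]
      refine Multiset.map_congr rfl ?_
      intro 𝔮 h𝔮
      obtain ⟨h1, h2, h3⟩ := hfac 𝔟 h𝔟 𝔮 h𝔮
      obtain ⟨-, -, -, -, hc₂, -, -⟩ := hg 𝔮 h1 h2 h3
      simpa using hc₂
    rintro ⟨a, b⟩ ⟨c, d⟩ ha hb hc hd hΦ
    simp only at ha hb hc hd hΦ
    have hstar : (normalizedFactors a).map g₁ + (normalizedFactors b).map g₂ =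
        (normalizedFactors c).map g₁ + (normalizedFactors d).map g₂ := by
      rw [← hnf a b ha hb, ← hnf c d hc hd, hΦ]
    have h₁ : (normalizedFactors a).map g₁ = (normalizedFactors c).map g₁ := by
      have := congrArg
        (Multiset.filter (fun 𝔔 : Ideal (𝓞 N) => g₁ (𝔔.comap (algebraMap (𝓞 F) (𝓞 N))) = 𝔔)) hstar
      rw [Multiset.filter_add, Multiset.filter_add, hfilt₁ a ha, hfilt₁ c hc, hfilt₂ b hb,
        hfilt₂ d hd, add_zero, add_zero] at this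
      exact this
    have h₂ : (normalizedFactors b).map g₂ = (normalizedFactors d).map g₂ := by
      rw [h₁] at hstar
      exact add_left_cancel hstar
    have hac : a = c := by
      have := congrArg (Multiset.map (fun 𝔔 : Ideal (𝓞 N) => 𝔔.comap (algebraMap (𝓞 F) (𝓞 N)))) h₁
      rw [hmap₁ a ha, hmap₁ c hc] at this
      rw [← hprod a ha.1, ← hprod c hc.1, this]
    have hbd : b = d := by
      have := congrArg (Multiset.map (fun 𝔔 : Ideal (𝓞 N) => 𝔔.comap (algebraMap (𝓞 F) (𝓞 N)))) h₂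
      rw [hmap₂ b hb, hmap₂ d hd] at this
      rw [← hprod b hb.1, ← hprod d hd.1, this]
    rw [hac, hbd]
  · -- multiplicativity of the absolute norm
    rintro ⟨a, b⟩ ha hb
    simp only at ha hb ⊢
    have hna : Ideal.absNorm ((normalizedFactors a).map g₁).prod = Ideal.absNorm a := by
      conv_rhs => rw [← hprod a ha.1]
      rw [map_multiset_prod, map_multiset_prod, Multiset.map_map]
      refine congrArg Multiset.prod (Multiset.map_congr rfl ?_)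
      intro 𝔮 h𝔮
      obtain ⟨h1, h2, h3⟩ := hfac a ha 𝔮 h𝔮
      obtain ⟨-, -, -, -, -, hn₁, -⟩ := hg 𝔮 h1 h2 h3
      simpa using hn₁
    have hnb : Ideal.absNorm ((normalizedFactors b).map g₂).prod = Ideal.absNorm b := by
      conv_rhs => rw [← hprod b hb.1]
      rw [map_multiset_prod, map_multiset_prod, Multiset.map_map]
      refine congrArg Multiset.prod (Multiset.map_congr rfl ?_)
      intro 𝔮 h𝔮
      obtain ⟨h1, h2, h3⟩ := hfac b hb 𝔮 h𝔮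
      obtain ⟨-, -, -, -, -, -, hn₂⟩ := hg 𝔮 h1 h2 h3
      simpa using hn₂
    rw [map_mul, hna, hnb]

end Fermat.Agent.S14
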