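/-
S14, block Z (zeta pole argument, plan item K3/P5): the deliverable `z_k3 : K3Statement`.

In an extension `N/F` of number fields of degree `≥ 2`, outside any finite set `T₀` of ideals there
is a nonzero prime of `F` which does not split completely in `N`.

Assembly (`z_k3_of` in `ZMainAux.lean`) of the five packages of `ZInterfaces.lean`:
* `z_pole      : ZPoleStatement`      (`ZMainPole.lean`)  ideal sum, simple pole at `s = 1`;
* `z_two       : ZTwoPrimesStatement` (`ZMainTwo.lean`)   two primes of equal norm above a split prime;
* `zpair_main  : ZPairMapStatement`   (`ZPairMap.lean`)   the injective norm-multiplicative pair map;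
* `z_sq        : ZSquareStatement`    (`ZMainSq.lean`)    `(∑_{good} N𝔞^{-s})² ≤ ∑ N𝔄^{-s}`;
* `zcorr_main  : ZCorrStatement`      (`ZCorr.lean`)      removing the Euler factors at `T₀`.
-/
import Mathlib
import Fermat.Agent.S14.Interfaces
import Fermat.Agent.S14.ZInterfaces
import Fermat.Agent.S14.ZMainAux
import Fermat.Agent.S14.ZMainPole
import Fermat.Agent.S14.ZMainTwo
import Fermat.Agent.S14.ZMainSq
import Fermat.Agent.S14.ZPairMap
import Fermat.Agent.S14.ZCorr

set_option autoImplicit false

namespace Fermat.Agent.S14

/-- (K3) In an extension of number fields of degree `≥ 2`, outside any finite set of primes there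
is a prime which does not split completely. -/
theorem z_k3 : K3Statement :=
  z_k3_of z_pole z_two zpair_main z_sq zcorr_main

end Fermat.Agent.S14
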