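/-
S14, sub-block RE, package RE/ClaimB (RE10): there is an ideal prime to `m` with symbol `1`.

Proof: K3 (zeta pole argument) gives a prime `𝔓 ∤ m` of `E` which does not split completely in
`E' = E(a^{1/p})`; by the splitting criterion its symbol `s` is nonzero, and `𝔓 ^ k` with
`k = (s⁻¹).val` has symbol `k • s = 1`.
-/
import Fermat.Agent.S14.REInterfaces
import Fermat.Agent.S14.ZMain
import Fermat.Agent.S14.RSymbI
import Fermat.Agent.S14.RSymbSpec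
import Fermat.Agent.S14.RSymbSplit
import Fermat.Agent.S14.BKummerSplitA
import Fermat.Agent.S14.BKummerGal

set_option autoImplicit false

open NumberField

namespace Fermat.Agent.S14

/-- A maximal ideal together with an element outside it generates the unit ideal. -/
theorem reclmb_sup_span_eq_top {R : Type} [CommRing R] (P : Ideal R) (hP : P.IsMaximal) (x : R)
    (hx : x ∉ P) : P ⊔ Ideal.span {x} = ⊤ := by
  by_contra hne
  have hEq : P = P ⊔ Ideal.span {x} := hP.eq_of_le hne le_sup_left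
  apply hx
  rw [hEq]
  exact Ideal.mem_sup_right (Ideal.subset_span (Set.mem_singleton x))

/-- (RE10, Claim B) There is an ideal prime to `m` with symbol `1`. -/
theorem reclmb_claimB : REClaimBStatement := by
  intro p _ E E' _ _ _ _ _ ζ a m hζ hdeg hm hpm ham y hy hyr
  have hp : p.Prime := Fact.out
  have hm0 : (m : 𝓞 E) ≠ 0 := Nat.cast_ne_zero.mpr hm
  obtain ⟨T₀, hT₀⟩ := rsi_primesFinset E (m : 𝓞 E) hm0
  have h2 : 2 ≤ Module.finrank E E' := by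
    rw [hdeg]
    exact hp.two_le
  obtain ⟨𝔓, h𝔓p, h𝔓bot, h𝔓T, h𝔓ns⟩ := z_k3 E E' h2 T₀
  have hmP : (m : 𝓞 E) ∉ 𝔓 := fun h => h𝔓T (hT₀ 𝔓 h𝔓p h)
  have hpP : (p : 𝓞 E) ∉ 𝔓 := by
    intro h
    apply hmP
    obtain ⟨c, rfl⟩ := hpm
    rw [Nat.cast_mul]
    exact 𝔓.mul_mem_right _ h
  have haP : a ∉ 𝔓 := by
    intro h
    apply hmP
    obtain ⟨c, hc⟩ := ham
    rw [hc]
    exact 𝔓.mul_mem_right _ h
  have hsplit : symb p ζ a 𝔓 = 0 ↔ SplitsCompletely E E' 𝔓 :=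
    rsp_symbSplit rss_symbSpec (bksa_kummerSplit bkg_kummerGalois) p E E' ζ a hζ hdeg y hy hyr
      𝔓 h𝔓p h𝔓bot hpP haP
  have hs : symb p ζ a 𝔓 ≠ 0 := fun h => h𝔓ns (hsplit.mp h)
  obtain ⟨-, hprime, -, hpow⟩ := rsi_symbI p E ζ a
  have hmax : 𝔓.IsMaximal := h𝔓p.isMaximal h𝔓bot
  refine ⟨𝔓 ^ ((symb p ζ a 𝔓)⁻¹).val, ?_, ?_, ?_⟩
  · rw [← Ideal.zero_eq_bot]
    exact pow_ne_zero _ h𝔓bot
  · exact Ideal.pow_sup_eq_top (reclmb_sup_span_eq_top 𝔓 hmax _ hmP)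
  · rw [hpow 𝔓 _ h𝔓bot, hprime 𝔓 h𝔓p h𝔓bot, nsmul_eq_mul, ZMod.natCast_zmod_val,
      inv_mul_cancel₀ hs]

end Fermat.Agent.S14
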