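/-
S14 basics package `KummerExists` (prefix `bke_`): existence of Kummer extensions as abstract
number fields, and the lifting property of a degree-`p` radical extension.
-/
import Fermat.Agent.S14.Basics2

set_option autoImplicit false

open NumberField Polynomial IntermediateField

namespace Fermat.Agent.S14

theorem bke_kummerExists : KummerExistsStatement := by
  intro p hp F _ _ x hx
  have hirr : Irreducible (X ^ p - C x : F[X]) := X_pow_sub_C_irreducible_of_prime hp.out hx
  have : Fact (Irreducible (X ^ p - C x : F[X])) := ⟨hirr⟩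
  have hne : (X ^ p - C x : F[X]) ≠ 0 := hirr.ne_zero
  have : Module.Finite F (AdjoinRoot (X ^ p - C x : F[X])) :=
    (AdjoinRoot.powerBasis hne).finite
  have : NumberField (AdjoinRoot (X ^ p - C x : F[X])) :=
    NumberField.of_module_finite F (AdjoinRoot (X ^ p - C x : F[X]))
  refine ⟨AdjoinRoot (X ^ p - C x : F[X]), inferInstance, inferInstance, inferInstance, ?_,
    AdjoinRoot.root _, ?_⟩
  · rw [(AdjoinRoot.powerBasis hne).finrank, AdjoinRoot.powerBasis_dim,
      natDegree_X_pow_sub_C]
  · have h := AdjoinRoot.eval₂_root (X ^ p - C x : F[X])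
    rw [eval₂_sub, eval₂_pow, eval₂_X, eval₂_C, sub_eq_zero] at h
    exact h

theorem bke_kummerLift : KummerLiftStatement := by
  intro p hp F N M _ _ _ _ _ hfin x y y' hy hyn hy'
  have hp' : p.Prime := hp.out
  have hfd : FiniteDimensional F N :=
    Module.finite_of_finrank_pos (by rw [hfin]; exact hp'.pos)
  have hint : IsIntegral F y := Algebra.IsIntegral.isIntegral y
  have hroot : aeval y (X ^ p - C x : F[X]) = 0 := by
    rw [map_sub, map_pow, aeval_X, aeval_C, hy, sub_self]
  have hdvd : minpoly F y ∣ (X ^ p - C x : F[X]) := minpoly.dvd F y hroot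
  have h1 : Module.finrank F F⟮y⟯ = (minpoly F y).natDegree :=
    IntermediateField.adjoin.finrank hint
  have h2 : Module.finrank F F⟮y⟯ ∣ p := by
    have h := Module.finrank_mul_finrank F F⟮y⟯ N
    rw [hfin] at h
    exact Dvd.intro _ h
  have h3 : Module.finrank F F⟮y⟯ ≠ 1 := by
    intro h
    have hbot : F⟮y⟯ = ⊥ := IntermediateField.finrank_eq_one_iff.mp h
    have hy_mem : y ∈ F⟮y⟯ := mem_adjoin_simple_self F y
    rw [hbot, IntermediateField.mem_bot] at hy_mem
    exact hyn hy_mem
  have h4 : (minpoly F y).natDegree = p := by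
    rw [← h1]
    exact ((Nat.dvd_prime hp').mp h2).resolve_left h3
  have hmin : minpoly F y = X ^ p - C x :=
    (Polynomial.eq_of_monic_of_dvd_of_natDegree_le (minpoly.monic hint)
      (monic_X_pow_sub_C x hp'.ne_zero) hdvd (by rw [h4, natDegree_X_pow_sub_C])).symm
  have htop : F⟮y⟯ = ⊤ := by
    rw [Field.primitive_element_iff_minpoly_natDegree_eq, h4, hfin]
  have hadj : Algebra.adjoin F {y} = ⊤ := by
    rw [← IntermediateField.adjoin_simple_toSubalgebra_of_isAlgebraic hint.isAlgebraic, htop,
      IntermediateField.top_toSubalgebra]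
  have hroot' : aeval y' (minpoly F (PowerBasis.ofAdjoinEqTop hint hadj).gen) = 0 := by
    rw [PowerBasis.ofAdjoinEqTop_gen, hmin, map_sub, map_pow, aeval_X, aeval_C, hy', sub_self]
  refine ⟨(PowerBasis.ofAdjoinEqTop hint hadj).lift y' hroot', ?_⟩
  have h5 := (PowerBasis.ofAdjoinEqTop hint hadj).lift_gen y' hroot'
  rwa [PowerBasis.ofAdjoinEqTop_gen] at h5

end Fermat.Agent.S14
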