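/-
S14, block R, package AuxPrime (twin A): auxiliary primes.

Main results:
* `rapa_auxPrime_of_K3 : K3Statement → KummerExistsStatement → KummerSplitStatement → AuxPrimeStatement`
* `rapa_auxPrime` (the same with the two unused hypotheses `CycloSplitStatement`, `PrimesFinsetStatement`)
* `rapa_primesFinset : PrimesFinsetStatement` (unconditional).

Proof.  Let `K = ℚ(ζ_p)`.  A prime number `q` is not a `p`-th power in `K` (take norms: `p` would
divide `[K : ℚ] = p - 1`).  Let `M = K(q^{1/p})`; by K3 there is a prime `𝔯` of `K`, not dividing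
`p q ∏ X`, which does not split completely in `M`, so `q` is not a `p`-th power modulo `𝔯`
(Kummer criterion).  If `r` is the rational prime below `𝔯`, then `q` is not a `p`-th power modulo
`r`; in particular the `p`-th power map of `(ℤ/r)ˣ` is not bijective, so `p ∣ r - 1`.
-/
import Fermat.Agent.S14.RInterfaces

set_option autoImplicit false

open NumberField

namespace Fermat.Agent.S14

/-- Primes containing a nonzero element form a finite set. -/
theorem rapa_primesFinset : PrimesFinsetStatement := by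
  intro F _ _ x hx
  classical
  refine ⟨(UniqueFactorizationMonoid.normalizedFactors (Ideal.span {x})).toFinset, ?_⟩
  intro 𝔓 h𝔓 hx𝔓
  rw [Multiset.mem_toFinset, Ideal.mem_normalizedFactors_iff
    (by rwa [Ne, Ideal.span_singleton_eq_bot])]
  exact ⟨h𝔓, (Ideal.span_singleton_le_iff_mem 𝔓).mpr hx𝔓⟩

/-- A prime ideal containing a nonzero natural number contains a prime number. -/
theorem rapa_prime_of_natCast_mem {R : Type*} [CommRing R] (P : Ideal R) (hP : P.IsPrime) :
    ∀ n : ℕ, n ≠ 0 → (n : R) ∈ P → ∃ r : ℕ, r.Prime ∧ (r : R) ∈ P := by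
  intro n
  induction n using Nat.strong_induction_on with
  | _ n ih =>
    intro hn hmem
    by_cases h1 : n = 1
    · subst h1
      rw [Nat.cast_one] at hmem
      exact absurd ((Ideal.eq_top_iff_one P).mpr hmem) hP.ne_top
    · obtain ⟨r, hr, m, rfl⟩ := Nat.exists_prime_and_dvd h1
      rw [Nat.cast_mul] at hmem
      rcases hP.mem_or_mem hmem with h | h
      · exact ⟨r, hr, h⟩
      · have hm0 : m ≠ 0 := by
          rintro rfl
          exact hn (mul_zero r)
        have hlt : m < r * m := by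
          have := hr.two_le
          nlinarith [Nat.pos_of_ne_zero hm0]
        exact ih m hlt hm0 h

/-- Every nonzero prime of a number field contains a prime number. -/
theorem rapa_exists_prime_mem (K : Type) [Field K] [NumberField K] (𝔯 : Ideal (𝓞 K))
    (h𝔯 : 𝔯.IsPrime) (h0 : 𝔯 ≠ ⊥) : ∃ r : ℕ, r.Prime ∧ (r : 𝓞 K) ∈ 𝔯 :=
  rapa_prime_of_natCast_mem 𝔯 h𝔯 (Ideal.absNorm 𝔯)
    (fun h => h0 (Ideal.absNorm_eq_zero_iff.mp h)) (Ideal.absNorm_mem 𝔯)

/-- A prime number is not a `p`-th power in a number field of degree prime to `p`. -/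
theorem rapa_not_pow (p : ℕ) [Fact p.Prime] (K : Type) [Field K] [NumberField K]
    (hdeg : ¬ p ∣ Module.finrank ℚ K) (q : ℕ) (hq : q.Prime) (z : K) : z ^ p ≠ (q : K) := by
  intro hz
  have h1 := congrArg (Algebra.norm ℚ) hz
  rw [map_pow] at h1
  have h2 : (Algebra.norm ℚ) ((q : ℕ) : K) = (q : ℚ) ^ Module.finrank ℚ K := by
    rw [← map_natCast (algebraMap ℚ K) q, Algebra.norm_algebraMap]
  rw [h2] at h1
  have := Fact.mk hq
  have h3 := congrArg (padicValRat q) h1
  rw [padicValRat.pow, padicValRat.pow, padicValRat.self hq.one_lt, mul_one] at h3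
  apply hdeg
  have h4 : (p : ℤ) ∣ (Module.finrank ℚ K : ℤ) := ⟨_, h3.symm⟩
  exact_mod_cast h4

/-- The core argument, for any number field `K` containing a primitive `p`-th root of unity in
which `q` is not a `p`-th power. -/
theorem rapa_aux_of_field (hK3 : K3Statement) (hKE : KummerExistsStatement)
    (hKS : KummerSplitStatement) (p : ℕ) [Fact p.Prime] (K : Type) [Field K] [NumberField K]
    (ζ : K) (hζ : IsPrimitiveRoot ζ p) (q : ℕ) (hnp : ∀ z : K, z ^ p ≠ (q : K))
    (X : Finset ℕ) :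
    ∃ r : ℕ, r.Prime ∧ r % p = 1 ∧ r ∉ X ∧ ¬ ∃ c : ZMod r, c ^ p = (q : ZMod r) := by
  have hp : p.Prime := Fact.out
  have hq0 : q ≠ 0 := by
    rintro rfl
    exact hnp 0 (by rw [zero_pow hp.ne_zero, Nat.cast_zero])
  obtain ⟨N, _, _, _, hdeg, y, hy⟩ := hKE p K (q : K) hnp
  have hy' : y ∉ Set.range (algebraMap K N) := by
    rintro ⟨z, rfl⟩
    rw [← map_pow] at hy
    exact hnp z ((algebraMap K N).injective hy)
  -- the bad number
  obtain ⟨B, hB, hBdef⟩ : ∃ B : ℕ, B ≠ 0 ∧ B = p * q * ∏ x ∈ X, (if x = 0 then 1 else x) := by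
    refine ⟨_, ?_, rfl⟩
    refine mul_ne_zero (mul_ne_zero hp.ne_zero hq0) (Finset.prod_ne_zero_iff.mpr ?_)
    intro x _
    split_ifs with h
    · exact one_ne_zero
    · exact h
  obtain ⟨T, hT⟩ := rapa_primesFinset K (B : 𝓞 K) (by exact_mod_cast hB)
  obtain ⟨𝔯, h𝔯p, h𝔯0, h𝔯T, hns⟩ := hK3 K N (by rw [hdeg]; exact hp.two_le) T
  have hB𝔯 : (B : 𝓞 K) ∉ 𝔯 := fun h => h𝔯T (hT 𝔯 h𝔯p h)
  have hdvdB : ∀ m : ℕ, m ∣ B → (m : 𝓞 K) ∉ 𝔯 := by
    rintro m ⟨k, hk⟩ hm
    apply hB𝔯
    rw [hk, Nat.cast_mul]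
    exact 𝔯.mul_mem_right _ hm
  have hp𝔯 : (p : 𝓞 K) ∉ 𝔯 := hdvdB p ⟨q * ∏ x ∈ X, (if x = 0 then 1 else x), by
    rw [hBdef, mul_assoc]⟩
  have hq𝔯 : (q : 𝓞 K) ∉ 𝔯 := hdvdB q ⟨p * ∏ x ∈ X, (if x = 0 then 1 else x), by
    rw [hBdef]; ring⟩
  have hyq : y ^ p = algebraMap K N (((q : 𝓞 K) : 𝓞 K) : K) := by
    rw [hy]
    congr 1
  have hsplit := (hKS p K N ζ hζ hdeg (q : 𝓞 K) y hyq hy' 𝔯 h𝔯p h𝔯0 hp𝔯 hq𝔯).1
  have hnc : ¬ ∃ c : 𝓞 K, (q : 𝓞 K) - c ^ p ∈ 𝔯 := fun h => hns (hsplit.mpr h)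
  -- the rational prime below `𝔯`
  obtain ⟨r, hr, hr𝔯⟩ := rapa_exists_prime_mem K 𝔯 h𝔯p h𝔯0
  have hrB : ¬ r ∣ B := fun h => hdvdB r h hr𝔯
  have : Fact r.Prime := ⟨hr⟩
  have hcr : ¬ ∃ c : ZMod r, c ^ p = (q : ZMod r) := by
    rintro ⟨c, hc⟩
    apply hnc
    refine ⟨(c.val : 𝓞 K), ?_⟩
    have h1 : (((q : ℤ) - (c.val : ℤ) ^ p : ℤ) : ZMod r) = 0 := by
      push_cast
      rw [ZMod.natCast_zmod_val, hc, sub_self]
    rw [ZMod.intCast_zmod_eq_zero_iff_dvd] at h1
    obtain ⟨k, hk⟩ := h1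
    have h2 : (q : 𝓞 K) - (c.val : 𝓞 K) ^ p = (r : 𝓞 K) * (k : 𝓞 K) := by
      have h3 := congrArg (Int.cast : ℤ → 𝓞 K) hk
      push_cast at h3
      exact h3
    rw [h2]
    exact 𝔯.mul_mem_right _ hr𝔯
  refine ⟨r, hr, ?_, ?_, hcr⟩
  · by_contra hne
    apply hcr
    have hcop : (Nat.card (ZMod r)ˣ).Coprime p := by
      rw [Nat.card_eq_fintype_card, ZMod.card_units_eq_totient, Nat.totient_prime hr,
        Nat.coprime_comm, hp.coprime_iff_not_dvd]
      rintro ⟨k, hk⟩
      apply hne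
      have hr1 : r = p * k + 1 := by
        have := hr.one_lt
        omega
      rw [hr1, Nat.mul_add_mod, Nat.mod_eq_of_lt hp.one_lt]
    have hqr : (q : ZMod r) ≠ 0 := by
      rw [Ne, ZMod.natCast_eq_zero_iff]
      intro h
      exact hrB (h.trans ⟨p * ∏ x ∈ X, (if x = 0 then 1 else x), by rw [hBdef]; ring⟩)
    obtain ⟨u, hu⟩ := (Nat.Coprime.pow_left_bijective hcop).surjective (Units.mk0 (q : ZMod r) hqr)
    refine ⟨(u : ZMod r), ?_⟩
    have h4 := congrArg Units.val hu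
    simpa using h4
  · intro hrX
    apply hrB
    have h5 := Finset.dvd_prod_of_mem (fun x : ℕ => if x = 0 then 1 else x) hrX
    simp only [hr.ne_zero, if_false] at h5
    rw [hBdef]
    exact Dvd.dvd.mul_left h5 _

/-- (R4) Auxiliary primes, from K3, Kummer existence and the Kummer splitting criterion. -/
theorem rapa_auxPrime_of_K3 :
    K3Statement → KummerExistsStatement → KummerSplitStatement → AuxPrimeStatement := by
  intro hK3 hKE hKS p _ _ q hq _ X
  have hp : p.Prime := Fact.out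
  have : NeZero p := ⟨hp.ne_zero⟩
  have hcyc : IsCyclotomicExtension {p} ℚ (CyclotomicField p ℚ) := by
    exact CyclotomicField.isCyclotomicExtension p ℚ
  have hζ := IsCyclotomicExtension.zeta_spec p ℚ (CyclotomicField p ℚ)
  have hfin : Module.finrank ℚ (CyclotomicField p ℚ) = p - 1 := by
    rw [IsCyclotomicExtension.finrank (CyclotomicField p ℚ)
      (Polynomial.cyclotomic.irreducible_rat hp.pos), Nat.totient_prime hp]
  have hdeg : ¬ p ∣ Module.finrank ℚ (CyclotomicField p ℚ) := by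
    rw [hfin]
    have := hp.two_le
    exact Nat.not_dvd_of_pos_of_lt (by omega) (by omega)
  exact rapa_aux_of_field hK3 hKE hKS p (CyclotomicField p ℚ) _ hζ q
    (rapa_not_pow p (CyclotomicField p ℚ) hdeg q hq) X

/-- (R4) Auxiliary primes, with the hypotheses of the assignment (`CycloSplitStatement` and
`PrimesFinsetStatement` are not needed). -/
theorem rapa_auxPrime :
    K3Statement → KummerExistsStatement → KummerSplitStatement → CycloSplitStatement →
      PrimesFinsetStatement → AuxPrimeStatement :=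
  fun hK3 hKE hKS _ _ => rapa_auxPrime_of_K3 hK3 hKE hKS

end Fermat.Agent.S14
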