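/-
S14, sub-block RE, package `Construct` (prefix `recons_`):
`recons_construct : GaussElementStatement → REConstructStatement`.

Given a good prime `𝔮` of `K = ℚ(ζ_p)` of degree one (norm `q`) with nonzero symbol
`d = symb p ζ α 𝔮`, we choose an auxiliary prime `r ≡ 1 mod p` (outside a finite set, prime to
`B`, different from `q`) such that `q` is not a `p`-th power modulo `r` (`AuxPrimeStatement`,
proved from landed packages).  The Gauss element `c` for `r` then has symbol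
`s = symb p ζ c 𝔮 = - lam q ≠ 0`, and with `j = (- d * s⁻¹).val ∈ (0, p)` the element
`α * c ^ j` has symbol `d + j * s = 0` at `𝔮`, i.e. it is a `p`-th power residue modulo `𝔮`.
-/
import Fermat.Agent.S14.REInterfaces
import Fermat.Agent.S14.RSymbSpec
import Fermat.Agent.S14.RAuxPrimeA
import Fermat.Agent.S14.ZMain
import Fermat.Agent.S14.BKummerExists
import Fermat.Agent.S14.BKummerSplitA
import Fermat.Agent.S14.BKummerGal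

set_option autoImplicit false

open NumberField

namespace Fermat.Agent.S14

/-- (R4) Auxiliary primes, unconditionally (assembled from landed packages). -/
theorem recons_auxPrime : AuxPrimeStatement :=
  rapa_auxPrime_of_K3 z_k3 bke_kummerExists (bksa_kummerSplit bkg_kummerGalois)

/-- The symbol of `1` at a good prime is `0`. -/
theorem recons_symb_one (p : ℕ) [Fact p.Prime] {E : Type} [Field E] [NumberField E] (ζ : 𝓞 E)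
    (hζ : IsPrimitiveRoot ζ p) (𝔓 : Ideal (𝓞 E)) (h𝔓 : 𝔓.IsPrime) (h𝔓0 : 𝔓 ≠ ⊥)
    (hp𝔓 : (p : 𝓞 E) ∉ 𝔓) : symb p ζ (1 : 𝓞 E) 𝔓 = 0 := by
  have h1 : (1 : 𝓞 E) ∉ 𝔓 := fun h => h𝔓.ne_top ((Ideal.eq_top_iff_one 𝔓).mpr h)
  have h := ((rss_symbSpec p E ζ hζ 𝔓 h𝔓 h𝔓0 hp𝔓).2 1 h1).2.2.2 1 h1
  rw [mul_one] at h
  exact left_eq_add.mp h

/-- The symbol of a power at a good prime. -/
theorem recons_symb_pow (p : ℕ) [Fact p.Prime] {E : Type} [Field E] [NumberField E] (ζ : 𝓞 E)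
    (hζ : IsPrimitiveRoot ζ p) (𝔓 : Ideal (𝓞 E)) (h𝔓 : 𝔓.IsPrime) (h𝔓0 : 𝔓 ≠ ⊥)
    (hp𝔓 : (p : 𝓞 E) ∉ 𝔓) (c : 𝓞 E) (hc : c ∉ 𝔓) (n : ℕ) :
    c ^ n ∉ 𝔓 ∧ symb p ζ (c ^ n) 𝔓 = (n : ZMod p) * symb p ζ c 𝔓 := by
  induction n with
  | zero =>
    refine ⟨?_, ?_⟩
    · rw [pow_zero]
      exact fun h => h𝔓.ne_top ((Ideal.eq_top_iff_one 𝔓).mpr h)
    · rw [pow_zero, recons_symb_one p ζ hζ 𝔓 h𝔓 h𝔓0 hp𝔓]
      simp
  | succ n ih =>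
    obtain ⟨ih1, ih2⟩ := ih
    refine ⟨?_, ?_⟩
    · rw [pow_succ]
      intro h
      rcases h𝔓.mem_or_mem h with h | h
      · exact ih1 h
      · exact hc h
    · have h := ((rss_symbSpec p E ζ hζ 𝔓 h𝔓 h𝔓0 hp𝔓).2 (c ^ n) ih1).2.2.2 c hc
      rw [pow_succ, h, ih2]
      push_cast
      ring

/-- (RE1) Choice of the auxiliary prime `r`, the Gauss element `c` with its logarithm `lam`, and
the exponent `j` such that `α * c ^ j` is a `p`-th power residue modulo `𝔮`. -/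
theorem recons_construct : GaussElementStatement → REConstructStatement := by
  intro hG p _ hp3 K _ _ _ ζ α B hζ hB0 hpB hαB 𝔮 h𝔮 hq hB𝔮 hd X
  classical
  have hp : p.Prime := Fact.out
  -- basic facts on `𝔮`
  have h𝔮0 : 𝔮 ≠ ⊥ := by
    rintro rfl
    rw [Ideal.absNorm_bot] at hq
    exact Nat.not_prime_zero hq
  have hp𝔮 : (p : 𝓞 K) ∉ 𝔮 := by
    intro h
    obtain ⟨k, rfl⟩ := hpB
    apply hB𝔮
    rw [Nat.cast_mul]
    exact Ideal.mul_mem_right _ _ h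
  have hα𝔮 : α ∉ 𝔮 := by
    intro h
    obtain ⟨t, ht⟩ := hαB
    apply hB𝔮
    rw [ht]
    exact Ideal.mul_mem_right _ _ h
  -- Step 1: `q ≡ 1 mod p`
  obtain ⟨hpdvd, hspec⟩ := rss_symbSpec p K ζ hζ 𝔮 h𝔮 h𝔮0 hp𝔮
  have hqp : Ideal.absNorm 𝔮 % p = 1 := by
    obtain ⟨k, hk⟩ := hpdvd
    have h2 := hq.two_le
    have h3 : Ideal.absNorm 𝔮 = 1 + p * k := by omega
    rw [h3, Nat.add_mul_mod_self_left]
    exact Nat.mod_eq_of_lt (by omega)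
  -- Step 2: the auxiliary prime
  obtain ⟨r, hr, hrp, hrX, hrpow⟩ :=
    recons_auxPrime p hp3 (Ideal.absNorm 𝔮) hq hqp (X ∪ {Ideal.absNorm 𝔮} ∪ B.primeFactors)
  have hrX1 : r ∉ X := fun h => hrX (by simp [h])
  have hrq : r ≠ Ideal.absNorm 𝔮 := fun h => hrX (by simp [h])
  have hrB : ¬ r ∣ B := fun h =>
    hrX (Finset.mem_union_right _ (Nat.mem_primeFactors.mpr ⟨hr, h, hB0⟩))
  have hq𝔮 : ((Ideal.absNorm 𝔮 : ℕ) : 𝓞 K) ∈ 𝔮 := Ideal.absNorm_mem 𝔮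
  have hr𝔮 : (r : 𝓞 K) ∉ 𝔮 := by
    intro h
    have hcop : Nat.Coprime r (Ideal.absNorm 𝔮) := (Nat.coprime_primes hr hq).mpr hrq
    obtain ⟨u, v, huv⟩ := Nat.isCoprime_iff_coprime.mpr hcop
    have h1 : (1 : 𝓞 K) ∈ 𝔮 := by
      have h2 : ((u * (r : ℤ) + v * (Ideal.absNorm 𝔮 : ℤ) : ℤ) : 𝓞 K) = 1 := by
        rw [huv]
        simp
      rw [← h2]
      push_cast
      exact Ideal.add_mem _ (Ideal.mul_mem_left _ _ h) (Ideal.mul_mem_left _ _ hq𝔮)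
    exact h𝔮.ne_top ((Ideal.eq_top_iff_one 𝔮).mpr h1)
  -- Step 3: the Gauss element
  obtain ⟨c, lam, hmul, hpow, hcdvd, hval, hlast⟩ := hG p hp3 K ζ hζ r hr hrp
  have hs : symb p ζ c 𝔮 = - lam ((Ideal.absNorm 𝔮 : ℕ) : ZMod r) :=
    hlast K 𝔮 h𝔮 h𝔮0 hp𝔮 hr𝔮
  have hqr0 : ((Ideal.absNorm 𝔮 : ℕ) : ZMod r) ≠ 0 := by
    intro h
    rw [ZMod.natCast_eq_zero_iff] at h
    exact hrq ((Nat.prime_dvd_prime_iff_eq hr hq).mp h)
  have hlam0 : lam ((Ideal.absNorm 𝔮 : ℕ) : ZMod r) ≠ 0 := fun h =>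
    hrpow ((hpow _ hqr0).mp h)
  have hs0 : symb p ζ c 𝔮 ≠ 0 := by
    rw [hs]
    exact neg_ne_zero.mpr hlam0
  -- Step 4: the exponent `j`
  have hc𝔮 : c ∉ 𝔮 := by
    intro h
    obtain ⟨t, ht⟩ := hcdvd
    have h1 : (r : 𝓞 K) ^ (p - 1) ∈ 𝔮 := by
      rw [ht]
      exact Ideal.mul_mem_right _ _ h
    exact hr𝔮 (h𝔮.mem_of_pow_mem _ h1)
  have hne : - symb p ζ α 𝔮 * (symb p ζ c 𝔮)⁻¹ ≠ 0 :=
    mul_ne_zero (neg_ne_zero.mpr hd) (inv_ne_zero hs0)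
  have hjp : (- symb p ζ α 𝔮 * (symb p ζ c 𝔮)⁻¹).val < p := ZMod.val_lt _
  have hj0 : 0 < (- symb p ζ α 𝔮 * (symb p ζ c 𝔮)⁻¹).val :=
    Nat.pos_of_ne_zero (fun h => hne ((ZMod.val_eq_zero _).mp h))
  have hjcast : (((- symb p ζ α 𝔮 * (symb p ζ c 𝔮)⁻¹).val : ℕ) : ZMod p) =
      - symb p ζ α 𝔮 * (symb p ζ c 𝔮)⁻¹ := ZMod.natCast_zmod_val _
  -- Step 5: the symbol of `α * c ^ j` vanishes
  obtain ⟨hcj𝔮, hcj⟩ := recons_symb_pow p ζ hζ 𝔮 h𝔮 h𝔮0 hp𝔮 c hc𝔮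
    (- symb p ζ α 𝔮 * (symb p ζ c 𝔮)⁻¹).val
  have hsymb : symb p ζ (α * c ^ (- symb p ζ α 𝔮 * (symb p ζ c 𝔮)⁻¹).val) 𝔮 = 0 := by
    rw [(hspec α hα𝔮).2.2.2 _ hcj𝔮, hcj, hjcast, mul_assoc, inv_mul_cancel₀ hs0, mul_one,
      add_neg_cancel]
  have hacj𝔮 : α * c ^ (- symb p ζ α 𝔮 * (symb p ζ c 𝔮)⁻¹).val ∉ 𝔮 := by
    intro h
    rcases h𝔮.mem_or_mem h with h | h
    · exact hα𝔮 h
    · exact hcj𝔮 h
  exact ⟨r, c, lam, (- symb p ζ α 𝔮 * (symb p ζ c 𝔮)⁻¹).val, hr, hrp, hrX1, hrB, hr𝔮, hj0, hjp,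
    hmul, hpow, hcdvd, hval, hlast, ((hspec _ hacj𝔮).2.2.1).mp hsymb⟩

end Fermat.Agent.S14
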