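/-
S14, sub-block RE, package Count (RE11): if the norm classes of `E'/E` have index `≤ p`, ideals
prime to `m` in norm classes have trivial symbol, and some ideal prime to `m` has symbol `1`, then
every ideal prime to `m` with trivial symbol lies in a norm class.
Pure group theory (the quotient of the class group by the norm classes is cyclic of order `p`,
generated by the class of the ideal with symbol `1`) plus additivity of `symbI`.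
-/
import Fermat.Agent.S14.REInterfaces
import Fermat.Agent.S14.RSymbI

set_option autoImplicit false

open NumberField

namespace Fermat.Agent.S14

/-- Nonzero ideals of a ring of integers are non-zero-divisors. -/
theorem recount_mem_nzd {E : Type} [Field E] [NumberField E] (I : Ideal (𝓞 E)) (hI : I ≠ ⊥) :
    I ∈ nonZeroDivisors (Ideal (𝓞 E)) :=
  mem_nonZeroDivisors_iff_ne_zero.mpr hI

/-- The class of `I * J ^ t`. -/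
theorem recount_mk0_mul_pow {E : Type} [Field E] [NumberField E] (I J : Ideal (𝓞 E)) (t : ℕ)
    (hI : I ∈ nonZeroDivisors (Ideal (𝓞 E))) (hJ : J ∈ nonZeroDivisors (Ideal (𝓞 E)))
    (hIJ : I * J ^ t ∈ nonZeroDivisors (Ideal (𝓞 E))) :
    ClassGroup.mk0 ⟨I * J ^ t, hIJ⟩ = ClassGroup.mk0 ⟨I, hI⟩ * ClassGroup.mk0 ⟨J, hJ⟩ ^ t := by
  rw [← map_pow, ← map_mul]
  rfl

/-- Key step: if `𝔅'` is prime to `m` and the class of `𝔅' * 𝔓₀ ^ t` is a norm class, then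
`symbI 𝔅' + t = 0` (where `symbI 𝔓₀ = 1`). -/
theorem recount_key (p : ℕ) (E E' : Type) [Field E] [NumberField E] [Field E'] [NumberField E']
    [Algebra E E'] (ζ a : 𝓞 E) (m : ℕ)
    (hH : ∀ (𝔅 : Ideal (𝓞 E)) (h : 𝔅 ∈ nonZeroDivisors (Ideal (𝓞 E))),
      𝔅 ⊔ Ideal.span {(m : 𝓞 E)} = ⊤ → ClassGroup.mk0 ⟨𝔅, h⟩ ∈ normClasses E E' →
      symbI p ζ a 𝔅 = 0)
    (𝔓₀ : Ideal (𝓞 E)) (h𝔓nz : 𝔓₀ ∈ nonZeroDivisors (Ideal (𝓞 E)))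
    (h𝔓m : 𝔓₀ ⊔ Ideal.span {(m : 𝓞 E)} = ⊤) (h𝔓s : symbI p ζ a 𝔓₀ = 1)
    (𝔅' : Ideal (𝓞 E)) (h' : 𝔅' ∈ nonZeroDivisors (Ideal (𝓞 E))) (t : ℕ)
    (h'm : 𝔅' ⊔ Ideal.span {(m : 𝓞 E)} = ⊤)
    (hmem : ClassGroup.mk0 ⟨𝔅', h'⟩ * ClassGroup.mk0 ⟨𝔓₀, h𝔓nz⟩ ^ t ∈ normClasses E E') :
    symbI p ζ a 𝔅' + (t : ZMod p) = 0 := by
  obtain ⟨hmul, -, -, hpow⟩ := rsi_symbI p E ζ a
  have h𝔓0 : 𝔓₀ ≠ ⊥ := mem_nonZeroDivisors_iff_ne_zero.mp h𝔓nz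
  have hne' : 𝔅' ≠ ⊥ := mem_nonZeroDivisors_iff_ne_zero.mp h'
  have hpne : 𝔓₀ ^ t ≠ ⊥ := pow_ne_zero t h𝔓0
  have hprod : 𝔅' * 𝔓₀ ^ t ∈ nonZeroDivisors (Ideal (𝓞 E)) :=
    recount_mem_nzd _ (mul_ne_zero hne' hpne)
  have hcop : 𝔅' * 𝔓₀ ^ t ⊔ Ideal.span {(m : 𝓞 E)} = ⊤ := by
    rw [Ideal.mul_sup_eq_of_coprime_left h'm]
    exact Ideal.pow_sup_eq_top h𝔓m
  have h0 := hH (𝔅' * 𝔓₀ ^ t) hprod hcop
    (by rw [recount_mk0_mul_pow 𝔅' 𝔓₀ t h' h𝔓nz]; exact hmem)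
  rw [hmul _ _ hne' hpne, hpow _ _ h𝔓0, h𝔓s, nsmul_eq_mul, mul_one] at h0
  exact h0

/-- (RE11, counting). -/
theorem recount_count : RECountStatement := by
  intro p hp E E' _ _ _ _ _ ζ a m hidx hH h𝔓₀ 𝔅 h𝔅0 h𝔅m h𝔅s
  obtain ⟨𝔓₀, h𝔓0, h𝔓m, h𝔓s⟩ := h𝔓₀
  have hp1 : p.Prime := hp.out
  have h𝔓nz : 𝔓₀ ∈ nonZeroDivisors (Ideal (𝓞 E)) := recount_mem_nzd 𝔓₀ h𝔓0
  have h𝔅nz : 𝔅 ∈ nonZeroDivisors (Ideal (𝓞 E)) := recount_mem_nzd 𝔅 h𝔅0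
  have key := recount_key p E E' ζ a m hH 𝔓₀ h𝔓nz h𝔓m h𝔓s
  -- the generator of the quotient
  let g : ClassGroup (𝓞 E) ⧸ normClasses E E' :=
    QuotientGroup.mk (ClassGroup.mk0 ⟨𝔓₀, h𝔓nz⟩)
  -- Step 1: `g ^ k ≠ 1` for `0 < k < p`
  have hg : ∀ k : ℕ, 0 < k → k < p → g ^ k ≠ 1 := by
    intro k hk0 hkp hgk
    have hmem : ClassGroup.mk0 ⟨𝔓₀, h𝔓nz⟩ * ClassGroup.mk0 ⟨𝔓₀, h𝔓nz⟩ ^ (k - 1)
        ∈ normClasses E E' := by
      rw [← pow_succ', Nat.sub_add_cancel hk0]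
      exact (QuotientGroup.eq_one_iff _).mp hgk
    have h0 := key 𝔓₀ h𝔓nz (k - 1) h𝔓m hmem
    rw [h𝔓s] at h0
    have h1 : ((k : ℕ) : ZMod p) = 0 := by
      have : ((k - 1 + 1 : ℕ) : ZMod p) = 0 := by
        push_cast
        rw [add_comm]
        exact h0
      rwa [Nat.sub_add_cancel hk0] at this
    exact Nat.not_dvd_of_pos_of_lt hk0 hkp ((ZMod.natCast_eq_zero_iff k p).mp h1)
  -- Step 2: the quotient has order `p`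
  have hord : p ≤ orderOf g := by
    by_contra hlt
    exact hg (orderOf g) (orderOf_pos g) (not_le.mp hlt) (pow_orderOf_eq_one g)
  have hcardp : Nat.card (ClassGroup (𝓞 E) ⧸ normClasses E E') = p :=
    le_antisymm ((Subgroup.index_eq_card (normClasses E E')) ▸ hidx)
      (hord.trans orderOf_le_card)
  have hg1 : g ≠ 1 := by
    have := hg 1 Nat.one_pos hp1.one_lt
    rwa [pow_one] at this
  have hgp : g ^ p = 1 := by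
    rw [← hcardp]
    exact pow_card_eq_one'
  -- Step 3
  obtain ⟨i, hi⟩ := mem_powers_of_prime_card hcardp hg1
    (g' := (QuotientGroup.mk (ClassGroup.mk0 ⟨𝔅, h𝔅nz⟩) :
      ClassGroup (𝓞 E) ⧸ normClasses E E'))
  have hi' : g ^ i = (QuotientGroup.mk (ClassGroup.mk0 ⟨𝔅, h𝔅nz⟩) :
      ClassGroup (𝓞 E) ⧸ normClasses E E') := hi
  have hmem : ClassGroup.mk0 ⟨𝔅, h𝔅nz⟩ * ClassGroup.mk0 ⟨𝔓₀, h𝔓nz⟩ ^ ((p - 1) * i)
      ∈ normClasses E E' := by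
    rw [← QuotientGroup.eq_one_iff, QuotientGroup.mk_mul, QuotientGroup.mk_pow, ← hi', ← pow_add]
    have hsum : i + (p - 1) * i = p * i := by
      obtain ⟨q, rfl⟩ : ∃ q, p = q + 1 := ⟨p - 1, (Nat.sub_add_cancel hp1.pos).symm⟩
      rw [Nat.add_sub_cancel]
      ring
    rw [hsum, pow_mul, hgp, one_pow]
  have h0 := key 𝔅 h𝔅nz _ h𝔅m hmem
  rw [h𝔅s, zero_add, ZMod.natCast_eq_zero_iff] at h0
  have hdvd : p ∣ i := by
    rcases (Nat.Prime.dvd_mul hp1).mp h0 with h | h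
    · exact absurd h (Nat.not_dvd_of_pos_of_lt (Nat.sub_pos_of_lt hp1.one_lt)
        (Nat.sub_lt hp1.pos Nat.one_pos))
    · exact h
  refine ⟨h𝔅nz, ?_⟩
  rw [← QuotientGroup.eq_one_iff, ← hi']
  obtain ⟨q, rfl⟩ := hdvd
  rw [pow_mul, hgp, one_pow]

end Fermat.Agent.S14
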