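/-
S14, block R, sub-block RE, package Formula (RE3): the symbol formula.  In a field `E ⊇ K` where
`α * c ^ j` is a `p`-th power, the symbol of `α` at an ideal `𝔅` prime to `B * r` is
`j * lam (N𝔅 mod r)`, and `N𝔅` is prime to `r`.
-/
import Fermat.Agent.S14.REInterfaces
import Fermat.Agent.S14.RSymbSpec
import Fermat.Agent.S14.RSymbI

set_option autoImplicit false

open NumberField

namespace Fermat.Agent.S14

/-- The absolute norm of a nonzero prime ideal `𝔓` is not divisible by a rational prime `r`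
which does not lie in `𝔓` (Cauchy's theorem in the additive group of the residue field). -/
theorem reformt_absNorm_ne_zero {E : Type} [Field E] [NumberField E] (r : ℕ) (hr : r.Prime)
    (𝔓 : Ideal (𝓞 E)) (h𝔓 : 𝔓.IsPrime) (h𝔓0 : 𝔓 ≠ ⊥) (hr𝔓 : (r : 𝓞 E) ∉ 𝔓) :
    ((Ideal.absNorm 𝔓 : ℕ) : ZMod r) ≠ 0 := by
  intro h
  rw [ZMod.natCast_eq_zero_iff] at h
  have : Fact r.Prime := ⟨hr⟩
  have hfin : Finite (𝓞 E ⧸ 𝔓) := Ideal.finiteQuotientOfFreeOfNeBot 𝔓 h𝔓0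
  have hcard : r ∣ Nat.card (𝓞 E ⧸ 𝔓) := by
    rw [Ideal.absNorm_apply, Submodule.cardQuot_apply] at h
    exact h
  obtain ⟨x, hx⟩ := exists_prime_addOrderOf_dvd_card' r hcard
  have hx0 : x ≠ 0 := by
    rintro rfl
    rw [addOrderOf_zero] at hx
    exact hr.one_lt.ne hx
  have h1 : r • x = 0 := by
    rw [← hx]
    exact addOrderOf_nsmul_eq_zero x
  rw [nsmul_eq_mul] at h1
  have := h𝔓
  rcases mul_eq_zero.mp h1 with h2 | h2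
  · apply hr𝔓
    rw [← Ideal.Quotient.eq_zero_iff_mem, map_natCast]
    exact h2
  · exact hx0 h2

/-- Step 1: the formula at a prime `𝔓` not containing `B * r`. -/
theorem reformt_prime (p : ℕ) [Fact p.Prime] (K E : Type) [Field K] [NumberField K] [Field E]
    [NumberField E] [Algebra K E] (ζ α c : 𝓞 K) (B r j : ℕ) (lam : ZMod r → ZMod p) (θ : 𝓞 E)
    (hζ : IsPrimitiveRoot ζ p) (hr : r.Prime) (hpB : p ∣ B) (hαB : α ∣ (B : 𝓞 K))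
    (hc : c ∣ (r : 𝓞 K) ^ (p - 1))
    (hsymbc : ∀ 𝔅 : Ideal (𝓞 E), 𝔅.IsPrime → 𝔅 ≠ ⊥ → (p : 𝓞 E) ∉ 𝔅 → (r : 𝓞 E) ∉ 𝔅 →
        symb p (algebraMap (𝓞 K) (𝓞 E) ζ) (algebraMap (𝓞 K) (𝓞 E) c) 𝔅 =
          - lam ((Ideal.absNorm 𝔅 : ℕ) : ZMod r))
    (hθ : θ ^ p = algebraMap (𝓞 K) (𝓞 E) (α * c ^ j))
    (𝔓 : Ideal (𝓞 E)) (h𝔓 : 𝔓.IsPrime) (h𝔓0 : 𝔓 ≠ ⊥) (hBr : ((B * r : ℕ) : 𝓞 E) ∉ 𝔓) :
    ((Ideal.absNorm 𝔓 : ℕ) : ZMod r) ≠ 0 ∧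
    symb p (algebraMap (𝓞 K) (𝓞 E) ζ) (algebraMap (𝓞 K) (𝓞 E) α) 𝔓 =
      (j : ZMod p) * lam ((Ideal.absNorm 𝔓 : ℕ) : ZMod r) := by
  have hB𝔓 : (B : 𝓞 E) ∉ 𝔓 := by
    intro h
    apply hBr
    rw [Nat.cast_mul]
    exact Ideal.mul_mem_right _ _ h
  have hr𝔓 : (r : 𝓞 E) ∉ 𝔓 := by
    intro h
    apply hBr
    rw [Nat.cast_mul]
    exact Ideal.mul_mem_left _ _ h
  have hp𝔓 : (p : 𝓞 E) ∉ 𝔓 := by
    intro h
    apply hB𝔓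
    obtain ⟨m, rfl⟩ := hpB
    rw [Nat.cast_mul]
    exact Ideal.mul_mem_right _ _ h
  have hα𝔓 : algebraMap (𝓞 K) (𝓞 E) α ∉ 𝔓 := by
    intro h
    apply hB𝔓
    obtain ⟨m, hm⟩ := hαB
    have hB : (B : 𝓞 E) = algebraMap (𝓞 K) (𝓞 E) α * algebraMap (𝓞 K) (𝓞 E) m := by
      rw [← map_mul, ← hm, map_natCast]
    rw [hB]
    exact Ideal.mul_mem_right _ _ h
  have hc𝔓 : algebraMap (𝓞 K) (𝓞 E) c ∉ 𝔓 := by
    intro h
    apply hr𝔓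
    obtain ⟨m, hm⟩ := hc
    have h1 : (r : 𝓞 E) ^ (p - 1) = algebraMap (𝓞 K) (𝓞 E) c * algebraMap (𝓞 K) (𝓞 E) m := by
      rw [← map_mul, ← hm, map_pow, map_natCast]
    have h2 : (r : 𝓞 E) ^ (p - 1) ∈ 𝔓 := by
      rw [h1]
      exact Ideal.mul_mem_right _ _ h
    exact h𝔓.mem_of_pow_mem _ h2
  have hζ' : IsPrimitiveRoot (algebraMap (𝓞 K) (𝓞 E) ζ) p :=
    hζ.map_of_injective (RingOfIntegers.algebraMap.injective K E)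
  obtain ⟨-, hspec⟩ := rss_symbSpec p E (algebraMap (𝓞 K) (𝓞 E) ζ) hζ' 𝔓 h𝔓 h𝔓0 hp𝔓
  -- the symbol of `1` vanishes
  have h1𝔓 : (1 : 𝓞 E) ∉ 𝔓 := fun h => h𝔓.ne_top ((Ideal.eq_top_iff_one _).mpr h)
  have hsymb1 : symb p (algebraMap (𝓞 K) (𝓞 E) ζ) 1 𝔓 = 0 := by
    have h := (hspec 1 h1𝔓).2.2.2 1 h1𝔓
    rw [mul_one] at h
    exact left_eq_add.mp h
  -- the symbol of a power of `c`
  have hcpow : ∀ n : ℕ, algebraMap (𝓞 K) (𝓞 E) c ^ n ∉ 𝔓 :=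
    fun n h => hc𝔓 (h𝔓.mem_of_pow_mem n h)
  have hsymbpow : ∀ n : ℕ,
      symb p (algebraMap (𝓞 K) (𝓞 E) ζ) (algebraMap (𝓞 K) (𝓞 E) c ^ n) 𝔓
        = (n : ZMod p) * symb p (algebraMap (𝓞 K) (𝓞 E) ζ) (algebraMap (𝓞 K) (𝓞 E) c) 𝔓 := by
    intro n
    induction n with
    | zero => rw [pow_zero, hsymb1, Nat.cast_zero, zero_mul]
    | succ n ih =>
      rw [pow_succ, (hspec _ (hcpow n)).2.2.2 _ hc𝔓, ih, Nat.cast_succ]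
      ring
  -- the symbol of `α * c ^ j = θ ^ p` vanishes
  have ha' : algebraMap (𝓞 K) (𝓞 E) (α * c ^ j)
      = algebraMap (𝓞 K) (𝓞 E) α * algebraMap (𝓞 K) (𝓞 E) c ^ j := by
    rw [map_mul, map_pow]
  have hzero : symb p (algebraMap (𝓞 K) (𝓞 E) ζ)
      (algebraMap (𝓞 K) (𝓞 E) α * algebraMap (𝓞 K) (𝓞 E) c ^ j) 𝔓 = 0 := by
    have ha𝔓 : algebraMap (𝓞 K) (𝓞 E) α * algebraMap (𝓞 K) (𝓞 E) c ^ j ∉ 𝔓 := by
      intro h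
      rcases h𝔓.mem_or_mem h with h | h
      · exact hα𝔓 h
      · exact hcpow j h
    rw [(hspec _ ha𝔓).2.2.1]
    refine ⟨θ, ?_⟩
    rw [hθ, ha', sub_self]
    exact 𝔓.zero_mem
  rw [(hspec _ hα𝔓).2.2.2 _ (hcpow j), hsymbpow j, hsymbc 𝔓 h𝔓 h𝔓0 hp𝔓 hr𝔓] at hzero
  refine ⟨reformt_absNorm_ne_zero r hr 𝔓 h𝔓 h𝔓0 hr𝔓, ?_⟩
  linear_combination hzero

/-- Step 2: from primes to products of primes. -/
theorem reformt_multiset (p : ℕ) (E : Type) [Field E] [NumberField E] (ζ' α' : 𝓞 E) (r j : ℕ)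
    (hr : r.Prime) (lam : ZMod r → ZMod p)
    (hlam : ∀ x y : ZMod r, x ≠ 0 → y ≠ 0 → lam (x * y) = lam x + lam y)
    (s : Multiset (Ideal (𝓞 E)))
    (hs : ∀ 𝔓 ∈ s, ((Ideal.absNorm 𝔓 : ℕ) : ZMod r) ≠ 0 ∧
      symb p ζ' α' 𝔓 = (j : ZMod p) * lam ((Ideal.absNorm 𝔓 : ℕ) : ZMod r)) :
    ((Ideal.absNorm s.prod : ℕ) : ZMod r) ≠ 0 ∧
    (s.map (symb p ζ' α')).sum = (j : ZMod p) * lam ((Ideal.absNorm s.prod : ℕ) : ZMod r) := by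
  have : Fact r.Prime := ⟨hr⟩
  have hlam1 : lam 1 = 0 := by
    have h := hlam 1 1 one_ne_zero one_ne_zero
    rw [mul_one] at h
    exact left_eq_add.mp h
  induction s using Multiset.induction_on with
  | empty =>
    rw [Multiset.prod_zero, Ideal.one_eq_top, Ideal.absNorm_top, Nat.cast_one, Multiset.map_zero,
      Multiset.sum_zero, hlam1, mul_zero]
    exact ⟨one_ne_zero, rfl⟩
  | cons 𝔓 t ih =>
    obtain ⟨h1, h2⟩ := hs 𝔓 (Multiset.mem_cons_self 𝔓 t)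
    obtain ⟨h3, h4⟩ := ih (fun 𝔓' h' => hs 𝔓' (Multiset.mem_cons_of_mem h'))
    rw [Multiset.prod_cons, map_mul, Nat.cast_mul, Multiset.map_cons, Multiset.sum_cons, h2, h4,
      hlam _ _ h1 h3]
    exact ⟨mul_ne_zero h1 h3, by ring⟩

theorem reformt_main : REFormulaStatement := by
  intro p _ K E _ _ _ _ _ ζ α c B r j lam θ hζ hr hpB hαB hc hlam hsymbc hθ 𝔅 h𝔅0 hcop
  have hs : ∀ 𝔓 ∈ UniqueFactorizationMonoid.normalizedFactors 𝔅,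
      ((Ideal.absNorm 𝔓 : ℕ) : ZMod r) ≠ 0 ∧
      symb p (algebraMap (𝓞 K) (𝓞 E) ζ) (algebraMap (𝓞 K) (𝓞 E) α) 𝔓 =
        (j : ZMod p) * lam ((Ideal.absNorm 𝔓 : ℕ) : ZMod r) := by
    intro 𝔓 h𝔓mem
    have hprime : Prime 𝔓 := UniqueFactorizationMonoid.prime_of_normalized_factor 𝔓 h𝔓mem
    have h𝔓 : 𝔓.IsPrime := Ideal.isPrime_of_prime hprime
    have h𝔓0 : 𝔓 ≠ ⊥ := hprime.ne_zero
    have hle : 𝔅 ≤ 𝔓 :=
      Ideal.le_of_dvd (UniqueFactorizationMonoid.dvd_of_mem_normalizedFactors h𝔓mem)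
    have hBr : ((B * r : ℕ) : 𝓞 E) ∉ 𝔓 := by
      intro h
      apply h𝔓.ne_top
      rw [eq_top_iff, ← hcop]
      exact sup_le hle ((Ideal.span_singleton_le_iff_mem _).mpr h)
    exact reformt_prime p K E ζ α c B r j lam θ hζ hr hpB hαB hc hsymbc hθ 𝔓 h𝔓 h𝔓0 hBr
  have h := reformt_multiset p E (algebraMap (𝓞 K) (𝓞 E) ζ) (algebraMap (𝓞 K) (𝓞 E) α) r j hr
    lam hlam _ hs
  rw [Ideal.prod_normalizedFactors_eq_self h𝔅0] at h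
  exact h

end Fermat.Agent.S14
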