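/-
S14, sub-block RE: assembly of `EFieldStatement` from the package statements of REInterfaces.lean
(`re_eField_of`); the final theorem `re_eField` is in REMain.lean.
-/
import Fermat.Agent.S14.REInterfaces
import Fermat.Agent.S14.BKummerExists
import Fermat.Agent.S14.BKummerGal
import Fermat.Agent.S14.BKummerSplitA

set_option autoImplicit false

open NumberField

namespace Fermat.Agent.S14

/-- Coprime natural numbers cannot both lie in a proper ideal. -/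
theorem re_natCast_not_mem {R : Type*} [CommRing R] (I : Ideal R) (hI : I ≠ ⊤) {n m : ℕ}
    (h : Nat.Coprime n m) (hn : (n : R) ∈ I) : (m : R) ∉ I := by
  intro hm
  apply hI
  rw [Ideal.eq_top_iff_one]
  obtain ⟨u, v, huv⟩ := Nat.isCoprime_iff_coprime.mpr h
  have h1 : ((u : ℤ) : R) * (n : R) + ((v : ℤ) : R) * (m : R) = 1 := by
    have := congrArg (Int.cast : ℤ → R) huv
    push_cast at this
    exact this
  rw [← h1]
  exact I.add_mem (I.mul_mem_left _ hn) (I.mul_mem_left _ hm)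

/-- There is a prime of `K` above every rational prime. -/
theorem re_exists_prime_over (K : Type) [Field K] [NumberField K] (r : ℕ) (hr : r.Prime) :
    ∃ 𝔯 : Ideal (𝓞 K), 𝔯.IsPrime ∧ (r : 𝓞 K) ∈ 𝔯 := by
  have : (Ideal.span {(r : ℤ)}).IsPrime :=
    (Ideal.span_singleton_prime (by exact_mod_cast hr.ne_zero)).mpr (Nat.prime_iff_prime_int.mp hr)
  obtain ⟨⟨P, hP, hPo⟩⟩ := (Ideal.span {(r : ℤ)}).nonempty_primesOver (S := 𝓞 K)
  refine ⟨P, hP, ?_⟩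
  have h := (Ideal.mem_of_liesOver P (Ideal.span {(r : ℤ)}) (r : ℤ)).mp
    (Ideal.mem_span_singleton_self _)
  simpa using h

/-- Step 5 assembled: the reciprocity statement R3' from Claim A, Claim B, the counting argument
and the second inequality. -/
theorem re_reciprocity (hG2 : G2Statement) (hA : REClaimAStatement) (hB : REClaimBStatement)
    (hC : RECountStatement) (p : ℕ) [Fact p.Prime] (hp3 : 3 ≤ p)
    (E E' : Type) [Field E] [NumberField E] [Field E'] [NumberField E'] [Algebra E E']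
    (ζ a : 𝓞 E) (m : ℕ) (hζ : IsPrimitiveRoot ζ p) (hdeg : Module.finrank E E' = p)
    (hm : m ≠ 0) (hpm : p ∣ m) (ham : a ∣ (m : 𝓞 E))
    (y : E') (hy : y ^ p = algebraMap E E' (a : E)) (hyE : y ∉ Set.range (algebraMap E E'))
    (hprinc : ∀ β : 𝓞 E, Ideal.span {β} ⊔ Ideal.span {(m : 𝓞 E)} = ⊤ →
      symbI p ζ a (Ideal.span {β}) = 0)
    (𝔅 : Ideal (𝓞 E)) (h𝔅 : 𝔅 ≠ ⊥) (hcop : 𝔅 ⊔ Ideal.span {(m : 𝓞 E)} = ⊤)
    (hs : symbI p ζ a 𝔅 = 0) :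
    ∃ h : 𝔅 ∈ nonZeroDivisors (Ideal (𝓞 E)), ClassGroup.mk0 ⟨𝔅, h⟩ ∈ normClasses E E' := by
  have hζE : IsPrimitiveRoot (ζ : E) p :=
    hζ.map_of_injective (f := algebraMap (𝓞 E) E) RingOfIntegers.coe_injective
  have : IsGalois E E' := (bkg_kummerGalois p E E' (ζ : E) hζE hdeg (a : E) y hy hyE).1
  have hidx := hG2 p hp3 E E' (ζ : E) hζE hdeg
  exact hC p E E' ζ a m hidx (hA p E E' ζ a m hζ hm hpm ham y hy hprinc)
    (hB p E E' ζ a m hζ hdeg hm hpm ham y hy hyE) 𝔅 h𝔅 hcop hs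

/-- Assembly of `EFieldStatement` from the packages of sub-block RE. -/
theorem re_eField_of (hG2 : G2Statement) (hCons : REConstructStatement)
    (hElem : REElementStatement) (hForm : REFormulaStatement) (hNP : RENormPowStatement)
    (hPrin : REPrincipalStatement) (hNot : RENotPowStatement) (hA : REClaimAStatement)
    (hB : REClaimBStatement) (hC : RECountStatement) : EFieldStatement := by
  intro p _ hp3 K L _ _ _ _ _ ζ α B hR 𝔮 h𝔮 hq hB𝔮 hsymb X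
  have := hR.cyc
  have hpp : p.Prime := Fact.out
  obtain ⟨hB0, hpB, hαB⟩ := hR.bad
  obtain ⟨r, c, lam, j, hr, hrp, hrX, hrB, hr𝔮, hj0, hjp, hlam_mul, hlam_zero, hcr, hcval,
    hgauss, c', hc'⟩ := hCons p hp3 K ζ α B hR.prim hB0 hpB hαB 𝔮 h𝔮 hq hB𝔮 hsymb X
  obtain ⟨ha_good, ha_ord, ha_npow⟩ := hElem p K α c B r j hr hrB hαB hcr hj0 hjp hcval
  obtain ⟨E, _, _, _, hdegE, y, hy⟩ := bke_kummerExists p K ((α * c ^ j : 𝓞 K) : K) ha_npow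
  -- the integral generator
  have hyint : IsIntegral ℤ y := by
    refine IsIntegral.of_pow hpp.pos ?_
    rw [hy]
    exact (RingOfIntegers.isIntegral_coe (α * c ^ j)).map (IsScalarTower.toAlgHom ℤ K E)
  obtain ⟨θ, hθy⟩ : ∃ θ : 𝓞 E, algebraMap (𝓞 E) E θ = y := ⟨⟨y, hyint⟩, rfl⟩
  have hθ : θ ^ p = algebraMap (𝓞 K) (𝓞 E) (α * c ^ j) := by
    apply RingOfIntegers.ext
    show algebraMap (𝓞 E) E (θ ^ p)
      = algebraMap (𝓞 E) E (algebraMap (𝓞 K) (𝓞 E) (α * c ^ j))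
    rw [map_pow, hθy]
    exact hy
  have hyK : y ∉ Set.range (algebraMap K E) := by
    rintro ⟨z, rfl⟩
    apply ha_npow z
    apply (algebraMap K E).injective
    rw [map_pow]
    exact hy
  have hζK : IsPrimitiveRoot (ζ : K) p :=
    hR.prim.map_of_injective (f := algebraMap (𝓞 K) K) RingOfIntegers.coe_injective
  -- facts about `𝔮`
  have h𝔮0 : 𝔮 ≠ ⊥ := by
    rintro rfl
    rw [Ideal.absNorm_bot] at hq
    exact Nat.not_prime_zero hq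
  have hpBK : (p : 𝓞 K) ∣ (B : 𝓞 K) := by exact_mod_cast (Nat.cast_dvd_cast (α := 𝓞 K) hpB)
  have hp𝔮 : (p : 𝓞 K) ∉ 𝔮 := fun h => hB𝔮 (Ideal.mem_of_dvd 𝔮 hpBK h)
  have hBr𝔮 : ((B * r : ℕ) : 𝓞 K) ∉ 𝔮 := by
    rw [Nat.cast_mul]
    intro h
    rcases h𝔮.mem_or_mem h with h | h
    · exact hB𝔮 h
    · exact hr𝔮 h
  have ha𝔮 : α * c ^ j ∉ 𝔮 := ha_good 𝔮 h𝔮 hBr𝔮
  have hsplit : SplitsCompletely K E 𝔮 :=
    ((bksa_kummerSplit bkg_kummerGalois p K E (ζ : K) hζK hdegE (α * c ^ j) y hy hyK 𝔮 h𝔮 h𝔮0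
      hp𝔮 ha𝔮).1).2 ⟨c', hc'⟩
  -- a prime of `K` above `r`
  obtain ⟨𝔯, h𝔯, hr𝔯⟩ := re_exists_prime_over K r hr
  have h𝔯0 : 𝔯 ≠ ⊥ := by
    rintro rfl
    rw [Ideal.mem_bot] at hr𝔯
    exact hr.ne_zero (by exact_mod_cast hr𝔯)
  have hB𝔯 : (B : 𝓞 K) ∉ 𝔯 :=
    re_natCast_not_mem 𝔯 h𝔯.ne_top ((Nat.Prime.coprime_iff_not_dvd hr).mpr hrB) hr𝔯
  have hp𝔯 : (p : 𝓞 K) ∉ 𝔯 := fun h => hB𝔯 (Ideal.mem_of_dvd 𝔯 hpBK h)
  have hα𝔯 : α ∉ 𝔯 := fun h => hB𝔯 (Ideal.mem_of_dvd 𝔯 hαB h)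
  have hnot : ∀ z : E, z ^ p ≠ algebraMap K E (α : K) :=
    hNot p K L E (ζ : K) α (α * c ^ j) hζK hdegE hR.gen y hy hyK 𝔯 h𝔯 h𝔯0 hp𝔯 hα𝔯
      (ha_ord 𝔯 h𝔯 hr𝔯)
  -- the symbol formula and principal ideals
  have hform := hForm p K E ζ α c B r j lam θ hR.prim hr hpB hαB hcr hlam_mul
    (fun 𝔅 h1 h2 h3 h4 => hgauss E 𝔅 h1 h2 h3 h4) hθ
  have hnp := hNP p hp3 K E (ζ : K) (α * c ^ j) y r hζK hdegE hy hyK hr hrp ha_ord
  have hprinc := hPrin p hp3 E (algebraMap (𝓞 K) (𝓞 E) ζ) (algebraMap (𝓞 K) (𝓞 E) α) (B * r) r j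
    lam hr hlam_zero hform hnp
  have hζE : IsPrimitiveRoot (algebraMap (𝓞 K) (𝓞 E) ζ) p :=
    hR.prim.map_of_injective (RingOfIntegers.algebraMap.injective K E)
  have hm : B * r ≠ 0 := Nat.mul_ne_zero hB0 hr.ne_zero
  have hpm : p ∣ B * r := Dvd.dvd.mul_right hpB r
  have ham : algebraMap (𝓞 K) (𝓞 E) α ∣ ((B * r : ℕ) : 𝓞 E) := by
    have h1 : algebraMap (𝓞 K) (𝓞 E) α ∣ algebraMap (𝓞 K) (𝓞 E) (B : 𝓞 K) :=
      map_dvd (algebraMap (𝓞 K) (𝓞 E)) hαB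
    rw [map_natCast] at h1
    rw [Nat.cast_mul]
    exact Dvd.dvd.mul_right h1 _
  refine ⟨r, α * c ^ j, E, inferInstance, inferInstance, inferInstance, θ, hr, hrX, hrB,
    hr𝔮, hdegE, hθ, ha_good, ha_ord, hsplit, hnot, ?_⟩
  intro E' _ _ _ hdegE' hy' 𝔅 h𝔅 hcop hs
  obtain ⟨y', hy'⟩ := hy'
  have hy'E : y' ∉ Set.range (algebraMap E E') := by
    rintro ⟨z, rfl⟩
    apply hnot z
    apply (algebraMap E E').injective
    rw [map_pow]
    exact hy'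
  exact re_reciprocity hG2 hA hB hC p hp3 E E' (algebraMap (𝓞 K) (𝓞 E) ζ)
    (algebraMap (𝓞 K) (𝓞 E) α) (B * r) hζE hdegE' hm hpm ham y' hy' hy'E hprinc 𝔅 h𝔅 hcop hs

end Fermat.Agent.S14
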