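/-
S14, sub-block RE, package NormGal: in a Galois number field `K/ℚ`, if `x ∈ 𝓞 K` is a `p`-th power
modulo every prime containing `r`, then its absolute norm is a `p`-th power modulo each such prime.

Main result: `rengal_normGalois : RENormGaloisStatement`.
-/
import Fermat.Agent.S14.REInterfaces

set_option autoImplicit false

open NumberField

namespace Fermat.Agent.S14

/-- The absolute norm of an integer of a Galois number field is the product of its conjugates
(in `𝓞 K`). -/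
theorem rengal_norm_eq_prod (K : Type) [Field K] [NumberField K] [IsGalois ℚ K] (x : 𝓞 K) :
    ((Algebra.norm ℤ x : ℤ) : 𝓞 K)
      = ∏ σ : K ≃ₐ[ℚ] K, RingOfIntegers.mapRingEquiv (σ : K ≃+* K) x := by
  apply RingOfIntegers.ext
  have h1 : (((Algebra.norm ℤ x : ℤ) : 𝓞 K) : K) = algebraMap ℚ K (Algebra.norm ℚ (x : K)) := by
    rw [← Algebra.coe_norm_int, RingOfIntegers.coe_eq_algebraMap, map_intCast, eq_ratCast,
      Rat.cast_intCast]
  rw [h1, Algebra.norm_eq_prod_automorphisms]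
  show _ = algebraMap (𝓞 K) K (∏ σ : K ≃ₐ[ℚ] K, RingOfIntegers.mapRingEquiv (σ : K ≃+* K) x)
  rw [map_prod]
  rfl

/-- (RE5) -/
theorem rengal_normGalois : RENormGaloisStatement := by
  intro p K _ _ _ r x hx 𝔯₀ h𝔯₀ hr
  have hσ : ∀ σ : K ≃ₐ[ℚ] K, ∃ b : 𝓞 K,
      RingOfIntegers.mapRingEquiv (σ : K ≃+* K) x
        - (RingOfIntegers.mapRingEquiv (σ : K ≃+* K) b) ^ p ∈ 𝔯₀ := by
    intro σ
    obtain ⟨b, hb⟩ := hx (𝔯₀.comap (RingOfIntegers.mapRingEquiv (σ : K ≃+* K) : 𝓞 K →+* 𝓞 K))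
      (Ideal.comap_isPrime _ _) (by
        rw [Ideal.mem_comap, map_natCast]
        exact hr)
    refine ⟨b, ?_⟩
    rw [Ideal.mem_comap, map_sub, map_pow] at hb
    exact hb
  choose b hb using hσ
  refine ⟨∏ σ : K ≃ₐ[ℚ] K, RingOfIntegers.mapRingEquiv (σ : K ≃+* K) (b σ), ?_⟩
  rw [rengal_norm_eq_prod, ← Ideal.Quotient.eq, map_prod, map_pow, map_prod, ← Finset.prod_pow]
  refine Finset.prod_congr rfl fun σ _ => ?_
  rw [← map_pow, Ideal.Quotient.eq]
  exact hb σ

end Fermat.Agent.S14
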