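/-
S14, block R, package CycloSplit (twin A): a rational prime `r ≡ 1 mod p` splits completely in
`K = ℚ(ζ_p)`: every prime of `K` above `r` has norm `r`, and `r` is a uniformiser there.
-/
import Fermat.Agent.S14.RInterfaces

set_option autoImplicit false

open NumberField

namespace Fermat.Agent.S14

/-- A prime of `𝓞 K` containing the rational prime `r` lies over `(r) ⊆ ℤ`. -/
theorem rcsa_liesOver {K : Type} [Field K] [NumberField K] (r : ℕ) (hr : r.Prime)
    (𝔯 : Ideal (𝓞 K)) (h𝔯 : 𝔯.IsPrime) (hmem : (r : 𝓞 K) ∈ 𝔯) :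
    𝔯.LiesOver (Ideal.span {(r : ℤ)}) := by
  have hmax : (Ideal.span {(r : ℤ)}).IsMaximal :=
    PrincipalIdealRing.isMaximal_of_irreducible
      (Nat.prime_iff_prime_int.mp hr).irreducible
  have hle : Ideal.span {(r : ℤ)} ≤ 𝔯.under ℤ := by
    rw [Ideal.span_singleton_le_iff_mem, Ideal.under_def, Ideal.mem_comap]
    simpa using hmem
  have hne : 𝔯.under ℤ ≠ ⊤ := (Ideal.IsPrime.under ℤ 𝔯).ne_top
  exact ⟨hmax.eq_of_le hne hle⟩

theorem rcsa_cycloSplit : CycloSplitStatement := by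
  intro p hp _ K _ _ _ r hr hrp 𝔯 h𝔯 hmem
  have hr' : Fact r.Prime := ⟨hr⟩
  have hp0 : NeZero p := ⟨hp.out.ne_zero⟩
  have hlo : 𝔯.LiesOver (Ideal.span {(r : ℤ)}) := rcsa_liesOver r hr 𝔯 h𝔯 hmem
  have hm : ¬ r ∣ p := by
    intro hdvd
    rcases (Nat.dvd_prime hp.out).mp hdvd with h1 | h1
    · exact hr.one_lt.ne' h1
    · rw [h1, Nat.mod_self] at hrp
      exact zero_ne_one hrp
  have hcast : (r : ZMod p) = 1 := by
    rw [← ZMod.natCast_mod r p, hrp, Nat.cast_one]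
  constructor
  · have hf : 𝔯.inertiaDeg ℤ = orderOf (r : ZMod p) :=
      IsCyclotomicExtension.Rat.inertiaDeg_eq_of_not_dvd r K 𝔯 hm
    rw [hcast, orderOf_one] at hf
    rw [← Ideal.pow_inertiaDeg r 𝔯, hf, pow_one]
  · have he : 𝔯.ramificationIdx ℤ = 1 :=
      IsCyclotomicExtension.Rat.ramificationIdx_eq_of_not_dvd r K 𝔯 hm
    have hmap : (Ideal.span {(r : ℤ)}).map (algebraMap ℤ (𝓞 K)) = Ideal.span {(r : 𝓞 K)} := by
      rw [Ideal.map_span, Set.image_singleton]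
      simp
    have hr0 : (r : 𝓞 K) ≠ 0 := Nat.cast_ne_zero.mpr hr.ne_zero
    have hne : (Ideal.span {(r : ℤ)}).map (algebraMap ℤ (𝓞 K)) ≠ ⊥ := by
      rw [hmap, Ne, Ideal.span_singleton_eq_bot]
      exact hr0
    have h𝔯0 : 𝔯 ≠ ⊥ := by
      rintro rfl
      exact hr0 (by simpa using hmem)
    have hmul := Ideal.IsDedekindDomain.ramificationIdx_eq_multiplicity
      (Ideal.span {(r : ℤ)}) 𝔯 hne
    rw [he, hmap] at hmul
    intro h2
    have hdvd : 𝔯 ^ 2 ∣ Ideal.span {(r : 𝓞 K)} := by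
      rw [Ideal.dvd_iff_le, Ideal.span_singleton_le_iff_mem]
      exact h2
    have hfin : FiniteMultiplicity 𝔯 (Ideal.span {(r : 𝓞 K)}) :=
      FiniteMultiplicity.of_prime_left (Ideal.prime_of_isPrime h𝔯0 h𝔯)
        (by rw [Ne, Ideal.zero_eq_bot, Ideal.span_singleton_eq_bot]; exact hr0)
    have := hfin.le_multiplicity_of_pow_dvd hdvd
    omega

end Fermat.Agent.S14
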