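/-
S14, sub-block RE, package NormPow (prefix `renpow_`): for `E = K(y)`, `y ^ p = a`, `K = ℚ(ζ_p)`,
with `p ∤ v_𝔯(a)` at all primes `𝔯 ∣ r` of `K` (`r ≡ 1 mod p`), the absolute norm of every integer
of `E` is a `p`-th power modulo `r`.

Auxiliary lemmas:
* `renpow_natCast_not_isUnit`: a rational prime is not a unit of `𝓞 K`;
* `renpow_exists_prime`: there is a prime of `𝓞 K` containing a given rational prime;
* `renpow_zmod_of_quot`: transfer of a `p`-th power congruence for a rational integer modulo a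
  prime `𝔯₀` of norm `r` to `ZMod r`.
-/
import Fermat.Agent.S14.REInterfaces
import Fermat.Agent.S14.BKummerGal
import Fermat.Agent.S14.BKummerRamA
import Fermat.Agent.S14.RCycloSplitA

set_option autoImplicit false

open NumberField

namespace Fermat.Agent.S14

/-- A rational prime is not a unit in the ring of integers of a number field. -/
theorem renpow_natCast_not_isUnit (K : Type) [Field K] [NumberField K] (r : ℕ) (hr : r.Prime) :
    ¬ IsUnit (r : 𝓞 K) := by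
  intro h
  have h1 : IsUnit (algebraMap ℤ (𝓞 K) (r : ℤ)) := by
    simpa using h
  have h2 : IsUnit (r : ℤ) := (isUnit_map_iff (algebraMap ℤ (𝓞 K)) (r : ℤ)).mp h1
  have h3 : r = 1 := by
    have := Int.isUnit_iff.mp h2
    omega
  exact hr.one_lt.ne' h3

/-- There is a prime of `𝓞 K` containing a given rational prime. -/
theorem renpow_exists_prime (K : Type) [Field K] [NumberField K] (r : ℕ) (hr : r.Prime) :
    ∃ 𝔯₀ : Ideal (𝓞 K), 𝔯₀.IsPrime ∧ (r : 𝓞 K) ∈ 𝔯₀ := by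
  have hne : Ideal.span {(r : 𝓞 K)} ≠ ⊤ := by
    rw [Ne, Ideal.span_singleton_eq_top]
    exact renpow_natCast_not_isUnit K r hr
  obtain ⟨M, hM, hle⟩ := Ideal.exists_le_maximal (Ideal.span {(r : 𝓞 K)}) hne
  exact ⟨M, hM.isPrime, hle (Ideal.subset_span rfl)⟩

/-- If `𝔯₀` is a prime of `𝓞 K` of absolute norm `r` containing the rational prime `r`, then a
rational integer which is a `p`-th power modulo `𝔯₀` is a `p`-th power in `ZMod r`. -/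
theorem renpow_zmod_of_quot (K : Type) [Field K] [NumberField K] (r p : ℕ) (hr : r.Prime)
    (𝔯₀ : Ideal (𝓞 K)) (h𝔯₀ : 𝔯₀.IsPrime) (hmem : (r : 𝓞 K) ∈ 𝔯₀)
    (hN : Ideal.absNorm 𝔯₀ = r) (n : ℤ) (w : 𝓞 K) (hw : ((n : ℤ) : 𝓞 K) - w ^ p ∈ 𝔯₀) :
    ∃ z : ZMod r, z ^ p = (n : ZMod r) := by
  have : Fact r.Prime := ⟨hr⟩
  have : Nontrivial (𝓞 K ⧸ 𝔯₀) := Ideal.Quotient.nontrivial_iff.mpr h𝔯₀.ne_top
  have hr0 : ((r : ℕ) : 𝓞 K ⧸ 𝔯₀) = 0 := by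
    have : Ideal.Quotient.mk 𝔯₀ (r : 𝓞 K) = 0 := Ideal.Quotient.eq_zero_iff_mem.mpr hmem
    simpa using this
  have : CharP (𝓞 K ⧸ 𝔯₀) r := (CharP.charP_iff_prime_eq_zero hr).mpr hr0
  let φ : ZMod r →+* 𝓞 K ⧸ 𝔯₀ := ZMod.castHom (dvd_refl r) (𝓞 K ⧸ 𝔯₀)
  have hinj : Function.Injective φ := φ.injective
  have hcard : Nat.card (𝓞 K ⧸ 𝔯₀) = r := by
    rw [← hN, Ideal.absNorm_apply, Submodule.cardQuot_apply]
  have : Finite (𝓞 K ⧸ 𝔯₀) := Nat.finite_of_card_ne_zero (by rw [hcard]; exact hr.ne_zero)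
  have hbij : Function.Bijective φ := by
    rw [Nat.bijective_iff_injective_and_card]
    exact ⟨hinj, by rw [hcard, Nat.card_zmod]⟩
  obtain ⟨z, hz⟩ := hbij.2 (Ideal.Quotient.mk 𝔯₀ w)
  refine ⟨z, hinj ?_⟩
  rw [map_pow, hz, map_intCast, ← map_pow, ← map_intCast (Ideal.Quotient.mk 𝔯₀), eq_comm,
    Ideal.Quotient.eq]
  exact hw

/-- (RE6) For `E = K(y)`, `y ^ p = a`, with `p ∤ v_𝔯(a)` at all primes `𝔯 ∣ r` of `K = ℚ(ζ_p)`
(`r ≡ 1 mod p`): the absolute norm of every integer of `E` is a `p`-th power modulo `r`. -/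
theorem renpow_normPow : RETotRamNormStatement → RENormGaloisStatement → RENormPowStatement := by
  intro hTR hNG p hp hp3 K E _ _ _ _ _ _ ζ a y r hζ hdeg hy hyn hr hrp hord β
  have hgal : IsGalois K E := (bkg_kummerGalois p K E ζ hζ hdeg (a : K) y hy hyn).1
  have : IsGalois ℚ K := IsCyclotomicExtension.isGalois {p} ℚ K
  have hr0 : (r : 𝓞 K) ≠ 0 := by exact_mod_cast hr.ne_zero
  have h1 : ∀ 𝔯 : Ideal (𝓞 K), 𝔯.IsPrime → (r : 𝓞 K) ∈ 𝔯 →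
      ∃ b : 𝓞 K, Algebra.intNorm (𝓞 K) (𝓞 E) β - b ^ p ∈ 𝔯 := by
    intro 𝔯 h𝔯 hmem
    have hbot : 𝔯 ≠ ⊥ := by
      rintro rfl
      exact hr0 (by simpa using hmem)
    exact hTR p K E hdeg 𝔯 h𝔯 hbot
      (bkra_kummerRam p K E ζ hζ hdeg a y hy hyn 𝔯 h𝔯 hbot (hord 𝔯 h𝔯 hmem)) β
  obtain ⟨𝔯₀, h𝔯₀, hmem₀⟩ := renpow_exists_prime K r hr
  obtain ⟨w, hw⟩ := hNG p K r (Algebra.intNorm (𝓞 K) (𝓞 E) β) h1 𝔯₀ h𝔯₀ hmem₀
  have hN := (rcsa_cycloSplit p hp3 K r hr hrp 𝔯₀ h𝔯₀ hmem₀).1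
  have hnorm : Algebra.norm ℤ β = Algebra.norm ℤ (Algebra.intNorm (𝓞 K) (𝓞 E) β) := by
    rw [← Algebra.intNorm_eq_norm, ← Algebra.intNorm_eq_norm, Algebra.intNorm_intNorm]
  rw [hnorm]
  exact renpow_zmod_of_quot K r p hr 𝔯₀ h𝔯₀ hmem₀ hN _ w hw

end Fermat.Agent.S14
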