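/-
S14, sub-block RE, package RE/NotPow (prefix `renotp_`): `α` is not a `p`-th power in
`E = K(a^{1/p})`.  Otherwise `E = K(α^{1/p})` would be unramified at a prime `𝔯 ∤ p α` of `K`
(Kummer splitting criterion), whereas `E/K` is totally ramified at `𝔯` because
`p ∤ v_𝔯(a)` (Kummer ramification criterion).
-/
import Fermat.Agent.S14.REInterfaces
import Fermat.Agent.S14.BKummerGal
import Fermat.Agent.S14.BKummerSplitA
import Fermat.Agent.S14.BKummerRamA

set_option autoImplicit false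

open NumberField

namespace Fermat.Agent.S14

/-- If `x` is a `p`-th power in a field `K` containing a primitive `p`-th root of unity, then
every `p`-th root of `x` in an extension `L` already lies in `K`. -/
theorem renotp_root_mem_range {p : ℕ} (hp : p ≠ 0) {K L : Type*} [Field K] [Field L]
    [Algebra K L] {ζ : K} (hζ : IsPrimitiveRoot ζ p) {w : K} {θ : L}
    (hθ : θ ^ p = algebraMap K L (w ^ p)) : θ ∈ Set.range (algebraMap K L) := by
  by_cases hw0 : w = 0
  · subst hw0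
    rw [zero_pow hp, map_zero] at hθ
    exact ⟨0, by rw [map_zero, (pow_eq_zero_iff hp).mp hθ]⟩
  · have hwL : algebraMap K L w ≠ 0 := (map_ne_zero _).mpr hw0
    have hζL : IsPrimitiveRoot (algebraMap K L ζ) p :=
      hζ.map_of_injective (algebraMap K L).injective
    have h1 : (θ / algebraMap K L w) ^ p = 1 := by
      rw [div_pow, hθ, map_pow, div_self (pow_ne_zero _ hwL)]
    have : NeZero p := ⟨hp⟩
    obtain ⟨i, -, hi⟩ := hζL.eq_pow_of_pow_eq_one h1
    refine ⟨w * ζ ^ i, ?_⟩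
    rw [map_mul, map_pow, hi, mul_div_cancel₀ _ hwL]

theorem renotp_notPow : RENotPowStatement := by
  intro p hp K L E _ _ _ _ _ _ _ _ ζ α a hζ hdeg hθ y hy hyK 𝔯 h𝔯 h𝔯0 hp𝔯 hα𝔯 hord z hz
  obtain ⟨θ, hθp, hθK⟩ := hθ
  have hp0 : p ≠ 0 := (Fact.out : p.Prime).ne_zero
  -- Step 1: `z` does not lie in `K`.
  have hzK : z ∉ Set.range (algebraMap K E) := by
    rintro ⟨w, rfl⟩
    have hw : w ^ p = (α : K) := by
      apply (algebraMap K E).injective
      rw [map_pow]
      exact hz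
    apply hθK
    rw [← hw] at hθp
    exact renotp_root_mem_range hp0 hζ hθp
  -- Step 2: compare ramification indices above `𝔯`.
  have hsplit :=
    (bksa_kummerSplit bkg_kummerGalois p K E ζ hζ hdeg α z hz hzK 𝔯 h𝔯 h𝔯0 hp𝔯 hα𝔯).2
  have hram := bkra_kummerRam p K E ζ hζ hdeg a y hy hyK 𝔯 h𝔯 h𝔯0 hord
  have := h𝔯
  obtain ⟨⟨𝔔, h𝔔⟩⟩ := Ideal.nonempty_primesOver (S := 𝓞 E) 𝔯
  have h1 := hsplit 𝔔 h𝔔
  have h2 := hram 𝔔 h𝔔
  rw [h1] at h2
  exact (Fact.out : p.Prime).one_lt.ne h2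

end Fermat.Agent.S14
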