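/-
S14, sub-block RE, package RE/Principal (prefix `reprin_`): principal ideals prime to `m` have
trivial symbol, given the symbol formula `symbI 𝔅 = j * lam (N𝔅 mod r)` and the fact that the
absolute norm of every integer of `E` is a `p`-th power modulo `r`.
-/
import Fermat.Agent.S14.REInterfaces

set_option autoImplicit false

open NumberField

namespace Fermat.Agent.S14

/-- The symbol of the zero ideal vanishes (junk value). -/
theorem reprin_symbI_bot (p : ℕ) {E : Type} [Field E] [NumberField E] (ζ a : 𝓞 E) :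
    symbI p ζ a ⊥ = 0 := by
  unfold symbI
  rw [← Ideal.zero_eq_bot, UniqueFactorizationMonoid.normalizedFactors_zero]
  rfl

/-- If an integer `n` is a `p`-th power in `ZMod r` and `p` is odd, then so is `n.natAbs`. -/
theorem reprin_natAbs_pow {p r : ℕ} (hodd : Odd p) (n : ℤ)
    (h : ∃ z : ZMod r, z ^ p = (n : ZMod r)) :
    ∃ z : ZMod r, z ^ p = ((n.natAbs : ℕ) : ZMod r) := by
  obtain ⟨z, hz⟩ := h
  have hcast : ((n.natAbs : ℕ) : ZMod r) = (((n.natAbs : ℕ) : ℤ) : ZMod r) :=
    (Int.cast_natCast _).symm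
  rcases Int.natAbs_eq n with h | h
  · refine ⟨z, ?_⟩
    rw [hz, hcast, ← h]
  · refine ⟨-z, ?_⟩
    have h' : ((n.natAbs : ℕ) : ℤ) = -n := by omega
    rw [hodd.neg_pow, hz, hcast, h', Int.cast_neg]

theorem reprin_principal : REPrincipalStatement := by
  intro p hp hp3 E _ _ ζ a m r j lam _hr hlam hformula hnorm β hβ
  by_cases hβ0 : β = 0
  · subst hβ0
    have hbot : (Ideal.span {(0 : 𝓞 E)} : Ideal (𝓞 E)) = ⊥ :=
      Ideal.span_singleton_eq_bot.mpr rfl
    rw [hbot]
    exact reprin_symbI_bot p ζ a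
  · have hne : (Ideal.span {β} : Ideal (𝓞 E)) ≠ ⊥ := by
      rw [Ne, Ideal.span_singleton_eq_bot]
      exact hβ0
    obtain ⟨hν, hsymb⟩ := hformula _ hne hβ
    rw [hsymb]
    have habs : Ideal.absNorm (Ideal.span {β} : Ideal (𝓞 E)) = (Algebra.norm ℤ β).natAbs :=
      Ideal.absNorm_span_singleton β
    have hodd : Odd p := (Fact.out : p.Prime).eq_two_or_odd'.resolve_left (by omega)
    have hpow : ∃ w : ZMod r,
        w ^ p = ((Ideal.absNorm (Ideal.span {β} : Ideal (𝓞 E)) : ℕ) : ZMod r) := by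
      rw [habs]
      exact reprin_natAbs_pow hodd _ (hnorm β)
    rw [(hlam _ hν).mpr hpow, mul_zero]

end Fermat.Agent.S14
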