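/-
S14, sub-block RE, package RE4 (prefix `retr_`):
`retr_totRamNorm : RETotRamNormStatement` — in a Galois extension `N/F` of prime degree `p`,
modulo a totally ramified prime `𝔯` of `F` the relative norm of every integer is a `p`-th power.

Proof: there is a unique prime `𝔔` above `𝔯`, of residue degree one (trichotomy); so
`β ≡ b mod 𝔔` with `b ∈ 𝓞 F`, every `σ ∈ Gal(N/F)` fixes `𝔔`, hence `σ β ≡ b mod 𝔔` and
`N(β) = ∏ σ β ≡ b ^ p mod 𝔔`; finally `𝔔 ∩ 𝓞 F = 𝔯`.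
-/
import Fermat.Agent.S14.REInterfaces
import Fermat.Agent.S14.BTrichotomyA

set_option autoImplicit false

open NumberField
open scoped Pointwise

namespace Fermat.Agent.S14

/-- The relative norm of an integer as a product over the Galois group, inside `𝓞 N`. -/
theorem retr_algebraMap_intNorm (F N : Type) [Field F] [NumberField F] [Field N] [NumberField N]
    [Algebra F N] [IsGalois F N] (β : 𝓞 N) :
    algebraMap (𝓞 F) (𝓞 N) (Algebra.intNorm (𝓞 F) (𝓞 N) β) = ∏ σ : N ≃ₐ[F] N, σ • β := by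
  apply RingOfIntegers.ext
  have h1 : ((algebraMap (𝓞 F) (𝓞 N) (Algebra.intNorm (𝓞 F) (𝓞 N) β) : 𝓞 N) : N)
      = algebraMap F N (algebraMap (𝓞 F) F (Algebra.intNorm (𝓞 F) (𝓞 N) β)) := rfl
  have h2 : ((∏ σ : N ≃ₐ[F] N, σ • β : 𝓞 N) : N) = ∏ σ : N ≃ₐ[F] N, ((σ • β : 𝓞 N) : N) :=
    map_prod (algebraMap (𝓞 N) N) _ _
  rw [h1, Algebra.algebraMap_intNorm (K := F) (L := N), Algebra.norm_eq_prod_automorphisms, h2]
  refine Finset.prod_congr rfl (fun σ _ => ?_)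
  exact (algebraMap.smul' σ β N).symm

/-- (RE4) In a Galois extension `N/F` of prime degree `p`, modulo a totally ramified prime `𝔯`
of `F` the relative norm of every integer is a `p`-th power. -/
theorem retr_totRamNorm : RETotRamNormStatement := by
  intro p hp F N _ _ _ _ _ _ hdeg 𝔯 h𝔯 h𝔯0 hram β
  have hpp : p.Prime := hp.out
  have := h𝔯
  -- trichotomy: a unique prime above `𝔯`, of residue degree one
  obtain ⟨𝔔, hset, -, hf⟩ : ∃ 𝔔 : Ideal (𝓞 N), 𝔯.primesOver (𝓞 N) = {𝔔} ∧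
      𝔔.ramificationIdx (𝓞 F) = p ∧ 𝔔.inertiaDeg (𝓞 F) = 1 := by
    rcases bpta_primeTrichotomy p F N hdeg 𝔯 h𝔯 h𝔯0 with ⟨hs, -⟩ | ⟨𝔔, hset, he, -⟩ | h
    · exfalso
      obtain ⟨⟨𝔔, h𝔔⟩⟩ := 𝔯.nonempty_primesOver (S := 𝓞 N)
      have h1 := (hs 𝔔 h𝔔).1
      rw [hram 𝔔 h𝔔] at h1
      exact hpp.one_lt.ne' h1
    · exfalso
      have hmem : 𝔔 ∈ 𝔯.primesOver (𝓞 N) := by rw [hset]; exact Set.mem_singleton 𝔔
      rw [hram 𝔔 hmem] at he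
      exact hpp.one_lt.ne' he
    · exact h
  have hmem : 𝔔 ∈ 𝔯.primesOver (𝓞 N) := by rw [hset]; exact Set.mem_singleton 𝔔
  have h𝔔p : 𝔔.IsPrime := hmem.1
  have h𝔔o : 𝔔.LiesOver 𝔯 := hmem.2
  -- residue degree one: `β ≡ b mod 𝔔` with `b ∈ 𝓞 F`
  have h𝔯max : 𝔯.IsMaximal := h𝔯.isMaximal h𝔯0
  have h𝔔max : 𝔔.IsMaximal := Ideal.IsMaximal.of_liesOver_isMaximal 𝔔 𝔯
  rw [Ideal.inertiaDeg_eq_of_isMaximal 𝔯 𝔔] at hf
  let _ : Field (𝓞 F ⧸ 𝔯) := Ideal.Quotient.field 𝔯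
  obtain ⟨b', hb'⟩ := (finrank_eq_one_iff_of_nonzero' (K := 𝓞 F ⧸ 𝔯) (1 : 𝓞 N ⧸ 𝔔)
    one_ne_zero).mp hf (Ideal.Quotient.mk 𝔔 β)
  obtain ⟨b, rfl⟩ := Ideal.Quotient.mk_surjective b'
  have hb : β - algebraMap (𝓞 F) (𝓞 N) b ∈ 𝔔 := by
    rw [← Ideal.Quotient.eq, ← hb', Algebra.smul_def, mul_one,
      Ideal.Quotient.algebraMap_mk_of_liesOver]
  -- every `σ` fixes `𝔔`, hence `σ β ≡ b mod 𝔔`
  have hσ : ∀ σ : N ≃ₐ[F] N, σ • β - algebraMap (𝓞 F) (𝓞 N) b ∈ 𝔔 := by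
    intro σ
    have hfix : σ • 𝔔 = 𝔔 := by
      have h1 : σ • 𝔔 ∈ 𝔯.primesOver (𝓞 N) := ⟨inferInstance, inferInstance⟩
      rw [hset] at h1
      exact h1
    have h1 : σ • (β - algebraMap (𝓞 F) (𝓞 N) b) ∈ σ • 𝔔 :=
      Ideal.smul_mem_pointwise_smul σ _ 𝔔 hb
    rw [hfix, smul_sub, smul_algebraMap] at h1
    exact h1
  refine ⟨b, ?_⟩
  have hcard : Fintype.card (N ≃ₐ[F] N) = p := by
    rw [← Nat.card_eq_fintype_card, IsGalois.card_aut_eq_finrank, hdeg]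
  rw [Ideal.mem_of_liesOver 𝔔 𝔯, map_sub, map_pow, retr_algebraMap_intNorm,
    ← Ideal.Quotient.eq, map_prod, map_pow,
    Finset.prod_congr rfl (fun σ _ => Ideal.Quotient.eq.mpr (hσ σ)),
    Finset.prod_const, Finset.card_univ, hcard]

end Fermat.Agent.S14
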