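/-
S14, sub-block RE (auxiliary fields `E_𝔮` and the reciprocity statement R3'): the deliverable
`re_eField : G2Statement → GaussElementStatement → EFieldStatement`.

Assembly (`re_eField_of`, REMainAux.lean) of the packages of REInterfaces.lean:
RE1 `recons_construct`, RE2 `reelem_element`, RE3 `reformt_main`, RE4 `retr_totRamNorm`,
RE5 `rengal_normGalois`, RE6 `renpow_normPow`, RE7 `reprin_principal`, RE8 `renotp_notPow`,
RE9 `reclma_claimA`, RE10 `reclmb_claimB`, RE11 `recount_count`.
-/
import Fermat.Agent.S14.REMainAux
import Fermat.Agent.S14.REConstruct
import Fermat.Agent.S14.REElement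
import Fermat.Agent.S14.REFormulaT
import Fermat.Agent.S14.RETotRamNorm
import Fermat.Agent.S14.RENormGal
import Fermat.Agent.S14.RENormPow
import Fermat.Agent.S14.REPrincipal
import Fermat.Agent.S14.RENotPow
import Fermat.Agent.S14.REClaimA
import Fermat.Agent.S14.REClaimB
import Fermat.Agent.S14.RECount

set_option autoImplicit false

namespace Fermat.Agent.S14

/-- (R5 + R6) The auxiliary field `E_𝔮` and the reciprocity statement R3' for it, from the second
inequality and the Gauss element. -/
theorem re_eField : G2Statement → GaussElementStatement → EFieldStatement :=
  fun hG2 hGauss =>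
    re_eField_of hG2 (recons_construct hGauss) reelem_element reformt_main
      (renpow_normPow retr_totRamNorm rengal_normGalois) reprin_principal renotp_notPow
      reclma_claimA reclmb_claimB recount_count

end Fermat.Agent.S14
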