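/-
S14, block RG (Gauss sums), solo twin (prefix `rgt_`).
Part 1: the Gauss-sum identity in characteristic `ℓ`:
if `χ` is a multiplicative character of `ZMod r` of prime order `p` with values in a domain `R'` of
characteristic `ℓ ≠ r` admitting a primitive additive character of `ZMod r`, and `p ∣ ℓ ^ f - 1`, then
`χ (ℓ ^ f) * c ^ ((ℓ ^ f - 1) / p) = 1` for `c = χ (-1) * r * ∏_{1 ≤ i ≤ p - 2} J(χ, χ ^ i)`.
-/
import Fermat.Agent.S14.RInterfaces

set_option autoImplicit false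

open Finset

namespace Fermat.Agent.S14

/-- Iterated Frobenius on Gauss sums. -/
theorem rgt_gaussSum_frob_iter {R : Type*} [CommRing R] [Fintype R] {R' : Type*} [CommRing R']
    (ℓ : ℕ) [Fact ℓ.Prime] [CharP R' ℓ] (f : ℕ) (χ : MulChar R R') (ψ : AddChar R R') :
    gaussSum χ ψ ^ (ℓ ^ f) = gaussSum (χ ^ (ℓ ^ f)) (ψ ^ (ℓ ^ f)) := by
  induction f generalizing χ ψ with
  | zero => simp
  | succ f ih =>
    rw [pow_succ, pow_mul, ih, gaussSum_frob, ← pow_mul, ← pow_mul]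

/-- The key identity: `χ(N) * g ^ (N - 1) = 1` for `N = ℓ ^ f ≡ 1 mod (order of χ)`. -/
theorem rgt_gaussSum_pow_card_sub_one {R' : Type*} [CommRing R'] [IsDomain R']
    (ℓ : ℕ) [Fact ℓ.Prime] [CharP R' ℓ] (r : ℕ) [Fact r.Prime] (hrℓ : r ≠ ℓ)
    (χ : MulChar (ZMod r) R') (hχ1 : χ ≠ 1) (ψ : AddChar (ZMod r) R') (hψ : ψ.IsPrimitive)
    (f : ℕ) (hf : orderOf χ ∣ ℓ ^ f - 1) :
    χ ((ℓ ^ f : ℕ) : ZMod r) * gaussSum χ ψ ^ (ℓ ^ f - 1) = 1 := by
  have hℓ : ℓ.Prime := Fact.out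
  have hr : r.Prime := Fact.out
  have hNpos : 0 < ℓ ^ f := pow_pos hℓ.pos f
  -- `r ≠ 0` in `R'`
  have hr0 : ((Fintype.card (ZMod r) : ℕ) : R') ≠ 0 := by
    rw [ZMod.card, Ne, CharP.cast_eq_zero_iff R' ℓ]
    intro h
    exact hrℓ ((Nat.prime_dvd_prime_iff_eq hℓ hr).mp h).symm
  have hg0 : gaussSum χ ψ ≠ 0 := gaussSum_ne_zero_of_nontrivial hr0 hχ1 hψ
  -- `χ ^ N = χ`
  have hχN : χ ^ (ℓ ^ f) = χ := by
    obtain ⟨m, hm⟩ := hf
    have h1 : ℓ ^ f = orderOf χ * m + 1 := by omega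
    rw [h1, pow_succ, pow_mul, pow_orderOf_eq_one, one_pow, one_mul]
  -- `N` is a unit mod `r`
  have hcop : Nat.Coprime (ℓ ^ f) r := by
    apply Nat.Coprime.pow_left
    rw [Nat.coprime_primes hℓ hr]
    exact fun h => hrℓ h.symm
  have h1 := rgt_gaussSum_frob_iter ℓ f χ ψ
  rw [hχN, AddChar.pow_mulShift] at h1
  have h2 := gaussSum_mulShift χ ψ (ZMod.unitOfCoprime (ℓ ^ f) hcop)
  rw [ZMod.coe_unitOfCoprime] at h2
  have h3 : (χ ((ℓ ^ f : ℕ) : ZMod r) * gaussSum χ ψ ^ (ℓ ^ f - 1)) * gaussSum χ ψ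
      = 1 * gaussSum χ ψ := by
    rw [mul_assoc, ← pow_succ, Nat.sub_add_cancel hNpos, h1, one_mul]
    exact h2
  exact mul_right_cancel₀ hg0 h3

/-- The Gauss-sum identity in terms of the Jacobi-sum product. -/
theorem rgt_gauss_field {R' : Type*} [CommRing R'] [IsDomain R']
    (ℓ : ℕ) [Fact ℓ.Prime] [CharP R' ℓ] (r : ℕ) [Fact r.Prime] (hrℓ : r ≠ ℓ)
    (p : ℕ) [Fact p.Prime]
    (χ : MulChar (ZMod r) R') (hχ : orderOf χ = p) (ψ : AddChar (ZMod r) R') (hψ : ψ.IsPrimitive)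
    (f : ℕ) (hf : p ∣ ℓ ^ f - 1) :
    χ ((ℓ ^ f : ℕ) : ZMod r) *
      (χ (-1) * (r : R') * ∏ i ∈ Ico 1 (p - 1), jacobiSum χ (χ ^ i)) ^ ((ℓ ^ f - 1) / p) = 1 := by
  have hp : p.Prime := Fact.out
  have hχ1 : χ ≠ 1 := by
    intro h
    rw [h, orderOf_one] at hχ
    exact hp.ne_one hχ.symm
  have h1 := gaussSum_pow_eq_prod_jacobiSum (χ := χ) (ψ := ψ) (by rw [hχ]; exact hp.two_le) hψ
  rw [hχ, ZMod.card] at h1
  rw [← h1, ← pow_mul, Nat.mul_div_cancel' hf]
  exact rgt_gaussSum_pow_card_sub_one ℓ r hrℓ χ hχ1 ψ hψ f (hχ ▸ hf)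

/-- Reduction of a character of prime order `p` along a ring homomorphism to a domain in which
`p ≠ 0` still has order `p`. -/
theorem rgt_orderOf_ringHomComp {R : Type*} [CommRing R] [IsDomain R] {R' : Type*} [CommRing R']
    [IsDomain R'] (φ : R →+* R') (r : ℕ) [Fact r.Prime] (p : ℕ) [Fact p.Prime]
    (hpR' : (p : R') ≠ 0) (ζ : R) (hζ : IsPrimitiveRoot ζ p) (χ : MulChar (ZMod r) R)
    (hχ : orderOf χ = p) : orderOf (χ.ringHomComp φ) = p := by
  have hp : p.Prime := Fact.out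
  have hχp : χ ^ p = 1 := hχ ▸ pow_orderOf_eq_one χ
  have hχ1 : χ ≠ 1 := by
    intro h
    rw [h, orderOf_one] at hχ
    exact hp.ne_one hχ.symm
  apply orderOf_eq_prime
  · rw [MulChar.ringHomComp_pow, hχp, MulChar.ringHomComp_one]
  · obtain ⟨a, ha⟩ := MulChar.ne_one_iff.mp hχ1
    rw [MulChar.ne_one_iff]
    refine ⟨a, ?_⟩
    obtain ⟨j, hj, hja⟩ := MulChar.exists_apply_eq_pow hχp hζ (a := (a : ZMod r)) a.ne_zero
    have hj0 : j ≠ 0 := by
      rintro rfl
      exact ha (by rw [hja, pow_zero])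
    have hcop : j.Coprime p :=
      Nat.Coprime.symm ((Nat.Prime.coprime_iff_not_dvd hp).mpr
        (fun h => absurd (Nat.le_of_dvd (Nat.pos_of_ne_zero hj0) h) (not_le.mpr hj)))
    have hμ : IsPrimitiveRoot (ζ ^ j) p := hζ.pow_of_coprime j hcop
    intro h1
    rw [MulChar.ringHomComp_apply, hja] at h1
    have h2 := hμ.geom_sum_eq_zero hp.one_lt
    have h3 := congrArg φ h2
    rw [map_sum, map_zero] at h3
    simp only [map_pow, h1, one_pow, sum_const, card_range, nsmul_eq_mul, mul_one] at h3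
    exact hpR' h3

/-- The Gauss-sum congruence in a finite residue field `k` of a domain `R`: for `c` the Jacobi-sum
product attached to a character `χ` of `ZMod r` of order `p` with values in `R`,
`χ(#k) * c ^ ((#k - 1) / p)` maps to `1` in `k`. -/
theorem rgt_gauss_residue {R : Type*} [CommRing R] [IsDomain R] {k : Type*} [Field k] [Finite k]
    (φ : R →+* k) (r : ℕ) [Fact r.Prime] (hr : (r : k) ≠ 0) (p : ℕ) [Fact p.Prime]
    (hpk : (p : k) ≠ 0) (hpN : p ∣ Nat.card k - 1)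
    (ζ : R) (hζ : IsPrimitiveRoot ζ p) (χ : MulChar (ZMod r) R) (hχ : orderOf χ = p) :
    φ (χ ((Nat.card k : ℕ) : ZMod r) *
      (χ (-1) * (r : R) * ∏ i ∈ Ico 1 (p - 1), jacobiSum χ (χ ^ i)) ^ ((Nat.card k - 1) / p))
      = 1 := by
  have hrp : r.Prime := Fact.out
  -- the characteristic
  have : CharP k (ringChar k) := ringChar.charP k
  have hℓ : (ringChar k).Prime := CharP.char_is_prime k (ringChar k)
  have : Fact (ringChar k).Prime := ⟨hℓ⟩
  let : Fintype k := Fintype.ofFinite k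
  obtain ⟨n, -, hc⟩ := FiniteField.card k (ringChar k)
  have hcard : Nat.card k = ringChar k ^ (n : ℕ) := by
    rw [Nat.card_eq_fintype_card, hc]
  have hrℓ : r ≠ ringChar k := by
    intro h
    apply hr
    rw [h]
    exact CharP.cast_eq_zero k (ringChar k)
  have : NeZero (r : k) := ⟨hr⟩
  have : NeZero r := ⟨hrp.ne_zero⟩
  -- the cyclotomic extension and the additive character
  have : CharP (CyclotomicField r k) (ringChar k) :=
    charP_of_injective_algebraMap (algebraMap k (CyclotomicField r k)).injective (ringChar k)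
  have hψ := AddChar.zmodChar_primitive_of_primitive_root r
    (IsCyclotomicExtension.zeta_spec r k (CyclotomicField r k))
  have hpk' : (p : CyclotomicField r k) ≠ 0 := by
    intro h
    apply hpk
    apply (algebraMap k (CyclotomicField r k)).injective
    rw [map_natCast, map_zero, h]
  have hχ' := rgt_orderOf_ringHomComp ((algebraMap k (CyclotomicField r k)).comp φ) r p hpk' ζ hζ
    χ hχ
  have key := rgt_gauss_field (ringChar k) r hrℓ p _ hχ' _ hψ (n : ℕ) (hcard ▸ hpN)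
  apply (algebraMap k (CyclotomicField r k)).injective
  rw [map_one, ← key, hcard]
  simp only [MulChar.ringHomComp_apply, MulChar.ringHomComp_pow, jacobiSum_ringHomComp,
    RingHom.comp_apply, map_mul, map_pow, map_prod, map_natCast]

end Fermat.Agent.S14
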