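/-
S14, block RG (Gauss sums), solo twin (prefix `rgt_`).
Part 2: divisibility properties of the Jacobi-sum product `c = χ(-1) · r · ∏ J(χ, χ^i)`.
-/
import Fermat.Agent.S14.RGaussTField

set_option autoImplicit false

open Finset

namespace Fermat.Agent.S14

/-- A Jacobi sum of nontrivial characters of `ZMod r` with nontrivial product divides `r`. -/
theorem rgt_jacobiSum_dvd {R : Type*} [CommRing R] {F' : Type*} [Field F'] (ι : R →+* F')
    (hι : Function.Injective ι) (r : ℕ) [Fact r.Prime] (hchar : ringChar F' ≠ r)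
    (χ φ : MulChar (ZMod r) R) (hχ : χ ≠ 1) (hφ : φ ≠ 1) (hχφ : χ * φ ≠ 1) :
    jacobiSum χ φ ∣ (r : R) := by
  refine ⟨jacobiSum χ⁻¹ φ⁻¹, ?_⟩
  apply hι
  have h := jacobiSum_mul_jacobiSum_inv (F := ZMod r) (F' := F')
    (by rw [ZMod.ringChar_zmod_n]; exact hchar)
    ((MulChar.ringHomComp_ne_one_iff hι).mpr hχ) ((MulChar.ringHomComp_ne_one_iff hι).mpr hφ)
    (by rw [← MulChar.ringHomComp_mul]; exact (MulChar.ringHomComp_ne_one_iff hι).mpr hχφ)
  rw [MulChar.ringHomComp_inv, MulChar.ringHomComp_inv, jacobiSum_ringHomComp,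
    jacobiSum_ringHomComp, ZMod.card] at h
  rw [map_mul, h, map_natCast]

/-- The Jacobi-sum product divides `r ^ (p - 1)`. -/
theorem rgt_c_dvd {R : Type*} [CommRing R] {F' : Type*} [Field F'] (ι : R →+* F')
    (hι : Function.Injective ι) (r : ℕ) [Fact r.Prime] (hchar : ringChar F' ≠ r)
    (p : ℕ) [Fact p.Prime] (χ : MulChar (ZMod r) R) (hχ : orderOf χ = p) :
    χ (-1) * (r : R) * ∏ i ∈ Ico 1 (p - 1), jacobiSum χ (χ ^ i) ∣ (r : R) ^ (p - 1) := by
  have hp : p.Prime := Fact.out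
  have hχ1 : χ ≠ 1 := by
    intro h
    rw [h, orderOf_one] at hχ
    exact hp.ne_one hχ.symm
  have h1 : χ (-1) ∣ (1 : R) := by
    refine ⟨χ (-1), ?_⟩
    rw [← map_mul, neg_mul_neg, one_mul, map_one]
  have h2 : ∏ i ∈ Ico 1 (p - 1), jacobiSum χ (χ ^ i) ∣ ∏ _i ∈ Ico 1 (p - 1), (r : R) := by
    apply Finset.prod_dvd_prod_of_dvd
    intro i hi
    rw [Finset.mem_Ico] at hi
    apply rgt_jacobiSum_dvd ι hι r hchar χ (χ ^ i) hχ1
    · exact pow_ne_one_of_lt_orderOf (by omega) (by rw [hχ]; omega)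
    · rw [← pow_succ']
      exact pow_ne_one_of_lt_orderOf (by omega) (by rw [hχ]; omega)
  rw [Finset.prod_const, Nat.card_Ico] at h2
  have h3 : (r : R) ^ (p - 1) = 1 * (r : R) * (r : R) ^ (p - 1 - 1) := by
    rw [one_mul, ← pow_succ']
    congr 1
    have := hp.two_le
    omega
  rw [h3]
  exact mul_dvd_mul (mul_dvd_mul h1 dvd_rfl) h2

/-- In a Dedekind domain, if `x ∈ P ∖ P ^ 2` for a prime `P`, then `x ^ m ∉ P ^ (m + 1)`. -/
theorem rgt_pow_not_mem {R : Type*} [CommRing R] [IsDedekindDomain R] (P : Ideal R)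
    (hP : P.IsPrime) (x : R) (hx : x ∈ P) (hx2 : x ∉ P ^ 2) (m : ℕ) : x ^ m ∉ P ^ (m + 1) := by
  have hP0 : P ≠ ⊥ := by
    rintro rfl
    apply hx2
    rw [Ideal.mem_bot] at hx
    rw [hx]
    exact zero_mem _
  have hprime : Prime P := Ideal.prime_of_isPrime hP0 hP
  obtain ⟨I, hI⟩ := (Ideal.dvd_span_singleton.mpr hx : P ∣ Ideal.span {x})
  have hPI : ¬ P ∣ I := by
    rintro ⟨J, rfl⟩
    apply hx2
    rw [← Ideal.dvd_span_singleton, hI, sq, ← mul_assoc]
    exact Dvd.intro _ rfl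
  intro hmem
  rw [← Ideal.dvd_span_singleton, ← Ideal.span_singleton_pow, hI, mul_pow, pow_succ] at hmem
  have h1 : P ∣ I ^ m := (mul_dvd_mul_iff_left (pow_ne_zero m hP0)).mp hmem
  exact hPI (hprime.dvd_of_dvd_pow h1)

/-- Exact valuation of an element `c` with `x ∣ c ∣ x ^ (p - 1)`, `x ∈ P ∖ P ^ 2`. -/
theorem rgt_exists_exact_pow {R : Type*} [CommRing R] [IsDedekindDomain R] (P : Ideal R)
    (hP : P.IsPrime) (x c : R) (hx : x ∈ P) (hx2 : x ∉ P ^ 2) (p : ℕ) (hp : 1 ≤ p)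
    (hxc : x ∣ c) (hc : c ∣ x ^ (p - 1)) :
    ∃ n : ℕ, 1 ≤ n ∧ n < p ∧ c ∈ P ^ n ∧ c ∉ P ^ (n + 1) := by
  classical
  have hcP : c ∈ P := by
    obtain ⟨d, rfl⟩ := hxc
    exact P.mul_mem_right d hx
  have hcp : c ∉ P ^ p := by
    intro h
    obtain ⟨d, hd⟩ := hc
    have h1 : x ^ (p - 1) ∈ P ^ (p - 1 + 1) := by
      rw [hd, Nat.sub_add_cancel hp]
      exact Ideal.mul_mem_right d _ h
    exact rgt_pow_not_mem P hP x hx hx2 (p - 1) h1
  have hex : ∃ n : ℕ, c ∉ P ^ (n + 1) := ⟨p - 1, by rwa [Nat.sub_add_cancel hp]⟩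
  refine ⟨Nat.find hex, ?_, ?_, ?_, Nat.find_spec hex⟩
  · by_contra h
    have h0 : Nat.find hex = 0 := by omega
    have h1 := Nat.find_spec hex
    rw [h0, zero_add, pow_one] at h1
    exact h1 hcP
  · have h1 : Nat.find hex ≤ p - 1 := Nat.find_min' hex (by rwa [Nat.sub_add_cancel hp])
    omega
  · by_cases h0 : Nat.find hex = 0
    · rw [h0, pow_zero, Ideal.one_eq_top]
      exact Submodule.mem_top
    · have h1 : Nat.find hex - 1 < Nat.find hex := by omega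
      have h2 := Nat.find_min hex h1
      rw [not_not, Nat.sub_add_cancel (by omega)] at h2
      exact h2

end Fermat.Agent.S14
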