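/-
S14, block RG (Gauss sums), solo twin (prefix `rgt_`).
Part 3: the "logarithm" `lam : ZMod r → ZMod p` of a character `χ` of `ZMod r` of order `p`.
-/
import Fermat.Agent.S14.RGaussTDvd

set_option autoImplicit false

open Finset

namespace Fermat.Agent.S14

/-- Powers of a primitive `p`-th root of unity agree iff the exponents agree mod `p`. -/
theorem rgt_pow_eq_pow_iff {R : Type*} [CommRing R] {ζ : R} {p : ℕ}
    (hζ : IsPrimitiveRoot ζ p) (hp : 0 < p) (a b : ℕ) :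
    ζ ^ a = ζ ^ b ↔ (a : ZMod p) = (b : ZMod p) := by
  rw [ZMod.natCast_eq_natCast_iff', pow_eq_pow_mod a hζ.pow_eq_one, pow_eq_pow_mod b hζ.pow_eq_one]
  constructor
  · intro h
    exact hζ.pow_inj (Nat.mod_lt a hp) (Nat.mod_lt b hp) h
  · intro h
    rw [h]

/-- The logarithm of a character of prime order `p` of `ZMod r` with respect to a primitive
`p`-th root of unity `ζ`. -/
theorem rgt_exists_lam {R : Type*} [CommRing R] [IsDomain R] (p : ℕ) [Fact p.Prime] (r : ℕ)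
    [Fact r.Prime] (ζ : R) (hζ : IsPrimitiveRoot ζ p) (χ : MulChar (ZMod r) R)
    (hχ : orderOf χ = p) :
    ∃ lam : ZMod r → ZMod p,
      (∀ x : ZMod r, x ≠ 0 → χ x = ζ ^ (lam x).val) ∧
      (∀ x y : ZMod r, x ≠ 0 → y ≠ 0 → lam (x * y) = lam x + lam y) ∧
      (∀ x : ZMod r, x ≠ 0 → (lam x = 0 ↔ ∃ z : ZMod r, z ^ p = x)) := by
  classical
  have hp : p.Prime := Fact.out
  have : NeZero p := ⟨hp.ne_zero⟩
  have hχp : χ ^ p = 1 := hχ ▸ pow_orderOf_eq_one χ
  have hχ1 : χ ≠ 1 := by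
    intro h
    rw [h, orderOf_one] at hχ
    exact hp.ne_one hχ.symm
  have hex : ∀ x : ZMod r, x ≠ 0 → ∃ k < p, χ x = ζ ^ k :=
    fun x hx => MulChar.exists_apply_eq_pow hχp hζ hx
  let lam : ZMod r → ZMod p := fun x =>
    if hx : x = 0 then 0 else (((hex x hx).choose : ℕ) : ZMod p)
  have hL1 : ∀ x : ZMod r, x ≠ 0 → χ x = ζ ^ (lam x).val := by
    intro x hx
    have h1 : lam x = (((hex x hx).choose : ℕ) : ZMod p) := dif_neg hx
    rw [h1, ZMod.val_natCast_of_lt (hex x hx).choose_spec.1]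
    exact (hex x hx).choose_spec.2
  have hL2 : ∀ x y : ZMod r, x ≠ 0 → y ≠ 0 → lam (x * y) = lam x + lam y := by
    intro x y hx hy
    have h1 := hL1 (x * y) (mul_ne_zero hx hy)
    rw [map_mul, hL1 x hx, hL1 y hy, ← pow_add, eq_comm, rgt_pow_eq_pow_iff hζ hp.pos] at h1
    rw [ZMod.natCast_zmod_val] at h1
    rw [h1]
    push_cast
    rw [ZMod.natCast_zmod_val, ZMod.natCast_zmod_val]
  refine ⟨lam, hL1, hL2, ?_⟩
  intro x hx
  constructor
  · intro h0
    have hχx : χ x = 1 := by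
      rw [hL1 x hx, h0, ZMod.val_zero, pow_zero]
    -- a generator of the unit group
    obtain ⟨g, hg⟩ := IsCyclic.exists_generator (α := (ZMod r)ˣ)
    obtain ⟨k, hk, hgk⟩ := hex (g : ZMod r) g.ne_zero
    have hk0 : ¬ p ∣ k := by
      intro hdvd
      have hk0' : k = 0 := Nat.eq_zero_of_dvd_of_lt hdvd hk
      apply hχ1
      rw [MulChar.eq_iff hg, hgk, hk0', pow_zero, MulChar.one_apply_coe]
    -- write `x` as a power of `g`
    have hxu : IsUnit x := isUnit_iff_ne_zero.mpr hx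
    obtain ⟨n, hn⟩ := (mem_powers_iff_mem_zpowers.mpr (hg hxu.unit) : hxu.unit ∈ Submonoid.powers g)
    have hn' : (g : ZMod r) ^ n = x := by
      have := congrArg (Units.val) hn
      simpa using this
    have h2 : ζ ^ (k * n) = ζ ^ 0 := by
      rw [pow_zero, pow_mul, ← hgk, ← map_pow, hn', hχx]
    rw [rgt_pow_eq_pow_iff hζ hp.pos, Nat.cast_zero, ZMod.natCast_eq_zero_iff] at h2
    have h3 : p ∣ n := (hp.dvd_mul.mp h2).resolve_left hk0
    obtain ⟨m, rfl⟩ := h3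
    exact ⟨(g : ZMod r) ^ m, by rw [← pow_mul, mul_comm, hn']⟩
  · rintro ⟨z, rfl⟩
    have hz : z ≠ 0 := by
      rintro rfl
      exact hx (zero_pow hp.ne_zero)
    obtain ⟨k, -, hk⟩ := hex z hz
    have h1 := hL1 (z ^ p) hx
    rw [map_pow, hk, ← pow_mul, mul_comm, pow_mul, hζ.pow_eq_one, one_pow, ← pow_zero ζ,
      rgt_pow_eq_pow_iff hζ hp.pos, ZMod.natCast_zmod_val, Nat.cast_zero] at h1
    exact h1.symm

end Fermat.Agent.S14
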