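/-
S14, block RG (Gauss sums), solo twin (prefix `rgt_`).
Part 4: the Gauss element `c = g(χ_r)^p ∈ 𝓞 K` and the statement `GaussElementStatement`.
-/
import Fermat.Agent.S14.RGaussTLam

set_option autoImplicit false

open NumberField Finset

namespace Fermat.Agent.S14

theorem rgt_gaussElement : SymbSpecStatement → CycloSplitStatement → GaussElementStatement := by
  intro hSS hCS p _ hp3 K _ _ _ ζ hζ r hr hrp
  classical
  have : Fact r.Prime := ⟨hr⟩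
  have hp : p.Prime := Fact.out
  have : NeZero p := ⟨hp.ne_zero⟩
  have hpr : p ∣ r - 1 := by
    have h1 : r % p = 1 % p := by rw [hrp, Nat.mod_eq_of_lt hp.one_lt]
    exact (Nat.modEq_iff_dvd' hr.pos).mp h1.symm
  obtain ⟨χ, hχ⟩ := MulChar.exists_mulChar_orderOf (ZMod r) (R := 𝓞 K) (n := p)
    (by rw [ZMod.card]; exact hpr) hζ
  obtain ⟨lam, hL1, hL2, hL3⟩ := rgt_exists_lam p r ζ hζ χ hχ
  have hcdvd : χ (-1) * (r : 𝓞 K) * ∏ i ∈ Finset.Ico 1 (p - 1), jacobiSum χ (χ ^ i)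
      ∣ (r : 𝓞 K) ^ (p - 1) :=
    rgt_c_dvd (algebraMap (𝓞 K) K) RingOfIntegers.coe_injective r
      (by rw [ringChar.eq_zero]; exact hr.ne_zero.symm) p χ hχ
  refine ⟨χ (-1) * (r : 𝓞 K) * ∏ i ∈ Finset.Ico 1 (p - 1), jacobiSum χ (χ ^ i), lam, hL2, hL3,
    hcdvd, ?_, ?_⟩
  · -- valuations at the primes above `r`
    intro 𝔯 h𝔯 hr𝔯
    obtain ⟨-, hr2⟩ := hCS p hp3 K r hr hrp 𝔯 h𝔯 hr𝔯
    refine rgt_exists_exact_pow 𝔯 h𝔯 (r : 𝓞 K) _ hr𝔯 hr2 p hp.one_lt.le ?_ hcdvd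
    exact ⟨χ (-1) * ∏ i ∈ Finset.Ico 1 (p - 1), jacobiSum χ (χ ^ i), by ring⟩
  · -- the symbol
    intro E _ _ _ 𝔅 h𝔅 h𝔅0 hp𝔅 hr𝔅
    have hinj : Function.Injective (algebraMap (𝓞 K) (𝓞 E)) :=
      RingOfIntegers.algebraMap.injective K E
    have hζE : IsPrimitiveRoot (algebraMap (𝓞 K) (𝓞 E) ζ) p := hζ.map_of_injective hinj
    obtain ⟨hpN, hspec⟩ := hSS p E _ hζE 𝔅 h𝔅 h𝔅0 hp𝔅
    have hcE : algebraMap (𝓞 K) (𝓞 E)
        (χ (-1) * (r : 𝓞 K) * ∏ i ∈ Finset.Ico 1 (p - 1), jacobiSum χ (χ ^ i)) ∉ 𝔅 := by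
      intro h
      obtain ⟨d, hd⟩ := hcdvd
      have h1 : ((r : 𝓞 E)) ^ (p - 1) ∈ 𝔅 := by
        have h2 := congrArg (algebraMap (𝓞 K) (𝓞 E)) hd
        rw [map_pow, map_natCast, map_mul] at h2
        rw [h2]
        exact 𝔅.mul_mem_right _ h
      exact hr𝔅 (h𝔅.mem_of_pow_mem _ h1)
    obtain ⟨-, huniq, -, -⟩ := hspec _ hcE
    -- the residue field
    have : 𝔅.IsMaximal := h𝔅.isMaximal h𝔅0
    let _ : Field (𝓞 E ⧸ 𝔅) := Ideal.Quotient.field 𝔅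
    have : Finite (𝓞 E ⧸ 𝔅) := Ideal.finiteQuotientOfFreeOfNeBot 𝔅 h𝔅0
    have hN : Nat.card (𝓞 E ⧸ 𝔅) = Ideal.absNorm 𝔅 := by
      rw [Ideal.absNorm_apply, Submodule.cardQuot_apply]
    have hrk : ((r : ℕ) : 𝓞 E ⧸ 𝔅) ≠ 0 := by
      intro h
      apply hr𝔅
      rw [← Ideal.Quotient.eq_zero_iff_mem, map_natCast]
      exact h
    have hpk : ((p : ℕ) : 𝓞 E ⧸ 𝔅) ≠ 0 := by
      intro h
      apply hp𝔅
      rw [← Ideal.Quotient.eq_zero_iff_mem, map_natCast]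
      exact h
    have key := rgt_gauss_residue ((Ideal.Quotient.mk 𝔅).comp (algebraMap (𝓞 K) (𝓞 E))) r hrk p
      hpk (hN ▸ hpN) ζ hζ χ hχ
    rw [hN] at key
    have hN0 : ((Ideal.absNorm 𝔅 : ℕ) : ZMod r) ≠ 0 := by
      intro h0
      rw [h0, MulChar.map_zero, zero_mul, map_zero] at key
      exact zero_ne_one key
    rw [hL1 _ hN0] at key
    -- the exponent
    have hζe : ζ ^ ((-(lam ((Ideal.absNorm 𝔅 : ℕ) : ZMod r))).val
        + (lam ((Ideal.absNorm 𝔅 : ℕ) : ZMod r)).val) = 1 := by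
      rw [← pow_zero ζ, rgt_pow_eq_pow_iff hζ hp.pos]
      push_cast
      rw [ZMod.natCast_zmod_val, ZMod.natCast_zmod_val, neg_add_cancel]
    have h1 := huniq (-(lam ((Ideal.absNorm 𝔅 : ℕ) : ZMod r))).val ?_
    · rw [h1, ZMod.natCast_zmod_val]
    · rw [← Ideal.Quotient.eq_zero_iff_mem, map_sub, sub_eq_zero, ← map_pow, ← map_pow]
      calc (Ideal.Quotient.mk 𝔅) (algebraMap (𝓞 K) (𝓞 E)
              ((χ (-1) * (r : 𝓞 K) * ∏ i ∈ Finset.Ico 1 (p - 1), jacobiSum χ (χ ^ i))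
                ^ ((Ideal.absNorm 𝔅 - 1) / p)))
          = (Ideal.Quotient.mk 𝔅) (algebraMap (𝓞 K) (𝓞 E)
              (ζ ^ (-(lam ((Ideal.absNorm 𝔅 : ℕ) : ZMod r))).val *
                (ζ ^ (lam ((Ideal.absNorm 𝔅 : ℕ) : ZMod r)).val *
                (χ (-1) * (r : 𝓞 K) * ∏ i ∈ Finset.Ico 1 (p - 1), jacobiSum χ (χ ^ i))
                ^ ((Ideal.absNorm 𝔅 - 1) / p)))) := by
            rw [← mul_assoc, ← pow_add, hζe, one_mul]
        _ = (Ideal.Quotient.mk 𝔅) (algebraMap (𝓞 K) (𝓞 E)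
              (ζ ^ (-(lam ((Ideal.absNorm 𝔅 : ℕ) : ZMod r))).val)) := by
            rw [map_mul, map_mul]
            have key' : (Ideal.Quotient.mk 𝔅) (algebraMap (𝓞 K) (𝓞 E)
                (ζ ^ (lam ((Ideal.absNorm 𝔅 : ℕ) : ZMod r)).val *
                (χ (-1) * (r : 𝓞 K) * ∏ i ∈ Finset.Ico 1 (p - 1), jacobiSum χ (χ ^ i))
                ^ ((Ideal.absNorm 𝔅 - 1) / p))) = 1 := key
            rw [key', mul_one]

end Fermat.Agent.S14
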