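/-
S14, block R, Jacobi-sum factorisation (solo twin), part 1: the abstract finite-field and
character part.  For a finite field `F`, a domain `R` with a ring homomorphism `π : R → F` and a
primitive `p`-th root of unity `ζ ∈ R` with `π ζ ≠ 1`, we construct the character `χ` of `F` of
order `p` with `π (χ t) = t ^ ((#F - 1) / p)` and study the Jacobi sums `J(χ, χ)`, `J(χ⁻¹, χ⁻¹)`.
-/
import Fermat.Agent.S14.RInterfaces

set_option autoImplicit false

namespace Fermat.Agent.S14

section FiniteField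

variable {F : Type} [Field F] [Fintype F]

/-- `∑_{x ∈ F} x^M (1 - x)^M = 0` when `2 M < #F - 1`. -/
theorem rjt_sum_pow_mul_pow (M : ℕ) (h : 2 * M < Fintype.card F - 1) :
    ∑ x : F, x ^ M * (1 - x) ^ M = 0 := by
  have hexp : ∀ x : F, x ^ M * (1 - x) ^ M
      = ∑ k ∈ Finset.range (M + 1), ((-1 : F) ^ k * (M.choose k : F)) * x ^ (M + k) := by
    intro x
    have h1 : (1 - x) ^ M
        = ∑ k ∈ Finset.range (M + 1), (-x) ^ k * 1 ^ (M - k) * (M.choose k : F) := by
      rw [← add_pow, neg_add_eq_sub]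
    rw [h1, Finset.mul_sum]
    refine Finset.sum_congr rfl fun k _ => ?_
    rw [one_pow, mul_one, neg_pow, pow_add]
    ring
  simp_rw [hexp]
  rw [Finset.sum_comm]
  refine Finset.sum_eq_zero fun k hk => ?_
  have hk' := Finset.mem_range.mp hk
  rw [← Finset.mul_sum, FiniteField.sum_pow_lt_card_sub_one F (M + k) (by omega), mul_zero]

variable {R : Type} [CommRing R]

/-- If a multiplicative character `ψ` of `F` with values in `R` reduces (under `π : R → F`) to
`t ↦ t ^ M` with `1 ≤ M` and `2 M < #F - 1`, then the Jacobi sum `J(ψ, ψ)` reduces to `0`. -/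
theorem rjt_map_jacobiSum_eq_zero (π : R →+* F) (ψ : MulChar F R) (M : ℕ) (hM : 1 ≤ M)
    (h2 : 2 * M < Fintype.card F - 1) (hψ : ∀ t : F, t ≠ 0 → π (ψ t) = t ^ M) :
    π (jacobiSum ψ ψ) = 0 := by
  have hψ' : ∀ t : F, π (ψ t) = t ^ M := by
    intro t
    rcases eq_or_ne t 0 with rfl | ht
    · rw [MulChar.map_zero, map_zero, zero_pow (by omega)]
    · exact hψ t ht
  rw [jacobiSum, map_sum]
  simp_rw [map_mul, hψ']
  exact rjt_sum_pow_mul_pow M h2

/-- Existence of the character `χ` with `π (χ t) = t ^ m`, `m = (#F - 1) / p`, and values in the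
powers of `ζ`. -/
theorem rjt_exists_char [IsDomain R] (p : ℕ) [Fact p.Prime] (π : R →+* F) (ζ : R)
    (hζ : IsPrimitiveRoot ζ p) (hζ1 : π ζ ≠ 1) :
    ∃ (m : ℕ) (χ : MulChar F R), Fintype.card F - 1 = m * p ∧ 1 ≤ m ∧
      ∀ t : F, t ≠ 0 → ∃ i : ℕ, χ t = ζ ^ i ∧ π ζ ^ i = t ^ m := by
  classical
  have hp : p.Prime := Fact.out
  have : NeZero p := ⟨hp.ne_zero⟩
  obtain ⟨u, hu⟩ := hζ.isUnit hp.ne_zero
  set ū : Fˣ := Units.map (π : R →* F) u with hū
  have hūcoe : (ū : F) = π ζ := by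
    rw [hū, Units.coe_map, hu]
    rfl
  have hordu : orderOf u = p := by
    rw [← orderOf_units, hu]
    exact hζ.eq_orderOf.symm
  have hūp : ū ^ p = 1 := by
    rw [hū, ← map_pow, ← hordu, pow_orderOf_eq_one, map_one]
  have hū1 : ū ≠ 1 := by
    intro h
    apply hζ1
    rw [← hūcoe, h, Units.val_one]
  have hordū : orderOf ū = p := orderOf_eq_prime hūp hū1
  have hcard : Fintype.card Fˣ = Fintype.card F - 1 := Fintype.card_units F
  have hdvd : p ∣ Fintype.card F - 1 := by
    rw [← hcard, ← hordū]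
    exact orderOf_dvd_card
  obtain ⟨m, hm⟩ := hdvd
  have hq1 : 1 ≤ Fintype.card F - 1 := by
    have := Fintype.one_lt_card (α := F)
    omega
  have hm1 : 1 ≤ m := by
    rcases Nat.eq_zero_or_pos m with rfl | h
    · omega
    · exact h
  have hprimū : IsPrimitiveRoot (ū : F) p := by
    rw [IsPrimitiveRoot.coe_units_iff]
    exact hordū ▸ IsPrimitiveRoot.orderOf ū
  have hex : ∀ t : Fˣ, ∃ i : ℕ, ū ^ i = t ^ m := by
    intro t
    have htp : ((t : F) ^ m) ^ p = 1 := by
      rw [← pow_mul, mul_comm, ← hm]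
      exact FiniteField.pow_card_sub_one_eq_one (t : F) t.ne_zero
    obtain ⟨i, -, hi⟩ := hprimū.eq_pow_of_pow_eq_one htp
    refine ⟨i, Units.ext ?_⟩
    rw [Units.val_pow_eq_pow_val, Units.val_pow_eq_pow_val]
    exact hi
  choose e he using hex
  have hmod : ∀ i j : ℕ, ū ^ i = ū ^ j → u ^ i = u ^ j := by
    intro i j hij
    rw [pow_eq_pow_iff_modEq, hordū] at hij
    rw [pow_eq_pow_iff_modEq, hordu]
    exact hij
  let f : Fˣ →* Rˣ :=
    { toFun := fun t => u ^ e t
      map_one' := by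
        have h0 : ū ^ e 1 = ū ^ 0 := by rw [he, one_pow, pow_zero]
        have h1 := hmod _ _ h0
        rwa [pow_zero] at h1
      map_mul' := fun s t => by
        have h0 : ū ^ e (s * t) = ū ^ (e s + e t) := by rw [he, mul_pow, pow_add, he, he]
        have h1 := hmod _ _ h0
        rwa [pow_add] at h1 }
  refine ⟨m, MulChar.ofUnitHom f, by rw [hm, mul_comm], hm1, ?_⟩
  intro t ht
  refine ⟨e (Units.mk0 t ht), ?_, ?_⟩
  · have h0 := MulChar.ofUnitHom_coe f (Units.mk0 t ht)
    rw [Units.val_mk0] at h0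
    rw [h0]
    show ((u ^ e (Units.mk0 t ht) : Rˣ) : R) = ζ ^ _
    rw [Units.val_pow_eq_pow_val, hu]
  · have h0 := congrArg (fun x : Fˣ => (x : F)) (he (Units.mk0 t ht))
    simp only [Units.val_pow_eq_pow_val, Units.val_mk0] at h0
    rw [← hūcoe]
    exact h0

/-- The abstract Jacobi-sum statement: there are `J, J' ∈ R` with `J * J' = #F` such that, for
every ring endomorphism `τ` of `R` with `τ ζ = ζ ^ a`, the element `τ J` reduces to `0` in `F` when
`1 ≤ a < p / 2`, and `τ J'` reduces to `0` when `p / 2 < a < p`. -/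
theorem rjt_abstract [IsDomain R] (p : ℕ) [Fact p.Prime] (hp3 : 3 ≤ p) {K' : Type} [Field K']
    [CharZero K'] (ι : R →+* K') (hι : Function.Injective ι) (π : R →+* F) (ζ : R)
    (hζ : IsPrimitiveRoot ζ p) (hζ1 : π ζ ≠ 1) :
    ∃ J J' : R, J * J' = (Fintype.card F : R) ∧
      (∀ (τ : R →+* R) (a : ℕ), τ ζ = ζ ^ a → 1 ≤ a → 2 * a < p → π (τ J) = 0) ∧
      (∀ (τ : R →+* R) (a : ℕ), τ ζ = ζ ^ a → a < p → p < 2 * a → π (τ J') = 0) := by
  classical
  obtain ⟨m, χ, hcard, hm1, hχ⟩ := rjt_exists_char p π ζ hζ hζ1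
  refine ⟨jacobiSum χ χ, jacobiSum χ⁻¹ χ⁻¹, ?_, ?_, ?_⟩
  · -- `J * J' = #F`
    obtain ⟨g, hg⟩ := IsCyclic.exists_ofOrder_eq_natCard (α := Fˣ)
    have hgord : orderOf g = m * p := by
      rw [hg, Nat.card_eq_fintype_card, Fintype.card_units, hcard]
    obtain ⟨i, hi1, hi2⟩ := hχ (g : F) g.ne_zero
    have hpow : ∀ k : ℕ, (χ (g : F)) ^ k = 1 → m * p ∣ m * k := by
      intro k hk
      have h1 : (g : F) ^ (m * k) = 1 := by
        rw [pow_mul, ← hi2, ← map_pow, ← map_pow, ← hi1, hk, map_one]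
      have h2 : g ^ (m * k) = 1 := Units.ext (by rw [Units.val_pow_eq_pow_val, h1, Units.val_one])
      rw [← hgord]
      exact orderOf_dvd_of_pow_eq_one h2
    have hχ1 : χ ≠ 1 := by
      intro h
      have h1 : χ (g : F) ^ 1 = 1 := by rw [pow_one, h, MulChar.one_apply g.isUnit]
      have h2 := hpow 1 h1
      have h3 : m * p ≤ m * 1 := Nat.le_of_dvd (by omega) h2
      nlinarith
    have hχ2 : χ * χ ≠ 1 := by
      intro h
      have h1 : χ (g : F) ^ 2 = 1 := by
        rw [pow_two, ← MulChar.mul_apply, h, MulChar.one_apply g.isUnit]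
      have h2 := hpow 2 h1
      have h3 : m * p ≤ m * 2 := Nat.le_of_dvd (by omega) h2
      nlinarith
    have hchar : ringChar K' ≠ ringChar F := by
      rw [ringChar.eq_zero]
      exact (CharP.ringChar_ne_zero_of_finite F).symm
    have hK1 : χ.ringHomComp ι ≠ 1 := (MulChar.ringHomComp_ne_one_iff hι).mpr hχ1
    have hK2 : χ.ringHomComp ι * χ.ringHomComp ι ≠ 1 := by
      rw [← MulChar.ringHomComp_mul]
      exact (MulChar.ringHomComp_ne_one_iff hι).mpr hχ2
    have key := jacobiSum_mul_jacobiSum_inv hchar hK1 hK1 hK2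
    rw [MulChar.ringHomComp_inv, jacobiSum_ringHomComp, jacobiSum_ringHomComp, ← map_mul] at key
    apply hι
    rw [key, map_natCast]
  · intro τ a hτ ha1 ha2
    rw [← jacobiSum_ringHomComp]
    refine rjt_map_jacobiSum_eq_zero π (χ.ringHomComp τ) (m * a) (by nlinarith) ?_ ?_
    · rw [hcard]
      nlinarith
    · intro t ht
      obtain ⟨i, hi1, hi2⟩ := hχ t ht
      rw [MulChar.ringHomComp_apply, hi1, map_pow, hτ, ← pow_mul, map_pow, mul_comm a i, pow_mul,
        hi2, ← pow_mul]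
  · intro τ a hτ ha1 ha2
    rw [← jacobiSum_ringHomComp]
    refine rjt_map_jacobiSum_eq_zero π (χ⁻¹.ringHomComp τ) (m * (p - a)) ?_ ?_ ?_
    · have : 1 ≤ p - a := by omega
      nlinarith
    · rw [hcard]
      have h1 : 2 * (p - a) < p := by omega
      nlinarith
    · intro t ht
      obtain ⟨i, hi1, hi2⟩ := hχ t⁻¹ (inv_ne_zero ht)
      rw [MulChar.ringHomComp_apply, MulChar.inv_apply', hi1, map_pow, hτ, ← pow_mul, map_pow,
        mul_comm a i, pow_mul, hi2, ← pow_mul]
      have h1 : t ^ (m * (p - a)) * t ^ (m * a) = 1 := by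
        rw [← pow_add, ← Nat.mul_add, Nat.sub_add_cancel ha1.le, ← hcard]
        exact FiniteField.pow_card_sub_one_eq_one t ht
      rw [inv_pow]
      exact (eq_inv_of_mul_eq_one_left h1).symm

end FiniteField

end Fermat.Agent.S14
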