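/-
S14, block R, Jacobi-sum factorisation (solo twin), part 2: the number field part which does not
use that `K` is cyclotomic.  `K` is a number field, `ζ ∈ 𝓞 K` a primitive `p`-th root of unity,
`𝔮` a prime of degree one not containing `p`.
-/
import Fermat.Agent.S14.RJacobiTChar

set_option autoImplicit false

open NumberField

namespace Fermat.Agent.S14

section

variable (p : ℕ) [Fact p.Prime] (K : Type) [Field K] [NumberField K]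

omit [Fact (Nat.Prime p)] [NumberField K] in
/-- `ζ - 1 ∉ 𝔮` when `p ∉ 𝔮`. -/
theorem rjt_zeta_sub_one_not_mem (hp3 : 3 ≤ p) (ζ : 𝓞 K) (hζ : IsPrimitiveRoot ζ p)
    (𝔮 : Ideal (𝓞 K)) (hp𝔮 : (p : 𝓞 K) ∉ 𝔮) : ζ - 1 ∉ 𝔮 := by
  intro h
  obtain ⟨z, -, hz⟩ := hζ.self_sub_one_pow_dvd_order (k := 1) (by omega)
  apply hp𝔮
  rw [hz, pow_one]
  exact Ideal.mul_mem_left _ _ h

omit [NumberField K] in
/-- The powers `ζ ^ i`, `i < p`, are pairwise incongruent modulo `𝔮`. -/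
theorem rjt_pow_sub_pow_not_mem (hp3 : 3 ≤ p) (ζ : 𝓞 K) (hζ : IsPrimitiveRoot ζ p)
    (𝔮 : Ideal (𝓞 K)) (h𝔮 : 𝔮.IsPrime) (hp𝔮 : (p : 𝓞 K) ∉ 𝔮) (i j : ℕ) (hi : i < p)
    (hj : j < p) (h : ζ ^ i - ζ ^ j ∈ 𝔮) : i = j := by
  have hp : p.Prime := Fact.out
  have key : ∀ i j : ℕ, i < j → j < p → ζ ^ j - ζ ^ i ∉ 𝔮 := by
    intro i j hij hj hmem
    have hfac : ζ ^ j - ζ ^ i = ζ ^ i * (ζ ^ (j - i) - 1) := by
      rw [mul_sub, mul_one, ← pow_add, Nat.add_sub_cancel' hij.le]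
    rw [hfac] at hmem
    rcases h𝔮.mem_or_mem hmem with h1 | h1
    · have h2 : (ζ ^ i) ^ p ∈ 𝔮 := Ideal.pow_mem_of_mem _ h1 p hp.pos
      rw [← pow_mul, mul_comm, pow_mul, hζ.pow_eq_one, one_pow] at h2
      exact h𝔮.ne_top ((Ideal.eq_top_iff_one _).mpr h2)
    · have hcop : (j - i).Coprime p :=
        ((Nat.Prime.coprime_iff_not_dvd hp).mpr
          (Nat.not_dvd_of_pos_of_lt (by omega) (by omega))).symm
      exact rjt_zeta_sub_one_not_mem p K hp3 (ζ ^ (j - i)) (hζ.pow_of_coprime _ hcop) 𝔮 hp𝔮 h1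
  rcases lt_trichotomy i j with hlt | heq | hgt
  · exfalso
    apply key i j hlt hj
    have := 𝔮.neg_mem h
    rwa [neg_sub] at this
  · exact heq
  · exact absurd h (key j i hgt hi)

/-- The core statement at a prime `𝔮` of degree one: `p ∣ N𝔮 - 1`, the element `ζ` is congruent to
a rational integer modulo `𝔮`, and there are `J, J'` with `J J' = N𝔮` and the congruences for their
conjugates. -/
theorem rjt_core (hp3 : 3 ≤ p) (ζ : 𝓞 K) (hζ : IsPrimitiveRoot ζ p) (𝔮 : Ideal (𝓞 K))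
    (h𝔮 : 𝔮.IsPrime) (hq : (Ideal.absNorm 𝔮).Prime) (hp𝔮 : (p : 𝓞 K) ∉ 𝔮) :
    p ∣ Ideal.absNorm 𝔮 - 1 ∧ (∃ u : ℤ, ζ - (u : 𝓞 K) ∈ 𝔮) ∧
    ∃ J J' : 𝓞 K, J * J' = (Ideal.absNorm 𝔮 : 𝓞 K) ∧
      (∀ (τ : 𝓞 K →+* 𝓞 K) (a : ℕ), τ ζ = ζ ^ a → 1 ≤ a → 2 * a < p → τ J ∈ 𝔮) ∧
      (∀ (τ : 𝓞 K →+* 𝓞 K) (a : ℕ), τ ζ = ζ ^ a → a < p → p < 2 * a → τ J' ∈ 𝔮) := by
  have h𝔮0 : 𝔮 ≠ ⊥ := by
    rintro rfl
    rw [Ideal.absNorm_bot] at hq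
    exact Nat.not_prime_zero hq
  have hmax : 𝔮.IsMaximal := h𝔮.isMaximal h𝔮0
  let : Field (𝓞 K ⧸ 𝔮) := Ideal.Quotient.field 𝔮
  have hcardN : Nat.card (𝓞 K ⧸ 𝔮) = Ideal.absNorm 𝔮 := by
    rw [Ideal.absNorm_apply, Submodule.cardQuot_apply]
  have : Finite (𝓞 K ⧸ 𝔮) := Nat.finite_of_card_ne_zero (by rw [hcardN]; exact hq.ne_zero)
  let : Fintype (𝓞 K ⧸ 𝔮) := Fintype.ofFinite _
  have hcard : Fintype.card (𝓞 K ⧸ 𝔮) = Ideal.absNorm 𝔮 := by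
    rw [← Nat.card_eq_fintype_card, hcardN]
  have hζ1 : Ideal.Quotient.mk 𝔮 ζ ≠ 1 := by
    intro h
    apply rjt_zeta_sub_one_not_mem p K hp3 ζ hζ 𝔮 hp𝔮
    rw [← Ideal.Quotient.eq_zero_iff_mem, map_sub, map_one, sub_eq_zero]
    exact h
  refine ⟨?_, ?_, ?_⟩
  · obtain ⟨m, χ, hm, -, -⟩ := rjt_exists_char p (Ideal.Quotient.mk 𝔮) ζ hζ hζ1
    rw [← hcard, hm]
    exact dvd_mul_left p m
  · have hprime : Fact (Nat.card (𝓞 K ⧸ 𝔮)).Prime := ⟨hcardN ▸ hq⟩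
    have h01 : (1 : 𝓞 K ⧸ 𝔮) ≠ 0 := one_ne_zero
    have htop : AddSubgroup.zmultiples (1 : 𝓞 K ⧸ 𝔮) = ⊤ := by
      rcases AddSubgroup.eq_bot_or_eq_top_of_prime_card
        (AddSubgroup.zmultiples (1 : 𝓞 K ⧸ 𝔮)) with h | h
      · exfalso
        have h1 : (1 : 𝓞 K ⧸ 𝔮) ∈ AddSubgroup.zmultiples (1 : 𝓞 K ⧸ 𝔮) :=
          AddSubgroup.mem_zmultiples 1
        rw [h, AddSubgroup.mem_bot] at h1
        exact h01 h1
      · exact h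
    have hmem : Ideal.Quotient.mk 𝔮 ζ ∈ AddSubgroup.zmultiples (1 : 𝓞 K ⧸ 𝔮) := by
      rw [htop]
      exact AddSubgroup.mem_top _
    obtain ⟨u, hu⟩ := AddSubgroup.mem_zmultiples_iff.mp hmem
    refine ⟨u, ?_⟩
    rw [← Ideal.Quotient.eq_zero_iff_mem, map_sub, map_intCast, sub_eq_zero, ← hu, zsmul_one]
  · obtain ⟨J, J', hJJ, h1, h2⟩ := rjt_abstract p hp3 (algebraMap (𝓞 K) K)
      (IsFractionRing.injective (𝓞 K) K) (Ideal.Quotient.mk 𝔮) ζ hζ hζ1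
    refine ⟨J, J', by rw [hJJ, hcard], fun τ a hτ ha1 ha2 => ?_, fun τ a hτ ha1 ha2 => ?_⟩
    · exact Ideal.Quotient.eq_zero_iff_mem.mp (h1 τ a hτ ha1 ha2)
    · exact Ideal.Quotient.eq_zero_iff_mem.mp (h2 τ a hτ ha1 ha2)

omit [NumberField K] in
/-- Distinct exponents give distinct conjugate primes. -/
theorem rjt_comap_injective (hp3 : 3 ≤ p) (ζ : 𝓞 K) (hζ : IsPrimitiveRoot ζ p)
    (𝔮 : Ideal (𝓞 K)) (h𝔮 : 𝔮.IsPrime) (hp𝔮 : (p : 𝓞 K) ∉ 𝔮) (u : ℤ)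
    (hu : ζ - (u : 𝓞 K) ∈ 𝔮) (τ₁ τ₂ : 𝓞 K →+* 𝓞 K) (a b : ℕ) (h₁ : τ₁ ζ = ζ ^ a)
    (h₂ : τ₂ ζ = ζ ^ b) (ha0 : 1 ≤ a) (ha : a < p) (hb : b < p)
    (heq : Ideal.comap τ₁ 𝔮 = Ideal.comap τ₂ 𝔮) : a = b := by
  have hp : p.Prime := Fact.out
  have hcop : a.Coprime p :=
    ((Nat.Prime.coprime_iff_not_dvd hp).mpr (Nat.not_dvd_of_pos_of_lt (by omega) ha)).symm
  obtain ⟨a', -, ha'⟩ := Nat.exists_mul_mod_eq_one_of_coprime hcop hp.one_lt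
  have hζpow : ∀ n : ℕ, ζ ^ n = ζ ^ (n % p) := by
    intro n
    conv_lhs => rw [← Nat.div_add_mod n p, pow_add, pow_mul, hζ.pow_eq_one, one_pow, one_mul]
  have hx1 : τ₁ (ζ ^ a' - (u : 𝓞 K)) ∈ 𝔮 := by
    rw [map_sub, map_pow, h₁, ← pow_mul, map_intCast, hζpow (a * a'), ha', pow_one]
    exact hu
  have hx2 : τ₂ (ζ ^ a' - (u : 𝓞 K)) ∈ 𝔮 := by
    have h3 : ζ ^ a' - (u : 𝓞 K) ∈ Ideal.comap τ₁ 𝔮 := Ideal.mem_comap.mpr hx1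
    rw [heq] at h3
    exact Ideal.mem_comap.mp h3
  rw [map_sub, map_pow, h₂, ← pow_mul, map_intCast, hζpow (b * a')] at hx2
  have hdiff : ζ ^ (b * a' % p) - ζ ^ 1 ∈ 𝔮 := by
    rw [pow_one]
    have h3 := 𝔮.sub_mem hx2 hu
    rwa [sub_sub_sub_cancel_right] at h3
  have hb' : b * a' % p = 1 :=
    rjt_pow_sub_pow_not_mem p K hp3 ζ hζ 𝔮 h𝔮 hp𝔮 _ _ (Nat.mod_lt _ hp.pos) hp.one_lt hdiff
  have hmodeq : a * a' ≡ b * a' [MOD p] := by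
    unfold Nat.ModEq
    rw [ha', hb']
  have hcop' : Nat.gcd p a' = 1 := by
    apply (Nat.Prime.coprime_iff_not_dvd hp).mpr
    intro hdvd
    have h0 : a * a' % p = 0 := Nat.mod_eq_zero_of_dvd (Dvd.dvd.mul_left hdvd a)
    omega
  exact (Nat.ModEq.cancel_right_of_coprime hcop' hmodeq).eq_of_lt_of_lt ha hb

end

end Fermat.Agent.S14
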