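/-
S14, block R, Jacobi-sum factorisation (solo twin), part 3: the cyclotomic field and the assembly.
-/
import Fermat.Agent.S14.RJacobiTCore

set_option autoImplicit false

open NumberField

namespace Fermat.Agent.S14

/-- The Galois automorphism `σ_a : ζ ↦ ζ ^ a` of the `p`-th cyclotomic field, `p ∤ a`. -/
theorem rjt_exists_aut (p : ℕ) [Fact p.Prime] (K : Type) [Field K] [NumberField K]
    [IsCyclotomicExtension {p} ℚ K] (ζ : K) (hζ : IsPrimitiveRoot ζ p) (a : ℕ) (ha : ¬ p ∣ a) :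
    ∃ σ : K ≃ₐ[ℚ] K, σ ζ = ζ ^ a := by
  have hp : p.Prime := Fact.out
  have : NeZero p := ⟨hp.ne_zero⟩
  have hirr : Irreducible (Polynomial.cyclotomic p ℚ) :=
    Polynomial.cyclotomic.irreducible_rat hp.pos
  have hζa : IsPrimitiveRoot (ζ ^ a) p :=
    hζ.pow_of_coprime a ((Nat.Prime.coprime_iff_not_dvd hp).mpr ha).symm
  have hmin : minpoly ℚ (hζ.powerBasis ℚ).gen = minpoly ℚ (hζa.powerBasis ℚ).gen := by
    rw [IsPrimitiveRoot.powerBasis_gen, IsPrimitiveRoot.powerBasis_gen,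
      ← hζ.minpoly_eq_cyclotomic_of_irreducible hirr,
      ← hζa.minpoly_eq_cyclotomic_of_irreducible hirr]
  refine ⟨(hζ.powerBasis ℚ).equivOfMinpoly (hζa.powerBasis ℚ) hmin, ?_⟩
  have h := PowerBasis.equivOfMinpoly_gen (hζ.powerBasis ℚ) (hζa.powerBasis ℚ) hmin
  rwa [IsPrimitiveRoot.powerBasis_gen, IsPrimitiveRoot.powerBasis_gen] at h

/-- The norm of the ideal generated by a rational prime `q` in the `p`-th cyclotomic field. -/
theorem rjt_absNorm_span_natCast (p : ℕ) [Fact p.Prime] (K : Type) [Field K] [NumberField K]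
    [IsCyclotomicExtension {p} ℚ K] (q : ℕ) :
    Ideal.absNorm (Ideal.span {(q : 𝓞 K)}) = q ^ (p - 1) := by
  have hp : p.Prime := Fact.out
  have : NeZero p := ⟨hp.ne_zero⟩
  rw [Ideal.absNorm_span_natCast, RingOfIntegers.rank,
    IsCyclotomicExtension.finrank K (Polynomial.cyclotomic.irreducible_rat hp.pos),
    Nat.totient_prime hp]

theorem rjt_jacobi : CycloSplitStatement → JacobiStatement := by
  intro hCS p _ hp3 K _ _ _ ζ hζ 𝔮 h𝔮 hq hp𝔮
  have hp : p.Prime := Fact.out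
  have hodd : p % 2 = 1 := by
    rcases hp.eq_two_or_odd with h | h
    · omega
    · exact h
  set q : ℕ := Ideal.absNorm 𝔮 with hqdef
  set h : ℕ := (p - 1) / 2 with hh
  have hp2h : p = 2 * h + 1 := by omega
  -- the Galois automorphisms and their restrictions to `𝓞 K`
  have hζK : IsPrimitiveRoot (ζ : K) p :=
    hζ.map_of_injective (IsFractionRing.injective (𝓞 K) K)
  have hex : ∀ a : ℕ, ∃ σ : K ≃ₐ[ℚ] K, ¬ p ∣ a → σ (ζ : K) = (ζ : K) ^ a := by
    intro a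
    by_cases ha : p ∣ a
    · exact ⟨AlgEquiv.refl, fun h' => absurd ha h'⟩
    · obtain ⟨σ, hσ⟩ := rjt_exists_aut p K (ζ : K) hζK a ha
      exact ⟨σ, fun _ => hσ⟩
  choose σ hσ using hex
  have hτex : ∀ a : ℕ, ∃ τ : 𝓞 K →+* 𝓞 K, ∀ x : 𝓞 K, ((τ x : 𝓞 K) : K) = σ a (x : K) :=
    fun a => ⟨(RingOfIntegers.mapRingEquiv ((σ a : K ≃ₐ[ℚ] K) : K ≃+* K)).toRingHom, fun _ => rfl⟩
  choose τ hτ using hτex
  have hndvd : ∀ a : ℕ, 1 ≤ a → a < p → ¬ p ∣ a := fun a h1 h2 =>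
    Nat.not_dvd_of_pos_of_lt (by omega) h2
  have hτζ : ∀ a : ℕ, ¬ p ∣ a → τ a ζ = ζ ^ a := by
    intro a ha
    apply RingOfIntegers.ext
    rw [hτ a ζ, hσ a ha]
    simp only [RingOfIntegers.coe_eq_algebraMap, map_pow]
  -- the core facts
  obtain ⟨hpq, ⟨u, hu⟩, J, J', hJJ, hJ1, hJ2⟩ := rjt_core p K hp3 ζ hζ 𝔮 h𝔮 hq hp𝔮
  have hqmod : q % p = 1 := by
    obtain ⟨k, hk⟩ := hpq
    have hq2 := hq.two_le
    have hqk : q = p * k + 1 := by omega
    rw [hqk, Nat.mul_add_mod, Nat.mod_eq_of_lt hp.one_lt]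
  -- the conjugate primes
  set Q : ℕ → Ideal (𝓞 K) := fun a => Ideal.comap (τ a) 𝔮 with hQdef
  have hQmem : ∀ (a : ℕ) (x : 𝓞 K), x ∈ Q a ↔ τ a x ∈ 𝔮 := fun a x => Ideal.mem_comap
  have hQprime : ∀ a : ℕ, (Q a).IsPrime := fun a => Ideal.comap_isPrime (τ a) 𝔮
  have hqQ : ∀ a : ℕ, (q : 𝓞 K) ∈ Q a := by
    intro a
    rw [hQmem, map_natCast]
    exact Ideal.absNorm_mem 𝔮
  have hQnorm : ∀ a : ℕ, Ideal.absNorm (Q a) = q := fun a =>
    (hCS p hp3 K q hq hqmod (Q a) (hQprime a) (hqQ a)).1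
  have hQ0 : ∀ a : ℕ, Q a ≠ ⊥ := by
    intro a h0
    have h1 := hQnorm a
    rw [h0, Ideal.absNorm_bot] at h1
    exact hq.ne_zero h1.symm
  have hQmax : ∀ a : ℕ, (Q a).IsMaximal := fun a => (hQprime a).isMaximal (hQ0 a)
  have hinj : ∀ a b : ℕ, 1 ≤ a → a < p → 1 ≤ b → b < p → Q a = Q b → a = b := by
    intro a b ha1 ha2 hb1 hb2 hab
    exact rjt_comap_injective p K hp3 ζ hζ 𝔮 h𝔮 hp𝔮 u hu (τ a) (τ b) a b
      (hτζ a (hndvd a ha1 ha2)) (hτζ b (hndvd b hb1 hb2)) ha1 ha2 hb2 hab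
  have hcop : ∀ a b : ℕ, 1 ≤ a → a < p → 1 ≤ b → b < p → a ≠ b → IsCoprime (Q a) (Q b) := by
    intro a b ha1 ha2 hb1 hb2 hab
    exact Ideal.isCoprime_iff_sup_eq.mpr
      ((hQmax a).coprime_of_ne (hQmax b) (fun h' => hab (hinj a b ha1 ha2 hb1 hb2 h')))
  -- divisibility of `(J)` and `(J')` by the two half products
  have hdvd₁ : ∏ a ∈ Finset.Icc 1 h, Q a ∣ Ideal.span {J} := by
    refine Finset.prod_dvd_of_coprime ?_ ?_
    · intro a ha b hb hab
      rw [Finset.coe_Icc, Set.mem_Icc] at ha hb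
      exact hcop a b ha.1 (by omega) hb.1 (by omega) hab
    · intro a ha
      rw [Finset.mem_Icc] at ha
      rw [Ideal.dvd_iff_le, Ideal.span_singleton_le_iff_mem, hQmem]
      exact hJ1 (τ a) a (hτζ a (hndvd a ha.1 (by omega))) ha.1 (by omega)
  have hdvd₂ : ∏ a ∈ Finset.Icc (h + 1) (p - 1), Q a ∣ Ideal.span {J'} := by
    refine Finset.prod_dvd_of_coprime ?_ ?_
    · intro a ha b hb hab
      rw [Finset.coe_Icc, Set.mem_Icc] at ha hb
      exact hcop a b (by omega) (by omega) (by omega) (by omega) hab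
    · intro a ha
      rw [Finset.mem_Icc] at ha
      rw [Ideal.dvd_iff_le, Ideal.span_singleton_le_iff_mem, hQmem]
      exact hJ2 (τ a) a (hτζ a (hndvd a (by omega) (by omega))) (by omega) (by omega)
  obtain ⟨C₁, hC₁⟩ := hdvd₁
  obtain ⟨C₂, hC₂⟩ := hdvd₂
  -- norms
  have hN₁ : Ideal.absNorm (∏ a ∈ Finset.Icc 1 h, Q a) = q ^ h := by
    rw [map_prod, Finset.prod_congr rfl (fun a _ => hQnorm a), Finset.prod_const, Nat.card_Icc]
    congr 1
  have hN₂ : Ideal.absNorm (∏ a ∈ Finset.Icc (h + 1) (p - 1), Q a) = q ^ h := by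
    rw [map_prod, Finset.prod_congr rfl (fun a _ => hQnorm a), Finset.prod_const, Nat.card_Icc]
    congr 1
    omega
  have hNq : Ideal.absNorm (Ideal.span {J}) * Ideal.absNorm (Ideal.span {J'}) = q ^ (p - 1) := by
    rw [← map_mul, Ideal.span_singleton_mul_span_singleton, hJJ]
    exact rjt_absNorm_span_natCast p K q
  rw [hC₁, hC₂, map_mul, map_mul, hN₁, hN₂] at hNq
  have hqh : 0 < q ^ h := pow_pos hq.pos h
  have hCC : Ideal.absNorm C₁ * Ideal.absNorm C₂ = 1 := by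
    have h2 : q ^ (p - 1) = q ^ h * q ^ h := by
      rw [← pow_add]
      congr 1
      omega
    rw [h2] at hNq
    have h3 : q ^ h * q ^ h * (Ideal.absNorm C₁ * Ideal.absNorm C₂) = q ^ h * q ^ h * 1 :=
      calc q ^ h * q ^ h * (Ideal.absNorm C₁ * Ideal.absNorm C₂)
          = q ^ h * Ideal.absNorm C₁ * (q ^ h * Ideal.absNorm C₂) := by ring
        _ = q ^ h * q ^ h := hNq
        _ = q ^ h * q ^ h * 1 := by ring
    exact Nat.eq_of_mul_eq_mul_left (Nat.mul_pos hqh hqh) h3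
  have hC₁top : C₁ = ⊤ := Ideal.absNorm_eq_one_iff.mp (Nat.eq_one_of_mul_eq_one_right hCC)
  -- conclusion
  refine ⟨J, Q, ?_, ?_⟩
  · intro a ha
    rw [Finset.mem_Icc] at ha
    have hnd : ¬ p ∣ a := hndvd a ha.1 (by omega)
    refine ⟨σ a, hσ a hnd, fun x => ?_⟩
    rw [hQmem]
    constructor
    · intro hx
      exact ⟨τ a x, hx, hτ a x⟩
    · rintro ⟨y, hy, hyx⟩
      have hyeq : y = τ a x := RingOfIntegers.ext (hyx.trans (hτ a x).symm)
      rw [← hyeq]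
      exact hy
  · rw [hC₁, hC₁top, Ideal.mul_top]

end Fermat.Agent.S14
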