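/-
S14, block R, Lang's argument (solo twin; prefix `rlt_`): generic lemmas on number fields used
in the assembly (`RLangTMain.lean`).
-/
import Fermat.Agent.S14.RInterfaces

set_option autoImplicit false

open NumberField

namespace Fermat.Agent.S14

/-- The coercion `𝓞 N → N` of `algebraMap (𝓞 F) (𝓞 N) x` is `algebraMap F N x`. -/
theorem rlt_coe_algebraMap {F N : Type} [Field F] [Field N] [Algebra F N] (x : 𝓞 F) :
    ((algebraMap (𝓞 F) (𝓞 N) x : 𝓞 N) : N) = algebraMap F N (x : F) := rfl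

/-- Exact power of a prime dividing an element, in terms of `emultiplicity`. -/
theorem rlt_emultiplicity_eq {R : Type*} [CommRing R] [IsDedekindDomain R] (𝔮 : Ideal R) (x : R)
    (n : ℕ) : emultiplicity 𝔮 (Ideal.span {x}) = n ↔ x ∈ 𝔮 ^ n ∧ x ∉ 𝔮 ^ (n + 1) := by
  rw [emultiplicity_eq_coe, Ideal.dvd_iff_le, Ideal.dvd_iff_le, Ideal.span_singleton_le_iff_mem,
    Ideal.span_singleton_le_iff_mem]

/-- If `p ∤ v_𝔮(x₀)` then `x₀` is not a `p`-th power in `F`. -/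
theorem rlt_not_pow_of_ordNotDvd (p : ℕ) (hp : 0 < p) {F : Type} [Field F] [NumberField F]
    (𝔮 : Ideal (𝓞 F)) (h𝔮 : 𝔮.IsPrime) (h0 : 𝔮 ≠ ⊥) (x₀ : 𝓞 F) (h : OrdNotDvd p 𝔮 x₀) (z : F) :
    z ^ p ≠ (x₀ : F) := by
  intro hz
  obtain ⟨n, hn, hn1, hpn⟩ := h
  have hzint : IsIntegral ℤ z := by
    refine IsIntegral.of_pow hp ?_
    rw [hz]
    exact RingOfIntegers.isIntegral_coe x₀
  obtain ⟨w, hwz⟩ : ∃ w : 𝓞 F, (w : F) = z := ⟨⟨z, hzint⟩, rfl⟩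
  have hw : w ^ p = x₀ := by
    apply RingOfIntegers.ext
    show (algebraMap (𝓞 F) F) (w ^ p) = (algebraMap (𝓞 F) F) x₀
    rw [map_pow]
    show (w : F) ^ p = (x₀ : F)
    rw [hwz, hz]
  have hprime : Prime 𝔮 := Ideal.prime_of_isPrime h0 h𝔮
  have hmult : emultiplicity 𝔮 (Ideal.span {x₀}) = n :=
    (rlt_emultiplicity_eq 𝔮 x₀ n).mpr ⟨hn, hn1⟩
  rw [← hw, ← Ideal.span_singleton_pow, emultiplicity_pow hprime] at hmult
  apply hpn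
  have hfin : emultiplicity 𝔮 (Ideal.span {w}) ≠ ⊤ := by
    intro h
    rw [h, ENat.mul_top (by exact_mod_cast hp.ne')] at hmult
    exact ENat.top_ne_natCast n hmult
  obtain ⟨k, hk⟩ := ENat.ne_top_iff_exists.mp hfin
  rw [← hk] at hmult
  exact ⟨k, by exact_mod_cast hmult.symm⟩

/-- `OrdNotDvd` goes up along an unramified prime. -/
theorem rlt_ordNotDvd_of_unram (p : ℕ) {F N : Type} [Field F] [NumberField F] [Field N]
    [NumberField N] [Algebra F N] (𝔮 : Ideal (𝓞 F)) (h𝔮 : 𝔮.IsPrime) (h0 : 𝔮 ≠ ⊥)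
    (𝔔 : Ideal (𝓞 N)) (h𝔔 : 𝔔 ∈ 𝔮.primesOver (𝓞 N)) (he : 𝔔.ramificationIdx (𝓞 F) = 1)
    (x₀ : 𝓞 F) (h : OrdNotDvd p 𝔮 x₀) : OrdNotDvd p 𝔔 (algebraMap (𝓞 F) (𝓞 N) x₀) := by
  obtain ⟨n, hn, hn1, hpn⟩ := h
  have : 𝔔.IsPrime := h𝔔.1
  have : 𝔔.LiesOver 𝔮 := h𝔔.2
  have := h𝔮
  have hx0 : x₀ ≠ 0 := by
    rintro rfl
    exact hn1 (Ideal.zero_mem _)
  have h𝔔0 : 𝔔 ≠ ⊥ := Ideal.ne_bot_of_liesOver_of_ne_bot h0 𝔔
  have hprime𝔮 : Prime 𝔮 := Ideal.prime_of_isPrime h0 h𝔮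
  have hprime𝔔 : Prime 𝔔 := Ideal.prime_of_isPrime h𝔔0 h𝔔.1
  have hI0 : Ideal.span {x₀} ≠ ⊥ := by
    rw [Ne, Ideal.span_singleton_eq_bot]
    exact hx0
  have hkey := Ideal.IsDedekindDomain.emultiplicity_map_eq_ramificationIdx'_mul
    (v := 𝔮) (w := 𝔔) hI0 hprime𝔮.irreducible hprime𝔔.irreducible h𝔔0
  rw [Ideal.map_span, Set.image_singleton, Ideal.ramificationIdx'_eq_ramificationIdx 𝔮 𝔔 h0, he,
    (rlt_emultiplicity_eq 𝔮 x₀ n).mpr ⟨hn, hn1⟩, Nat.cast_one, one_mul] at hkey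
  obtain ⟨h1, h2⟩ := (rlt_emultiplicity_eq 𝔔 _ n).mp hkey
  exact ⟨n, h1, h2, hpn⟩

/-- A root `y` of `X ^ p - x₀` with `p ∤ v_𝔮(x₀)` does not lie in the base field. -/
theorem rlt_not_mem_range (p : ℕ) (hp : 0 < p) {F N : Type} [Field F] [NumberField F] [Field N]
    [Algebra F N] (𝔮 : Ideal (𝓞 F)) (h𝔮 : 𝔮.IsPrime) (h0 : 𝔮 ≠ ⊥) (x₀ : 𝓞 F)
    (h : OrdNotDvd p 𝔮 x₀) (y : N) (hy : y ^ p = algebraMap F N (x₀ : F)) :
    y ∉ Set.range (algebraMap F N) := by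
  rintro ⟨k, rfl⟩
  rw [← map_pow] at hy
  exact rlt_not_pow_of_ordNotDvd p hp 𝔮 h𝔮 h0 x₀ h k ((algebraMap F N).injective hy)

/-- There is a nonzero prime of `𝓞 F` containing a given prime number. -/
theorem rlt_exists_prime_natCast (F : Type) [Field F] [NumberField F] (r : ℕ) (hr : r.Prime) :
    ∃ 𝔯 : Ideal (𝓞 F), 𝔯.IsPrime ∧ 𝔯 ≠ ⊥ ∧ (r : 𝓞 F) ∈ 𝔯 := by
  have hprime : (Ideal.span {(r : ℤ)}).IsPrime :=
    (Ideal.span_singleton_prime (by exact_mod_cast hr.ne_zero)).mpr (Nat.prime_iff_prime_int.mp hr)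
  obtain ⟨⟨𝔯, h𝔯, hover⟩⟩ := Ideal.nonempty_primesOver (S := 𝓞 F) (Ideal.span {(r : ℤ)})
  have hmem : (r : 𝓞 F) ∈ 𝔯 := by
    have h1 : (r : ℤ) ∈ 𝔯.under ℤ := by
      rw [← hover.over]
      exact Ideal.subset_span rfl
    have h2 : algebraMap ℤ (𝓞 F) (r : ℤ) ∈ 𝔯 := h1
    simpa using h2
  refine ⟨𝔯, h𝔯, ?_, hmem⟩
  intro hbot
  rw [hbot, Ideal.mem_bot] at hmem
  exact hr.ne_zero (by exact_mod_cast hmem)

/-- A proper ideal containing the prime number `r` and the natural number `m` forces `r ∣ m`. -/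
theorem rlt_dvd_of_natCast_mem {R : Type*} [CommRing R] (𝔯 : Ideal R) (h𝔯 : 𝔯 ≠ ⊤) (r m : ℕ)
    (hr : r.Prime) (hr𝔯 : (r : R) ∈ 𝔯) (hm : (m : R) ∈ 𝔯) : r ∣ m := by
  by_contra hndvd
  have hcop : IsCoprime (r : ℤ) (m : ℤ) :=
    Nat.isCoprime_iff_coprime.mpr ((Nat.Prime.coprime_iff_not_dvd hr).mpr hndvd)
  obtain ⟨a, b, hab⟩ := hcop
  apply h𝔯
  rw [Ideal.eq_top_iff_one]
  have h1 : ((a * r + b * m : ℤ) : R) = 1 := by
    rw [hab]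
    simp
  rw [← h1]
  push_cast
  exact 𝔯.add_mem (𝔯.mul_mem_left _ hr𝔯) (𝔯.mul_mem_left _ hm)

/-- A maximal ideal is coprime to the principal ideal of an element outside it. -/
theorem rlt_sup_span_eq_top {R : Type*} [CommRing R] (M : Ideal R) (hM : M.IsMaximal) (x : R)
    (hx : x ∉ M) : M ⊔ Ideal.span {x} = ⊤ := by
  apply hM.1.2
  refine lt_of_le_of_ne le_sup_left ?_
  intro h
  apply hx
  rw [h]
  exact Ideal.mem_sup_right (Ideal.subset_span rfl)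

/-- Products of ideals coprime to `J` are coprime to `J`. -/
theorem rlt_mul_sup_eq_top {R : Type*} [CommRing R] (I₁ I₂ J : Ideal R) (h₁ : I₁ ⊔ J = ⊤)
    (h₂ : I₂ ⊔ J = ⊤) : I₁ * I₂ ⊔ J = ⊤ := by
  rw [← Ideal.isCoprime_iff_sup_eq] at h₁ h₂ ⊢
  exact IsCoprime.mul_left h₁ h₂

/-- Powers of an ideal coprime to `J` are coprime to `J`. -/
theorem rlt_pow_sup_eq_top {R : Type*} [CommRing R] (I J : Ideal R) (n : ℕ) (h : I ⊔ J = ⊤) :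
    I ^ n ⊔ J = ⊤ := by
  rw [← Ideal.isCoprime_iff_sup_eq] at h ⊢
  exact IsCoprime.pow_left h

/-- Congruence for `ClassGroup.mk0`. -/
theorem rlt_mk0_congr {R : Type*} [CommRing R] [IsDedekindDomain R]
    (I J : Ideal R) (hI : I ∈ nonZeroDivisors (Ideal R)) (hJ : J ∈ nonZeroDivisors (Ideal R))
    (h : I = J) : ClassGroup.mk0 ⟨I, hI⟩ = ClassGroup.mk0 ⟨J, hJ⟩ := by
  subst h
  rfl

end Fermat.Agent.S14
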