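/-
S14, block R, Lang's argument (solo twin; prefix `rlt_`): the assembly.  All other packages enter
as hypotheses (frozen `Prop`s of Interfaces / Basics2 / RInterfaces).
-/
import Fermat.Agent.S14.RLangTBasic

set_option autoImplicit false

open NumberField

namespace Fermat.Agent.S14

/-- Step 4: if `αE` is not a `p`-th power in `E`, there is a prime `𝔓` of `E` not containing the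
natural number `m` (a multiple of `p` and of `αE`) with nonzero symbol; a suitable multiple `k` of
the symbol is `1`. -/
theorem rlt_exists_prime (hK3 : K3Statement) (hSS : SymbSplitStatement)
    (hKE : KummerExistsStatement) (hPF : PrimesFinsetStatement) (p : ℕ) [Fact p.Prime]
    (E : Type) [Field E] [NumberField E] (ζE αE : 𝓞 E) (hζE : IsPrimitiveRoot ζE p)
    (hnotE : ∀ z : E, z ^ p ≠ (αE : E)) (m : ℕ) (hm : m ≠ 0) (hpm : p ∣ m)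
    (hαm : αE ∣ (m : 𝓞 E)) :
    ∃ (𝔓 : Ideal (𝓞 E)) (k : ℕ), 𝔓.IsPrime ∧ 𝔓 ≠ ⊥ ∧ (m : 𝓞 E) ∉ 𝔓 ∧
      (k : ZMod p) * symb p ζE αE 𝔓 = 1 := by
  have hp : p.Prime := Fact.out
  obtain ⟨E', iF, iNF, iA, hdeg', y', hy'⟩ := hKE p E (αE : E) hnotE
  have hy'notin : y' ∉ Set.range (algebraMap E E') := by
    rintro ⟨z, rfl⟩
    rw [← map_pow] at hy'
    exact hnotE z ((algebraMap E E').injective hy')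
  have hm0 : (m : 𝓞 E) ≠ 0 := by exact_mod_cast hm
  obtain ⟨T, hT⟩ := hPF E (m : 𝓞 E) hm0
  obtain ⟨𝔓, h𝔓, h𝔓0, h𝔓T, hns⟩ := hK3 E E' (by rw [hdeg']; exact hp.two_le) T
  have hm𝔓 : (m : 𝓞 E) ∉ 𝔓 := fun h => h𝔓T (hT 𝔓 h𝔓 h)
  have hp𝔓 : (p : 𝓞 E) ∉ 𝔓 := fun h => hm𝔓 (𝔓.mem_of_dvd (Nat.cast_dvd_cast hpm) h)
  have hα𝔓 : αE ∉ 𝔓 := fun h => hm𝔓 (𝔓.mem_of_dvd hαm h)
  have hiff := hSS p E E' ζE αE hζE hdeg' y' hy' hy'notin 𝔓 h𝔓 h𝔓0 hp𝔓 hα𝔓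
  have ht : symb p ζE αE 𝔓 ≠ 0 := fun h => hns (hiff.mp h)
  refine ⟨𝔓, (symb p ζE αE 𝔓)⁻¹.val, h𝔓, h𝔓0, hm𝔓, ?_⟩
  rw [ZMod.natCast_zmod_val, inv_mul_cancel₀ ht]

/-- Steps 2–3: the field `E = E₁(a₂^{1/p})`, containing `E₁` and a copy of `E₂` over `K`, in which
`α` is still not a `p`-th power. -/
theorem rlt_exists_compositum (hKE : KummerExistsStatement) (hKL : KummerLiftStatement)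
    (hKS : KummerSplitStatement) (hKR : KummerRamStatement) (p : ℕ) [Fact p.Prime]
    (K L : Type) [Field K] [NumberField K] [Field L] [NumberField L] [Algebra K L]
    (ζ α : 𝓞 K) (B : ℕ) (hR : RSetting p K L ζ α B)
    (E₁ E₂ : Type) [Field E₁] [NumberField E₁] [Algebra K E₁] [Field E₂] [NumberField E₂]
    [Algebra K E₂] (r₁ r₂ : ℕ) (hr₁ : r₁.Prime) (hr₂ : r₂.Prime) (hne : r₂ ≠ r₁)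
    (hr₂B : ¬ r₂ ∣ B) (a₁ a₂ : 𝓞 K) (θ₁ : 𝓞 E₁) (θ₂ : 𝓞 E₂)
    (hdeg₁ : Module.finrank K E₁ = p) (hdeg₂ : Module.finrank K E₂ = p)
    (hθ₁ : θ₁ ^ p = algebraMap (𝓞 K) (𝓞 E₁) a₁) (hθ₂ : θ₂ ^ p = algebraMap (𝓞 K) (𝓞 E₂) a₂)
    (ha₁ : ∀ 𝔓 : Ideal (𝓞 K), 𝔓.IsPrime → ((B * r₁ : ℕ) : 𝓞 K) ∉ 𝔓 → a₁ ∉ 𝔓)
    (hord₁ : ∀ 𝔯 : Ideal (𝓞 K), 𝔯.IsPrime → (r₁ : 𝓞 K) ∈ 𝔯 → OrdNotDvd p 𝔯 a₁)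
    (hord₂ : ∀ 𝔯 : Ideal (𝓞 K), 𝔯.IsPrime → (r₂ : 𝓞 K) ∈ 𝔯 → OrdNotDvd p 𝔯 a₂)
    (hnot₁ : ∀ z : E₁, z ^ p ≠ algebraMap K E₁ (α : K)) :
    ∃ (E : Type) (_ : Field E) (_ : NumberField E) (_ : Algebra K E) (_ : Algebra E₁ E)
      (_ : Algebra E₂ E) (_ : IsScalarTower K E₁ E) (_ : IsScalarTower K E₂ E),
      ∀ z : E, z ^ p ≠ algebraMap K E (α : K) := by
  have hp : p.Prime := Fact.out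
  obtain ⟨-, hpB, hαB⟩ := hR.bad
  have hζK : IsPrimitiveRoot (ζ : K) p := hR.prim.map_of_injective RingOfIntegers.coe_injective
  -- primes of `K` above `r₁`, `r₂`
  obtain ⟨𝔯₁, h𝔯₁, h𝔯₁0, hr₁mem⟩ := rlt_exists_prime_natCast K r₁ hr₁
  obtain ⟨𝔯₂, h𝔯₂, h𝔯₂0, hr₂mem⟩ := rlt_exists_prime_natCast K r₂ hr₂
  -- `θ₁ ∉ K`, `θ₂ ∉ K`
  have hθ₁' : (θ₁ : E₁) ^ p = algebraMap K E₁ (a₁ : K) := by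
    have h := congrArg (algebraMap (𝓞 E₁) E₁) hθ₁
    rw [map_pow] at h
    exact h
  have hθ₂' : (θ₂ : E₂) ^ p = algebraMap K E₂ (a₂ : K) := by
    have h := congrArg (algebraMap (𝓞 E₂) E₂) hθ₂
    rw [map_pow] at h
    exact h
  have hθ₁K : (θ₁ : E₁) ∉ Set.range (algebraMap K E₁) :=
    rlt_not_mem_range p hp.pos 𝔯₁ h𝔯₁ h𝔯₁0 a₁ (hord₁ 𝔯₁ h𝔯₁ hr₁mem) _ hθ₁'
  have hθ₂K : (θ₂ : E₂) ∉ Set.range (algebraMap K E₂) :=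
    rlt_not_mem_range p hp.pos 𝔯₂ h𝔯₂ h𝔯₂0 a₂ (hord₂ 𝔯₂ h𝔯₂ hr₂mem) _ hθ₂'
  -- `𝔯₂` is prime to `B r₁`
  have hBr₁ : ((B * r₁ : ℕ) : 𝓞 K) ∉ 𝔯₂ := by
    intro h
    have hdvd := rlt_dvd_of_natCast_mem 𝔯₂ h𝔯₂.ne_top r₂ (B * r₁) hr₂ hr₂mem h
    rcases (Nat.Prime.dvd_mul hr₂).mp hdvd with h1 | h1
    · exact hr₂B h1
    · exact hne ((Nat.prime_dvd_prime_iff_eq hr₂ hr₁).mp h1)
  have hB𝔯₂ : (B : 𝓞 K) ∉ 𝔯₂ := fun h => hBr₁ (by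
    rw [Nat.cast_mul]
    exact 𝔯₂.mul_mem_right _ h)
  have hp𝔯₂ : (p : 𝓞 K) ∉ 𝔯₂ := fun h => hB𝔯₂ (𝔯₂.mem_of_dvd (Nat.cast_dvd_cast hpB) h)
  have hα𝔯₂ : α ∉ 𝔯₂ := fun h => hB𝔯₂ (𝔯₂.mem_of_dvd hαB h)
  have ha₁𝔯₂ : a₁ ∉ 𝔯₂ := ha₁ 𝔯₂ h𝔯₂ hBr₁
  -- a prime `ℜ` of `E₁` above `𝔯₂`: unramified, so `p ∤ v_ℜ(a₂)`
  have := h𝔯₂
  obtain ⟨⟨ℜ, hℜ⟩⟩ := (inferInstance : Nonempty (𝔯₂.primesOver (𝓞 E₁)))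
  have hunr := (hKS p K E₁ (ζ : K) hζK hdeg₁ a₁ (θ₁ : E₁) hθ₁' hθ₁K 𝔯₂ h𝔯₂ h𝔯₂0 hp𝔯₂ ha₁𝔯₂).2
    ℜ hℜ
  have hordℜ : OrdNotDvd p ℜ (algebraMap (𝓞 K) (𝓞 E₁) a₂) :=
    rlt_ordNotDvd_of_unram p 𝔯₂ h𝔯₂ h𝔯₂0 ℜ hℜ hunr a₂ (hord₂ 𝔯₂ h𝔯₂ hr₂mem)
  have hℜprime : ℜ.IsPrime := hℜ.1
  have hℜover : ℜ.LiesOver 𝔯₂ := hℜ.2
  have hℜ0 : ℜ ≠ ⊥ := Ideal.ne_bot_of_liesOver_of_ne_bot h𝔯₂0 ℜ
  have hnota₂ : ∀ z : E₁, z ^ p ≠ algebraMap K E₁ (a₂ : K) := fun z =>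
    rlt_not_pow_of_ordNotDvd p hp.pos ℜ hℜprime hℜ0 _ hordℜ z
  -- `E := E₁(a₂^{1/p})`
  obtain ⟨E, iF, iNF, iA₁, hdegE, y₂, hy₂⟩ := hKE p E₁ (algebraMap K E₁ (a₂ : K)) hnota₂
  let iK : Algebra K E := ((algebraMap E₁ E).comp (algebraMap K E₁)).toAlgebra
  have tower₁ : IsScalarTower K E₁ E := IsScalarTower.of_algebraMap_eq (fun _ => rfl)
  have hy₂' : y₂ ^ p = algebraMap K E (a₂ : K) := hy₂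
  obtain ⟨φ, hφ⟩ := hKL p K E₂ E hdeg₂ (a₂ : K) (θ₂ : E₂) y₂ hθ₂' hθ₂K hy₂'
  let iA₂ : Algebra E₂ E := φ.toRingHom.toAlgebra
  have tower₂ : IsScalarTower K E₂ E :=
    IsScalarTower.of_algebraMap_eq (fun x => (φ.commutes x).symm)
  refine ⟨E, iF, iNF, iK, iA₁, iA₂, tower₁, tower₂, ?_⟩
  intro z hz
  have hz' : z ^ p = algebraMap E₁ E ((algebraMap (𝓞 K) (𝓞 E₁) α : 𝓞 E₁) : E₁) := hz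
  have hzE₁ : z ∉ Set.range (algebraMap E₁ E) := by
    rintro ⟨w, rfl⟩
    rw [← map_pow] at hz'
    exact hnot₁ w ((algebraMap E₁ E).injective hz')
  have hy₂E₁ : y₂ ∉ Set.range (algebraMap E₁ E) := by
    rintro ⟨w, rfl⟩
    rw [← map_pow] at hy₂
    exact hnota₂ w ((algebraMap E₁ E).injective hy₂)
  have hζE₁ : IsPrimitiveRoot (algebraMap K E₁ (ζ : K)) p :=
    hζK.map_of_injective (algebraMap K E₁).injective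
  have hmemℜ : ∀ x : 𝓞 K, algebraMap (𝓞 K) (𝓞 E₁) x ∈ ℜ ↔ x ∈ 𝔯₂ := fun x =>
    (Ideal.mem_of_liesOver ℜ 𝔯₂ x).symm
  have hpℜ : (p : 𝓞 E₁) ∉ ℜ := by
    rw [← map_natCast (algebraMap (𝓞 K) (𝓞 E₁)), hmemℜ]
    exact hp𝔯₂
  have hαℜ : algebraMap (𝓞 K) (𝓞 E₁) α ∉ ℜ := by
    rw [hmemℜ]
    exact hα𝔯₂
  have h1 := (hKS p E₁ E (algebraMap K E₁ (ζ : K)) hζE₁ hdegE (algebraMap (𝓞 K) (𝓞 E₁) α) z hz'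
    hzE₁ ℜ hℜprime hℜ0 hpℜ hαℜ).2
  have hy₂'' : y₂ ^ p = algebraMap E₁ E ((algebraMap (𝓞 K) (𝓞 E₁) a₂ : 𝓞 E₁) : E₁) := hy₂
  have h2 := hKR p E₁ E (algebraMap K E₁ (ζ : K)) hζE₁ hdegE (algebraMap (𝓞 K) (𝓞 E₁) a₂) y₂
    hy₂'' hy₂E₁ ℜ hℜprime hℜ0 hordℜ
  obtain ⟨⟨𝔔, h𝔔⟩⟩ := (inferInstance : Nonempty (ℜ.primesOver (𝓞 E)))
  exact hp.one_lt.ne ((h1 𝔔 h𝔔).symm.trans (h2 𝔔 h𝔔))

/-- Steps 5–8 for one of the two primes: with `𝔟 = 𝔓 ^ k` of symbol `1` in `E ⊇ Eᵢ ⊇ K`, the class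
of `𝔮 · N_{E/K}(𝔟)^(p - d)` is a norm class of `L/K`, where `d` is the symbol of `𝔮`. -/
theorem rlt_final (hI : SymbIStatement) (hSN : SymbNormStatement) (hKE : KummerExistsStatement)
    (hKL : KummerLiftStatement) (hND : NormDownStatement) (p : ℕ) [Fact p.Prime]
    (K L Ei E : Type) [Field K] [NumberField K] [Field L] [NumberField L] [Field Ei]
    [NumberField Ei] [Field E] [NumberField E] [Algebra K L] [Algebra K Ei] [Algebra Ei E]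
    [Algebra K E] [IsScalarTower K Ei E]
    (ζ α : 𝓞 K) (B : ℕ) (hR : RSetting p K L ζ α B) (r : ℕ)
    (𝔮 : Ideal (𝓞 K)) (h𝔮 : 𝔮.IsPrime) (hB𝔮 : (B : 𝓞 K) ∉ 𝔮) (hr𝔮 : (r : 𝓞 K) ∉ 𝔮)
    (hsplit : SplitsCompletely K Ei 𝔮)
    (hnot : ∀ z : Ei, z ^ p ≠ algebraMap K Ei (α : K))
    (hR3 : ∀ (E' : Type) [Field E'] [NumberField E'] [Algebra Ei E'], Module.finrank Ei E' = p →
        (∃ y : E', y ^ p = algebraMap Ei E' (algebraMap K Ei (α : K))) →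
        ∀ 𝔅 : Ideal (𝓞 Ei), 𝔅 ≠ ⊥ → 𝔅 ⊔ Ideal.span {((B * r : ℕ) : 𝓞 Ei)} = ⊤ →
          symbI p (algebraMap (𝓞 K) (𝓞 Ei) ζ) (algebraMap (𝓞 K) (𝓞 Ei) α) 𝔅 = 0 →
          ∃ h : 𝔅 ∈ nonZeroDivisors (Ideal (𝓞 Ei)), ClassGroup.mk0 ⟨𝔅, h⟩ ∈ normClasses Ei E')
    (𝔓 : Ideal (𝓞 E)) (h𝔓 : 𝔓.IsPrime) (h𝔓0 : 𝔓 ≠ ⊥) (hBr𝔓 : ((B * r : ℕ) : 𝓞 E) ∉ 𝔓) (k : ℕ)
    (hk : (k : ZMod p) * symb p (algebraMap (𝓞 K) (𝓞 E) ζ) (algebraMap (𝓞 K) (𝓞 E) α) 𝔓 = 1)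
    (h𝔮mem : 𝔮 ∈ nonZeroDivisors (Ideal (𝓞 K)))
    (h𝔟mem : Ideal.relNorm (𝓞 K) (𝔓 ^ k) ∈ nonZeroDivisors (Ideal (𝓞 K))) :
    ClassGroup.mk0 ⟨𝔮, h𝔮mem⟩ *
      ClassGroup.mk0 ⟨Ideal.relNorm (𝓞 K) (𝔓 ^ k), h𝔟mem⟩ ^ (p - (symb p ζ α 𝔮).val)
        ∈ normClasses K L := by
  have hp : p.Prime := Fact.out
  have := h𝔮
  have := h𝔓
  obtain ⟨-, hpB, hαB⟩ := hR.bad
  have h𝔮0 : 𝔮 ≠ ⊥ := nonZeroDivisors.ne_zero h𝔮mem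
  have h𝔮max : 𝔮.IsMaximal := h𝔮.isMaximal h𝔮0
  have hp𝔮 : (p : 𝓞 K) ∉ 𝔮 := fun h => hB𝔮 (𝔮.mem_of_dvd (Nat.cast_dvd_cast hpB) h)
  have hα𝔮 : α ∉ 𝔮 := fun h => hB𝔮 (𝔮.mem_of_dvd hαB h)
  have hBr𝔮 : ((B * r : ℕ) : 𝓞 K) ∉ 𝔮 := by
    rw [Nat.cast_mul]
    exact fun h => (h𝔮.mem_or_mem h).elim hB𝔮 hr𝔮
  -- a prime `𝔔` of `Eᵢ` above `𝔮`
  obtain ⟨⟨𝔔, h𝔔⟩⟩ := (inferInstance : Nonempty (𝔮.primesOver (𝓞 Ei)))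
  have h𝔔prime : 𝔔.IsPrime := h𝔔.1
  have h𝔔over : 𝔔.LiesOver 𝔮 := h𝔔.2
  obtain ⟨-, hf⟩ := hsplit 𝔔 h𝔔
  have h𝔔0 : 𝔔 ≠ ⊥ := Ideal.ne_bot_of_liesOver_of_ne_bot h𝔮0 𝔔
  have h𝔔max : 𝔔.IsMaximal := h𝔔prime.isMaximal h𝔔0
  have hmem𝔔 : ∀ x : 𝓞 K, algebraMap (𝓞 K) (𝓞 Ei) x ∈ 𝔔 ↔ x ∈ 𝔮 := fun x =>
    (Ideal.mem_of_liesOver 𝔔 𝔮 x).symm
  have hrel𝔔 : Ideal.relNorm (𝓞 K) 𝔔 = 𝔮 := by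
    rw [Ideal.relNorm_eq_pow_of_isMaximal 𝔔 𝔮, hf, pow_one]
  -- the symbol of `𝔔`
  have hcop𝔔 : 𝔔 ⊔ Ideal.span {(p : 𝓞 Ei) * algebraMap (𝓞 K) (𝓞 Ei) α} = ⊤ := by
    apply rlt_sup_span_eq_top 𝔔 h𝔔max
    intro h
    rcases h𝔔prime.mem_or_mem h with h1 | h1
    · rw [← map_natCast (algebraMap (𝓞 K) (𝓞 Ei)), hmem𝔔] at h1
      exact hp𝔮 h1
    · rw [hmem𝔔] at h1
      exact hα𝔮 h1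
  have hsymb𝔔 : symbI p (algebraMap (𝓞 K) (𝓞 Ei) ζ) (algebraMap (𝓞 K) (𝓞 Ei) α) 𝔔 =
      symb p ζ α 𝔮 := by
    rw [hSN p K Ei ζ α hR.prim 𝔔 h𝔔0 hcop𝔔, hrel𝔔]
    exact (hI p K ζ α).2.1 𝔮 h𝔮 h𝔮0
  -- the ideal `𝔠 = N_{E/Eᵢ}(𝔓 ^ k)` and its symbol
  have h𝔓max : 𝔓.IsMaximal := h𝔓.isMaximal h𝔓0
  have hp𝔓 : (p : 𝓞 E) ∉ 𝔓 := fun h => hBr𝔓 (𝔓.mem_of_dvd (Nat.cast_dvd_cast
    (Dvd.dvd.mul_right hpB r)) h)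
  have hα𝔓 : algebraMap (𝓞 K) (𝓞 E) α ∉ 𝔓 := by
    intro h
    apply hBr𝔓
    have h1 : algebraMap (𝓞 K) (𝓞 E) α ∣ ((B * r : ℕ) : 𝓞 E) := by
      have h2 : algebraMap (𝓞 K) (𝓞 E) α ∣ algebraMap (𝓞 K) (𝓞 E) (B : 𝓞 K) :=
        map_dvd (algebraMap (𝓞 K) (𝓞 E)) hαB
      rw [map_natCast] at h2
      rw [Nat.cast_mul]
      exact Dvd.dvd.mul_right h2 _
    exact 𝔓.mem_of_dvd h1 h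
  have hζi : IsPrimitiveRoot (algebraMap (𝓞 K) (𝓞 Ei) ζ) p :=
    hR.prim.map_of_injective (RingOfIntegers.algebraMap.injective K Ei)
  have hζE : algebraMap (𝓞 Ei) (𝓞 E) (algebraMap (𝓞 K) (𝓞 Ei) ζ) = algebraMap (𝓞 K) (𝓞 E) ζ :=
    (IsScalarTower.algebraMap_apply (𝓞 K) (𝓞 Ei) (𝓞 E) ζ).symm
  have hαE : algebraMap (𝓞 Ei) (𝓞 E) (algebraMap (𝓞 K) (𝓞 Ei) α) = algebraMap (𝓞 K) (𝓞 E) α :=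
    (IsScalarTower.algebraMap_apply (𝓞 K) (𝓞 Ei) (𝓞 E) α).symm
  have hcop𝔓 : 𝔓 ^ k ⊔ Ideal.span {(p : 𝓞 E) *
      algebraMap (𝓞 Ei) (𝓞 E) (algebraMap (𝓞 K) (𝓞 Ei) α)} = ⊤ := by
    apply rlt_pow_sup_eq_top
    apply rlt_sup_span_eq_top 𝔓 h𝔓max
    rw [hαE]
    intro h
    exact (h𝔓.mem_or_mem h).elim hp𝔓 hα𝔓
  have hsymb𝔠 : symbI p (algebraMap (𝓞 K) (𝓞 Ei) ζ) (algebraMap (𝓞 K) (𝓞 Ei) α)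
      (Ideal.relNorm (𝓞 Ei) (𝔓 ^ k)) = 1 := by
    rw [← hSN p Ei E _ _ hζi (𝔓 ^ k) (pow_ne_zero k h𝔓0) hcop𝔓, hζE, hαE,
      (hI p E _ _).2.2.2 𝔓 k h𝔓0, (hI p E _ _).2.1 𝔓 h𝔓 h𝔓0, nsmul_eq_mul]
    exact hk
  have h𝔠0 : Ideal.relNorm (𝓞 Ei) (𝔓 ^ k) ≠ ⊥ := by
    rw [Ne, Ideal.relNorm_eq_bot_iff]
    exact pow_ne_zero k h𝔓0
  -- `𝔠` is prime to `B r`
  have hcop𝔠 : Ideal.relNorm (𝓞 Ei) (𝔓 ^ k) ⊔ Ideal.span {((B * r : ℕ) : 𝓞 Ei)} = ⊤ := by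
    have hover : 𝔓.LiesOver (𝔓.under (𝓞 Ei)) := Ideal.over_under 𝔓
    have hmax' : (𝔓.under (𝓞 Ei)).IsMaximal := inferInstance
    rw [map_pow, Ideal.relNorm_eq_pow_of_isMaximal 𝔓 (𝔓.under (𝓞 Ei))]
    apply rlt_pow_sup_eq_top
    apply rlt_pow_sup_eq_top
    apply rlt_sup_span_eq_top _ hmax'
    intro h
    apply hBr𝔓
    have h1 : algebraMap (𝓞 Ei) (𝓞 E) ((B * r : ℕ) : 𝓞 Ei) ∈ 𝔓 := h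
    rwa [map_natCast] at h1
  -- the ideal `𝔅 = 𝔔 · 𝔠 ^ (p - d)`
  have h𝔅0 : 𝔔 * Ideal.relNorm (𝓞 Ei) (𝔓 ^ k) ^ (p - (symb p ζ α 𝔮).val) ≠ ⊥ :=
    mul_ne_zero h𝔔0 (pow_ne_zero _ h𝔠0)
  have hcop𝔅 : 𝔔 * Ideal.relNorm (𝓞 Ei) (𝔓 ^ k) ^ (p - (symb p ζ α 𝔮).val) ⊔
      Ideal.span {((B * r : ℕ) : 𝓞 Ei)} = ⊤ := by
    apply rlt_mul_sup_eq_top
    · apply rlt_sup_span_eq_top 𝔔 h𝔔max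
      rw [← map_natCast (algebraMap (𝓞 K) (𝓞 Ei)), hmem𝔔]
      exact hBr𝔮
    · exact rlt_pow_sup_eq_top _ _ _ hcop𝔠
  have hsymb𝔅 : symbI p (algebraMap (𝓞 K) (𝓞 Ei) ζ) (algebraMap (𝓞 K) (𝓞 Ei) α)
      (𝔔 * Ideal.relNorm (𝓞 Ei) (𝔓 ^ k) ^ (p - (symb p ζ α 𝔮).val)) = 0 := by
    have : NeZero p := ⟨hp.ne_zero⟩
    rw [(hI p Ei _ _).1 _ _ h𝔔0 (pow_ne_zero _ h𝔠0), (hI p Ei _ _).2.2.2 _ _ h𝔠0, hsymb𝔔,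
      hsymb𝔠, nsmul_eq_mul, mul_one, Nat.cast_sub (ZMod.val_lt _).le, ZMod.natCast_self,
      ZMod.natCast_zmod_val]
    ring
  -- the Kummer extension `Eᵢ' = Eᵢ(α^{1/p})` and reciprocity (R3')
  obtain ⟨E', iF, iNF, iA, hdeg', y', hy'⟩ := hKE p Ei (algebraMap K Ei (α : K)) hnot
  obtain ⟨h𝔅, hmem⟩ := hR3 E' hdeg' ⟨y', hy'⟩ _ h𝔅0 hcop𝔅 hsymb𝔅
  -- `L` embeds into `Eᵢ'` over `K`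
  let iK : Algebra K E' := ((algebraMap Ei E').comp (algebraMap K Ei)).toAlgebra
  have tower₁ : IsScalarTower K Ei E' := IsScalarTower.of_algebraMap_eq (fun _ => rfl)
  obtain ⟨θ, hθ, hθK⟩ := hR.gen
  have hy'' : y' ^ p = algebraMap K E' (α : K) := hy'
  obtain ⟨φ, -⟩ := hKL p K L E' hR.deg (α : K) θ y' hθ hθK hy''
  let iL : Algebra L E' := φ.toRingHom.toAlgebra
  have tower₂ : IsScalarTower K L E' :=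
    IsScalarTower.of_algebraMap_eq (fun x => (φ.commutes x).symm)
  obtain ⟨h', hmem'⟩ := hND K L Ei E' _ h𝔅 hmem
  -- the norm of `𝔅` down to `K`
  have hrel : Ideal.relNorm (𝓞 K)
      (𝔔 * Ideal.relNorm (𝓞 Ei) (𝔓 ^ k) ^ (p - (symb p ζ α 𝔮).val)) =
      𝔮 * Ideal.relNorm (𝓞 K) (𝔓 ^ k) ^ (p - (symb p ζ α 𝔮).val) := by
    rw [map_mul, map_pow, hrel𝔔, Ideal.relNorm_relNorm]
  have hcl : ClassGroup.mk0 ⟨𝔮, h𝔮mem⟩ *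
      ClassGroup.mk0 ⟨Ideal.relNorm (𝓞 K) (𝔓 ^ k), h𝔟mem⟩ ^ (p - (symb p ζ α 𝔮).val) =
      ClassGroup.mk0 ⟨_, h'⟩ := by
    rw [← map_pow, ← map_mul]
    exact congrArg ClassGroup.mk0 (Subtype.ext hrel.symm)
  rw [hcl]
  exact hmem'

/-- **Lang's argument** (R7), from the other packages. -/
theorem rlt_lang_of (hEF : EFieldStatement) (hK3 : K3Statement) (hI : SymbIStatement)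
    (hSN : SymbNormStatement) (hSS : SymbSplitStatement) (hKE : KummerExistsStatement)
    (hKL : KummerLiftStatement) (hKS : KummerSplitStatement) (hKR : KummerRamStatement)
    (hND : NormDownStatement) (hPF : PrimesFinsetStatement) : LangStatement := by
  intro p _ hp3 K L _ _ _ _ _ ζ α B hR 𝔮₁ 𝔮₂ h𝔮₁ h𝔮₂ hN₁ hN₂ hB₁ hB₂ hd₁ hd₂
  obtain ⟨hB0, hpB, hαB⟩ := hR.bad
  obtain ⟨r₁, a₁, E₁, iF₁, iNF₁, iA₁, θ₁, hr₁, -, -, hr₁𝔮, hdeg₁, hθ₁, ha₁, hord₁, hsplit₁,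
    hnot₁, hR3₁⟩ := hEF p hp3 K L ζ α B hR 𝔮₁ h𝔮₁ hN₁ hB₁ hd₁ ∅
  obtain ⟨r₂, a₂, E₂, iF₂, iNF₂, iA₂, θ₂, hr₂, hr₂X, hr₂B, hr₂𝔮, hdeg₂, hθ₂, -, hord₂, hsplit₂,
    hnot₂, hR3₂⟩ := hEF p hp3 K L ζ α B hR 𝔮₂ h𝔮₂ hN₂ hB₂ hd₂ {r₁}
  have hne : r₂ ≠ r₁ := fun h => hr₂X (by rw [h]; exact Finset.mem_singleton_self _)
  obtain ⟨E, iF, iNF, iK, i1, i2, t1, t2, hnotE⟩ := rlt_exists_compositum hKE hKL hKS hKR p K L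
    ζ α B hR E₁ E₂ r₁ r₂ hr₁ hr₂ hne hr₂B a₁ a₂ θ₁ θ₂ hdeg₁ hdeg₂ hθ₁ hθ₂ ha₁ hord₁ hord₂ hnot₁
  have hζE : IsPrimitiveRoot (algebraMap (𝓞 K) (𝓞 E) ζ) p :=
    hR.prim.map_of_injective (RingOfIntegers.algebraMap.injective K E)
  have hm0 : B * r₁ * r₂ ≠ 0 := mul_ne_zero (mul_ne_zero hB0 hr₁.ne_zero) hr₂.ne_zero
  have hpm : p ∣ B * r₁ * r₂ := Dvd.dvd.mul_right (Dvd.dvd.mul_right hpB _) _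
  have hαm : algebraMap (𝓞 K) (𝓞 E) α ∣ ((B * r₁ * r₂ : ℕ) : 𝓞 E) := by
    have h2 : algebraMap (𝓞 K) (𝓞 E) α ∣ algebraMap (𝓞 K) (𝓞 E) (B : 𝓞 K) :=
      map_dvd (algebraMap (𝓞 K) (𝓞 E)) hαB
    rw [map_natCast] at h2
    rw [Nat.cast_mul, Nat.cast_mul]
    exact Dvd.dvd.mul_right (Dvd.dvd.mul_right h2 _) _
  obtain ⟨𝔓, k, h𝔓, h𝔓0, hm𝔓, hk⟩ := rlt_exists_prime hK3 hSS hKE hPF p E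
    (algebraMap (𝓞 K) (𝓞 E) ζ) (algebraMap (𝓞 K) (𝓞 E) α) hζE hnotE (B * r₁ * r₂) hm0 hpm hαm
  have h𝔟mem : Ideal.relNorm (𝓞 K) (𝔓 ^ k) ∈ nonZeroDivisors (Ideal (𝓞 K)) := by
    apply mem_nonZeroDivisors_of_ne_zero
    rw [Ne, Ideal.zero_eq_bot, Ideal.relNorm_eq_bot_iff]
    exact pow_ne_zero k h𝔓0
  have hBr₁𝔓 : ((B * r₁ : ℕ) : 𝓞 E) ∉ 𝔓 := fun h => hm𝔓 (by
    rw [Nat.cast_mul]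
    exact 𝔓.mul_mem_right _ h)
  have hBr₂𝔓 : ((B * r₂ : ℕ) : 𝓞 E) ∉ 𝔓 := fun h => hm𝔓 (by
    have h3 : ((B * r₁ * r₂ : ℕ) : 𝓞 E) = ((B * r₂ : ℕ) : 𝓞 E) * (r₁ : 𝓞 E) := by
      push_cast
      ring
    rw [h3]
    exact 𝔓.mul_mem_right _ h)
  refine ⟨ClassGroup.mk0 ⟨_, h𝔟mem⟩, fun h₁ h₂ => ⟨?_, ?_⟩⟩
  · exact rlt_final hI hSN hKE hKL hND p K L E₁ E ζ α B hR r₁ 𝔮₁ h𝔮₁ hB₁ hr₁𝔮 hsplit₁ hnot₁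
      hR3₁ 𝔓 h𝔓 h𝔓0 hBr₁𝔓 k hk h₁ h𝔟mem
  · exact rlt_final hI hSN hKE hKL hND p K L E₂ E ζ α B hR r₂ 𝔮₂ h𝔮₂ hB₂ hr₂𝔮 hsplit₂ hnot₂
      hR3₂ 𝔓 h𝔓 h𝔓0 hBr₂𝔓 k hk h₂ h𝔟mem

end Fermat.Agent.S14
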