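/-
S14, block R, package SymbNorm: compatibility of the power residue symbol with the ideal norm in
an extension `E₂/E` of number fields.
-/
import Fermat.Agent.S14.RInterfaces

set_option autoImplicit false

open NumberField

namespace Fermat.Agent.S14

/-- Arithmetic: if `N = 1 + p m` then `(N ^ f - 1) / p = m * (1 + N + ⋯ + N ^ (f - 1))`. -/
theorem rsn_geom (p N f : ℕ) (hp : 0 < p) (hN : 1 ≤ N) (hdvd : p ∣ N - 1) :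
    (N ^ f - 1) / p = (N - 1) / p * ∑ i ∈ Finset.range f, N ^ i := by
  obtain ⟨m, hm⟩ := hdvd
  have hN' : N = p * m + 1 := by omega
  have h1 : N ^ f - 1 = p * (m * ∑ i ∈ Finset.range f, N ^ i) := by
    have hpow : 1 ≤ N ^ f := Nat.one_le_pow _ _ hN
    have hz : ((N ^ f - 1 : ℕ) : ℤ) = ((p * (m * ∑ i ∈ Finset.range f, N ^ i) : ℕ) : ℤ) := by
      have hg := mul_geom_sum (N : ℤ) f
      push_cast [Nat.cast_sub hpow]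
      rw [← hg, hN']
      push_cast
      ring
    exact_mod_cast hz
  rw [h1, hm, Nat.mul_div_cancel_left _ hp, Nat.mul_div_cancel_left _ hp]

/-- The geometric sum `1 + N + ⋯ + N ^ (f - 1)` is `f` modulo `p` when `N ≡ 1 mod p`. -/
theorem rsn_geom_mod (p N f : ℕ) (hN : 1 ≤ N) (hdvd : p ∣ N - 1) :
    ((∑ i ∈ Finset.range f, N ^ i : ℕ) : ZMod p) = (f : ZMod p) := by
  have hN1 : (N : ZMod p) = 1 := by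
    have h0 : ((N - 1 : ℕ) : ZMod p) = 0 := (ZMod.natCast_eq_zero_iff _ _).mpr hdvd
    rw [Nat.cast_sub hN, Nat.cast_one, sub_eq_zero] at h0
    exact h0
  push_cast
  rw [hN1]
  simp

/-- The prime case: the symbol at a good prime `𝔓₂` of `E₂` is `f` times the symbol at the prime
of `E` below it, where `f` is the inertia degree, and the relative norm of `𝔓₂` is the `f`-th
power of the prime below. -/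
theorem rsn_prime (hSpec : SymbSpecStatement) (p : ℕ) [Fact p.Prime] (E E₂ : Type) [Field E]
    [NumberField E] [Field E₂] [NumberField E₂] [Algebra E E₂] (ζ a : 𝓞 E)
    (hζ : IsPrimitiveRoot ζ p) (𝔓₂ : Ideal (𝓞 E₂)) (h𝔓₂ : 𝔓₂.IsPrime) (h0 : 𝔓₂ ≠ ⊥)
    (hp𝔓₂ : (p : 𝓞 E₂) ∉ 𝔓₂) (ha𝔓₂ : algebraMap (𝓞 E) (𝓞 E₂) a ∉ 𝔓₂) :
    (𝔓₂.under (𝓞 E)).IsPrime ∧ 𝔓₂.under (𝓞 E) ≠ ⊥ ∧
    symb p (algebraMap (𝓞 E) (𝓞 E₂) ζ) (algebraMap (𝓞 E) (𝓞 E₂) a) 𝔓₂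
      = (𝔓₂.inertiaDeg (𝓞 E)) • symb p ζ a (𝔓₂.under (𝓞 E)) ∧
    Ideal.relNorm (𝓞 E) 𝔓₂ = (𝔓₂.under (𝓞 E)) ^ (𝔓₂.inertiaDeg (𝓞 E)) := by
  have hp : p.Prime := Fact.out
  have : NeZero p := ⟨hp.ne_zero⟩
  have := h𝔓₂
  set 𝔓 : Ideal (𝓞 E) := 𝔓₂.under (𝓞 E) with h𝔓def
  set f : ℕ := 𝔓₂.inertiaDeg (𝓞 E) with hfdef
  have h𝔓prime : 𝔓.IsPrime := inferInstance
  have h𝔓0 : 𝔓 ≠ ⊥ := fun h => h0 (Ideal.eq_bot_of_comap_eq_bot h)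
  have hmem : ∀ x : 𝓞 E, x ∈ 𝔓 ↔ algebraMap (𝓞 E) (𝓞 E₂) x ∈ 𝔓₂ := fun x => Ideal.mem_comap
  have hp𝔓 : (p : 𝓞 E) ∉ 𝔓 := by
    rw [hmem, map_natCast]
    exact hp𝔓₂
  have ha𝔓 : a ∉ 𝔓 := by
    rw [hmem]
    exact ha𝔓₂
  have : 𝔓₂.LiesOver 𝔓 := Ideal.over_under 𝔓₂
  have hmax₂ : 𝔓₂.IsMaximal := h𝔓₂.isMaximal h0
  have hmax : 𝔓.IsMaximal := h𝔓prime.isMaximal h𝔓0
  -- the relative norm and the absolute norms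
  have hrel : Ideal.relNorm (𝓞 E) 𝔓₂ = 𝔓 ^ f := Ideal.relNorm_eq_pow_of_isMaximal 𝔓₂ 𝔓
  have hnorm : Ideal.absNorm 𝔓₂ = Ideal.absNorm 𝔓 ^ f := by
    rw [← Ideal.absNorm_relNorm (𝓞 E) (𝓞 E₂) 𝔓₂, hrel, map_pow]
  refine ⟨h𝔓prime, h𝔓0, ?_, hrel⟩
  -- the symbol downstairs
  obtain ⟨hdvd, hspec⟩ := hSpec p E ζ hζ 𝔓 h𝔓prime h𝔓0 hp𝔓
  obtain ⟨hcongr, -, -, -⟩ := hspec a ha𝔓
  -- the symbol upstairs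
  have hζ₂ : IsPrimitiveRoot (algebraMap (𝓞 E) (𝓞 E₂) ζ) p :=
    hζ.map_of_injective (RingOfIntegers.algebraMap.injective E E₂)
  obtain ⟨-, hspec₂⟩ := hSpec p E₂ (algebraMap (𝓞 E) (𝓞 E₂) ζ) hζ₂ 𝔓₂ h𝔓₂ h0 hp𝔓₂
  obtain ⟨-, huniq, -, -⟩ := hspec₂ (algebraMap (𝓞 E) (𝓞 E₂) a) ha𝔓₂
  have hN1 : 1 ≤ Ideal.absNorm 𝔓 := by
    have hne : Ideal.absNorm 𝔓 ≠ 0 := by
      rw [Ne, Ideal.absNorm_eq_zero_iff]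
      exact h𝔓0
    omega
  set G : ℕ := ∑ i ∈ Finset.range f, Ideal.absNorm 𝔓 ^ i with hG
  set m : ℕ := (Ideal.absNorm 𝔓 - 1) / p with hm
  have hexp : (Ideal.absNorm 𝔓₂ - 1) / p = m * G := by
    rw [hnorm]
    exact rsn_geom p (Ideal.absNorm 𝔓) f hp.pos hN1 hdvd
  have hup : algebraMap (𝓞 E) (𝓞 E₂) a ^ ((Ideal.absNorm 𝔓₂ - 1) / p)
      - algebraMap (𝓞 E) (𝓞 E₂) ζ ^ ((symb p ζ a 𝔓).val * G) ∈ 𝔓₂ := by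
    rw [hexp, pow_mul, pow_mul]
    have h1 : algebraMap (𝓞 E) (𝓞 E₂) a ^ m
        - algebraMap (𝓞 E) (𝓞 E₂) ζ ^ (symb p ζ a 𝔓).val ∈ 𝔓₂ := by
      have h2 := (hmem _).mp hcongr
      rwa [map_sub, map_pow, map_pow] at h2
    obtain ⟨c, hc⟩ := sub_dvd_pow_sub_pow (algebraMap (𝓞 E) (𝓞 E₂) a ^ m)
      (algebraMap (𝓞 E) (𝓞 E₂) ζ ^ (symb p ζ a 𝔓).val) G
    rw [hc]
    exact Ideal.mul_mem_right _ _ h1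
  rw [huniq _ hup, Nat.cast_mul, ZMod.natCast_zmod_val, hG,
    rsn_geom_mod p (Ideal.absNorm 𝔓) f hN1 hdvd, nsmul_eq_mul, mul_comm]

theorem rsn_symbNorm : SymbSpecStatement → SymbIStatement → SymbNormStatement := by
  intro hSpec hI p _ E E₂ _ _ _ _ _ ζ a hζ 𝔅
  obtain ⟨hI₂mul, hI₂prime, hI₂top, -⟩ :=
    hI p E₂ (algebraMap (𝓞 E) (𝓞 E₂) ζ) (algebraMap (𝓞 E) (𝓞 E₂) a)
  obtain ⟨hImul, hIprime, hItop, hIpow⟩ := hI p E ζ a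
  induction 𝔅 using UniqueFactorizationMonoid.induction_on_prime with
  | h₁ =>
    intro h
    exact absurd rfl h
  | h₂ x hx =>
    intro _ _
    have hx' : x = ⊤ := Ideal.isUnit_iff.mp hx
    subst hx'
    rw [hI₂top, Ideal.relNorm_top, hItop]
  | h₃ 𝔄 𝔓₂ h𝔄0 h𝔓₂ ih =>
    intro _ hcop
    have h𝔓₂prime : 𝔓₂.IsPrime := Ideal.isPrime_of_prime h𝔓₂
    have h𝔓₂0 : 𝔓₂ ≠ ⊥ := h𝔓₂.ne_zero
    have h𝔄0' : 𝔄 ≠ ⊥ := h𝔄0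
    have hcop𝔓 : 𝔓₂ ⊔ Ideal.span {(p : 𝓞 E₂) * algebraMap (𝓞 E) (𝓞 E₂) a} = ⊤ :=
      top_le_iff.mp (hcop ▸ sup_le_sup_right Ideal.mul_le_left _)
    have hcop𝔄 : 𝔄 ⊔ Ideal.span {(p : 𝓞 E₂) * algebraMap (𝓞 E) (𝓞 E₂) a} = ⊤ :=
      top_le_iff.mp (hcop ▸ sup_le_sup_right Ideal.mul_le_right _)
    have hpa : (p : 𝓞 E₂) * algebraMap (𝓞 E) (𝓞 E₂) a ∉ 𝔓₂ := by
      intro hmem
      apply h𝔓₂prime.ne_top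
      rw [← hcop𝔓]
      exact (sup_eq_left.mpr ((Ideal.span_singleton_le_iff_mem _).mpr hmem)).symm
    have hp𝔓₂ : (p : 𝓞 E₂) ∉ 𝔓₂ := fun h => hpa (Ideal.mul_mem_right _ _ h)
    have ha𝔓₂ : algebraMap (𝓞 E) (𝓞 E₂) a ∉ 𝔓₂ := fun h => hpa (Ideal.mul_mem_left _ _ h)
    obtain ⟨h𝔓prime, h𝔓0, hsymb, hrel⟩ := rsn_prime hSpec p E E₂ ζ a hζ 𝔓₂ h𝔓₂prime h𝔓₂0
      hp𝔓₂ ha𝔓₂
    have hrel𝔓0 : Ideal.relNorm (𝓞 E) 𝔓₂ ≠ ⊥ := by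
      rw [Ne, Ideal.relNorm_eq_bot_iff]
      exact h𝔓₂0
    have hrel𝔄0 : Ideal.relNorm (𝓞 E) 𝔄 ≠ ⊥ := by
      rw [Ne, Ideal.relNorm_eq_bot_iff]
      exact h𝔄0'
    rw [hI₂mul _ _ h𝔓₂0 h𝔄0', map_mul, hImul _ _ hrel𝔓0 hrel𝔄0, ih h𝔄0' hcop𝔄,
      hI₂prime 𝔓₂ h𝔓₂prime h𝔓₂0, hsymb, hrel, hIpow _ _ h𝔓0, hIprime _ h𝔓prime h𝔓0]

end Fermat.Agent.S14
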