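/-
S14, block R, Lang's argument (solo twin; prefix `rlt_`): `rlt_lang : EFieldStatement → LangStatement`,
obtained from `rlt_lang_of` (`RLangTMain.lean`) by plugging in the landed packages.
-/
import Fermat.Agent.S14.RLangTMain
import Fermat.Agent.S14.ZMain
import Fermat.Agent.S14.RSymbI
import Fermat.Agent.S14.RSymbNorm
import Fermat.Agent.S14.RSymbSpec
import Fermat.Agent.S14.RSymbSplit
import Fermat.Agent.S14.BKummerSplitB
import Fermat.Agent.S14.BKummerGal
import Fermat.Agent.S14.BKummerExists
import Fermat.Agent.S14.BKummerRamA
import Fermat.Agent.S14.RNormDown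
import Fermat.Agent.S14.BNormCl

set_option autoImplicit false

namespace Fermat.Agent.S14

/-- **Lang's argument** (R7): the only remaining hypothesis is `EFieldStatement`. -/
theorem rlt_lang : EFieldStatement → LangStatement := fun hEF =>
  rlt_lang_of hEF z_k3 rsi_symbI (rsn_symbNorm rss_symbSpec rsi_symbI)
    (rsp_symbSplit rss_symbSpec (bksb_kummerSplit bkg_kummerGalois)) bke_kummerExists
    bke_kummerLift (bksb_kummerSplit bkg_kummerGalois) bkra_kummerRam
    (rnd_normDown bnc_normClassesMem) rsi_primesFinset

end Fermat.Agent.S14
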