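/-
S14, block R, package Chain: the final contradiction (R10 + R11).

In an `RSetting`, a good prime `𝔮` of `K` which does not split completely in `L` (K3) has nonzero
symbol `d` (SymbSplit), hence degree one (SymbDegree); the Jacobi-sum element `J` with
`(J) = ∏_{1 ≤ a ≤ (p-1)/2} σ_a⁻¹(𝔮)` (Jacobi) is prime to `B`, so its symbol vanishes (M3); but
it equals `(∑ a) · d` (SymbEquiv, SymbI) and `8 · ∑ a = p² - 1` is a unit modulo `p`.
-/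
import Fermat.Agent.S14.RInterfaces

set_option autoImplicit false

open NumberField

namespace Fermat.Agent.S14

/-- A preimage prime `σ⁻¹(𝔮)` is the comap of `𝔮` under the ring endomorphism of `𝓞 K` induced by
`σ`. -/
theorem rch_preimage_eq_comap {K : Type} [Field K] [NumberField K] (σ : K ≃ₐ[ℚ] K)
    (𝔮 𝔮' : Ideal (𝓞 K)) (h : IsPreimagePrime σ 𝔮 𝔮') :
    𝔮' = 𝔮.comap (RingOfIntegers.mapRingHom (σ : K →+* K)) := by
  ext x
  rw [h x, Ideal.mem_comap]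
  constructor
  · rintro ⟨y, hy, hyx⟩
    have : RingOfIntegers.mapRingHom (σ : K →+* K) x = y := RingOfIntegers.ext hyx.symm
    rw [this]
    exact hy
  · intro hx
    exact ⟨_, hx, rfl⟩

/-- A preimage prime of a nonzero prime is a nonzero prime. -/
theorem rch_preimage_isPrime {K : Type} [Field K] [NumberField K] (σ : K ≃ₐ[ℚ] K)
    (𝔮 𝔮' : Ideal (𝓞 K)) (h : IsPreimagePrime σ 𝔮 𝔮') (h𝔮 : 𝔮.IsPrime) (h0 : 𝔮 ≠ ⊥) :
    𝔮'.IsPrime ∧ 𝔮' ≠ ⊥ := by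
  constructor
  · rw [rch_preimage_eq_comap σ 𝔮 𝔮' h]
    exact Ideal.comap_isPrime _ _
  · obtain ⟨y, hy, hy0⟩ := Submodule.exists_mem_ne_zero_of_ne_bot h0
    intro hbot
    have hx : RingOfIntegers.mapRingHom (σ.symm : K →+* K) y ∈ 𝔮' := by
      rw [h]
      refine ⟨y, hy, ?_⟩
      show (y : K) = σ (σ.symm (y : K))
      rw [AlgEquiv.apply_symm_apply]
    rw [hbot, Ideal.mem_bot] at hx
    apply hy0
    apply RingOfIntegers.ext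
    have h2 := congrArg (fun z : 𝓞 K => σ (z : K)) hx
    simp only [RingOfIntegers.mapRingHom_apply] at h2
    show (y : K) = ((0 : 𝓞 K) : K)
    rw [show ((0 : 𝓞 K) : K) = 0 from map_zero _] at h2 ⊢
    rw [map_zero] at h2
    rw [← h2]
    show (y : K) = σ (σ.symm (y : K))
    rw [AlgEquiv.apply_symm_apply]

/-- Natural numbers are fixed: `n ∈ σ⁻¹(𝔮) ↔ n ∈ 𝔮`. -/
theorem rch_natCast_mem_preimage {K : Type} [Field K] [NumberField K] (σ : K ≃ₐ[ℚ] K)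
    (𝔮 𝔮' : Ideal (𝓞 K)) (h : IsPreimagePrime σ 𝔮 𝔮') (n : ℕ) :
    (n : 𝓞 K) ∈ 𝔮' ↔ (n : 𝓞 K) ∈ 𝔮 := by
  rw [rch_preimage_eq_comap σ 𝔮 𝔮' h, Ideal.mem_comap, map_natCast]

/-- Gauss: `2 * ∑_{a = 1}^{k} a = k (k + 1)`. -/
theorem rch_two_mul_sum_Icc (k : ℕ) : 2 * (∑ a ∈ Finset.Icc 1 k, a) = k * (k + 1) := by
  induction k with
  | zero => simp
  | succ k ih =>
    rw [Finset.sum_Icc_succ_top (by omega), mul_add, ih]
    ring

/-- `8 * ∑_{a = 1}^{(p-1)/2} a + 1 = p ^ 2` for odd `p`. -/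
theorem rch_sum_Icc (p : ℕ) (hp : Odd p) :
    8 * (∑ a ∈ Finset.Icc 1 ((p - 1) / 2), a) + 1 = p ^ 2 := by
  obtain ⟨k, rfl⟩ := hp
  have hk : (2 * k + 1 - 1) / 2 = k := by omega
  rw [hk]
  have h := rch_two_mul_sum_Icc k
  have h8 : 8 * (∑ a ∈ Finset.Icc 1 k, a) = 4 * (k * (k + 1)) := by
    rw [← h]
    ring
  rw [h8]
  ring

/-- The sum `∑_{a = 1}^{(p-1)/2} a` is nonzero modulo an odd prime `p`. -/
theorem rch_sum_ne_zero (p : ℕ) [Fact p.Prime] (hp : Odd p) :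
    ((∑ a ∈ Finset.Icc 1 ((p - 1) / 2), a : ℕ) : ZMod p) ≠ 0 := by
  intro h0
  have h := congrArg (fun n : ℕ => (n : ZMod p)) (rch_sum_Icc p hp)
  simp only [Nat.cast_add, Nat.cast_mul, Nat.cast_pow, Nat.cast_one, h0, mul_zero, zero_add,
    ZMod.natCast_self] at h
  have hp2 : (0 : ZMod p) ^ 2 = 0 := by simp
  rw [hp2] at h
  exact one_ne_zero h

/-- Additivity of `symbI` over a finite product of nonzero ideals. -/
theorem rch_symbI_prod (hI : SymbIStatement) (p : ℕ) {E : Type} [Field E] [NumberField E]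
    (ζ a : 𝓞 E) (Q : ℕ → Ideal (𝓞 E)) (s : Finset ℕ) (hQ : ∀ i ∈ s, Q i ≠ ⊥) :
    symbI p ζ a (∏ i ∈ s, Q i) = ∑ i ∈ s, symbI p ζ a (Q i) := by
  classical
  obtain ⟨hmul, -, htop, -⟩ := hI p E ζ a
  induction s using Finset.induction_on with
  | empty =>
    rw [Finset.prod_empty, Finset.sum_empty, Ideal.one_eq_top]
    exact htop
  | insert i s his ih =>
    rw [Finset.prod_insert his, Finset.sum_insert his]
    have h1 : Q i ≠ ⊥ := hQ i (Finset.mem_insert_self i s)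
    have h2 : ∏ j ∈ s, Q j ≠ ⊥ := by
      rw [← Ideal.zero_eq_bot, Finset.prod_ne_zero_iff]
      intro j hj
      rw [Ideal.zero_eq_bot]
      exact hQ j (Finset.mem_insert_of_mem hj)
    rw [hmul _ _ h1 h2, ih (fun j hj => hQ j (Finset.mem_insert_of_mem hj))]

/-- **(R10 + R11)** The final contradiction of Theorem R. -/
theorem rch_chain : M3Statement → JacobiStatement → SymbEquivStatement → SymbDegreeStatement →
    SymbSplitStatement → SymbIStatement → K3Statement → PrimesFinsetStatement →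
    ChainStatement := by
  intro hM3 hJac hEquiv hDeg hSplit hI hK3 hPF p _ hp3 K L _ _ _ _ _ ζ α B hR
  classical
  have hpprime : p.Prime := Fact.out
  have hodd : Odd p := hpprime.odd_of_ne_two (by omega)
  have := hR.cyc
  obtain ⟨hB0, hpB, hαB⟩ := hR.bad
  have hBK : (B : 𝓞 K) ≠ 0 := Nat.cast_ne_zero.mpr hB0
  -- a good prime which does not split completely
  obtain ⟨T, hT⟩ := hPF K (B : 𝓞 K) hBK
  obtain ⟨𝔮, h𝔮, h𝔮0, h𝔮T, hnsplit⟩ := hK3 K L (by rw [hR.deg]; omega) T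
  have hB𝔮 : (B : 𝓞 K) ∉ 𝔮 := fun h => h𝔮T (hT 𝔮 h𝔮 h)
  have hp_of_B : ∀ I : Ideal (𝓞 K), (B : 𝓞 K) ∉ I → (p : 𝓞 K) ∉ I := by
    intro I hBI hpI
    apply hBI
    obtain ⟨k, rfl⟩ := hpB
    rw [Nat.cast_mul]
    exact I.mul_mem_right _ hpI
  have hα_of_B : ∀ I : Ideal (𝓞 K), (B : 𝓞 K) ∉ I → α ∉ I := by
    intro I hBI hαI
    apply hBI
    obtain ⟨c, hc⟩ := hαB
    rw [hc]
    exact I.mul_mem_right _ hαI
  have hp𝔮 := hp_of_B 𝔮 hB𝔮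
  have hα𝔮 := hα_of_B 𝔮 hB𝔮
  -- its symbol is nonzero
  obtain ⟨θ, hθ, hθK⟩ := hR.gen
  have hd : symb p ζ α 𝔮 ≠ 0 := fun h0 =>
    hnsplit ((hSplit p K L ζ α hR.prim hR.deg θ hθ hθK 𝔮 h𝔮 h𝔮0 hp𝔮 hα𝔮).mp h0)
  -- hence it has degree one
  have hdeg1 : (Ideal.absNorm 𝔮).Prime :=
    hDeg p hp3 K ζ α hR.prim hR.equiv 𝔮 h𝔮 h𝔮0 hp𝔮 hα𝔮 hd
  -- the Jacobi element
  obtain ⟨J, Q, hQ, hJ⟩ := hJac p hp3 K ζ hR.prim 𝔮 h𝔮 hdeg1 hp𝔮
  have hQprop : ∀ a ∈ Finset.Icc 1 ((p - 1) / 2), (Q a).IsPrime ∧ Q a ≠ ⊥ ∧ (B : 𝓞 K) ∉ Q a ∧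
      symb p ζ α (Q a) = (a : ZMod p) * symb p ζ α 𝔮 := by
    intro a ha
    obtain ⟨σ, hσ, hpre⟩ := hQ a ha
    obtain ⟨hprime, hne⟩ := rch_preimage_isPrime σ 𝔮 (Q a) hpre h𝔮 h𝔮0
    have hBQ : (B : 𝓞 K) ∉ Q a := fun h => hB𝔮 ((rch_natCast_mem_preimage σ 𝔮 (Q a) hpre B).mp h)
    refine ⟨hprime, hne, hBQ, ?_⟩
    obtain ⟨γ, hγ0, hγ⟩ := hR.equiv σ a hσ
    have hpa : ¬ p ∣ a := by
      rw [Finset.mem_Icc] at ha
      exact Nat.not_dvd_of_pos_of_lt (by omega) (by omega)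
    exact hEquiv p hp3 K ζ α hR.prim σ a γ hσ hpa hγ0 hγ 𝔮 (Q a) h𝔮 h𝔮0 hpre hp𝔮 hα𝔮
      (hα_of_B (Q a) hBQ)
  -- `(J)` is prime to `B`
  have hcop : Ideal.span {J} ⊔ Ideal.span {(B : 𝓞 K)} = ⊤ := by
    by_contra hne
    obtain ⟨𝔪, h𝔪, hle⟩ := Ideal.exists_le_maximal _ hne
    have hJ𝔪 : Ideal.span {J} ≤ 𝔪 := le_sup_left.trans hle
    have hB𝔪 : (B : 𝓞 K) ∈ 𝔪 := hle (Ideal.mem_sup_right (Ideal.mem_span_singleton_self _))
    rw [hJ] at hJ𝔪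
    obtain ⟨a, ha, haQ⟩ := (Ideal.IsPrime.prod_le h𝔪.isPrime).mp hJ𝔪
    obtain ⟨hprime, hne', hBQ, -⟩ := hQprop a ha
    have hQmax : (Q a).IsMaximal := Ring.DimensionLEOne.maximalOfPrime hne' hprime
    have := hQmax.eq_of_le h𝔪.ne_top haQ
    exact hBQ (this ▸ hB𝔪)
  -- the symbol of `(J)` vanishes, but equals `(∑ a) * d`
  have h0 := hM3 p hp3 K L ζ α B hR J hcop
  rw [hJ, rch_symbI_prod hI p ζ α Q _ (fun a ha => (hQprop a ha).2.1)] at h0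
  have hsum : ∑ a ∈ Finset.Icc 1 ((p - 1) / 2), symbI p ζ α (Q a)
      = ((∑ a ∈ Finset.Icc 1 ((p - 1) / 2), a : ℕ) : ZMod p) * symb p ζ α 𝔮 := by
    rw [Nat.cast_sum, Finset.sum_mul]
    refine Finset.sum_congr rfl fun a ha => ?_
    obtain ⟨hprime, hne', -, hsymb⟩ := hQprop a ha
    rw [(hI p K ζ α).2.1 (Q a) hprime hne', hsymb]
  rw [hsum] at h0
  rcases mul_eq_zero.mp h0 with h1 | h1
  · exact rch_sum_ne_zero p hodd h1
  · exact hd h1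

end Fermat.Agent.S14
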