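/-
S14, block R, package CycloSplit (twin B): a rational prime `r ≡ 1 mod p` splits completely in
`K = ℚ(ζ_p)`: every prime of `K` above `r` has norm `r`, and `r` is a uniformiser there.

Both facts come from Mathlib's computation of inertia degree and ramification index of primes
not dividing the conductor in cyclotomic fields.
-/
import Fermat.Agent.S14.RInterfaces

set_option autoImplicit false

open NumberField

namespace Fermat.Agent.S14

/-- A prime ideal of `𝓞 K` containing the rational prime `r` lies over `(r)`. -/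
theorem rcsb_liesOver (K : Type) [Field K] [NumberField K] (r : ℕ) (hr : r.Prime)
    (𝔯 : Ideal (𝓞 K)) (h𝔯 : 𝔯.IsPrime) (hmem : (r : 𝓞 K) ∈ 𝔯) :
    𝔯.LiesOver (Ideal.span {(r : ℤ)}) := by
  constructor
  have hle : Ideal.span {(r : ℤ)} ≤ 𝔯.under ℤ := by
    rw [Ideal.span_singleton_le_iff_mem, Ideal.under_def, Ideal.mem_comap]
    simpa using hmem
  have hprime : Prime (r : ℤ) := Nat.prime_iff_prime_int.mp hr
  have hmax : (Ideal.span {(r : ℤ)}).IsMaximal :=
    PrincipalIdealRing.isMaximal_of_irreducible hprime.irreducible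
  have hne : 𝔯.under ℤ ≠ ⊤ := (Ideal.IsPrime.under ℤ 𝔯).ne_top
  exact hmax.eq_of_le hne hle

theorem rcsb_cycloSplit : CycloSplitStatement := by
  intro p _ _ K _ _ _ r hr hrp 𝔯 h𝔯 hmem
  have : Fact r.Prime := ⟨hr⟩
  have hlies : 𝔯.LiesOver (Ideal.span {(r : ℤ)}) := rcsb_liesOver K r hr 𝔯 h𝔯 hmem
  have hp : p.Prime := Fact.out
  have : NeZero p := ⟨hp.ne_zero⟩
  have hnot : ¬ r ∣ p := by
    intro hdvd
    rcases (Nat.dvd_prime hp).mp hdvd with h1 | h1
    · exact hr.one_lt.ne' h1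
    · rw [h1, Nat.mod_self] at hrp
      exact zero_ne_one hrp
  have hf : 𝔯.inertiaDeg ℤ = orderOf ((r : ℕ) : ZMod p) :=
    IsCyclotomicExtension.Rat.inertiaDeg_eq_of_not_dvd r K 𝔯 hnot
  have he : 𝔯.ramificationIdx ℤ = 1 :=
    IsCyclotomicExtension.Rat.ramificationIdx_eq_of_not_dvd r K 𝔯 hnot
  have hr1 : ((r : ℕ) : ZMod p) = 1 := by
    rw [← ZMod.natCast_mod, hrp, Nat.cast_one]
  have hr0 : Ideal.span {(r : ℤ)} ≠ ⊥ := by
    rw [Ne, Ideal.span_singleton_eq_bot]
    exact_mod_cast hr.ne_zero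
  constructor
  · rw [← Ideal.pow_inertiaDeg r 𝔯, hf, hr1, orderOf_one, pow_one]
  · intro h2
    have h1 : (Ideal.span {(r : ℤ)}).ramificationIdx' 𝔯 = 1 := by
      rw [Ideal.ramificationIdx'_eq_ramificationIdx _ _ hr0]
      exact he
    have hmap : (Ideal.span {(r : ℤ)}).map (algebraMap ℤ (𝓞 K)) = Ideal.span {(r : 𝓞 K)} := by
      rw [Ideal.map_span, Set.image_singleton]
      simp
    have hle : (Ideal.span {(r : ℤ)}).map (algebraMap ℤ (𝓞 K)) ≤ 𝔯 := by
      rw [hmap, Ideal.span_singleton_le_iff_mem]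
      exact hmem
    have h3 : (Ideal.span {(r : ℤ)}).map (algebraMap ℤ (𝓞 K)) ≤ 𝔯 ^ 2 := by
      rw [hmap, Ideal.span_singleton_le_iff_mem]
      exact h2
    exact (Ideal.ramificationIdx'_ne_one_iff hle).mpr h3 h1

end Fermat.Agent.S14
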