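/-
S14 / block R: trivial inertia groups imply unramified.
Deliverable: `riu_inertiaUnram : InertiaUnramStatement`.
-/
import Fermat.Agent.S14.RInterfaces

set_option autoImplicit false

open NumberField

namespace Fermat.Agent.S14

/-- Trivial inertia groups imply unramified (Galois extension of number fields). -/
theorem riu_inertiaUnram : InertiaUnramStatement := by
  intro K L _ _ _ _ _ _ hin 𝔔 h𝔔 h𝔔0
  rw [← Ideal.ramificationIdxIn_eq_ramificationIdx (𝔔.under (𝓞 K)) 𝔔 (L ≃ₐ[K] L),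
    ← Ideal.card_inertia_eq_ramificationIdxIn (G := L ≃ₐ[K] L) (𝔔.under (𝓞 K)) 𝔔]
  have hbot : 𝔔.inertia (L ≃ₐ[K] L) = ⊥ := by
    rw [eq_bot_iff]
    intro σ hσ
    apply Subgroup.mem_bot.mpr
    apply hin 𝔔 h𝔔 h𝔔0 σ
    intro x
    refine ⟨σ • x - x, hσ x, ?_⟩
    show algebraMap (𝓞 L) L (σ • x - x) = σ (algebraMap (𝓞 L) L x) - algebraMap (𝓞 L) L x
    rw [map_sub]
    rfl
  rw [hbot, Subgroup.card_bot]

end Fermat.Agent.S14
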