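/-
S14, block R — package `M3` (prefix `rm3_`).

`rm3_m3 : M2Statement → G1Statement → MovingLemmaStatement → M3Statement`:
principal ideals prime to `B` have trivial symbol.

Auxiliary lemmas:
* `rm3_natCast_isUnit`: a natural number which is a unit of `𝓞 K` equals `1`;
* `rm3_mem_of_coprime`: `g ^ m ∈ H`, `g ^ n ∈ H`, `m`, `n` coprime imply `g ∈ H`;
* `rm3_pow_mem_normClasses`: every `n`-th power of an ideal class is a norm class, `n = [L : K]`.
-/
import Fermat.Agent.S14.RInterfaces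

set_option autoImplicit false

open NumberField

namespace Fermat.Agent.S14

/-- A natural number which is a unit in the ring of integers of a number field is `1`. -/
theorem rm3_natCast_isUnit (K : Type) [Field K] [NumberField K] (n : ℕ)
    (h : IsUnit (n : 𝓞 K)) : n = 1 := by
  obtain ⟨u, hu⟩ := h.exists_right_inv
  -- `u = 1 / n` in `K`
  have hK : (n : K) * (u : K) = 1 := by
    have h1 := congrArg (algebraMap (𝓞 K) K) hu
    simpa using h1
  have hn0 : (n : ℚ) ≠ 0 := by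
    intro h0
    have h0' : n = 0 := by exact_mod_cast h0
    rw [h0'] at hK
    simp at hK
  have hu' : (u : K) = algebraMap ℚ K ((n : ℚ)⁻¹) := by
    have hn0K : (n : K) ≠ 0 := by
      intro h0
      rw [h0, zero_mul] at hK
      exact zero_ne_one hK
    rw [map_inv₀, map_natCast]
    exact eq_inv_of_mul_eq_one_right hK
  have hint : IsIntegral ℤ ((n : ℚ)⁻¹) := by
    have h1 : IsIntegral ℤ (u : K) := RingOfIntegers.isIntegral_coe u
    rw [hu'] at h1
    exact (isIntegral_algebraMap_iff (algebraMap ℚ K).injective).mp h1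
  obtain ⟨y, hy⟩ := IsIntegrallyClosed.isIntegral_iff.mp hint
  have h1 : (n : ℤ) * y = 1 := by
    have h2 : ((n : ℚ)) * (y : ℚ) = 1 := by
      have h3 : (algebraMap ℤ ℚ y) = (y : ℚ) := rfl
      rw [← h3, hy]
      exact mul_inv_cancel₀ hn0
    exact_mod_cast h2
  have h2 : IsUnit (n : ℤ) := IsUnit.of_mul_eq_one _ h1
  have h3 := Int.isUnit_iff.mp h2
  omega

/-- Bézout in a subgroup. -/
theorem rm3_mem_of_coprime {G : Type*} [Group G] (H : Subgroup G) (g : G) {m n : ℕ}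
    (hmn : Nat.Coprime m n) (hm : g ^ m ∈ H) (hn : g ^ n ∈ H) : g ∈ H := by
  have h := Nat.gcd_eq_gcd_ab m n
  rw [Nat.Coprime.gcd_eq_one hmn, Nat.cast_one] at h
  have hg : g = (g ^ m) ^ (Nat.gcdA m n) * (g ^ n) ^ (Nat.gcdB m n) := by
    rw [← zpow_natCast g m, ← zpow_natCast g n, ← zpow_mul, ← zpow_mul, ← zpow_add, ← h,
      zpow_one]
  rw [hg]
  exact H.mul_mem (H.zpow_mem hm _) (H.zpow_mem hn _)

/-- Every `[L : K]`-th power of an ideal class of `K` is a norm class from `L`. -/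
theorem rm3_pow_mem_normClasses (K L : Type) [Field K] [NumberField K] [Field L] [NumberField L]
    [Algebra K L] (c : ClassGroup (𝓞 K)) : c ^ Module.finrank K L ∈ normClasses K L := by
  obtain ⟨I, rfl⟩ := ClassGroup.mk0_surjective c
  have hfin : Module.finrank K L = Module.finrank (𝓞 K) (𝓞 L) :=
    IsFractionRing.finrank_eq (𝓞 K) K (𝓞 L) L
  have hnorm : Ideal.relNorm (𝓞 K) ((I : Ideal (𝓞 K)).map (algebraMap (𝓞 K) (𝓞 L)))
      = (I : Ideal (𝓞 K)) ^ Module.finrank K L := by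
    rw [hfin]
    exact Ideal.relNorm_algebraMap (𝓞 L) (I : Ideal (𝓞 K))
  have hmem : Ideal.relNorm (𝓞 K) ((I : Ideal (𝓞 K)).map (algebraMap (𝓞 K) (𝓞 L)))
      ∈ nonZeroDivisors (Ideal (𝓞 K)) := by
    rw [hnorm]
    exact pow_mem I.2 _
  apply Subgroup.subset_closure
  refine ⟨(I : Ideal (𝓞 K)).map (algebraMap (𝓞 K) (𝓞 L)), hmem, ?_⟩
  rw [← map_pow]
  congr 1
  exact Subtype.ext hnorm.symm

/-- (R9) Principal ideals prime to `B` have trivial symbol. -/
theorem rm3_m3 : M2Statement → G1Statement → MovingLemmaStatement → M3Statement := by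
  intro hM2 hG1 hMov p _ hp3 K L _ _ _ _ _ ζ α B hR β hβ
  have hp : p.Prime := Fact.out
  obtain ⟨κ, hκ⟩ := hM2 p hp3 K L ζ α B hR
  -- `B` is not a unit of `𝓞 K`
  have hB1 : B ≠ 1 := by
    intro h1
    have h2 := hR.bad.2.1
    rw [h1, Nat.dvd_one] at h2
    omega
  have hBunit : ¬ IsUnit (B : 𝓞 K) := fun h => hB1 (rm3_natCast_isUnit K B h)
  have hB0 : (B : 𝓞 K) ≠ 0 := by
    have := hR.bad.1
    exact_mod_cast this
  -- `β ≠ 0`
  have hβ0 : β ≠ 0 := by
    rintro rfl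
    apply hBunit
    rw [← Ideal.span_singleton_eq_top]
    simpa using hβ
  have hβmem : Ideal.span {β} ∈ nonZeroDivisors (Ideal (𝓞 K)) :=
    mem_nonZeroDivisors_of_ne_zero (by simpa using hβ0)
  by_contra hs
  -- `κ ^ (p - s) ∈ normClasses`
  have h1 := hκ (Ideal.span {β}) hβmem hβ
  have hone : ClassGroup.mk0 ⟨Ideal.span {β}, hβmem⟩ = 1 :=
    (ClassGroup.mk0_eq_one_iff hβmem).mpr ⟨β, rfl⟩
  rw [hone, one_mul] at h1
  -- `κ ^ p ∈ normClasses`
  have h2 : κ ^ p ∈ normClasses K L := by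
    have := rm3_pow_mem_normClasses K L κ
    rwa [hR.deg] at this
  -- hence `κ ∈ normClasses`
  have hκmem : κ ∈ normClasses K L := by
    have : NeZero p := ⟨hp.ne_zero⟩
    have hval0 : (symbI p ζ α (Ideal.span {β})).val ≠ 0 := by
      intro h0
      exact hs ((ZMod.val_eq_zero _).mp h0)
    have hvallt : (symbI p ζ α (Ideal.span {β})).val < p := ZMod.val_lt _
    have hcop : Nat.Coprime (p - (symbI p ζ α (Ideal.span {β})).val) p := by
      apply Nat.Coprime.symm
      rw [Nat.Prime.coprime_iff_not_dvd hp]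
      apply Nat.not_dvd_of_pos_of_lt <;> omega
    exact rm3_mem_of_coprime _ κ hcop h1 h2
  -- every class is a norm class
  have htop : normClasses K L = ⊤ := by
    rw [Subgroup.eq_top_iff']
    intro c
    obtain ⟨I, rfl⟩ := ClassGroup.mk0_surjective c
    have hI0 : (I : Ideal (𝓞 K)) ≠ ⊥ := mem_nonZeroDivisors_iff_ne_zero.mp I.2
    have hm0 : Ideal.span {(B : 𝓞 K)} ≠ ⊥ := by simpa using hB0
    obtain ⟨x, y, 𝔟, hx, hy, h𝔟, hxy⟩ := hMov K (I : Ideal (𝓞 K)) (Ideal.span {(B : 𝓞 K)}) hI0 hm0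
    have h𝔟0 : 𝔟 ≠ ⊥ := by
      rintro rfl
      rw [Ideal.mul_bot] at hxy
      have hx' : Ideal.span {x} ≠ ⊥ := by simpa using hx
      exact mul_ne_zero hx' hI0 hxy
    have h𝔟mem : 𝔟 ∈ nonZeroDivisors (Ideal (𝓞 K)) := mem_nonZeroDivisors_of_ne_zero h𝔟0
    have heq : ClassGroup.mk0 I = ClassGroup.mk0 ⟨𝔟, h𝔟mem⟩ :=
      ClassGroup.mk0_eq_mk0_iff.mpr ⟨x, y, hx, hy, hxy⟩
    rw [heq]
    have h3 := hκ 𝔟 h𝔟mem h𝔟
    exact (Subgroup.mul_mem_cancel_right _ (Subgroup.pow_mem _ hκmem _)).mp h3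
  -- contradiction with the first inequality
  have := hR.gal
  have hprim : IsPrimitiveRoot ((ζ : 𝓞 K) : K) p :=
    hR.prim.map_of_injective (f := algebraMap (𝓞 K) K) RingOfIntegers.coe_injective
  exact hG1 p hp3 K L (ζ : K) hprim hR.deg hR.unram htop

end Fermat.Agent.S14
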