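/-
S14, block R, package Setup (twin A; prefix `rsua_`): from the hypotheses of Theorem R to an
`RSetting` over `K = ℚ(ζ)`.
-/
import Fermat.Agent.S14.RInterfaces

set_option autoImplicit false

open NumberField IntermediateField

namespace Fermat.Agent.S14

/-- (b) `L/K` is unramified everywhere: the inertia groups are trivial by the two local
hypotheses of Theorem R. -/
theorem rsua_unram (hIU : InertiaUnramStatement) (p : ℕ)
    (L : Type) [Field L] [NumberField L] (ζ : L)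
    (hin : ∀ P : Ideal (𝓞 L), P.IsPrime → (p : 𝓞 L) ∉ P → ∀ σ : L ≃ₐ[ℚ] L,
      (∀ x : 𝓞 L, ∃ y ∈ P, (y : L) = σ x - x) → σ = 1)
    (hdec : ∀ P : Ideal (𝓞 L), P.IsPrime → (p : 𝓞 L) ∈ P → ∀ τ : L ≃ₐ[ℚ] L, τ ζ = ζ →
      (∀ x ∈ P, ∃ y ∈ P, (y : L) = τ x) → τ = 1)
    (K : Type) [Field K] [NumberField K] [Algebra K L] [IsGalois K L]
    (ζK : K) (hζK : algebraMap K L ζK = ζ) : UnramifiedEverywhere K L := by
  apply hIU K L
  intro P hP _ σ hσ
  have key : σ.restrictScalars ℚ = 1 := by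
    by_cases hpP : (p : 𝓞 L) ∈ P
    · apply hdec P hP hpP (σ.restrictScalars ℚ)
      · rw [← hζK]
        exact σ.commutes ζK
      · intro x hx
        obtain ⟨y, hy, hyx⟩ := hσ x
        refine ⟨x + y, P.add_mem hx hy, ?_⟩
        have h1 : ((x + y : 𝓞 L) : L) = (x : L) + (y : L) := rfl
        rw [h1, hyx]
        simp
    · exact hin P hP hpP (σ.restrictScalars ℚ) hσ
  ext x
  exact DFunLike.congr_fun key x

/-- (d) Equivariance: if `σ ζ = ζ ^ a` then `σ x ∈ x ^ (a ^ 2) · (Kˣ) ^ p` for a Kummer generator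
`y`, `y ^ p = x`, of `L/K`. -/
theorem rsua_equiv (hGal : KummerGaloisStatement) (p : ℕ) [Fact p.Prime]
    (L : Type) [Field L] [NumberField L] [IsGalois ℚ L] (ζ : L)
    (hconj : ∀ (σ τ : L ≃ₐ[ℚ] L) (a : ℕ), τ ζ = ζ → σ ζ = ζ ^ a → σ⁻¹ * τ * σ = τ ^ a)
    (K : Type) [Field K] [NumberField K] [Algebra K L]
    (ζK : K) (hζK : algebraMap K L ζK = ζ) (hprim : IsPrimitiveRoot ζK p)
    (hdeg : Module.finrank K L = p)
    (x : K) (y : L) (hy : y ^ p = algebraMap K L x) (hyK : y ∉ Set.range (algebraMap K L))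
    (σ : K ≃ₐ[ℚ] K) (a : ℕ) (hσ : σ ζK = ζK ^ a) :
    ∃ γ : K, γ ≠ 0 ∧ σ x = x ^ (a ^ 2) * γ ^ p := by
  have hp : p.Prime := Fact.out
  obtain ⟨hgal, τ₀, hτ₀y, hτ₀gen⟩ := hGal p K L ζK hprim hdeg x y hy hyK
  have hζ0 : ζ ≠ 0 := by
    rw [← hζK]
    exact (map_ne_zero (algebraMap K L)).mpr (hprim.ne_zero hp.ne_zero)
  have hy0 : y ≠ 0 := by
    rintro rfl
    exact hyK ⟨0, map_zero _⟩
  have hσt : ∀ k : K, σ.liftNormal L (algebraMap K L k) = algebraMap K L (σ k) :=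
    fun k => σ.liftNormal_commutes L k
  have hτζ : τ₀.restrictScalars ℚ ζ = ζ := by
    rw [← hζK]
    exact τ₀.commutes ζK
  have hτy : τ₀.restrictScalars ℚ y = ζ * y := by
    rw [← hζK]
    exact hτ₀y
  have hσtζ : σ.liftNormal L ζ = ζ ^ a := by
    rw [← hζK, hσt, hσ, map_pow]
  have hc := hconj (σ.liftNormal L) (τ₀.restrictScalars ℚ) a hτζ hσtζ
  have hc' : τ₀.restrictScalars ℚ * σ.liftNormal L =
      σ.liftNormal L * (τ₀.restrictScalars ℚ) ^ a := by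
    rw [← hc]
    group
  have hτpow : ∀ k : ℕ, ((τ₀.restrictScalars ℚ) ^ k) y = ζ ^ k * y := by
    intro k
    induction k with
    | zero => simp
    | succ k ih =>
      rw [pow_succ', AlgEquiv.mul_apply, ih, map_mul, map_pow, hτζ, hτy]
      ring
  have h1 : τ₀.restrictScalars ℚ (σ.liftNormal L y) = (ζ ^ a) ^ a * σ.liftNormal L y := by
    rw [← AlgEquiv.mul_apply, hc', AlgEquiv.mul_apply, hτpow, map_mul, map_pow, hσtζ]
  have hσy0 : σ.liftNormal L y ≠ 0 := (map_ne_zero _).mpr hy0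
  have hfix : τ₀ (σ.liftNormal L y / y ^ (a ^ 2)) = σ.liftNormal L y / y ^ (a ^ 2) := by
    have h2 : τ₀ (σ.liftNormal L y) = (ζ ^ a) ^ a * σ.liftNormal L y := h1
    have h3 : τ₀ y = ζ * y := hτy
    rw [map_div₀, map_pow, h2, h3, mul_pow, ← pow_mul, ← sq]
    field_simp
  have hfixall : ∀ f : L ≃ₐ[K] L, f (σ.liftNormal L y / y ^ (a ^ 2)) =
      σ.liftNormal L y / y ^ (a ^ 2) := by
    intro f
    obtain ⟨i, rfl⟩ := hτ₀gen f
    induction i with
    | zero => simp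
    | succ i ih => rw [pow_succ', AlgEquiv.mul_apply, ih, hfix]
  obtain ⟨γ, hγ⟩ := (IsGalois.mem_range_algebraMap_iff_fixed (F := K) (E := L) _).mpr hfixall
  refine ⟨γ, ?_, ?_⟩
  · rintro rfl
    rw [map_zero] at hγ
    exact (div_ne_zero hσy0 (pow_ne_zero _ hy0)) hγ.symm
  · apply (algebraMap K L).injective
    rw [← hσt, ← hy, map_pow, map_mul, map_pow, map_pow, hγ, ← hy, div_pow, ← pow_mul, ← pow_mul,
      mul_comm p (a ^ 2), mul_div_cancel₀]
    exact pow_ne_zero _ hy0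

/-- (c) The bad number `B = p · N(α)`. -/
theorem rsua_bad (p : ℕ) (hp : p ≠ 0) (K : Type) [Field K] [NumberField K] (α : 𝓞 K)
    (hα : α ≠ 0) :
    p * Ideal.absNorm (Ideal.span {α}) ≠ 0 ∧ p ∣ p * Ideal.absNorm (Ideal.span {α}) ∧
      α ∣ ((p * Ideal.absNorm (Ideal.span {α}) : ℕ) : 𝓞 K) := by
  refine ⟨mul_ne_zero hp ?_, dvd_mul_right _ _, ?_⟩
  · rw [Ne, Ideal.absNorm_eq_zero_iff, Ideal.span_singleton_eq_bot]
    exact hα
  · rw [Nat.cast_mul]
    exact Dvd.dvd.mul_left (Ideal.mem_span_singleton.mp (Ideal.absNorm_mem _)) _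

/-- The setup over an arbitrary model `K` of `ℚ(ζ)` inside `L`. -/
theorem rsua_core (hGen : KummerGenStatement) (hGal : KummerGaloisStatement)
    (hIU : InertiaUnramStatement) (p : ℕ) [Fact p.Prime]
    (L : Type) [Field L] [NumberField L] [IsGalois ℚ L] (ζ : L) (hζ : IsPrimitiveRoot ζ p)
    (hdeg : Module.finrank ℚ L = p * (p - 1))
    (hconj : ∀ (σ τ : L ≃ₐ[ℚ] L) (a : ℕ), τ ζ = ζ → σ ζ = ζ ^ a → σ⁻¹ * τ * σ = τ ^ a)
    (hin : ∀ P : Ideal (𝓞 L), P.IsPrime → (p : 𝓞 L) ∉ P → ∀ σ : L ≃ₐ[ℚ] L,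
      (∀ x : 𝓞 L, ∃ y ∈ P, (y : L) = σ x - x) → σ = 1)
    (hdec : ∀ P : Ideal (𝓞 L), P.IsPrime → (p : 𝓞 L) ∈ P → ∀ τ : L ≃ₐ[ℚ] L, τ ζ = ζ →
      (∀ x ∈ P, ∃ y ∈ P, (y : L) = τ x) → τ = 1)
    (K : Type) [Field K] [NumberField K] [Algebra K L] [IsCyclotomicExtension {p} ℚ K]
    (ζK : K) (hζK : algebraMap K L ζK = ζ) :
    ∃ (ζ' α : 𝓞 K) (B : ℕ), RSetting p K L ζ' α B := by
  have hp : p.Prime := Fact.out
  have : NeZero p := ⟨hp.ne_zero⟩
  have hprim : IsPrimitiveRoot ζK p :=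
    IsPrimitiveRoot.of_map_of_injective (f := algebraMap K L) (by rw [hζK]; exact hζ)
      (algebraMap K L).injective
  have hKdeg : Module.finrank ℚ K = p - 1 := by
    rw [IsCyclotomicExtension.Rat.finrank p K, Nat.totient_prime hp]
  have hLK : Module.finrank K L = p := by
    have h := Module.finrank_mul_finrank ℚ K L
    rw [hKdeg, hdeg] at h
    have hpos : 0 < p - 1 := by
      have := hp.two_le
      omega
    exact Nat.eq_of_mul_eq_mul_left hpos (by rw [h, mul_comm])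
  have : IsGalois K L := IsGalois.tower_top_of_isGalois ℚ K L
  obtain ⟨x₀, y, hx₀, hy, hyK⟩ := hGen p K L ζK hprim hLK
  refine ⟨hprim.toInteger, x₀, p * Ideal.absNorm (Ideal.span {x₀}), ?_⟩
  exact
    { cyc := inferInstance
      prim := hprim.toInteger_isPrimitiveRoot
      deg := hLK
      gal := inferInstance
      gen := ⟨y, hy, hyK⟩
      unram := rsua_unram hIU p L ζ hin hdec K ζK hζK
      bad := rsua_bad p hp.ne_zero K x₀ hx₀
      equiv := fun σ a hσ =>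
        rsua_equiv hGal p L ζ hconj K ζK hζK hprim hLK (x₀ : K) y hy hyK σ a hσ }

/-- (R0 + R1) From the hypotheses of Theorem R to an `RSetting`. -/
theorem rsua_setup :
    KummerGenStatement → KummerGaloisStatement → InertiaUnramStatement → SetupStatement := by
  intro hGen hGal hIU p _ _ L _ _ _ ζ hζ hdeg hconj hin hdec
  have : NeZero p := ⟨(Fact.out : p.Prime).ne_zero⟩
  have : IsCyclotomicExtension {p} ℚ ↥ℚ⟮ζ⟯ :=
    hζ.intermediateField_adjoin_isCyclotomicExtension ℚ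
  obtain ⟨ζ', α, B, h⟩ := rsua_core hGen hGal hIU p L ζ hζ hdeg hconj hin hdec ↥ℚ⟮ζ⟯
    (IntermediateField.AdjoinSimple.gen ℚ ζ) (IntermediateField.AdjoinSimple.algebraMap_gen ℚ ζ)
  exact ⟨↥ℚ⟮ζ⟯, inferInstance, inferInstance, inferInstance, ζ', α, B, h⟩

end Fermat.Agent.S14
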