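/-
S14, block R, package SymbDegree: a good prime of `K = ℚ(ζ_p)` with nonzero symbol has degree one.
-/
import Fermat.Agent.S14.RInterfaces

set_option autoImplicit false

open NumberField

namespace Fermat.Agent.S14

/-- The action of `Gal(K/ℚ)` on `𝓞 K` is the restriction of the action on `K`. -/
theorem rsd_coe_smul {K : Type} [Field K] [NumberField K] (σ : K ≃ₐ[ℚ] K) (x : 𝓞 K) :
    ((σ • x : 𝓞 K) : K) = σ (x : K) :=
  algebraMap.smul' σ x K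

/-- Existence of a Frobenius element at a nonzero prime `𝔮` of a Galois number field `K/ℚ`:
`σ x ≡ x ^ q mod 𝔮` where `q` is the rational prime below `𝔮`; moreover `σ⁻¹(𝔮) = 𝔮`. -/
theorem rsd_exists_frob (K : Type) [Field K] [NumberField K] [IsGalois ℚ K]
    (𝔮 : Ideal (𝓞 K)) (h𝔮 : 𝔮.IsPrime) (h𝔮0 : 𝔮 ≠ ⊥) :
    ∃ (q : ℕ) (σ : K ≃ₐ[ℚ] K), q.Prime ∧ (q : 𝓞 K) ∈ 𝔮 ∧ IsPreimagePrime σ 𝔮 𝔮 ∧
      (∀ x : 𝓞 K, σ • x - x ^ q ∈ 𝔮) ∧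
      ∀ (ζ : 𝓞 K) (m : ℕ), ζ ^ m = 1 → (m : 𝓞 K) ∉ 𝔮 → σ (ζ : K) = (ζ : K) ^ q := by
  have := h𝔮
  have : NeZero 𝔮 := ⟨h𝔮0⟩
  have : Finite (𝓞 K ⧸ 𝔮) := Ideal.finiteQuotientOfFreeOfNeBot 𝔮 h𝔮0
  have hcard : Nat.card (ℤ ⧸ 𝔮.under ℤ) = Ideal.absNorm (𝔮.under ℤ) := by
    rw [Ideal.absNorm_apply, Submodule.cardQuot_apply]
  obtain ⟨σ, hσ⟩ := IsArithFrobAt.exists_of_isInvariant ℤ (K ≃ₐ[ℚ] K) 𝔮
  refine ⟨Ideal.absNorm (𝔮.under ℤ), σ, Nat.absNorm_under_prime 𝔮, Int.absNorm_under_mem 𝔮,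
    ?_, ?_, ?_⟩
  · intro x
    have hcomap : 𝔮.comap (MulSemiringAction.toAlgHom ℤ (𝓞 K) σ) = 𝔮 := hσ.comap_eq
    constructor
    · intro hx
      refine ⟨σ • x, ?_, rsd_coe_smul σ x⟩
      rw [← hcomap] at hx
      exact hx
    · rintro ⟨y, hy, hyx⟩
      have hyeq : y = σ • x := RingOfIntegers.ext (hyx.trans (rsd_coe_smul σ x).symm)
      rw [← hcomap]
      show σ • x ∈ 𝔮
      rw [← hyeq]
      exact hy
  · intro x
    have := hσ x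
    rw [hcard] at this
    exact this
  · intro ζ m hζ hm
    have h1 := hσ.apply_of_pow_eq_one hζ hm
    rw [hcard] at h1
    have h2 : σ • ζ = ζ ^ Ideal.absNorm (𝔮.under ℤ) := h1
    have h3 := congrArg (fun z : 𝓞 K => (z : K)) h2
    simp only [rsd_coe_smul, map_pow] at h3
    exact h3

/-- (S5) A good prime of `K` with nonzero symbol has degree one. -/
theorem rsd_symbDegree :
    SymbSpecStatement → SymbEquivStatement → CycloSplitStatement → SymbDegreeStatement := by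
  intro _ hEquiv hSplit p hp hp3 K _ _ hcyc ζ α hζ hα 𝔮 h𝔮 h𝔮0 hp𝔮 hα𝔮 hs
  have hpp : p.Prime := hp.out
  have : IsGalois ℚ K := IsCyclotomicExtension.isGalois {p} ℚ K
  obtain ⟨q, σ, hq, hqmem, hpre, -, hroot⟩ := rsd_exists_frob K 𝔮 h𝔮 h𝔮0
  have hσζ : σ (ζ : K) = (ζ : K) ^ q := hroot ζ p hζ.pow_eq_one hp𝔮
  have hpq : ¬ p ∣ q := by
    intro hdvd
    have hpq' : p = q := (Nat.prime_dvd_prime_iff_eq hpp hq).mp hdvd
    exact hp𝔮 (hpq' ▸ hqmem)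
  obtain ⟨γ, hγ, hσα⟩ := hα σ q hσζ
  have key : symb p ζ α 𝔮 = (q : ZMod p) * symb p ζ α 𝔮 :=
    hEquiv p hp3 K ζ α hζ σ q γ hσζ hpq hγ hσα 𝔮 𝔮 h𝔮 h𝔮0 hpre hp𝔮 hα𝔮 hα𝔮
  have hq1 : (q : ZMod p) = 1 := by
    have h0 : ((q : ZMod p) - 1) * symb p ζ α 𝔮 = 0 := by
      rw [sub_mul, one_mul, ← key, sub_self]
    rcases mul_eq_zero.mp h0 with h | h
    · exact sub_eq_zero.mp h
    · exact absurd h hs
  have hqmod : q % p = 1 := by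
    have h1 : ((q : ℕ) : ZMod p) = ((1 : ℕ) : ZMod p) := by rw [hq1, Nat.cast_one]
    have h2 := (ZMod.natCast_eq_natCast_iff' q 1 p).mp h1
    rw [h2]
    exact Nat.one_mod_eq_one.mpr (by omega)
  rw [(hSplit p hp3 K q hq hqmod 𝔮 h𝔮 hqmem).1]
  exact hq

end Fermat.Agent.S14
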