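/-
S14, block R, package SymbEquiv: Galois equivariance of the power residue symbol of `α` when
`σ(α) = α^(a²)·γ^p` and `σ ζ = ζ^a`:  `s(σ⁻¹𝔮) = a · s(𝔮)`.
-/
import Fermat.Agent.S14.RInterfaces

set_option autoImplicit false

open NumberField

namespace Fermat.Agent.S14

/-- Fermat's little theorem in the residue field of a nonzero prime of a number field. -/
theorem rse_pow_absNorm_sub_one {K : Type} [Field K] [NumberField K] (𝔮 : Ideal (𝓞 K))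
    (h𝔮 : 𝔮.IsPrime) (h𝔮0 : 𝔮 ≠ ⊥) (x : 𝓞 K) (hx : x ∉ 𝔮) :
    Ideal.Quotient.mk 𝔮 x ^ (Ideal.absNorm 𝔮 - 1) = 1 := by
  have hmax : 𝔮.IsMaximal := h𝔮.isMaximal h𝔮0
  let _ : Field (𝓞 K ⧸ 𝔮) := Ideal.Quotient.field 𝔮
  have hfin : Finite (𝓞 K ⧸ 𝔮) := Ideal.finiteQuotientOfFreeOfNeBot 𝔮 h𝔮0
  let _ : Fintype (𝓞 K ⧸ 𝔮) := Fintype.ofFinite _
  have hcard : Ideal.absNorm 𝔮 = Fintype.card (𝓞 K ⧸ 𝔮) := by
    rw [Ideal.absNorm_apply, Submodule.cardQuot_apply, Nat.card_eq_fintype_card]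
  rw [hcard]
  refine FiniteField.pow_card_sub_one_eq_one _ ?_
  rwa [Ne, Ideal.Quotient.eq_zero_iff_mem]

/-- An element of `K` whose `p`-th power is a quotient of two elements of `𝓞 K` outside the prime
`𝔮` is itself such a quotient. -/
theorem rse_exists_unit_frac {K : Type} [Field K] [NumberField K] (𝔮 : Ideal (𝓞 K))
    (h𝔮 : 𝔮.IsPrime) (h𝔮0 : 𝔮 ≠ ⊥) (p : ℕ) (hp : p ≠ 0) (γ : K) (x y : 𝓞 K) (hx : x ∉ 𝔮)
    (hy : y ∉ 𝔮) (hγ : (x : K) = (y : K) * γ ^ p) :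
    ∃ u v : 𝓞 K, u ∉ 𝔮 ∧ v ∉ 𝔮 ∧ γ * (v : K) = (u : K) := by
  let w : IsDedekindDomain.HeightOneSpectrum (𝓞 K) := ⟨𝔮, h𝔮, h𝔮0⟩
  have hwx : w.valuation K (algebraMap (𝓞 K) K x) = 1 :=
    (IsDedekindDomain.HeightOneSpectrum.valuation_eq_one_iff_notMem w).mpr hx
  have hwy : w.valuation K (algebraMap (𝓞 K) K y) = 1 :=
    (IsDedekindDomain.HeightOneSpectrum.valuation_eq_one_iff_notMem w).mpr hy
  have hpow : w.valuation K γ ^ p = 1 := by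
    have h := congrArg (w.valuation K) hγ
    rw [map_mul, map_pow] at h
    have hx' : w.valuation K (x : K) = 1 := hwx
    have hy' : w.valuation K (y : K) = 1 := hwy
    rw [hx', hy', one_mul] at h
    exact h.symm
  have hγ1 : w.valuation K γ = 1 := by
    rcases lt_trichotomy (w.valuation K γ) 1 with h | h | h
    · exact absurd hpow (ne_of_lt (pow_lt_one₀ zero_le h hp))
    · exact h
    · exact absurd hpow (ne_of_gt (one_lt_pow₀ h hp))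
  obtain ⟨n, d, hnd⟩ := w.exists_primeCompl_mul_eq_of_integer γ (le_of_eq hγ1)
  have hd : (d : 𝓞 K) ∉ 𝔮 := d.2
  refine ⟨n, d, ?_, hd, hnd⟩
  have hwd : w.valuation K (algebraMap (𝓞 K) K d) = 1 :=
    (IsDedekindDomain.HeightOneSpectrum.valuation_eq_one_iff_notMem w).mpr hd
  have hwn : w.valuation K (algebraMap (𝓞 K) K n) = 1 := by
    rw [← hnd, map_mul, hγ1, hwd, one_mul]
  exact (IsDedekindDomain.HeightOneSpectrum.valuation_eq_one_iff_notMem w).mp hwn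

/-- (S3) Galois equivariance of the symbol. -/
theorem rse_symbEquiv : SymbSpecStatement → SymbEquivStatement := by
  intro hSS p _ hp3 K _ _ ζ α hζ σ a γ hσζ hpa hγ hσα 𝔮 𝔮' h𝔮 h𝔮0 hpre hp𝔮 hα𝔮 hα𝔮'
  have hp0 : p ≠ 0 := by omega
  have := h𝔮
  -- the automorphism of `𝓞 K` induced by `σ`
  let σO : 𝓞 K ≃+* 𝓞 K := RingOfIntegers.mapRingEquiv σ.toRingEquiv
  have hσO_coe : ∀ x : 𝓞 K, ((σO x : 𝓞 K) : K) = σ (x : K) := fun x => rfl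
  -- `𝔮' = σ⁻¹(𝔮)`
  have hmem : ∀ x : 𝓞 K, x ∈ 𝔮' ↔ σO x ∈ 𝔮 := by
    intro x
    rw [hpre x]
    constructor
    · rintro ⟨y, hy, hyx⟩
      have hyσ : y = σO x := RingOfIntegers.ext (hyx.trans (hσO_coe x).symm)
      rw [← hyσ]
      exact hy
    · intro h
      exact ⟨σO x, h, rfl⟩
  have h𝔮' : 𝔮' = 𝔮.comap (σO : 𝓞 K →+* 𝓞 K) := by
    ext x
    rw [hmem x, Ideal.mem_comap]
    rfl
  have h𝔮'prime : 𝔮'.IsPrime := by
    rw [h𝔮']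
    exact Ideal.comap_isPrime _ 𝔮
  have h𝔮'0 : 𝔮' ≠ ⊥ := by
    obtain ⟨y, hy, hy0⟩ := Submodule.exists_mem_ne_zero_of_ne_bot h𝔮0
    intro hbot
    have hx : σO.symm y ∈ 𝔮' := by
      rw [hmem, RingEquiv.apply_symm_apply]
      exact hy
    rw [hbot, Ideal.mem_bot] at hx
    apply hy0
    have h := congrArg σO hx
    rwa [RingEquiv.apply_symm_apply, map_zero] at h
  have hp𝔮' : (p : 𝓞 K) ∉ 𝔮' := by
    rw [hmem, map_natCast]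
    exact hp𝔮
  have hN : Ideal.absNorm 𝔮' = Ideal.absNorm 𝔮 := by
    have hmap : 𝔮 = 𝔮'.map (σO : 𝓞 K →+* 𝓞 K) := by
      rw [h𝔮']
      exact (Ideal.map_comap_of_surjective _ σO.surjective 𝔮).symm
    rw [Ideal.absNorm_apply, Ideal.absNorm_apply, Submodule.cardQuot_apply,
      Submodule.cardQuot_apply]
    exact Nat.card_congr (Ideal.quotientEquiv 𝔮' 𝔮 σO hmap).toEquiv
  -- `σ(α)` and `σ(ζ)` in `𝓞 K`
  have hσα𝔮 : σO α ∉ 𝔮 := fun h => hα𝔮' ((hmem α).mpr h)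
  have hσOζ : σO ζ = ζ ^ a := by
    apply RingOfIntegers.ext
    rw [hσO_coe, hσζ]
    simp
  have hαa𝔮 : α ^ (a ^ 2) ∉ 𝔮 := fun h => hα𝔮 (h𝔮.mem_of_pow_mem _ h)
  -- write `γ = u / v` with `u, v ∉ 𝔮`
  obtain ⟨u, v, hu, hv, huv⟩ := rse_exists_unit_frac 𝔮 h𝔮 h𝔮0 p hp0 γ (σO α) (α ^ (a ^ 2))
    hσα𝔮 hαa𝔮 (by rw [hσO_coe, hσα]; simp)
  have hrel : σO α * v ^ p = α ^ (a ^ 2) * u ^ p := by
    apply RingOfIntegers.ext
    have h1 : ((σO α * v ^ p : 𝓞 K) : K) = σ (α : K) * (v : K) ^ p := by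
      simp only [map_mul, map_pow]
      rfl
    have h2 : ((α ^ (a ^ 2) * u ^ p : 𝓞 K) : K) = (α : K) ^ (a ^ 2) * (u : K) ^ p := by
      simp only [map_mul, map_pow]
    rw [h1, h2, hσα, ← huv, mul_pow]
    ring
  -- the symbols
  obtain ⟨hdvd, hspec⟩ := hSS p K ζ hζ 𝔮 h𝔮 h𝔮0 hp𝔮
  obtain ⟨-, hspec'⟩ := hSS p K ζ hζ 𝔮' h𝔮'prime h𝔮'0 hp𝔮'
  have hpm : p * ((Ideal.absNorm 𝔮 - 1) / p) = Ideal.absNorm 𝔮 - 1 := Nat.mul_div_cancel' hdvd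
  -- congruences in the residue field
  have e_s : Ideal.Quotient.mk 𝔮 α ^ ((Ideal.absNorm 𝔮 - 1) / p)
      = Ideal.Quotient.mk 𝔮 ζ ^ (symb p ζ α 𝔮).val := by
    have h := (hspec α hα𝔮).1
    rw [← Ideal.Quotient.eq, map_pow, map_pow] at h
    exact h
  have e_s' : Ideal.Quotient.mk 𝔮 (σO α) ^ ((Ideal.absNorm 𝔮 - 1) / p)
      = Ideal.Quotient.mk 𝔮 ζ ^ (a * (symb p ζ α 𝔮').val) := by
    have h := (hspec' α hα𝔮').1
    rw [hN, hmem, map_sub, map_pow, map_pow, hσOζ, ← pow_mul, ← Ideal.Quotient.eq, map_pow,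
      map_pow] at h
    exact h
  have e_u := rse_pow_absNorm_sub_one 𝔮 h𝔮 h𝔮0 u hu
  have e_v := rse_pow_absNorm_sub_one 𝔮 h𝔮 h𝔮0 v hv
  have e_rel : Ideal.Quotient.mk 𝔮 (σO α) ^ ((Ideal.absNorm 𝔮 - 1) / p)
      = Ideal.Quotient.mk 𝔮 (α ^ (a ^ 2)) ^ ((Ideal.absNorm 𝔮 - 1) / p) := by
    have h := congrArg (fun t => Ideal.Quotient.mk 𝔮 t ^ ((Ideal.absNorm 𝔮 - 1) / p)) hrel
    simp only [map_mul, map_pow, mul_pow, ← pow_mul, hpm] at h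
    rw [e_v, mul_one] at h
    rw [h, map_pow, ← pow_mul, e_u, mul_one]
  -- two computations of the symbol of `α ^ (a ^ 2)` at `𝔮`
  have h1 : symb p ζ (α ^ (a ^ 2)) 𝔮 = ((a * (symb p ζ α 𝔮').val : ℕ) : ZMod p) := by
    refine (hspec _ hαa𝔮).2.1 _ ?_
    rw [← Ideal.Quotient.eq, map_pow, ← e_rel, e_s', map_pow]
  have h2 : symb p ζ (α ^ (a ^ 2)) 𝔮 = (((symb p ζ α 𝔮).val * a ^ 2 : ℕ) : ZMod p) := by
    refine (hspec _ hαa𝔮).2.1 _ ?_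
    rw [← Ideal.Quotient.eq, map_pow, map_pow, map_pow, ← pow_mul, mul_comm (a ^ 2), pow_mul, e_s,
      ← pow_mul]
  have h3 : (a : ZMod p) * symb p ζ α 𝔮' = (a : ZMod p) * ((a : ZMod p) * symb p ζ α 𝔮) := by
    have h := h1.symm.trans h2
    push_cast at h
    rw [ZMod.natCast_zmod_val, ZMod.natCast_zmod_val] at h
    rw [h]
    ring
  have ha0 : (a : ZMod p) ≠ 0 := by
    rw [Ne, ZMod.natCast_eq_zero_iff]
    exact hpa
  exact mul_left_cancel₀ ha0 h3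

end Fermat.Agent.S14
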