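/-
S14, block R: Theorem R from the four remaining sub-block statements (Jacobi, Lang) and G1, K3.
-/
import Fermat.Agent.S14.RInterfaces
import Fermat.Agent.S14.BKummerGal
import Fermat.Agent.S14.BKummerSplitB
import Fermat.Agent.S14.BMoving
import Fermat.Agent.S14.RSymbSpec
import Fermat.Agent.S14.RSymbI
import Fermat.Agent.S14.RSymbSplit
import Fermat.Agent.S14.RSymbEquiv
import Fermat.Agent.S14.RSymbDegree
import Fermat.Agent.S14.RCycloSplitB
import Fermat.Agent.S14.RInertiaUnram
import Fermat.Agent.S14.RSetupA
import Fermat.Agent.S14.RM2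
import Fermat.Agent.S14.RM3
import Fermat.Agent.S14.RChain

set_option autoImplicit false

open NumberField

namespace Fermat.Agent.S14

theorem rmain_theoremR_of (hsetup : SetupStatement) (hchain : ChainStatement) :
    TheoremRStatement := by
  intro p _ h3 L _ _ _ ζ hζ hdeg hconj hin hdec
  obtain ⟨K, iF, iNF, iA, ζ', α, B, hS⟩ := hsetup p h3 L ζ hζ hdeg hconj hin hdec
  exact hchain p h3 K L ζ' α B hS

theorem rmain_theoremR (hJ : JacobiStatement) (hL : LangStatement) (hG1 : G1Statement)
    (hK3 : K3Statement) : TheoremRStatement := by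
  have hSpec : SymbSpecStatement := rss_symbSpec
  have hI : SymbIStatement := rsi_symbI
  have hKS : KummerSplitStatement := bksb_kummerSplit bkg_kummerGalois
  have hSplit : SymbSplitStatement := rsp_symbSplit hSpec hKS
  have hEq : SymbEquivStatement := rse_symbEquiv hSpec
  have hDeg : SymbDegreeStatement := rsd_symbDegree hSpec hEq rcsb_cycloSplit
  have hM2 : M2Statement := rm2_m2 hSpec hI hSplit hDeg hL
  have hM3 : M3Statement := rm3_m3 hM2 hG1 bml_movingLemma
  have hChain : ChainStatement := rch_chain hM3 hJ hEq hDeg hSplit hI hK3 rsi_primesFinset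
  have hSetup : SetupStatement := rsua_setup bkg_kummerGen bkg_kummerGalois riu_inertiaUnram
  exact rmain_theoremR_of hSetup hChain

end Fermat.Agent.S14
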