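/-
S14 / basics package KummerRam (twin B): a prime `𝔮` of `F` with `p ∤ v_𝔮(x₀)` is totally
ramified in `N = F(x₀^{1/p})` (degree `p`).
-/
import Fermat.Agent.S14.Interfaces

set_option autoImplicit false

open NumberField IsDedekindDomain

namespace Fermat.Agent.S14

/-- A nonzero element of `ℤᵐ⁰` lying between `exp (-(n+1))` (strictly above) and `exp (-n)`
equals `exp (-n)`. -/
theorem bkrb_eq_exp_of_le_of_not_le {a : WithZero (Multiplicative ℤ)} {n : ℕ}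
    (h1 : a ≤ WithZero.exp (-(n : ℤ))) (h2 : ¬ a ≤ WithZero.exp (-((n + 1 : ℕ) : ℤ))) :
    a = WithZero.exp (-(n : ℤ)) := by
  have ha : a ≠ 0 := by
    rintro rfl
    exact h2 zero_le
  rw [← WithZero.exp_log ha] at h1 h2 ⊢
  rw [WithZero.exp_le_exp] at h1 h2
  rw [WithZero.exp_inj]
  push_cast at h2
  omega

/-- The valuation identity behind total ramification: if `x ∈ 𝔮 ^ n ∖ 𝔮 ^ (n + 1)` becomes a
`p`-th power in `B`, then `p ∣ e * n` for the ramification index `e` of any prime above `𝔮`. -/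
theorem bkrb_dvd_ramificationIdx_mul {A B : Type*} [CommRing A] [IsDedekindDomain A] [CommRing B]
    [IsDedekindDomain B] [Algebra A B] [Module.IsTorsionFree A B]
    (v : HeightOneSpectrum A) (w : HeightOneSpectrum B) [w.asIdeal.LiesOver v.asIdeal]
    (p n : ℕ) (hp : 0 < p) (x : A) (y : B) (hy : y ^ p = algebraMap A B x)
    (hn1 : x ∈ v.asIdeal ^ n) (hn2 : x ∉ v.asIdeal ^ (n + 1)) :
    p ∣ v.asIdeal.ramificationIdx' w.asIdeal * n := by
  have hvx : v.intValuation x = WithZero.exp (-(n : ℤ)) :=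
    bkrb_eq_exp_of_le_of_not_le ((v.intValuation_le_pow_iff_mem x n).mpr hn1)
      (fun h => hn2 ((v.intValuation_le_pow_iff_mem x (n + 1)).mp h))
  have hx0 : x ≠ 0 := by
    rintro rfl
    exact hn2 (zero_mem _)
  have hy0 : y ≠ 0 := by
    rintro rfl
    have hinj : Function.Injective (algebraMap A B) := FaithfulSMul.algebraMap_injective A B
    rw [zero_pow hp.ne'] at hy
    exact hx0 (hinj (by rw [← hy, map_zero]))
  have hwy : w.intValuation y ≠ 0 := w.intValuation_ne_zero y hy0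
  have h1 := HeightOneSpectrum.intValuation_liesOver v w x
  rw [← hy, map_pow, hvx, ← WithZero.exp_log hwy, ← WithZero.exp_nsmul, ← WithZero.exp_nsmul,
    WithZero.exp_inj] at h1
  simp only [nsmul_eq_mul, mul_neg] at h1
  have h2 : ((v.asIdeal.ramificationIdx' w.asIdeal * n : ℕ) : ℤ)
      = (p : ℤ) * (- WithZero.log (w.intValuation y)) := by
    push_cast
    linarith
  exact Int.natCast_dvd_natCast.mp ⟨_, h2⟩

/-- **Kummer, ramified case**: `p ∤ v_𝔮(x₀)` implies that every prime above `𝔮` has ramification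
index `p` in `N = F(x₀^{1/p})`. -/
theorem bkrb_kummerRam : KummerRamStatement := by
  intro p hp F N _ _ _ _ _ ζ _ hfin x₀ y hy _ 𝔮 h𝔮 h𝔮0 hord 𝔔 h𝔔
  obtain ⟨n, hn1, hn2, hn3⟩ := hord
  have : 𝔔.IsPrime := h𝔔.1
  have : 𝔔.LiesOver 𝔮 := h𝔔.2
  have : 𝔮.IsMaximal := h𝔮.isMaximal h𝔮0
  have h𝔔0 : 𝔔 ≠ ⊥ := Ideal.ne_bot_of_liesOver_of_ne_bot h𝔮0 𝔔
  have hyint : IsIntegral ℤ y := by
    apply IsIntegral.of_pow hp.out.pos
    rw [hy]
    exact map_isIntegral_int (algebraMap F N) (RingOfIntegers.isIntegral_coe x₀)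
  obtain ⟨y', hyy'⟩ : ∃ y' : 𝓞 N, algebraMap (𝓞 N) N y' = y := ⟨⟨y, hyint⟩, rfl⟩
  have hy' : y' ^ p = algebraMap (𝓞 F) (𝓞 N) x₀ := by
    apply RingOfIntegers.ext
    show algebraMap (𝓞 N) N (y' ^ p) = algebraMap (𝓞 N) N (algebraMap (𝓞 F) (𝓞 N) x₀)
    rw [map_pow, hyy', hy, ← IsScalarTower.algebraMap_apply (𝓞 F) (𝓞 N) N,
      IsScalarTower.algebraMap_apply (𝓞 F) F N]
  let v : HeightOneSpectrum (𝓞 F) := ⟨𝔮, h𝔮, h𝔮0⟩
  let w : HeightOneSpectrum (𝓞 N) := ⟨𝔔, inferInstance, h𝔔0⟩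
  have : w.asIdeal.LiesOver v.asIdeal := h𝔔.2
  have hdvd := bkrb_dvd_ramificationIdx_mul v w p n hp.out.pos x₀ y' hy' hn1 hn2
  have he : 𝔮.ramificationIdx' 𝔔 = 𝔔.ramificationIdx (𝓞 F) :=
    Ideal.ramificationIdx'_eq_ramificationIdx 𝔮 𝔔 h𝔮0
  rw [show v.asIdeal.ramificationIdx' w.asIdeal = 𝔔.ramificationIdx (𝓞 F) from he] at hdvd
  have hpe : p ∣ 𝔔.ramificationIdx (𝓞 F) := (hp.out.dvd_mul.mp hdvd).resolve_right hn3
  have hpos : 0 < 𝔔.ramificationIdx (𝓞 F) := Ideal.ramificationIdx_pos 𝔔 (𝓞 F)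
  have hle : 𝔔.ramificationIdx (𝓞 F) ≤ p := by
    have hsum := Ideal.sum_ramification_inertia_eq_finrank 𝔮 (𝓞 N)
    rw [← IsFractionRing.finrank_eq (𝓞 F) F (𝓞 N) N, hfin] at hsum
    have hterm : 𝔔.ramificationIdx (𝓞 F) * 𝔔.inertiaDeg (𝓞 F) ≤ p := by
      rw [← hsum]
      exact Finset.single_le_sum
        (f := fun q : 𝔮.primesOver (𝓞 N) => q.1.ramificationIdx (𝓞 F) * q.1.inertiaDeg (𝓞 F))
        (fun _ _ => Nat.zero_le _) (Finset.mem_univ ⟨𝔔, h𝔔⟩)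
    have hf : 0 < 𝔔.inertiaDeg (𝓞 F) := Ideal.inertiaDeg_pos 𝔔 (𝓞 F)
    nlinarith
  exact Nat.le_antisymm hle (Nat.le_of_dvd hpos hpe)

end Fermat.Agent.S14
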