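/-
S14 shared basics, package SUnitRank (triplet B): Dirichlet's `S`-unit theorem in rank form,
`bsub_sUnitRank : SUnitRankStatement`.

Proof.  Let `U = S.unit F`.  The valuation vector `φ : Additive U →ₗ[ℤ] (S → ℤ)` has kernel the
image of `Additive (𝓞 F)ˣ` (an element of `Fˣ` all of whose valuations are trivial is a unit of
`𝓞 F`), which is finitely generated of rank `Units.rank F` by Dirichlet's unit theorem (Mathlib).
For `v ∈ S` some power of the prime ideal of `v` is principal (finiteness of the class group);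
a generator is an `S`-unit whose valuation vector is supported exactly at `v`.  Hence the range of
`φ` contains a linearly independent family indexed by `S`, so it has rank `|S|`; rank-nullity over
`ℤ` concludes.
-/
import Fermat.Agent.S14.Interfaces

set_option autoImplicit false

open NumberField IsDedekindDomain

namespace Fermat.Agent.S14

section

variable (F : Type) [Field F] [NumberField F] (S : Finset (HeightOneSpectrum (𝓞 F)))

/-- The exponent of the `v`-adic valuation on the `S`-units, written additively. -/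
noncomputable def bsub_val (v : HeightOneSpectrum (𝓞 F)) :
    Additive ((S : Set (HeightOneSpectrum (𝓞 F))).unit F) →+ ℤ where
  toFun x := Multiplicative.toAdd (v.valuationOfNeZero
    ((Additive.toMul x : (S : Set (HeightOneSpectrum (𝓞 F))).unit F) : Fˣ))
  map_zero' := by simp
  map_add' x y := by simp

/-- The valuation vector of an `S`-unit. -/
noncomputable def bsub_phi :
    Additive ((S : Set (HeightOneSpectrum (𝓞 F))).unit F) →ₗ[ℤ] (S → ℤ) :=
  (AddMonoidHom.pi fun v : S => bsub_val F S v.1).toIntLinearMap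

theorem bsub_phi_apply (x : Additive ((S : Set (HeightOneSpectrum (𝓞 F))).unit F)) (v : S) :
    bsub_phi F S x v = Multiplicative.toAdd (v.1.valuationOfNeZero
      ((Additive.toMul x : (S : Set (HeightOneSpectrum (𝓞 F))).unit F) : Fˣ)) := rfl

/-- `bsub_phi x v = 0` iff the valuation of `x` at `v` is trivial. -/
theorem bsub_phi_apply_eq_zero_iff
    (x : Additive ((S : Set (HeightOneSpectrum (𝓞 F))).unit F)) (v : S) :
    bsub_phi F S x v = 0 ↔ v.1.valuation F
      (((Additive.toMul x : (S : Set (HeightOneSpectrum (𝓞 F))).unit F) : Fˣ) : F) = 1 := by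
  rw [bsub_phi_apply, ← HeightOneSpectrum.valuationOfNeZero_eq]
  constructor
  · intro h
    have h1 : v.1.valuationOfNeZero
        ((Additive.toMul x : (S : Set (HeightOneSpectrum (𝓞 F))).unit F) : Fˣ) = 1 := h
    rw [h1]
    rfl
  · intro h
    have h1 : v.1.valuationOfNeZero
        ((Additive.toMul x : (S : Set (HeightOneSpectrum (𝓞 F))).unit F) : Fˣ) = 1 :=
      WithZero.coe_inj.mp h
    rw [h1]
    rfl

/-- The units of `𝓞 F` are `S`-units. -/
noncomputable def bsub_iotaHom : (𝓞 F)ˣ →* (S : Set (HeightOneSpectrum (𝓞 F))).unit F where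
  toFun x := ⟨Units.map (algebraMap (𝓞 F) F : 𝓞 F →* F) x, fun v _ => by
    have h := v.valuation_of_unit_eq (K := F) x
    rw [← HeightOneSpectrum.valuationOfNeZero_eq, h]
    rfl⟩
  map_one' := by
    ext
    simp
  map_mul' x y := by
    ext
    simp

theorem bsub_iotaHom_coe (x : (𝓞 F)ˣ) :
    (((bsub_iotaHom F S x : (S : Set (HeightOneSpectrum (𝓞 F))).unit F) : Fˣ) : F) =
      algebraMap (𝓞 F) F (x : 𝓞 F) := rfl

/-- The inclusion of the units of `𝓞 F` into the `S`-units, as a `ℤ`-linear map. -/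
noncomputable def bsub_iota :
    Additive (𝓞 F)ˣ →ₗ[ℤ] Additive ((S : Set (HeightOneSpectrum (𝓞 F))).unit F) :=
  (MonoidHom.toAdditive (bsub_iotaHom F S)).toIntLinearMap

theorem bsub_iota_apply (x : Additive (𝓞 F)ˣ) :
    bsub_iota F S x = Additive.ofMul (bsub_iotaHom F S (Additive.toMul x)) := rfl

theorem bsub_iota_injective : Function.Injective (bsub_iota F S) := by
  intro x y hxy
  rw [bsub_iota_apply, bsub_iota_apply] at hxy
  have h1 : bsub_iotaHom F S (Additive.toMul x) = bsub_iotaHom F S (Additive.toMul y) :=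
    Additive.ofMul.injective hxy
  have h2 : algebraMap (𝓞 F) F ((Additive.toMul x : (𝓞 F)ˣ) : 𝓞 F) =
      algebraMap (𝓞 F) F ((Additive.toMul y : (𝓞 F)ˣ) : 𝓞 F) := by
    rw [← bsub_iotaHom_coe F S, ← bsub_iotaHom_coe F S, h1]
  have h3 : ((Additive.toMul x : (𝓞 F)ˣ) : 𝓞 F) = ((Additive.toMul y : (𝓞 F)ˣ) : 𝓞 F) :=
    FaithfulSMul.algebraMap_injective (𝓞 F) F h2
  exact Additive.toMul.injective (Units.ext h3)

/-- The kernel of the valuation vector map consists of the units of `𝓞 F`. -/
theorem bsub_ker_eq : LinearMap.ker (bsub_phi F S) = LinearMap.range (bsub_iota F S) := by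
  ext x
  rw [LinearMap.mem_ker, LinearMap.mem_range]
  constructor
  · intro hx
    set u : (S : Set (HeightOneSpectrum (𝓞 F))).unit F := Additive.toMul x with hu
    have hval : ∀ v : HeightOneSpectrum (𝓞 F), v.valuation F ((u : Fˣ) : F) = 1 := by
      intro v
      by_cases hv : v ∈ S
      · exact (bsub_phi_apply_eq_zero_iff F S x ⟨v, hv⟩).mp (congrFun hx ⟨v, hv⟩)
      · exact u.2 v (by simpa using hv)
    have hval' : ∀ v : HeightOneSpectrum (𝓞 F), v.valuation F (((u : Fˣ)⁻¹ : Fˣ) : F) = 1 := by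
      intro v
      rw [Units.val_inv_eq_inv_val, map_inv₀, hval v, inv_one]
    obtain ⟨r, hr⟩ := HeightOneSpectrum.mem_integers_of_valuation_le_one F ((u : Fˣ) : F)
      (fun v => (hval v).le)
    obtain ⟨r', hr'⟩ := HeightOneSpectrum.mem_integers_of_valuation_le_one F
      (((u : Fˣ)⁻¹ : Fˣ) : F) (fun v => (hval' v).le)
    have hrr' : r * r' = 1 := by
      apply FaithfulSMul.algebraMap_injective (𝓞 F) F
      rw [map_mul, map_one]
      exact (congrArg₂ (· * ·) hr hr').trans (Units.mul_inv _)
    refine ⟨Additive.ofMul (Units.mkOfMulEqOne r r' hrr'), ?_⟩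
    rw [bsub_iota_apply]
    apply Additive.toMul.injective
    apply Subtype.ext
    apply Units.ext
    exact hr
  · rintro ⟨y, rfl⟩
    funext v
    show bsub_phi F S (bsub_iota F S y) v = 0
    rw [bsub_phi_apply_eq_zero_iff, bsub_iota_apply]
    have h := v.1.valuation_of_unit_eq (K := F) (Additive.toMul y)
    have h2 := v.1.valuationOfNeZero_eq (K := F)
      (Units.map (algebraMap (𝓞 F) F : 𝓞 F →* F) (Additive.toMul y))
    rw [h] at h2
    exact h2.symm

/-- Some positive power of a nonzero ideal is principal. -/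
theorem bsub_exists_principal_pow (I : Ideal (𝓞 F)) (hI : I ≠ ⊥) :
    ∃ n : ℕ, n ≠ 0 ∧ (I ^ n).IsPrincipal := by
  have hI' : I ∈ nonZeroDivisors (Ideal (𝓞 F)) := mem_nonZeroDivisors_of_ne_zero hI
  refine ⟨Fintype.card (ClassGroup (𝓞 F)), Fintype.card_ne_zero, ?_⟩
  have h1 : (ClassGroup.mk0 ⟨I, hI'⟩) ^ Fintype.card (ClassGroup (𝓞 F)) = 1 := pow_card_eq_one
  rw [← map_pow] at h1
  have h2 : (⟨I, hI'⟩ : nonZeroDivisors (Ideal (𝓞 F))) ^ Fintype.card (ClassGroup (𝓞 F)) =
      ⟨I ^ Fintype.card (ClassGroup (𝓞 F)), pow_mem hI' _⟩ := Subtype.ext (by simp)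
  rw [h2, ClassGroup.mk0_eq_one_iff] at h1
  exact h1

/-- For `v ∈ S` there is an `S`-unit whose valuation vector is supported exactly at `v`. -/
theorem bsub_exists_gen (v : HeightOneSpectrum (𝓞 F)) (hv : v ∈ S) :
    ∃ x : Additive ((S : Set (HeightOneSpectrum (𝓞 F))).unit F),
      bsub_phi F S x ⟨v, hv⟩ ≠ 0 ∧ ∀ w : S, w.1 ≠ v → bsub_phi F S x w = 0 := by
  obtain ⟨n, hn, hprinc⟩ := bsub_exists_principal_pow F v.asIdeal v.ne_bot
  obtain ⟨g, hg⟩ := hprinc
  have hg' : v.asIdeal ^ n = Ideal.span {g} := hg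
  have hgmem : g ∈ v.asIdeal := by
    have : g ∈ v.asIdeal ^ n := by rw [hg']; exact Ideal.subset_span rfl
    exact Ideal.pow_le_self hn this
  have hg0 : g ≠ 0 := by
    rintro rfl
    rw [Ideal.span_singleton_eq_bot.mpr rfl] at hg'
    exact v.ne_bot (pow_eq_zero_iff hn |>.mp hg')
  have hgnot : ∀ w : HeightOneSpectrum (𝓞 F), w ≠ v → g ∉ w.asIdeal := by
    intro w hw hmem
    have h1 : v.asIdeal ^ n ≤ w.asIdeal := by
      rw [hg']
      exact (Ideal.span_singleton_le_iff_mem _).mpr hmem
    have h2 : v.asIdeal ≤ w.asIdeal := w.isPrime.le_of_pow_le h1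
    have h3 : v.asIdeal = w.asIdeal := v.isMaximal.eq_of_le w.isPrime.ne_top h2
    exact hw (HeightOneSpectrum.ext h3.symm)
  have hgF : algebraMap (𝓞 F) F g ≠ 0 := by
    intro h
    exact hg0 (FaithfulSMul.algebraMap_injective (𝓞 F) F (h.trans (map_zero _).symm))
  have hmemU : Units.mk0 (algebraMap (𝓞 F) F g) hgF ∈ (S : Set (HeightOneSpectrum (𝓞 F))).unit F := by
    intro w hw
    have hwv : w ≠ v := by
      rintro rfl
      exact hw (by simpa using hv)
    exact (HeightOneSpectrum.valuation_eq_one_iff_notMem w).mpr (hgnot w hwv)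
  refine ⟨Additive.ofMul ⟨Units.mk0 (algebraMap (𝓞 F) F g) hgF, hmemU⟩, ?_, ?_⟩
  · rw [Ne, bsub_phi_apply_eq_zero_iff]
    have h1 : v.valuation F (algebraMap (𝓞 F) F g) < 1 :=
      (HeightOneSpectrum.valuation_lt_one_iff_mem v g).mpr hgmem
    exact h1.ne
  · intro w hw
    rw [bsub_phi_apply_eq_zero_iff]
    exact (HeightOneSpectrum.valuation_eq_one_iff_notMem w.1).mpr (hgnot w.1 hw)

/-- The range of the valuation vector map has full rank. -/
theorem bsub_finrank_range : Module.finrank ℤ (LinearMap.range (bsub_phi F S)) = S.card := by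
  classical
  choose g hg1 hg2 using fun v : S => bsub_exists_gen F S v.1 v.2
  have hli : LinearIndependent ℤ (fun v : S => bsub_phi F S (g v)) := by
    rw [Fintype.linearIndependent_iff]
    intro c hc w
    have h1 := congrFun hc w
    rw [Finset.sum_apply, Finset.sum_eq_single w] at h1
    · have h2 : c w * bsub_phi F S (g w) w = 0 := h1
      rcases mul_eq_zero.mp h2 with h3 | h3
      · exact h3
      · exact absurd h3 (hg1 w)
    · intro v _ hvw
      have h2 : bsub_phi F S (g v) w = 0 := hg2 v w (fun h => hvw (Subtype.ext h).symm)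
      show c v * bsub_phi F S (g v) w = 0
      rw [h2, mul_zero]
    · intro h
      exact absurd (Finset.mem_univ w) h
  have hli' : LinearIndependent ℤ
      (fun v : S => (⟨bsub_phi F S (g v), LinearMap.mem_range_self _ _⟩ :
        LinearMap.range (bsub_phi F S))) :=
    LinearIndependent.of_comp (LinearMap.range (bsub_phi F S)).subtype hli
  have h1 : Fintype.card S ≤ Module.finrank ℤ (LinearMap.range (bsub_phi F S)) :=
    hli'.fintype_card_le_finrank
  have h2 : Module.finrank ℤ (LinearMap.range (bsub_phi F S)) ≤ Module.finrank ℤ (S → ℤ) :=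
    Submodule.finrank_le _
  rw [Module.finrank_fintype_fun_eq_card] at h2
  rw [Fintype.card_coe] at h1 h2
  exact le_antisymm h2 h1

end

/-- Dirichlet's `S`-unit theorem (rank form). -/
theorem bsub_sUnitRank : SUnitRankStatement := by
  intro F _ _ S
  have hker := bsub_ker_eq F S
  have hfinker : Module.Finite ℤ (LinearMap.ker (bsub_phi F S)) := by
    rw [hker]
    infer_instance
  have hfinquot : Module.Finite ℤ
      (Additive ((S : Set (HeightOneSpectrum (𝓞 F))).unit F) ⧸ LinearMap.ker (bsub_phi F S)) :=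
    Module.Finite.equiv (bsub_phi F S).quotKerEquivRange.symm
  have hfin : Module.Finite ℤ (Additive ((S : Set (HeightOneSpectrum (𝓞 F))).unit F)) :=
    Module.Finite.of_submodule_quotient (LinearMap.ker (bsub_phi F S))
  refine ⟨hfin, ?_⟩
  have h1 := (LinearMap.ker (bsub_phi F S)).finrank_quotient_add_finrank
  rw [LinearEquiv.finrank_eq (bsub_phi F S).quotKerEquivRange, bsub_finrank_range F S] at h1
  have h2 : Module.finrank ℤ (LinearMap.ker (bsub_phi F S)) = NumberField.Units.rank F := by
    rw [hker, LinearMap.finrank_range_of_inj (bsub_iota_injective F S)]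
    exact NumberField.Units.finrank_eq F
  rw [h2] at h1
  rw [← h1, add_comm]

end Fermat.Agent.S14
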