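/-
S14 shared basics, package SUnitRank (triplet C): Dirichlet's `S`-unit theorem in rank form.

Main result: `bsuc_sUnitRank : SUnitRankStatement`.

Proof.  Let `M = Additive (S.unit F)`.  The orders at the places of `S` give a `ℤ`-linear map
`φ : M → ℤ^S` whose kernel is the image of the units of `𝓞 F` (finitely generated of rank
`Units.rank F` by Dirichlet's unit theorem).  For every `v ∈ S` the ideal `v ^ h` (`h` the class
number) is principal, generated by an `S`-unit whose image under `φ` is a nonzero multiple of the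
basis vector `e_v`; hence the range of `φ` has rank `|S|`.  Rank-nullity over `ℤ` concludes.
-/
import Fermat.Agent.S14.Interfaces

set_option autoImplicit false

open NumberField IsDedekindDomain

namespace Fermat.Agent.S14

noncomputable section

variable (F : Type) [Field F] [NumberField F]

/-- The `v`-adic order as a group homomorphism `Fˣ →* Multiplicative ℤ`. -/
def bsuc_ordHom (v : HeightOneSpectrum (𝓞 F)) : Fˣ →* Multiplicative ℤ :=
  (WithZero.unitsWithZeroEquiv (α := Multiplicative ℤ)).toMonoidHom.comp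
    (Units.map ((v.valuation F).toMonoidWithZeroHom.toMonoidHom))

theorem bsuc_ordHom_coe (v : HeightOneSpectrum (𝓞 F)) (x : Fˣ) :
    ((bsuc_ordHom F v x : Multiplicative ℤ) : WithZero (Multiplicative ℤ))
      = v.valuation F (x : F) := by
  unfold bsuc_ordHom
  rw [MonoidHom.comp_apply]
  exact WithZero.coe_unitsWithZeroEquiv_eq_units_val _

theorem bsuc_ordHom_eq_one_iff (v : HeightOneSpectrum (𝓞 F)) (x : Fˣ) :
    bsuc_ordHom F v x = 1 ↔ v.valuation F (x : F) = 1 := by
  rw [← bsuc_ordHom_coe, ← WithZero.coe_one, WithZero.coe_inj]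

/-- Units of `𝓞 F` have valuation one everywhere. -/
theorem bsuc_val_unit (v : HeightOneSpectrum (𝓞 F)) (u : (𝓞 F)ˣ) :
    v.valuation F (algebraMap (𝓞 F) F (u : 𝓞 F)) = 1 := by
  rw [HeightOneSpectrum.valuation_eq_one_iff_notMem]
  intro hu
  exact v.isPrime.ne_top (Ideal.eq_top_of_isUnit_mem _ hu u.isUnit)

/-- An element of `Fˣ` with valuation one everywhere comes from a unit of `𝓞 F`. -/
theorem bsuc_exists_unit (x : Fˣ)
    (h : ∀ v : HeightOneSpectrum (𝓞 F), v.valuation F (x : F) = 1) :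
    ∃ u : (𝓞 F)ˣ, algebraMap (𝓞 F) F (u : 𝓞 F) = (x : F) := by
  obtain ⟨a, ha⟩ := HeightOneSpectrum.mem_integers_of_valuation_le_one F (x : F)
    (fun v => (h v).le)
  obtain ⟨b, hb⟩ := HeightOneSpectrum.mem_integers_of_valuation_le_one F ((x⁻¹ : Fˣ) : F)
    (fun v => by
      rw [Units.val_inv_eq_inv_val, map_inv₀, h v, inv_one])
  have hab : a * b = 1 := by
    apply FaithfulSMul.algebraMap_injective (𝓞 F) F
    rw [map_mul, ha, hb, map_one, Units.mul_inv]
  exact ⟨Units.mkOfMulEqOne a b hab, ha⟩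

variable (S : Finset (HeightOneSpectrum (𝓞 F)))

/-- The orders at the places of `S`, as a `ℤ`-linear map `S.unit F → ℤ^S`. -/
def bsuc_phi :
    Additive ((S : Set (HeightOneSpectrum (𝓞 F))).unit F) →ₗ[ℤ] (S → ℤ) :=
  (AddMonoidHom.pi fun v : S =>
    MonoidHom.toAdditiveLeft ((bsuc_ordHom F v.1).comp
      ((S : Set (HeightOneSpectrum (𝓞 F))).unit F).subtype)).toIntLinearMap

theorem bsuc_phi_apply (x : Additive ((S : Set (HeightOneSpectrum (𝓞 F))).unit F)) (v : S) :
    bsuc_phi F S x v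
      = Multiplicative.toAdd (bsuc_ordHom F v.1 ((Additive.toMul x : _) : Fˣ)) := rfl

/-- The inclusion of the units of `𝓞 F` into the `S`-units. -/
def bsuc_iotaHom : (𝓞 F)ˣ →* ((S : Set (HeightOneSpectrum (𝓞 F))).unit F) :=
  (Units.map ((algebraMap (𝓞 F) F : 𝓞 F →+* F) : 𝓞 F →* F)).codRestrict
    ((S : Set (HeightOneSpectrum (𝓞 F))).unit F) (fun u v _ => bsuc_val_unit F v u)

theorem bsuc_iotaHom_coe (u : (𝓞 F)ˣ) :
    (((bsuc_iotaHom F S u : _) : Fˣ) : F) = algebraMap (𝓞 F) F (u : 𝓞 F) := rfl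

/-- The inclusion of the units of `𝓞 F` into the `S`-units, as a `ℤ`-linear map. -/
def bsuc_iota :
    Additive (𝓞 F)ˣ →ₗ[ℤ] Additive ((S : Set (HeightOneSpectrum (𝓞 F))).unit F) :=
  (MonoidHom.toAdditive (bsuc_iotaHom F S)).toIntLinearMap

theorem bsuc_iota_apply (u : Additive (𝓞 F)ˣ) :
    bsuc_iota F S u = Additive.ofMul (bsuc_iotaHom F S (Additive.toMul u)) := rfl

theorem bsuc_iota_injective : Function.Injective (bsuc_iota F S) := by
  intro u u' h
  have h1 : bsuc_iotaHom F S (Additive.toMul u) = bsuc_iotaHom F S (Additive.toMul u') := h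
  have h2 := congrArg (fun z : ((S : Set (HeightOneSpectrum (𝓞 F))).unit F) => ((z : Fˣ) : F)) h1
  simp only [bsuc_iotaHom_coe] at h2
  have h3 : ((Additive.toMul u : (𝓞 F)ˣ) : 𝓞 F) = ((Additive.toMul u' : (𝓞 F)ˣ) : 𝓞 F) :=
    FaithfulSMul.algebraMap_injective (𝓞 F) F h2
  exact Additive.toMul.injective (Units.ext h3)

theorem bsuc_ker : LinearMap.ker (bsuc_phi F S) = LinearMap.range (bsuc_iota F S) := by
  ext x
  rw [LinearMap.mem_ker, LinearMap.mem_range]
  constructor
  · intro hx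
    have hall : ∀ v : HeightOneSpectrum (𝓞 F),
        v.valuation F (((Additive.toMul x : _) : Fˣ) : F) = 1 := by
      intro v
      by_cases hv : v ∈ S
      · have h1 := congrFun hx ⟨v, hv⟩
        rw [bsuc_phi_apply] at h1
        exact (bsuc_ordHom_eq_one_iff F v _).mp h1
      · exact (Additive.toMul x).2 v (by simpa using hv)
    obtain ⟨u, hu⟩ := bsuc_exists_unit F _ hall
    refine ⟨Additive.ofMul u, ?_⟩
    rw [bsuc_iota_apply]
    apply Additive.toMul.injective
    apply Subtype.ext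
    apply Units.ext
    exact hu
  · rintro ⟨u, rfl⟩
    funext v
    rw [bsuc_phi_apply, bsuc_iota_apply]
    have h1 : bsuc_ordHom F v.1 ((bsuc_iotaHom F S (Additive.toMul u) : _) : Fˣ) = 1 := by
      rw [bsuc_ordHom_eq_one_iff, bsuc_iotaHom_coe]
      exact bsuc_val_unit F v.1 _
    show Multiplicative.toAdd (bsuc_ordHom F v.1 ((bsuc_iotaHom F S (Additive.toMul u) : _) : Fˣ))
      = 0
    rw [h1]
    rfl

/-- For every prime `v` there is an element of `Fˣ` whose only nontrivial valuation is at `v`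
(a generator of the principal ideal `v ^ h`, `h` the class number). -/
theorem bsuc_exists_gen (v : HeightOneSpectrum (𝓞 F)) :
    ∃ x : Fˣ, v.valuation F (x : F) ≠ 1 ∧
      ∀ w : HeightOneSpectrum (𝓞 F), w ≠ v → w.valuation F (x : F) = 1 := by
  have hI : v.asIdeal ∈ nonZeroDivisors (Ideal (𝓞 F)) :=
    mem_nonZeroDivisors_iff_ne_zero.mpr v.ne_bot
  have hh : 0 < Fintype.card (ClassGroup (𝓞 F)) := Fintype.card_pos
  have hIh : v.asIdeal ^ Fintype.card (ClassGroup (𝓞 F)) ∈ nonZeroDivisors (Ideal (𝓞 F)) :=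
    pow_mem hI _
  have h1 : ClassGroup.mk0 ⟨_, hIh⟩ = 1 := by
    have h2 : (⟨_, hIh⟩ : nonZeroDivisors (Ideal (𝓞 F)))
        = ⟨v.asIdeal, hI⟩ ^ Fintype.card (ClassGroup (𝓞 F)) := Subtype.ext rfl
    rw [h2, map_pow, pow_card_eq_one]
  obtain ⟨π, hπ⟩ := ((ClassGroup.mk0_eq_one_iff hIh).mp h1).principal
  have hπ' : v.asIdeal ^ Fintype.card (ClassGroup (𝓞 F)) = Ideal.span {π} := hπ
  have hπ0 : π ≠ 0 := by
    rintro rfl
    rw [Ideal.span_singleton_eq_bot.mpr rfl] at hπ'
    exact mem_nonZeroDivisors_iff_ne_zero.mp hIh hπ'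
  have hπmem : π ∈ v.asIdeal ^ Fintype.card (ClassGroup (𝓞 F)) := by
    rw [hπ']
    exact Ideal.mem_span_singleton_self π
  have hπF : algebraMap (𝓞 F) F π ≠ 0 := by
    intro h0
    exact hπ0 (FaithfulSMul.algebraMap_injective (𝓞 F) F (by rw [h0, map_zero]))
  refine ⟨Units.mk0 (algebraMap (𝓞 F) F π) hπF, ?_, ?_⟩
  · rw [Units.val_mk0]
    exact ne_of_lt ((v.valuation_lt_one_iff_mem π).mpr (Ideal.pow_le_self hh.ne' hπmem))
  · intro w hw
    rw [Units.val_mk0, HeightOneSpectrum.valuation_eq_one_iff_notMem]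
    intro hmem
    apply hw
    have hle : v.asIdeal ^ Fintype.card (ClassGroup (𝓞 F)) ≤ w.asIdeal := by
      rw [hπ', Ideal.span_singleton_le_iff_mem]
      exact hmem
    have hle' : v.asIdeal ≤ w.asIdeal := w.isPrime.le_of_pow_le hle
    exact (HeightOneSpectrum.ext (v.isMaximal.eq_of_le w.isPrime.ne_top hle')).symm

/-- For `v ∈ S`, an `S`-unit whose only nontrivial valuation is at `v`. -/
def bsuc_gen (v : S) : Additive ((S : Set (HeightOneSpectrum (𝓞 F))).unit F) :=
  Additive.ofMul ⟨(bsuc_exists_gen F v.1).choose, fun w hw =>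
    (bsuc_exists_gen F v.1).choose_spec.2 w (by
      rintro rfl
      exact hw (Finset.mem_coe.mpr v.2))⟩

theorem bsuc_phi_gen_self (v : S) : bsuc_phi F S (bsuc_gen F S v) v ≠ 0 := by
  rw [bsuc_phi_apply]
  intro h0
  have h1 : bsuc_ordHom F v.1 ((bsuc_exists_gen F v.1).choose) = 1 := h0
  rw [bsuc_ordHom_eq_one_iff] at h1
  exact (bsuc_exists_gen F v.1).choose_spec.1 h1

theorem bsuc_phi_gen_of_ne (v w : S) (hwv : w ≠ v) : bsuc_phi F S (bsuc_gen F S v) w = 0 := by
  rw [bsuc_phi_apply]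
  have h1 : bsuc_ordHom F w.1 ((bsuc_exists_gen F v.1).choose) = 1 := by
    rw [bsuc_ordHom_eq_one_iff]
    exact (bsuc_exists_gen F v.1).choose_spec.2 w.1 (fun h => hwv (Subtype.ext h))
  show Multiplicative.toAdd (bsuc_ordHom F w.1 ((bsuc_exists_gen F v.1).choose)) = 0
  rw [h1]
  rfl

/-- The map `ℤ^S → S.unit F`, `f ↦ ∏ x_v ^ f v`. -/
def bsuc_sigma : (S → ℤ) →ₗ[ℤ] Additive ((S : Set (HeightOneSpectrum (𝓞 F))).unit F) :=
  Fintype.linearCombination ℤ (bsuc_gen F S)

theorem bsuc_phi_sigma (f : S → ℤ) (w : S) :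
    bsuc_phi F S (bsuc_sigma F S f) w = f w * bsuc_phi F S (bsuc_gen F S w) w := by
  unfold bsuc_sigma
  rw [Fintype.linearCombination_apply, map_sum, Finset.sum_apply,
    Finset.sum_eq_single w]
  · rw [map_smul, Pi.smul_apply, smul_eq_mul]
  · intro v _ hvw
    rw [map_smul, Pi.smul_apply, bsuc_phi_gen_of_ne F S v w (Ne.symm hvw), smul_zero]
  · intro hw
    exact absurd (Finset.mem_univ w) hw

theorem bsuc_comp_injective : Function.Injective ((bsuc_phi F S) ∘ₗ (bsuc_sigma F S)) := by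
  rw [← LinearMap.ker_eq_bot, LinearMap.ker_eq_bot']
  intro f hf
  funext w
  have h1 := congrFun hf w
  rw [LinearMap.comp_apply, bsuc_phi_sigma] at h1
  rcases mul_eq_zero.mp h1 with h2 | h2
  · exact h2
  · exact absurd h2 (bsuc_phi_gen_self F S w)

/-- Dirichlet's `S`-unit theorem, rank form. -/
theorem bsuc_sUnitRank : SUnitRankStatement := by
  intro F _ _ S
  have hfin : Module.Finite ℤ (Additive ((S : Set (HeightOneSpectrum (𝓞 F))).unit F)) := by
    rw [Module.finite_def]
    refine Submodule.fg_of_fg_map_of_fg_inf_ker (bsuc_phi F S) (IsNoetherian.noetherian _) ?_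
    rw [inf_of_le_right le_top, bsuc_ker, LinearMap.range_eq_map]
    exact Submodule.FG.map _ Module.Finite.fg_top
  refine ⟨hfin, ?_⟩
  have h1 := Submodule.finrank_quotient_add_finrank (LinearMap.ker (bsuc_phi F S))
  have h2 := (bsuc_phi F S).quotKerEquivRange.finrank_eq
  have h3 : Module.finrank ℤ (LinearMap.ker (bsuc_phi F S)) = Units.rank F := by
    rw [bsuc_ker, LinearMap.finrank_range_of_inj (bsuc_iota_injective F S), Units.finrank_eq]
  have h4 : Module.finrank ℤ (LinearMap.range (bsuc_phi F S)) = S.card := by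
    apply le_antisymm
    · have h5 := Submodule.finrank_le (LinearMap.range (bsuc_phi F S))
      rwa [Module.finrank_fintype_fun_eq_card, Fintype.card_coe] at h5
    · have h5 := LinearMap.finrank_range_of_inj (bsuc_comp_injective F S)
      rw [Module.finrank_fintype_fun_eq_card, Fintype.card_coe] at h5
      rw [← h5]
      exact Submodule.finrank_mono (LinearMap.range_comp_le_range _ _)
  omega

end

end Fermat.Agent.S14
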