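/-
S14 basics, package Trichotomy (twin B): decomposition of a prime in a Galois extension of prime
degree `p` (split completely / inert / totally ramified).

Proof: all primes above `𝔮` have the same ramification index `e` and inertia degree `f`, and
`g * (e * f) = [N : F] = p` where `g` is the number of primes above `𝔮`; since `p` is prime,
exactly one of `g`, `e`, `f` equals `p` and the other two are `1`.
-/
import Fermat.Agent.S14.Basics2

set_option autoImplicit false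

open NumberField

namespace Fermat.Agent.S14

/-- In a Galois extension of number fields, every prime above `𝔮` has ramification index
`𝔮.ramificationIdxIn` and inertia degree `𝔮.inertiaDegIn`. -/
theorem bptb_ramificationIdx_inertiaDeg_eq
    (F N : Type) [Field F] [NumberField F] [Field N] [NumberField N] [Algebra F N] [IsGalois F N]
    (𝔮 : Ideal (𝓞 F)) (𝔔 : Ideal (𝓞 N)) (h𝔔 : 𝔔 ∈ 𝔮.primesOver (𝓞 N)) :
    𝔔.ramificationIdx (𝓞 F) = 𝔮.ramificationIdxIn (𝓞 N) ∧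
      𝔔.inertiaDeg (𝓞 F) = 𝔮.inertiaDegIn (𝓞 N) := by
  have h1 : 𝔔.IsPrime := h𝔔.1
  have h2 : 𝔔.LiesOver 𝔮 := h𝔔.2
  exact ⟨(Ideal.ramificationIdxIn_eq_ramificationIdx 𝔮 𝔔 (N ≃ₐ[F] N)).symm,
    (Ideal.inertiaDegIn_eq_inertiaDeg 𝔮 𝔔 (N ≃ₐ[F] N)).symm⟩

/-- The fundamental identity `g * (e * f) = [N : F]` for a Galois extension of number fields. -/
theorem bptb_fundamental_identity
    (F N : Type) [Field F] [NumberField F] [Field N] [NumberField N] [Algebra F N] [IsGalois F N]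
    (𝔮 : Ideal (𝓞 F)) [𝔮.IsPrime] :
    (𝔮.primesOver (𝓞 N)).ncard * (𝔮.ramificationIdxIn (𝓞 N) * 𝔮.inertiaDegIn (𝓞 N))
      = Module.finrank F N := by
  rw [Ideal.ncard_primesOver_mul_ramificationIdxIn_mul_inertiaDegIn 𝔮 (𝓞 N) (N ≃ₐ[F] N),
    IsGaloisGroup.card_eq_finrank (N ≃ₐ[F] N) F N]

/-- Decomposition of a prime in a Galois extension of prime degree `p`. -/
theorem bptb_primeTrichotomy : PrimeTrichotomyStatement := by
  intro p hp F N _ _ _ _ _ _ hdeg 𝔮 h𝔮 _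
  have hprime : 𝔮.IsPrime := h𝔮
  have hpp : p.Prime := hp.out
  have hfund := bptb_fundamental_identity F N 𝔮
  rw [hdeg] at hfund
  have hef := bptb_ramificationIdx_inertiaDeg_eq F N 𝔮
  have hg : (𝔮.primesOver (𝓞 N)).ncard = 1 ∨ (𝔮.primesOver (𝓞 N)).ncard = p :=
    (Nat.dvd_prime hpp).mp ⟨_, hfund.symm⟩
  rcases hg with hg | hg
  · -- a single prime above `𝔮`
    rw [hg, one_mul] at hfund
    obtain ⟨𝔔, h𝔔⟩ := Set.ncard_eq_one.mp hg
    have hmem : 𝔔 ∈ 𝔮.primesOver (𝓞 N) := by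
      rw [h𝔔]
      exact Set.mem_singleton 𝔔
    have he : 𝔮.ramificationIdxIn (𝓞 N) = 1 ∨ 𝔮.ramificationIdxIn (𝓞 N) = p :=
      (Nat.dvd_prime hpp).mp ⟨_, hfund.symm⟩
    rcases he with he | he
    · -- inert
      right; left
      rw [he, one_mul] at hfund
      exact ⟨𝔔, h𝔔, (hef 𝔔 hmem).1.trans he, (hef 𝔔 hmem).2.trans hfund⟩
    · -- totally ramified
      right; right
      rw [he] at hfund
      have hf : 𝔮.inertiaDegIn (𝓞 N) = 1 :=
        Nat.eq_of_mul_eq_mul_left hpp.pos (by rw [hfund, mul_one])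
      exact ⟨𝔔, h𝔔, (hef 𝔔 hmem).1.trans he, (hef 𝔔 hmem).2.trans hf⟩
  · -- `p` primes above `𝔮`: split completely
    left
    rw [hg] at hfund
    have h1 : 𝔮.ramificationIdxIn (𝓞 N) * 𝔮.inertiaDegIn (𝓞 N) = 1 :=
      Nat.eq_of_mul_eq_mul_left hpp.pos (by rw [hfund, mul_one])
    have he : 𝔮.ramificationIdxIn (𝓞 N) = 1 := Nat.eq_one_of_mul_eq_one_right h1
    have hf : 𝔮.inertiaDegIn (𝓞 N) = 1 := Nat.eq_one_of_mul_eq_one_left h1
    exact ⟨fun 𝔔 h𝔔 => ⟨(hef 𝔔 h𝔔).1.trans he, (hef 𝔔 h𝔔).2.trans hf⟩, hg⟩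

end Fermat.Agent.S14
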