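import Fermat.Agent.S14.HInterfaces

/-!
# S14 / H / AlgLattice (twin B)

`L` a free `ℤ`-module of finite rank `r`, `τ ∈ End L` with `1 + τ + … + τ^(p-1) = 0`, `D = τ - 1`.
Then `[L : D L] ≠ 0` and `p ^ r ≤ [L : D L] ^ (p - 1)`.

Proof: `D` is injective (a fixed vector `x` satisfies `p • x = 0`), hence `det D ≠ 0` and
`[L : D L] = |det D|`.  In `ℤ[X]`, `(X - 1)^(p-1) = Σ_{i<p} X^i + p Q`, so `D^(p-1) = p • Q(τ)` and
`(det D)^(p-1) = p^r det Q(τ)` with `det Q(τ) ≠ 0`.
-/

namespace Fermat.Agent.S14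

/-- In `ℤ[X]`: `(X - 1)^(p-1) = Σ_{i<p} X^i + p * Q` for some `Q`. -/
theorem halglb_poly (p : ℕ) [Fact p.Prime] :
    ∃ Q : Polynomial ℤ, (Polynomial.X - 1 : Polynomial ℤ) ^ (p - 1) =
      (∑ i ∈ Finset.range p, (Polynomial.X : Polynomial ℤ) ^ i) + Polynomial.C (p : ℤ) * Q := by
  have hp : p.Prime := Fact.out
  have h1 : ((Polynomial.X - 1 : Polynomial (ZMod p)) ^ (p - 1)) =
      ∑ i ∈ Finset.range p, (Polynomial.X : Polynomial (ZMod p)) ^ i := by
    have hne : (Polynomial.X - 1 : Polynomial (ZMod p)) ≠ 0 := by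
      have := Polynomial.X_sub_C_ne_zero (1 : ZMod p)
      simpa using this
    apply mul_left_cancel₀ hne
    rw [mul_geom_sum, ← pow_succ', Nat.sub_add_cancel hp.one_le, sub_pow_char, one_pow]
  have h2 : (((Polynomial.X - 1 : Polynomial ℤ) ^ (p - 1) -
      ∑ i ∈ Finset.range p, (Polynomial.X : Polynomial ℤ) ^ i)).map (Int.castRingHom (ZMod p))
        = 0 := by
    simp [Polynomial.map_sum, h1]
  have h3 : Polynomial.C (p : ℤ) ∣ ((Polynomial.X - 1 : Polynomial ℤ) ^ (p - 1) -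
      ∑ i ∈ Finset.range p, (Polynomial.X : Polynomial ℤ) ^ i) := by
    rw [Polynomial.C_dvd_iff_dvd_coeff]
    intro i
    have h4 := congrArg (fun q => Polynomial.coeff q i) h2
    simp only [Polynomial.coeff_map, Polynomial.coeff_zero] at h4
    exact (ZMod.intCast_zmod_eq_zero_iff_dvd _ _).mp h4
  obtain ⟨Q, hQ⟩ := h3
  exact ⟨Q, by rw [← hQ]; ring⟩

theorem halglb_main : HAlgLatticeStatement := by
  intro p _ L _ _ _ τ hτ
  have hp : p.Prime := Fact.out
  -- `D = τ - 1` is injective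
  have hker : LinearMap.ker (τ - 1) = ⊥ := by
    rw [LinearMap.ker_eq_bot']
    intro x hx
    have hx' : τ x = x := by
      have h0 : τ x - x = 0 := by simpa using hx
      exact sub_eq_zero.mp h0
    have hpow : ∀ i : ℕ, (τ ^ i) x = x := by
      intro i
      induction i with
      | zero => simp
      | succ n ih => rw [pow_succ, Module.End.mul_apply, hx', ih]
    have hsum : (∑ i ∈ Finset.range p, τ ^ i) x = (p : ℤ) • x := by
      rw [LinearMap.sum_apply]
      simp [hpow]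
    rw [hτ, LinearMap.zero_apply] at hsum
    exact (smul_eq_zero.mp hsum.symm).resolve_left (by exact_mod_cast hp.ne_zero)
  have hdet : LinearMap.det (τ - 1) ≠ 0 := by
    rw [Ne, LinearMap.det_eq_zero_iff_ker_ne_bot]
    exact not_not.mpr hker
  -- the index is `|det D|`
  have hidx : (LinearMap.range (τ - 1)).toAddSubgroup.index = (LinearMap.det (τ - 1)).natAbs := by
    have h5 := Submodule.natAbs_det_equiv (LinearMap.range (τ - 1))
      (LinearEquiv.ofInjective (τ - 1) (LinearMap.ker_eq_bot.mp hker))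
    have h6 : (LinearMap.range (τ - 1)).subtype ∘ₗ AddMonoidHom.toIntLinearMap
        ((LinearEquiv.ofInjective (τ - 1) (LinearMap.ker_eq_bot.mp hker) :
          L ≃ₗ[ℤ] LinearMap.range (τ - 1)) : L →+ LinearMap.range (τ - 1)) = τ - 1 := by
      ext x
      rfl
    rw [h6] at h5
    rw [h5]
    rfl
  -- `D^(p-1) = p • Q(τ)`
  obtain ⟨Q, hQ⟩ := halglb_poly p
  have hD : (τ - 1) ^ (p - 1) = (p : ℤ) • Polynomial.aeval τ Q := by
    have h7 := congrArg (Polynomial.aeval τ) hQ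
    simpa [hτ, Algebra.smul_def] using h7
  have hdet2 : LinearMap.det (τ - 1) ^ (p - 1) =
      (p : ℤ) ^ Module.finrank ℤ L * LinearMap.det (Polynomial.aeval τ Q) := by
    rw [← map_pow, hD, LinearMap.det_smul]
  have hQ0 : LinearMap.det (Polynomial.aeval τ Q) ≠ 0 := by
    intro h0
    rw [h0, mul_zero] at hdet2
    exact hdet (pow_eq_zero_iff (Nat.sub_ne_zero_of_lt hp.one_lt) |>.mp hdet2)
  refine ⟨by rw [hidx]; exact Int.natAbs_ne_zero.mpr hdet, ?_⟩
  rw [hidx, ← Int.natAbs_pow, hdet2, Int.natAbs_mul, Int.natAbs_pow, Int.natAbs_natCast]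
  exact Nat.le_mul_of_pos_right _ (Int.natAbs_pos.mpr hQ0)

end Fermat.Agent.S14
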