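/-
S14, block H, package FinalB (twin of Final): the counting argument with the characters.
`hfinb_main : HTameStatement → HInertStatement → HRealStatement → HRankPrimesStatement → HFinalStatement`.
-/
import Fermat.Agent.S14.HInterfaces

set_option autoImplicit false

open NumberField IsDedekindDomain

namespace Fermat.Agent.S14

/-- The character `u ↦ (log of the `v`-adic valuation of `u`) mod `p`. -/
noncomputable def hfinb_valHom (p : ℕ) {F : Type} [Field F] [NumberField F]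
    (v : HeightOneSpectrum (𝓞 F)) : Fˣ →* Multiplicative (ZMod p) where
  toFun u := Multiplicative.ofAdd ((WithZero.log (v.valuation F (u : F)) : ℤ) : ZMod p)
  map_one' := by simp
  map_mul' a b := by
    have ha : v.valuation F (a : F) ≠ 0 := (Valuation.ne_zero_iff _).2 a.ne_zero
    have hb : v.valuation F (b : F) ≠ 0 := (Valuation.ne_zero_iff _).2 b.ne_zero
    rw [Units.val_mul, map_mul, WithZero.log_mul ha hb, Int.cast_add, ofAdd_add]

theorem hfinb_valHom_apply (p : ℕ) {F : Type} [Field F] [NumberField F]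
    (v : HeightOneSpectrum (𝓞 F)) (u : Fˣ) :
    hfinb_valHom p v u =
      Multiplicative.ofAdd ((WithZero.log (v.valuation F (u : F)) : ℤ) : ZMod p) := rfl

/-- The valuation of the norm of a nonzero integer `a` of `N`, when the ideal norm of `(a)` is
`v ^ m * 𝔟` with `𝔟` prime to `v`. -/
theorem hfinb_val_norm_int {F N : Type} [Field F] [NumberField F] [Field N] [NumberField N]
    [Algebra F N] (v : HeightOneSpectrum (𝓞 F)) (a : 𝓞 N) (ha : a ≠ 0) (m : ℕ)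
    (𝔟 : Ideal (𝓞 F))
    (h : Ideal.relNorm (𝓞 F) (Ideal.span {a}) = v.asIdeal ^ m * 𝔟) (h𝔟 : ¬ 𝔟 ≤ v.asIdeal) :
    v.valuation F (Algebra.norm F (a : N)) = WithZero.exp (-(m : ℤ)) := by
  have hnorm : Algebra.norm F (a : N) = algebraMap (𝓞 F) F (Algebra.intNorm (𝓞 F) (𝓞 N) a) :=
    (Algebra.algebraMap_intNorm (A := 𝓞 F) (K := F) (L := N) (B := 𝓞 N) a).symm
  have hne : Algebra.intNorm (𝓞 F) (𝓞 N) a ≠ 0 := by
    intro h0
    have h1 : Algebra.norm F (a : N) = 0 := by rw [hnorm, h0, map_zero]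
    rw [Algebra.norm_eq_zero_iff] at h1
    exact ha (RingOfIntegers.coe_eq_zero_iff.1 h1)
  rw [hnorm, HeightOneSpectrum.valuation_of_algebraMap,
    v.intValuation_eq_exp_neg_multiplicity hne, ← Ideal.relNorm_singleton, h]
  have hmult : multiplicity v.asIdeal (v.asIdeal ^ m * 𝔟) = m := by
    refine multiplicity_eq_of_dvd_of_not_dvd (Dvd.intro _ rfl) ?_
    intro hdvd
    rw [pow_succ] at hdvd
    exact h𝔟 (Ideal.le_of_dvd ((mul_dvd_mul_iff_left (pow_ne_zero m v.ne_bot)).1 hdvd))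
  rw [hmult]

/-- The valuation character is trivial on norms, if all ideal norms have `v`-adic valuation
divisible by `p`. -/
theorem hfinb_valHom_norm (p : ℕ) {F N : Type} [Field F] [NumberField F] [Field N] [NumberField N]
    [Algebra F N] (v : HeightOneSpectrum (𝓞 F))
    (hI : ∀ 𝔄 : Ideal (𝓞 N), 𝔄 ≠ ⊥ → ∃ (n : ℕ) (𝔟 : Ideal (𝓞 F)),
      Ideal.relNorm (𝓞 F) 𝔄 = v.asIdeal ^ (p * n) * 𝔟 ∧ ¬ 𝔟 ≤ v.asIdeal)
    (w : Nˣ) : hfinb_valHom p v (Units.map (Algebra.norm F : N →* F) w) = 1 := by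
  obtain ⟨a, b, hb, hab⟩ := IsFractionRing.div_surjective (A := 𝓞 N) (w : N)
  have hb0 : b ≠ 0 := nonZeroDivisors.ne_zero hb
  have ha0 : a ≠ 0 := by
    rintro rfl
    rw [map_zero, zero_div] at hab
    exact w.ne_zero hab.symm
  obtain ⟨k₁, 𝔟₁, h1, h1'⟩ := hI (Ideal.span {a}) (by simpa using ha0)
  obtain ⟨k₂, 𝔟₂, h2, h2'⟩ := hI (Ideal.span {b}) (by simpa using hb0)
  have hv1 := hfinb_val_norm_int v a ha0 _ _ h1 h1'
  have hv2 := hfinb_val_norm_int v b hb0 _ _ h2 h2'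
  have hw : (Units.map (Algebra.norm F : N →* F) w : F) =
      Algebra.norm F (a : N) / Algebra.norm F (b : N) := by
    rw [Units.coe_map]
    show Algebra.norm F (w : N) = _
    have hbN : (b : N) ≠ 0 := RingOfIntegers.coe_ne_zero_iff.2 hb0
    have hmul : (w : N) * (b : N) = (a : N) := by
      rw [← hab]
      exact div_mul_cancel₀ _ hbN
    have hnb : Algebra.norm F (b : N) ≠ 0 := by
      rw [Ne, Algebra.norm_eq_zero_iff]
      exact hbN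
    rw [eq_div_iff hnb, ← map_mul, hmul]
  rw [hfinb_valHom_apply, hw, map_div₀, hv1, hv2, WithZero.log_div WithZero.exp_ne_zero
    WithZero.exp_ne_zero, WithZero.log_exp, WithZero.log_exp]
  have : ((-((p * k₁ : ℕ) : ℤ) - -((p * k₂ : ℕ) : ℤ) : ℤ) : ZMod p) = 0 := by
    push_cast
    simp
  rw [this]
  rfl

/-- The tamely ramified primes divide the modulus and do not split completely. -/
theorem hfinb_tame_sub_nonsplit {p : ℕ} {F N : Type} [Field F] [NumberField F] [Field N]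
    [NumberField N] [Algebra F N] {ζ : F} {x₀ : 𝓞 F} {y : N} {τ : N ≃ₐ[F] N}
    (hctx : HCtx p F N ζ x₀ y τ) (𝔪 : Ideal (𝓞 F)) (hm : 𝔪 ≤ Ideal.span {x₀}) :
    tameSet p F x₀ ⊆ hNonsplit F N 𝔪 := by
  intro 𝔮 h𝔮
  obtain ⟨h3, hζ, hdeg, hx₀, hy, hyn, hunr, hgal, hτy, hτgen, hram⟩ := hctx
  have h𝔮' := h𝔮
  obtain ⟨hprime, hne, hp, n, hn, hn1, hpn⟩ := h𝔮'
  refine ⟨hprime, ?_, ?_⟩
  · have hn0 : n ≠ 0 := by
      rintro rfl
      exact hpn (dvd_zero p)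
    have hx : x₀ ∈ 𝔮 := Ideal.pow_le_self hn0 hn
    exact hm.trans ((Ideal.span_singleton_le_iff_mem _).2 hx)
  · intro hsplit
    have := hprime
    obtain ⟨⟨𝔔, h𝔔⟩⟩ := 𝔮.nonempty_primesOver (S := 𝓞 N)
    have h1 := (hsplit 𝔔 h𝔔).1
    have h2 := hram 𝔮 h𝔮 𝔔 h𝔔
    omega

/-- (Final) the counting argument. -/
theorem hfinb_main : HTameStatement → HInertStatement → HRealStatement → HRankPrimesStatement →
    HFinalStatement := by
  intro hTame hInert hReal hRP p _ F N _ _ _ _ _ ζ x₀ y τ hctx 𝔪 hσ hidx hall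
  classical
  have hctx' := hctx
  obtain ⟨h3, hζ, hdeg, hx₀, hy, hyn, hunr, hgal, hτy, hτgen, hram⟩ := hctx'
  have hσ' := hσ
  obtain ⟨hm0, hmx, -, -⟩ := hσ'
  have hJfin : (hNonsplit F N 𝔪).Finite := (hRP p F N hdeg 𝔪 hm0).2.2.1
  have : Finite ↥(hNonsplit F N 𝔪) := hJfin.to_subtype
  have hTJ : tameSet p F x₀ ⊆ hNonsplit F N 𝔪 := hfinb_tame_sub_nonsplit hctx 𝔪 hmx
  have hJne : ∀ 𝔮 ∈ hNonsplit F N 𝔪, 𝔮 ≠ ⊥ := fun 𝔮 h𝔮 h0 => hm0 (le_bot_iff.1 (h0 ▸ h𝔮.2.1))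
  let vv : ↥(hNonsplit F N 𝔪) → HeightOneSpectrum (𝓞 F) :=
    fun 𝔮 => ⟨𝔮.1, 𝔮.2.1, hJne 𝔮.1 𝔮.2⟩
  let χ : ↥(hNonsplit F N 𝔪) → (Fˣ →* Multiplicative (ZMod p)) := fun 𝔮 =>
    if h : 𝔮.1 ∈ tameSet p F x₀ then Classical.choose (hTame p F N ζ x₀ y τ hctx 𝔮.1 h)
    else hfinb_valHom p (vv 𝔮)
  let Λ : Fˣ →* (↥(hNonsplit F N 𝔪) → Multiplicative (ZMod p)) := MonoidHom.pi χ
  -- norms are in the kernel
  have hle : hNormGrp F N 𝔪 ≤ Λ.ker := by
    rintro _ ⟨w, hw, rfl⟩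
    rw [MonoidHom.mem_ker]
    funext 𝔮
    show χ 𝔮 _ = 1
    by_cases h : 𝔮.1 ∈ tameSet p F x₀
    · simp only [χ, dif_pos h]
      exact (Classical.choose_spec (hTame p F N ζ x₀ y τ hctx 𝔮.1 h)).1 w
    · simp only [χ, dif_neg h]
      refine hfinb_valHom_norm p (vv 𝔮) ?_ w
      intro 𝔄 h𝔄
      refine hInert p F N hdeg 𝔮.1 𝔮.2.1 (hJne 𝔮.1 𝔮.2) ?_ 𝔮.2.2.2 𝔄 h𝔄
      intro 𝔔 h𝔔
      have := h𝔔.1
      have := h𝔔.2
      refine hunr 𝔔 h𝔔.1 (Ideal.ne_bot_of_liesOver_of_ne_bot (hJne 𝔮.1 𝔮.2) 𝔔) ?_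
      rw [← Ideal.over_def 𝔔 𝔮.1]
      exact h
  -- surjectivity on the `Σ`-units
  have hsurj : (hUF F 𝔪).map Λ = ⊤ := by
    rw [eq_top_iff]
    rintro t -
    let a₀ : Ideal (𝓞 F) → 𝓞 F := fun 𝔮 =>
      if h : 𝔮 ∈ tameSet p F x₀ then
        Classical.choose ((Classical.choose_spec (hTame p F N ζ x₀ y τ hctx 𝔮 h)).2.2
          (t ⟨𝔮, hTJ h⟩))
      else 0
    have ha₀ : ∀ 𝔮 (h : 𝔮 ∈ tameSet p F x₀), a₀ 𝔮 ∉ 𝔮 ∧ ∃ u : Fˣ, (u : F) = (a₀ 𝔮 : F) ∧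
        Classical.choose (hTame p F N ζ x₀ y τ hctx 𝔮 h) u = t ⟨𝔮, hTJ h⟩ := by
      intro 𝔮 h
      have hspec := Classical.choose_spec
        ((Classical.choose_spec (hTame p F N ζ x₀ y τ hctx 𝔮 h)).2.2 (t ⟨𝔮, hTJ h⟩))
      simp only [a₀, dif_pos h]
      obtain ⟨u, hu1, hu2, hu3⟩ := hspec
      exact ⟨hu1, u, hu2, hu3⟩
    let n : HeightOneSpectrum (𝓞 F) → ℕ := fun v =>
      if h : v.asIdeal ∈ hNonsplit F N 𝔪 then (Multiplicative.toAdd (t ⟨v.asIdeal, h⟩)).val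
      else 0
    obtain ⟨u, a, β₁, β₂, w, huU, ha, hβ₁, hβ₂, hrel, htame, hval⟩ :=
      hReal p F N ζ x₀ y τ hctx 𝔪 hσ hall a₀ (fun 𝔮 h => (ha₀ 𝔮 h).1) n
    refine ⟨u, huU, ?_⟩
    funext 𝔮
    show χ 𝔮 u = t 𝔮
    by_cases h : 𝔮.1 ∈ tameSet p F x₀
    · simp only [χ, dif_pos h]
      obtain ⟨hχ1, hχ2, -⟩ := Classical.choose_spec (hTame p F N ζ x₀ y τ hctx 𝔮.1 h)
      obtain ⟨haa, hb1, hb2, c, hc⟩ := htame 𝔮.1 h
      obtain ⟨ha0, u₀, hu₀, hχu₀⟩ := ha₀ 𝔮.1 h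
      generalize Classical.choose (hTame p F N ζ x₀ y τ hctx 𝔮.1 h) = χq at hχ1 hχ2 hχu₀ ⊢
      have haF : (a : F) ≠ 0 := RingOfIntegers.coe_ne_zero_iff.2 ha
      have hβ₁F : (β₁ : F) ≠ 0 := RingOfIntegers.coe_ne_zero_iff.2 hβ₁
      have hβ₂F : (β₂ : F) ≠ 0 := RingOfIntegers.coe_ne_zero_iff.2 hβ₂
      have hanot : a ∉ 𝔮.1 := fun hmem => ha0 (by
        have := 𝔮.1.sub_mem hmem haa
        simpa using this)
      let ua : Fˣ := Units.mk0 (a : F) haF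
      let uβ : Fˣ := Units.mk0 ((β₁ : F) / (β₂ : F)) (div_ne_zero hβ₁F hβ₂F)
      have e1 : u * uβ = ua * Units.map (Algebra.norm F : N →* F) w := by
        ext
        simp only [ua, uβ, Units.val_mul, Units.val_mk0, Units.coe_map]
        field_simp
        rw [hrel]
        ring
      have e2 : χq uβ = 1 := hχ2 β₁ β₂ uβ hb1 hb2 ⟨c, hc⟩ (by
        simp only [uβ, Units.val_mk0]
        field_simp)
      have e3 : χq (ua / u₀) = 1 := hχ2 a (a₀ 𝔮.1) (ua / u₀) hanot ha0 ⟨1, by simpa using haa⟩ (by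
        have hu₀F : (a₀ 𝔮.1 : F) ≠ 0 := hu₀ ▸ u₀.ne_zero
        simp only [ua, Units.val_div_eq_div_val, Units.val_mk0, hu₀]
        field_simp)
      have e4 : χq u = χq ua := by
        have := congrArg χq e1
        rw [map_mul, map_mul, e2, hχ1 w, mul_one, mul_one] at this
        exact this
      have e5 : χq ua = χq u₀ := by
        rw [map_div, div_eq_one] at e3
        exact e3
      rw [e4, e5, hχu₀]
    · simp only [χ, dif_neg h]
      obtain ⟨j, hj⟩ := hval (vv 𝔮) 𝔮.2 h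
      rw [hfinb_valHom_apply, hj, WithZero.log_exp]
      have hn : n (vv 𝔮) = (Multiplicative.toAdd (t 𝔮)).val := by
        simp only [n, vv, dif_pos 𝔮.2]
      rw [hn]
      push_cast
      rw [ZMod.natCast_self, zero_mul, add_zero, ZMod.natCast_zmod_val]
      rfl
  -- counting
  have hcard : Λ.ker.relIndex (hUF F 𝔪) = p ^ (hNonsplit F N 𝔪).ncard := by
    rw [Subgroup.relIndex_ker, hsurj, Subgroup.card_top, Nat.card_fun,
      Nat.card_coe_set_eq, Nat.card_congr Multiplicative.toAdd, Nat.card_zmod]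
  have hdvd : p ^ (hNonsplit F N 𝔪).ncard ∣ (hNormGrp F N 𝔪).relIndex (hUF F 𝔪) := by
    rw [← hcard]
    exact Subgroup.relIndex_dvd_of_le_left (hUF F 𝔪) hle
  have hle' : p ^ (hNonsplit F N 𝔪).ncard ≤ (hNormGrp F N 𝔪).relIndex (hUF F 𝔪) :=
    Nat.le_of_dvd (Nat.pos_of_ne_zero hidx.1) hdvd
  have hpos : 0 < p ^ (hNonsplit F N 𝔪).ncard := pow_pos (by omega) _
  have h2 := hidx.2
  nlinarith [Nat.mul_le_mul_right p hle']

end Fermat.Agent.S14
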