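/-
S14, block H, package GalVal: Galois action on the primes of `N` and their valuations.
Main theorem: `hgv_main : HGalValStatement`.
General lemmas: `hgv_intValuation_equiv`, `hgv_valuation_equiv` (transport of adic valuations of a
Dedekind domain along a ring automorphism).
-/
import Mathlib
import Fermat.Agent.S14.HInterfaces

set_option autoImplicit false

open NumberField

open scoped Pointwise

namespace Fermat.Agent.S14

open IsDedekindDomain in
/-- Membership in powers of the transported prime. -/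
theorem hgv_mem_pow_equiv {R : Type*} [CommRing R] [IsDedekindDomain R] (e : R ≃+* R)
    (v : HeightOneSpectrum R) (r : R) (n : ℕ) :
    e r ∈ (HeightOneSpectrum.equivOfRingEquiv e v).asIdeal ^ n ↔ r ∈ v.asIdeal ^ n := by
  have h1 : (HeightOneSpectrum.equivOfRingEquiv e v).asIdeal = v.asIdeal.map (e : R →+* R) := by
    change v.asIdeal.comap (e.symm : R →+* R) = _
    exact Ideal.comap_symm e
  rw [h1, ← Ideal.map_pow]
  constructor
  · intro h
    obtain ⟨x, hx, hxe⟩ := (Ideal.mem_map_of_equiv e _).1 h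
    have : x = r := e.injective hxe
    exact this ▸ hx
  · intro h
    exact Ideal.mem_map_of_mem _ h

open IsDedekindDomain in
/-- The adic valuation on `R` transported along a ring automorphism `e`. -/
theorem hgv_intValuation_equiv {R : Type*} [CommRing R] [IsDedekindDomain R] (e : R ≃+* R)
    (v : HeightOneSpectrum R) (r : R) :
    (HeightOneSpectrum.equivOfRingEquiv e v).intValuation (e r) = v.intValuation r := by
  by_cases hr : r = 0
  · subst hr
    simp
  have her : e r ≠ 0 := fun h => hr (by simpa using h)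
  have key : ∀ n : ℕ, (HeightOneSpectrum.equivOfRingEquiv e v).intValuation (e r) ≤
      WithZero.exp (-(n : ℤ)) ↔ v.intValuation r ≤ WithZero.exp (-(n : ℤ)) := by
    intro n
    rw [HeightOneSpectrum.intValuation_le_pow_iff_mem, HeightOneSpectrum.intValuation_le_pow_iff_mem,
      hgv_mem_pow_equiv]
  rw [HeightOneSpectrum.intValuation_if_neg _ her, HeightOneSpectrum.intValuation_if_neg _ hr]
    at key ⊢
  have k1 := (key _).2 le_rfl
  have k2 := (key _).1 le_rfl
  rw [WithZero.exp_le_exp] at k1 k2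
  rw [WithZero.exp_inj]
  omega

open IsDedekindDomain in
/-- The adic valuation on the fraction field transported along compatible automorphisms. -/
theorem hgv_valuation_equiv {R K : Type*} [CommRing R] [IsDedekindDomain R] [Field K] [Algebra R K]
    [IsFractionRing R K] (e : R ≃+* R) (σ : K ≃+* K)
    (h : ∀ r : R, algebraMap R K (e r) = σ (algebraMap R K r))
    (v : HeightOneSpectrum R) (x : K) :
    (HeightOneSpectrum.equivOfRingEquiv e v).valuation K (σ x) = v.valuation K x := by
  obtain ⟨a, b, hb, rfl⟩ := IsFractionRing.div_surjective (A := R) x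
  rw [map_div₀, map_div₀, map_div₀, ← h, ← h, HeightOneSpectrum.valuation_of_algebraMap,
    HeightOneSpectrum.valuation_of_algebraMap, HeightOneSpectrum.valuation_of_algebraMap,
    HeightOneSpectrum.valuation_of_algebraMap, hgv_intValuation_equiv, hgv_intValuation_equiv]

/-- The prime `σ(w)` for `σ ∈ Gal(N/F)` and a prime `w` of `N`. -/
noncomputable def hgv_smul (F N : Type) [Field F] [NumberField F] [Field N] [NumberField N]
    [Algebra F N] (σ : N ≃ₐ[F] N) (w : IsDedekindDomain.HeightOneSpectrum (𝓞 N)) :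
    IsDedekindDomain.HeightOneSpectrum (𝓞 N) :=
  IsDedekindDomain.HeightOneSpectrum.equivOfRingEquiv
    (MulSemiringAction.toRingEquiv (N ≃ₐ[F] N) (𝓞 N) σ) w

theorem hgv_smul_asIdeal (F N : Type) [Field F] [NumberField F] [Field N] [NumberField N]
    [Algebra F N] (σ : N ≃ₐ[F] N) (w : IsDedekindDomain.HeightOneSpectrum (𝓞 N)) :
    (hgv_smul F N σ w).asIdeal = σ • w.asIdeal := by
  change w.asIdeal.comap
    ((MulSemiringAction.toRingEquiv (N ≃ₐ[F] N) (𝓞 N) σ).symm : 𝓞 N →+* 𝓞 N) = _
  exact (Ideal.comap_symm (MulSemiringAction.toRingEquiv (N ≃ₐ[F] N) (𝓞 N) σ)).trans rfl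

theorem hgv_smul_under (F N : Type) [Field F] [NumberField F] [Field N] [NumberField N]
    [Algebra F N] (σ : N ≃ₐ[F] N) (w : IsDedekindDomain.HeightOneSpectrum (𝓞 N)) :
    (hgv_smul F N σ w).asIdeal.under (𝓞 F) = w.asIdeal.under (𝓞 F) := by
  ext a
  rw [Ideal.mem_comap, Ideal.mem_comap]
  change (MulSemiringAction.toRingEquiv (N ≃ₐ[F] N) (𝓞 N) σ).symm (algebraMap (𝓞 F) (𝓞 N) a) ∈
    w.asIdeal ↔ _
  have h : (MulSemiringAction.toRingEquiv (N ≃ₐ[F] N) (𝓞 N) σ).symm (algebraMap (𝓞 F) (𝓞 N) a) =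
      algebraMap (𝓞 F) (𝓞 N) a := by
    rw [RingEquiv.symm_apply_eq]
    change _ = σ • (algebraMap (𝓞 F) (𝓞 N) a)
    apply RingOfIntegers.ext
    have h3 : algebraMap (𝓞 N) N (algebraMap (𝓞 F) (𝓞 N) a) =
        algebraMap F N (algebraMap (𝓞 F) F a) := by
      rw [← IsScalarTower.algebraMap_apply, ← IsScalarTower.algebraMap_apply]
    change algebraMap (𝓞 N) N (algebraMap (𝓞 F) (𝓞 N) a) =
      σ (algebraMap (𝓞 N) N (algebraMap (𝓞 F) (𝓞 N) a))
    rw [h3, σ.commutes]
  rw [h]

theorem hgv_smul_valuation (F N : Type) [Field F] [NumberField F] [Field N] [NumberField N]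
    [Algebra F N] (σ : N ≃ₐ[F] N) (w : IsDedekindDomain.HeightOneSpectrum (𝓞 N)) (x : N) :
    (hgv_smul F N σ w).valuation N (σ x) = w.valuation N x :=
  hgv_valuation_equiv (MulSemiringAction.toRingEquiv (N ≃ₐ[F] N) (𝓞 N) σ)
    (σ : N ≃+* N) (fun _ => rfl) w x

theorem hgv_main : HGalValStatement := by
  intro F N _ _ _ _ _ _
  refine ⟨fun σ w => ⟨hgv_smul F N σ w, hgv_smul_under F N σ w, hgv_smul_valuation F N σ w⟩, ?_⟩
  intro w w' hww'
  have h1 : w.asIdeal.LiesOver (w.asIdeal.under (𝓞 F)) := ⟨rfl⟩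
  have h2 : w'.asIdeal.LiesOver (w.asIdeal.under (𝓞 F)) := ⟨hww'.symm⟩
  obtain ⟨σ, hσ⟩ := Ideal.exists_smul_eq_of_isGaloisGroup (w.asIdeal.under (𝓞 F)) w.asIdeal
    w'.asIdeal (N ≃ₐ[F] N)
  have hw : hgv_smul F N σ w = w' := by
    apply IsDedekindDomain.HeightOneSpectrum.ext
    rw [hgv_smul_asIdeal, hσ]
  exact ⟨σ, fun x => hw ▸ hgv_smul_valuation F N σ w x⟩

end Fermat.Agent.S14
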