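/-
S14, block H, package H90 (twin B): Hilbert 90 for `Σ_N`-units.
`hh90b_main : HGalValStatement → HPrincStatement → HH90Statement`.
-/
import Mathlib
import Fermat.Agent.S14.HInterfaces

set_option autoImplicit false

open NumberField

namespace Fermat.Agent.S14

/-- Field-level Hilbert 90 in the form `w = τ z / z`. -/
theorem hh90b_field {F N : Type} [Field F] [Field N] [Algebra F N] [FiniteDimensional F N]
    [IsGalois F N] (τ : N ≃ₐ[F] N) (hτ : ∀ σ : N ≃ₐ[F] N, ∃ i : ℕ, σ = τ ^ i)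
    (w : N) (hw : Algebra.norm F w = 1) : ∃ z : Nˣ, w = τ (z : N) / (z : N) := by
  have : IsCyclic (N ≃ₐ[F] N) := ⟨τ, fun σ => by
    obtain ⟨i, rfl⟩ := hτ σ
    exact ⟨(i : ℤ), by simp⟩⟩
  have hg : ∀ x, x ∈ Subgroup.zpowers τ := fun σ => by
    obtain ⟨i, rfl⟩ := hτ σ
    exact Subgroup.npow_mem_zpowers τ i
  obtain ⟨y, hy⟩ := groupCohomology.exists_div_of_norm_eq_one hg hw
  refine ⟨y⁻¹, ?_⟩
  rw [← hy]
  have h1 : (y : N) ≠ 0 := y.ne_zero
  have h2 : τ (y : N) ≠ 0 := by simp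
  simp only [Units.val_inv_eq_inv_val, map_inv₀]
  field_simp

/-- Membership in `hUN` in terms of valuations at the primes not above `Σ`. -/
theorem hh90b_mem_hUN {F N : Type} [Field F] [NumberField F] [Field N] [NumberField N]
    [Algebra F N] (𝔪 : Ideal (𝓞 F)) (z : Nˣ) :
    z ∈ hUN F N 𝔪 ↔ ∀ 𝔔 : IsDedekindDomain.HeightOneSpectrum (𝓞 N),
      ¬ 𝔪 ≤ 𝔔.asIdeal.under (𝓞 F) → 𝔔.valuation N (z : N) = 1 := by
  constructor
  · intro h 𝔔 h𝔔
    exact h 𝔔 (fun h' => h𝔔 (Ideal.map_le_iff_le_comap.mp h'))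
  · intro h 𝔔 h𝔔
    exact h 𝔔 (fun h' => h𝔔 (Ideal.map_le_iff_le_comap.mpr h'))

/-- Every height-one prime of `𝓞 F` lies under a height-one prime of `𝓞 N`. -/
theorem hh90b_exists_over {F N : Type} [Field F] [NumberField F] [Field N] [NumberField N]
    [Algebra F N] (v : IsDedekindDomain.HeightOneSpectrum (𝓞 F)) :
    ∃ 𝔔 : IsDedekindDomain.HeightOneSpectrum (𝓞 N), 𝔔.asIdeal.under (𝓞 F) = v.asIdeal := by
  have := v.isPrime
  obtain ⟨Q, hQ1, hQ2⟩ := Ideal.exists_ideal_over_prime_of_isIntegral v.asIdeal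
    (⊥ : Ideal (𝓞 N)) (by simp)
  refine ⟨⟨Q, hQ2.1, ?_⟩, hQ2.2⟩
  rintro rfl
  apply v.ne_bot
  rw [← hQ2.2]
  exact Ideal.comap_bot_of_injective _ (FaithfulSMul.algebraMap_injective (𝓞 F) (𝓞 N))

/-- The valuation of a nonzero element is `1` at all but finitely many primes. -/
theorem hh90b_finite_val {N : Type} [Field N] [NumberField N] (z : Nˣ) :
    {𝔔 : IsDedekindDomain.HeightOneSpectrum (𝓞 N) | 𝔔.valuation N (z : N) ≠ 1}.Finite := by
  obtain ⟨a, b, hb, hab⟩ := IsFractionRing.div_surjective (A := 𝓞 N) (z : N)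
  have hb0 : b ≠ 0 := nonZeroDivisors.ne_zero hb
  have ha0 : a ≠ 0 := by
    rintro rfl
    apply z.ne_zero
    rw [← hab]
    simp
  have hfin : {𝔔 : IsDedekindDomain.HeightOneSpectrum (𝓞 N) |
      𝔔.asIdeal ∣ Ideal.span {a * b}}.Finite :=
    Ideal.finite_factors (by simp [ha0, hb0])
  refine hfin.subset ?_
  intro 𝔔 h𝔔
  simp only [Set.mem_ofPred_eq] at h𝔔 ⊢
  by_contra hdvd
  apply h𝔔
  rw [Ideal.dvd_iff_le, Ideal.span_singleton_le_iff_mem] at hdvd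
  have ha : a ∉ 𝔔.asIdeal := fun h => hdvd (Ideal.mul_mem_right _ _ h)
  have hb' : b ∉ 𝔔.asIdeal := fun h => hdvd (Ideal.mul_mem_left _ _ h)
  have h1 : 𝔔.valuation N (algebraMap (𝓞 N) N a) = 1 := by
    rw [IsDedekindDomain.HeightOneSpectrum.valuation_of_algebraMap]
    by_contra hne
    exact ha ((𝔔.intValuation_lt_one_iff_mem a).mp (lt_of_le_of_ne (𝔔.intValuation_le_one a) hne))
  have h2 : 𝔔.valuation N (algebraMap (𝓞 N) N b) = 1 := by
    rw [IsDedekindDomain.HeightOneSpectrum.valuation_of_algebraMap]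
    by_contra hne
    exact hb' ((𝔔.intValuation_lt_one_iff_mem b).mp (lt_of_le_of_ne (𝔔.intValuation_le_one b) hne))
  rw [← hab, map_div₀, h1, h2, div_one]

/-- Hilbert 90 for `Σ_N`-units. -/
theorem hh90b_main : HGalValStatement → HPrincStatement → HH90Statement := by
  intro hGV hPr p _ F N _ _ _ _ _ ζ x₀ y τ hctx 𝔪 hσ w hw hnorm
  obtain ⟨-, -, -, -, -, -, hunr, hgal, -, hτ, -⟩ := hctx
  obtain ⟨h𝔪, h𝔪x, hclF, -⟩ := hσ
  have := hgal
  obtain ⟨hGV1, hGV2⟩ := hGV F N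
  obtain ⟨z₀, hz₀⟩ := hh90b_field τ hτ (w : N) hnorm
  have hz₀ne : (z₀ : N) ≠ 0 := z₀.ne_zero
  have hτz₀ : τ (z₀ : N) = (w : N) * (z₀ : N) := by
    rw [hz₀, div_mul_cancel₀ _ hz₀ne]
  rw [hh90b_mem_hUN] at hw
  -- every `σ` maps `Σ_N`-units to `Σ_N`-units
  have hσU : ∀ (σ : N ≃ₐ[F] N) (u : N),
      (∀ 𝔔 : IsDedekindDomain.HeightOneSpectrum (𝓞 N),
        ¬ 𝔪 ≤ 𝔔.asIdeal.under (𝓞 F) → 𝔔.valuation N u = 1) →
      ∀ 𝔔 : IsDedekindDomain.HeightOneSpectrum (𝓞 N),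
        ¬ 𝔪 ≤ 𝔔.asIdeal.under (𝓞 F) → 𝔔.valuation N (σ u) = 1 := by
    intro σ u hu 𝔔 h𝔔
    obtain ⟨𝔔', hund, hval⟩ := hGV1 σ⁻¹ 𝔔
    have h1 := hval (σ u)
    have h2 : σ⁻¹ (σ u) = u := σ.symm_apply_apply u
    rw [h2] at h1
    rw [← h1]
    exact hu 𝔔' (by rw [hund]; exact h𝔔)
  -- the valuation of `z₀` outside `Σ_N` is invariant under powers of `τ`
  have hpow : ∀ (i : ℕ) (𝔔 : IsDedekindDomain.HeightOneSpectrum (𝓞 N)),
      ¬ 𝔪 ≤ 𝔔.asIdeal.under (𝓞 F) →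
      𝔔.valuation N ((τ ^ i) (z₀ : N)) = 𝔔.valuation N (z₀ : N) := by
    intro i
    induction i with
    | zero => intro 𝔔 _; simp
    | succ i ih =>
      intro 𝔔 h𝔔
      have h1 : (τ ^ (i + 1)) (z₀ : N) = (τ ^ i) (w : N) * (τ ^ i) (z₀ : N) := by
        rw [pow_succ, AlgEquiv.mul_apply, hτz₀, map_mul]
      rw [h1, map_mul, ih 𝔔 h𝔔, hσU (τ ^ i) (w : N) hw 𝔔 h𝔔, one_mul]
  -- hence it only depends on the prime below
  have hsame : ∀ 𝔔 𝔔' : IsDedekindDomain.HeightOneSpectrum (𝓞 N),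
      ¬ 𝔪 ≤ 𝔔.asIdeal.under (𝓞 F) → 𝔔'.asIdeal.under (𝓞 F) = 𝔔.asIdeal.under (𝓞 F) →
      𝔔'.valuation N (z₀ : N) = 𝔔.valuation N (z₀ : N) := by
    intro 𝔔 𝔔' h𝔔 hund
    obtain ⟨σ, hσ⟩ := hGV2 𝔔 𝔔' hund
    obtain ⟨i, rfl⟩ := hτ σ
    rw [← hσ (z₀ : N)]
    exact (hpow i 𝔔' (by rw [hund]; exact h𝔔)).symm
  -- choose a prime above each prime of `F`
  choose Q hQ using fun v : IsDedekindDomain.HeightOneSpectrum (𝓞 F) =>
    hh90b_exists_over (N := N) v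
  have hQinj : Function.Injective Q := by
    intro v v' hvv'
    apply IsDedekindDomain.HeightOneSpectrum.ext
    rw [← hQ v, ← hQ v', hvv']
  classical
  let n : IsDedekindDomain.HeightOneSpectrum (𝓞 F) → ℤ := fun v =>
    if v ∈ hS 𝔪 then 0 else WithZero.log ((Q v).valuation N (z₀ : N))
  have hnfin : (Function.support n).Finite := by
    have hfin := (hh90b_finite_val z₀).preimage (hQinj.injOn (s := Q ⁻¹' _))
    refine hfin.subset ?_
    intro v hv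
    simp only [Function.mem_support, n] at hv
    simp only [Set.mem_preimage, Set.mem_ofPred_eq]
    intro h1
    apply hv
    rw [h1]
    simp
  obtain ⟨c, hc⟩ := hPr F 𝔪 h𝔪 hclF n hnfin
  refine ⟨z₀ * (Units.map (algebraMap F N : F →* N) c)⁻¹, ?_, ?_⟩
  · rw [hh90b_mem_hUN]
    intro 𝔔 h𝔔
    have hQne : 𝔔.asIdeal.under (𝓞 F) ≠ ⊥ := by
      intro hbot
      exact 𝔔.ne_bot (Ideal.eq_bot_of_comap_eq_bot hbot)
    let v : IsDedekindDomain.HeightOneSpectrum (𝓞 F) :=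
      ⟨𝔔.asIdeal.under (𝓞 F), inferInstance, hQne⟩
    have hv : v ∉ hS 𝔪 := h𝔔
    have : 𝔔.asIdeal.LiesOver v.asIdeal := ⟨rfl⟩
    have hnotT : 𝔔.asIdeal.under (𝓞 F) ∉ tameSet p F x₀ := by
      rintro ⟨-, -, -, k, hk1, -, hk3⟩
      apply h𝔔
      have hk0 : k ≠ 0 := by
        rintro rfl
        exact hk3 (dvd_zero p)
      have hx₀mem : x₀ ∈ 𝔔.asIdeal.under (𝓞 F) := Ideal.pow_le_self hk0 hk1
      exact h𝔪x.trans ((Ideal.span_singleton_le_iff_mem _).mpr hx₀mem)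
    have hram1 : 𝔔.asIdeal.ramificationIdx (𝓞 F) = 1 := hunr 𝔔.asIdeal 𝔔.isPrime 𝔔.ne_bot hnotT
    have hlies := IsDedekindDomain.HeightOneSpectrum.valuation_liesOver N v 𝔔 (c : F)
    rw [Ideal.ramificationIdx'_eq_ramificationIdx v.asIdeal 𝔔.asIdeal v.ne_bot, hram1, pow_one,
      hc v hv] at hlies
    have hnv : n v = WithZero.log ((Q v).valuation N (z₀ : N)) := by
      simp only [n, if_neg hv]
    have hval0 : (Q v).valuation N (z₀ : N) ≠ 0 := by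
      simp
    rw [hnv, WithZero.exp_log hval0, hsame 𝔔 (Q v) h𝔔 (hQ v)] at hlies
    have hval0' : 𝔔.valuation N (z₀ : N) ≠ 0 := by
      simp
    simp only [Units.val_mul, Units.val_inv_eq_inv_val, Units.coe_map, MonoidHom.coe_coe,
      map_mul, map_inv₀]
    rw [← hlies]
    exact mul_inv_cancel₀ hval0'
  · have hc0 : algebraMap F N (c : F) ≠ 0 := by simp
    simp only [Units.val_mul, Units.val_inv_eq_inv_val, Units.coe_map, MonoidHom.coe_coe,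
      map_mul, map_inv₀, AlgEquiv.commutes]
    rw [hz₀]
    field_simp

end Fermat.Agent.S14
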