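/-
S14, block H, package Index: the index of the norms of `Σ_N`-units in the `Σ`-units of `F` is at most
`p ^ (s - 1)`.  Glue/transport: the abstract statement `HAlgStatement` is applied to the ℤ-module
`Additive (hUN F N 𝔪)` with the endomorphism induced by `τ`.
-/
import Mathlib
import Fermat.Agent.S14.HInterfaces

set_option autoImplicit false

open NumberField

namespace Fermat.Agent.S14

/-- The `ℤ`-linear endomorphism of `Additive M` induced by a monoid endomorphism `T` of the ambient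
group preserving the subgroup `M`. -/
noncomputable def hidx_tA {H : Type} [CommGroup H] (T : H →* H) (M : Subgroup H)
    (hTM : ∀ w ∈ M, T w ∈ M) : Additive ↥M →ₗ[ℤ] Additive ↥M :=
  (MonoidHom.toAdditive ((T.comp M.subtype).codRestrict M (fun w => hTM w.1 w.2))).toIntLinearMap

theorem hidx_tA_apply {H : Type} [CommGroup H] (T : H →* H) (M : Subgroup H)
    (hTM : ∀ w ∈ M, T w ∈ M) (x : Additive ↥M) :
    ((hidx_tA T M hTM x).toMul : H) = T (x.toMul : H) := rfl

theorem hidx_tA_pow_apply {H : Type} [CommGroup H] (T : H →* H) (M : Subgroup H)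
    (hTM : ∀ w ∈ M, T w ∈ M) (n : ℕ) (x : Additive ↥M) :
    (((hidx_tA T M hTM ^ n) x).toMul : H) = T^[n] (x.toMul : H) := by
  induction n with
  | zero => simp
  | succ n ih =>
    rw [pow_succ', Module.End.mul_apply, hidx_tA_apply, ih, Function.iterate_succ_apply']

theorem hidx_tA_sum_apply {H : Type} [CommGroup H] (T : H →* H) (M : Subgroup H)
    (hTM : ∀ w ∈ M, T w ∈ M) (s : Finset ℕ) (x : Additive ↥M) :
    (((∑ i ∈ s, hidx_tA T M hTM ^ i) x).toMul : H) = ∏ i ∈ s, T^[i] (x.toMul : H) := by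
  rw [LinearMap.sum_apply, toMul_sum, Subgroup.val_finsetProd]
  exact Finset.prod_congr rfl (fun i _ => hidx_tA_pow_apply T M hTM i x)

/-- The `ℤ`-linear map `Additive U → Additive M` induced by a monoid homomorphism `j` of the ambient
groups mapping the subgroup `U` into the subgroup `M`. -/
noncomputable def hidx_phi {G H : Type} [CommGroup G] [CommGroup H] (j : G →* H) (U : Subgroup G)
    (M : Subgroup H) (hUM : ∀ u ∈ U, j u ∈ M) : Additive ↥U →ₗ[ℤ] Additive ↥M :=
  (MonoidHom.toAdditive ((j.comp U.subtype).codRestrict M (fun u => hUM u.1 u.2))).toIntLinearMap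

theorem hidx_phi_apply {G H : Type} [CommGroup G] [CommGroup H] (j : G →* H) (U : Subgroup G)
    (M : Subgroup H) (hUM : ∀ u ∈ U, j u ∈ M) (x : Additive ↥U) :
    ((hidx_phi j U M hUM x).toMul : H) = j (x.toMul : G) := rfl

/-- The abstract (purely group-theoretic) form of the index bound. -/
theorem hidx_abstract (hAlg : HAlgStatement) (p : ℕ) [Fact p.Prime] (hp3 : 3 ≤ p)
    {G H : Type} [CommGroup G] [CommGroup H] (j : G →* H) (hj : Function.Injective j)
    (T : H →* H) (ν : H →* G) (U : Subgroup G) (M : Subgroup H)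
    [Module.Finite ℤ (Additive ↥M)]
    (hTp : ∀ w : H, T^[p] w = w)
    (hν : ∀ w : H, j (ν w) = ∏ i ∈ Finset.range p, T^[i] w)
    (hfix : ∀ w : H, T w = w → w ∈ Set.range j)
    (hTj : ∀ u : G, T (j u) = j u)
    (hTM : ∀ w ∈ M, T w ∈ M)
    (hUM : ∀ u : G, u ∈ U ↔ j u ∈ M)
    (hH90 : ∀ w ∈ M, ν w = 1 → ∃ z ∈ M, w = T z / z)
    (a y : H) (ha : a ∈ M) (hy : y ∈ M) (hTa : T a = a) (ha1 : a ≠ 1)
    (htors : ∀ w ∈ M, w ^ p = 1 → ∃ n : ℕ, w = a ^ n)
    (hTy : T y = a * y)
    (k : ℕ)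
    (hk : Module.finrank ℤ (Additive ↥M) = Module.finrank ℤ (Additive ↥U) + (p - 1) * k) :
    (M.map ν).relIndex U ≠ 0 ∧
      (M.map ν).relIndex U * p ^ k ≤ p ^ Module.finrank ℤ (Additive ↥U) := by
  set tA := hidx_tA T M hTM with htA
  set φ := hidx_phi j U M (fun u hu => (hUM u).1 hu) with hφ
  have hinj : ∀ x x' : Additive ↥M, (x.toMul : H) = (x'.toMul : H) → x = x' := by
    intro x x' h
    exact Additive.toMul.injective (Subtype.ext h)
  have h1 : tA ^ p = 1 := by
    refine LinearMap.ext fun x => hinj _ _ ?_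
    rw [hidx_tA_pow_apply, hTp]
    rfl
  have h2 : ∀ x : Additive ↥M, (∑ i ∈ Finset.range p, tA ^ i) x = 0 →
      ∃ z : Additive ↥M, x = tA z - z := by
    intro x hx
    have hx' : ∏ i ∈ Finset.range p, T^[i] (x.toMul : H) = 1 := by
      rw [← hidx_tA_sum_apply T M hTM, hx]
      rfl
    have hν1 : ν (x.toMul : H) = 1 := by
      apply hj
      rw [hν, hx', map_one]
    obtain ⟨z, hz, hxz⟩ := hH90 _ x.toMul.2 hν1
    refine ⟨Additive.ofMul ⟨z, hz⟩, hinj _ _ ?_⟩
    rw [hxz]
    rfl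
  have h3 : ∃ a' y' : Additive ↥M, tA a' = a' ∧ a' ≠ 0 ∧
      (∀ b : Additive ↥M, p • b = 0 → b ∈ AddSubgroup.zmultiples a') ∧ tA y' = a' + y' := by
    refine ⟨Additive.ofMul ⟨a, ha⟩, Additive.ofMul ⟨y, hy⟩, hinj _ _ hTa, ?_, ?_, hinj _ _ hTy⟩
    · intro h0
      apply ha1
      have := congrArg (fun x : Additive ↥M => (x.toMul : H)) h0
      exact this
    · intro b hb
      have hb' : (b.toMul : H) ^ p = 1 := by
        have := congrArg (fun x : Additive ↥M => (x.toMul : H)) hb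
        exact this
      obtain ⟨n, hn⟩ := htors _ b.toMul.2 hb'
      rw [AddSubgroup.mem_zmultiples_iff]
      refine ⟨(n : ℤ), hinj _ _ ?_⟩
      rw [natCast_zsmul, hn]
      rfl
  have hφinj : Function.Injective φ := by
    intro x x' h
    have h' := congrArg (fun z : Additive ↥M => (z.toMul : H)) h
    exact Additive.toMul.injective (Subtype.ext (hj h'))
  have hφrange : LinearMap.range φ = LinearMap.ker (tA - 1) := by
    ext x
    rw [LinearMap.mem_range, LinearMap.mem_ker, LinearMap.sub_apply, Module.End.one_apply,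
      sub_eq_zero]
    constructor
    · rintro ⟨u, rfl⟩
      exact hinj _ _ (hTj _)
    · intro hx
      have hx' : T (x.toMul : H) = (x.toMul : H) :=
        congrArg (fun z : Additive ↥M => (z.toMul : H)) hx
      obtain ⟨u, hu⟩ := hfix _ hx'
      have huU : u ∈ U := (hUM u).2 (hu ▸ x.toMul.2)
      exact ⟨Additive.ofMul ⟨u, huU⟩, hinj _ _ hu⟩
  have hrank : Module.finrank ℤ (LinearMap.ker (tA - 1)) = Module.finrank ℤ (Additive ↥U) := by
    rw [← hφrange]
    exact LinearMap.finrank_range_of_inj hφinj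
  have hidx : (LinearMap.range (∑ i ∈ Finset.range p, tA ^ i)).toAddSubgroup.relIndex
      (LinearMap.ker (tA - 1)).toAddSubgroup = (M.map ν).relIndex U := by
    rw [← hφrange, LinearMap.range_toAddSubgroup φ, ← AddSubgroup.index_comap]
    rw [Subgroup.relIndex, ← Subgroup.index_toAddSubgroup]
    congr 1
    ext x
    constructor
    · rintro ⟨w', hw'⟩
      have hw'' : ∏ i ∈ Finset.range p, T^[i] (w'.toMul : H) = j (x.toMul : G) := by
        rw [← hidx_tA_sum_apply T M hTM]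
        exact congrArg (fun z : Additive ↥M => (z.toMul : H)) hw'
      rw [← hν] at hw''
      exact ⟨(w'.toMul : H), w'.toMul.2, hj hw''⟩
    · rintro ⟨w, hw, hwx⟩
      refine ⟨Additive.ofMul ⟨w, hw⟩, hinj _ _ ?_⟩
      rw [hidx_tA_sum_apply T M hTM]
      change ∏ i ∈ Finset.range p, T^[i] w = j (x.toMul : G)
      rw [← hν]
      exact congrArg j hwx
  have hk' : Module.finrank ℤ (Additive ↥M) =
      Module.finrank ℤ (LinearMap.ker (tA - 1)) + (p - 1) * k := by
    rw [hrank]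
    exact hk
  have hmain := hAlg p hp3 (Additive ↥M) tA h1 h2 h3 k hk'
  rw [hidx, hrank] at hmain
  exact hmain

/-- (Index) the index of the norms of `Σ_N`-units in the `Σ`-units of `F` is at most `p ^ (s - 1)`. -/
theorem hidx_main :
    HAlgStatement → HRankStatement → HH90Statement → HUnitsGalStatement → HIndexStatement := by
  intro hAlg hRank hH90 hUG p _ F N _ _ _ _ _ ζ x₀ y τ hctx 𝔪 hσ
  have hctx' := hctx
  obtain ⟨hp3, hζ, hfr, -, -, hyF, -, hgal, hτy, -, -⟩ := hctx'
  have hσ' := hσ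
  obtain ⟨hm0, hmx, -, -⟩ := hσ'
  obtain ⟨hτp, hnorm, hfix, hτM, hUM, hyM, htors⟩ := hUG p F N ζ x₀ y τ hctx 𝔪 hm0 hmx
  have := hgal
  obtain ⟨-, hfin, k, hk1, hk2⟩ := hRank p hp3 F N ζ hζ hfr 𝔪 hm0
  have := hfin
  have hp : p.Prime := Fact.out
  have hinjFN : Function.Injective (algebraMap F N) := (algebraMap F N).injective
  have hiter : ∀ (n : ℕ) (w : Nˣ),
      (((Units.map (τ : N →* N))^[n] w : Nˣ) : N) = (τ ^ n) (w : N) := by
    intro n w
    induction n with
    | zero => simp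
    | succ n ih =>
      rw [Function.iterate_succ_apply', pow_succ', AlgEquiv.mul_apply, ← ih]
      rfl
  have hζ0 : ζ ≠ 0 := hζ.ne_zero hp.ne_zero
  have hy0 : y ≠ 0 := by
    rintro rfl
    exact hyF ⟨0, map_zero _⟩
  -- the hypotheses of the abstract statement
  have hTp : ∀ w : Nˣ, (Units.map (τ : N →* N))^[p] w = w := by
    intro w
    refine Units.ext ?_
    rw [hiter, hτp]
    rfl
  have hν : ∀ w : Nˣ, Units.map (algebraMap F N : F →* N) (Units.map (Algebra.norm F : N →* F) w) =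
      ∏ i ∈ Finset.range p, (Units.map (τ : N →* N))^[i] w := by
    intro w
    refine Units.ext ?_
    rw [Units.coe_prod]
    refine (hnorm (w : N)).trans (Finset.prod_congr rfl fun i _ => ?_)
    rw [hiter]
  have hfix' : ∀ w : Nˣ, Units.map (τ : N →* N) w = w →
      w ∈ Set.range (Units.map (algebraMap F N : F →* N)) := by
    intro w hw
    obtain ⟨f, hf⟩ := hfix (w : N) (congrArg (fun u : Nˣ => (u : N)) hw)
    have hf0 : f ≠ 0 := by
      rintro rfl
      rw [map_zero] at hf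
      exact w.ne_zero hf.symm
    exact ⟨Units.mk0 f hf0, Units.ext hf⟩
  have hTj : ∀ u : Fˣ, Units.map (τ : N →* N) (Units.map (algebraMap F N : F →* N) u) =
      Units.map (algebraMap F N : F →* N) u := by
    intro u
    exact Units.ext (τ.commutes (u : F))
  have hH90' : ∀ w ∈ hUN F N 𝔪, Units.map (Algebra.norm F : N →* F) w = 1 →
      ∃ z ∈ hUN F N 𝔪, w = Units.map (τ : N →* N) z / z := by
    intro w hw hw1
    obtain ⟨z, hz, hwz⟩ := hH90 p F N ζ x₀ y τ hctx 𝔪 hσ w hw
      (congrArg (fun u : Fˣ => (u : F)) hw1)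
    refine ⟨z, hz, Units.ext ?_⟩
    rw [hwz, Units.val_div_eq_div_val]
    rfl
  have haM : Units.map (algebraMap F N : F →* N) (Units.mk0 ζ hζ0) ∈ hUN F N 𝔪 := by
    refine (htors _ ?_).1
    change (algebraMap F N ζ) ^ p = 1
    rw [← map_pow, hζ.pow_eq_one, map_one]
  have hyM' : Units.mk0 y hy0 ∈ hUN F N 𝔪 := hyM _ rfl
  have ha1 : Units.map (algebraMap F N : F →* N) (Units.mk0 ζ hζ0) ≠ 1 := by
    intro h
    have h' : algebraMap F N ζ = 1 := congrArg (fun u : Nˣ => (u : N)) h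
    rw [← map_one (algebraMap F N)] at h'
    exact hζ.ne_one (by omega) (hinjFN h')
  have htors' : ∀ w ∈ hUN F N 𝔪, w ^ p = 1 →
      ∃ n : ℕ, w = Units.map (algebraMap F N : F →* N) (Units.mk0 ζ hζ0) ^ n := by
    intro w _ hw
    have hw' : (w : N) ^ p = 1 := by
      rw [← Units.val_pow_eq_pow_val, hw]
      rfl
    obtain ⟨n, hn⟩ := (htors w hw').2
    refine ⟨n, Units.ext ?_⟩
    rw [hn, Units.val_pow_eq_pow_val]
    rfl
  have hTy : Units.map (τ : N →* N) (Units.mk0 y hy0) =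
      Units.map (algebraMap F N : F →* N) (Units.mk0 ζ hζ0) * Units.mk0 y hy0 :=
    Units.ext hτy
  obtain ⟨hne, hle⟩ := hidx_abstract hAlg p hp3 (Units.map (algebraMap F N : F →* N))
    (Units.map_injective hinjFN) (Units.map (τ : N →* N)) (Units.map (Algebra.norm F : N →* F))
    (hUF F 𝔪) (hUN F N 𝔪) hTp hν hfix' hTj hτM hUM hH90'
    (Units.map (algebraMap F N : F →* N) (Units.mk0 ζ hζ0)) (Units.mk0 y hy0) haM hyM' (hTj _) ha1
    htors' hTy k hk1
  change (hNormGrp F N 𝔪).relIndex (hUF F 𝔪) ≠ 0 at hne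
  change (hNormGrp F N 𝔪).relIndex (hUF F 𝔪) * p ^ k ≤ _ at hle
  refine ⟨hne, ?_⟩
  have hpk : 0 < p ^ k := pow_pos hp.pos k
  refine Nat.le_of_mul_le_mul_left ?_ hpk
  calc p ^ k * ((hNormGrp F N 𝔪).relIndex (hUF F 𝔪) * p)
      = (hNormGrp F N 𝔪).relIndex (hUF F 𝔪) * p ^ k * p := by ring
    _ ≤ p ^ Module.finrank ℤ (Additive ↥(hUF F 𝔪)) * p := Nat.mul_le_mul_right p hle
    _ = p ^ (Module.finrank ℤ (Additive ↥(hUF F 𝔪)) + 1) := (pow_succ _ _).symm
    _ = p ^ k * p ^ (hNonsplit F N 𝔪).ncard := by rw [hk2, pow_add]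

end Fermat.Agent.S14
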