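/-
S14, block H, package Index (twin B): the index bound for the norms of `Σ_N`-units, by transporting the
algebraic statement `HAlgStatement` to the additive group of `hUN F N 𝔪`.
-/
import Mathlib
import Fermat.Agent.S14.HInterfaces

set_option autoImplicit false

open NumberField

namespace Fermat.Agent.S14

section

variable {F N : Type} [Field F] [NumberField F] [Field N] [NumberField N] [Algebra F N]
  (𝔪 : Ideal (𝓞 F)) (τ : N ≃ₐ[F] N)

/-- The restriction of `τ` to the `Σ_N`-units. -/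
noncomputable def hidxb_tauM
    (h : ∀ w : Nˣ, w ∈ hUN F N 𝔪 → Units.map (τ : N →* N) w ∈ hUN F N 𝔪) :
    ↥(hUN F N 𝔪) →* ↥(hUN F N 𝔪) :=
  ((Units.map (τ : N →* N)).comp (hUN F N 𝔪).subtype).codRestrict (hUN F N 𝔪)
    (fun w => h w w.2)

/-- The `ℤ`-linear endomorphism of `Additive (hUN F N 𝔪)` induced by `τ`. -/
noncomputable def hidxb_tauA
    (h : ∀ w : Nˣ, w ∈ hUN F N 𝔪 → Units.map (τ : N →* N) w ∈ hUN F N 𝔪) :
    Additive ↥(hUN F N 𝔪) →ₗ[ℤ] Additive ↥(hUN F N 𝔪) :=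
  (MonoidHom.toAdditive (hidxb_tauM 𝔪 τ h)).toIntLinearMap

/-- The underlying element of `N`. -/
def hidxb_c (a : Additive ↥(hUN F N 𝔪)) : N :=
  (((Additive.toMul a : ↥(hUN F N 𝔪)) : Nˣ) : N)

theorem hidxb_c_injective : Function.Injective (hidxb_c (N := N) 𝔪) := by
  intro a b hab
  unfold hidxb_c at hab
  have h1 : (Additive.toMul a : ↥(hUN F N 𝔪)) = Additive.toMul b :=
    Subtype.ext (Units.ext hab)
  exact Additive.toMul.injective h1

theorem hidxb_c_add (a b : Additive ↥(hUN F N 𝔪)) :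
    hidxb_c 𝔪 (a + b) = hidxb_c 𝔪 a * hidxb_c 𝔪 b := rfl

theorem hidxb_c_zero : hidxb_c (N := N) 𝔪 0 = 1 := rfl

theorem hidxb_c_sub (a b : Additive ↥(hUN F N 𝔪)) :
    hidxb_c 𝔪 (a - b) = hidxb_c 𝔪 a / hidxb_c 𝔪 b := by
  unfold hidxb_c
  rw [toMul_sub, Subgroup.coe_div, Units.val_div_eq_div_val]

theorem hidxb_c_ne_zero (a : Additive ↥(hUN F N 𝔪)) : hidxb_c 𝔪 a ≠ 0 :=
  Units.ne_zero _

theorem hidxb_c_nsmul (n : ℕ) (a : Additive ↥(hUN F N 𝔪)) :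
    hidxb_c 𝔪 (n • a) = hidxb_c 𝔪 a ^ n := by
  induction n with
  | zero => simp [hidxb_c_zero]
  | succ n ih => rw [succ_nsmul, hidxb_c_add, ih, pow_succ]

theorem hidxb_c_sum {ι : Type} (s : Finset ι) (f : ι → Additive ↥(hUN F N 𝔪)) :
    hidxb_c 𝔪 (∑ i ∈ s, f i) = ∏ i ∈ s, hidxb_c 𝔪 (f i) := by
  classical
  induction s using Finset.induction_on with
  | empty => simp [hidxb_c_zero]
  | insert i s hi ih => rw [Finset.sum_insert hi, Finset.prod_insert hi, hidxb_c_add, ih]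

variable (h : ∀ w : Nˣ, w ∈ hUN F N 𝔪 → Units.map (τ : N →* N) w ∈ hUN F N 𝔪)

theorem hidxb_c_tauA (a : Additive ↥(hUN F N 𝔪)) :
    hidxb_c 𝔪 (hidxb_tauA 𝔪 τ h a) = τ (hidxb_c 𝔪 a) := rfl

theorem hidxb_c_tauA_pow (i : ℕ) (a : Additive ↥(hUN F N 𝔪)) :
    hidxb_c 𝔪 ((hidxb_tauA 𝔪 τ h ^ i) a) = (τ ^ i) (hidxb_c 𝔪 a) := by
  induction i generalizing a with
  | zero => simp
  | succ i ih =>
    rw [pow_succ, pow_succ, Module.End.mul_apply, ih, hidxb_c_tauA, AlgEquiv.mul_apply]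

theorem hidxb_c_norm (a : Additive ↥(hUN F N 𝔪)) (p : ℕ) :
    hidxb_c 𝔪 ((∑ i ∈ Finset.range p, hidxb_tauA 𝔪 τ h ^ i) a) =
      ∏ i ∈ Finset.range p, (τ ^ i) (hidxb_c 𝔪 a) := by
  rw [LinearMap.sum_apply, hidxb_c_sum]
  exact Finset.prod_congr rfl (fun i _ => hidxb_c_tauA_pow 𝔪 τ h i a)

variable (hv : ∀ u : Fˣ, u ∈ hUF F 𝔪 ↔ Units.map (algebraMap F N : F →* N) u ∈ hUN F N 𝔪)

/-- The inclusion of the `Σ`-units of `F` into the `Σ_N`-units of `N`. -/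
noncomputable def hidxb_phiM : ↥(hUF F 𝔪) →* ↥(hUN F N 𝔪) :=
  ((Units.map (algebraMap F N : F →* N)).comp (hUF F 𝔪).subtype).codRestrict (hUN F N 𝔪)
    (fun u => (hv u).1 u.2)

/-- The inclusion of the `Σ`-units of `F` into the `Σ_N`-units of `N`, additively. -/
noncomputable def hidxb_psi : Additive ↥(hUF F 𝔪) →ₗ[ℤ] Additive ↥(hUN F N 𝔪) :=
  (MonoidHom.toAdditive (hidxb_phiM 𝔪 hv)).toIntLinearMap

theorem hidxb_c_psi (u : Additive ↥(hUF F 𝔪)) :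
    hidxb_c 𝔪 (hidxb_psi 𝔪 hv u) = algebraMap F N (((Additive.toMul u : ↥(hUF F 𝔪)) : Fˣ) : F) :=
  rfl

theorem hidxb_psi_injective : Function.Injective (hidxb_psi 𝔪 hv) := by
  intro a b hab
  have h1 := congrArg (hidxb_c 𝔪) hab
  rw [hidxb_c_psi, hidxb_c_psi] at h1
  have h2 := (algebraMap F N).injective h1
  have h3 : (Additive.toMul a : ↥(hUF F 𝔪)) = Additive.toMul b := Subtype.ext (Units.ext h2)
  exact Additive.toMul.injective h3

theorem hidxb_range_psi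
    (hfix : ∀ w : N, τ w = w → w ∈ Set.range (algebraMap F N)) :
    LinearMap.range (hidxb_psi 𝔪 hv) = LinearMap.ker (hidxb_tauA 𝔪 τ h - 1) := by
  ext a
  rw [LinearMap.mem_range, LinearMap.mem_ker, LinearMap.sub_apply, Module.End.one_apply, sub_eq_zero]
  constructor
  · rintro ⟨u, rfl⟩
    apply hidxb_c_injective
    rw [hidxb_c_tauA, hidxb_c_psi, AlgEquiv.commutes]
  · intro ha
    have h1 : τ (hidxb_c 𝔪 a) = hidxb_c 𝔪 a := by rw [← hidxb_c_tauA 𝔪 τ h, ha]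
    obtain ⟨f, hf⟩ := hfix _ h1
    have hf0 : f ≠ 0 := by
      rintro rfl
      rw [map_zero] at hf
      exact hidxb_c_ne_zero 𝔪 a hf.symm
    have hu : Units.map (algebraMap F N : F →* N) (Units.mk0 f hf0) =
        ((Additive.toMul a : ↥(hUN F N 𝔪)) : Nˣ) := Units.ext hf
    have hmem : Units.mk0 f hf0 ∈ hUF F 𝔪 := by
      rw [hv, hu]
      exact (Additive.toMul a).2
    refine ⟨Additive.ofMul ⟨Units.mk0 f hf0, hmem⟩, ?_⟩
    apply hidxb_c_injective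
    rw [hidxb_c_psi]
    exact hf

include hv in
theorem hidxb_finrank
    (hfix : ∀ w : N, τ w = w → w ∈ Set.range (algebraMap F N)) :
    Module.finrank ℤ (LinearMap.ker (hidxb_tauA 𝔪 τ h - 1)) =
      Module.finrank ℤ (Additive ↥(hUF F 𝔪)) := by
  rw [← hidxb_range_psi 𝔪 τ h hv hfix]
  exact (LinearEquiv.finrank_eq (LinearEquiv.ofInjective _ (hidxb_psi_injective 𝔪 hv))).symm

include hv in
theorem hidxb_relIndex (p : ℕ)
    (hfix : ∀ w : N, τ w = w → w ∈ Set.range (algebraMap F N))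
    (hnorm : ∀ w : N, algebraMap F N (Algebra.norm F w) = ∏ i ∈ Finset.range p, (τ ^ i) w) :
    (LinearMap.range (∑ i ∈ Finset.range p, hidxb_tauA 𝔪 τ h ^ i)).toAddSubgroup.relIndex
        (LinearMap.ker (hidxb_tauA 𝔪 τ h - 1)).toAddSubgroup =
      (hNormGrp F N 𝔪).relIndex (hUF F 𝔪) := by
  have h0 : (LinearMap.range (hidxb_psi 𝔪 hv)).toAddSubgroup =
      (hidxb_psi 𝔪 hv).toAddMonoidHom.range := LinearMap.range_toAddSubgroup _
  rw [← hidxb_range_psi 𝔪 τ h hv hfix, h0]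
  have h1 := AddSubgroup.index_comap
    (LinearMap.range (∑ i ∈ Finset.range p, hidxb_tauA 𝔪 τ h ^ i)).toAddSubgroup
    (hidxb_psi 𝔪 hv).toAddMonoidHom
  rw [← h1]
  have h2 : AddSubgroup.comap (hidxb_psi 𝔪 hv).toAddMonoidHom
      (LinearMap.range (∑ i ∈ Finset.range p, hidxb_tauA 𝔪 τ h ^ i)).toAddSubgroup =
      Subgroup.toAddSubgroup ((hNormGrp F N 𝔪).subgroupOf (hUF F 𝔪)) := by
    ext u
    rw [AddSubgroup.mem_comap, Submodule.mem_toAddSubgroup, LinearMap.mem_range]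
    constructor
    · rintro ⟨a, ha⟩
      have h3 := congrArg (hidxb_c 𝔪) ha
      rw [hidxb_c_norm, ← hnorm] at h3
      have h4 : Algebra.norm F (hidxb_c 𝔪 a) = (((Additive.toMul u : ↥(hUF F 𝔪)) : Fˣ) : F) :=
        (algebraMap F N).injective h3
      show ((Additive.toMul u : ↥(hUF F 𝔪)) : Fˣ) ∈ hNormGrp F N 𝔪
      refine ⟨((Additive.toMul a : ↥(hUN F N 𝔪)) : Nˣ), (Additive.toMul a).2, Units.ext h4⟩
    · intro hu
      have hu' : ((Additive.toMul u : ↥(hUF F 𝔪)) : Fˣ) ∈ hNormGrp F N 𝔪 := hu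
      obtain ⟨w, hw, hwu⟩ := hu'
      refine ⟨Additive.ofMul ⟨w, hw⟩, ?_⟩
      apply hidxb_c_injective
      rw [hidxb_c_norm, ← hnorm]
      have h5 : Algebra.norm F (w : N) = (((Additive.toMul u : ↥(hUF F 𝔪)) : Fˣ) : F) :=
        congrArg Units.val hwu
      show algebraMap F N (Algebra.norm F (w : N)) = _
      rw [h5]
      rfl
  rw [h2, Subgroup.index_toAddSubgroup]
  rfl

end

/-- (Index) the index of the norms of `Σ_N`-units in the `Σ`-units of `F` is at most `p ^ (s - 1)`. -/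
theorem hidxb_main : HAlgStatement → HRankStatement → HH90Statement → HUnitsGalStatement →
    HIndexStatement := by
  intro hAlg hRank hH90 hUG p _ F N _ _ _ _ _ ζ x₀ y τ hctx 𝔪 hσ
  obtain ⟨hτp, hnorm, hfix, hτmem, hv, hymem, htors⟩ := hUG p F N ζ x₀ y τ hctx 𝔪 hσ.1 hσ.2.1
  have hH := hH90 p F N ζ x₀ y τ hctx 𝔪 hσ
  obtain ⟨hp3, hζ, hfr, -, -, hyF, -, hGal, hτy, -, -⟩ := hctx
  have : IsGalois F N := hGal
  obtain ⟨-, hfinN, k, hk1, hk2⟩ := hRank p hp3 F N ζ hζ hfr 𝔪 hσ.1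
  have := hfinN
  -- (1) `τ_A ^ p = 1`
  have hA1 : hidxb_tauA 𝔪 τ hτmem ^ p = 1 := by
    apply LinearMap.ext
    intro a
    apply hidxb_c_injective
    rw [hidxb_c_tauA_pow, hτp]
    rfl
  -- (2) Hilbert 90
  have hA2 : ∀ x : Additive ↥(hUN F N 𝔪),
      (∑ i ∈ Finset.range p, hidxb_tauA 𝔪 τ hτmem ^ i) x = 0 →
      ∃ z : Additive ↥(hUN F N 𝔪), x = hidxb_tauA 𝔪 τ hτmem z - z := by
    intro x hx
    have h1 := congrArg (hidxb_c 𝔪) hx
    rw [hidxb_c_norm, ← hnorm, hidxb_c_zero] at h1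
    have h2 : Algebra.norm F (hidxb_c 𝔪 x) = 1 := by
      apply (algebraMap F N).injective
      rw [h1, map_one]
    obtain ⟨z, hz, hwz⟩ := hH ((Additive.toMul x : ↥(hUN F N 𝔪)) : Nˣ) (Additive.toMul x).2 h2
    refine ⟨Additive.ofMul ⟨z, hz⟩, ?_⟩
    apply hidxb_c_injective
    rw [hidxb_c_sub, hidxb_c_tauA]
    exact hwz
  -- (3) the elements `ζ` and `y`
  have hζ0 : algebraMap F N ζ ≠ 0 := by
    rw [Ne, map_eq_zero]
    exact hζ.ne_zero (by omega)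
  have hy0 : y ≠ 0 := by
    rintro rfl
    exact hyF ⟨0, map_zero _⟩
  have hζmem : Units.mk0 (algebraMap F N ζ) hζ0 ∈ hUN F N 𝔪 := by
    refine (htors _ ?_).1
    rw [Units.val_mk0, ← map_pow, hζ.pow_eq_one, map_one]
  have hA3 : ∃ a y' : Additive ↥(hUN F N 𝔪), hidxb_tauA 𝔪 τ hτmem a = a ∧ a ≠ 0 ∧
      (∀ b : Additive ↥(hUN F N 𝔪), p • b = 0 → b ∈ AddSubgroup.zmultiples a) ∧
      hidxb_tauA 𝔪 τ hτmem y' = a + y' := by
    refine ⟨Additive.ofMul ⟨Units.mk0 (algebraMap F N ζ) hζ0, hζmem⟩,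
      Additive.ofMul ⟨Units.mk0 y hy0, hymem _ rfl⟩, ?_, ?_, ?_, ?_⟩
    · apply hidxb_c_injective
      rw [hidxb_c_tauA]
      exact τ.commutes ζ
    · intro h0
      have h1 := congrArg (hidxb_c 𝔪) h0
      rw [hidxb_c_zero] at h1
      have h2 : algebraMap F N ζ = 1 := h1
      have h3 : ζ = 1 := (algebraMap F N).injective (by rw [h2, map_one])
      exact hζ.ne_one (by omega) h3
    · intro b hb
      have h1 := congrArg (hidxb_c 𝔪) hb
      rw [hidxb_c_nsmul, hidxb_c_zero] at h1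
      obtain ⟨-, j, hj⟩ := htors ((Additive.toMul b : ↥(hUN F N 𝔪)) : Nˣ) h1
      rw [AddSubgroup.mem_zmultiples_iff]
      refine ⟨(j : ℤ), ?_⟩
      apply hidxb_c_injective
      rw [natCast_zsmul, hidxb_c_nsmul]
      exact hj.symm
    · apply hidxb_c_injective
      rw [hidxb_c_tauA, hidxb_c_add]
      exact hτy
  -- (4) the rank condition
  have hA4 : Module.finrank ℤ (Additive ↥(hUN F N 𝔪)) =
      Module.finrank ℤ (LinearMap.ker (hidxb_tauA 𝔪 τ hτmem - 1)) + (p - 1) * k := by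
    rw [hidxb_finrank 𝔪 τ hτmem hv hfix]
    exact hk1
  obtain ⟨hne, hle⟩ :=
    hAlg p hp3 (Additive ↥(hUN F N 𝔪)) (hidxb_tauA 𝔪 τ hτmem) hA1 hA2 hA3 k hA4
  rw [hidxb_relIndex 𝔪 τ hτmem hv p hfix hnorm] at hne hle
  rw [hidxb_finrank 𝔪 τ hτmem hv hfix] at hle
  refine ⟨hne, ?_⟩
  have hp0 : 0 < p := by omega
  have h1 : p ^ k * ((hNormGrp F N 𝔪).relIndex (hUF F 𝔪) * p) ≤
      p ^ k * p ^ (hNonsplit F N 𝔪).ncard := by
    calc p ^ k * ((hNormGrp F N 𝔪).relIndex (hUF F 𝔪) * p)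
        = (hNormGrp F N 𝔪).relIndex (hUF F 𝔪) * p ^ k * p := by ring
      _ ≤ p ^ Module.finrank ℤ (Additive ↥(hUF F 𝔪)) * p := Nat.mul_le_mul_right p hle
      _ = p ^ (Module.finrank ℤ (Additive ↥(hUF F 𝔪)) + 1) := (pow_succ p _).symm
      _ = p ^ (k + (hNonsplit F N 𝔪).ncard) := by rw [hk2]
      _ = p ^ k * p ^ (hNonsplit F N 𝔪).ncard := pow_add p k _
  exact Nat.le_of_mul_le_mul_left h1 (pow_pos hp0 k)

end Fermat.Agent.S14
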