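/-
S14, block H, package Princ (twin B): realisation of finitely supported exponent families at the
primes not dividing `𝔪` by elements of `Fˣ`, given that every ideal class contains an ideal supported
on the primes dividing `𝔪`.
-/
import Mathlib
import Fermat.Agent.S14.HInterfaces

set_option autoImplicit false

open NumberField

namespace Fermat.Agent.S14

/-- Comparison of `w`-adic valuations in an ideal identity `(x) * v = (y) * 𝔰` when `w ∤ 𝔰`. -/
theorem hprb_key {R : Type} [CommRing R] [IsDedekindDomain R]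
    [DecidableEq (IsDedekindDomain.HeightOneSpectrum R)]
    (v w : IsDedekindDomain.HeightOneSpectrum R) (x y : R) (𝔰 : Ideal R)
    (h : Ideal.span {x} * v.asIdeal = Ideal.span {y} * 𝔰) (hw : ¬ 𝔰 ≤ w.asIdeal) :
    w.intValuation y = w.intValuation x * (if w = v then WithZero.exp (-1 : ℤ) else 1) := by
  obtain ⟨s, hs, hsw⟩ := SetLike.not_le_iff_exists.mp hw
  have hs1 : w.intValuation s = 1 :=
    IsDedekindDomain.HeightOneSpectrum.intValuation_eq_one_iff.mpr hsw
  have h1 : y * s ∈ Ideal.span {x} * v.asIdeal := by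
    rw [h]; exact Ideal.mul_mem_mul (Ideal.mem_span_singleton_self y) hs
  obtain ⟨t, ht, hyt⟩ := Ideal.mem_span_singleton_mul.mp h1
  have e1 : w.intValuation y = w.intValuation x * w.intValuation t := by
    have h3 := congrArg w.intValuation hyt
    rw [map_mul, map_mul, hs1, mul_one] at h3
    exact h3.symm
  have key2 : ∀ t0 ∈ v.asIdeal, w.intValuation x * w.intValuation t0 ≤ w.intValuation y := by
    intro t0 ht0
    have h2 : x * t0 ∈ Ideal.span {y} * 𝔰 := by
      rw [← h]; exact Ideal.mul_mem_mul (Ideal.mem_span_singleton_self x) ht0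
    obtain ⟨s', -, hxs⟩ := Ideal.mem_span_singleton_mul.mp h2
    rw [← map_mul, ← hxs, map_mul]
    exact mul_le_of_le_one_right' (w.intValuation_le_one s')
  split_ifs with hwv
  · subst hwv
    apply le_antisymm
    · rw [e1]
      have h4 : w.intValuation t ≤ WithZero.exp (-((1 : ℕ) : ℤ)) :=
        (w.intValuation_le_pow_iff_mem t 1).mpr (by simpa using ht)
      have h5 : w.intValuation t ≤ WithZero.exp (-1 : ℤ) := by simpa using h4
      exact mul_le_mul' le_rfl h5
    · obtain ⟨π, hπ⟩ := w.intValuation_exists_uniformizer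
      have hπmem : π ∈ w.asIdeal := by
        have h6 := (w.intValuation_le_pow_iff_mem π 1).mp (by simp [hπ])
        simpa using h6
      have h7 := key2 π hπmem
      rwa [hπ] at h7
  · rw [mul_one]
    apply le_antisymm
    · rw [e1]; exact mul_le_of_le_one_right' (w.intValuation_le_one t)
    · have hne : ¬ v.asIdeal ≤ w.asIdeal := by
        intro hle
        apply hwv
        have h8 := v.isMaximal.eq_of_le w.isPrime.ne_top hle
        exact (IsDedekindDomain.HeightOneSpectrum.ext h8).symm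
      obtain ⟨t0, ht0, ht0w⟩ := SetLike.not_le_iff_exists.mp hne
      have h9 := key2 t0 ht0
      rwa [IsDedekindDomain.HeightOneSpectrum.intValuation_eq_one_iff.mpr ht0w, mul_one] at h9

/-- For each prime `v` there is an element of `Fˣ` with valuation `exp (-1)` at `v` and `1` at every
other prime not dividing `𝔪`. -/
theorem hprb_single (F : Type) [Field F] [NumberField F]
    [DecidableEq (IsDedekindDomain.HeightOneSpectrum (𝓞 F))] (𝔪 : Ideal (𝓞 F))
    (hcl : ∀ 𝔟 : Ideal (𝓞 F), 𝔟 ≠ ⊥ → ∃ (x y : 𝓞 F) (𝔰 : Ideal (𝓞 F)), x ≠ 0 ∧ y ≠ 0 ∧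
      Ideal.span {x} * 𝔟 = Ideal.span {y} * 𝔰 ∧
      ∀ 𝔮 : Ideal (𝓞 F), 𝔮.IsPrime → 𝔰 ≤ 𝔮 → 𝔪 ≤ 𝔮)
    (v : IsDedekindDomain.HeightOneSpectrum (𝓞 F)) :
    ∃ c : Fˣ, ∀ w : IsDedekindDomain.HeightOneSpectrum (𝓞 F), w ∉ hS 𝔪 →
      w.valuation F (c : F) = if w = v then WithZero.exp (-1 : ℤ) else 1 := by
  obtain ⟨x, y, 𝔰, hx, hy, hxy, hsupp⟩ := hcl v.asIdeal v.ne_bot
  have hxF : (algebraMap (𝓞 F) F x) ≠ 0 := by
    simpa using hx
  have hyF : (algebraMap (𝓞 F) F y) ≠ 0 := by
    simpa using hy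
  refine ⟨Units.mk0 (algebraMap (𝓞 F) F y / algebraMap (𝓞 F) F x) (div_ne_zero hyF hxF), ?_⟩
  intro w hw
  have hws : ¬ 𝔰 ≤ w.asIdeal := fun hle => hw (hsupp w.asIdeal w.isPrime hle)
  have hk := hprb_key v w x y 𝔰 hxy hws
  have hx0 : w.intValuation x ≠ 0 := w.intValuation_ne_zero x hx
  rw [Units.val_mk0, map_div₀, IsDedekindDomain.HeightOneSpectrum.valuation_of_algebraMap,
    IsDedekindDomain.HeightOneSpectrum.valuation_of_algebraMap, hk, mul_comm,
    mul_div_assoc, div_self hx0, mul_one]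

theorem hprb_main : HPrincStatement := by
  intro F _ _ 𝔪 _ hcl n hfin
  classical
  choose c hc using hprb_single F 𝔪 hcl
  refine ⟨∏ v ∈ hfin.toFinset, c v ^ (-n v), ?_⟩
  intro w hw
  rw [Units.coe_prod, map_prod]
  have hterm : ∀ v ∈ hfin.toFinset,
      w.valuation F ((c v ^ (-n v) : Fˣ) : F) = if w = v then WithZero.exp (n v) else 1 := by
    intro v _
    rw [Units.val_zpow_eq_zpow_val, map_zpow₀, hc v w hw]
    split_ifs with hwv
    · rw [← WithZero.exp_zsmul]
      simp
    · simp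
  rw [Finset.prod_congr rfl hterm, Finset.prod_ite_eq]
  split_ifs with hmem
  · rfl
  · have h0 : n w = 0 := by
      by_contra hne
      exact hmem (hfin.mem_toFinset.mpr hne)
    rw [h0, WithZero.exp_zero]

end Fermat.Agent.S14
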