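/-
S14, block H, package RankPrimes (twin B): counting the primes of `N` above the primes dividing a
nonzero ideal `𝔪` of `F`, in a Galois extension `N/F` of prime degree `p`.
-/
import Fermat.Agent.S14.HInterfaces
import Fermat.Agent.S14.BTrichotomyA

set_option autoImplicit false

open NumberField

namespace Fermat.Agent.S14

/-- Only finitely many height-one primes contain a given nonzero ideal of a Dedekind domain. -/
theorem hrpb_finite {R : Type} [CommRing R] [IsDedekindDomain R] (I : Ideal R) (hI : I ≠ ⊥) :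
    (hS I).Finite := by
  refine (Ideal.finite_factors hI).subset ?_
  intro v hv
  exact Ideal.dvd_iff_le.mpr hv

/-- The extension of a nonzero ideal of `𝓞 F` to `𝓞 N` is nonzero. -/
theorem hrpb_map_ne_bot (F N : Type) [Field F] [NumberField F] [Field N] [NumberField N]
    [Algebra F N] (𝔪 : Ideal (𝓞 F)) (h𝔪 : 𝔪 ≠ ⊥) :
    𝔪.map (algebraMap (𝓞 F) (𝓞 N)) ≠ ⊥ := by
  intro h
  exact h𝔪 ((Ideal.map_eq_bot_iff_of_injective
    (FaithfulSMul.algebraMap_injective (𝓞 F) (𝓞 N))).mp h)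

/-- The prime of `F` below a prime of `N`. -/
noncomputable def hrpb_down (F N : Type) [Field F] [NumberField F] [Field N] [NumberField N]
    [Algebra F N] (w : IsDedekindDomain.HeightOneSpectrum (𝓞 N)) :
    IsDedekindDomain.HeightOneSpectrum (𝓞 F) :=
  ⟨w.asIdeal.under (𝓞 F), (haveI := w.isPrime; inferInstance),
    Ideal.under_ne_bot (𝓞 F) w.ne_bot⟩

theorem hrpb_down_asIdeal (F N : Type) [Field F] [NumberField F] [Field N] [NumberField N]
    [Algebra F N] (w : IsDedekindDomain.HeightOneSpectrum (𝓞 N)) :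
    (hrpb_down F N w).asIdeal = w.asIdeal.under (𝓞 F) := rfl

/-- A prime of `N` divides `𝔪 𝓞_N` iff the prime below it divides `𝔪`. -/
theorem hrpb_mem_hS_map (F N : Type) [Field F] [NumberField F] [Field N] [NumberField N]
    [Algebra F N] (𝔪 : Ideal (𝓞 F)) (w : IsDedekindDomain.HeightOneSpectrum (𝓞 N)) :
    w ∈ hS (𝔪.map (algebraMap (𝓞 F) (𝓞 N))) ↔ hrpb_down F N w ∈ hS 𝔪 := by
  change 𝔪.map (algebraMap (𝓞 F) (𝓞 N)) ≤ w.asIdeal ↔ 𝔪 ≤ w.asIdeal.under (𝓞 F)
  exact Ideal.map_le_iff_le_comap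

/-- The primes of `N` above a prime `v` of `F`, as the image of a fibre of `hrpb_down`. -/
theorem hrpb_fibre (F N : Type) [Field F] [NumberField F] [Field N] [NumberField N]
    [Algebra F N] (v : IsDedekindDomain.HeightOneSpectrum (𝓞 F)) :
    (fun w : IsDedekindDomain.HeightOneSpectrum (𝓞 N) => w.asIdeal) ''
        {w | hrpb_down F N w = v} = v.asIdeal.primesOver (𝓞 N) := by
  ext 𝔔
  constructor
  · rintro ⟨w, hw, rfl⟩
    have hw' : w.asIdeal.under (𝓞 F) = v.asIdeal := by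
      rw [← hrpb_down_asIdeal, hw]
    exact ⟨w.isPrime, ⟨hw'.symm⟩⟩
  · rintro ⟨h𝔔p, ⟨h𝔔o⟩⟩
    have h𝔔0 : 𝔔 ≠ ⊥ := by
      rintro rfl
      apply v.ne_bot
      rw [h𝔔o]
      exact Ideal.under_bot (𝓞 F) (𝓞 N)
    refine ⟨⟨𝔔, h𝔔p, h𝔔0⟩, ?_, rfl⟩
    apply IsDedekindDomain.HeightOneSpectrum.ext
    exact h𝔔o.symm

/-- The number of primes of `N` above `v` is the cardinality of the fibre of `hrpb_down`. -/
theorem hrpb_fibre_ncard (F N : Type) [Field F] [NumberField F] [Field N] [NumberField N]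
    [Algebra F N] (v : IsDedekindDomain.HeightOneSpectrum (𝓞 F)) :
    ({w : IsDedekindDomain.HeightOneSpectrum (𝓞 N) | hrpb_down F N w = v}).ncard =
      (v.asIdeal.primesOver (𝓞 N)).ncard := by
  rw [← hrpb_fibre F N v]
  refine (Set.ncard_image_of_injective _ ?_).symm
  intro w w' h
  exact IsDedekindDomain.HeightOneSpectrum.ext h

/-- The nonsplit primes dividing `𝔪`, as an image of a subset of `hS 𝔪`. -/
theorem hrpb_nonsplit_eq (F N : Type) [Field F] [NumberField F] [Field N] [NumberField N]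
    [Algebra F N] (𝔪 : Ideal (𝓞 F)) (h𝔪 : 𝔪 ≠ ⊥) :
    hNonsplit F N 𝔪 = (fun v : IsDedekindDomain.HeightOneSpectrum (𝓞 F) => v.asIdeal) ''
      {v | v ∈ hS 𝔪 ∧ ¬ SplitsCompletely F N v.asIdeal} := by
  ext 𝔮
  constructor
  · rintro ⟨h𝔮p, h𝔮m, h𝔮s⟩
    have h𝔮0 : 𝔮 ≠ ⊥ := by
      rintro rfl
      exact h𝔪 (le_bot_iff.mp h𝔮m)
    exact ⟨⟨𝔮, h𝔮p, h𝔮0⟩, ⟨h𝔮m, h𝔮s⟩, rfl⟩
  · rintro ⟨v, ⟨hvm, hvs⟩, rfl⟩
    exact ⟨v.isPrime, hvm, hvs⟩

/-- Counting the primes of `N` above the primes dividing `𝔪`. -/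
theorem hrpb_main : HRankPrimesStatement := by
  classical
  intro p hp F N _ _ _ _ _ _ hdeg 𝔪 h𝔪
  have hpp : p.Prime := hp.out
  have hfin : (hS 𝔪).Finite := hrpb_finite 𝔪 h𝔪
  have hfinN : (hS (𝔪.map (algebraMap (𝓞 F) (𝓞 N)))).Finite :=
    hrpb_finite _ (hrpb_map_ne_bot F N 𝔪 h𝔪)
  have hinj : Function.Injective
      (fun v : IsDedekindDomain.HeightOneSpectrum (𝓞 F) => v.asIdeal) := by
    intro v v' h
    exact IsDedekindDomain.HeightOneSpectrum.ext h
  have hns := hrpb_nonsplit_eq F N 𝔪 h𝔪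
  have hsub : {v : IsDedekindDomain.HeightOneSpectrum (𝓞 F) |
      v ∈ hS 𝔪 ∧ ¬ SplitsCompletely F N v.asIdeal} ⊆ hS 𝔪 := fun v hv => hv.1
  have hfin' : ({v : IsDedekindDomain.HeightOneSpectrum (𝓞 F) |
      v ∈ hS 𝔪 ∧ ¬ SplitsCompletely F N v.asIdeal}).Finite := hfin.subset hsub
  have hnsfin : (hNonsplit F N 𝔪).Finite := by
    rw [hns]
    exact hfin'.image _
  have hnscard : (hNonsplit F N 𝔪).ncard =
      (hfin.toFinset.filter (fun v => ¬ SplitsCompletely F N v.asIdeal)).card := by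
    rw [hns, Set.ncard_image_of_injective _ hinj, ← Set.ncard_coe_finset]
    congr 1
    ext v
    simp
  refine ⟨hfin, hfinN, hnsfin, ?_, ?_⟩
  · rw [hnscard, Set.ncard_eq_toFinset_card _ hfin]
    exact Finset.card_filter_le _ _
  · -- fibrewise count
    have hmaps : ∀ w ∈ hfinN.toFinset, hrpb_down F N w ∈ hfin.toFinset := by
      intro w hw
      rw [Set.Finite.mem_toFinset] at hw ⊢
      exact (hrpb_mem_hS_map F N 𝔪 w).mp hw
    have hcard := Finset.card_eq_sum_card_fiberwise hmaps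
    have hfib : ∀ v ∈ hfin.toFinset,
        (hfinN.toFinset.filter (fun w => hrpb_down F N w = v)).card =
          (v.asIdeal.primesOver (𝓞 N)).ncard := by
      intro v hv
      rw [Set.Finite.mem_toFinset] at hv
      rw [← hrpb_fibre_ncard F N v, ← Set.ncard_coe_finset]
      congr 1
      ext w
      simp only [Finset.coe_filter, Set.Finite.mem_toFinset, Set.mem_ofPred_eq]
      constructor
      · exact fun h => h.2
      · intro h
        refine ⟨(hrpb_mem_hS_map F N 𝔪 w).mpr ?_, h⟩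
        rw [h]
        exact hv
    have hlocal : ∀ v ∈ hfin.toFinset,
        (hfinN.toFinset.filter (fun w => hrpb_down F N w = v)).card +
          (p - 1) * (if ¬ SplitsCompletely F N v.asIdeal then 1 else 0) = p := by
      intro v hv
      rw [hfib v hv]
      have hp1 : p ≠ 1 := hpp.ne_one
      have hp0 : 1 ≤ p := hpp.one_le
      rcases bpta_primeTrichotomy p F N hdeg v.asIdeal v.isPrime v.ne_bot with
        ⟨hsp, hg⟩ | ⟨𝔔, h𝔔, he, hf⟩ | ⟨𝔔, h𝔔, he, hf⟩
      · rw [hg, if_neg (not_not.mpr hsp)]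
        simp
      · have hnsp : ¬ SplitsCompletely F N v.asIdeal := by
          intro hsp
          have := (hsp 𝔔 (by rw [h𝔔]; exact Set.mem_singleton 𝔔)).2
          exact hp1 (hf.symm.trans this)
        rw [h𝔔, Set.ncard_singleton, if_pos hnsp]
        omega
      · have hnsp : ¬ SplitsCompletely F N v.asIdeal := by
          intro hsp
          have := (hsp 𝔔 (by rw [h𝔔]; exact Set.mem_singleton 𝔔)).1
          exact hp1 (he.symm.trans this)
        rw [h𝔔, Set.ncard_singleton, if_pos hnsp]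
        omega
    rw [Set.ncard_eq_toFinset_card _ hfinN, Set.ncard_eq_toFinset_card _ hfin, hnscard, hcard,
      Finset.card_filter, Finset.mul_sum, ← Finset.sum_add_distrib, Finset.sum_congr rfl hlocal,
      Finset.sum_const, smul_eq_mul, mul_comm]

end Fermat.Agent.S14
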