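/-
S14, block H, package Real (twin B): realisation.
`hrealb_main : HInertStatement → HNormSuppStatement → HRealStatement`.
-/
import Mathlib
import Fermat.Agent.S14.HInterfaces

set_option autoImplicit false

open NumberField

namespace Fermat.Agent.S14

/-- The multiplicity of the height-one prime `v` in the ideal `J` (meaningful for `J ≠ ⊥`). -/
noncomputable def hrealb_cnt {R : Type} [CommRing R] [IsDedekindDomain R]
    (v : IsDedekindDomain.HeightOneSpectrum R) (J : Ideal R) : ℕ :=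
  (Associates.mk v.asIdeal).count (Associates.mk J).factors

theorem hrealb_cnt_mul {R : Type} [CommRing R] [IsDedekindDomain R]
    (v : IsDedekindDomain.HeightOneSpectrum R) {J J' : Ideal R} (hJ : J ≠ ⊥) (hJ' : J' ≠ ⊥) :
    hrealb_cnt v (J * J') = hrealb_cnt v J + hrealb_cnt v J' := by
  unfold hrealb_cnt
  rw [← Associates.mk_mul_mk]
  exact Associates.count_mul (Associates.mk_ne_zero.mpr hJ) (Associates.mk_ne_zero.mpr hJ')
    v.associates_irreducible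

theorem hrealb_cnt_self {R : Type} [CommRing R] [IsDedekindDomain R]
    (v : IsDedekindDomain.HeightOneSpectrum R) : hrealb_cnt v v.asIdeal = 1 := by
  unfold hrealb_cnt
  exact Associates.count_self v.associates_irreducible

theorem hrealb_cnt_pow {R : Type} [CommRing R] [IsDedekindDomain R]
    (v : IsDedekindDomain.HeightOneSpectrum R) {J : Ideal R} (hJ : J ≠ ⊥) (k : ℕ) :
    hrealb_cnt v (J ^ k) = k * hrealb_cnt v J := by
  unfold hrealb_cnt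
  rw [Associates.mk_pow]
  exact Associates.count_pow (Associates.mk_ne_zero.mpr hJ) v.associates_irreducible k

theorem hrealb_cnt_eq_zero {R : Type} [CommRing R] [IsDedekindDomain R]
    (v : IsDedekindDomain.HeightOneSpectrum R) {J : Ideal R} (hJ : J ≠ ⊥) (h : ¬ J ≤ v.asIdeal) :
    hrealb_cnt v J = 0 := by
  unfold hrealb_cnt
  by_contra hne
  exact h (Ideal.le_of_dvd ((Associates.count_ne_zero_iff_dvd hJ v.irreducible).mp hne))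

theorem hrealb_cnt_one {R : Type} [CommRing R] [IsDedekindDomain R]
    (v : IsDedekindDomain.HeightOneSpectrum R) : hrealb_cnt v (1 : Ideal R) = 0 := by
  apply hrealb_cnt_eq_zero v (by simp)
  rw [Ideal.one_eq_top]
  intro h
  exact v.isPrime.ne_top (top_le_iff.mp h)

open scoped Classical in
/-- The multiplicity of `v` in a product of prime powers. -/
theorem hrealb_cnt_prod {R : Type} [CommRing R] [IsDedekindDomain R]
    (v : IsDedekindDomain.HeightOneSpectrum R)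
    (s : Finset (IsDedekindDomain.HeightOneSpectrum R))
    (n : IsDedekindDomain.HeightOneSpectrum R → ℕ) :
    (∏ w ∈ s, w.asIdeal ^ n w) ≠ ⊥ ∧
    hrealb_cnt v (∏ w ∈ s, w.asIdeal ^ n w) = if v ∈ s then n v else 0 := by
  induction s using Finset.induction_on with
  | empty => exact ⟨by simp, by simpa using hrealb_cnt_one v⟩
  | insert w s hw ih =>
    obtain ⟨ih1, ih2⟩ := ih
    have hwpow : w.asIdeal ^ n w ≠ ⊥ := pow_ne_zero _ w.ne_bot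
    rw [Finset.prod_insert hw]
    refine ⟨mul_ne_zero hwpow ih1, ?_⟩
    rw [hrealb_cnt_mul v hwpow ih1, ih2, hrealb_cnt_pow v w.ne_bot]
    by_cases hvw : v = w
    · subst hvw
      simp [hw, hrealb_cnt_self]
    · have hle : ¬ w.asIdeal ≤ v.asIdeal := by
        intro hle
        apply hvw
        have := w.isMaximal.eq_of_le v.isPrime.ne_top hle
        exact (IsDedekindDomain.HeightOneSpectrum.ext this).symm
      rw [hrealb_cnt_eq_zero v w.ne_bot hle]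
      simp [hvw]

/-- The valuation of a quotient of two nonzero elements in terms of multiplicities. -/
theorem hrealb_valuation_div {R : Type} [CommRing R] [IsDedekindDomain R]
    (K : Type) [Field K] [Algebra R K] [IsFractionRing R K]
    (v : IsDedekindDomain.HeightOneSpectrum R) {r s : R} (hr : r ≠ 0) (hs : s ≠ 0) :
    v.valuation K (algebraMap R K r / algebraMap R K s) =
      WithZero.exp ((hrealb_cnt v (Ideal.span {s}) : ℤ) - (hrealb_cnt v (Ideal.span {r}) : ℤ)) := by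
  rw [map_div₀, IsDedekindDomain.HeightOneSpectrum.valuation_of_algebraMap,
    IsDedekindDomain.HeightOneSpectrum.valuation_of_algebraMap,
    v.intValuation_if_neg hr, v.intValuation_if_neg hs, ← WithZero.exp_sub]
  unfold hrealb_cnt
  congr 1
  ring

/-- Multiplicities in an identity `(r) * J = (s) * J'` of nonzero ideals. -/
theorem hrealb_valuation_of_eq {R : Type} [CommRing R] [IsDedekindDomain R]
    (K : Type) [Field K] [Algebra R K] [IsFractionRing R K]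
    (v : IsDedekindDomain.HeightOneSpectrum R) {r s : R} (hr : r ≠ 0) (hs : s ≠ 0)
    {J J' : Ideal R} (hJ : J ≠ ⊥) (hJ' : J' ≠ ⊥)
    (h : Ideal.span {r} * J = Ideal.span {s} * J') :
    v.valuation K (algebraMap R K r / algebraMap R K s) =
      WithZero.exp ((hrealb_cnt v J : ℤ) - (hrealb_cnt v J' : ℤ)) := by
  have hr' : Ideal.span {r} ≠ (⊥ : Ideal R) := by
    rw [Ne, Ideal.span_singleton_eq_bot]; exact hr
  have hs' : Ideal.span {s} ≠ (⊥ : Ideal R) := by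
    rw [Ne, Ideal.span_singleton_eq_bot]; exact hs
  have h1 := congrArg (hrealb_cnt v) h
  rw [hrealb_cnt_mul v hr' hJ, hrealb_cnt_mul v hs' hJ'] at h1
  rw [hrealb_valuation_div K v hr hs]
  congr 1
  omega

/-- The integral norm of a nonzero element is nonzero. -/
theorem hrealb_intNorm_ne_zero (F N : Type) [Field F] [NumberField F] [Field N] [NumberField N]
    [Algebra F N] {r : 𝓞 N} (hr : r ≠ 0) : Algebra.intNorm (𝓞 F) (𝓞 N) r ≠ 0 := by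
  intro h
  have h1 : Ideal.relNorm (𝓞 F) (Ideal.span ({r} : Set (𝓞 N))) = ⊥ := by
    rw [Ideal.relNorm_singleton, h]
    simp
  rw [Ideal.relNorm_eq_bot_iff, Ideal.span_singleton_eq_bot] at h1
  exact hr h1

/-- The integral norm is the field norm. -/
theorem hrealb_coe_intNorm (F N : Type) [Field F] [NumberField F] [Field N] [NumberField N]
    [Algebra F N] (r : 𝓞 N) :
    ((Algebra.intNorm (𝓞 F) (𝓞 N) r : 𝓞 F) : F) = Algebra.norm F (r : N) :=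
  Algebra.algebraMap_intNorm (A := 𝓞 F) (K := F) (L := N) (B := 𝓞 N) r

theorem hrealb_main : HInertStatement → HNormSuppStatement → HRealStatement := by
  intro hInert hNormSupp p _ F N _ _ _ _ _ ζ x₀ y τ hctx 𝔪 hσ hall a₀ ha₀ n
  classical
  obtain ⟨hp3, hζ, hfin, hx₀, hy, hyn, hunr, hgal, hτy, hτgen, hram⟩ := hctx
  obtain ⟨h𝔪, h𝔪x, hσF, hσN⟩ := hσ
  have hgal' : IsGalois F N := hgal
  -- the primes dividing `𝔪` form a finite set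
  have hfinS : {v : IsDedekindDomain.HeightOneSpectrum (𝓞 F) | 𝔪 ≤ v.asIdeal}.Finite :=
    (Ideal.finite_factors (I := 𝔪) h𝔪).subset (fun v hv => Ideal.dvd_iff_le.mpr hv)
  -- tame primes contain `𝔪`
  have hT𝔪 : ∀ 𝔮 ∈ tameSet p F x₀, 𝔪 ≤ 𝔮 := by
    rintro 𝔮 ⟨hq, hq0, hpq, k, hk1, hk2, hk3⟩
    have hk0 : k ≠ 0 := by rintro rfl; exact hk3 (dvd_zero p)
    have : x₀ ∈ 𝔮 := Ideal.pow_le_self hk0 hk1
    exact h𝔪x.trans ((Ideal.span_singleton_le_iff_mem _).mpr this)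
  set S : Finset (IsDedekindDomain.HeightOneSpectrum (𝓞 F)) := hfinS.toFinset with hSdef
  have hSmem : ∀ v, v ∈ S ↔ 𝔪 ≤ v.asIdeal := by intro v; simp [hSdef]
  set I : Finset (IsDedekindDomain.HeightOneSpectrum (𝓞 F)) :=
    S.filter (fun v => v.asIdeal ∈ hNonsplit F N 𝔪 ∧ v.asIdeal ∉ tameSet p F x₀) with hI
  -- CRT
  obtain ⟨a, ha0, haT⟩ : ∃ a : 𝓞 F, a ≠ 0 ∧ ∀ 𝔮 ∈ tameSet p F x₀, a - a₀ 𝔮 ∈ 𝔮 := by
    obtain ⟨a, ha⟩ := IsDedekindDomain.exists_forall_sub_mem_ideal (s := S)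
      (fun v => v.asIdeal) (fun _ => 1) (fun v _ => v.prime)
      (fun v _ w _ hvw h => hvw (IsDedekindDomain.HeightOneSpectrum.ext h))
      (fun v => a₀ v.1.asIdeal)
    have haT : ∀ 𝔮 ∈ tameSet p F x₀, a - a₀ 𝔮 ∈ 𝔮 := by
      intro 𝔮 hq
      have hq' := hq
      obtain ⟨hqp, hq0, -⟩ := hq'
      have := ha ⟨𝔮, hqp, hq0⟩ ((hSmem _).mpr (hT𝔪 𝔮 hq))
      simpa using this
    by_cases ha0 : a = 0
    · obtain ⟨m, hm, hm0⟩ := Submodule.exists_mem_ne_zero_of_ne_bot h𝔪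
      refine ⟨m, hm0, fun 𝔮 hq => ?_⟩
      have h1 := haT 𝔮 hq
      rw [ha0] at h1
      have h2 : m ∈ 𝔮 := hT𝔪 𝔮 hq hm
      have : m - a₀ 𝔮 = m + (0 - a₀ 𝔮) := by ring
      rw [this]
      exact 𝔮.add_mem h2 h1
    · exact ⟨a, ha0, haT⟩
  -- the ideal `𝔞 = (a) * P`
  set P : Ideal (𝓞 F) := ∏ v ∈ I, v.asIdeal ^ n v with hP
  have hP0 : P ≠ ⊥ := by
    rw [hP]; exact Finset.prod_ne_zero_iff.mpr (fun v _ => pow_ne_zero _ v.ne_bot)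
  have hspa : Ideal.span {a} ≠ (⊥ : Ideal (𝓞 F)) := by
    rw [Ne, Ideal.span_singleton_eq_bot]; exact ha0
  have h𝔞0 : Ideal.span {a} * P ≠ ⊥ := mul_ne_zero hspa hP0
  have h𝔞T : ∀ 𝔮 ∈ tameSet p F x₀, ¬ Ideal.span {a} * P ≤ 𝔮 := by
    intro 𝔮 hq hle
    have hq' := hq
    obtain ⟨hqp, hq0, -⟩ := hq'
    rcases (Ideal.IsPrime.mul_le hqp).mp hle with h | h
    · have ha𝔮 : a ∈ 𝔮 := (Ideal.span_singleton_le_iff_mem _).mp h
      apply ha₀ 𝔮 hq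
      have : a₀ 𝔮 = a - (a - a₀ 𝔮) := by ring
      rw [this]; exact 𝔮.sub_mem ha𝔮 (haT 𝔮 hq)
    · obtain ⟨v, hvI, hv⟩ := (Ideal.IsPrime.prod_le hqp).mp h
      have hv' : v.asIdeal ≤ 𝔮 := Ideal.IsPrime.le_of_pow_le hv
      have hveq : v.asIdeal = 𝔮 := v.isMaximal.eq_of_le hqp.ne_top hv'
      have hvI' := (Finset.mem_filter.mp hvI).2.2
      exact hvI' (hveq ▸ hq)
  obtain ⟨β₁, β₂, 𝔄₁, 𝔄₂, hβ₁, hβ₂, h𝔄₁, h𝔄₂, hT, heq⟩ := hall _ h𝔞0 h𝔞T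
  obtain ⟨μ₁, ν₁, 𝔖₁, hμ₁, hν₁, he₁, hs₁⟩ := hσN 𝔄₁ h𝔄₁
  obtain ⟨μ₂, ν₂, 𝔖₂, hμ₂, hν₂, he₂, hs₂⟩ := hσN 𝔄₂ h𝔄₂
  -- nonvanishing of the `𝔖ᵢ`
  have hspμ₁ : Ideal.span {μ₁} ≠ (⊥ : Ideal (𝓞 N)) := by
    rw [Ne, Ideal.span_singleton_eq_bot]; exact hμ₁
  have hspμ₂ : Ideal.span {μ₂} ≠ (⊥ : Ideal (𝓞 N)) := by
    rw [Ne, Ideal.span_singleton_eq_bot]; exact hμ₂
  have h𝔖₁ : 𝔖₁ ≠ ⊥ := by
    rintro rfl
    rw [Ideal.mul_bot] at he₁
    exact mul_ne_zero hspμ₁ h𝔄₁ he₁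
  have h𝔖₂ : 𝔖₂ ≠ ⊥ := by
    rintro rfl
    rw [Ideal.mul_bot] at he₂
    exact mul_ne_zero hspμ₂ h𝔄₂ he₂
  have hN𝔖₁ : Ideal.relNorm (𝓞 F) 𝔖₁ ≠ ⊥ := by
    rw [Ne, Ideal.relNorm_eq_bot_iff]; exact h𝔖₁
  have hN𝔖₂ : Ideal.relNorm (𝓞 F) 𝔖₂ ≠ ⊥ := by
    rw [Ne, Ideal.relNorm_eq_bot_iff]; exact h𝔖₂
  -- norms of the relations
  have e₁ := congrArg (Ideal.relNorm (𝓞 F)) he₁
  have e₂ := congrArg (Ideal.relNorm (𝓞 F)) he₂
  rw [map_mul, map_mul, Ideal.relNorm_singleton, Ideal.relNorm_singleton] at e₁ e₂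
  set Nμ₁ : 𝓞 F := Algebra.intNorm (𝓞 F) (𝓞 N) μ₁ with hNμ₁
  set Nν₁ : 𝓞 F := Algebra.intNorm (𝓞 F) (𝓞 N) ν₁ with hNν₁
  set Nμ₂ : 𝓞 F := Algebra.intNorm (𝓞 F) (𝓞 N) μ₂ with hNμ₂
  set Nν₂ : 𝓞 F := Algebra.intNorm (𝓞 F) (𝓞 N) ν₂ with hNν₂
  have hNμ₁0 : Nμ₁ ≠ 0 := hrealb_intNorm_ne_zero F N hμ₁
  have hNν₁0 : Nν₁ ≠ 0 := hrealb_intNorm_ne_zero F N hν₁
  have hNμ₂0 : Nμ₂ ≠ 0 := hrealb_intNorm_ne_zero F N hμ₂
  have hNν₂0 : Nν₂ ≠ 0 := hrealb_intNorm_ne_zero F N hν₂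
  set r : 𝓞 F := a * β₂ * Nμ₁ * Nν₂ with hr
  set s : 𝓞 F := β₁ * Nμ₂ * Nν₁ with hs
  have hr0 : r ≠ 0 := mul_ne_zero (mul_ne_zero (mul_ne_zero ha0 hβ₂) hNμ₁0) hNν₂0
  have hs0 : s ≠ 0 := mul_ne_zero (mul_ne_zero hβ₁ hNμ₂0) hNν₁0
  have key : Ideal.span {r} * (P * Ideal.relNorm (𝓞 F) 𝔖₂) =
      Ideal.span {s} * Ideal.relNorm (𝓞 F) 𝔖₁ := by
    rw [hr, hs]
    simp only [← Ideal.span_singleton_mul_span_singleton]
    calc Ideal.span {a} * Ideal.span {β₂} * Ideal.span {Nμ₁} * Ideal.span {Nν₂} *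
          (P * Ideal.relNorm (𝓞 F) 𝔖₂)
        = Ideal.span {a} * P * Ideal.span {β₂} * Ideal.span {Nμ₁} *
          (Ideal.span {Nν₂} * Ideal.relNorm (𝓞 F) 𝔖₂) := by ring
      _ = Ideal.span {a} * P * Ideal.span {β₂} * Ideal.span {Nμ₁} *
          (Ideal.span {Nμ₂} * Ideal.relNorm (𝓞 F) 𝔄₂) := by rw [e₂]
      _ = (Ideal.span {a} * P * Ideal.span {β₂} * Ideal.relNorm (𝓞 F) 𝔄₂) *
          Ideal.span {Nμ₁} * Ideal.span {Nμ₂} := by ring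
      _ = (Ideal.span {β₁} * Ideal.relNorm (𝓞 F) 𝔄₁) *
          Ideal.span {Nμ₁} * Ideal.span {Nμ₂} := by rw [heq]
      _ = Ideal.span {β₁} * Ideal.span {Nμ₂} *
          (Ideal.span {Nμ₁} * Ideal.relNorm (𝓞 F) 𝔄₁) := by ring
      _ = Ideal.span {β₁} * Ideal.span {Nμ₂} *
          (Ideal.span {Nν₁} * Ideal.relNorm (𝓞 F) 𝔖₁) := by rw [e₁]
      _ = Ideal.span {β₁} * Ideal.span {Nμ₂} * Ideal.span {Nν₁} *
          Ideal.relNorm (𝓞 F) 𝔖₁ := by ring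
  have hPS₂ : P * Ideal.relNorm (𝓞 F) 𝔖₂ ≠ ⊥ := mul_ne_zero hP0 hN𝔖₂
  -- valuations of `r / s`
  have hval : ∀ v : IsDedekindDomain.HeightOneSpectrum (𝓞 F),
      v.valuation F ((r : F) / (s : F)) =
        WithZero.exp (((if v ∈ I then n v else 0 : ℕ) : ℤ) +
          (hrealb_cnt v (Ideal.relNorm (𝓞 F) 𝔖₂) : ℤ) -
          (hrealb_cnt v (Ideal.relNorm (𝓞 F) 𝔖₁) : ℤ)) := by
    intro v
    have h1 := hrealb_valuation_of_eq F v hr0 hs0 hPS₂ hN𝔖₁ key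
    rw [hrealb_cnt_mul v hP0 hN𝔖₂, (hrealb_cnt_prod v I n).2] at h1
    rw [show ((r : F) / (s : F)) = algebraMap (𝓞 F) F r / algebraMap (𝓞 F) F s from rfl, h1]
    push_cast
    rfl
  -- the units
  have hrF : (r : F) ≠ 0 := by
    rw [Ne, NumberField.RingOfIntegers.coe_eq_zero_iff]; exact hr0
  have hsF : (s : F) ≠ 0 := by
    rw [Ne, NumberField.RingOfIntegers.coe_eq_zero_iff]; exact hs0
  have hμ₁N : (μ₁ : N) ≠ 0 := by
    rw [Ne, NumberField.RingOfIntegers.coe_eq_zero_iff]; exact hμ₁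
  have hν₁N : (ν₁ : N) ≠ 0 := by
    rw [Ne, NumberField.RingOfIntegers.coe_eq_zero_iff]; exact hν₁
  have hμ₂N : (μ₂ : N) ≠ 0 := by
    rw [Ne, NumberField.RingOfIntegers.coe_eq_zero_iff]; exact hμ₂
  have hν₂N : (ν₂ : N) ≠ 0 := by
    rw [Ne, NumberField.RingOfIntegers.coe_eq_zero_iff]; exact hν₂
  refine ⟨Units.mk0 ((r : F) / (s : F)) (div_ne_zero hrF hsF), a, β₁, β₂,
    Units.mk0 ((μ₁ : N) * (ν₂ : N) / ((μ₂ : N) * (ν₁ : N)))
      (div_ne_zero (mul_ne_zero hμ₁N hν₂N) (mul_ne_zero hμ₂N hν₁N)), ?_, ha0, hβ₁, hβ₂, ?_, ?_, ?_⟩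
  · -- `u` is a `Σ`-unit
    show ∀ v, v ∉ hS 𝔪 → v.valuation F
      ((Units.mk0 ((r : F) / (s : F)) (div_ne_zero hrF hsF) : Fˣ) : F) = 1
    intro v hv
    rw [Units.val_mk0, hval v]
    have hvI : v ∉ I := fun h => hv ((hSmem v).mp (Finset.mem_filter.mp h).1)
    have hc : ∀ 𝔖 : Ideal (𝓞 N), 𝔖 ≠ ⊥ →
        (∀ 𝔔 : Ideal (𝓞 N), 𝔔.IsPrime → 𝔖 ≤ 𝔔 → 𝔪 ≤ 𝔔.under (𝓞 F)) →
        hrealb_cnt v (Ideal.relNorm (𝓞 F) 𝔖) = 0 := by
      intro 𝔖 h𝔖 hs'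
      apply hrealb_cnt_eq_zero v (by rw [Ne, Ideal.relNorm_eq_bot_iff]; exact h𝔖)
      intro hle
      obtain ⟨𝔔, hQ, hQle, hQu⟩ := hNormSupp F N 𝔖 v.asIdeal h𝔖 v.isPrime hle
      have h1 : 𝔪 ≤ 𝔔.under (𝓞 F) := hs' 𝔔 hQ hQle
      rw [hQu] at h1
      exact hv h1
    rw [hc 𝔖₁ h𝔖₁ hs₁, hc 𝔖₂ h𝔖₂ hs₂, if_neg hvI]
    simp
  · -- the norm equation
    rw [Units.val_mk0, Units.val_mk0]
    have hNμ₂F : ((Nμ₂ : 𝓞 F) : F) ≠ 0 := by
      rw [Ne, NumberField.RingOfIntegers.coe_eq_zero_iff]; exact hNμ₂0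
    have hNν₁F : ((Nν₁ : 𝓞 F) : F) ≠ 0 := by
      rw [Ne, NumberField.RingOfIntegers.coe_eq_zero_iff]; exact hNν₁0
    have hβ₁F : ((β₁ : 𝓞 F) : F) ≠ 0 := by
      rw [Ne, NumberField.RingOfIntegers.coe_eq_zero_iff]; exact hβ₁
    have hw : Algebra.norm F ((μ₁ : N) * (ν₂ : N) / ((μ₂ : N) * (ν₁ : N))) *
        ((Nμ₂ : F) * (Nν₁ : F)) = (Nμ₁ : F) * (Nν₂ : F) := by
      rw [hNμ₁, hNμ₂, hNν₁, hNν₂, hrealb_coe_intNorm, hrealb_coe_intNorm, hrealb_coe_intNorm,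
        hrealb_coe_intNorm, ← map_mul (Algebra.norm F), ← map_mul (Algebra.norm F),
        ← map_mul (Algebra.norm F)]
      congr 1
      field_simp
    have hrc : (r : F) = (a : F) * (β₂ : F) * (Nμ₁ : F) * (Nν₂ : F) := by
      rw [hr]; simp only [map_mul]
    have hsc : (s : F) = (β₁ : F) * (Nμ₂ : F) * (Nν₁ : F) := by
      rw [hs]; simp only [map_mul]
    rw [hrc, hsc]
    generalize Algebra.norm F ((μ₁ : N) * (ν₂ : N) / ((μ₂ : N) * (ν₁ : N))) = X at hw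
    field_simp
    linear_combination (-(a : F) * (β₂ : F)) * hw
  · -- conditions at `T'`
    intro 𝔮 hq
    obtain ⟨h1, h2, h3, -, -⟩ := hT 𝔮 hq
    exact ⟨haT 𝔮 hq, h1, h2, h3⟩
  · -- valuations at the nonsplit primes
    intro v hvns hvT
    have hvS : v ∈ S := (hSmem v).mpr hvns.2.1
    have hvI : v ∈ I := Finset.mem_filter.mpr ⟨hvS, hvns, hvT⟩
    have hunr_v : ∀ 𝔔 ∈ v.asIdeal.primesOver (𝓞 N), 𝔔.ramificationIdx (𝓞 F) = 1 := by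
      intro 𝔔 hQ
      have hQp : 𝔔.IsPrime := hQ.1
      have hQo : 𝔔.LiesOver v.asIdeal := hQ.2
      have hu : 𝔔.under (𝓞 F) = v.asIdeal := (Ideal.over_def 𝔔 v.asIdeal).symm
      exact hunr 𝔔 hQp (Ideal.ne_bot_of_mem_primesOver v.ne_bot hQ) (hu ▸ hvT)
    have hc : ∀ 𝔖 : Ideal (𝓞 N), 𝔖 ≠ ⊥ →
        ∃ k : ℕ, hrealb_cnt v (Ideal.relNorm (𝓞 F) 𝔖) = p * k := by
      intro 𝔖 h𝔖
      obtain ⟨k, 𝔟, hk, h𝔟⟩ := hInert p F N hfin v.asIdeal v.isPrime v.ne_bot hunr_v hvns.2.2 𝔖 h𝔖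
      have h𝔟0 : 𝔟 ≠ ⊥ := by
        rintro rfl
        exact h𝔟 bot_le
      refine ⟨k, ?_⟩
      rw [hk, hrealb_cnt_mul v (pow_ne_zero _ v.ne_bot) h𝔟0, hrealb_cnt_pow v v.ne_bot,
        hrealb_cnt_self, hrealb_cnt_eq_zero v h𝔟0 h𝔟]
      ring
    obtain ⟨k₁, hk₁⟩ := hc 𝔖₁ h𝔖₁
    obtain ⟨k₂, hk₂⟩ := hc 𝔖₂ h𝔖₂
    refine ⟨(k₂ : ℤ) - (k₁ : ℤ), ?_⟩
    rw [Units.val_mk0, hval v, hk₁, hk₂, if_pos hvI]
    congr 1
    push_cast
    ring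

end Fermat.Agent.S14
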