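/-
S14, block K (second inequality), package K/AbIndex (twin worker file).
Owner: helper190.

For a finitely generated abelian group `A`: `[A : A^p] = p ^ rank(A) * #A[p]`.
Proof: structure theorem (`A ≃ ℤ^n × D` with `D` finite), computation for products.
-/
import Mathlib
import Fermat.Agent.S14.Interfaces
import Fermat.Agent.S14.KInterfaces

set_option autoImplicit false

open NumberField IsDedekindDomain

namespace Fermat.Agent.S14

/-- The index of the image of multiplication by `n` is invariant under isomorphisms. -/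
theorem kzabindex_index_congr (n : ℕ) {G H : Type*} [AddCommGroup G] [AddCommGroup H]
    (f : G ≃+ H) :
    (nsmulAddMonoidHom n : G →+ G).range.index = (nsmulAddMonoidHom n : H →+ H).range.index := by
  rw [← AddEquiv.map_range_nsmulAddMonoidHom f n, AddSubgroup.index_map_equiv]

/-- The cardinality of the kernel of multiplication by `n` is invariant under isomorphisms. -/
theorem kzabindex_ker_congr (n : ℕ) {G H : Type*} [AddCommGroup G] [AddCommGroup H]
    (f : G ≃+ H) :
    Nat.card (nsmulAddMonoidHom n : G →+ G).ker = Nat.card (nsmulAddMonoidHom n : H →+ H).ker := by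
  refine Nat.card_congr (f.toEquiv.subtypeEquiv ?_)
  intro a
  simp only [AddMonoidHom.mem_ker, nsmulAddMonoidHom_apply, AddEquiv.toEquiv_eq_coe,
    EquivLike.coe_coe]
  rw [← map_nsmul, EmbeddingLike.map_eq_zero_iff]

/-- The image of multiplication by `n` on a product. -/
theorem kzabindex_range_prod (n : ℕ) (G H : Type*) [AddCommGroup G] [AddCommGroup H] :
    (nsmulAddMonoidHom n : G × H →+ G × H).range =
      ((nsmulAddMonoidHom n : G →+ G).range).prod ((nsmulAddMonoidHom n : H →+ H).range) := by
  ext ⟨g, h⟩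
  simp only [AddMonoidHom.mem_range, AddSubgroup.mem_prod, nsmulAddMonoidHom_apply, Prod.exists,
    Prod.smul_mk, Prod.mk.injEq]
  constructor
  · rintro ⟨a, b, rfl, rfl⟩
    exact ⟨⟨a, rfl⟩, ⟨b, rfl⟩⟩
  · rintro ⟨⟨a, rfl⟩, ⟨b, rfl⟩⟩
    exact ⟨a, b, rfl, rfl⟩

/-- The kernel of multiplication by `n` on a product. -/
theorem kzabindex_ker_prod (n : ℕ) (G H : Type*) [AddCommGroup G] [AddCommGroup H] :
    (nsmulAddMonoidHom n : G × H →+ G × H).ker =
      ((nsmulAddMonoidHom n : G →+ G).ker).prod ((nsmulAddMonoidHom n : H →+ H).ker) := by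
  ext ⟨g, h⟩
  simp only [AddMonoidHom.mem_ker, AddSubgroup.mem_prod, nsmulAddMonoidHom_apply,
    Prod.smul_mk, Prod.mk_eq_zero]

/-- For a finite abelian group, kernel and cokernel of multiplication by `n` have the same
cardinality. -/
theorem kzabindex_finite (n : ℕ) (D : Type*) [AddCommGroup D] [Finite D] :
    (nsmulAddMonoidHom n : D →+ D).range.index = Nat.card (nsmulAddMonoidHom n : D →+ D).ker := by
  have h1 := AddSubgroup.card_mul_index (nsmulAddMonoidHom n : D →+ D).range
  have h2 := AddSubgroup.card_mul_index (nsmulAddMonoidHom n : D →+ D).ker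
  rw [AddSubgroup.index_ker] at h2
  have hpos : 0 < Nat.card (nsmulAddMonoidHom n : D →+ D).range := Nat.card_pos
  have h3 : Nat.card (nsmulAddMonoidHom n : D →+ D).range *
      (nsmulAddMonoidHom n : D →+ D).range.index =
      Nat.card (nsmulAddMonoidHom n : D →+ D).range *
        Nat.card (nsmulAddMonoidHom n : D →+ D).ker := by
    rw [h1, ← h2, mul_comm]
  exact Nat.eq_of_mul_eq_mul_left hpos h3

/-- The product of a finitely generated `ℤ`-module with a finite abelian group has the same
rank. -/
theorem kzabindex_finrank_prod (G D : Type*) [AddCommGroup G] [AddCommGroup D]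
    [Module.Finite ℤ G] [Finite D] :
    Module.finrank ℤ (G × D) = Module.finrank ℤ G := by
  have h := Submodule.finrank_quotient_add_finrank (LinearMap.ker (LinearMap.fst ℤ G D))
  have h1 : Module.finrank ℤ ((G × D) ⧸ LinearMap.ker (LinearMap.fst ℤ G D)) =
      Module.finrank ℤ G :=
    ((LinearMap.fst ℤ G D).quotKerEquivOfSurjective LinearMap.fst_surjective).finrank_eq
  have h2 : Module.finrank ℤ (LinearMap.ker (LinearMap.fst ℤ G D)) = 0 := by
    rw [Module.finrank_eq_zero_iff]
    rintro ⟨⟨g, d⟩, hx⟩
    have hg : g = 0 := by simpa using hx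
    subst hg
    refine ⟨(Nat.card D : ℤ), ?_, ?_⟩
    · exact_mod_cast (Nat.card_pos (α := D)).ne'
    · ext
      · simp
      · simp
  rw [h1, h2, add_zero] at h
  exact h.symm

/-- The additive form of the statement. -/
theorem kzabindex_add (p : ℕ) (hp : p ≠ 0) (M : Type*) [AddCommGroup M] [Module.Finite ℤ M] :
    (nsmulAddMonoidHom p : M →+ M).range.index =
      p ^ Module.finrank ℤ M * Nat.card (nsmulAddMonoidHom p : M →+ M).ker := by
  classical
  have : AddGroup.FG M := Module.Finite.iff_addGroup_fg.mp inferInstance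
  obtain ⟨n, ι, _, q, hq, e, ⟨f⟩⟩ := AddCommGroup.equiv_free_prod_directSum_zmod M
  have : ∀ i, NeZero (q i ^ e i) := fun i => ⟨pow_ne_zero _ (hq i).ne_zero⟩
  have : Finite (DirectSum ι fun i => ZMod (q i ^ e i)) :=
    Finite.of_equiv _ DFinsupp.equivFunOnFintype.symm
  -- the free part
  have hfree : (nsmulAddMonoidHom p : (Fin n →₀ ℤ) →+ (Fin n →₀ ℤ)).range.index =
      p ^ Module.finrank ℤ (Fin n →₀ ℤ) := AddSubgroup.index_range_nsmul (Fin n →₀ ℤ) p
  have hker : Nat.card (nsmulAddMonoidHom p : (Fin n →₀ ℤ) →+ (Fin n →₀ ℤ)).ker = 1 := by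
    have : (nsmulAddMonoidHom p : (Fin n →₀ ℤ) →+ (Fin n →₀ ℤ)).ker = ⊥ :=
      (AddMonoidHom.ker_eq_bot_iff _).mpr
        (AddSubgroup.nsmulAddMonoidHom_injective_of_isTorsionFree hp)
    rw [this]
    exact AddSubgroup.card_bot
  have hrank : Module.finrank ℤ M = Module.finrank ℤ (Fin n →₀ ℤ) := by
    rw [f.toIntLinearEquiv.finrank_eq]
    exact kzabindex_finrank_prod _ _
  rw [kzabindex_index_congr p f, kzabindex_ker_congr p f, kzabindex_range_prod,
    kzabindex_ker_prod, AddSubgroup.index_prod, hfree, kzabindex_finite,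
    Nat.card_congr (AddSubgroup.prodEquiv _ _).toEquiv, Nat.card_prod, hker, one_mul, hrank]

/-- (AbIndex) For a finitely generated abelian group `A`: `[A : A^p] = p ^ rank(A) * #A[p]`. -/
theorem kzabindex_main : k_AbIndexStatement := by
  intro p hp A _ hfin
  have := hfin
  have h := kzabindex_add p hp.out.ne_zero (Additive A)
  have h1 : (powMonoidHom p : A →* A).range.index =
      (nsmulAddMonoidHom p : Additive A →+ Additive A).range.index := by
    rw [← Subgroup.index_toAddSubgroup]
    rfl
  have h2 : Nat.card {a : A // a ^ p = 1} =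
      Nat.card (nsmulAddMonoidHom p : Additive A →+ Additive A).ker := by
    refine Nat.card_congr (Additive.ofMul.subtypeEquiv ?_)
    intro a
    rfl
  rw [h1, h2]
  exact h

end Fermat.Agent.S14
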