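/-
S14, block K, package K/ChooseT (plan K4 + Lemma A).

By induction we build a set `T` of exactly `S.card + Units.rank F` primes outside `S`, each splitting
completely in `N = F(x₀^{1/p})`, such that `k_LemmaA p S T` holds.

Main theorem: `k_ct_main`.
-/
import Mathlib
import Fermat.Agent.S14.Interfaces
import Fermat.Agent.S14.KInterfaces

set_option autoImplicit false

open NumberField IsDedekindDomain

namespace Fermat.Agent.S14

/-- Covering lemma: if every element of `L` can be moved into `H` by one of the `n` elements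
`f 0, …, f (n - 1)` (not necessarily in `L`), then `H` has finite index at most `n` in `L`. -/
theorem k_ct_relIndex_le {G : Type*} [CommGroup G] (H L : Subgroup G) (n : ℕ) (f : ℕ → G)
    (h : ∀ a ∈ L, ∃ j < n, a * f j ∈ H) : H.relIndex L ≠ 0 ∧ H.relIndex L ≤ n := by
  classical
  choose! g hg1 hg2 using h
  let φ : L ⧸ H.subgroupOf L → Fin n := fun q => ⟨g (q.out : G), hg1 _ q.out.2⟩
  have hφ : Function.Injective φ := by
    intro q q' hqq
    have h1 : g (q.out : G) = g (q'.out : G) := congrArg Fin.val hqq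
    rw [← QuotientGroup.out_eq' q, ← QuotientGroup.out_eq' q', QuotientGroup.eq,
      Subgroup.mem_subgroupOf]
    have h2 := hg2 _ q.out.2
    have h3 := hg2 _ q'.out.2
    rw [← h1] at h3
    have h4 := H.mul_mem (H.inv_mem h2) h3
    have h5 : ((q.out : G) * f (g (q.out : G)))⁻¹ * ((q'.out : G) * f (g (q.out : G))) =
        (q.out : G)⁻¹ * (q'.out : G) := by
      rw [mul_inv, mul_mul_mul_comm, inv_mul_cancel, mul_one]
    rw [h5] at h4
    simpa using h4
  have hfin : Finite (L ⧸ H.subgroupOf L) := Finite.of_injective φ hφ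
  refine ⟨?_, ?_⟩
  · rw [Subgroup.relIndex]
    exact Subgroup.index_ne_zero_of_finite
  · rw [Subgroup.relIndex, Subgroup.index_eq_card]
    calc Nat.card (L ⧸ H.subgroupOf L) ≤ Nat.card (Fin n) := Nat.card_le_card_of_injective φ hφ
      _ = n := Nat.card_fin n

/-- `1` is a `p`-th power residue at every prime. -/
theorem k_ct_powRes_one (p : ℕ) {F : Type} [Field F] [NumberField F] (𝔮 : Ideal (𝓞 F))
    (h𝔮 : 𝔮.IsPrime) : k_PowRes p 𝔮 (1 : F) :=
  ⟨1, 1, 1, h𝔮.one_notMem, h𝔮.one_notMem, by simp, by simp⟩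

/-- The subgroup of `Fˣ` of the units at `v` which are `p`-th power residues modulo `v`. -/
noncomputable def k_ct_Kq (hmul : k_PowResMulStatement) (hinv : k_PowResInvStatement) (p : ℕ)
    {F : Type} [Field F] [NumberField F] (v : HeightOneSpectrum (𝓞 F)) : Subgroup Fˣ where
  carrier := {u | k_PowRes p v.asIdeal (u : F)}
  one_mem' := k_ct_powRes_one p v.asIdeal v.isPrime
  mul_mem' := fun {a b} ha hb => by
    show k_PowRes p v.asIdeal ((a * b : Fˣ) : F)
    rw [Units.val_mul]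
    exact hmul p F v.asIdeal v.isPrime _ _ ha hb
  inv_mem' := fun {a} ha => by
    show k_PowRes p v.asIdeal ((a⁻¹ : Fˣ) : F)
    rw [Units.val_inv_eq_inv_val]
    exact hinv p F v.asIdeal v.isPrime v.ne_bot _ ha

theorem k_ct_mem_Kq (hmul : k_PowResMulStatement) (hinv : k_PowResInvStatement) (p : ℕ)
    {F : Type} [Field F] [NumberField F] (v : HeightOneSpectrum (𝓞 F)) (u : Fˣ) :
    u ∈ k_ct_Kq hmul hinv p v ↔ k_PowRes p v.asIdeal (u : F) := Iff.rfl

/-- For `v ∉ S`, the residues at `v` have index at most `p` in the `S`-units. -/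
theorem k_ct_Kq_relIndex (hUA : k_UnitAtStatement) (hmul : k_PowResMulStatement)
    (hinv : k_PowResInvStatement) (hcyc : k_PowResCyclicStatement) (p : ℕ) [Fact p.Prime]
    {F : Type} [Field F] [NumberField F] (S : Finset (HeightOneSpectrum (𝓞 F)))
    (v : HeightOneSpectrum (𝓞 F)) (hv : v ∉ S) :
    (k_ct_Kq hmul hinv p v).relIndex ((S : Set (HeightOneSpectrum (𝓞 F))).unit F) ≠ 0 ∧
    (k_ct_Kq hmul hinv p v).relIndex ((S : Set (HeightOneSpectrum (𝓞 F))).unit F) ≤ p := by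
  have hv' : v ∉ (S : Set (HeightOneSpectrum (𝓞 F))) := by simpa using hv
  by_cases hb : ∃ b ∈ (S : Set (HeightOneSpectrum (𝓞 F))).unit F, b ∉ k_ct_Kq hmul hinv p v
  · obtain ⟨b, hbA, hbK⟩ := hb
    refine k_ct_relIndex_le _ _ p (fun j => b ^ j) ?_
    intro a ha
    obtain ⟨j, hj, hres⟩ := hcyc p F v.asIdeal v.isPrime v.ne_bot (a : F) (b : F)
      ((hUA F v a).mp (ha v hv')) ((hUA F v b).mp (hbA v hv')) hbK
    refine ⟨j, hj, ?_⟩
    rw [k_ct_mem_Kq, Units.val_mul, Units.val_pow_eq_pow_val]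
    exact hres
  · push Not at hb
    refine k_ct_relIndex_le _ _ p (fun _ => 1) ?_
    intro a ha
    exact ⟨0, (Fact.out : p.Prime).pos, by simpa using hb a ha⟩

/-- The common residues at the primes of `T` (disjoint from `S`) have index at most `p ^ #T` in the
`S`-units. -/
theorem k_ct_K_relIndex (hUA : k_UnitAtStatement) (hmul : k_PowResMulStatement)
    (hinv : k_PowResInvStatement) (hcyc : k_PowResCyclicStatement) (p : ℕ) [Fact p.Prime]
    {F : Type} [Field F] [NumberField F] (S T : Finset (HeightOneSpectrum (𝓞 F)))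
    (hST : ∀ v ∈ T, v ∉ S) :
    (T.inf (k_ct_Kq hmul hinv p)).relIndex ((S : Set (HeightOneSpectrum (𝓞 F))).unit F) ≠ 0 ∧
    (T.inf (k_ct_Kq hmul hinv p)).relIndex ((S : Set (HeightOneSpectrum (𝓞 F))).unit F) ≤
      p ^ T.card := by
  classical
  induction T using Finset.induction_on with
  | empty => simp
  | insert a s ha ih =>
    rw [Finset.inf_insert, Finset.card_insert_of_notMem ha]
    obtain ⟨h1, h2⟩ := k_ct_Kq_relIndex hUA hmul hinv hcyc p S a (hST a (Finset.mem_insert_self a s))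
    obtain ⟨h3, h4⟩ := ih (fun v hv => hST v (Finset.mem_insert_of_mem hv))
    refine ⟨Subgroup.relIndex_inf_ne_zero h1 h3, ?_⟩
    calc (k_ct_Kq hmul hinv p a ⊓ s.inf (k_ct_Kq hmul hinv p)).relIndex
          ((S : Set (HeightOneSpectrum (𝓞 F))).unit F)
        ≤ (k_ct_Kq hmul hinv p a).relIndex ((S : Set (HeightOneSpectrum (𝓞 F))).unit F) *
          (s.inf (k_ct_Kq hmul hinv p)).relIndex ((S : Set (HeightOneSpectrum (𝓞 F))).unit F) :=
          Subgroup.relIndex_inf_le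
      _ ≤ p * p ^ s.card := Nat.mul_le_mul h2 h4
      _ = p ^ (s.card + 1) := by ring

/-- The counting argument: if `#T + 2 ≤ #S + r + 1`, there is an `S`-unit which is a residue at all
primes of `T` and is not of the form `α ^ j * b ^ p`. -/
theorem k_ct_exists_u (hSU : k_SUnitIndexStatement) (hUA : k_UnitAtStatement)
    (hmul : k_PowResMulStatement) (hinv : k_PowResInvStatement) (hcyc : k_PowResCyclicStatement)
    (p : ℕ) [Fact p.Prime] {F : Type} [Field F] [NumberField F] (ζ : F) (hζ : IsPrimitiveRoot ζ p)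
    (S T : Finset (HeightOneSpectrum (𝓞 F))) (hST : ∀ v ∈ T, v ∉ S)
    (hcard : T.card + 1 ≤ S.card + NumberField.Units.rank F) (α : Fˣ) :
    ∃ u : Fˣ, u ∈ (S : Set (HeightOneSpectrum (𝓞 F))).unit F ∧
      u ∈ T.inf (k_ct_Kq hmul hinv p) ∧ ∀ (j : ℕ) (b : Fˣ), u ≠ α ^ j * b ^ p := by
  have hp : p.Prime := Fact.out
  by_contra hcon
  push Not at hcon
  have hP : (k_pow p F).relIndex ((S : Set (HeightOneSpectrum (𝓞 F))).unit F) =
      p ^ (S.card + NumberField.Units.rank F + 1) := hSU p F ζ hζ S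
  obtain ⟨hK0, hKle⟩ := k_ct_K_relIndex hUA hmul hinv hcyc p S T hST
  have hcov : (k_pow p F).relIndex
        (T.inf (k_ct_Kq hmul hinv p) ⊓ (S : Set (HeightOneSpectrum (𝓞 F))).unit F) ≠ 0 ∧
      (k_pow p F).relIndex
        (T.inf (k_ct_Kq hmul hinv p) ⊓ (S : Set (HeightOneSpectrum (𝓞 F))).unit F) ≤ p := by
    refine k_ct_relIndex_le _ _ p (fun i => α ^ i) ?_
    intro u hu
    obtain ⟨j, b, hjb⟩ := hcon u hu.2 hu.1
    refine ⟨(p - j % p) % p, Nat.mod_lt _ hp.pos, ?_⟩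
    have hdvd : p ∣ j + (p - j % p) % p := by
      have h1 : j + (p - j % p) % p ≡ j % p + (p - j % p) [MOD p] :=
        Nat.ModEq.add (Nat.mod_modEq j p).symm (Nat.mod_modEq _ p)
      have h2 : j % p + (p - j % p) = p := Nat.add_sub_cancel' (Nat.mod_lt j hp.pos).le
      rw [h2] at h1
      exact (Nat.modEq_zero_iff_dvd).mp (h1.trans (by simp [Nat.ModEq]))
    obtain ⟨m, hm⟩ := hdvd
    refine ⟨α ^ m * b, ?_⟩
    show (α ^ m * b) ^ p = u * α ^ ((p - j % p) % p)
    rw [hjb, mul_pow, ← pow_mul, mul_comm m p, ← hm, pow_add, mul_right_comm]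
  have h1 : (k_pow p F ⊓ T.inf (k_ct_Kq hmul hinv p)).relIndex
        ((S : Set (HeightOneSpectrum (𝓞 F))).unit F) =
      (k_pow p F).relIndex
        (T.inf (k_ct_Kq hmul hinv p) ⊓ (S : Set (HeightOneSpectrum (𝓞 F))).unit F) *
      (T.inf (k_ct_Kq hmul hinv p)).relIndex ((S : Set (HeightOneSpectrum (𝓞 F))).unit F) :=
    (Subgroup.relIndex_inf_mul_relIndex _ _ _).symm
  have h2 : (k_pow p F).relIndex ((S : Set (HeightOneSpectrum (𝓞 F))).unit F) ∣
      (k_pow p F ⊓ T.inf (k_ct_Kq hmul hinv p)).relIndex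
        ((S : Set (HeightOneSpectrum (𝓞 F))).unit F) :=
    Subgroup.relIndex_dvd_of_le_left _ inf_le_left
  have h3 : (k_pow p F ⊓ T.inf (k_ct_Kq hmul hinv p)).relIndex
        ((S : Set (HeightOneSpectrum (𝓞 F))).unit F) ≠ 0 := by
    rw [h1]
    exact mul_ne_zero hcov.1 hK0
  have h4 : p ^ (S.card + NumberField.Units.rank F + 1) ≤ p ^ (T.card + 1) := by
    calc p ^ (S.card + NumberField.Units.rank F + 1)
        = (k_pow p F).relIndex ((S : Set (HeightOneSpectrum (𝓞 F))).unit F) := hP.symm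
      _ ≤ (k_pow p F ⊓ T.inf (k_ct_Kq hmul hinv p)).relIndex
            ((S : Set (HeightOneSpectrum (𝓞 F))).unit F) :=
          Nat.le_of_dvd (Nat.pos_of_ne_zero h3) h2
      _ = _ := h1
      _ ≤ p * p ^ T.card := Nat.mul_le_mul hcov.2 hKle
      _ = p ^ (T.card + 1) := by ring
  have h5 := (Nat.pow_le_pow_iff_right hp.one_lt).mp h4
  omega

/-- The new prime: a prime `w ∉ S ∪ T`, split completely in `N`, together with an `S`-unit `u`
which is a residue at all primes of `T` but not at `w`. -/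
theorem k_ct_newPrime (hStep : k_StepStatement) (hSU : k_SUnitIndexStatement)
    (hUA : k_UnitAtStatement) (hmul : k_PowResMulStatement) (hinv : k_PowResInvStatement)
    (hcyc : k_PowResCyclicStatement) (p : ℕ) [Fact p.Prime] (hp3 : 3 ≤ p)
    (F N : Type) [Field F] [NumberField F] [Field N] [NumberField N] [Algebra F N] [IsGalois F N]
    (ζ : F) (hζ : IsPrimitiveRoot ζ p) (hdeg : Module.finrank F N = p)
    (x₀ : 𝓞 F) (y : N) (hy : y ^ p = algebraMap F N (x₀ : F))
    (hyF : y ∉ Set.range (algebraMap F N))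
    (S T : Finset (HeightOneSpectrum (𝓞 F))) (hST : ∀ v ∈ T, v ∉ S)
    (hcard : T.card + 1 ≤ S.card + NumberField.Units.rank F) :
    ∃ (w : HeightOneSpectrum (𝓞 F)) (u : Fˣ), w ∉ S ∧ w ∉ T ∧ SplitsCompletely F N w.asIdeal ∧
      u ∈ (S : Set (HeightOneSpectrum (𝓞 F))).unit F ∧ u ∈ T.inf (k_ct_Kq hmul hinv p) ∧
      ¬ k_PowRes p w.asIdeal (u : F) := by
  classical
  have hp : p.Prime := Fact.out
  have hx₀ : (x₀ : F) ≠ 0 := by
    intro h0
    apply hyF
    rw [h0, map_zero] at hy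
    exact ⟨0, by rw [map_zero]; exact (pow_eq_zero_iff hp.ne_zero).mp hy |>.symm⟩
  obtain ⟨u, huA, huK, hu⟩ := k_ct_exists_u hSU hUA hmul hinv hcyc p ζ hζ S T hST hcard
    (Units.mk0 (x₀ : F) hx₀)
  obtain ⟨n, d, hd, hnd⟩ := IsFractionRing.div_surjective (A := 𝓞 F) (u : F)
  have hd0 : (d : F) ≠ 0 := by
    have : d ≠ 0 := nonZeroDivisors.ne_zero hd
    exact fun h => this (RingOfIntegers.coe_injective (by simpa using h))
  have hn : (n : F) = (u : F) * (d : F) := by
    rw [← hnd]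
    field_simp
  have hpp : p - 1 + 1 = p := Nat.sub_add_cancel hp.one_le
  have hu'F : ((n * d ^ (p - 1) : 𝓞 F) : F) = (u : F) * (d : F) ^ p := by
    have h1 : ((n * d ^ (p - 1) : 𝓞 F) : F) = (n : F) * (d : F) ^ (p - 1) :=
      (map_mul (algebraMap (𝓞 F) F) n (d ^ (p - 1))).trans
        (congrArg (fun z => (n : F) * z) (map_pow (algebraMap (𝓞 F) F) d (p - 1)))
    rw [h1, hn, mul_assoc, ← pow_succ', hpp]
  have hu' : ∀ (j : ℕ) (b : F), ((n * d ^ (p - 1) : 𝓞 F) : F) ≠ (x₀ : F) ^ j * b ^ p := by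
    intro j b hjb
    rw [hu'F] at hjb
    have hu0 : (u : F) ≠ 0 := u.ne_zero
    have hb0 : b / (d : F) ≠ 0 := by
      intro hb0
      have hb : b = 0 := by
        rcases div_eq_zero_iff.mp hb0 with h | h
        · exact h
        · exact absurd h hd0
      rw [hb, zero_pow hp.ne_zero, mul_zero] at hjb
      exact (mul_ne_zero hu0 (pow_ne_zero p hd0)) hjb
    apply hu j (Units.mk0 (b / (d : F)) hb0)
    apply Units.ext
    push_cast
    rw [Units.val_mk0, Units.val_mk0, div_pow, ← mul_div_assoc, ← hjb]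
    field_simp
  obtain ⟨𝔮, h𝔮p, h𝔮0, h𝔮T, _, _, _, hsplit, hnres⟩ :=
    hStep p hp3 F N ζ hζ hdeg x₀ y hy hyF (n * d ^ (p - 1)) hu'
      ((S ∪ T).image (fun v => v.asIdeal))
  refine ⟨⟨𝔮, h𝔮p, h𝔮0⟩, u, ?_, ?_, hsplit, huA, huK, ?_⟩
  · intro hwS
    exact h𝔮T (Finset.mem_image.mpr ⟨⟨𝔮, h𝔮p, h𝔮0⟩, Finset.mem_union_left T hwS, rfl⟩)
  · intro hwT
    exact h𝔮T (Finset.mem_image.mpr ⟨⟨𝔮, h𝔮p, h𝔮0⟩, Finset.mem_union_right S hwT, rfl⟩)
  · rintro ⟨a₁, a₂, c, _, ha₂, he, hc⟩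
    apply hnres
    refine ⟨c * d, ?_⟩
    have hkey : a₂ * (n * d ^ (p - 1) - (c * d) ^ p) = d ^ p * (a₁ - c ^ p * a₂) := by
      apply RingOfIntegers.coe_injective
      have h1 := hu'F
      push_cast at h1 ⊢
      linear_combination (a₂ : F) * h1 + (d : F) ^ p * he
    have hmem : a₂ * (n * d ^ (p - 1) - (c * d) ^ p) ∈ 𝔮 := by
      rw [hkey]
      exact 𝔮.mul_mem_left _ hc
    rcases h𝔮p.mem_or_mem hmem with h | h
    · exact absurd h ha₂
    · exact h

/-- Lemma A for `T ∪ {w}` from Lemma A for `T`. -/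
theorem k_ct_lemmaA_cons (hUA : k_UnitAtStatement) (hmul : k_PowResMulStatement)
    (hinv : k_PowResInvStatement) (hcyc : k_PowResCyclicStatement) (p : ℕ) [Fact p.Prime]
    {F : Type} [Field F] [NumberField F] (S T : Finset (HeightOneSpectrum (𝓞 F)))
    (w : HeightOneSpectrum (𝓞 F)) (hwS : w ∉ S) (hwT : w ∉ T) (u : Fˣ)
    (huA : u ∈ (S : Set (HeightOneSpectrum (𝓞 F))).unit F)
    (huK : u ∈ T.inf (k_ct_Kq hmul hinv p)) (huw : ¬ k_PowRes p w.asIdeal (u : F))
    (hA : k_LemmaA p S T) : k_LemmaA p S (Finset.cons w T hwT) := by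
  have hwS' : w ∉ (S : Set (HeightOneSpectrum (𝓞 F))) := by simpa using hwS
  intro t ht
  obtain ⟨u0, hu0A, hu0⟩ := hA t (fun 𝔮 h𝔮 => ht 𝔮 (Finset.mem_cons_of_mem h𝔮))
  have hunit1 : k_UnitAt w.asIdeal ((u0 : F) * (t w : F)) := by
    obtain ⟨a₁, a₂, ha₁, ha₂, he⟩ := (hUA F w u0).mp (hu0A w hwS')
    refine ⟨a₁ * t w, a₂, ?_, ha₂, ?_⟩
    · intro hmem
      rcases w.isPrime.mem_or_mem hmem with h | h
      · exact ha₁ h
      · exact ht w (Finset.mem_cons_self w T) h
    · push_cast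
      rw [mul_right_comm, he]
  have hunit2 : k_UnitAt w.asIdeal (u : F) := (hUA F w u).mp (huA w hwS')
  obtain ⟨j, _, hres⟩ := hcyc p F w.asIdeal w.isPrime w.ne_bot _ _ hunit1 hunit2 huw
  refine ⟨u0 * u ^ j, Subgroup.mul_mem _ hu0A (Subgroup.pow_mem _ huA j), ?_⟩
  intro 𝔮 h𝔮
  have hrw : ((u0 * u ^ j : Fˣ) : F) * (t 𝔮 : F) = (u0 : F) * (t 𝔮 : F) * (u : F) ^ j := by
    push_cast
    ring
  rw [hrw]
  rcases Finset.mem_cons.mp h𝔮 with rfl | h𝔮T
  · exact hres
  · have h1 : k_PowRes p 𝔮.asIdeal ((u : F) ^ j) := by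
      have h2 := (k_ct_Kq hmul hinv p 𝔮).pow_mem
        ((Finset.inf_le h𝔮T : T.inf (k_ct_Kq hmul hinv p) ≤ k_ct_Kq hmul hinv p 𝔮) huK) j
      rw [k_ct_mem_Kq, Units.val_pow_eq_pow_val] at h2
      exact h2
    exact hmul p F 𝔮.asIdeal 𝔮.isPrime _ _ (hu0 𝔮 h𝔮T) h1

/-- (ChooseT) -/
theorem k_ct_main : k_StepStatement → k_SUnitIndexStatement → k_UnitAtStatement →
    k_PowResMulStatement → k_PowResInvStatement → k_PowResCyclicStatement →
    k_ChooseTStatement := by
  intro hStep hSU hUA hmul hinv hcyc p _ hp3 F N _ _ _ _ _ _ ζ hζ hdeg x₀ y hy hyF S _ _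
  have key : ∀ k : ℕ, k ≤ S.card + NumberField.Units.rank F →
      ∃ T : Finset (HeightOneSpectrum (𝓞 F)), Disjoint S T ∧ T.card = k ∧
        (∀ 𝔮 ∈ T, SplitsCompletely F N 𝔮.asIdeal) ∧ k_LemmaA p S T := by
    intro k
    induction k with
    | zero =>
      intro _
      refine ⟨∅, Finset.disjoint_empty_right S, rfl, by simp, ?_⟩
      intro t _
      exact ⟨1, Subgroup.one_mem _, by simp⟩
    | succ k ih =>
      intro hk
      obtain ⟨T, hdisj, hcard, hsplit, hA⟩ := ih (by omega)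
      have hST : ∀ v ∈ T, v ∉ S := fun v hvT hvS => Finset.disjoint_left.mp hdisj hvS hvT
      obtain ⟨w, u, hwS, hwT, hwsplit, huA, huK, huw⟩ :=
        k_ct_newPrime hStep hSU hUA hmul hinv hcyc p hp3 F N ζ hζ hdeg x₀ y hy hyF S T hST
          (by omega)
      refine ⟨Finset.cons w T hwT, ?_, ?_, ?_,
        k_ct_lemmaA_cons hUA hmul hinv hcyc p S T w hwS hwT u huA huK huw hA⟩
      · rw [Finset.disjoint_left]
        intro v hvS hvT
        rcases Finset.mem_cons.mp hvT with rfl | h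
        · exact hwS hvS
        · exact hST v h hvS
      · rw [Finset.card_cons, hcard]
      · intro 𝔮 h𝔮
        rcases Finset.mem_cons.mp h𝔮 with rfl | h
        · exact hwsplit
        · exact hsplit 𝔮 h
  exact key _ le_rfl

end Fermat.Agent.S14
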