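/-
S14, block K, package IndexD (twin by helper179):
`[Fˣ : Fˣ^p · {a ≡ 1 mod^× 𝔪}] ≤ p ^ #S * #(𝓞 F / 𝔪)ˣ[p]`, finite.
-/
import Mathlib
import Fermat.Agent.S14.Interfaces
import Fermat.Agent.S14.KInterfaces

set_option autoImplicit false

open NumberField IsDedekindDomain

namespace Fermat.Agent.S14

/-- In a finite commutative group the index of the subgroup of `p`-th powers is the number of
elements of order dividing `p`. -/
theorem kzindexd_pow_index (p : ℕ) (R : Type) [CommGroup R] [Finite R] :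
    (powMonoidHom p : R →* R).range.index = Nat.card {r : R // r ^ p = 1} := by
  have h1 := Subgroup.index_mul_card (powMonoidHom p : R →* R).range
  have h2 := Subgroup.index_ker (powMonoidHom p : R →* R)
  have h3 := Subgroup.card_mul_index (powMonoidHom p : R →* R).ker
  have hpos : 0 < Nat.card (powMonoidHom p : R →* R).range := Nat.card_pos
  have hker : Nat.card (powMonoidHom p : R →* R).ker = Nat.card {r : R // r ^ p = 1} :=
    Nat.card_congr (Equiv.subtypeEquivRight (fun r => by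
      rw [MonoidHom.mem_ker, powMonoidHom_apply]))
  rw [h2] at h3
  rw [← hker]
  have : (powMonoidHom p : R →* R).range.index * Nat.card (powMonoidHom p : R →* R).range =
      Nat.card (powMonoidHom p : R →* R).ker * Nat.card (powMonoidHom p : R →* R).range := by
    rw [h1, h3]
  exact Nat.eq_of_mul_eq_mul_right hpos this

/-- If `b ^ p` is a unit at `S` (with `p ≠ 0`) then so is `b`. -/
theorem kzindexd_unitsAt_of_pow {F : Type} [Field F] [NumberField F]
    (S : Finset (HeightOneSpectrum (𝓞 F))) (p : ℕ) (hp : p ≠ 0) (b : Fˣ)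
    (h : b ^ p ∈ k_unitsAt S) : b ∈ k_unitsAt S := by
  intro v hv
  have h1 : v.valuation F ((b ^ p : Fˣ) : F) = 1 := h v hv
  rw [Units.val_pow_eq_pow_val, map_pow] at h1
  exact (pow_eq_one_iff_of_nonneg zero_le hp).mp h1

theorem kzindexd_main : k_ValIndexStatement → k_RedStatement → k_CongUnitStatement →
    k_IndexDStatement := by
  intro hVal hRed hCong p hpF F _ _ S 𝔪 h𝔪 hS
  have hp0 : p ≠ 0 := hpF.out.ne_zero
  obtain ⟨hE0, hEle⟩ := hVal p F S
  obtain ⟨red, hsurj, hker⟩ := hRed F S 𝔪 h𝔪 hS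
  have hCU : k_congOne 𝔪 ≤ k_unitsAt S := hCong F 𝔪 S (fun v hv => (hS v).mpr hv)
  have hfin : Finite (𝓞 F ⧸ 𝔪) := Ideal.finiteQuotientOfFreeOfNeBot 𝔪 h𝔪
  have hfinU : Finite (𝓞 F ⧸ 𝔪)ˣ := inferInstance
  -- the subgroup `D ∩ U` of `U` is the preimage of the `p`-th powers under `red`
  have hcomap : (k_pow p F ⊔ k_congOne 𝔪).subgroupOf (k_unitsAt S) =
      (powMonoidHom p : (𝓞 F ⧸ 𝔪)ˣ →* (𝓞 F ⧸ 𝔪)ˣ).range.comap red := by
    ext a
    rw [Subgroup.mem_subgroupOf, Subgroup.mem_comap, MonoidHom.mem_range]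
    constructor
    · intro ha
      obtain ⟨x, hx, c, hc, hxc⟩ := Subgroup.mem_sup.mp ha
      obtain ⟨b, rfl⟩ := hx
      rw [powMonoidHom_apply] at hxc
      have hcU : c ∈ k_unitsAt S := hCU hc
      have hbpU : b ^ p ∈ k_unitsAt S := by
        have : b ^ p = (a : Fˣ) * c⁻¹ := by rw [← hxc]; group
        rw [this]
        exact (k_unitsAt S).mul_mem a.2 ((k_unitsAt S).inv_mem hcU)
      have hbU : b ∈ k_unitsAt S := kzindexd_unitsAt_of_pow S p hp0 b hbpU
      refine ⟨red ⟨b, hbU⟩, ?_⟩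
      rw [powMonoidHom_apply]
      have ha' : a = ⟨b, hbU⟩ ^ p * ⟨c, hcU⟩ := Subtype.ext (by
        rw [Subgroup.coe_mul, Subgroup.coe_pow]; exact hxc.symm)
      have hc1 : red ⟨c, hcU⟩ = 1 := (hker ⟨c, hcU⟩).mpr hc
      rw [ha', map_mul, map_pow, hc1, mul_one]
    · rintro ⟨r, hr⟩
      rw [powMonoidHom_apply] at hr
      obtain ⟨b, rfl⟩ := hsurj r
      have h1 : red (a * (b ^ p)⁻¹) = 1 := by
        rw [map_mul, map_inv, map_pow, hr, mul_inv_cancel]
      have hc := (hker _).mp h1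
      refine Subgroup.mem_sup.mpr ⟨(b : Fˣ) ^ p, ⟨(b : Fˣ), rfl⟩, _, hc, ?_⟩
      rw [Subgroup.coe_mul, Subgroup.coe_inv, Subgroup.coe_pow]
      rw [mul_comm (a : Fˣ), ← mul_assoc, mul_inv_cancel, one_mul]
  have hDE : k_pow p F ⊔ k_congOne 𝔪 ≤ k_pow p F ⊔ k_unitsAt S := sup_le_sup_left hCU _
  have hEq : k_pow p F ⊔ k_unitsAt S = (k_pow p F ⊔ k_congOne 𝔪) ⊔ k_unitsAt S := by
    rw [sup_assoc, sup_eq_right.mpr hCU]
  have hrel : (k_pow p F ⊔ k_congOne 𝔪).relIndex (k_pow p F ⊔ k_unitsAt S) =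
      Nat.card {r : (𝓞 F ⧸ 𝔪)ˣ // r ^ p = 1} := by
    rw [hEq, Subgroup.relIndex_sup_left]
    change ((k_pow p F ⊔ k_congOne 𝔪).subgroupOf (k_unitsAt S)).index = _
    rw [hcomap, Subgroup.index_comap_of_surjective _ hsurj, kzindexd_pow_index]
  have hidx := Subgroup.relIndex_mul_index hDE
  rw [hrel] at hidx
  have hcard0 : Nat.card {r : (𝓞 F ⧸ 𝔪)ˣ // r ^ p = 1} ≠ 0 := by
    have : Nonempty {r : (𝓞 F ⧸ 𝔪)ˣ // r ^ p = 1} := ⟨⟨1, one_pow p⟩⟩
    exact Nat.card_pos.ne'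
  constructor
  · rw [← hidx]
    exact Nat.mul_ne_zero hcard0 hE0
  · rw [← hidx, mul_comm]
    exact Nat.mul_le_mul_right _ hEle

end Fermat.Agent.S14
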