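/-
S14, block K, package K/LemmaB (plan item K6, wrapper):
`(S ∪ T).unit F ⊓ k_D p S lam ≤ k_pow p F` from the integral core `k_LemmaBCoreStatement`
and the basic properties of the modulus `k_ModulusStatement`.
-/
import Mathlib
import Fermat.Agent.S14.Interfaces
import Fermat.Agent.S14.KInterfaces
set_option autoImplicit false
open NumberField IsDedekindDomain
namespace Fermat.Agent.S14

/-- The rational prime `p` is not a unit of `𝓞 F`. -/
theorem k_lb_not_isUnit_p (p : ℕ) (hp : p.Prime) (F : Type) [Field F] [NumberField F] :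
    ¬ IsUnit (p : 𝓞 F) := by
  intro h
  have h1 : IsUnit (algebraMap ℤ (𝓞 F) (p : ℤ)) := by simpa using h
  have h2 : IsUnit (p : ℤ) := isUnit_of_map_unit (algebraMap ℤ (𝓞 F)) _ h1
  rw [Int.isUnit_iff] at h2
  have := hp.two_le
  omega

/-- There is a prime of `𝓞 F` containing `p`. -/
theorem k_lb_exists_prime_p (p : ℕ) (hp : p.Prime) (F : Type) [Field F] [NumberField F] :
    ∃ v : HeightOneSpectrum (𝓞 F), (p : 𝓞 F) ∈ v.asIdeal := by
  have hne : Ideal.span {(p : 𝓞 F)} ≠ ⊤ := by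
    rw [Ne, Ideal.span_singleton_eq_top]
    exact k_lb_not_isUnit_p p hp F
  obtain ⟨M, hM, hle⟩ := Ideal.exists_le_maximal _ hne
  have hp0 : (p : 𝓞 F) ≠ 0 := by exact_mod_cast hp.ne_zero
  have hpM : (p : 𝓞 F) ∈ M := hle (Ideal.mem_span_singleton_self _)
  refine ⟨⟨M, hM.isPrime, ?_⟩, hpM⟩
  rintro rfl
  exact hp0 (by simpa using hpM)

/-- If `x₀ ∈ 𝔮 ^ n ∖ 𝔮 ^ (n + 1)` and the valuation of `x₀` at `𝔮` is a `p`-th power of the
valuation of a nonzero element, then `p ∣ n`. -/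
theorem k_lb_dvd_of_val_pow (p : ℕ) {F : Type} [Field F] [NumberField F]
    (w : HeightOneSpectrum (𝓞 F)) (x₀ : 𝓞 F) (n : ℕ) (g : F) (hg : g ≠ 0)
    (h1 : x₀ ∈ w.asIdeal ^ n) (h2 : x₀ ∉ w.asIdeal ^ (n + 1))
    (hv : w.valuation F (x₀ : F) = (w.valuation F g) ^ p) : p ∣ n := by
  have hgv : w.valuation F g ≠ 0 := (Valuation.ne_zero_iff _).mpr hg
  obtain ⟨e, he⟩ : ∃ e : ℤ, w.valuation F g = WithZero.exp e :=
    ⟨WithZero.log _, (WithZero.exp_log hgv).symm⟩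
  have hx : w.valuation F (x₀ : F) = w.intValuation x₀ := w.valuation_of_algebraMap x₀
  rw [← w.intValuation_le_pow_iff_mem, ← hx, hv, he, ← WithZero.exp_nsmul,
    WithZero.exp_le_exp] at h1 h2
  have h3 : (n : ℤ) = (p : ℤ) * (-e) := by
    simp only [nsmul_eq_mul, Nat.cast_add, Nat.cast_one] at h1 h2
    linarith
  exact Int.natCast_dvd_natCast.mp ⟨-e, h3⟩

theorem k_lb_main : k_LemmaBCoreStatement → k_ModulusStatement → k_LemmaBStatement := by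
  intro hCore hMod p _ hp3 F _ _ ζ hζ lam hlam S T hS hGen hdisj hA x hx
  obtain ⟨hxU, hxD⟩ := hx
  have hp : p.Prime := Fact.out
  obtain ⟨hm0, hmS, hmL⟩ := hMod p F ζ hζ lam hlam S hS
  obtain ⟨y, hy, c, hc, rfl⟩ := Subgroup.mem_sup.mp hxD
  obtain ⟨b', rfl⟩ := hy
  obtain ⟨c₁, c₂, hcop, hcm, hce⟩ := hc
  -- `c₂` is prime to every `v ∈ S`
  have hc2S : ∀ v ∈ S, c₂ ∉ v.asIdeal := by
    intro v hv hmem
    have h1 : Ideal.span {c₂} ≤ v.asIdeal := (Ideal.span_singleton_le_iff_mem _).mpr hmem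
    have h2 : k_modulus p S lam ≤ v.asIdeal := (hmS v).mpr hv
    exact v.isPrime.ne_top (eq_top_iff.mpr (hcop ▸ sup_le h1 h2))
  -- `c₂ ≠ 0`
  have hc20 : c₂ ≠ 0 := by
    obtain ⟨v, hv⟩ := k_lb_exists_prime_p p hp F
    rintro rfl
    exact hc2S v (hS v hv) v.asIdeal.zero_mem
  have hc20' : (c₂ : F) ≠ 0 := by
    intro h
    exact hc20 (RingOfIntegers.coe_injective (by simpa using h))
  -- the integral element `x₀`
  set x₀ : 𝓞 F := c₁ * c₂ ^ (p - 1) with hx₀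
  have hx₀F : (x₀ : F) = (c : F) * (c₂ : F) ^ p := by
    have h1 : (x₀ : F) = (c₁ : F) * (c₂ : F) ^ (p - 1) := by
      change algebraMap (𝓞 F) F (c₁ * c₂ ^ (p - 1)) =
        algebraMap (𝓞 F) F c₁ * (algebraMap (𝓞 F) F c₂) ^ (p - 1)
      rw [map_mul, map_pow]
    rw [h1, ← hce, ← pow_sub_one_mul hp.ne_zero (c₂ : F)]
    ring
  have hx₀m : x₀ - c₂ ^ p ∈ k_modulus p S lam := by
    have : x₀ - c₂ ^ p = c₂ ^ (p - 1) * (c₁ - c₂) := by
      rw [hx₀, ← pow_sub_one_mul hp.ne_zero c₂]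
      ring
    rw [this]
    exact Ideal.mul_mem_left _ _ hcm
  have hb'0 : (b' : F) ≠ 0 := b'.ne_zero
  have hb'p : (b' : F) ^ p ≠ 0 := pow_ne_zero _ hb'0
  have hc2p : (c₂ : F) ^ p ≠ 0 := pow_ne_zero _ hc20'
  have hx₀x : (x₀ : F) = (((powMonoidHom p) b' * c : Fˣ) : F) * ((c₂ : F) / (b' : F)) ^ p := by
    rw [hx₀F, div_pow]
    simp only [powMonoidHom_apply, Units.val_mul, Units.val_pow_eq_pow_val]
    field_simp
  -- the tame set of `x₀` is contained in `T`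
  have htame : ∀ 𝔮 ∈ tameSet p F x₀, ∃ w ∈ T, w.asIdeal = 𝔮 := by
    rintro 𝔮 ⟨h𝔮, h𝔮0, hp𝔮, n, hn1, hn2, hpn⟩
    refine ⟨⟨𝔮, h𝔮, h𝔮0⟩, ?_, rfl⟩
    by_contra hwT
    by_cases hwS : (⟨𝔮, h𝔮, h𝔮0⟩ : HeightOneSpectrum (𝓞 F)) ∈ S
    · have h1 : c₂ ∉ 𝔮 := hc2S _ hwS
      have h2 : x₀ - c₂ ^ p ∈ 𝔮 := (hmS ⟨𝔮, h𝔮, h𝔮0⟩).mpr hwS hx₀m
      have h3 : x₀ ∉ 𝔮 := by
        intro h
        have h4 : c₂ ^ p ∈ 𝔮 := by
          have : c₂ ^ p = x₀ - (x₀ - c₂ ^ p) := by ring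
          rw [this]
          exact 𝔮.sub_mem h h2
        exact h1 (h𝔮.mem_of_pow_mem _ h4)
      have h5 : n = 0 := by
        by_contra hn
        exact h3 (Ideal.pow_le_self hn hn1)
      exact hpn (h5 ▸ dvd_zero p)
    · have hU : (⟨𝔮, h𝔮, h𝔮0⟩ : HeightOneSpectrum (𝓞 F)).valuation F
          (((powMonoidHom p) b' * c : Fˣ) : F) = 1 := by
        refine hxU _ ?_
        simp only [Set.mem_union, Finset.mem_coe, not_or]
        exact ⟨hwS, hwT⟩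
      refine hpn (k_lb_dvd_of_val_pow p ⟨𝔮, h𝔮, h𝔮0⟩ x₀ n ((c₂ : F) / (b' : F))
        (div_ne_zero hc20' hb'0) hn1 hn2 ?_)
      rw [hx₀x, map_mul, hU, one_mul, map_pow]
  obtain ⟨b, hb⟩ := hCore p hp3 F ζ hζ lam hlam S T hS hGen hdisj hA x₀ c₂ hc2S
    (fun v hv => hmL v hv hx₀m) htame
  have hval : (b * (b' : F) / (c₂ : F)) ^ p = (((powMonoidHom p) b' * c : Fˣ) : F) := by
    rw [div_pow, mul_pow, hb, hx₀F]
    simp only [powMonoidHom_apply, Units.val_mul, Units.val_pow_eq_pow_val]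
    field_simp
  have hne : b * (b' : F) / (c₂ : F) ≠ 0 := by
    intro h0
    rw [h0, zero_pow hp.ne_zero] at hval
    exact (Units.ne_zero _) hval.symm
  exact ⟨Units.mk0 _ hne, Units.ext (by simpa using hval)⟩

end Fermat.Agent.S14
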