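/-
S14, block K, package K/LemmaBCore (twin Z): integral form of Lemma B (plan item K6).

If `x₀ ∈ 𝓞 F` is, at every `v ∈ S`, congruent to a `p`-th power of a `v`-unit modulo
`v * (1 - ζ) ^ p`, and its tame set is contained in `T` (where `S` generates the class group and
Lemma A holds for `S`, `T`), then `x₀` is a `p`-th power in `F`.

Proof by contradiction: otherwise `N = F(x₀^{1/p})` is a Kummer extension of degree `p` in which
every `v ∈ S` splits completely and which is unramified outside the tame set; the ideal `𝔞` produced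
by `G1TameStatement` is then shown to be of the excluded form, using `k_SGen S`, Lemma A, and the
fact that the primes of `S` are norms.
-/
import Mathlib
import Fermat.Agent.S14.Interfaces
import Fermat.Agent.S14.KInterfaces

set_option autoImplicit false

open NumberField IsDedekindDomain

namespace Fermat.Agent.S14

/-- A product of powers of primes of `S` is not contained in a prime `w ∉ S`. -/
theorem kzlemmabcore_prod_not_le {F : Type} [Field F] [NumberField F]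
    (S : Finset (HeightOneSpectrum (𝓞 F))) (m : HeightOneSpectrum (𝓞 F) → ℕ)
    (w : HeightOneSpectrum (𝓞 F)) (hw : w ∉ S) :
    ¬ ∏ v ∈ S, v.asIdeal ^ m v ≤ w.asIdeal := by
  intro h
  obtain ⟨v, hv, hle⟩ := (Ideal.IsPrime.prod_le w.isPrime).mp h
  have := w.isPrime
  have hle' : v.asIdeal ≤ w.asIdeal := Ideal.IsPrime.le_of_pow_le hle
  have heq : v.asIdeal = w.asIdeal := v.isMaximal.eq_of_le w.isPrime.ne_top hle'
  have hvw : v = w := HeightOneSpectrum.ext heq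
  exact hw (hvw ▸ hv)

/-- A nonzero element of `𝓞 F` has an exact order at every nonzero prime. -/
theorem kzlemmabcore_exists_ord {F : Type} [Field F] [NumberField F]
    (𝔮 : Ideal (𝓞 F)) (h𝔮 : 𝔮.IsPrime) (h𝔮0 : 𝔮 ≠ ⊥) (x : 𝓞 F) (hx : x ≠ 0) :
    ∃ n : ℕ, x ∈ 𝔮 ^ n ∧ x ∉ 𝔮 ^ (n + 1) := by
  let v : HeightOneSpectrum (𝓞 F) := ⟨𝔮, h𝔮, h𝔮0⟩
  have h1 := v.intValuation_if_neg hx
  refine ⟨(Associates.mk v.asIdeal).count (Associates.mk (Ideal.span {x})).factors, ?_, ?_⟩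
  · exact (v.intValuation_le_pow_iff_mem x _).mp (le_of_eq h1)
  · intro hmem
    have h2 := (v.intValuation_le_pow_iff_mem x _).mpr hmem
    rw [h1, WithZero.exp_le_exp] at h2
    push_cast at h2
    omega

/-- Step (3): `N = F(x₀^{1/p})` is unramified at every prime not above the tame set of `x₀`. -/
theorem kzlemmabcore_unram (hKU : KummerUnramStatement) (hSP : k_SplitPStatement)
    (p : ℕ) [Fact p.Prime] (hp3 : 3 ≤ p)
    (F N : Type) [Field F] [NumberField F] [Field N] [NumberField N] [Algebra F N]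
    (ζ : F) (hζ : IsPrimitiveRoot ζ p) (hdeg : Module.finrank F N = p)
    (lam : 𝓞 F) (hlam : (lam : F) = 1 - ζ)
    (S : Finset (HeightOneSpectrum (𝓞 F)))
    (hS : ∀ v : HeightOneSpectrum (𝓞 F), (p : 𝓞 F) ∈ v.asIdeal → v ∈ S)
    (x₀ c₂ : 𝓞 F) (hx₀ : x₀ ≠ 0) (hc₂ : ∀ v ∈ S, c₂ ∉ v.asIdeal)
    (hcong : ∀ v ∈ S, x₀ - c₂ ^ p ∈ v.asIdeal * Ideal.span {lam} ^ p)
    (y : N) (hy : y ^ p = algebraMap F N (x₀ : F)) (hyF : y ∉ Set.range (algebraMap F N)) :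
    ∀ 𝔔 : Ideal (𝓞 N), 𝔔.IsPrime → 𝔔 ≠ ⊥ → 𝔔.under (𝓞 F) ∉ tameSet p F x₀ →
      𝔔.ramificationIdx (𝓞 F) = 1 := by
  intro 𝔔 h𝔔 h𝔔0 hnt
  have h𝔮 : (𝔔.under (𝓞 F)).IsPrime := Ideal.comap_isPrime _ _
  have h𝔮0 : 𝔔.under (𝓞 F) ≠ ⊥ := Ideal.under_ne_bot (𝓞 F) h𝔔0
  have hmem : 𝔔 ∈ (𝔔.under (𝓞 F)).primesOver (𝓞 N) := ⟨h𝔔, ⟨rfl⟩⟩
  by_cases hp : (p : 𝓞 F) ∈ 𝔔.under (𝓞 F)
  · have hv : (⟨𝔔.under (𝓞 F), h𝔮, h𝔮0⟩ : HeightOneSpectrum (𝓞 F)) ∈ S :=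
      hS ⟨𝔔.under (𝓞 F), h𝔮, h𝔮0⟩ hp
    have h1 : c₂ ∉ 𝔔.under (𝓞 F) := hc₂ ⟨𝔔.under (𝓞 F), h𝔮, h𝔮0⟩ hv
    have h2 : x₀ - c₂ ^ p ∈ 𝔔.under (𝓞 F) * Ideal.span {lam} ^ p :=
      hcong ⟨𝔔.under (𝓞 F), h𝔮, h𝔮0⟩ hv
    have hsplit : SplitsCompletely F N (𝔔.under (𝓞 F)) :=
      hSP p hp3 F N ζ hζ hdeg x₀ y hy hyF lam c₂ hlam (𝔔.under (𝓞 F)) h𝔮 h𝔮0 h1 h2
    exact (hsplit 𝔔 hmem).1
  · obtain ⟨n, hn1, hn2⟩ := kzlemmabcore_exists_ord _ h𝔮 h𝔮0 x₀ hx₀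
    have hdvd : p ∣ n := by
      by_contra hnd
      exact hnt ⟨h𝔮, h𝔮0, hp, n, hn1, hn2, hnd⟩
    exact hKU p F N ζ hζ hdeg x₀ y hy hyF _ h𝔮 h𝔮0 hp ⟨n, hn1, hn2, hdvd⟩ 𝔔 hmem

/-- The core of Lemma B: the Kummer extension `N = F(x₀^{1/p})` cannot exist. -/
theorem kzlemmabcore_core (hG1 : G1TameStatement) (hKU : KummerUnramStatement)
    (hSP : k_SplitPStatement) (hSF : k_SUnitFracStatement) (hSN : k_SplitNormStatement)
    (p : ℕ) [Fact p.Prime] (hp3 : 3 ≤ p)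
    (F N : Type) [Field F] [NumberField F] [Field N] [NumberField N] [Algebra F N]
    (ζ : F) (hζ : IsPrimitiveRoot ζ p) (hdeg : Module.finrank F N = p)
    (lam : 𝓞 F) (hlam : (lam : F) = 1 - ζ)
    (S T : Finset (HeightOneSpectrum (𝓞 F)))
    (hS : ∀ v : HeightOneSpectrum (𝓞 F), (p : 𝓞 F) ∈ v.asIdeal → v ∈ S)
    (hgen : k_SGen S) (hdisj : Disjoint S T) (hA : k_LemmaA p S T)
    (x₀ c₂ : 𝓞 F) (hx₀ : x₀ ≠ 0) (hc₂ : ∀ v ∈ S, c₂ ∉ v.asIdeal)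
    (hcong : ∀ v ∈ S, x₀ - c₂ ^ p ∈ v.asIdeal * Ideal.span {lam} ^ p)
    (htame : ∀ 𝔮 ∈ tameSet p F x₀, ∃ w ∈ T, w.asIdeal = 𝔮)
    (y : N) (hy : y ^ p = algebraMap F N (x₀ : F)) (hyF : y ∉ Set.range (algebraMap F N)) :
    False := by
  classical
  obtain ⟨𝔞, h𝔞0, h𝔞T, hnot⟩ := hG1 p hp3 F N ζ hζ hdeg x₀ y hx₀ hy hyF
    (kzlemmabcore_unram hKU hSP p hp3 F N ζ hζ hdeg lam hlam S hS x₀ c₂ hx₀ hc₂ hcong y hy hyF)
  obtain ⟨γ, n, hγ0, hγ⟩ := hgen 𝔞 h𝔞0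
  -- the primes of the tame set belong to `T`, hence not to `S`
  have htameS : ∀ 𝔮 ∈ tameSet p F x₀,
      ∃ w : HeightOneSpectrum (𝓞 F), w ∈ T ∧ w ∉ S ∧ w.asIdeal = 𝔮 := by
    intro 𝔮 h𝔮
    obtain ⟨w, hwT, hw⟩ := htame 𝔮 h𝔮
    exact ⟨w, hwT, fun hwS => Finset.disjoint_left.mp hdisj hwS hwT, hw⟩
  -- `γ` is prime to the tame set
  have hγ𝔮 : ∀ 𝔮 ∈ tameSet p F x₀, γ ∉ 𝔮 := by
    intro 𝔮 h𝔮 hmem
    obtain ⟨w, hwT, hwS, rfl⟩ := htameS 𝔮 h𝔮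
    have hle : 𝔞 * ∏ v ∈ S, v.asIdeal ^ n v ≤ w.asIdeal := by
      rw [hγ, Ideal.span_singleton_le_iff_mem]
      exact hmem
    rcases (Ideal.IsPrime.mul_le w.isPrime).mp hle with h | h
    · exact h𝔞T _ h𝔮 h
    · exact kzlemmabcore_prod_not_le S n w hwS h
  -- Lemma A
  obtain ⟨u, hu, hres⟩ := hA (fun w => if w.asIdeal ∈ tameSet p F x₀ then γ else 1) (by
    intro w hw
    by_cases h : w.asIdeal ∈ tameSet p F x₀
    · rw [if_pos h]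
      exact hγ𝔮 _ h
    · rw [if_neg h]
      exact fun h1 => w.isPrime.ne_top ((Ideal.eq_top_iff_one _).mpr h1))
  obtain ⟨u₁, u₂, m₁, m₂, hu₁0, hu₂0, hu12, hu₁, hu₂⟩ := hSF F S u hu
  -- the primes of `S` are norms
  have hsplit : ∀ v ∈ S, SplitsCompletely F N v.asIdeal := fun v hv =>
    hSP p hp3 F N ζ hζ hdeg x₀ y hy hyF lam c₂ hlam v.asIdeal v.isPrime v.ne_bot (hc₂ v hv)
      (hcong v hv)
  have hV : ∀ v : HeightOneSpectrum (𝓞 F), ∃ 𝔙 : Ideal (𝓞 N),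
      v ∈ S → 𝔙 ≠ ⊥ ∧ Ideal.relNorm (𝓞 F) 𝔙 = v.asIdeal := by
    intro v
    by_cases hv : v ∈ S
    · obtain ⟨𝔙, h1, h2⟩ := hSN F N v.asIdeal v.isPrime v.ne_bot (hsplit v hv)
      exact ⟨𝔙, fun _ => ⟨h1, h2⟩⟩
    · exact ⟨⊤, fun h => absurd h hv⟩
  choose 𝔙 h𝔙 using hV
  have hnorm : ∀ m : HeightOneSpectrum (𝓞 F) → ℕ,
      Ideal.relNorm (𝓞 F) (∏ v ∈ S, 𝔙 v ^ m v) = ∏ v ∈ S, v.asIdeal ^ m v := by
    intro m
    rw [map_prod]
    apply Finset.prod_congr rfl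
    intro v hv
    rw [map_pow, (h𝔙 v hv).2]
  have hne : ∀ m : HeightOneSpectrum (𝓞 F) → ℕ, (∏ v ∈ S, 𝔙 v ^ m v) ≠ ⊥ := by
    intro m
    rw [← Ideal.zero_eq_bot, Finset.prod_ne_zero_iff]
    intro v hv
    exact pow_ne_zero _ (h𝔙 v hv).1
  apply hnot
  refine ⟨γ * u₁, u₂, ∏ v ∈ S, 𝔙 v ^ m₂ v, ∏ v ∈ S, 𝔙 v ^ (m₁ v + n v), mul_ne_zero hγ0 hu₁0,
    hu₂0, hne _, hne _, ?_, ?_⟩
  · intro 𝔮 h𝔮
    obtain ⟨w, hwT, hwS, rfl⟩ := htameS 𝔮 h𝔮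
    have hu₁w : u₁ ∉ w.asIdeal := by
      intro hmem
      apply kzlemmabcore_prod_not_le S m₁ w hwS
      rw [← hu₁, Ideal.span_singleton_le_iff_mem]
      exact hmem
    have hu₂w : u₂ ∉ w.asIdeal := by
      intro hmem
      apply kzlemmabcore_prod_not_le S m₂ w hwS
      rw [← hu₂, Ideal.span_singleton_le_iff_mem]
      exact hmem
    refine ⟨?_, hu₂w, ?_, ?_, ?_⟩
    · intro hmem
      rcases w.isPrime.mem_or_mem hmem with h | h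
      · exact hγ𝔮 _ h𝔮 h
      · exact hu₁w h
    · obtain ⟨a₁, a₂, c, ha₁, ha₂, ha, hc⟩ := hres w hwT
      rw [if_pos h𝔮] at ha
      refine ⟨c, ?_⟩
      have hint : γ * u₁ * a₂ = a₁ * u₂ := by
        apply RingOfIntegers.coe_injective
        rw [map_mul, map_mul, map_mul]
        have ha' : (u : F) * algebraMap (𝓞 F) F γ * algebraMap (𝓞 F) F a₂ =
            algebraMap (𝓞 F) F a₁ := ha
        have hu' : (u : F) * algebraMap (𝓞 F) F u₂ = algebraMap (𝓞 F) F u₁ := hu12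
        rw [← ha', ← hu']
        ring
      have hkey : a₂ * (γ * u₁ - c ^ p * u₂) = u₂ * (a₁ - c ^ p * a₂) := by
        linear_combination hint
      have hmem : a₂ * (γ * u₁ - c ^ p * u₂) ∈ w.asIdeal := by
        rw [hkey]
        exact Ideal.mul_mem_left _ _ hc
      exact (w.isPrime.mem_or_mem hmem).resolve_left ha₂
    · rw [hnorm]
      exact kzlemmabcore_prod_not_le S m₂ w hwS
    · rw [hnorm]
      exact kzlemmabcore_prod_not_le S _ w hwS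
  · rw [hnorm, hnorm]
    have h1 : ∏ v ∈ S, v.asIdeal ^ (m₁ v + n v) =
        Ideal.span {u₁} * ∏ v ∈ S, v.asIdeal ^ n v := by
      rw [hu₁, ← Finset.prod_mul_distrib]
      exact Finset.prod_congr rfl (fun v _ => pow_add _ _ _)
    rw [h1, ← hu₂, ← Ideal.span_singleton_mul_span_singleton, ← hγ]
    ring

/-- (LemmaBCore, plan K6) Integral form of Lemma B. -/
theorem kzlemmabcore_main : G1TameStatement → KummerUnramStatement → k_KummerExistsStatement →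
    k_SplitPStatement → k_SUnitFracStatement → k_SplitNormStatement → k_LemmaBCoreStatement := by
  intro hG1 hKU hKE hSP hSF hSN p _ hp3 F _ _ ζ hζ lam hlam S T hS hgen hdisj hA x₀ c₂ hc₂ hcong
    htame
  by_contra hno
  have hno' : ∀ b : F, b ^ p ≠ (x₀ : F) := fun b hb => hno ⟨b, hb⟩
  have hx₀ : x₀ ≠ 0 := by
    rintro rfl
    apply hno' 0
    rw [zero_pow (Fact.out : p.Prime).ne_zero]
    simp
  obtain ⟨N, _, _, _, hdeg, y, hy, hyF⟩ := hKE p F (x₀ : F) hno'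
  exact kzlemmabcore_core hG1 hKU hSP hSF hSN p hp3 F N ζ hζ hdeg lam hlam S T hS hgen hdisj hA
    x₀ c₂ hx₀ hc₂ hcong htame y hy hyF

end Fermat.Agent.S14
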