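/-
S14, block K, package LemmaB (twin by helper179): an `S ∪ T`-unit lying in `k_D p S lam` is a
`p`-th power (wrapper around the integral core `k_LemmaBCoreStatement`).
-/
import Mathlib
import Fermat.Agent.S14.Interfaces
import Fermat.Agent.S14.KInterfaces

set_option autoImplicit false

open NumberField IsDedekindDomain

namespace Fermat.Agent.S14

/-- If `x₀ ∈ 𝔮 ^ n ∖ 𝔮 ^ (n + 1)` then the valuation of `x₀` at `𝔮` is `exp (-n)`. -/
theorem kzlemmab_val_eq {F : Type} [Field F] [NumberField F] (w : HeightOneSpectrum (𝓞 F))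
    (x₀ : 𝓞 F) (n : ℕ) (h1 : x₀ ∈ w.asIdeal ^ n) (h2 : x₀ ∉ w.asIdeal ^ (n + 1)) :
    w.valuation F (algebraMap (𝓞 F) F x₀) = WithZero.exp (-(n : ℤ)) := by
  have hx0 : x₀ ≠ 0 := by
    rintro rfl
    exact h2 (Ideal.zero_mem _)
  have hv : w.valuation F (algebraMap (𝓞 F) F x₀) = w.intValuation x₀ :=
    w.valuation_of_algebraMap x₀
  rw [hv]
  have hne : w.intValuation x₀ ≠ 0 := w.intValuation_ne_zero x₀ hx0
  have hle : w.intValuation x₀ ≤ WithZero.exp (-(n : ℤ)) :=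
    (w.intValuation_le_pow_iff_mem x₀ n).mpr h1
  have hnle : ¬ w.intValuation x₀ ≤ WithZero.exp (-((n + 1 : ℕ) : ℤ)) := fun h =>
    h2 ((w.intValuation_le_pow_iff_mem x₀ (n + 1)).mp h)
  rw [← WithZero.exp_log hne] at hle hnle ⊢
  rw [WithZero.exp_le_exp] at hle hnle
  rw [WithZero.exp_inj]
  push_cast at hnle
  omega

theorem kzlemmab_main : k_LemmaBCoreStatement → k_ModulusStatement → k_LemmaBStatement := by
  intro hCore hMod p hpF hp3 F _ _ ζ hζ lam hlam S T hSp hSGen hdisj hA x hx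
  have hp0 : p ≠ 0 := hpF.out.ne_zero
  obtain ⟨hxU, hxD⟩ := Subgroup.mem_inf.mp hx
  obtain ⟨y, hy, c, hc, hyc⟩ := Subgroup.mem_sup.mp hxD
  obtain ⟨b', rfl⟩ := hy
  rw [powMonoidHom_apply] at hyc
  obtain ⟨c₁, c₂, hcop, hmem, hceq0⟩ := hc
  have hceq : (c : F) * algebraMap (𝓞 F) F c₂ = algebraMap (𝓞 F) F c₁ := hceq0
  obtain ⟨h𝔪0, h𝔪S, h𝔪lam⟩ := hMod p F ζ hζ lam hlam S hSp
  -- `c₂` is a unit at every `v ∈ S`
  have hc₂S : ∀ v ∈ S, c₂ ∉ v.asIdeal := by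
    intro v hv hc₂v
    have h1 : Ideal.span {c₂} ⊔ k_modulus p S lam ≤ v.asIdeal :=
      sup_le ((Ideal.span_singleton_le_iff_mem _).mpr hc₂v) ((h𝔪S v).mpr hv)
    rw [hcop] at h1
    exact v.isPrime.ne_top (top_le_iff.mp h1)
  -- the integral element `x₀ = c₁ c₂^(p-1)`
  have hx₀F : algebraMap (𝓞 F) F (c₁ * c₂ ^ (p - 1)) =
      (c : F) * (algebraMap (𝓞 F) F c₂) ^ p := by
    rw [map_mul, map_pow, ← hceq, mul_assoc, mul_pow_sub_one hp0]
  have hx₀mem : c₁ * c₂ ^ (p - 1) - c₂ ^ p ∈ k_modulus p S lam := by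
    have : c₁ * c₂ ^ (p - 1) - c₂ ^ p = c₂ ^ (p - 1) * (c₁ - c₂) := by
      rw [mul_sub, mul_comm (c₂ ^ (p - 1)) c₂, mul_pow_sub_one hp0]
      ring
    rw [this]
    exact Ideal.mul_mem_left _ _ hmem
  -- relation between `x₀` and `x`
  have hrel : algebraMap (𝓞 F) F (c₁ * c₂ ^ (p - 1)) * ((b' : Fˣ) : F) ^ p =
      (x : F) * (algebraMap (𝓞 F) F c₂) ^ p := by
    rw [hx₀F, ← hyc, Units.val_mul, Units.val_pow_eq_pow_val]
    ring
  -- the tame set of `x₀` is contained in `T`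
  have htame : ∀ 𝔮 ∈ tameSet p F (c₁ * c₂ ^ (p - 1)), ∃ w ∈ T, w.asIdeal = 𝔮 := by
    rintro 𝔮 ⟨hqp, hq0, hpq, n, hn1, hn2, hnp⟩
    refine ⟨⟨𝔮, hqp, hq0⟩, ?_, rfl⟩
    by_contra hwT
    by_cases hwS : (⟨𝔮, hqp, hq0⟩ : HeightOneSpectrum (𝓞 F)) ∈ S
    · -- then `x₀ ∉ 𝔮`, so `n = 0`
      have h1 : c₁ * c₂ ^ (p - 1) - c₂ ^ p ∈ 𝔮 := ((h𝔪S _).mpr hwS) hx₀mem
      have h2 : c₂ ∉ 𝔮 := hc₂S _ hwS
      have h3 : c₁ * c₂ ^ (p - 1) ∉ 𝔮 := by
        intro h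
        have : c₂ ^ p ∈ 𝔮 := by
          have := 𝔮.sub_mem h h1
          simpa using this
        exact h2 (hqp.mem_of_pow_mem p this)
      have hn0 : n = 0 := by
        by_contra hn
        apply h3
        exact Ideal.pow_le_self hn hn1
      exact hnp (hn0 ▸ dvd_zero p)
    · -- `x` is a unit at `𝔮`, so `p ∣ n`
      have hwST : (⟨𝔮, hqp, hq0⟩ : HeightOneSpectrum (𝓞 F)) ∉
          ((S : Set (HeightOneSpectrum (𝓞 F))) ∪ (T : Set (HeightOneSpectrum (𝓞 F)))) := by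
        intro h
        rcases h with h | h
        · exact hwS (Finset.mem_coe.mp h)
        · exact hwT (Finset.mem_coe.mp h)
      have hvx : (⟨𝔮, hqp, hq0⟩ : HeightOneSpectrum (𝓞 F)).valuation F (x : F) = 1 :=
        hxU _ hwST
      have hvx₀ := kzlemmab_val_eq (⟨𝔮, hqp, hq0⟩ : HeightOneSpectrum (𝓞 F))
        (c₁ * c₂ ^ (p - 1)) n hn1 hn2
      have hval := congrArg ((⟨𝔮, hqp, hq0⟩ : HeightOneSpectrum (𝓞 F)).valuation F) hrel
      rw [Valuation.map_mul, Valuation.map_mul, Valuation.map_pow, Valuation.map_pow, hvx, hvx₀,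
        one_mul] at hval
      have hb'0 : (⟨𝔮, hqp, hq0⟩ : HeightOneSpectrum (𝓞 F)).valuation F ((b' : Fˣ) : F) ≠ 0 :=
        (Valuation.ne_zero_iff _).mpr b'.ne_zero
      have hc₂0 : algebraMap (𝓞 F) F c₂ ≠ 0 := by
        intro h
        have : c₂ = 0 := RingOfIntegers.coe_injective (by rw [h, map_zero])
        -- `c₂ = 0` gives `x₀ = 0`, contradicting `x₀ ∉ 𝔮 ^ (n + 1)`
        apply hn2
        rw [this]
        have hp1 : p - 1 ≠ 0 := by omega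
        rw [zero_pow hp1, mul_zero]
        exact Ideal.zero_mem _
      have hc₂v0 : (⟨𝔮, hqp, hq0⟩ : HeightOneSpectrum (𝓞 F)).valuation F
          (algebraMap (𝓞 F) F c₂) ≠ 0 :=
        (Valuation.ne_zero_iff _).mpr hc₂0
      rw [← WithZero.exp_log hb'0, ← WithZero.exp_log hc₂v0, ← WithZero.exp_nsmul,
        ← WithZero.exp_nsmul, ← WithZero.exp_add, WithZero.exp_inj] at hval
      apply hnp
      have hdvd : (p : ℤ) ∣ (n : ℤ) := by
        refine ⟨WithZero.log ((⟨𝔮, hqp, hq0⟩ : HeightOneSpectrum (𝓞 F)).valuation F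
            ((b' : Fˣ) : F)) - WithZero.log ((⟨𝔮, hqp, hq0⟩ :
            HeightOneSpectrum (𝓞 F)).valuation F (algebraMap (𝓞 F) F c₂)), ?_⟩
        simp only [nsmul_eq_mul] at hval
        linarith
      exact Int.natCast_dvd_natCast.mp hdvd
  obtain ⟨b, hb0⟩ := hCore p hp3 F ζ hζ lam hlam S T hSp hSGen hdisj hA (c₁ * c₂ ^ (p - 1)) c₂
    hc₂S (fun v hv => h𝔪lam v hv hx₀mem) htame
  have hb : b ^ p = algebraMap (𝓞 F) F (c₁ * c₂ ^ (p - 1)) := hb0
  -- conclude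
  have hSne : ∃ v, v ∈ S := by
    -- a maximal ideal containing `p`
    have hpu : ¬ IsUnit ((p : 𝓞 F)) := by
      intro hu
      have h1 : IsUnit (Algebra.norm ℤ ((p : 𝓞 F))) := hu.map (Algebra.norm ℤ)
      have h2 : Algebra.norm ℤ ((p : 𝓞 F)) = (p : ℤ) ^ Module.finrank ℤ (𝓞 F) := by
        have := Algebra.norm_algebraMap (R := ℤ) (S := 𝓞 F) (p : ℤ)
        simpa using this
      rw [h2, Int.isUnit_iff_natAbs_eq, Int.natAbs_pow, Int.natAbs_natCast] at h1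
      have hfr : 0 < Module.finrank ℤ (𝓞 F) := Module.finrank_pos
      have := (Nat.pow_eq_one.mp h1)
      rcases this with h | h
      · exact hpF.out.one_lt.ne' h
      · omega
    obtain ⟨M, hM, hpM⟩ := Ideal.exists_le_maximal (Ideal.span {(p : 𝓞 F)})
      (by rwa [Ne, Ideal.span_singleton_eq_top])
    have hM0 : M ≠ ⊥ := by
      rintro rfl
      have : (p : 𝓞 F) = 0 := by simpa using hpM (Ideal.mem_span_singleton_self _)
      have hp' : (p : 𝓞 F) ≠ 0 := Nat.cast_ne_zero.mpr hp0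
      exact hp' this
    exact ⟨⟨M, hM.isPrime, hM0⟩, hSp _ (hpM (Ideal.mem_span_singleton_self _))⟩
  obtain ⟨v₀, hv₀⟩ := hSne
  have hc₂0 : algebraMap (𝓞 F) F c₂ ≠ 0 := by
    intro h
    have : c₂ = 0 := RingOfIntegers.coe_injective (by rw [h, map_zero])
    exact hc₂S v₀ hv₀ (this ▸ Ideal.zero_mem _)
  have hxb : (x : F) = (b * ((b' : Fˣ) : F) / algebraMap (𝓞 F) F c₂) ^ p := by
    rw [div_pow, mul_pow, hb, hrel]
    field_simp
  have hne : b * ((b' : Fˣ) : F) / algebraMap (𝓞 F) F c₂ ≠ 0 := by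
    intro h
    rw [h, zero_pow hp0] at hxb
    exact x.ne_zero hxb
  refine ⟨Units.mk0 _ hne, ?_⟩
  rw [powMonoidHom_apply]
  apply Units.ext
  rw [Units.val_pow_eq_pow_val, Units.val_mk0, hxb]

end Fermat.Agent.S14
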