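/-
S14, block K, package Phi (twin): the map `a ↦ class of the S-part of (a)`.
`kzphi_main : k_ApproxStatement → k_PhiStatement`.
-/
import Mathlib
import Fermat.Agent.S14.Interfaces
import Fermat.Agent.S14.KInterfaces
set_option autoImplicit false
open NumberField IsDedekindDomain
namespace Fermat.Agent.S14

open scoped nonZeroDivisors

/-- The valuation of a nonzero element in terms of `FractionalIdeal.count` of the principal
fractional ideal it generates. -/
theorem kzphi_val_eq {F : Type} [Field F] [NumberField F] (v : HeightOneSpectrum (𝓞 F)) (a : F)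
    (ha : a ≠ 0) :
    v.valuation F a = WithZero.exp
      (-(FractionalIdeal.count F v (FractionalIdeal.spanSingleton (𝓞 F)⁰ a))) := by
  obtain ⟨x, y, hy, rfl⟩ := IsFractionRing.div_surjective (𝓞 F) a
  have hy0 : y ≠ 0 := nonZeroDivisors.ne_zero hy
  have hx0 : x ≠ 0 := by
    rintro rfl
    simp at ha
  have hI : FractionalIdeal.spanSingleton (𝓞 F)⁰ (algebraMap (𝓞 F) F x / algebraMap (𝓞 F) F y) =
      FractionalIdeal.spanSingleton (𝓞 F)⁰ ((algebraMap (𝓞 F) F) y)⁻¹ *
        ↑(Ideal.span {x} : Ideal (𝓞 F)) := by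
    rw [FractionalIdeal.coeIdeal_span_singleton, FractionalIdeal.spanSingleton_mul_spanSingleton]
    congr 1
    rw [div_eq_mul_inv, mul_comm]
  have hne : FractionalIdeal.spanSingleton (𝓞 F)⁰
      (algebraMap (𝓞 F) F x / algebraMap (𝓞 F) F y) ≠ 0 := by
    rw [FractionalIdeal.spanSingleton_ne_zero_iff]
    exact ha
  rw [FractionalIdeal.count_well_defined F v hne hI, map_div₀,
    HeightOneSpectrum.valuation_of_algebraMap, HeightOneSpectrum.valuation_of_algebraMap,
    v.intValuation_if_neg hx0, v.intValuation_if_neg hy0, ← WithZero.exp_sub]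
  congr 1
  ring

/-- The prime `v` as an invertible fractional ideal. -/
noncomputable def kzphi_P {F : Type} [Field F] [NumberField F] (v : HeightOneSpectrum (𝓞 F)) :
    (FractionalIdeal (𝓞 F)⁰ F)ˣ :=
  FractionalIdeal.mk0 F ⟨v.asIdeal, mem_nonZeroDivisors_iff_ne_zero.mpr v.ne_bot⟩

/-- The order at `v` as a homomorphism `Fˣ →* Multiplicative ℤ`. -/
noncomputable def kzphi_ord {F : Type} [Field F] [NumberField F] (v : HeightOneSpectrum (𝓞 F)) :
    Fˣ →* Multiplicative ℤ where
  toFun a := Multiplicative.ofAdd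
    (FractionalIdeal.count F v (FractionalIdeal.spanSingleton (𝓞 F)⁰ (a : F)))
  map_one' := by
    rw [Units.val_one, FractionalIdeal.spanSingleton_one, FractionalIdeal.count_one]
    rfl
  map_mul' a b := by
    rw [Units.val_mul, ← FractionalIdeal.spanSingleton_mul_spanSingleton,
      FractionalIdeal.count_mul F v
        (FractionalIdeal.spanSingleton_ne_zero_iff.mpr a.ne_zero)
        (FractionalIdeal.spanSingleton_ne_zero_iff.mpr b.ne_zero)]
    rfl

/-- The `W`-part of the principal fractional ideal `(a)`. -/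
noncomputable def kzphi_part {F : Type} [Field F] [NumberField F]
    (W : Finset (HeightOneSpectrum (𝓞 F))) : Fˣ →* (FractionalIdeal (𝓞 F)⁰ F)ˣ :=
  ∏ v ∈ W, (zpowersHom (FractionalIdeal (𝓞 F)⁰ F)ˣ (kzphi_P v)).comp (kzphi_ord v)

theorem kzphi_part_apply {F : Type} [Field F] [NumberField F]
    (W : Finset (HeightOneSpectrum (𝓞 F))) (a : Fˣ) :
    kzphi_part W a = ∏ v ∈ W, kzphi_P v ^
      (FractionalIdeal.count F v (FractionalIdeal.spanSingleton (𝓞 F)⁰ (a : F))) := by
  rw [kzphi_part, MonoidHom.finsetProd_apply]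
  rfl

/-- Product formula: if `a` is a unit outside `W`, the `W`-part of `(a)` is `(a)`. -/
theorem kzphi_part_eq {F : Type} [Field F] [NumberField F]
    (W : Finset (HeightOneSpectrum (𝓞 F))) (a : Fˣ)
    (h : ∀ w : HeightOneSpectrum (𝓞 F), w ∉ W → w.valuation F (a : F) = 1) :
    kzphi_part W a = toPrincipalIdeal (𝓞 F) F a := by
  rw [kzphi_part_apply]
  apply Units.ext
  rw [coe_toPrincipalIdeal, Units.coe_prod]
  have hI : FractionalIdeal.spanSingleton (𝓞 F)⁰ (a : F) ≠ 0 :=
    FractionalIdeal.spanSingleton_ne_zero_iff.mpr a.ne_zero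
  conv_rhs => rw [← FractionalIdeal.finprod_heightOneSpectrum_factorization' F hI]
  rw [finprod_eq_prod_of_mulSupport_subset]
  · refine Finset.prod_congr rfl (fun w _ => ?_)
    rw [Units.val_zpow_eq_zpow_val]
    rfl
  · intro w hw
    by_contra hwW
    apply hw
    have h1 := kzphi_val_eq w (a : F) a.ne_zero
    rw [h w hwW] at h1
    have h2 : FractionalIdeal.count F w (FractionalIdeal.spanSingleton (𝓞 F)⁰ (a : F)) = 0 := by
      have h3 := WithZero.exp_eq_one.mp h1.symm
      omega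
    beta_reduce
    rw [h2, zpow_zero]

/-- The class of the prime `v`. -/
theorem kzphi_mk_P {F : Type} [Field F] [NumberField F] (v : HeightOneSpectrum (𝓞 F))
    (h : v.asIdeal ∈ nonZeroDivisors (Ideal (𝓞 F))) :
    ClassGroup.mk F (kzphi_P v) = ClassGroup.mk0 ⟨v.asIdeal, h⟩ := by
  rw [kzphi_P, ClassGroup.mk_mk0]

/-- Principal fractional ideals have trivial class. -/
theorem kzphi_mk_principal {F : Type} [Field F] [NumberField F] (a : Fˣ) :
    ClassGroup.mk F (toPrincipalIdeal (𝓞 F) F a) = 1 := by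
  rw [ClassGroup.mk_eq_one_iff, coe_toPrincipalIdeal]
  exact ⟨⟨(a : F), by rw [FractionalIdeal.coe_spanSingleton]⟩⟩

/-- A unit at `v` has order `0` at `v`. -/
theorem kzphi_count_eq_zero {F : Type} [Field F] [NumberField F] (v : HeightOneSpectrum (𝓞 F))
    (a : Fˣ) (h : v.valuation F (a : F) = 1) :
    FractionalIdeal.count F v (FractionalIdeal.spanSingleton (𝓞 F)⁰ (a : F)) = 0 := by
  have h1 := kzphi_val_eq v (a : F) a.ne_zero
  rw [h] at h1
  have h3 := WithZero.exp_eq_one.mp h1.symm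
  omega

/-- (Phi, plan K7), twin proof. -/
theorem kzphi_main : k_ApproxStatement → k_PhiStatement := by
  intro hApprox F _ _ S T hST hSGen
  classical
  refine ⟨(ClassGroup.mk F).comp (kzphi_part S), ?_, ?_, ?_⟩
  · -- surjectivity
    intro C
    obtain ⟨⟨𝔞, h𝔞⟩, h𝔞C⟩ := ClassGroup.mk0_surjective C⁻¹
    obtain ⟨γ, n, hγ, hn⟩ := hSGen 𝔞 (mem_nonZeroDivisors_iff_ne_zero.mp h𝔞)
    obtain ⟨a, ha⟩ := hApprox F S (fun v => -(n v : ℤ))
    refine ⟨a, ?_⟩
    have hcount : ∀ v ∈ S,
        FractionalIdeal.count F v (FractionalIdeal.spanSingleton (𝓞 F)⁰ (a : F)) = (n v : ℤ) := by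
      intro v hv
      have h1 := kzphi_val_eq v (a : F) a.ne_zero
      rw [ha v hv, WithZero.exp_inj] at h1
      omega
    have hmem : 𝔞 * ∏ v ∈ S, v.asIdeal ^ n v ∈ nonZeroDivisors (Ideal (𝓞 F)) := by
      rw [hn]
      refine mem_nonZeroDivisors_iff_ne_zero.mpr ?_
      rw [Ne, Ideal.zero_eq_bot, Ideal.span_singleton_eq_bot]
      exact hγ
    have h1 : ClassGroup.mk0 ⟨𝔞 * ∏ v ∈ S, v.asIdeal ^ n v, hmem⟩ = 1 := by
      rw [ClassGroup.mk0_eq_one_iff]
      exact ⟨⟨γ, hn⟩⟩
    have h2 : (⟨𝔞 * ∏ v ∈ S, v.asIdeal ^ n v, hmem⟩ : (Ideal (𝓞 F))⁰) =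
        ⟨𝔞, h𝔞⟩ * ∏ v ∈ S, (⟨v.asIdeal, mem_nonZeroDivisors_iff_ne_zero.mpr v.ne_bot⟩ :
          (Ideal (𝓞 F))⁰) ^ n v := by
      apply Subtype.ext
      rw [Submonoid.coe_mul, Submonoid.coe_finsetProd]
      rfl
    rw [h2, map_mul, map_prod, h𝔞C, inv_mul_eq_one] at h1
    rw [MonoidHom.comp_apply, kzphi_part_apply, map_prod, h1]
    refine Finset.prod_congr rfl (fun v hv => ?_)
    rw [hcount v hv, map_zpow, zpow_natCast, map_pow, kzphi_mk_P]
  · -- trivial on the units at `S`
    intro a ha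
    rw [MonoidHom.comp_apply, kzphi_part_apply]
    have h1 : ∏ v ∈ S, kzphi_P v ^
        (FractionalIdeal.count F v (FractionalIdeal.spanSingleton (𝓞 F)⁰ (a : F))) = 1 := by
      refine Finset.prod_eq_one (fun v hv => ?_)
      rw [kzphi_count_eq_zero v a (ha v hv), zpow_zero]
    rw [h1, map_one]
  · -- `S ∪ T`-units
    intro a ha
    have hunit : ∀ w : HeightOneSpectrum (𝓞 F), w ∉ S ∪ T → w.valuation F (a : F) = 1 := by
      intro w hw
      apply ha w
      intro hw'
      apply hw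
      rcases hw' with hw' | hw'
      · exact Finset.mem_union_left _ hw'
      · exact Finset.mem_union_right _ hw'
    have hkey := kzphi_part_eq (S ∪ T) a hunit
    rw [kzphi_part_apply, Finset.prod_union hST] at hkey
    have h1 := congrArg (ClassGroup.mk F) hkey
    rw [map_mul, kzphi_mk_principal, ← kzphi_part_apply, mul_eq_one_iff_eq_inv] at h1
    rw [MonoidHom.comp_apply, h1]
    apply Subgroup.inv_mem
    rw [map_prod]
    refine Subgroup.prod_mem _ (fun v hv => ?_)
    rw [map_zpow]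
    apply Subgroup.zpow_mem
    apply Subgroup.subset_closure
    exact ⟨v, mem_nonZeroDivisors_iff_ne_zero.mpr v.ne_bot, hv, kzphi_mk_P v _⟩

end Fermat.Agent.S14
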