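/-
S14, block K, package K/PowResCyclic (twin B):
`k(𝔮)ˣ / k(𝔮)ˣ^p` is cyclic of order dividing `p`: it is generated by any non-residue.
-/
import Mathlib
import Fermat.Agent.S14.Interfaces
import Fermat.Agent.S14.KInterfaces
set_option autoImplicit false
open NumberField IsDedekindDomain
namespace Fermat.Agent.S14

/-- In a group, if `h = γ ^ m` is not a `p`-th power (`p` prime) and `g = γ ^ l`, then `g * h ^ j`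
is a `p`-th power for some `j < p`. -/
theorem k_pcb_cyclic {G : Type*} [Group G] (p : ℕ) [Fact p.Prime] (γ h g : G) (m l : ℕ)
    (hh : h = γ ^ m) (hg : g = γ ^ l) (hnp : ¬ ∃ z : G, z ^ p = h) :
    ∃ j : ℕ, j < p ∧ ∃ z : G, z ^ p = g * h ^ j := by
  have hpm : ¬ p ∣ m := by
    rintro ⟨m', rfl⟩
    exact hnp ⟨γ ^ m', by rw [hh, ← pow_mul, mul_comm]⟩
  have hm0 : (m : ZMod p) ≠ 0 := by
    rwa [Ne, ZMod.natCast_eq_zero_iff]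
  set j : ℕ := ((-(l : ZMod p)) * (m : ZMod p)⁻¹).val with hj
  have hjp : j < p := ZMod.val_lt _
  have hdvd : p ∣ l + j * m := by
    rw [← ZMod.natCast_eq_zero_iff]
    push_cast
    rw [hj, ZMod.natCast_val, ZMod.cast_id', id]
    field_simp
    ring
  obtain ⟨t, ht⟩ := hdvd
  refine ⟨j, hjp, γ ^ t, ?_⟩
  rw [hh, hg, ← pow_mul, ← pow_mul, ← pow_add, mul_comm m j, ht, mul_comm p t]

/-- (PowResCyclic) -/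
theorem k_pcb_main : k_PowResCyclicStatement := by
  intro p _ F _ _ 𝔮 h𝔮 h𝔮0 a b ⟨a₁, a₂, ha₁, ha₂, ha⟩ ⟨b₁, b₂, hb₁, hb₂, hb⟩ hnb
  have hmax : 𝔮.IsMaximal := h𝔮.isMaximal h𝔮0
  let _ : Field (𝓞 F ⧸ 𝔮) := Ideal.Quotient.field 𝔮
  have hfin : Finite (𝓞 F ⧸ 𝔮) := Ideal.finiteQuotientOfFreeOfNeBot 𝔮 h𝔮0
  have hmk : ∀ x : 𝓞 F, x ∉ 𝔮 → Ideal.Quotient.mk 𝔮 x ≠ 0 :=
    fun x hx h0 => hx (Ideal.Quotient.eq_zero_iff_mem.mp h0)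
  set α₁ : (𝓞 F ⧸ 𝔮)ˣ := Units.mk0 _ (hmk a₁ ha₁) with hα₁
  set α₂ : (𝓞 F ⧸ 𝔮)ˣ := Units.mk0 _ (hmk a₂ ha₂) with hα₂
  set β₁ : (𝓞 F ⧸ 𝔮)ˣ := Units.mk0 _ (hmk b₁ hb₁) with hβ₁
  set β₂ : (𝓞 F ⧸ 𝔮)ˣ := Units.mk0 _ (hmk b₂ hb₂) with hβ₂
  obtain ⟨γ, hγ⟩ := IsCyclic.exists_monoid_generator (α := (𝓞 F ⧸ 𝔮)ˣ)
  obtain ⟨m, hm⟩ := (Submonoid.mem_powers_iff _ _).mp (hγ (β₁ * β₂⁻¹))
  obtain ⟨l, hl⟩ := (Submonoid.mem_powers_iff _ _).mp (hγ (α₁ * α₂⁻¹))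
  have hnp : ¬ ∃ z : (𝓞 F ⧸ 𝔮)ˣ, z ^ p = β₁ * β₂⁻¹ := by
    rintro ⟨z, hz⟩
    obtain ⟨c, hc⟩ := Ideal.Quotient.mk_surjective (z : 𝓞 F ⧸ 𝔮)
    apply hnb
    refine ⟨b₁, b₂, c, hb₁, hb₂, hb, ?_⟩
    have h1 : z ^ p * β₂ = β₁ := by rw [hz, inv_mul_cancel_right]
    have h2 := congrArg Units.val h1
    rw [Units.val_mul, Units.val_pow_eq_pow_val, ← hc, hβ₁, hβ₂, Units.val_mk0, Units.val_mk0,
      ← map_pow, ← map_mul] at h2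
    rw [← Ideal.Quotient.eq_zero_iff_mem, map_sub, h2, sub_self]
  obtain ⟨j, hjp, z, hz⟩ := k_pcb_cyclic p γ (β₁ * β₂⁻¹) (α₁ * α₂⁻¹) m l hm.symm hl.symm hnp
  obtain ⟨c, hc⟩ := Ideal.Quotient.mk_surjective (z : 𝓞 F ⧸ 𝔮)
  refine ⟨j, hjp, a₁ * b₁ ^ j, a₂ * b₂ ^ j, c, ?_, ?_, ?_, ?_⟩
  · exact fun h => (h𝔮.mem_or_mem h).elim ha₁ (fun h' => hb₁ (h𝔮.mem_of_pow_mem j h'))
  · exact fun h => (h𝔮.mem_or_mem h).elim ha₂ (fun h' => hb₂ (h𝔮.mem_of_pow_mem j h'))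
  · have e : a * b ^ j * ((a₂ : F) * (b₂ : F) ^ j) = (a₁ : F) * (b₁ : F) ^ j := by
      rw [← ha, ← hb]
      ring
    push_cast
    exact e
  · have h1 : z ^ p * (α₂ * β₂ ^ j) = α₁ * β₁ ^ j := by
      rw [hz, mul_pow, inv_pow]
      have e : α₁ * α₂⁻¹ * (β₁ ^ j * (β₂ ^ j)⁻¹) * (α₂ * β₂ ^ j) =
          α₁ * β₁ ^ j * (α₂⁻¹ * α₂) * ((β₂ ^ j)⁻¹ * β₂ ^ j) := by
        simp only [mul_assoc, mul_left_comm, mul_comm]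
      rw [e, inv_mul_cancel, inv_mul_cancel, mul_one, mul_one]
    have h2 := congrArg Units.val h1
    rw [Units.val_mul, Units.val_mul, Units.val_mul, Units.val_pow_eq_pow_val,
      Units.val_pow_eq_pow_val, Units.val_pow_eq_pow_val, ← hc, hα₁, hα₂, hβ₁, hβ₂,
      Units.val_mk0, Units.val_mk0, Units.val_mk0, Units.val_mk0,
      ← map_pow, ← map_pow, ← map_pow, ← map_mul, ← map_mul, ← map_mul] at h2
    rw [← Ideal.Quotient.eq_zero_iff_mem, map_sub, h2, sub_self]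

end Fermat.Agent.S14
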