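/-
S14, block K, package PowResCyclic (twin L).
`k(𝔮)ˣ / k(𝔮)ˣ^p` is generated by any non-residue.
-/
import Mathlib
import Fermat.Agent.S14.Interfaces
import Fermat.Agent.S14.KInterfaces

set_option autoImplicit false

open NumberField IsDedekindDomain

namespace Fermat.Agent.S14

/-- In a finite cyclic group, if `h` is not a `p`-th power (`p` prime), then every `g` becomes a
`p`-th power after multiplication by `h ^ j` for some `j < p`. -/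
theorem k_pcl_cyclic {G : Type} [CommGroup G] [Finite G] [IsCyclic G] {p : ℕ} (hp : p.Prime)
    (h : G) (hh : ¬ ∃ z : G, z ^ p = h) (g : G) :
    ∃ j : ℕ, j < p ∧ ∃ z : G, z ^ p = g * h ^ j := by
  have : Fact p.Prime := ⟨hp⟩
  obtain ⟨γ, hγ⟩ := IsCyclic.exists_monoid_generator (α := G)
  obtain ⟨m, rfl⟩ := (Submonoid.mem_powers_iff _ _).mp (hγ h)
  obtain ⟨l, rfl⟩ := (Submonoid.mem_powers_iff _ _).mp (hγ g)
  have hpm : ¬ p ∣ m := by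
    rintro ⟨m', rfl⟩
    exact hh ⟨γ ^ m', by rw [← pow_mul, mul_comm]⟩
  have hm0 : (m : ZMod p) ≠ 0 := by
    rwa [Ne, ZMod.natCast_eq_zero_iff]
  refine ⟨((-(l : ZMod p)) * (m : ZMod p)⁻¹).val, ZMod.val_lt _, ?_⟩
  have hdvd : p ∣ l + ((-(l : ZMod p)) * (m : ZMod p)⁻¹).val * m := by
    rw [← ZMod.natCast_eq_zero_iff]
    push_cast
    rw [ZMod.natCast_zmod_val, mul_assoc, inv_mul_cancel₀ hm0]
    ring
  obtain ⟨q, hq⟩ := hdvd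
  refine ⟨γ ^ q, ?_⟩
  rw [← pow_mul, ← pow_mul, ← pow_add, mul_comm q p, ← hq, mul_comm m]

theorem k_pcl_main : k_PowResCyclicStatement := by
  intro p _ F _ _ 𝔮 h𝔮 hne a b ha hb hnb
  obtain ⟨a₁, a₂, ha₁, ha₂, haeq⟩ := ha
  obtain ⟨b₁, b₂, hb₁, hb₂, hbeq⟩ := hb
  have : 𝔮.IsMaximal := Ideal.IsPrime.isMaximal h𝔮 hne
  let : Field (𝓞 F ⧸ 𝔮) := Ideal.Quotient.field 𝔮
  have : Finite (𝓞 F ⧸ 𝔮) := Ideal.finiteQuotientOfFreeOfNeBot 𝔮 hne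
  have hmk : ∀ x : 𝓞 F, x ∉ 𝔮 → Ideal.Quotient.mk 𝔮 x ≠ 0 :=
    fun x hx h0 => hx (Ideal.Quotient.eq_zero_iff_mem.mp h0)
  have hβ' : ¬ ∃ z : (𝓞 F ⧸ 𝔮)ˣ,
      z ^ p = Units.mk0 _ (hmk b₁ hb₁) / Units.mk0 _ (hmk b₂ hb₂) := by
    rintro ⟨z, hz⟩
    obtain ⟨c, hc⟩ := Ideal.Quotient.mk_surjective (z : 𝓞 F ⧸ 𝔮)
    apply hnb
    refine ⟨b₁, b₂, c, hb₁, hb₂, hbeq, ?_⟩
    rw [← Ideal.Quotient.eq_zero_iff_mem]
    simp only [map_sub, map_mul, map_pow]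
    rw [hc, sub_eq_zero]
    have h1 := congrArg Units.val hz
    rw [Units.val_pow_eq_pow_val, Units.val_div_eq_div_val, Units.val_mk0, Units.val_mk0] at h1
    rw [h1, div_mul_cancel₀ _ (hmk b₂ hb₂)]
  obtain ⟨j, hj, z, hz⟩ := k_pcl_cyclic (Fact.out : p.Prime) _ hβ'
    (Units.mk0 _ (hmk a₁ ha₁) / Units.mk0 _ (hmk a₂ ha₂))
  obtain ⟨c, hc⟩ := Ideal.Quotient.mk_surjective (z : 𝓞 F ⧸ 𝔮)
  refine ⟨j, hj, a₁ * b₁ ^ j, a₂ * b₂ ^ j, c, ?_, ?_, ?_, ?_⟩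
  · exact fun h => (h𝔮.mem_or_mem h).elim ha₁ (fun h' => hb₁ (h𝔮.mem_of_pow_mem j h'))
  · exact fun h => (h𝔮.mem_or_mem h).elim ha₂ (fun h' => hb₂ (h𝔮.mem_of_pow_mem j h'))
  · have e1 : ((a₁ * b₁ ^ j : 𝓞 F) : F) = (a₁ : F) * (b₁ : F) ^ j := by simp
    have e2 : ((a₂ * b₂ ^ j : 𝓞 F) : F) = (a₂ : F) * (b₂ : F) ^ j := by simp
    rw [e1, e2, ← haeq, ← hbeq]
    ring
  · rw [← Ideal.Quotient.eq_zero_iff_mem]
    simp only [map_sub, map_mul, map_pow]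
    rw [hc, sub_eq_zero]
    have h1 := congrArg Units.val hz
    rw [Units.val_pow_eq_pow_val, Units.val_mul, Units.val_pow_eq_pow_val,
      Units.val_div_eq_div_val, Units.val_div_eq_div_val, Units.val_mk0, Units.val_mk0,
      Units.val_mk0, Units.val_mk0] at h1
    rw [h1, div_pow]
    have h2 := hmk a₂ ha₂
    have h3 := pow_ne_zero j (hmk b₂ hb₂)
    field_simp

end Fermat.Agent.S14
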