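/-
S14, block K, package Red (twin file): reduction modulo `𝔪` on the units at `S`.

If the primes dividing `𝔪 ≠ ⊥` are exactly those of `S`, there is a surjective homomorphism
`red : k_unitsAt S →* (𝓞 F ⧸ 𝔪)ˣ` with `red a = 1 ↔ (a : Fˣ) ∈ k_congOne 𝔪`.

Construction: every `a ∈ k_unitsAt S` is a quotient `a₁ / a₂` of two integers prime to `𝔪` (prime
avoidance applied to the denominator ideal of `a`); `red a` is the unique unit `r` of `𝓞 F ⧸ 𝔪`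
with `r * mk c₂ = mk c₁` for every representation `a * c₂ = c₁`.
-/
import Mathlib
import Fermat.Agent.S14.Interfaces
import Fermat.Agent.S14.KInterfaces

set_option autoImplicit false

open NumberField IsDedekindDomain

namespace Fermat.Agent.S14

/-- `mk c` is a unit of `R ⧸ 𝔪` iff `c` is coprime to `𝔪`. -/
theorem kzred_isUnit_mk_iff {R : Type} [CommRing R] (𝔪 : Ideal R) (c : R) :
    IsUnit (Ideal.Quotient.mk 𝔪 c) ↔ Ideal.span {c} ⊔ 𝔪 = ⊤ := by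
  constructor
  · intro h
    obtain ⟨d', hd'⟩ := h.exists_right_inv
    obtain ⟨d, rfl⟩ := Ideal.Quotient.mk_surjective d'
    rw [← map_mul, ← map_one (Ideal.Quotient.mk 𝔪), Ideal.Quotient.eq] at hd'
    rw [Ideal.eq_top_iff_one]
    have h1 : (1 : R) = c * d - (c * d - 1) := by ring
    rw [h1]
    exact Ideal.sub_mem _
      (Ideal.mem_sup_left (Ideal.mul_mem_right _ _ (Ideal.mem_span_singleton_self c)))
      (Ideal.mem_sup_right hd')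
  · intro h
    have h1 : (1 : R) ∈ Ideal.span {c} ⊔ 𝔪 := by rw [h]; trivial
    obtain ⟨x, hx, m, hm, hxm⟩ := Submodule.mem_sup.mp h1
    obtain ⟨r, rfl⟩ := Ideal.mem_span_singleton'.mp hx
    refine isUnit_iff_exists_inv'.mpr ⟨Ideal.Quotient.mk 𝔪 r, ?_⟩
    rw [← map_mul, ← map_one (Ideal.Quotient.mk 𝔪), Ideal.Quotient.eq]
    have h2 : r * c - 1 = -m := by rw [← hxm]; ring
    rw [h2]
    exact 𝔪.neg_mem hm

/-- If `mk c` is a unit modulo `𝔪` and `𝔪 ≤ 𝔭 ≠ ⊤`, then `c ∉ 𝔭`. -/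
theorem kzred_notMem_of_isUnit {R : Type} [CommRing R] (𝔪 𝔭 : Ideal R) (h𝔭 : 𝔭 ≠ ⊤)
    (hle : 𝔪 ≤ 𝔭) (c : R) (hc : IsUnit (Ideal.Quotient.mk 𝔪 c)) : c ∉ 𝔭 := by
  intro hmem
  have h := (kzred_isUnit_mk_iff 𝔪 c).mp hc
  apply h𝔭
  rw [eq_top_iff, ← h]
  exact sup_le ((Ideal.span_singleton_le_iff_mem _).mpr hmem) hle

/-- An integer outside all primes of `S` (= the primes dividing `𝔪`) is a unit modulo `𝔪`. -/
theorem kzred_isUnit_of_notMem {F : Type} [Field F] [NumberField F]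
    (S : Finset (HeightOneSpectrum (𝓞 F))) (𝔪 : Ideal (𝓞 F)) (h𝔪 : 𝔪 ≠ ⊥)
    (hS : ∀ v : HeightOneSpectrum (𝓞 F), 𝔪 ≤ v.asIdeal ↔ v ∈ S)
    (c : 𝓞 F) (hc : ∀ v ∈ S, c ∉ v.asIdeal) : IsUnit (Ideal.Quotient.mk 𝔪 c) := by
  rw [kzred_isUnit_mk_iff]
  by_contra hne
  obtain ⟨M, hM, hle⟩ := Ideal.exists_le_maximal _ hne
  have hM0 : M ≠ ⊥ := by
    rintro rfl
    exact h𝔪 (le_bot_iff.mp (le_trans le_sup_right hle))
  have hv : (⟨M, hM.isPrime, hM0⟩ : HeightOneSpectrum (𝓞 F)) ∈ S :=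
    (hS ⟨M, hM.isPrime, hM0⟩).mp (le_trans le_sup_right hle)
  exact hc _ hv (hle (Ideal.mem_sup_left (Ideal.mem_span_singleton_self c)))

/-- An element of `F` which is a unit at all `v ∈ S` is a quotient of two integers lying outside
all primes of `S` (prime avoidance for the denominator ideal). -/
theorem kzred_exists_rep {F : Type} [Field F] [NumberField F]
    (S : Finset (HeightOneSpectrum (𝓞 F))) (a : F) (ha : ∀ v ∈ S, v.valuation F a = 1) :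
    ∃ c₁ c₂ : 𝓞 F, (∀ v ∈ S, c₁ ∉ v.asIdeal) ∧ (∀ v ∈ S, c₂ ∉ v.asIdeal) ∧
      a * (c₂ : F) = (c₁ : F) := by
  classical
  let 𝔡 : Ideal (𝓞 F) :=
    { carrier := {d | ∃ n : 𝓞 F, a * (d : F) = (n : F)}
      add_mem' := by
        rintro d₁ d₂ ⟨n₁, h₁⟩ ⟨n₂, h₂⟩
        exact ⟨n₁ + n₂, by push_cast; linear_combination h₁ + h₂⟩
      zero_mem' := ⟨0, by simp⟩
      smul_mem' := by
        rintro r d ⟨n, h⟩
        exact ⟨r * n, by simp only [smul_eq_mul]; push_cast; linear_combination (r : F) * h⟩ }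
  have hnot : ¬ ((𝔡 : Set (𝓞 F)) ⊆
      ⋃ I ∈ ((S.image (fun v => v.asIdeal) : Finset (Ideal (𝓞 F))) : Set (Ideal (𝓞 F))),
        (I : Set (𝓞 F))) := by
    rw [Ideal.subset_union_prime (f := fun I : Ideal (𝓞 F) => I) ⊥ ⊥ ?_]
    · rintro ⟨I, hI, hle⟩
      obtain ⟨v, hv, rfl⟩ := Finset.mem_image.mp hI
      obtain ⟨n, ⟨d, hd⟩, hnd⟩ :=
        v.exists_primeCompl_mul_eq_of_integer a (le_of_eq (ha v hv))
      exact hd (hle ⟨n, hnd⟩)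
    · intro I hI _ _
      obtain ⟨v, hv, rfl⟩ := Finset.mem_image.mp hI
      exact v.isPrime
  obtain ⟨c₂, hc₂, hc₂'⟩ := Set.not_subset.mp hnot
  obtain ⟨c₁, hc₁⟩ := hc₂
  have h2 : ∀ v ∈ S, c₂ ∉ v.asIdeal := by
    intro v hv hmem
    apply hc₂'
    simp only [Set.mem_iUnion]
    exact ⟨v.asIdeal, Finset.mem_coe.mpr (Finset.mem_image_of_mem _ hv), hmem⟩
  refine ⟨c₁, c₂, ?_, h2, hc₁⟩
  intro v hv
  have h3 : v.valuation F (algebraMap (𝓞 F) F c₂) = 1 :=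
    v.valuation_eq_one_iff_notMem.mpr (h2 v hv)
  have h4 : v.valuation F (algebraMap (𝓞 F) F c₁) = 1 := by
    have h5 : algebraMap (𝓞 F) F c₁ = a * algebraMap (𝓞 F) F c₂ := hc₁.symm
    rw [h5, map_mul, ha v hv, h3, one_mul]
  exact v.valuation_eq_one_iff_notMem.mp h4

/-- The candidate value of the reduction map at `a = a₁ / a₂`. -/
theorem kzred_exists_red {F : Type} [Field F] [NumberField F] (𝔪 : Ideal (𝓞 F)) (a : F)
    (a₁ a₂ : 𝓞 F) (h₁ : IsUnit (Ideal.Quotient.mk 𝔪 a₁)) (h₂ : IsUnit (Ideal.Quotient.mk 𝔪 a₂))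
    (he : a * (a₂ : F) = (a₁ : F)) :
    ∃ r : (𝓞 F ⧸ 𝔪)ˣ, ∀ c₁ c₂ : 𝓞 F, a * (c₂ : F) = (c₁ : F) →
      (r : 𝓞 F ⧸ 𝔪) * Ideal.Quotient.mk 𝔪 c₂ = Ideal.Quotient.mk 𝔪 c₁ := by
  refine ⟨h₁.unit * h₂.unit⁻¹, fun c₁ c₂ hc => ?_⟩
  have hcross : a₁ * c₂ = c₁ * a₂ := by
    apply RingOfIntegers.coe_injective
    push_cast
    linear_combination (-(c₂ : F)) * he + (a₂ : F) * hc
  have hq : Ideal.Quotient.mk 𝔪 a₁ * Ideal.Quotient.mk 𝔪 c₂ =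
      Ideal.Quotient.mk 𝔪 c₁ * Ideal.Quotient.mk 𝔪 a₂ := by
    rw [← map_mul, ← map_mul, hcross]
  rw [Units.val_mul, IsUnit.unit_spec]
  calc Ideal.Quotient.mk 𝔪 a₁ * ((h₂.unit⁻¹ : (𝓞 F ⧸ 𝔪)ˣ) : 𝓞 F ⧸ 𝔪) * Ideal.Quotient.mk 𝔪 c₂
      = (Ideal.Quotient.mk 𝔪 a₁ * Ideal.Quotient.mk 𝔪 c₂) *
          ((h₂.unit⁻¹ : (𝓞 F ⧸ 𝔪)ˣ) : 𝓞 F ⧸ 𝔪) := by ring
    _ = Ideal.Quotient.mk 𝔪 c₁ *
          (Ideal.Quotient.mk 𝔪 a₂ * ((h₂.unit⁻¹ : (𝓞 F ⧸ 𝔪)ˣ) : 𝓞 F ⧸ 𝔪)) := by rw [hq]; ring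
    _ = Ideal.Quotient.mk 𝔪 c₁ := by rw [IsUnit.mul_val_inv, mul_one]

/-- (Red, twin) Reduction modulo `𝔪` on the units at `S`. -/
theorem kzred_main : k_UnitAtStatement → k_RedStatement := by
  intro _ F _ _ S 𝔪 h𝔪 hS
  -- every unit at `S` has a representation by integers which are units modulo `𝔪`
  have hrep : ∀ a : k_unitsAt S, ∃ c₁ c₂ : 𝓞 F, IsUnit (Ideal.Quotient.mk 𝔪 c₁) ∧
      IsUnit (Ideal.Quotient.mk 𝔪 c₂) ∧ ((a : Fˣ) : F) * (c₂ : F) = (c₁ : F) := by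
    intro a
    obtain ⟨c₁, c₂, h1, h2, he⟩ := kzred_exists_rep S ((a : Fˣ) : F) a.2
    exact ⟨c₁, c₂, kzred_isUnit_of_notMem S 𝔪 h𝔪 hS c₁ h1,
      kzred_isUnit_of_notMem S 𝔪 h𝔪 hS c₂ h2, he⟩
  have hex : ∀ a : k_unitsAt S, ∃ r : (𝓞 F ⧸ 𝔪)ˣ, ∀ c₁ c₂ : 𝓞 F,
      ((a : Fˣ) : F) * (c₂ : F) = (c₁ : F) →
      (r : 𝓞 F ⧸ 𝔪) * Ideal.Quotient.mk 𝔪 c₂ = Ideal.Quotient.mk 𝔪 c₁ := by
    intro a
    obtain ⟨c₁, c₂, h1, h2, he⟩ := hrep a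
    exact kzred_exists_red 𝔪 _ c₁ c₂ h1 h2 he
  choose r hr using hex
  have huniq : ∀ (a : k_unitsAt S) (r' : (𝓞 F ⧸ 𝔪)ˣ) (c₁ c₂ : 𝓞 F),
      IsUnit (Ideal.Quotient.mk 𝔪 c₂) → ((a : Fˣ) : F) * (c₂ : F) = (c₁ : F) →
      (r' : 𝓞 F ⧸ 𝔪) * Ideal.Quotient.mk 𝔪 c₂ = Ideal.Quotient.mk 𝔪 c₁ → r a = r' := by
    intro a r' c₁ c₂ hu he h
    have h1 := hr a c₁ c₂ he
    apply Units.ext
    exact hu.mul_right_cancel (h1.trans h.symm)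
  refine ⟨{ toFun := r, map_one' := ?_, map_mul' := ?_ }, ?_, ?_⟩
  · exact huniq 1 1 1 1 (by simp) (by simp) (by simp)
  · intro a b
    obtain ⟨c₁, c₂, -, hc, hce⟩ := hrep a
    obtain ⟨d₁, d₂, -, hd, hde⟩ := hrep b
    refine huniq (a * b) (r a * r b) (c₁ * d₁) (c₂ * d₂) ?_ ?_ ?_
    · rw [map_mul]
      exact hc.mul hd
    · push_cast
      linear_combination (((b : Fˣ) : F) * (d₂ : F)) * hce + (c₁ : F) * hde
    · have h1 := hr a c₁ c₂ hce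
      have h2 := hr b d₁ d₂ hde
      rw [map_mul, map_mul, Units.val_mul, ← h1, ← h2]
      ring
  · intro u
    obtain ⟨c, hc⟩ := Ideal.Quotient.mk_surjective (u : 𝓞 F ⧸ 𝔪)
    have hcu : IsUnit (Ideal.Quotient.mk 𝔪 c) := by rw [hc]; exact u.isUnit
    by_cases hc0 : c = 0
    · have hsub : Subsingleton (𝓞 F ⧸ 𝔪) := by
        rw [hc0, map_zero] at hcu
        exact subsingleton_of_zero_eq_one (isUnit_zero_iff.mp hcu)
      exact ⟨1, Subsingleton.elim _ _⟩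
    · have hcF : (c : F) ≠ 0 := RingOfIntegers.coe_ne_zero_iff.mpr hc0
      have hmem : Units.mk0 (c : F) hcF ∈ k_unitsAt S := by
        intro v hv
        exact v.valuation_eq_one_iff_notMem.mpr
          (kzred_notMem_of_isUnit 𝔪 v.asIdeal v.isPrime.ne_top ((hS v).mpr hv) c hcu)
      refine ⟨⟨Units.mk0 (c : F) hcF, hmem⟩, ?_⟩
      refine huniq _ u c 1 (by simp) (by simp) ?_
      rw [map_one, mul_one, hc]
  · intro a
    constructor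
    · intro h
      obtain ⟨c₁, c₂, -, hc, hce⟩ := hrep a
      have h1 := hr a c₁ c₂ hce
      refine ⟨c₁, c₂, (kzred_isUnit_mk_iff 𝔪 c₂).mp hc, ?_, hce⟩
      rw [← Ideal.Quotient.eq, ← h1]
      have h2 : r a = 1 := h
      rw [h2, Units.val_one, one_mul]
    · rintro ⟨c₁, c₂, hc, hm, he⟩
      refine huniq a 1 c₁ c₂ ((kzred_isUnit_mk_iff 𝔪 c₂).mpr hc) he ?_
      rw [Units.val_one, one_mul]
      exact (Ideal.Quotient.eq.mpr hm).symm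

end Fermat.Agent.S14
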