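/-
S14, block K, package K/SUnitFrac: an `S`-unit is a quotient of two integral `S`-units
(class-number trick).  Owner: helper239.
-/
import Mathlib
import Fermat.Agent.S14.Interfaces
import Fermat.Agent.S14.KInterfaces
set_option autoImplicit false
open NumberField IsDedekindDomain
namespace Fermat.Agent.S14

/-- A nonzero ideal all of whose prime divisors lie in `S` is a product of powers of primes of
`S`. -/
theorem k_sf_ideal_eq_prod {F : Type} [Field F] [NumberField F]
    (S : Finset (HeightOneSpectrum (𝓞 F))) (I : Ideal (𝓞 F)) (hI : I ≠ ⊥)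
    (h : ∀ w : HeightOneSpectrum (𝓞 F), w ∉ S → ¬ I ≤ w.asIdeal) :
    ∃ m : HeightOneSpectrum (𝓞 F) → ℕ, I = ∏ v ∈ S, v.asIdeal ^ m v := by
  classical
  refine ⟨fun v => (Associates.mk v.asIdeal).count (Associates.mk I).factors, ?_⟩
  have h1 := Ideal.finprod_heightOneSpectrum_factorization hI
  rw [finprod_eq_prod_of_mulSupport_subset (s := S)] at h1
  · exact h1.symm
  · intro w hw
    by_contra hwS
    apply hw
    have h0 : (Associates.mk w.asIdeal).count (Associates.mk I).factors = 0 := by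
      by_contra hne
      exact h w hwS
        (Ideal.le_of_dvd ((Associates.count_ne_zero_iff_dvd hI w.irreducible).mp hne))
    simp [HeightOneSpectrum.maxPowDividing, h0]

/-- The `h`-th power of a prime is principal (`h` the class number). -/
theorem k_sf_exists_gen {F : Type} [Field F] [NumberField F] (v : HeightOneSpectrum (𝓞 F)) :
    ∃ π : 𝓞 F, π ≠ 0 ∧ v.asIdeal ^ (Fintype.card (ClassGroup (𝓞 F))) = Ideal.span {π} := by
  have hv : v.asIdeal ∈ nonZeroDivisors (Ideal (𝓞 F)) := mem_nonZeroDivisors_of_ne_zero v.ne_bot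
  have hv' : v.asIdeal ^ (Fintype.card (ClassGroup (𝓞 F))) ∈ nonZeroDivisors (Ideal (𝓞 F)) :=
    pow_mem hv _
  have h1 : (ClassGroup.mk0 ⟨v.asIdeal, hv⟩) ^ (Fintype.card (ClassGroup (𝓞 F))) = 1 :=
    pow_card_eq_one
  rw [← map_pow] at h1
  have h2 : ClassGroup.mk0 ⟨v.asIdeal ^ (Fintype.card (ClassGroup (𝓞 F))), hv'⟩ = 1 := h1
  rw [ClassGroup.mk0_eq_one_iff] at h2
  obtain ⟨π, hπ⟩ := h2
  have hπ' : v.asIdeal ^ (Fintype.card (ClassGroup (𝓞 F))) = Ideal.span {π} := hπ
  refine ⟨π, ?_, hπ'⟩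
  rintro rfl
  rw [Ideal.span_singleton_eq_bot.mpr rfl] at hπ'
  exact pow_ne_zero _ v.ne_bot hπ'

/-- A prime containing a product of powers of primes of `S` lies in `S`. -/
theorem k_sf_mem_of_prod_le {F : Type} [Field F] [NumberField F]
    (S : Finset (HeightOneSpectrum (𝓞 F))) (m : HeightOneSpectrum (𝓞 F) → ℕ)
    (w : HeightOneSpectrum (𝓞 F)) (h : ∏ v ∈ S, v.asIdeal ^ m v ≤ w.asIdeal) : w ∈ S := by
  obtain ⟨v, hvS, hv⟩ := (Ideal.IsPrime.prod_le w.isPrime).mp h
  have h1 : v.asIdeal ≤ w.asIdeal := Ideal.IsPrime.le_of_pow_le hv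
  have h2 : v.asIdeal = w.asIdeal := (v.isMaximal.eq_of_le w.isPrime.ne_top h1)
  have h3 : v = w := HeightOneSpectrum.ext h2
  exact h3 ▸ hvS

/-- The exponent needed to clear the denominator at `v`. -/
theorem k_sf_exists_exp {F : Type} [Field F] [NumberField F] (h : ℕ) (hpos : 0 < h)
    (v : HeightOneSpectrum (𝓞 F)) (u : Fˣ) :
    ∃ a : ℕ, v.valuation F (u : F) * WithZero.exp (-((h * a : ℕ) : ℤ)) ≤ 1 := by
  have hx : v.valuation F (u : F) ≠ 0 := (Valuation.ne_zero_iff _).mpr u.ne_zero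
  refine ⟨(WithZero.log (v.valuation F (u : F))).toNat, ?_⟩
  rw [← WithZero.exp_log hx, WithZero.log_exp, ← WithZero.exp_add, ← WithZero.exp_zero,
    WithZero.exp_le_exp]
  have h1 := Int.self_le_toNat (WithZero.log (v.valuation F (u : F)))
  have h2 : ((WithZero.log (v.valuation F (u : F))).toNat : ℤ) ≤
      ((h * (WithZero.log (v.valuation F (u : F))).toNat : ℕ) : ℤ) := by
    exact_mod_cast Nat.le_mul_of_pos_left _ hpos
  omega

theorem k_sf_main : k_SUnitFracStatement := by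
  intro F _ _ S u hu
  classical
  have hpos : 0 < Fintype.card (ClassGroup (𝓞 F)) := Fintype.card_pos
  generalize hh : Fintype.card (ClassGroup (𝓞 F)) = h at hpos
  choose π hπ0 hπ using fun v : HeightOneSpectrum (𝓞 F) => k_sf_exists_gen v
  simp only [hh] at hπ
  choose a ha using fun v : HeightOneSpectrum (𝓞 F) => k_sf_exists_exp h hpos v u
  have hu₂ : Ideal.span {∏ v ∈ S, π v ^ a v} = ∏ v ∈ S, v.asIdeal ^ (h * a v) := by
    rw [← Ideal.prod_span_singleton]
    refine Finset.prod_congr rfl fun v _ => ?_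
    rw [← Ideal.span_singleton_pow, ← hπ, ← pow_mul]
  have hu₂0 : (∏ v ∈ S, π v ^ a v) ≠ 0 :=
    Finset.prod_ne_zero_iff.mpr fun v _ => pow_ne_zero _ (hπ0 v)
  -- `u₂` is a unit outside `S`
  have hu₂S : ∀ w : HeightOneSpectrum (𝓞 F), w ∉ S → (∏ v ∈ S, π v ^ a v) ∉ w.asIdeal := by
    intro w hw hmem
    apply hw
    apply k_sf_mem_of_prod_le S (fun v => h * a v) w
    rw [← hu₂]
    exact (Ideal.span_singleton_le_iff_mem _).mpr hmem
  -- integrality of `u * u₂`
  have hint : ∀ w : HeightOneSpectrum (𝓞 F),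
      w.valuation F ((u : F) * algebraMap (𝓞 F) F (∏ v ∈ S, π v ^ a v)) ≤ 1 := by
    intro w
    rw [map_mul]
    by_cases hw : w ∈ S
    · have hmem : (∏ v ∈ S, π v ^ a v) ∈ w.asIdeal ^ (h * a w) := by
        have h1 : Ideal.span {∏ v ∈ S, π v ^ a v} ≤ w.asIdeal ^ (h * a w) := by
          rw [hu₂]
          exact Ideal.le_of_dvd (Finset.dvd_prod_of_mem (fun v => v.asIdeal ^ (h * a v)) hw)
        exact (Ideal.span_singleton_le_iff_mem _).mp h1
      have h2 := (w.intValuation_le_pow_iff_mem _ _).mpr hmem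
      rw [HeightOneSpectrum.valuation_of_algebraMap]
      exact le_trans (mul_le_mul' le_rfl h2) (ha w)
    · have h1 : w.valuation F (u : F) = 1 := hu w hw
      rw [h1, one_mul]
      exact w.valuation_le_one _
  obtain ⟨u₁, hu₁⟩ := HeightOneSpectrum.mem_integers_of_valuation_le_one F _ hint
  have hu₁0 : u₁ ≠ 0 := by
    rintro rfl
    rw [map_zero] at hu₁
    have h3 := mul_ne_zero u.ne_zero
      ((map_ne_zero_iff (algebraMap (𝓞 F) F) (IsFractionRing.injective (𝓞 F) F)).mpr hu₂0)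
    exact h3 hu₁.symm
  have hu₁S : ∀ w : HeightOneSpectrum (𝓞 F), w ∉ S → ¬ Ideal.span {u₁} ≤ w.asIdeal := by
    intro w hw hle
    have hmem : u₁ ∈ w.asIdeal := (Ideal.span_singleton_le_iff_mem _).mp hle
    have h1 : w.valuation F (algebraMap (𝓞 F) F u₁) < 1 :=
      (w.valuation_lt_one_iff_mem u₁).mpr hmem
    rw [hu₁, map_mul, hu w hw, one_mul] at h1
    exact hu₂S w hw ((w.valuation_lt_one_iff_mem _).mp h1)
  obtain ⟨m₁, hm₁⟩ := k_sf_ideal_eq_prod S (Ideal.span {u₁})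
    (by rwa [Ne, Ideal.span_singleton_eq_bot]) hu₁S
  exact ⟨u₁, ∏ v ∈ S, π v ^ a v, m₁, fun v => h * a v, hu₁0, hu₂0, hu₁.symm, hm₁, hu₂⟩

end Fermat.Agent.S14
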