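/-
S14, block K, package SUnitIndex (twin L): `[F_S : F_S ∩ Fˣ^p] = p ^ (#S + r + 1)`.
-/
import Mathlib
import Fermat.Agent.S14.Interfaces
import Fermat.Agent.S14.KInterfaces

set_option autoImplicit false

open NumberField IsDedekindDomain

namespace Fermat.Agent.S14

/-- If `b ^ p` has valuation `1` then so has `b`. -/
theorem k_sul_val_eq_one {F : Type} [Field F] [NumberField F] (v : HeightOneSpectrum (𝓞 F))
    (p : ℕ) (hp : p ≠ 0) (x : F) (h : v.valuation F (x ^ p) = 1) : v.valuation F x = 1 := by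
  rw [map_pow] at h
  exact (pow_eq_one_iff_of_nonneg zero_le hp).mp h

/-- If `b ^ p` is an `S`-unit then so is `b`. -/
theorem k_sul_mem_of_pow_mem {F : Type} [Field F] [NumberField F]
    (S : Finset (HeightOneSpectrum (𝓞 F))) (p : ℕ) (hp : p ≠ 0) (b : Fˣ)
    (h : b ^ p ∈ (S : Set (HeightOneSpectrum (𝓞 F))).unit F) :
    b ∈ (S : Set (HeightOneSpectrum (𝓞 F))).unit F := by
  intro v hv
  have h1 : v.valuation F (((b ^ p : Fˣ) : F)) = 1 := h v hv
  rw [Units.val_pow_eq_pow_val] at h1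
  exact k_sul_val_eq_one v p hp _ h1

/-- The `p`-th powers of `Fˣ` lying in the `S`-units are the `p`-th powers of `S`-units. -/
theorem k_sul_subgroupOf {F : Type} [Field F] [NumberField F]
    (S : Finset (HeightOneSpectrum (𝓞 F))) (p : ℕ) (hp : p ≠ 0) :
    (k_pow p F).subgroupOf ((S : Set (HeightOneSpectrum (𝓞 F))).unit F) =
      (powMonoidHom p : ((S : Set (HeightOneSpectrum (𝓞 F))).unit F) →*
        ((S : Set (HeightOneSpectrum (𝓞 F))).unit F)).range := by
  ext a
  rw [Subgroup.mem_subgroupOf]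
  constructor
  · rintro ⟨b, hb⟩
    have hb' : b ^ p = (a : Fˣ) := hb
    have hbA : b ∈ (S : Set (HeightOneSpectrum (𝓞 F))).unit F :=
      k_sul_mem_of_pow_mem S p hp b (hb' ▸ a.2)
    exact ⟨⟨b, hbA⟩, Subtype.ext hb'⟩
  · rintro ⟨b, hb⟩
    have hb' : b ^ p = a := hb
    exact ⟨(b : Fˣ), by rw [← hb']; rfl⟩

/-- The `p`-torsion of the `S`-units is the group of `p`-th roots of unity. -/
theorem k_sul_card_torsion {F : Type} [Field F] [NumberField F]
    (S : Finset (HeightOneSpectrum (𝓞 F))) (p : ℕ) (hp : p ≠ 0) (ζ : F)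
    (hζ : IsPrimitiveRoot ζ p) :
    Nat.card {a : ((S : Set (HeightOneSpectrum (𝓞 F))).unit F) // a ^ p = 1} = p := by
  have hne : NeZero p := ⟨hp⟩
  have hcard : Nat.card (rootsOfUnity p F) = p := hζ.card_rootsOfUnity
  have hequiv : {a : ((S : Set (HeightOneSpectrum (𝓞 F))).unit F) // a ^ p = 1} ≃
      rootsOfUnity p F :=
    { toFun := fun a => ⟨(a.1 : Fˣ), (mem_rootsOfUnity p _).mpr (by
        have h := a.2
        exact_mod_cast congrArg Subtype.val h)⟩
      invFun := fun a => ⟨⟨(a : Fˣ), k_sul_mem_of_pow_mem S p hp _ (by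
        have h := (mem_rootsOfUnity p (a : Fˣ)).mp a.2
        rw [h]
        exact one_mem _)⟩, Subtype.ext ((mem_rootsOfUnity p (a : Fˣ)).mp a.2)⟩
      left_inv := fun a => rfl
      right_inv := fun a => rfl }
  exact (Nat.card_congr hequiv).trans hcard

/-- (SUnitIndex, plan K1) `[F_S : F_S ∩ Fˣ^p] = p ^ (#S + r + 1)`. -/
theorem k_sul_main : SUnitRankStatement → k_AbIndexStatement → k_SUnitIndexStatement := by
  intro hrank hab p _ F _ _ ζ hζ S
  have hp : p ≠ 0 := (Fact.out : p.Prime).ne_zero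
  obtain ⟨hfin, hfr⟩ := hrank F S
  have hidx := hab p ((S : Set (HeightOneSpectrum (𝓞 F))).unit F) hfin
  rw [Subgroup.relIndex, k_sul_subgroupOf S p hp, hidx, hfr, k_sul_card_torsion S p hp ζ hζ,
    ← pow_succ, add_comm (Units.rank F) S.card]

end Fermat.Agent.S14
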