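/-
S14, block K, package K/SplitP (plan item K5): splitting at the primes of `S`, including `𝔳 ∣ p`.
`N = F(y)`, `y ^ p = x₀`, `b ∉ 𝔳`, `x₀ - b ^ p ∈ 𝔳 * span {lam} ^ p` (`lam = 1 - ζ`) implies that `𝔳`
splits completely in `N`.
-/
import Mathlib
import Fermat.Agent.S14.Interfaces
import Fermat.Agent.S14.KInterfaces

set_option autoImplicit false

open NumberField IsDedekindDomain

namespace Fermat.Agent.S14

/-- A nonzero element of a Noetherian domain has an exact exponent at every proper ideal. -/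
theorem k_sp_exists_exact {R : Type} [CommRing R] [IsDomain R] [IsNoetherianRing R]
    (P : Ideal R) (hP : P ≠ ⊤) (L : R) (hL : L ≠ 0) :
    ∃ k : ℕ, L ∈ P ^ k ∧ L ∉ P ^ (k + 1) := by
  classical
  have h1 : ∃ n : ℕ, L ∉ P ^ n := by
    by_contra hcon
    have hmem : L ∈ ⨅ i : ℕ, P ^ i := by
      rw [Ideal.mem_iInf]
      exact fun n => by_contra fun hn => hcon ⟨n, hn⟩
    rw [Ideal.iInf_pow_eq_bot_of_isDomain P hP] at hmem
    exact hL (by simpa using hmem)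
  have hn := Nat.find_spec h1
  have hmin : ∀ m : ℕ, m < Nat.find h1 → ¬ (L ∉ P ^ m) := fun m hm => Nat.find_min h1 hm
  cases hfind : Nat.find h1 with
  | zero =>
    rw [hfind] at hn
    simp at hn
  | succ k =>
    refine ⟨k, ?_, ?_⟩
    · by_contra hk
      exact hmin k (by omega) hk
    · rw [hfind] at hn
      exact hn

/-- The algebraic heart of the argument: an endomorphism `σ` with `σ Y = Z * Y` fixing `Z`, `B`
and preserving `P ^ (k + 1)` is incompatible with `Y ≡ Z ^ i * B` modulo `P ^ (k + 1)` when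
`1 - Z ∉ P ^ (k + 1)`. -/
theorem k_sp_key {R : Type} [CommRing R] [IsDedekindDomain R] (P : Ideal R) [P.IsPrime]
    (σ : R →+* R) (Y Z B L : R) (p k i : ℕ)
    (hσY : σ Y = Z * Y) (hσZ : σ Z = Z) (hσB : σ B = B)
    (hσP : ∀ x ∈ P ^ (k + 1), σ x ∈ P ^ (k + 1))
    (hZ : Z ^ p = 1) (hp : 0 < p) (hL : L = 1 - Z) (hB : B ∉ P) (hLk : L ∉ P ^ (k + 1))
    (hi : Y - Z ^ i * B ∈ P ^ (k + 1)) : False := by
  have h1 : Z * Y - Z ^ i * B ∈ P ^ (k + 1) := by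
    have h := hσP _ hi
    simpa [map_sub, map_mul, map_pow, hσY, hσZ, hσB] using h
  have h2 : Z * (Y - Z ^ i * B) ∈ P ^ (k + 1) := Ideal.mul_mem_left _ _ hi
  have h3 : Z ^ i * (B * L) ∈ P ^ (k + 1) := by
    have h : Z ^ i * (B * L) = Z * (Y - Z ^ i * B) - (Z * Y - Z ^ i * B) := by
      rw [hL]
      ring
    rw [h]
    exact Ideal.sub_mem _ h2 h1
  have h4 : B * L ∈ P ^ (k + 1) := by
    have h : B * L = (Z ^ (p - 1)) ^ i * (Z ^ i * (B * L)) := by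
      have h' : (Z ^ (p - 1)) ^ i * Z ^ i = 1 := by
        rw [← mul_pow, ← pow_succ, Nat.sub_add_cancel hp, hZ, one_pow]
      rw [← mul_assoc, h', one_mul]
    rw [h]
    exact Ideal.mul_mem_left _ _ h3
  rcases Ideal.IsPrime.mul_mem_pow P h4 with h | h
  · exact hB h
  · exact hLk h

/-- The product formula `Y ^ p - B ^ p = ∏_{i < p} (Y - Z ^ i * B)` in a domain. -/
theorem k_sp_prod {R : Type} [CommRing R] [IsDomain R] (p : ℕ) (hp : 0 < p) (Z : R)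
    (hZ : IsPrimitiveRoot Z p) (Y B : R) :
    ∏ i ∈ Finset.range p, (Y - Z ^ i * B) = Y ^ p - B ^ p := by
  have h := congrArg (Polynomial.eval Y) (X_pow_sub_C_eq_prod hZ (α := B) (a := B ^ p) hp rfl)
  simp only [Polynomial.eval_sub, Polynomial.eval_pow, Polynomial.eval_X, Polynomial.eval_C,
    Polynomial.eval_prod] at h
  exact h.symm

/-- A ring endomorphism mapping `P` into `P` maps `P ^ n` into `P ^ n`. -/
theorem k_sp_pow_stable {R : Type} [CommRing R] (P : Ideal R) (σ : R →+* R)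
    (h : ∀ x ∈ P, σ x ∈ P) (n : ℕ) : ∀ x ∈ P ^ n, σ x ∈ P ^ n := by
  intro x hx
  have h1 : P.map σ ≤ P := by
    rw [Ideal.map_le_iff_le_comap]
    intro z hz
    exact h z hz
  have h2 : σ x ∈ (P ^ n).map σ := Ideal.mem_map_of_mem σ hx
  rw [Ideal.map_pow] at h2
  exact Ideal.pow_right_mono h1 n h2

/-- (SplitP, plan K5) If `x₀ ≡ b ^ p` modulo `𝔳 * (1 - ζ) ^ p` with `b` prime to `𝔳`, then `𝔳`
splits completely in `F(x₀^{1/p})` (also for `𝔳 ∣ p`). -/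
theorem k_sp_main : KummerGaloisStatement → k_GalPrimeStatement → k_ProdPowStatement →
    k_SplitPStatement := by
  intro hKG hGP hPP p _ _ F N _ _ _ _ _ ζ hζ hfin x₀ y hy hyF lam b hlam 𝔳 h𝔳 h𝔳0 hb hx
  obtain ⟨hGal, τ, hτy, -⟩ := hKG p F N ζ hζ hfin (x₀ : F) y hy hyF
  have hGal' : IsGalois F N := hGal
  rcases hGP p F N hfin 𝔳 h𝔳 h𝔳0 with h | ⟨huniq, -⟩
  · exact h
  exfalso
  have hp : 0 < p := (Fact.out : p.Prime).pos
  have h𝔳' : 𝔳.IsPrime := h𝔳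
  obtain ⟨⟨𝔙, h𝔙⟩⟩ := (inferInstance : Nonempty (𝔳.primesOver (𝓞 N)))
  have h𝔙prime : 𝔙.IsPrime := h𝔙.1
  have h𝔙over : 𝔙.LiesOver 𝔳 := h𝔙.2
  have h𝔙0 : 𝔙 ≠ ⊥ := Ideal.ne_bot_of_mem_primesOver h𝔳0 h𝔙
  -- the elements `Y`, `Z`, `L`, `B` of `𝓞 N`
  have hyint : IsIntegral ℤ y := by
    refine IsIntegral.of_pow hp ?_
    rw [hy]
    exact (RingOfIntegers.isIntegral_coe x₀).algebraMap
  set Y : 𝓞 N := ⟨y, hyint⟩ with hY
  set zeta : 𝓞 F := 1 - lam with hzeta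
  have hlam' : algebraMap (𝓞 F) F lam = 1 - ζ := hlam
  have hzetaF : algebraMap (𝓞 F) F zeta = ζ := by
    rw [hzeta, map_sub, map_one, hlam']
    ring
  set Z : 𝓞 N := algebraMap (𝓞 F) (𝓞 N) zeta with hZdef
  set L : 𝓞 N := algebraMap (𝓞 F) (𝓞 N) lam with hLdef
  set B : 𝓞 N := algebraMap (𝓞 F) (𝓞 N) b with hBdef
  have hinjF : Function.Injective (algebraMap (𝓞 F) F) := RingOfIntegers.coe_injective
  have hinj : Function.Injective (algebraMap (𝓞 F) (𝓞 N)) :=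
    FaithfulSMul.algebraMap_injective _ _
  have hzprim : IsPrimitiveRoot zeta p := by
    apply IsPrimitiveRoot.of_map_of_injective (f := algebraMap (𝓞 F) F) ?_ hinjF
    rw [hzetaF]
    exact hζ
  have hZprim : IsPrimitiveRoot Z p := hzprim.map_of_injective hinj
  have hZp : Z ^ p = 1 := hZprim.pow_eq_one
  have hLZ : L = 1 - Z := by
    rw [hLdef, hZdef, hzeta]
    simp
  have hL0 : L ≠ 0 := by
    intro h
    have h1 : Z = 1 := by
      rw [hLZ] at h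
      exact (sub_eq_zero.mp h).symm
    exact hZprim.ne_one (Fact.out : p.Prime).one_lt h1
  have hBnot : B ∉ 𝔙 := by
    intro h
    apply hb
    rw [h𝔙over.over]
    exact h
  -- the exact exponent of `𝔙` in `L`
  obtain ⟨k, hLk, hLk1⟩ := k_sp_exists_exact 𝔙 h𝔙prime.ne_top L hL0
  have hmem : algebraMap (𝓞 F) (𝓞 N) (x₀ - b ^ p) ∈ 𝔙 ^ (p * k + 1) := by
    have h1 : algebraMap (𝓞 F) (𝓞 N) (x₀ - b ^ p) ∈
        (𝔳 * Ideal.span {lam} ^ p).map (algebraMap (𝓞 F) (𝓞 N)) :=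
      Ideal.mem_map_of_mem _ hx
    rw [Ideal.map_mul, Ideal.map_pow, Ideal.map_span, Set.image_singleton] at h1
    have h2 : 𝔳.map (algebraMap (𝓞 F) (𝓞 N)) ≤ 𝔙 := by
      rw [Ideal.map_le_iff_le_comap]
      exact le_of_eq h𝔙over.over
    have h3 : Ideal.span {L} ≤ 𝔙 ^ k := by
      rw [Ideal.span_singleton_le_iff_mem]
      exact hLk
    have h4 : 𝔳.map (algebraMap (𝓞 F) (𝓞 N)) * Ideal.span {L} ^ p ≤ 𝔙 ^ (p * k + 1) := by
      calc 𝔳.map (algebraMap (𝓞 F) (𝓞 N)) * Ideal.span {L} ^ p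
          ≤ 𝔙 * (𝔙 ^ k) ^ p := Ideal.mul_mono h2 (Ideal.pow_right_mono h3 p)
        _ = 𝔙 ^ (p * k + 1) := by rw [← pow_mul, mul_comm k p, pow_succ']
    exact h4 h1
  have hcoe : ∀ u : 𝓞 F, algebraMap (𝓞 N) N (algebraMap (𝓞 F) (𝓞 N) u) =
      algebraMap F N (algebraMap (𝓞 F) F u) := by
    intro u
    rw [← IsScalarTower.algebraMap_apply (𝓞 F) (𝓞 N) N, IsScalarTower.algebraMap_apply (𝓞 F) F N]
  have hYy : algebraMap (𝓞 N) N Y = y := rfl
  have hYB : Y ^ p - B ^ p = algebraMap (𝓞 F) (𝓞 N) (x₀ - b ^ p) := by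
    apply RingOfIntegers.ext
    show algebraMap (𝓞 N) N (Y ^ p - B ^ p) =
      algebraMap (𝓞 N) N (algebraMap (𝓞 F) (𝓞 N) (x₀ - b ^ p))
    have h1 : algebraMap (𝓞 N) N (Y ^ p - B ^ p) =
        y ^ p - (algebraMap F N (algebraMap (𝓞 F) F b)) ^ p := by
      rw [map_sub, map_pow, map_pow, hYy, hBdef, hcoe]
    have h2 : algebraMap F N (algebraMap (𝓞 F) F (x₀ - b ^ p)) =
        algebraMap F N (algebraMap (𝓞 F) F x₀) - (algebraMap F N (algebraMap (𝓞 F) F b)) ^ p := by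
      rw [map_sub, map_sub, map_pow, map_pow]
    rw [h1, hcoe, h2, hy]
  have hprod : ∏ i ∈ Finset.range p, (Y - Z ^ i * B) ∈ 𝔙 ^ ((Finset.range p).card * k + 1) := by
    rw [Finset.card_range, k_sp_prod p hp Z hZprim Y B, hYB]
    exact hmem
  obtain ⟨i, -, hi⟩ := hPP N 𝔙 h𝔙prime h𝔙0 (Finset.range p) (fun i => Y - Z ^ i * B) k hprod
  -- the Galois action
  set τ' : 𝓞 N ≃ₐ[𝓞 F] 𝓞 N := galRestrict (𝓞 F) F N (𝓞 N) τ with hτ'
  have hτ'Y : τ' Y = Z * Y := by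
    apply RingOfIntegers.ext
    show algebraMap (𝓞 N) N (τ' Y) = algebraMap (𝓞 N) N (Z * Y)
    rw [hτ', algebraMap_galRestrict_apply, map_mul, hZdef, hcoe, hzetaF, hYy]
    exact hτy
  have hstab : ∀ x ∈ 𝔙, τ' x ∈ 𝔙 := by
    have hmem' : 𝔙.comap (τ' : 𝓞 N →+* 𝓞 N) ∈ 𝔳.primesOver (𝓞 N) := by
      refine ⟨Ideal.comap_isPrime _ _, ⟨?_⟩⟩
      ext x
      rw [Ideal.under_def, Ideal.mem_comap, Ideal.mem_comap]
      have h1 : (τ' : 𝓞 N →+* 𝓞 N) (algebraMap (𝓞 F) (𝓞 N) x) = algebraMap (𝓞 F) (𝓞 N) x :=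
        τ'.commutes x
      rw [h1]
      conv_lhs => rw [h𝔙over.over]
      rfl
    have h2 := huniq _ hmem' _ h𝔙
    intro x hx
    have hx' : x ∈ 𝔙.comap (τ' : 𝓞 N →+* 𝓞 N) := by
      rw [h2]
      exact hx
    exact hx'
  exact k_sp_key 𝔙 (τ' : 𝓞 N →+* 𝓞 N) Y Z B L p k i hτ'Y (τ'.commutes zeta) (τ'.commutes b)
    (k_sp_pow_stable 𝔙 _ hstab (k + 1)) hZp hp hLZ hBnot hLk1 hi

end Fermat.Agent.S14
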