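/-
S14, block K, package K/SplitP (twin C): if `x₀ ≡ b ^ p` modulo `𝔳 * (1 - ζ) ^ p` with `b` prime to
`𝔳`, then `𝔳` splits completely in `F(x₀^{1/p})`.
-/
import Mathlib
import Fermat.Agent.S14.Interfaces
import Fermat.Agent.S14.KInterfaces
set_option autoImplicit false
open NumberField IsDedekindDomain
namespace Fermat.Agent.S14

/-- Exact exponent of a proper ideal in a nonzero element of a noetherian domain. -/
theorem k_spc_exists_exp {R : Type*} [CommRing R] [IsDomain R] [IsNoetherianRing R] (P : Ideal R)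
    (hP : P ≠ ⊤) (x : R) (hx : x ≠ 0) : ∃ k : ℕ, x ∈ P ^ k ∧ x ∉ P ^ (k + 1) := by
  by_contra hcon
  have hall : ∀ k : ℕ, x ∈ P ^ k := by
    intro k
    induction k with
    | zero => simp
    | succ k ih =>
      by_contra h
      exact hcon ⟨k, ih, h⟩
  have hmem : x ∈ ⨅ i : ℕ, P ^ i := by
    rw [Ideal.mem_iInf]
    exact hall
  rw [Ideal.iInf_pow_eq_bot_of_isDomain P hP] at hmem
  exact hx ((Ideal.mem_bot).mp hmem)

/-- `∏_{i < p} (Y - Z ^ i * B) = Y ^ p - B ^ p` for a primitive `p`-th root of unity `Z` in a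
domain. -/
theorem k_spc_prod {R : Type*} [CommRing R] [IsDomain R] (p : ℕ) (hp : 0 < p) (Y Z B : R)
    (hZ : IsPrimitiveRoot Z p) :
    ∏ i ∈ Finset.range p, (Y - Z ^ i * B) = Y ^ p - B ^ p := by
  have h := congrArg (Polynomial.eval Y) (X_pow_sub_C_eq_prod hZ hp (rfl : B ^ p = B ^ p))
  rw [Polynomial.eval_prod] at h
  simp only [Polynomial.eval_sub, Polynomial.eval_pow, Polynomial.eval_X, Polynomial.eval_C] at h
  exact h.symm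

/-- The core of the argument, inside `𝓞 N`. -/
theorem k_spc_core (hPP : k_ProdPowStatement) (p : ℕ) (hp : 1 < p) (N : Type) [Field N]
    [NumberField N] (𝔙 : Ideal (𝓞 N)) (h𝔙 : 𝔙.IsPrime) (h𝔙0 : 𝔙 ≠ ⊥)
    (Y Z B L : 𝓞 N) (hZ : IsPrimitiveRoot Z p) (hL : L = 1 - Z) (hB : B ∉ 𝔙)
    (hstab : ∀ n i : ℕ, Y - Z ^ i * B ∈ 𝔙 ^ n → Z * Y - Z ^ i * B ∈ 𝔙 ^ n)
    (hX : Y ^ p - B ^ p ∈ 𝔙 * Ideal.span {L} ^ p) : False := by
  have hL0 : L ≠ 0 := by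
    rw [hL]
    intro h
    exact hZ.ne_one hp (sub_eq_zero.mp h).symm
  obtain ⟨k, hk, hk'⟩ := k_spc_exists_exp 𝔙 h𝔙.ne_top L hL0
  have hle : 𝔙 * Ideal.span {L} ^ p ≤ 𝔙 ^ (p * k + 1) := by
    have h1 : Ideal.span {L} ≤ 𝔙 ^ k := (Ideal.span_singleton_le_iff_mem _).mpr hk
    calc 𝔙 * Ideal.span {L} ^ p ≤ 𝔙 * (𝔙 ^ k) ^ p :=
          Ideal.mul_mono le_rfl (Ideal.pow_right_mono h1 p)
      _ = 𝔙 ^ (p * k + 1) := by rw [← pow_mul, mul_comm k p, pow_succ']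
  have hmem : ∏ i ∈ Finset.range p, (Y - Z ^ i * B) ∈ 𝔙 ^ ((Finset.range p).card * k + 1) := by
    rw [Finset.card_range, k_spc_prod p (by omega) Y Z B hZ]
    exact hle hX
  obtain ⟨i, -, hi⟩ := hPP N 𝔙 h𝔙 h𝔙0 (Finset.range p) (fun i => Y - Z ^ i * B) k hmem
  have hi' := hstab (k + 1) i hi
  have hLB : Z ^ i * B * L ∈ 𝔙 ^ (k + 1) := by
    have heq : Z ^ i * B * L = Z * (Y - Z ^ i * B) - (Z * Y - Z ^ i * B) := by
      rw [hL]; ring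
    rw [heq]
    exact Ideal.sub_mem _ (Ideal.mul_mem_left _ _ hi) hi'
  have hmax : 𝔙.IsMaximal := h𝔙.isMaximal h𝔙0
  rcases Ideal.IsMaximal.mul_mem_pow 𝔙 hLB with h | h
  · rcases h𝔙.mem_or_mem h with h | h
    · have hZmem : Z ∈ 𝔙 := h𝔙.mem_of_pow_mem i h
      have h1 : (1 : 𝓞 N) ∈ 𝔙 := by
        rw [← hZ.pow_eq_one]
        exact Ideal.pow_mem_of_mem 𝔙 hZmem p (by omega)
      exact h𝔙.ne_top ((Ideal.eq_top_iff_one 𝔙).mpr h1)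
    · exact hB h
  · exact hk' h

/-- (SplitP) If `x₀ ≡ b ^ p` modulo `𝔳 * (1 - ζ) ^ p` with `b` prime to `𝔳`, then `𝔳` splits
completely in `F(x₀^{1/p})`. -/
theorem k_spc_main : KummerGaloisStatement → k_GalPrimeStatement → k_ProdPowStatement →
    k_SplitPStatement := by
  intro hKG hGP hPP p _ _ F N _ _ _ _ _ ζ hζ hdeg x₀ y hy hyF lam b hlam 𝔳 h𝔳 h𝔳0 hb hx
  have hpp : p.Prime := Fact.out
  obtain ⟨hGal, τ, hτy, -⟩ := hKG p F N ζ hζ hdeg (x₀ : F) y hy hyF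
  have := hGal
  rcases hGP p F N hdeg 𝔳 h𝔳 h𝔳0 with h | ⟨huniq, -⟩
  · exact h
  exfalso
  have : 𝔳.IsPrime := h𝔳
  obtain ⟨⟨𝔙, h𝔙⟩⟩ : Nonempty (𝔳.primesOver (𝓞 N)) := inferInstance
  have h𝔙p : 𝔙.IsPrime := h𝔙.1
  have h𝔙l : 𝔙.LiesOver 𝔳 := h𝔙.2
  have h𝔙0 : 𝔙 ≠ ⊥ := Ideal.ne_bot_of_mem_primesOver h𝔳0 h𝔙
  -- the elements
  have hζint : IsIntegral ℤ ζ := hζ.isIntegral hpp.pos
  let zeta : 𝓞 F := ⟨ζ, hζint⟩
  have hyint : IsIntegral ℤ y := by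
    refine IsIntegral.of_pow hpp.pos ?_
    rw [hy]
    exact (RingOfIntegers.isIntegral_coe x₀).algebraMap
  let Y : 𝓞 N := ⟨y, hyint⟩
  let Z : 𝓞 N := algebraMap (𝓞 F) (𝓞 N) zeta
  let B : 𝓞 N := algebraMap (𝓞 F) (𝓞 N) b
  let L : 𝓞 N := algebraMap (𝓞 F) (𝓞 N) lam
  have hZcoe : (Z : N) = algebraMap F N ζ := rfl
  have hYcoe : (Y : N) = y := rfl
  have hZ : IsPrimitiveRoot Z p := by
    have h1 : IsPrimitiveRoot (algebraMap F N ζ) p :=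
      hζ.map_of_injective (algebraMap F N).injective
    rw [← hZcoe] at h1
    exact IsPrimitiveRoot.of_map_of_injective (f := algebraMap (𝓞 N) N) h1
      RingOfIntegers.coe_injective
  have hlam' : lam = 1 - zeta := by
    apply RingOfIntegers.coe_injective
    show algebraMap (𝓞 F) F lam = algebraMap (𝓞 F) F (1 - zeta)
    rw [map_sub, map_one]
    exact hlam
  have hL : L = 1 - Z := by
    show algebraMap (𝓞 F) (𝓞 N) lam = 1 - algebraMap (𝓞 F) (𝓞 N) zeta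
    rw [hlam', map_sub, map_one]
  have hB : B ∉ 𝔙 := fun h => hb ((Ideal.mem_of_liesOver 𝔙 𝔳 b).mpr h)
  have hYp : Y ^ p = algebraMap (𝓞 F) (𝓞 N) x₀ := by
    apply RingOfIntegers.coe_injective
    show ((Y ^ p : 𝓞 N) : N) = algebraMap F N (x₀ : F)
    rw [← hy]
    rfl
  -- the restriction of `τ` to `𝓞 N`
  let τ' : 𝓞 N ≃ₐ[𝓞 F] 𝓞 N := galRestrict (𝓞 F) F N (𝓞 N) τ
  have hτ'Y : τ' Y = Z * Y := by
    apply RingOfIntegers.coe_injective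
    have h1 : algebraMap (𝓞 N) N (τ' Y) = τ (algebraMap (𝓞 N) N Y) :=
      algebraMap_galRestrict_apply (𝓞 F) τ Y
    show algebraMap (𝓞 N) N (τ' Y) = algebraMap (𝓞 N) N (Z * Y)
    rw [h1, map_mul]
    exact hτy
  have hτ'Z : τ' Z = Z := τ'.commutes zeta
  have hτ'B : τ' B = B := τ'.commutes b
  have hmap : 𝔙.map τ' = 𝔙 := by
    have h1 : (𝔙.map τ').IsPrime := Ideal.map_isPrime_of_equiv τ'
    have h2 : (𝔙.map τ').LiesOver 𝔳 := inferInstance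
    exact huniq _ ⟨h1, h2⟩ _ h𝔙
  have hstab : ∀ n i : ℕ, Y - Z ^ i * B ∈ 𝔙 ^ n → Z * Y - Z ^ i * B ∈ 𝔙 ^ n := by
    intro n i h
    have h1 : τ' (Y - Z ^ i * B) ∈ (𝔙 ^ n).map τ' := Ideal.mem_map_of_mem τ' h
    rw [Ideal.map_pow, hmap, map_sub, map_mul, map_pow, hτ'Y, hτ'Z, hτ'B] at h1
    exact h1
  have hX : Y ^ p - B ^ p ∈ 𝔙 * Ideal.span {L} ^ p := by
    have h1 : algebraMap (𝓞 F) (𝓞 N) (x₀ - b ^ p) ∈
        (𝔳 * Ideal.span {lam} ^ p).map (algebraMap (𝓞 F) (𝓞 N)) := Ideal.mem_map_of_mem _ hx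
    rw [Ideal.map_mul, Ideal.map_pow, Ideal.map_span, Set.image_singleton, map_sub, map_pow,
      ← hYp] at h1
    have h2 : 𝔳.map (algebraMap (𝓞 F) (𝓞 N)) ≤ 𝔙 := by
      rw [Ideal.map_le_iff_le_comap]
      exact le_of_eq (Ideal.over_def 𝔙 𝔳)
    exact Ideal.mul_mono h2 le_rfl h1
  exact k_spc_core hPP p hpp.one_lt N 𝔙 h𝔙p h𝔙0 Y Z B L hZ hL hB hstab hX

end Fermat.Agent.S14
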