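/-
S14, block K, package K/Step (twin Z): one step of the greedy choice of auxiliary primes
(plan item K4).  Setting: `N = F(y)`, `y ^ p = x₀ ∈ 𝓞 F`, Galois of degree `p`; `u ∈ 𝓞 F` with
`u ∉ x₀^ℕ · F^p`; `T₀` a finite set of ideals.  We find a prime `𝔮 ∉ T₀`, `𝔮 ∤ p x₀ u`, which
splits completely in `N` and modulo which `u` is not a `p`-th power: apply the zeta pole
statement `K3Statement` to `N(u^{1/p}) / N`.
-/
import Mathlib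
import Fermat.Agent.S14.Interfaces
import Fermat.Agent.S14.KInterfaces
set_option autoImplicit false
open NumberField IsDedekindDomain
namespace Fermat.Agent.S14

/-- Finitely many nonzero primes of a number ring contain a given nonzero element. -/
theorem kzstep_finset_primes {N : Type} [Field N] [NumberField N] (M : 𝓞 N) (hM : M ≠ 0) :
    ∃ T₁ : Finset (Ideal (𝓞 N)), ∀ 𝔔 : Ideal (𝓞 N), 𝔔.IsPrime → 𝔔 ≠ ⊥ → M ∈ 𝔔 → 𝔔 ∈ T₁ := by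
  classical
  have hspan : Ideal.span {M} ≠ (0 : Ideal (𝓞 N)) := by
    rw [Ne, Ideal.zero_eq_bot, Ideal.span_singleton_eq_bot]
    exact hM
  have hfin := Ideal.finite_factors hspan
  refine ⟨hfin.toFinset.image (fun v => v.asIdeal), fun 𝔔 h𝔔 h𝔔0 hM𝔔 => ?_⟩
  rw [Finset.mem_image]
  refine ⟨⟨𝔔, h𝔔, h𝔔0⟩, ?_, rfl⟩
  rw [Set.Finite.mem_toFinset]
  exact Ideal.dvd_span_singleton.mpr hM𝔔

/-- A nonzero element lying in every nonzero member of a finite set of ideals. -/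
theorem kzstep_exists_elt {F : Type} [Field F] [NumberField F] (T₀ : Finset (Ideal (𝓞 F))) :
    ∃ d : 𝓞 F, d ≠ 0 ∧ ∀ 𝔱 ∈ T₀, 𝔱 ≠ ⊥ → d ∈ 𝔱 := by
  classical
  induction T₀ using Finset.induction_on with
  | empty => exact ⟨1, one_ne_zero, fun 𝔱 h => absurd h (Finset.notMem_empty 𝔱)⟩
  | insert 𝔱 T h𝔱 ih =>
    obtain ⟨d, hd0, hd⟩ := ih
    by_cases h0 : 𝔱 = ⊥
    · refine ⟨d, hd0, fun 𝔰 h𝔰 h𝔰0 => ?_⟩
      rcases Finset.mem_insert.mp h𝔰 with rfl | h𝔰T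
      · exact absurd h0 h𝔰0
      · exact hd 𝔰 h𝔰T h𝔰0
    · obtain ⟨e, he, he0⟩ := Submodule.exists_mem_ne_zero_of_ne_bot h0
      refine ⟨e * d, mul_ne_zero he0 hd0, fun 𝔰 h𝔰 h𝔰0 => ?_⟩
      rcases Finset.mem_insert.mp h𝔰 with rfl | h𝔰T
      · exact Ideal.mul_mem_right _ _ he
      · exact Ideal.mul_mem_left _ _ (hd 𝔰 h𝔰T h𝔰0)

/-- (Step, plan K4) One step of the greedy choice. -/
theorem kzstep_main : K3Statement → KummerGaloisStatement → KummerSplitStatement →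
    k_KummerExistsStatement → k_KummerPowStatement → k_InertPowStatement →
    k_GalPrimeStatement → k_StepStatement := by
  intro hK3 _hKG hKS hKE hKP hIP hGP p _ _hp3 F N _ _ _ _ _ _ ζ hζ hdeg x₀ y hy hyN u hu T₀
  have hpprime : p.Prime := Fact.out
  -- (1) `u ≠ 0` and `x₀ ≠ 0`
  have hu0 : u ≠ 0 := by
    intro h
    apply hu 0 0
    rw [h, zero_pow hpprime.ne_zero, mul_zero]
    rfl
  have hx0 : x₀ ≠ 0 := by
    intro h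
    apply hyN
    refine ⟨0, ?_⟩
    rw [h] at hy
    have h0 : y ^ p = 0 := by
      rw [hy]
      simp
    rw [map_zero]
    exact ((pow_eq_zero_iff hpprime.ne_zero).mp h0).symm
  -- (2) `u` is not a `p`-th power in `N`
  have h2 : ∀ b : N, b ^ p ≠ algebraMap F N (u : F) := by
    intro b hb
    obtain ⟨j, c, hjc⟩ := hKP p F N ζ hζ hdeg (x₀ : F) y hy hyN (u : F) b hb
    exact hu j c hjc
  -- (3) the field `N' = N(u^{1/p})`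
  obtain ⟨N', _, _, _, hdeg', z, hz, hzN⟩ := hKE p N (algebraMap F N (u : F)) h2
  -- (4) the excluded primes
  obtain ⟨d, hd0, hd⟩ := kzstep_exists_elt T₀
  set m : 𝓞 F := (p : 𝓞 F) * x₀ * u * d with hm
  have hm0 : m ≠ 0 :=
    mul_ne_zero (mul_ne_zero (mul_ne_zero (Nat.cast_ne_zero.mpr hpprime.ne_zero) hx0) hu0) hd0
  have hM0 : algebraMap (𝓞 F) (𝓞 N) m ≠ 0 := by
    rw [Ne, FaithfulSMul.algebraMap_eq_zero_iff]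
    exact hm0
  obtain ⟨T₁, hT₁⟩ := kzstep_finset_primes (algebraMap (𝓞 F) (𝓞 N) m) hM0
  -- (5) a prime `𝔔` of `N` outside `T₁` which does not split completely in `N'`
  obtain ⟨𝔔, h𝔔, h𝔔0, h𝔔T, h𝔔ns⟩ := hK3 N N' (by rw [hdeg']; exact hpprime.two_le) T₁
  have hM𝔔 : algebraMap (𝓞 F) (𝓞 N) m ∉ 𝔔 := fun h => h𝔔T (hT₁ 𝔔 h𝔔 h𝔔0 h)
  set 𝔮 : Ideal (𝓞 F) := 𝔔.under (𝓞 F) with h𝔮def
  have h𝔮 : 𝔮.IsPrime := Ideal.IsPrime.under (𝓞 F) 𝔔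
  have h𝔮0 : 𝔮 ≠ ⊥ := Ideal.under_ne_bot (𝓞 F) h𝔔0
  have hm𝔮 : m ∉ 𝔮 := fun h => hM𝔔 (Ideal.mem_comap.mp h)
  have hp𝔮 : (p : 𝓞 F) ∉ 𝔮 := fun h => hm𝔮 (by
    rw [hm, mul_assoc, mul_assoc]
    exact Ideal.mul_mem_right _ _ h)
  have hx𝔮 : x₀ ∉ 𝔮 := fun h => hm𝔮 (by
    rw [hm]
    exact Ideal.mul_mem_right _ _ (Ideal.mul_mem_right _ _ (Ideal.mul_mem_left _ _ h)))
  have hu𝔮 : u ∉ 𝔮 := fun h => hm𝔮 (by
    rw [hm]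
    exact Ideal.mul_mem_right _ _ (Ideal.mul_mem_left _ _ h))
  have hT₀ : 𝔮 ∉ T₀ := fun h => hm𝔮 (by
    rw [hm]
    exact Ideal.mul_mem_left _ _ (hd 𝔮 h h𝔮0))
  have hpN : (p : 𝓞 N) ∉ 𝔔 := by
    intro h
    apply hp𝔮
    rw [h𝔮def, Ideal.mem_comap, map_natCast]
    exact h
  have huN : algebraMap (𝓞 F) (𝓞 N) u ∉ 𝔔 := fun h => hu𝔮 (Ideal.mem_comap.mpr h)
  -- (6) Kummer criterion for `N' / N` at `𝔔`
  have hζN : IsPrimitiveRoot (algebraMap F N ζ) p :=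
    hζ.map_of_injective (algebraMap F N).injective
  have hz' : z ^ p = algebraMap N N' ((algebraMap (𝓞 F) (𝓞 N) u : 𝓞 N) : N) := hz
  have hKS1 := hKS p N N' (algebraMap F N ζ) hζN hdeg' (algebraMap (𝓞 F) (𝓞 N) u) z hz' hzN
    𝔔 h𝔔 h𝔔0 hpN huN
  have hnc : ¬ ∃ c : 𝓞 N, algebraMap (𝓞 F) (𝓞 N) u - c ^ p ∈ 𝔔 :=
    fun h => h𝔔ns (hKS1.1.mpr h)
  have hnc' : ¬ ∃ c : 𝓞 F, u - c ^ p ∈ 𝔮 := by
    rintro ⟨c, hc⟩
    apply hnc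
    refine ⟨algebraMap (𝓞 F) (𝓞 N) c, ?_⟩
    have h1 := Ideal.mem_comap.mp hc
    rwa [map_sub, map_pow] at h1
  have hnf : ¬ p ∣ 𝔔.inertiaDeg (𝓞 F) :=
    fun h => hnc (hIP p F N ζ hζ 𝔔 h𝔔 h𝔔0 hpN h u)
  -- (7) `𝔮` splits completely in `N`
  have hKS2 := (hKS p F N ζ hζ hdeg x₀ y hy hyN 𝔮 h𝔮 h𝔮0 hp𝔮 hx𝔮).2
  have h𝔔mem : 𝔔 ∈ 𝔮.primesOver (𝓞 N) := ⟨h𝔔, ⟨rfl⟩⟩
  refine ⟨𝔮, h𝔮, h𝔮0, hT₀, hp𝔮, hx𝔮, hu𝔮, ?_, hnc'⟩
  rcases hGP p F N hdeg 𝔮 h𝔮 h𝔮0 with hsc | ⟨_, hef⟩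
  · exact hsc
  · exfalso
    apply hnf
    have h1 := hef 𝔔 h𝔔mem
    rw [hKS2 𝔔 h𝔔mem, one_mul] at h1
    rw [h1]

end Fermat.Agent.S14
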