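/-
S14, block K, package K/TorsionCount (twin Z): the local count
`#{r ∈ (𝓞 F / 𝔪)ˣ : r ^ p = 1} ≤ p ^ (#S + [F : ℚ])` for the modulus `𝔪 = k_modulus p S lam`.
-/
import Mathlib
import Fermat.Agent.S14.Interfaces
import Fermat.Agent.S14.KInterfaces

set_option autoImplicit false

open NumberField IsDedekindDomain

namespace Fermat.Agent.S14

/-- Abstract counting lemma: if `g : X → A` is injective and the image of `g x` under the additive
map `π` only depends on `Ψ x : C`, then `#X ≤ #C * #ker π`. -/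
theorem kztorsioncount_count {X C A B : Type} [AddCommGroup A] [AddCommGroup B] [Finite A]
    [Finite C] (π : A →+ B) (g : X → A) (Ψ : X → C) (hg : Function.Injective g)
    (h : ∀ x x' : X, Ψ x = Ψ x' → π (g x) = π (g x')) :
    Nat.card X ≤ Nat.card C * Nat.card π.ker := by
  classical
  let r₀ : C → A := fun c ↦ if hc : ∃ x : X, Ψ x = c then g hc.choose else 0
  have hr₀ : ∀ x : X, π (g x - r₀ (Ψ x)) = 0 := by
    intro x
    have hc : ∃ x' : X, Ψ x' = Ψ x := ⟨x, rfl⟩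
    simp only [r₀, dif_pos hc, map_sub, sub_eq_zero]
    exact (h _ _ hc.choose_spec).symm
  let φ : X → C × π.ker :=
    fun x ↦ (Ψ x, ⟨g x - r₀ (Ψ x), (AddMonoidHom.mem_ker).mpr (hr₀ x)⟩)
  have hφ : Function.Injective φ := by
    intro x x' hxx'
    have h1 : Ψ x = Ψ x' := congrArg Prod.fst hxx'
    have h2 : g x - r₀ (Ψ x) = g x' - r₀ (Ψ x') :=
      congrArg (fun z : C × π.ker ↦ (z.2 : A)) hxx'
    rw [h1] at h2
    exact hg (sub_left_injective h2)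
  calc Nat.card X ≤ Nat.card (C × π.ker) := Nat.card_le_card_of_injective φ hφ
    _ = Nat.card C * Nat.card π.ker := Nat.card_prod _ _

/-- Cardinality of the kernel of a surjective additive map. -/
theorem kztorsioncount_card_ker {A B : Type} [AddCommGroup A] [AddCommGroup B]
    (π : A →+ B) (hπ : Function.Surjective π) :
    Nat.card A = Nat.card B * Nat.card π.ker := by
  rw [AddSubgroup.card_eq_card_quotient_mul_card_addSubgroup π.ker]
  congr 1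
  exact Nat.card_congr (QuotientAddGroup.quotientKerEquivOfSurjective π hπ).toEquiv

/-- In a Dedekind domain: if all prime divisors of `l ≠ 0` lie in `S` and `y` is divisible by
one more power of `v` than `l`, for every `v ∈ S`, then `y ∈ (l) * ∏ v ∈ S, v`. -/
theorem kztorsioncount_mem_of_forall {R : Type} [CommRing R] [IsDedekindDomain R]
    (S : Finset (HeightOneSpectrum R)) (l y : R) (hl : l ≠ 0)
    (hS : ∀ v : HeightOneSpectrum R, l ∈ v.asIdeal → v ∈ S)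
    (hy : ∀ v ∈ S, ∀ n : ℕ, l ∈ v.asIdeal ^ n → y ∈ v.asIdeal ^ (n + 1)) :
    y ∈ Ideal.span {l} * ∏ v ∈ S, v.asIdeal := by
  classical
  have hI : Ideal.span {l} ≠ ⊥ := by
    rw [Ne, Ideal.span_singleton_eq_bot]
    exact hl
  obtain ⟨m, hm⟩ : ∃ m : HeightOneSpectrum R → ℕ,
      ∀ v, m v = multiplicity v.asIdeal (Ideal.span {l}) := ⟨_, fun _ ↦ rfl⟩
  have h1 : Ideal.span {l} = ∏ v ∈ S, v.asIdeal ^ m v := by
    have h0 := Ideal.finprod_heightOneSpectrum_pow_multiplicity hI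
    rw [← h0]
    rw [finprod_eq_prod_of_mulSupport_subset (s := S)]
    · exact Finset.prod_congr rfl fun v _ ↦ by rw [hm v]
    · intro v hv
      rw [Function.mem_mulSupport] at hv
      by_contra hvS
      apply hv
      have hnd : ¬ v.asIdeal ∣ Ideal.span {l} := by
        rw [Ideal.dvd_iff_le, Ideal.span_singleton_le_iff_mem]
        exact fun h ↦ hvS (hS v h)
      rw [multiplicity_eq_zero.mpr hnd, pow_zero]
  have h2 : ∀ v : HeightOneSpectrum R, l ∈ v.asIdeal ^ m v := by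
    intro v
    have h := pow_multiplicity_dvd v.asIdeal (Ideal.span {l})
    rw [Ideal.dvd_iff_le, Ideal.span_singleton_le_iff_mem, ← hm v] at h
    exact h
  have h3 : Ideal.span {l} * ∏ v ∈ S, v.asIdeal = ∏ v ∈ S, v.asIdeal ^ (m v + 1) := by
    rw [h1, ← Finset.prod_mul_distrib]
    exact Finset.prod_congr rfl fun v _ ↦ (pow_succ _ _).symm
  rw [h3, ← IsDedekindDomain.HeightOneSpectrum.inf_pow_eq_prod S (fun v ↦ m v + 1) (fun v ↦ v)
    (fun v _ w _ hvw ↦ hvw), Submodule.mem_finsetInf]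
  intro v hv
  exact hy v hv (m v) (h2 v)

/-- (TorsionCount, twin Z) `#{r ∈ (𝓞 F / 𝔪)ˣ : r ^ p = 1} ≤ p ^ (#S + [F : ℚ])` for the modulus
`𝔪 = k_modulus p S lam`, `S ⊇ {v ∣ p}`. -/
theorem kztorsioncount_main :
    k_RootCongStatement → k_LamDvdStatement → k_TorsionCountStatement := by
  intro hRC hLD p _ _ F _ _ ζ hζ lam hlam S hS
  classical
  have hp : p.Prime := Fact.out
  obtain ⟨w, hw⟩ := hLD p F ζ hζ lam hlam
  -- the integer `zeta`
  obtain ⟨zeta, hzeta⟩ : ∃ zeta : 𝓞 F, zeta = 1 - lam := ⟨_, rfl⟩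
  have hzeta' : (zeta : F) = ζ := by
    have h1 : (zeta : F) = (1 : F) - (lam : F) := by
      rw [hzeta, RingOfIntegers.coe_eq_algebraMap, RingOfIntegers.coe_eq_algebraMap, map_sub,
        map_one]
    rw [h1, hlam]
    ring
  have hlam0 : lam ≠ 0 := by
    intro h
    rw [h] at hlam
    have h1 : ζ = 1 := by
      have h2 : ((0 : 𝓞 F) : F) = 0 := by simp
      rw [h2] at hlam
      linear_combination hlam
    exact hζ.ne_one hp.one_lt h1
  have hp0 : (p : 𝓞 F) ≠ 0 := Nat.cast_ne_zero.mpr hp.ne_zero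
  -- `p * lam = lam ^ p * w`
  have hplam : (p : 𝓞 F) * lam = lam ^ p * w := by
    rw [hw]
    have h1 : p = (p - 1) + 1 := (Nat.sub_add_cancel hp.one_le).symm
    conv_rhs => rw [h1, pow_succ]
    ring
  obtain ⟨𝔪, h𝔪⟩ : ∃ 𝔪 : Ideal (𝓞 F), 𝔪 = k_modulus p S lam := ⟨_, rfl⟩
  obtain ⟨𝔫, h𝔫⟩ : ∃ 𝔫 : Ideal (𝓞 F), 𝔫 = Ideal.span {lam} * ∏ v ∈ S, v.asIdeal := ⟨_, rfl⟩
  rw [← h𝔪]
  have h𝔪𝔫' : 𝔪 = Ideal.span {(p : 𝓞 F)} * 𝔫 := by
    rw [h𝔪, h𝔫, k_modulus, ← mul_assoc, Ideal.span_singleton_mul_span_singleton]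
  have h𝔪𝔫 : 𝔪 ≤ 𝔫 := by
    rw [h𝔪𝔫']
    exact Ideal.mul_le_right
  have hprod0 : (∏ v ∈ S, v.asIdeal) ≠ ⊥ := by
    rw [← Ideal.zero_eq_bot, Finset.prod_ne_zero_iff]
    intro v _
    exact v.ne_bot
  have hspan0 : Ideal.span {lam} ≠ ⊥ := by
    rw [Ne, Ideal.span_singleton_eq_bot]
    exact hlam0
  have hspanp0 : Ideal.span {(p : 𝓞 F)} ≠ ⊥ := by
    rw [Ne, Ideal.span_singleton_eq_bot]
    exact hp0
  have h𝔫0 : 𝔫 ≠ ⊥ := by
    rw [h𝔫]
    exact mul_ne_zero hspan0 hprod0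
  have h𝔪0 : 𝔪 ≠ ⊥ := by
    rw [h𝔪𝔫']
    exact mul_ne_zero hspanp0 h𝔫0
  -- `𝔪 ≤ v * (lam) ^ p` for `v ∈ S`
  have h𝔪v : ∀ v ∈ S, 𝔪 ≤ v.asIdeal * Ideal.span {lam} ^ p := by
    intro v hv
    rw [h𝔪, k_modulus, mul_comm v.asIdeal]
    refine Ideal.mul_mono ?_ ?_
    · rw [Ideal.span_singleton_pow, Ideal.span_singleton_le_span_singleton]
      exact ⟨w, hplam⟩
    · exact Ideal.prod_le_inf.trans (Finset.inf_le hv)
  -- the primes containing `lam` are in `S`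
  have hSlam : ∀ v : HeightOneSpectrum (𝓞 F), lam ∈ v.asIdeal → v ∈ S := by
    intro v hv
    apply hS
    rw [hw]
    have h1 : p - 1 = (p - 2) + 1 := by
      have := hp.two_le
      omega
    rw [h1, pow_succ, mul_assoc]
    exact Ideal.mul_mem_left _ _ (Ideal.mul_mem_right _ _ hv)
  have : Finite (𝓞 F ⧸ 𝔪) := Ideal.finiteQuotientOfFreeOfNeBot 𝔪 h𝔪0
  -- lifts of the elements of `X`
  have hliftp : ∀ r : {r : (𝓞 F ⧸ 𝔪)ˣ // r ^ p = 1},
      (Quotient.out (r.1 : 𝓞 F ⧸ 𝔪)) ^ p - 1 ∈ 𝔪 := by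
    intro r
    rw [← Ideal.Quotient.eq_zero_iff_mem, map_sub, map_pow, map_one, Ideal.Quotient.mk_out,
      ← Units.val_pow_eq_pow_val, r.2, Units.val_one, sub_self]
  have hex : ∀ (r : {r : (𝓞 F ⧸ 𝔪)ˣ // r ^ p = 1}) (v : S), ∃ i : Fin p, ∀ n : ℕ,
      lam ∈ v.1.asIdeal ^ n →
        Quotient.out (r.1 : 𝓞 F ⧸ 𝔪) - zeta ^ (i : ℕ) ∈ v.1.asIdeal ^ (n + 1) := by
    intro r v
    obtain ⟨i, hi, h⟩ := hRC p F ζ hζ zeta lam hzeta' hlam v.1.asIdeal v.1.isPrime v.1.ne_bot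
      (Quotient.out (r.1 : 𝓞 F ⧸ 𝔪)) (h𝔪v v.1 v.2 (hliftp r))
    exact ⟨⟨i, hi⟩, h⟩
  -- the key property of `Ψ r := (ι r v)_v`
  have hΨ : ∀ r r' : {r : (𝓞 F ⧸ 𝔪)ˣ // r ^ p = 1},
      (fun v : S ↦ (hex r v).choose) = (fun v : S ↦ (hex r' v).choose) →
      (Ideal.Quotient.factor h𝔪𝔫).toAddMonoidHom (r.1 : 𝓞 F ⧸ 𝔪) =
        (Ideal.Quotient.factor h𝔪𝔫).toAddMonoidHom (r'.1 : 𝓞 F ⧸ 𝔪) := by
    intro r r' hrr'
    rw [← Ideal.Quotient.mk_out (r.1 : 𝓞 F ⧸ 𝔪), ← Ideal.Quotient.mk_out (r'.1 : 𝓞 F ⧸ 𝔪)]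
    show Ideal.Quotient.factor h𝔪𝔫 (Ideal.Quotient.mk 𝔪 _) =
      Ideal.Quotient.factor h𝔪𝔫 (Ideal.Quotient.mk 𝔪 _)
    rw [Ideal.Quotient.factor_mk, Ideal.Quotient.factor_mk, Ideal.Quotient.eq, h𝔫]
    apply kztorsioncount_mem_of_forall S lam _ hlam0 hSlam
    intro v hv n hn
    have h1 := (hex r ⟨v, hv⟩).choose_spec n hn
    have h2 := (hex r' ⟨v, hv⟩).choose_spec n hn
    have h3 : (hex r ⟨v, hv⟩).choose = (hex r' ⟨v, hv⟩).choose := congrFun hrr' ⟨v, hv⟩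
    rw [h3] at h1
    have h4 := Ideal.sub_mem _ h1 h2
    rw [sub_sub_sub_cancel_right] at h4
    exact h4
  have hinj : Function.Injective
      (fun r : {r : (𝓞 F ⧸ 𝔪)ˣ // r ^ p = 1} ↦ (r.1 : 𝓞 F ⧸ 𝔪)) := by
    intro r r' h
    exact Subtype.ext (Units.ext h)
  have hcount := kztorsioncount_count (Ideal.Quotient.factor h𝔪𝔫).toAddMonoidHom
    (fun r : {r : (𝓞 F ⧸ 𝔪)ˣ // r ^ p = 1} ↦ (r.1 : 𝓞 F ⧸ 𝔪))
    (fun r (v : S) ↦ (hex r v).choose) hinj hΨ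
  -- the cardinalities
  have hcardC : Nat.card (S → Fin p) = p ^ S.card := by
    rw [Nat.card_fun, Nat.card_fin, Nat.card_eq_finsetCard]
  have hker := kztorsioncount_card_ker (Ideal.Quotient.factor h𝔪𝔫).toAddMonoidHom
    (Ideal.Quotient.factor_surjective h𝔪𝔫)
  have hcard𝔪 : Nat.card (𝓞 F ⧸ 𝔪) = Ideal.absNorm 𝔪 := by
    rw [Ideal.absNorm_apply, Submodule.cardQuot_apply]
  have hcard𝔫 : Nat.card (𝓞 F ⧸ 𝔫) = Ideal.absNorm 𝔫 := by
    rw [Ideal.absNorm_apply, Submodule.cardQuot_apply]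
  have hnorm : Ideal.absNorm 𝔪 = p ^ Module.finrank ℚ F * Ideal.absNorm 𝔫 := by
    rw [h𝔪𝔫', map_mul, Ideal.absNorm_span_natCast, RingOfIntegers.rank]
  have h𝔫norm : Ideal.absNorm 𝔫 ≠ 0 := by
    rw [Ne, Ideal.absNorm_eq_zero_iff]
    exact h𝔫0
  have hkercard : Nat.card (Ideal.Quotient.factor h𝔪𝔫).toAddMonoidHom.ker =
      p ^ Module.finrank ℚ F := by
    rw [hcard𝔪, hcard𝔫, hnorm, mul_comm] at hker
    exact (Nat.eq_of_mul_eq_mul_left (Nat.pos_of_ne_zero h𝔫norm) hker).symm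
  rw [hcardC, hkercard, ← pow_add] at hcount
  exact hcount

end Fermat.Agent.S14
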