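/-
S14, block P (glue, plan item P0), package `Index` (twin A).

Main result: `pixa_index : P0CycloStatement → P0IndexStatement`.

Setting: `V` an admissible extension (`IsAdmissibleExtensionCts p V C`), `χ` the mod `p` cyclotomic
character.  If some `τ₀` with `χ(τ₀) = 1` acts non-trivially on `V`, then the kernel `U` of the
action on `V` has index `p (p - 1)` in `G = Gal(ℚ̄/ℚ)`:
* `χ : G → (ℤ/p)ˣ` is a surjective group homomorphism, so its kernel `G_K` has index `p - 1`;
* `U ≤ G_K`;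
* for `v₀ ∉ C`, the map `τ ↦ τ • v₀ - v₀` is a surjective group homomorphism `G_K → C` with
  kernel `U`, so `[G_K : U] = p`.
-/
import Mathlib
import Fermat.Agent.S14.PInterfaces

set_option autoImplicit false

open NumberField

namespace Fermat.Agent.S14

/-- Counting lemma: in an abelian group of order `p ^ 2`, an additive subgroup `W` containing a
subgroup `C` of order `p` and an element outside `C` is the whole group. -/
theorem pixa_addSubgroup_eq_top {p : ℕ} (hp : p.Prime) {V : Type} [AddCommGroup V]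
    (hV : Nat.card V = p ^ 2) (C W : AddSubgroup V) (hC : Nat.card C = p) (hCW : C ≤ W)
    {v₀ : V} (hv₀W : v₀ ∈ W) (hv₀C : v₀ ∉ C) : W = ⊤ := by
  have : Finite V := Nat.finite_of_card_ne_zero (by rw [hV]; exact pow_ne_zero 2 hp.ne_zero)
  have h1 : Nat.card C ∣ Nat.card W := AddSubgroup.card_dvd_of_le hCW
  have h2 : Nat.card W ∣ Nat.card V := AddSubgroup.card_addSubgroup_dvd_card W
  rw [hV] at h2
  rw [hC] at h1
  obtain ⟨k, hk, hkW⟩ := (Nat.dvd_prime_pow hp).1 h2
  interval_cases k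
  · exfalso
    rw [hkW, pow_zero] at h1
    exact hp.one_lt.ne' (Nat.dvd_one.1 h1)
  · exfalso
    have hCW' : C = W := AddSubgroup.eq_of_le_of_card_ge hCW (by rw [hC, hkW, pow_one])
    exact hv₀C (hCW' ▸ hv₀W)
  · exact (AddSubgroup.card_eq_iff_eq_top W).1 (by rw [hkW, hV])

/-- The abstract group-theoretic form of the index computation: `G` any group, `X : G →* (ℤ/p)ˣ`
a surjective character, `V` an extension of the `X`-line by the trivial line `C`
(`|C| = p`, `|V| = p ^ 2`) on which some element of `ker X` acts non-trivially.  Then the kernel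
`U` of the action of `G` on `V` has index `p (p - 1)`. -/
theorem pixa_index_aux {p : ℕ} [Fact p.Prime] {G : Type} [Group G]
    {V : Type} [AddCommGroup V] [Module (ZMod p) V] [DistribMulAction G V]
    (C : Submodule (ZMod p) V) (X : G →* (ZMod p)ˣ) (hX : Function.Surjective X)
    (hfix : ∀ σ : G, ∀ x ∈ C, σ • x = x)
    (hquot : ∀ (σ : G) (x : V), σ • x - ((X σ : (ZMod p)ˣ) : ZMod p) • x ∈ C)
    (hC : Nat.card C = p) (hV : Nat.card V = p ^ 2)
    (hτ : ∃ (τ₀ : G) (v₁ : V), X τ₀ = 1 ∧ τ₀ • v₁ ≠ v₁)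
    (U : Subgroup G) (hU : ∀ σ : G, σ ∈ U ↔ ∀ v : V, σ • v = v) :
    U.index = p * (p - 1) := by
  have hp : p.Prime := Fact.out
  -- a vector outside `C`
  obtain ⟨v₀, hv₀⟩ : ∃ v₀ : V, v₀ ∉ C := by
    by_contra hcon
    have hall : ∀ v : V, v ∈ C := fun v => by
      by_contra hv
      exact hcon ⟨v, hv⟩
    have htop : C = ⊤ := eq_top_iff.2 (fun v _ => hall v)
    have hcard : Nat.card C = Nat.card V := by
      rw [htop]
      exact Nat.card_congr (Submodule.topEquiv (R := ZMod p) (M := V)).toEquiv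
    rw [hC, hV] at hcard
    have h2 : 2 ≤ p := hp.two_le
    nlinarith
  -- Step 2: `U ≤ ker X`
  have hUK : U ≤ X.ker := by
    intro σ hσ
    rw [MonoidHom.mem_ker]
    by_contra hne
    have hne' : (1 : ZMod p) - ((X σ : (ZMod p)ˣ) : ZMod p) ≠ 0 := by
      intro h
      apply hne
      apply Units.ext
      exact (sub_eq_zero.1 h).symm
    have h1 : ((1 : ZMod p) - ((X σ : (ZMod p)ˣ) : ZMod p)) • v₀ ∈ C := by
      have h := hquot σ v₀
      rw [(hU σ).1 hσ v₀] at h
      rwa [sub_smul, one_smul]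
    apply hv₀
    have h2 := C.smul_mem ((1 : ZMod p) - ((X σ : (ZMod p)ˣ) : ZMod p))⁻¹ h1
    rwa [smul_smul, inv_mul_cancel₀ hne', one_smul] at h2
  -- for `τ ∈ ker X`: `τ • v - v ∈ C`
  have hker : ∀ τ ∈ X.ker, ∀ v : V, τ • v - v ∈ C := by
    intro τ hτ v
    have h := hquot τ v
    rw [MonoidHom.mem_ker.1 hτ, Units.val_one, one_smul] at h
    exact h
  -- an element of `ker X` fixing `v₀` acts trivially on `V`
  have hkey : ∀ τ ∈ X.ker, τ • v₀ = v₀ → τ ∈ U := by
    intro τ _ hτv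
    rw [hU]
    let W : AddSubgroup V :=
      { carrier := {v | τ • v = v}
        zero_mem' := smul_zero τ
        add_mem' := fun {a b} ha hb => by
          show τ • (a + b) = a + b
          have ha' : τ • a = a := ha
          have hb' : τ • b = b := hb
          rw [smul_add, ha', hb']
        neg_mem' := fun {a} ha => by
          show τ • (-a) = -a
          have ha' : τ • a = a := ha
          rw [smul_neg, ha'] }
    have hW : W = ⊤ :=
      pixa_addSubgroup_eq_top hp hV C.toAddSubgroup W hC (fun x hx => hfix τ x hx) hτv hv₀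
    intro v
    have hv : v ∈ W := hW ▸ AddSubgroup.mem_top v
    exact hv
  -- the homomorphism `φ : ker X → C`, `τ ↦ τ • v₀ - v₀`
  let φ : X.ker →* Multiplicative C :=
    MonoidHom.mk' (fun τ => Multiplicative.ofAdd (⟨τ.1 • v₀ - v₀, hker τ.1 τ.2 v₀⟩ : C)) (by
      intro a b
      rw [← ofAdd_add]
      congr 1
      apply Subtype.ext
      show (a.1 * b.1) • v₀ - v₀ = (a.1 • v₀ - v₀) + (b.1 • v₀ - v₀)
      have hb : a.1 • (b.1 • v₀ - v₀) = b.1 • v₀ - v₀ := hfix a.1 _ (hker b.1 b.2 v₀)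
      rw [smul_sub] at hb
      rw [mul_smul, sub_eq_iff_eq_add.1 hb]
      abel)
  have hφ1 : ∀ τ : X.ker, φ τ = 1 ↔ τ.1 • v₀ = v₀ := by
    intro τ
    show Multiplicative.ofAdd (⟨τ.1 • v₀ - v₀, hker τ.1 τ.2 v₀⟩ : C) = 1 ↔ _
    rw [ofAdd_eq_one, Submodule.mk_eq_zero, sub_eq_zero]
  have hφker : φ.ker = U.subgroupOf X.ker := by
    ext τ
    rw [MonoidHom.mem_ker, Subgroup.mem_subgroupOf, hφ1]
    constructor
    · intro h
      exact hkey τ.1 τ.2 h
    · intro h
      exact (hU τ.1).1 h v₀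
  -- `φ` is onto
  obtain ⟨τ₀, v₁, hτ₀, hv₁⟩ := hτ
  have hτ₀K : τ₀ ∈ X.ker := MonoidHom.mem_ker.2 hτ₀
  have hφτ₀ : φ ⟨τ₀, hτ₀K⟩ ≠ 1 := by
    intro h
    have h' := hkey τ₀ hτ₀K ((hφ1 _).1 h)
    exact hv₁ ((hU τ₀).1 h' v₁)
  have hcardM : Nat.card (Multiplicative C) = p := hC
  have : Fact (Nat.card (Multiplicative C)).Prime := ⟨by rw [hcardM]; exact hp⟩
  have hrange : φ.range = ⊤ := by
    rcases φ.range.eq_bot_or_eq_top_of_prime_card with h | h
    · exfalso
      apply hφτ₀
      have hmem : φ ⟨τ₀, hτ₀K⟩ ∈ φ.range := ⟨_, rfl⟩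
      rw [h] at hmem
      exact Subgroup.mem_bot.1 hmem
    · exact h
  have hrel : U.relIndex X.ker = p := by
    show (U.subgroupOf X.ker).index = p
    rw [← hφker, Subgroup.index_ker, hrange, Subgroup.card_top, hcardM]
  have hK : X.ker.index = p - 1 := by
    rw [Subgroup.index_ker, MonoidHom.range_eq_top.2 hX, Subgroup.card_top, Nat.card_units,
      Nat.card_zmod]
  rw [← Subgroup.relIndex_mul_index hUK, hrel, hK]

/-- Package `Index` of block P: if some `τ₀` with `χ(τ₀) = 1` acts non-trivially on `V`, the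
kernel `U` of the action on `V` has index `p (p - 1)` in `G = Gal(ℚ̄/ℚ)`. -/
theorem pixa_index : P0CycloStatement → P0IndexStatement := by
  intro hcyc p _ V _ _ _ _ C hadm hτ U hU
  obtain ⟨hmul, hchar, ⟨ζ, hζ⟩, hsurj⟩ := hcyc p
  have hone : (ExtCitation.cycloExp p (1 : P0Gal) : ZMod p) = 1 := by
    have h := (hchar 1 ζ hζ 1).1 (by rw [AlgEquiv.one_apply, pow_one])
    rw [← h, Nat.cast_one]
  let χm : P0Gal →* ZMod p :=
    { toFun := fun σ => (ExtCitation.cycloExp p σ : ZMod p)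
      map_one' := hone
      map_mul' := hmul }
  let X : P0Gal →* (ZMod p)ˣ := χm.toHomUnits
  have hXv : ∀ σ : P0Gal,
      ((X σ : (ZMod p)ˣ) : ZMod p) = (ExtCitation.cycloExp p σ : ZMod p) := fun σ => rfl
  have hX : Function.Surjective X := by
    intro u
    have hu : ¬ p ∣ (u : ZMod p).val := by
      intro h
      have h0 : (((u : ZMod p).val : ℕ) : ZMod p) = 0 := (ZMod.natCast_eq_zero_iff _ _).2 h
      rw [ZMod.natCast_zmod_val] at h0
      exact u.ne_zero h0
    obtain ⟨σ, hσ⟩ := hsurj _ hu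
    refine ⟨σ, Units.ext ?_⟩
    rw [hXv, hσ, ZMod.natCast_zmod_val]
  refine pixa_index_aux C X hX hadm.fixed_sub ?_ hadm.card_sub hadm.card_total ?_ U hU
  · intro σ x
    rw [hXv]
    exact hadm.cyclo_quot σ x
  · obtain ⟨τ₀, v₁, h1, h2⟩ := hτ
    exact ⟨τ₀, v₁, Units.ext (by rw [hXv]; exact h1), h2⟩

end Fermat.Agent.S14
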