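/-
S14, block P, package `Val` (twin B): a nonzero prime `P` of the ring of integers of a number
field `L ⊆ ℚ̄` contains a prime number and is cut out by a valuation subring of `ℚ̄`.
Main theorem: `pvlb_val : P0ValStatement`.
-/
import Mathlib
import Fermat.Agent.S14.PInterfaces
set_option autoImplicit false
open NumberField
namespace Fermat.Agent.S14

/-- A nonzero prime ideal of the ring of integers of a number field contains a prime number. -/
theorem pvlb_exists_prime_mem (L : Type*) [Field L] [NumberField L] (P : Ideal (𝓞 L))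
    (hP : P.IsPrime) (hP0 : P ≠ ⊥) : ∃ ℓ : ℕ, ℓ.Prime ∧ (ℓ : 𝓞 L) ∈ P := by
  have : P.IsPrime := hP
  have : NeZero P := ⟨hP0⟩
  exact ⟨Ideal.absNorm (Ideal.under ℤ P), Nat.absNorm_under_prime P, Int.absNorm_under_mem P⟩

/-- A maximal ideal `P` of a ring `R` embedded in a field `K` (by an injective ring homomorphism
`φ : R →+* K`) is cut out by a valuation subring of `K`. -/
theorem pvlb_exists_valuationSubring {R K : Type*} [CommRing R] [Field K] (φ : R →+* K)
    (hφ : Function.Injective φ) (P : Ideal R) (hPmax : P.IsMaximal) :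
    ∃ A : ValuationSubring K, ∀ x : R, x ∈ P ↔ φ x ∈ A.nonunits := by
  -- the image of `P` in the subring `φ.range` of `K` is a proper ideal
  have hbij : Function.Bijective φ.rangeRestrict := by
    refine ⟨fun a b hab => hφ ?_, φ.rangeRestrict_surjective⟩
    have h := congrArg Subtype.val hab
    simpa only [RingHom.coe_rangeRestrict] using h
  have hI : P.map φ.rangeRestrict ≠ ⊤ := fun h =>
    hPmax.ne_top ((Ideal.map_eq_top_of_bijective φ.rangeRestrict hbij).mp h)
  obtain ⟨B, hle, hsub⟩ := Ideal.image_subset_nonunits_valuationSubring _ hI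
  refine ⟨B, fun x => ⟨fun hx => ?_, fun hx => ?_⟩⟩
  · exact hsub ⟨φ.rangeRestrict x, Ideal.mem_map_of_mem _ hx, rfl⟩
  · -- the prime of `R` cut out by `B`
    let ι : R →+* B := φ.codRestrict B (fun s => hle ⟨s, rfl⟩)
    let J : Ideal R := (IsLocalRing.maximalIdeal B).comap ι
    have hJmem : ∀ s : R, s ∈ J ↔ φ s ∈ B.nonunits := by
      intro s
      show ι s ∈ IsLocalRing.maximalIdeal B ↔ _
      rw [← ValuationSubring.coe_mem_nonunits_iff]
      rfl
    have hJprime : J.IsPrime := Ideal.comap_isPrime ι _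
    have hPJ : P ≤ J := fun s hs =>
      (hJmem s).mpr (hsub ⟨φ.rangeRestrict s, Ideal.mem_map_of_mem _ hs, rfl⟩)
    have hEq : P = J := hPmax.eq_of_le hJprime.ne_top hPJ
    rw [hEq]
    exact (hJmem x).mpr hx

/-- Package `Val`. -/
theorem pvlb_val : P0ValStatement := by
  intro L _ P hP hP0
  refine ⟨pvlb_exists_prime_mem L P hP hP0, ?_⟩
  have hPmax : P.IsMaximal := Ideal.IsPrime.isMaximal hP hP0
  let φ : 𝓞 L →+* P0Kbar := (algebraMap L P0Kbar).comp (algebraMap (𝓞 L) L)
  have hφ : Function.Injective φ :=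
    (algebraMap L P0Kbar).injective.comp (RingOfIntegers.coe_injective (K := L))
  obtain ⟨A, hA⟩ := pvlb_exists_valuationSubring φ hφ P hPmax
  exact ⟨A, fun x => hA x⟩

end Fermat.Agent.S14
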