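/-
S14, block R, package AuxPrime (twin B): auxiliary primes.

`rapb_auxPrime : K3Statement → KummerExistsStatement → KummerSplitStatement → CycloSplitStatement →
  PrimesFinsetStatement → AuxPrimeStatement`
(the hypothesis `CycloSplitStatement` is not used: see `rapb_auxPrime'`).

Proof.  `K = ℚ(ζ_p)`.  The prime `q` is not a `p`-th power in `K` (the polynomial `X ^ p - q` is
irreducible over `ℚ` of degree `p > p - 1 = [K : ℚ]`).  Let `N = K(q^{1/p})` (KummerExists) and let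
`𝔯` be a prime of `K` not containing `p * q * ∏_{x ∈ X, x ≠ 0} x` which does not split completely in
`N` (K3, PrimesFinset).  By the Kummer splitting criterion `q` is not a `p`-th power modulo `𝔯`, a
fortiori not modulo the rational prime `r` below `𝔯`.  Finally `r ≡ 1 mod p`, since otherwise every
element of `ZMod r` is a `p`-th power.
-/
import Fermat.Agent.S14.RInterfaces

set_option autoImplicit false

open NumberField

namespace Fermat.Agent.S14

/-- A prime number is not a `p`-th power of a rational number (`p ≥ 2`). -/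
theorem rapb_rat_pow_ne (p q : ℕ) (hp : 2 ≤ p) (hq : q.Prime) (b : ℚ) : b ^ p ≠ (q : ℚ) := by
  intro h
  have hnum : (b ^ p).num = q := by
    rw [h]
    exact Rat.num_natCast q
  rw [Rat.num_pow] at hnum
  have h1 : b.num.natAbs ^ p = q := by
    have := congrArg Int.natAbs hnum
    rwa [Int.natAbs_pow, Int.natAbs_natCast] at this
  have h2 := (Nat.Prime.pow_eq_iff hq).mp h1
  omega

/-- A prime number is not a `p`-th power in the `p`-th cyclotomic field. -/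
theorem rapb_not_pow (p q : ℕ) [Fact p.Prime] (hq : q.Prime) (K : Type) [Field K]
    [NumberField K] [IsCyclotomicExtension {p} ℚ K] (z : K) : z ^ p ≠ ((q : ℕ) : K) := by
  intro h
  have hp := (Fact.out : p.Prime)
  have hirr : Irreducible (Polynomial.X ^ p - Polynomial.C ((q : ℕ) : ℚ)) :=
    (X_pow_sub_C_irreducible_iff_of_prime hp).mpr (rapb_rat_pow_ne p q hp.two_le hq)
  have hroot : Polynomial.aeval z (Polynomial.X ^ p - Polynomial.C ((q : ℕ) : ℚ)) = 0 := by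
    simp [h]
  have hmin := minpoly.eq_of_irreducible_of_monic hirr hroot
    (Polynomial.monic_X_pow_sub_C _ hp.ne_zero)
  have hdeg : (minpoly ℚ z).natDegree = p := by
    rw [← hmin, Polynomial.natDegree_X_pow_sub_C]
  have hle := minpoly.natDegree_le (A := ℚ) z
  have : NeZero p := ⟨hp.ne_zero⟩
  have hfin : Module.finrank ℚ K = p - 1 := by
    rw [IsCyclotomicExtension.finrank K (Polynomial.cyclotomic.irreducible_rat hp.pos),
      Nat.totient_prime hp]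
  rw [hdeg, hfin] at hle
  have := hp.pos
  omega

/-- If `q` is not a `p`-th power modulo the prime `r`, then `r ≡ 1 mod p`. -/
theorem rapb_mod_eq_one (p q r : ℕ) (hp : p.Prime) (hr : r.Prime)
    (h : ¬ ∃ c : ZMod r, c ^ p = (q : ZMod r)) : r % p = 1 := by
  have : Fact r.Prime := ⟨hr⟩
  by_contra hne
  apply h
  by_cases hq0 : (q : ZMod r) = 0
  · exact ⟨0, by rw [hq0, zero_pow hp.ne_zero]⟩
  · have hcop : (Nat.card (ZMod r)ˣ).Coprime p := by
      rw [Nat.card_eq_fintype_card, ZMod.card_units r, Nat.coprime_comm,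
        hp.coprime_iff_not_dvd]
      intro hdvd
      apply hne
      obtain ⟨k, hk⟩ := hdvd
      have hr2 := hr.two_le
      have hr1 : r = 1 + p * k := by omega
      rw [hr1, Nat.add_mul_mod_self_left, Nat.mod_eq_of_lt hp.one_lt]
    obtain ⟨w, hw⟩ := (powCoprime hcop).surjective (Units.mk0 (q : ZMod r) hq0)
    refine ⟨(w : ZMod r), ?_⟩
    have h1 : w ^ p = Units.mk0 (q : ZMod r) hq0 := hw
    have h2 := congrArg Units.val h1
    rwa [Units.val_pow_eq_pow_val, Units.val_mk0] at h2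

/-- The auxiliary primes, from the pole argument (K3), the existence of Kummer extensions, the
Kummer splitting criterion and the finiteness of the set of primes containing a nonzero element,
for any model `K` of the `p`-th cyclotomic field. -/
theorem rapb_aux (hK3 : K3Statement) (hKE : KummerExistsStatement)
    (hKS : KummerSplitStatement) (hPF : PrimesFinsetStatement) (p : ℕ) [Fact p.Prime]
    (K : Type) [Field K] [NumberField K] [IsCyclotomicExtension {p} ℚ K]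
    (q : ℕ) (hq : q.Prime) (X : Finset ℕ) :
    ∃ r : ℕ, r.Prime ∧ r % p = 1 ∧ r ∉ X ∧ ¬ ∃ c : ZMod r, c ^ p = (q : ZMod r) := by
  have hp := (Fact.out : p.Prime)
  have : NeZero p := ⟨hp.ne_zero⟩
  have hζ : IsPrimitiveRoot (IsCyclotomicExtension.zeta p ℚ K) p :=
    IsCyclotomicExtension.zeta_spec p ℚ K
  have hnot : ∀ z : K, z ^ p ≠ ((q : ℕ) : K) := rapb_not_pow p q hq K
  obtain ⟨N, instF, instNF, instAlg, hdeg, y, hy⟩ := hKE p K ((q : ℕ) : K) hnot
  -- the bad element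
  have hprod0 : ∏ x ∈ X.filter (· ≠ 0), x ≠ 0 :=
    Finset.prod_ne_zero_iff.mpr fun x hx => (Finset.mem_filter.mp hx).2
  have hP0 : p * q * ∏ x ∈ X.filter (· ≠ 0), x ≠ 0 :=
    mul_ne_zero (mul_ne_zero hp.ne_zero hq.ne_zero) hprod0
  have hP0' : ((p * q * ∏ x ∈ X.filter (· ≠ 0), x : ℕ) : 𝓞 K) ≠ 0 := Nat.cast_ne_zero.mpr hP0
  obtain ⟨T₀, hT₀⟩ := hPF K _ hP0'
  obtain ⟨𝔯, h𝔯prime, h𝔯bot, h𝔯T, h𝔯split⟩ :=
    hK3 K N (by rw [hdeg]; exact hp.two_le) T₀
  have hPnot : ((p * q * ∏ x ∈ X.filter (· ≠ 0), x : ℕ) : 𝓞 K) ∉ 𝔯 :=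
    fun h => h𝔯T (hT₀ 𝔯 h𝔯prime h)
  have hdvd_notmem : ∀ n : ℕ, n ∣ p * q * ∏ x ∈ X.filter (· ≠ 0), x → ((n : ℕ) : 𝓞 K) ∉ 𝔯 := by
    rintro n ⟨m, hm⟩ hn
    apply hPnot
    rw [hm, Nat.cast_mul]
    exact Ideal.mul_mem_right _ _ hn
  have hp𝔯 : ((p : ℕ) : 𝓞 K) ∉ 𝔯 :=
    hdvd_notmem p (by rw [mul_assoc]; exact dvd_mul_right _ _)
  have hq𝔯 : ((q : ℕ) : 𝓞 K) ∉ 𝔯 :=
    hdvd_notmem q ((dvd_mul_left q p).mul_right _)
  -- the Kummer splitting criterion
  have hyrange : y ∉ Set.range (algebraMap K N) := by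
    rintro ⟨z, rfl⟩
    apply hnot z
    apply (algebraMap K N).injective
    rw [map_pow, hy]
  have hcast : ((((q : ℕ) : 𝓞 K) : 𝓞 K) : K) = ((q : ℕ) : K) :=
    map_natCast (algebraMap (𝓞 K) K) q
  have hy' : y ^ p = algebraMap K N ((((q : ℕ) : 𝓞 K) : 𝓞 K) : K) := by
    rw [hy, hcast]
  have hKS' := hKS p K N (IsCyclotomicExtension.zeta p ℚ K) hζ hdeg ((q : ℕ) : 𝓞 K) y hy'
    hyrange 𝔯 h𝔯prime h𝔯bot hp𝔯 hq𝔯
  have hnores : ¬ ∃ c : 𝓞 K, ((q : ℕ) : 𝓞 K) - c ^ p ∈ 𝔯 := fun h => h𝔯split (hKS'.1.mpr h)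
  -- the rational prime below `𝔯`
  have := h𝔯prime
  have : CharP (𝓞 K ⧸ 𝔯) (ringChar (𝓞 K ⧸ 𝔯)) := ringChar.charP _
  have hmem_iff : ∀ n : ℕ, ((n : ℕ) : 𝓞 K) ∈ 𝔯 ↔ ringChar (𝓞 K ⧸ 𝔯) ∣ n := by
    intro n
    rw [← Ideal.Quotient.eq_zero_iff_mem, map_natCast,
      CharP.cast_eq_zero_iff (𝓞 K ⧸ 𝔯) (ringChar (𝓞 K ⧸ 𝔯))]
  have hr0 : ringChar (𝓞 K ⧸ 𝔯) ≠ 0 := by
    intro h0
    have h1 := (hmem_iff (Ideal.absNorm 𝔯)).mp (Ideal.absNorm_mem 𝔯)
    rw [h0, zero_dvd_iff, Ideal.absNorm_eq_zero_iff] at h1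
    exact h𝔯bot h1
  have hrprime : (ringChar (𝓞 K ⧸ 𝔯)).Prime :=
    (CharP.char_is_prime_or_zero (𝓞 K ⧸ 𝔯) (ringChar (𝓞 K ⧸ 𝔯))).resolve_right hr0
  have hr𝔯 : ((ringChar (𝓞 K ⧸ 𝔯) : ℕ) : 𝓞 K) ∈ 𝔯 := (hmem_iff _).mpr dvd_rfl
  generalize ringChar (𝓞 K ⧸ 𝔯) = r at hr0 hrprime hr𝔯
  -- `q` is not a `p`-th power modulo `r`
  have hnoc : ¬ ∃ c : ZMod r, c ^ p = (q : ZMod r) := by
    rintro ⟨c, hc⟩
    apply hnores
    have : NeZero r := ⟨hr0⟩
    refine ⟨((c.val : ℕ) : 𝓞 K), ?_⟩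
    have h1 : (((q : ℤ) - (c.val : ℤ) ^ p : ℤ) : ZMod r) = 0 := by
      push_cast
      rw [ZMod.natCast_zmod_val, hc, sub_self]
    rw [ZMod.intCast_zmod_eq_zero_iff_dvd] at h1
    obtain ⟨m, hm⟩ := h1
    have h2 : ((q : ℕ) : 𝓞 K) - ((c.val : ℕ) : 𝓞 K) ^ p = ((r : ℕ) : 𝓞 K) * ((m : ℤ) : 𝓞 K) := by
      have h3 := congrArg (Int.cast : ℤ → 𝓞 K) hm
      push_cast at h3
      exact h3
    rw [h2]
    exact Ideal.mul_mem_right _ _ hr𝔯
  refine ⟨r, hrprime, rapb_mod_eq_one p q r hp hrprime hnoc, ?_, hnoc⟩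
  intro hrX
  have hdvd : r ∣ p * q * ∏ x ∈ X.filter (· ≠ 0), x :=
    Dvd.dvd.mul_left (Finset.dvd_prod_of_mem _ (Finset.mem_filter.mpr ⟨hrX, hr0⟩)) _
  exact hdvd_notmem r hdvd hr𝔯

/-- (R4) Auxiliary primes, with only the hypotheses that are actually used (the hypotheses
`3 ≤ p` and `q % p = 1` of the statement are not needed either). -/
theorem rapb_auxPrime' (hK3 : K3Statement) (hKE : KummerExistsStatement)
    (hKS : KummerSplitStatement) (hPF : PrimesFinsetStatement) : AuxPrimeStatement := by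
  intro p _ _ q hq _ X
  have hne : NeZero p := ⟨(Fact.out : p.Prime).ne_zero⟩
  have hcyc : IsCyclotomicExtension {p} ℚ (CyclotomicField p ℚ) :=
    CyclotomicField.isCyclotomicExtension p ℚ
  exact rapb_aux hK3 hKE hKS hPF p (CyclotomicField p ℚ) q hq X

/-- (R4) Auxiliary primes (the hypothesis `CycloSplitStatement` is not used). -/
theorem rapb_auxPrime : K3Statement → KummerExistsStatement → KummerSplitStatement →
    CycloSplitStatement → PrimesFinsetStatement → AuxPrimeStatement :=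
  fun hK3 hKE hKS _ hPF => rapb_auxPrime' hK3 hKE hKS hPF

end Fermat.Agent.S14
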