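/-
S14, sub-block RE, package RE/ClaimA (twin B): Claim A.

If principal ideals prime to `m` have trivial symbol, then every ideal `𝔅` prime to `m` whose class
is a norm class from `E' ∋ a^{1/p}` has trivial symbol.

Proof: `[𝔅] = [N 𝔄]`; move `𝔄` inside its class to an ideal `𝔟` prime to `m` (moving lemma), so
that `(x) 𝔅 = (y) N 𝔟`; the norm `N 𝔟` is again prime to `m` (prime factorisation), hence `x`, `y`
can be chosen prime to `m` (coprime representatives); finally the symbol is additive, vanishes on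
principal ideals prime to `m` by hypothesis and on `N 𝔟` by `SymbNormZero`.
-/
import Fermat.Agent.S14.REInterfaces
import Fermat.Agent.S14.BNormCl
import Fermat.Agent.S14.BMoving
import Fermat.Agent.S14.BCoprimeRep
import Fermat.Agent.S14.RSymbI
import Fermat.Agent.S14.RSymbSpec
import Fermat.Agent.S14.RSymbNorm
import Fermat.Agent.S14.RSymbSplit

set_option autoImplicit false

open NumberField

namespace Fermat.Agent.S14

/-- The relative norm of a nonzero ideal coprime to the natural number `m` is coprime to `m`. -/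
theorem reclmab_relNorm_coprime (E E' : Type) [Field E] [NumberField E] [Field E']
    [NumberField E'] [Algebra E E'] (m : ℕ) (𝔟 : Ideal (𝓞 E')) (h𝔟 : 𝔟 ≠ ⊥)
    (hcop : 𝔟 ⊔ Ideal.span {(m : 𝓞 E')} = ⊤) :
    Ideal.relNorm (𝓞 E) 𝔟 ⊔ Ideal.span {(m : 𝓞 E)} = ⊤ := by
  by_contra hne
  obtain ⟨𝔭, h𝔭max, h𝔭le⟩ := Ideal.exists_le_maximal _ hne
  have h𝔭prime : 𝔭.IsPrime := h𝔭max.isPrime
  have h1 : Ideal.relNorm (𝓞 E) 𝔟 ≤ 𝔭 := le_trans le_sup_left h𝔭le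
  have h2 : (m : 𝓞 E) ∈ 𝔭 := h𝔭le (Ideal.mem_sup_right (Ideal.mem_span_singleton_self _))
  rw [← Ideal.prod_normalizedFactors_eq_self h𝔟, map_multiset_prod,
    h𝔭prime.multiset_prod_map_le] at h1
  obtain ⟨𝔓, h𝔓mem, h𝔓le⟩ := h1
  have h𝔓0 : 𝔓 ≠ ⊥ := UniqueFactorizationMonoid.ne_zero_of_mem_normalizedFactors h𝔓mem
  rw [Ideal.mem_normalizedFactors_iff h𝔟] at h𝔓mem
  obtain ⟨h𝔓prime, h𝔟le⟩ := h𝔓mem
  have := h𝔓prime
  obtain ⟨s, hs⟩ := Ideal.exists_relNorm_eq_pow_of_isPrime 𝔓 (𝔓.under (𝓞 E))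
  rw [hs] at h𝔓le
  have h3 : 𝔓.under (𝓞 E) ≤ 𝔭 := Ideal.IsPrime.le_of_pow_le h𝔓le
  have h4 : 𝔓.under (𝓞 E) ≠ ⊥ := fun h => h𝔓0 (Ideal.eq_bot_of_comap_eq_bot h)
  have h5 : (𝔓.under (𝓞 E)).IsMaximal := Ideal.IsPrime.isMaximal inferInstance h4
  have h6 : 𝔓.under (𝓞 E) = 𝔭 := h5.eq_of_le h𝔭max.ne_top h3
  have h7 : (m : 𝓞 E') ∈ 𝔓 := by
    have h8 : (m : 𝓞 E) ∈ 𝔓.under (𝓞 E) := h6 ▸ h2
    rw [Ideal.under_def, Ideal.mem_comap, map_natCast] at h8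
    exact h8
  apply h𝔓prime.ne_top
  rw [eq_top_iff, ← hcop]
  exact sup_le h𝔟le ((Ideal.span_singleton_le_iff_mem _).mpr h7)

/-- (RE9, Claim A) If principal ideals prime to `m` have trivial symbol, then every ideal prime
to `m` whose class is a norm class from `E' ∋ a^{1/p}` has trivial symbol. -/
theorem reclmab_claimA : REClaimAStatement := by
  intro p hp E E' _ _ _ _ _ ζ a m hζ hm hpm ham y hy hprinc 𝔅 h𝔅 h𝔅cop hmem
  have h𝔅0 : 𝔅 ≠ ⊥ := mem_nonZeroDivisors_iff_ne_zero.mp h𝔅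
  -- Step 1: `[𝔅] = [N 𝔄]`.
  obtain ⟨𝔄, h𝔄N, hcls⟩ := (bnc_normClassesMem E E' _).mp hmem
  have h𝔄0 : 𝔄 ≠ ⊥ := by
    intro h
    have h' : Ideal.relNorm (𝓞 E) 𝔄 ≠ ⊥ := mem_nonZeroDivisors_iff_ne_zero.mp h𝔄N
    exact h' (Ideal.relNorm_eq_bot_iff.mpr h)
  obtain ⟨x, z, hx, hz, hxz⟩ := ClassGroup.mk0_eq_mk0_iff.mp hcls
  have hxz' : Ideal.span {x} * 𝔅 = Ideal.span {z} * Ideal.relNorm (𝓞 E) 𝔄 := hxz
  -- Step 2: move `𝔄` to an ideal `𝔟` prime to `m`.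
  have hmE : (m : 𝓞 E) ≠ 0 := Nat.cast_ne_zero.mpr hm
  have hmE' : (m : 𝓞 E') ≠ 0 := Nat.cast_ne_zero.mpr hm
  have h𝔪 : Ideal.span {(m : 𝓞 E)} ≠ ⊥ := by
    rw [Ne, Ideal.span_singleton_eq_bot]
    exact hmE
  have h𝔪' : Ideal.span {(m : 𝓞 E')} ≠ ⊥ := by
    rw [Ne, Ideal.span_singleton_eq_bot]
    exact hmE'
  obtain ⟨x', z', 𝔟, hx', hz', h𝔟cop, hx'z'⟩ :=
    bml_movingLemma E' 𝔄 (Ideal.span {(m : 𝓞 E')}) h𝔄0 h𝔪'
  have h𝔟0 : 𝔟 ≠ ⊥ := by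
    intro h
    rw [h, Ideal.mul_bot, Ideal.mul_eq_bot, Ideal.span_singleton_eq_bot] at hx'z'
    exact hx'z'.elim hx' h𝔄0
  have hN : Ideal.span {Algebra.intNorm (𝓞 E) (𝓞 E') x'} * Ideal.relNorm (𝓞 E) 𝔄
      = Ideal.span {Algebra.intNorm (𝓞 E) (𝓞 E') z'} * Ideal.relNorm (𝓞 E) 𝔟 := by
    have h := congrArg (Ideal.relNorm (𝓞 E)) hx'z'
    rwa [map_mul, map_mul, Ideal.relNorm_singleton, Ideal.relNorm_singleton] at h
  have hNx' : Algebra.intNorm (𝓞 E) (𝓞 E') x' ≠ 0 := Algebra.intNorm_ne_zero.mpr hx'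
  have hNz' : Algebra.intNorm (𝓞 E) (𝓞 E') z' ≠ 0 := Algebra.intNorm_ne_zero.mpr hz'
  have heq : Ideal.span {x * Algebra.intNorm (𝓞 E) (𝓞 E') x'} * 𝔅
      = Ideal.span {z * Algebra.intNorm (𝓞 E) (𝓞 E') z'} * Ideal.relNorm (𝓞 E) 𝔟 := by
    rw [← Ideal.span_singleton_mul_span_singleton, ← Ideal.span_singleton_mul_span_singleton,
      mul_right_comm, hxz', mul_right_comm, mul_assoc, hN, mul_assoc]
  -- Step 3: `N 𝔟` is prime to `m`.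
  have hN𝔟cop : Ideal.relNorm (𝓞 E) 𝔟 ⊔ Ideal.span {(m : 𝓞 E)} = ⊤ :=
    reclmab_relNorm_coprime E E' m 𝔟 h𝔟0 h𝔟cop
  have hN𝔟0 : Ideal.relNorm (𝓞 E) 𝔟 ≠ ⊥ := by
    rw [Ne, Ideal.relNorm_eq_bot_iff]
    exact h𝔟0
  -- Step 4: coprime representatives.
  obtain ⟨x'', z'', hx'', hz'', hx''cop, hz''cop, heq''⟩ :=
    bcr_coprimeRep E (Ideal.span {(m : 𝓞 E)}) 𝔅 (Ideal.relNorm (𝓞 E) 𝔟)
      (x * Algebra.intNorm (𝓞 E) (𝓞 E') x') (z * Algebra.intNorm (𝓞 E) (𝓞 E') z')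
      h𝔪 (mul_ne_zero hx hNx') (mul_ne_zero hz hNz') h𝔅cop hN𝔟cop heq
  -- Step 5: additivity of the symbol.
  obtain ⟨hmul, -, -, -⟩ := rsi_symbI p E ζ a
  have hsx : Ideal.span {x''} ≠ ⊥ := by
    rw [Ne, Ideal.span_singleton_eq_bot]
    exact hx''
  have hsz : Ideal.span {z''} ≠ ⊥ := by
    rw [Ne, Ideal.span_singleton_eq_bot]
    exact hz''
  have hcop' : 𝔟 ⊔ Ideal.span {(p : 𝓞 E') * algebraMap (𝓞 E) (𝓞 E') a} = ⊤ := by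
    have h1 : 𝔟 ⊔ Ideal.span {(m : 𝓞 E')} ^ 2 = ⊤ := Ideal.sup_pow_eq_top' h𝔟cop
    have h2 : Ideal.span {(m : 𝓞 E')} ^ 2
        ≤ Ideal.span {(p : 𝓞 E') * algebraMap (𝓞 E) (𝓞 E') a} := by
      rw [Ideal.span_singleton_pow, Ideal.span_singleton_le_span_singleton, sq]
      refine mul_dvd_mul (Nat.cast_dvd_cast hpm) ?_
      have h3 := map_dvd (algebraMap (𝓞 E) (𝓞 E')) ham
      rwa [map_natCast] at h3
    exact top_le_iff.mp (h1 ▸ sup_le_sup_left h2 𝔟)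
  have hzero : symbI p ζ a (Ideal.relNorm (𝓞 E) 𝔟) = 0 :=
    rsp_symbNormZero rss_symbSpec rsi_symbI (rsn_symbNorm rss_symbSpec rsi_symbI)
      p E E' ζ a hζ y hy 𝔟 h𝔟0 hcop'
  have hfin := congrArg (symbI p ζ a) heq''
  rw [hmul _ _ hsx h𝔅0, hmul _ _ hsz hN𝔟0, hprinc x'' hx''cop, hprinc z'' hz''cop, hzero,
    zero_add, zero_add] at hfin
  exact hfin

end Fermat.Agent.S14
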