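/-
S14, block R, sub-block RE, package ClaimB (twin file, prefix `reclmbt_`).

Deliverable: `reclmbt_main : REClaimBStatement` (unconditional).

`E' = E(a^{1/p})` of degree `p`, `m ≠ 0` a natural number divisible by `p` and by `a`.  Then there
is a nonzero ideal `𝔓₀` of `E`, prime to `m`, with `symbI p ζ a 𝔓₀ = 1`.

Proof.  By the zeta pole argument (`z_k3`) there is a prime `𝔓` of `E` not containing `m` (hence
neither `p` nor `a`) which does not split completely in `E'`; by the splitting criterion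
(`rsp_symbSplit`), `s = symb p ζ a 𝔓 ≠ 0`.  With `k = (s⁻¹).val` and `𝔓₀ = 𝔓 ^ k` we get
`symbI p ζ a 𝔓₀ = k • s = s⁻¹ * s = 1` (`rsi_symbI`), and `𝔓 ^ k ⊔ (m) = ⊤` since `𝔓` is maximal
and `m ∉ 𝔓`.
-/
import Fermat.Agent.S14.REInterfaces
import Fermat.Agent.S14.BKummerGal
import Fermat.Agent.S14.BKummerSplitA
import Fermat.Agent.S14.RSymbSpec
import Fermat.Agent.S14.RSymbI
import Fermat.Agent.S14.RSymbSplit
import Fermat.Agent.S14.ZMain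

set_option autoImplicit false

open NumberField

namespace Fermat.Agent.S14

/-- A maximal ideal not containing `x` is comaximal with `(x)`. -/
theorem reclmbt_sup_span_eq_top {R : Type} [CommRing R] (P : Ideal R) (hP : P.IsMaximal) (x : R)
    (hx : x ∉ P) : P ⊔ Ideal.span {x} = ⊤ := by
  by_contra hne
  have heq : P = P ⊔ Ideal.span {x} := hP.eq_of_le hne le_sup_left
  apply hx
  rw [heq]
  exact Ideal.mem_sup_right (Ideal.subset_span (Set.mem_singleton x))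

/-- Outside the primes dividing the natural number `m ≠ 0` (divisible by `p` and `a`) there is a
prime `𝔓` of `E` with `symb p ζ a 𝔓 ≠ 0`. -/
theorem reclmbt_exists_symb_ne_zero (p : ℕ) [Fact p.Prime] (E E' : Type) [Field E] [NumberField E]
    [Field E'] [NumberField E'] [Algebra E E'] (ζ a : 𝓞 E) (m : ℕ) (hζ : IsPrimitiveRoot ζ p)
    (hdeg : Module.finrank E E' = p) (hm : m ≠ 0) (hpm : p ∣ m) (ham : a ∣ (m : 𝓞 E)) (y : E')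
    (hy : y ^ p = algebraMap E E' (a : E)) (hyE : y ∉ Set.range (algebraMap E E')) :
    ∃ 𝔓 : Ideal (𝓞 E), 𝔓.IsPrime ∧ 𝔓 ≠ ⊥ ∧ (m : 𝓞 E) ∉ 𝔓 ∧ symb p ζ a 𝔓 ≠ 0 := by
  have hp : p.Prime := Fact.out
  have hm0 : (m : 𝓞 E) ≠ 0 := Nat.cast_ne_zero.mpr hm
  obtain ⟨T₀, hT₀⟩ := rsi_primesFinset E (m : 𝓞 E) hm0
  obtain ⟨𝔓, h𝔓, h𝔓0, h𝔓T, hns⟩ := z_k3 E E' (by rw [hdeg]; exact hp.two_le) T₀
  have hm𝔓 : (m : 𝓞 E) ∉ 𝔓 := fun h => h𝔓T (hT₀ 𝔓 h𝔓 h)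
  have hp𝔓 : (p : 𝓞 E) ∉ 𝔓 := by
    intro h
    apply hm𝔓
    obtain ⟨c, rfl⟩ := hpm
    rw [Nat.cast_mul]
    exact 𝔓.mul_mem_right _ h
  have ha𝔓 : a ∉ 𝔓 := by
    intro h
    apply hm𝔓
    obtain ⟨c, hc⟩ := ham
    rw [hc]
    exact 𝔓.mul_mem_right _ h
  have hsplit : symb p ζ a 𝔓 = 0 ↔ SplitsCompletely E E' 𝔓 :=
    rsp_symbSplit rss_symbSpec (bksa_kummerSplit bkg_kummerGalois) p E E' ζ a hζ hdeg y hy hyE
      𝔓 h𝔓 h𝔓0 hp𝔓 ha𝔓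
  exact ⟨𝔓, h𝔓, h𝔓0, hm𝔓, fun h => hns (hsplit.mp h)⟩

/-- (RE10, Claim B) There is an ideal prime to `m` with symbol `1`. -/
theorem reclmbt_main : REClaimBStatement := by
  intro p _ E E' _ _ _ _ _ ζ a m hζ hdeg hm hpm ham y hy hyE
  obtain ⟨𝔓, h𝔓, h𝔓0, hm𝔓, ht⟩ :=
    reclmbt_exists_symb_ne_zero p E E' ζ a m hζ hdeg hm hpm ham y hy hyE
  obtain ⟨-, hprime, -, hpow⟩ := rsi_symbI p E ζ a
  have hmax : 𝔓.IsMaximal := Ideal.IsPrime.isMaximal h𝔓 h𝔓0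
  have hsup : 𝔓 ⊔ Ideal.span {(m : 𝓞 E)} = ⊤ := reclmbt_sup_span_eq_top 𝔓 hmax _ hm𝔓
  refine ⟨𝔓 ^ ((symb p ζ a 𝔓)⁻¹).val, pow_ne_zero _ h𝔓0, Ideal.pow_sup_eq_top hsup, ?_⟩
  rw [hpow 𝔓 _ h𝔓0, hprime 𝔓 h𝔓 h𝔓0, nsmul_eq_mul, ZMod.natCast_zmod_val,
    inv_mul_cancel₀ ht]

end Fermat.Agent.S14
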