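/-
S14, sub-block RE, package Count (twin T): the counting argument
(`recountt_main : RECountStatement`).
-/
import Fermat.Agent.S14.REInterfaces
import Fermat.Agent.S14.RSymbI

set_option autoImplicit false

open NumberField

namespace Fermat.Agent.S14

/-- Coprimality of `I * J ^ n` with `M`. -/
theorem recountt_coprime {R : Type*} [CommRing R] (I J M : Ideal R) (n : ℕ) (hI : I ⊔ M = ⊤)
    (hJ : J ⊔ M = ⊤) : I * J ^ n ⊔ M = ⊤ := by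
  rw [← Ideal.isCoprime_iff_sup_eq] at hI hJ ⊢
  exact IsCoprime.mul_left hI (IsCoprime.pow_left hJ)

/-- (RE11, counting) -/
theorem recountt_main : RECountStatement := by
  intro p _ E E' _ _ _ _ _ ζ a m hidx hA hB 𝔅 h𝔅0 h𝔅cop h𝔅s
  have hp : p.Prime := Fact.out
  obtain ⟨hmul, -, -, hpow⟩ := rsi_symbI p E ζ a
  obtain ⟨𝔓₀, h𝔓0, h𝔓cop, h𝔓s⟩ := hB
  have h𝔅nzd : 𝔅 ∈ nonZeroDivisors (Ideal (𝓞 E)) := mem_nonZeroDivisors_iff_ne_zero.mpr h𝔅0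
  have h𝔓nzd : 𝔓₀ ∈ nonZeroDivisors (Ideal (𝓞 E)) := mem_nonZeroDivisors_iff_ne_zero.mpr h𝔓0
  refine ⟨h𝔅nzd, ?_⟩
  -- the key consequence of the hypotheses
  have key : ∀ (𝔄 : Ideal (𝓞 E)) (h𝔄nzd : 𝔄 ∈ nonZeroDivisors (Ideal (𝓞 E))),
      𝔄 ⊔ Ideal.span {(m : 𝓞 E)} = ⊤ → ∀ t : ℕ,
      (QuotientGroup.mk' (normClasses E E') (ClassGroup.mk0 ⟨𝔄, h𝔄nzd⟩)) *
        (QuotientGroup.mk' (normClasses E E') (ClassGroup.mk0 ⟨𝔓₀, h𝔓nzd⟩)) ^ t = 1 →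
      symbI p ζ a 𝔄 + (t : ZMod p) = 0 := by
    intro 𝔄 h𝔄nzd h𝔄cop t ht
    have h𝔄0 : 𝔄 ≠ ⊥ := mem_nonZeroDivisors_iff_ne_zero.mp h𝔄nzd
    have hnzd : 𝔄 * 𝔓₀ ^ t ∈ nonZeroDivisors (Ideal (𝓞 E)) := mul_mem h𝔄nzd (pow_mem h𝔓nzd t)
    have h1 : ClassGroup.mk0 ⟨𝔄 * 𝔓₀ ^ t, hnzd⟩ ∈ normClasses E E' := by
      rw [← QuotientGroup.eq_one_iff]
      have h2 : (⟨𝔄 * 𝔓₀ ^ t, hnzd⟩ : nonZeroDivisors (Ideal (𝓞 E)))
          = ⟨𝔄, h𝔄nzd⟩ * ⟨𝔓₀, h𝔓nzd⟩ ^ t := rfl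
      rw [h2, map_mul, map_pow]
      exact ht
    have h3 := hA _ hnzd (recountt_coprime 𝔄 𝔓₀ _ t h𝔄cop h𝔓cop) h1
    rw [hmul 𝔄 (𝔓₀ ^ t) h𝔄0 (pow_ne_zero t h𝔓0), hpow 𝔓₀ t h𝔓0, h𝔓s, nsmul_one] at h3
    exact h3
  -- notation
  set g : ClassGroup (𝓞 E) ⧸ normClasses E E' :=
    QuotientGroup.mk' (normClasses E E') (ClassGroup.mk0 ⟨𝔓₀, h𝔓nzd⟩) with hg
  -- powers of `g` that are trivial have exponent divisible by `p`
  have hgk : ∀ k : ℕ, g ^ k = 1 → p ∣ k := by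
    intro k hk
    have htop : (⊤ : Ideal (𝓞 E)) ∈ nonZeroDivisors (Ideal (𝓞 E)) :=
      mem_nonZeroDivisors_iff_ne_zero.mpr (by
        rw [← Ideal.one_eq_top]
        exact one_ne_zero)
    have h1 : (⟨⊤, htop⟩ : nonZeroDivisors (Ideal (𝓞 E))) = 1 :=
      Subtype.ext Ideal.one_eq_top.symm
    have h2 := key ⊤ htop (by rw [top_sup_eq]) k (by rw [h1, map_one, map_one, one_mul]; exact hk)
    rw [(rsi_symbI p E ζ a).2.2.1, zero_add] at h2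
    exact (ZMod.natCast_eq_zero_iff k p).mp h2
  -- the order of `g` is `p` and equals the cardinality of the quotient
  have hord1 : p ∣ orderOf g := hgk _ (pow_orderOf_eq_one g)
  have hord2 : orderOf g ≤ Nat.card (ClassGroup (𝓞 E) ⧸ normClasses E E') := orderOf_le_card
  have hcard : Nat.card (ClassGroup (𝓞 E) ⧸ normClasses E E') ≤ p := by
    rw [← Subgroup.index_eq_card]
    exact hidx
  have hord3 : p ≤ orderOf g := Nat.le_of_dvd (orderOf_pos g) hord1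
  have hord : orderOf g = p := le_antisymm (hord2.trans hcard) hord3
  have hcard' : Nat.card (ClassGroup (𝓞 E) ⧸ normClasses E E') = p :=
    le_antisymm hcard (hord ▸ hord2)
  have hgp : g ^ p = 1 := hord ▸ pow_orderOf_eq_one g
  have htopz : Subgroup.zpowers g = ⊤ := by
    apply Subgroup.eq_top_of_card_eq
    rw [Nat.card_zpowers, hord, hcard']
  -- write the class of `𝔅` as a power of `g`
  have hxmem : QuotientGroup.mk' (normClasses E E') (ClassGroup.mk0 ⟨𝔅, h𝔅nzd⟩)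
      ∈ Submonoid.powers g := by
    rw [mem_powers_iff_mem_zpowers, htopz]
    exact Subgroup.mem_top _
  obtain ⟨i, hi⟩ := Submonoid.mem_powers_iff _ _ |>.mp hxmem
  have h4 := key 𝔅 h𝔅nzd h𝔅cop ((p - 1) * i) (by
    rw [← hi, ← pow_add]
    have h5 : i + (p - 1) * i = p * i := by
      have h6 : 1 ≤ p := hp.pos
      calc i + (p - 1) * i = (1 + (p - 1)) * i := by ring
        _ = p * i := by rw [Nat.add_sub_cancel' h6]
    rw [h5, pow_mul, hgp, one_pow])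
  rw [h𝔅s, zero_add, ZMod.natCast_eq_zero_iff] at h4
  have h7 : p ∣ i := by
    rcases (Nat.Prime.dvd_mul hp).mp h4 with h | h
    · exfalso
      have h8 : p ≤ p - 1 := Nat.le_of_dvd (Nat.sub_pos_of_lt hp.one_lt) h
      have h9 : 1 ≤ p := hp.pos
      omega
    · exact h
  obtain ⟨i', rfl⟩ := h7
  rw [← QuotientGroup.eq_one_iff]
  have h10 : ((ClassGroup.mk0 ⟨𝔅, h𝔅nzd⟩ : ClassGroup (𝓞 E)) :
      ClassGroup (𝓞 E) ⧸ normClasses E E') = g ^ (p * i') := hi.symm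
  rw [h10, pow_mul, hgp, one_pow]

end Fermat.Agent.S14
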