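/-
S14, sub-block RE — package `Element` (prefix `reelem_`).

`reelem_element : REElementStatement`: arithmetic of the element `a = α * c ^ j`
(`α ∣ B`, `c ∣ r ^ (p - 1)`, `c` of valuation `n`, `1 ≤ n < p`, at every prime above `r`, `0 < j < p`):
* `a` lies in no prime ideal not containing `B * r`;
* the valuation of `a` at every prime above `r` is not divisible by `p`;
* `a` is not a `p`-th power in `K`.

Auxiliary lemmas (general Dedekind domains):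
* `reelem_intValuation_eq_exp_iff`: `v x = exp (-n) ↔ x ∈ 𝔮 ^ n ∧ x ∉ 𝔮 ^ (n + 1)`;
* `reelem_mem_pow_mul`: if `α ∉ 𝔯` and `c ∈ 𝔯 ^ n ∖ 𝔯 ^ (n + 1)` then
  `α * c ^ j ∈ 𝔯 ^ (n * j) ∖ 𝔯 ^ (n * j + 1)`;
* `reelem_not_pow_of_mem`: an element of `𝔯 ^ m ∖ 𝔯 ^ (m + 1)`, `p ∤ m`, is not a `p`-th power;
* `reelem_exists_prime_mem`: a prime number lies in some prime ideal of `𝓞 K`.
-/
import Fermat.Agent.S14.REInterfaces

set_option autoImplicit false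

open NumberField IsDedekindDomain

namespace Fermat.Agent.S14

/-- A nonzero element of `ℤᵐ⁰` lying between `exp (-(n+1))` (strictly above) and `exp (-n)`
equals `exp (-n)`. -/
theorem reelem_eq_exp_of_le_of_not_le {a : WithZero (Multiplicative ℤ)} {n : ℕ}
    (h1 : a ≤ WithZero.exp (-(n : ℤ))) (h2 : ¬ a ≤ WithZero.exp (-((n + 1 : ℕ) : ℤ))) :
    a = WithZero.exp (-(n : ℤ)) := by
  have ha : a ≠ 0 := by
    rintro rfl
    exact h2 zero_le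
  rw [← WithZero.exp_log ha] at h1 h2 ⊢
  rw [WithZero.exp_le_exp] at h1 h2
  rw [WithZero.exp_inj]
  push_cast at h2
  omega

/-- `v x = exp (-n)` if and only if `x ∈ 𝔮 ^ n ∖ 𝔮 ^ (n + 1)`. -/
theorem reelem_intValuation_eq_exp_iff {A : Type*} [CommRing A] [IsDedekindDomain A]
    (v : HeightOneSpectrum A) (x : A) (n : ℕ) :
    v.intValuation x = WithZero.exp (-(n : ℤ)) ↔
      x ∈ v.asIdeal ^ n ∧ x ∉ v.asIdeal ^ (n + 1) := by
  constructor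
  · intro h
    refine ⟨(v.intValuation_le_pow_iff_mem x n).mp h.le, fun hmem => ?_⟩
    have h1 := (v.intValuation_le_pow_iff_mem x (n + 1)).mpr hmem
    rw [h, WithZero.exp_le_exp] at h1
    push_cast at h1
    omega
  · rintro ⟨h1, h2⟩
    exact reelem_eq_exp_of_le_of_not_le ((v.intValuation_le_pow_iff_mem x n).mpr h1)
      (fun h => h2 ((v.intValuation_le_pow_iff_mem x (n + 1)).mp h))

/-- If `α ∉ 𝔯` and `c ∈ 𝔯 ^ n ∖ 𝔯 ^ (n + 1)` then `α * c ^ j ∈ 𝔯 ^ (n * j) ∖ 𝔯 ^ (n * j + 1)`. -/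
theorem reelem_mem_pow_mul {A : Type*} [CommRing A] [IsDedekindDomain A]
    (𝔯 : Ideal A) (h𝔯 : 𝔯.IsPrime) (h0 : 𝔯 ≠ ⊥) (α c : A) (n j : ℕ)
    (hα : α ∉ 𝔯) (hc1 : c ∈ 𝔯 ^ n) (hc2 : c ∉ 𝔯 ^ (n + 1)) :
    α * c ^ j ∈ 𝔯 ^ (n * j) ∧ α * c ^ j ∉ 𝔯 ^ (n * j + 1) := by
  let v : HeightOneSpectrum A := ⟨𝔯, h𝔯, h0⟩
  have hvc : v.intValuation c = WithZero.exp (-(n : ℤ)) :=
    (reelem_intValuation_eq_exp_iff v c n).mpr ⟨hc1, hc2⟩
  have hvα : v.intValuation α = WithZero.exp (-((0 : ℕ) : ℤ)) :=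
    (reelem_intValuation_eq_exp_iff v α 0).mpr
      ⟨by rw [pow_zero, Ideal.one_eq_top]; exact Submodule.mem_top,
        by rw [zero_add, pow_one]; exact hα⟩
  have hva : v.intValuation (α * c ^ j) = WithZero.exp (-((n * j : ℕ) : ℤ)) := by
    rw [map_mul, map_pow, hvα, hvc, ← WithZero.exp_nsmul, ← WithZero.exp_add, WithZero.exp_inj]
    push_cast
    rw [nsmul_eq_mul]
    ring
  exact (reelem_intValuation_eq_exp_iff v (α * c ^ j) (n * j)).mp hva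

/-- An element of `𝔯 ^ m ∖ 𝔯 ^ (m + 1)` with `p ∤ m` is not a `p`-th power (`p ≠ 0`). -/
theorem reelem_not_pow_of_mem {A : Type*} [CommRing A] [IsDedekindDomain A]
    (𝔯 : Ideal A) (h𝔯 : 𝔯.IsPrime) (h0 : 𝔯 ≠ ⊥) (p m : ℕ) (hp : p ≠ 0) (a z : A)
    (h1 : a ∈ 𝔯 ^ m) (h2 : a ∉ 𝔯 ^ (m + 1)) (h3 : ¬ p ∣ m) : z ^ p ≠ a := by
  intro hz
  let v : HeightOneSpectrum A := ⟨𝔯, h𝔯, h0⟩
  have hva : v.intValuation a = WithZero.exp (-(m : ℤ)) :=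
    (reelem_intValuation_eq_exp_iff v a m).mpr ⟨h1, h2⟩
  rw [← hz, map_pow] at hva
  have hvz : v.intValuation z ≠ 0 := by
    intro h
    rw [h, zero_pow hp] at hva
    exact WithZero.exp_ne_zero hva.symm
  rw [← WithZero.exp_log hvz, ← WithZero.exp_nsmul, WithZero.exp_inj, nsmul_eq_mul] at hva
  apply h3
  have h4 : (p : ℤ) ∣ (m : ℤ) := ⟨- WithZero.log (v.intValuation z), by rw [mul_neg, hva, neg_neg]⟩
  exact Int.natCast_dvd_natCast.mp h4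

/-- A prime number `r` lies in some prime ideal of the ring of integers of a number field. -/
theorem reelem_exists_prime_mem (K : Type) [Field K] [NumberField K] (r : ℕ) (hr : r.Prime) :
    ∃ 𝔯 : Ideal (𝓞 K), 𝔯.IsPrime ∧ (r : 𝓞 K) ∈ 𝔯 := by
  have hprime : (Ideal.span {(r : ℤ)}).IsPrime := by
    rw [Ideal.span_singleton_prime (by exact_mod_cast hr.ne_zero)]
    exact Nat.prime_iff_prime_int.mp hr
  obtain ⟨Q, -, hQ, hQ'⟩ := Ideal.exists_ideal_over_prime_of_isIntegral (Ideal.span {(r : ℤ)})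
    (⊥ : Ideal (𝓞 K)) (by
      rw [← RingHom.ker_eq_comap_bot, (RingHom.injective_iff_ker_eq_bot _).mp
        (FaithfulSMul.algebraMap_injective ℤ (𝓞 K))]
      exact bot_le)
  refine ⟨Q, hQ, ?_⟩
  have h1 : (r : ℤ) ∈ Q.comap (algebraMap ℤ (𝓞 K)) := by
    rw [hQ']
    exact Ideal.mem_span_singleton_self _
  simpa using h1

/-- **RE2**: arithmetic of the element `a = α * c ^ j`. -/
theorem reelem_element : REElementStatement := by
  intro p hp K _ _ α c B r j hr hrB hαB hc hj0 hjp hn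
  have hpp : p.Prime := hp.out
  -- the valuation of `α * c ^ j` at the primes above `r`
  have key : ∀ 𝔯 : Ideal (𝓞 K), 𝔯.IsPrime → (r : 𝓞 K) ∈ 𝔯 →
      ∃ m : ℕ, α * c ^ j ∈ 𝔯 ^ m ∧ α * c ^ j ∉ 𝔯 ^ (m + 1) ∧ ¬ p ∣ m ∧ 𝔯 ≠ ⊥ := by
    intro 𝔯 h𝔯 hr𝔯
    have h0 : 𝔯 ≠ ⊥ := by
      rintro rfl
      rw [Ideal.mem_bot] at hr𝔯
      exact hr.ne_zero (by exact_mod_cast hr𝔯)
    have hα : α ∉ 𝔯 := by
      intro hα
      have hB : (B : 𝓞 K) ∈ 𝔯 := by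
        obtain ⟨d, hd⟩ := hαB
        rw [hd]
        exact 𝔯.mul_mem_right d hα
      have hcop : Nat.Coprime r B := (Nat.Prime.coprime_iff_not_dvd hr).mpr hrB
      have h1 : ((r : ℤ) * Nat.gcdA r B + (B : ℤ) * Nat.gcdB r B : ℤ) = 1 := by
        rw [← Nat.gcd_eq_gcd_ab, hcop.gcd_eq_one]
        rfl
      have h3 : ((r : 𝓞 K) * ((Nat.gcdA r B : ℤ) : 𝓞 K)
          + (B : 𝓞 K) * ((Nat.gcdB r B : ℤ) : 𝓞 K)) = 1 := by
        exact_mod_cast congrArg (Int.cast : ℤ → 𝓞 K) h1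
      have h2 : (1 : 𝓞 K) ∈ 𝔯 := by
        rw [← h3]
        exact 𝔯.add_mem (𝔯.mul_mem_right _ hr𝔯) (𝔯.mul_mem_right _ hB)
      exact h𝔯.ne_top ((Ideal.eq_top_iff_one _).mpr h2)
    obtain ⟨n, hn1, hnp, hc1, hc2⟩ := hn 𝔯 h𝔯 hr𝔯
    obtain ⟨h1, h2⟩ := reelem_mem_pow_mul 𝔯 h𝔯 h0 α c n j hα hc1 hc2
    refine ⟨n * j, h1, h2, ?_, h0⟩
    intro hdvd
    rcases (Nat.Prime.dvd_mul hpp).mp hdvd with h | h
    · exact absurd (Nat.le_of_dvd (by omega) h) (by omega)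
    · exact absurd (Nat.le_of_dvd hj0 h) (by omega)
  refine ⟨?_, ?_, ?_⟩
  · -- (i) primes not containing `B * r`
    intro 𝔓 h𝔓 hBr ha
    apply hBr
    push_cast
    rcases h𝔓.mem_or_mem ha with h | h
    · obtain ⟨d, hd⟩ := hαB
      rw [hd]
      exact 𝔓.mul_mem_right _ (𝔓.mul_mem_right _ h)
    · have hc𝔓 : c ∈ 𝔓 := h𝔓.mem_of_pow_mem j h
      have hr𝔓 : (r : 𝓞 K) ∈ 𝔓 := by
        obtain ⟨d, hd⟩ := hc
        apply h𝔓.mem_of_pow_mem (p - 1)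
        rw [hd]
        exact 𝔓.mul_mem_right _ hc𝔓
      exact 𝔓.mul_mem_left _ hr𝔓
  · -- (ii) valuations at the primes above `r`
    intro 𝔯 h𝔯 hr𝔯
    obtain ⟨m, h1, h2, h3, -⟩ := key 𝔯 h𝔯 hr𝔯
    exact ⟨m, h1, h2, h3⟩
  · -- (iii) not a `p`-th power
    intro z hz
    have hzint : IsIntegral ℤ z := by
      apply IsIntegral.of_pow hpp.pos
      rw [hz]
      exact RingOfIntegers.isIntegral_coe _
    have hz' : (⟨z, hzint⟩ : 𝓞 K) ^ p = α * c ^ j := by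
      apply RingOfIntegers.ext
      rw [← hz]
      rfl
    obtain ⟨𝔯, h𝔯, hr𝔯⟩ := reelem_exists_prime_mem K r hr
    obtain ⟨m, h1, h2, h3, h0⟩ := key 𝔯 h𝔯 hr𝔯
    exact reelem_not_pow_of_mem 𝔯 h𝔯 h0 p m hpp.ne_zero _ _ h1 h2 h3 hz'

end Fermat.Agent.S14
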