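/-
S14, block R, sub-block RL (Lang's argument for two primes, `LangStatement`): FROZEN interfaces.
Owner: helper194.  Do not edit.  Conventions as in Interfaces.lean / RInterfaces.lean.
Every statement is generic (all fields and towers are typeclass arguments); the constructions of
the auxiliary fields are done in the assembly `RLMain.lean`.
-/
import Fermat.Agent.S14.RInterfaces

set_option autoImplicit false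

open NumberField

namespace Fermat.Agent.S14

/-- (RL-A1) An integer `a` with `p ∤ v_𝔮(a)` at some prime `𝔮` is not a `p`-th power in `F`. -/
def RLNotPowStatement : Prop :=
  ∀ (p : ℕ) [Fact p.Prime] (F : Type) [Field F] [NumberField F] (𝔮 : Ideal (𝓞 F)) (a : 𝓞 F),
    𝔮.IsPrime → 𝔮 ≠ ⊥ → OrdNotDvd p 𝔮 a → ∀ z : F, z ^ p ≠ (a : F)

/-- (RL-A2) `p ∤ v_𝔮(a)` is inherited by a prime `𝔔` above `𝔮` which is unramified over `F`. -/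
def RLOrdLiftStatement : Prop :=
  ∀ (p : ℕ) (F N : Type) [Field F] [NumberField F] [Field N] [NumberField N] [Algebra F N]
    (𝔮 : Ideal (𝓞 F)) (𝔔 : Ideal (𝓞 N)) (a : 𝓞 F), 𝔮.IsPrime → 𝔮 ≠ ⊥ →
    𝔔 ∈ 𝔮.primesOver (𝓞 N) → 𝔔.ramificationIdx (𝓞 F) = 1 → OrdNotDvd p 𝔮 a →
    OrdNotDvd p 𝔔 (algebraMap (𝓞 F) (𝓞 N) a)

/-- (RL-B) `N = F(a^{1/p})` of degree `p` with `p ∤ v_𝔮(a)` at a prime `𝔮 ∤ p b`: if `b` is not a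
`p`-th power in `F`, it is not a `p`-th power in `N` (otherwise `N = F(b^{1/p})` would be both
unramified and totally ramified at `𝔮`). -/
def RLCompositumStatement : Prop :=
  ∀ (p : ℕ) [Fact p.Prime] (F N : Type) [Field F] [NumberField F] [Field N] [NumberField N]
    [Algebra F N] (ζ : F), IsPrimitiveRoot ζ p → Module.finrank F N = p →
  ∀ (a b : 𝓞 F) (y : N), y ^ p = algebraMap F N (a : F) →
  ∀ 𝔮 : Ideal (𝓞 F), 𝔮.IsPrime → 𝔮 ≠ ⊥ → (p : 𝓞 F) ∉ 𝔮 → b ∉ 𝔮 → OrdNotDvd p 𝔮 a →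
    (∀ z : F, z ^ p ≠ (b : F)) → ∀ z : N, z ^ p ≠ algebraMap F N (b : F)

/-- (RL-C) If `a` is not a `p`-th power in `E`, then outside the primes dividing a given `m ≠ 0`
there is a prime `𝔓` and an exponent `k` with `symbI (𝔓 ^ k) = 1`. -/
def RLSymbOneStatement : Prop :=
  ∀ (p : ℕ) [Fact p.Prime] (E : Type) [Field E] [NumberField E] (ζ a : 𝓞 E),
    IsPrimitiveRoot ζ p → (∀ z : E, z ^ p ≠ (a : E)) → ∀ m : 𝓞 E, m ≠ 0 →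
    ∃ (𝔓 : Ideal (𝓞 E)) (k : ℕ), 𝔓.IsPrime ∧ 𝔓 ≠ ⊥ ∧ m ∉ 𝔓 ∧ symbI p ζ a (𝔓 ^ k) = 1

/-- (RL-D1) A prime which splits completely has a prime above it whose relative norm is the prime
itself. -/
def RLSplitPrimeStatement : Prop :=
  ∀ (F N : Type) [Field F] [NumberField F] [Field N] [NumberField N] [Algebra F N]
    (𝔮 : Ideal (𝓞 F)), 𝔮.IsPrime → 𝔮 ≠ ⊥ → SplitsCompletely F N 𝔮 →
    ∃ 𝔔 : Ideal (𝓞 N), 𝔔 ∈ 𝔮.primesOver (𝓞 N) ∧ 𝔔 ≠ ⊥ ∧ Ideal.relNorm (𝓞 F) 𝔔 = 𝔮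

/-- (RL-D2) The relative norm of a power of a prime `𝔓` not containing (the image of) `m` is
coprime to `m`. -/
def RLNormCoprimeStatement : Prop :=
  ∀ (F N : Type) [Field F] [NumberField F] [Field N] [NumberField N] [Algebra F N]
    (𝔓 : Ideal (𝓞 N)) (m : 𝓞 F) (k : ℕ), 𝔓.IsPrime → 𝔓 ≠ ⊥ →
    algebraMap (𝓞 F) (𝓞 N) m ∉ 𝔓 →
    Ideal.relNorm (𝓞 F) (𝔓 ^ k) ⊔ Ideal.span {m} = ⊤

/-- (RL-E) The symbol computation in a tower `K ⊂ E₁ ⊂ E`: if `𝔔` is a prime of `E₁` of relative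
norm `𝔮` and `s_E(𝔓 ^ k) = 1`, then `s_{E₁}(𝔔 · N_{E/E₁}(𝔓 ^ k) ^ (p - s_K(𝔮))) = 0`. -/
def RLSymbZeroStatement : Prop :=
  ∀ (p : ℕ) [Fact p.Prime] (K E₁ E : Type) [Field K] [NumberField K] [Field E₁] [NumberField E₁]
    [Field E] [NumberField E] [Algebra K E₁] [Algebra E₁ E] [Algebra K E] [IsScalarTower K E₁ E]
    (ζ α : 𝓞 K), IsPrimitiveRoot ζ p →
  ∀ (𝔮 : Ideal (𝓞 K)) (𝔔 : Ideal (𝓞 E₁)) (𝔓 : Ideal (𝓞 E)) (k : ℕ),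
    𝔮.IsPrime → 𝔮 ≠ ⊥ → (p : 𝓞 K) ∉ 𝔮 → α ∉ 𝔮 →
    𝔔 ∈ 𝔮.primesOver (𝓞 E₁) → Ideal.relNorm (𝓞 K) 𝔔 = 𝔮 →
    𝔓.IsPrime → 𝔓 ≠ ⊥ → (p : 𝓞 E) ∉ 𝔓 → algebraMap (𝓞 K) (𝓞 E) α ∉ 𝔓 →
    symbI p (algebraMap (𝓞 K) (𝓞 E) ζ) (algebraMap (𝓞 K) (𝓞 E) α) (𝔓 ^ k) = 1 →
    symbI p (algebraMap (𝓞 K) (𝓞 E₁) ζ) (algebraMap (𝓞 K) (𝓞 E₁) α)
      (𝔔 * Ideal.relNorm (𝓞 E₁) (𝔓 ^ k) ^ (p - (symb p ζ α 𝔮).val)) = 0

/-- (RL-F) One side of Lang's argument, generic in the tower `K ⊂ E₁ ⊂ E`: `E₁` is an auxiliary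
field for the good prime `𝔮` (split completely in `E₁`, `α` not a `p`-th power in `E₁`, and the
reciprocity statement R3' of `EFieldStatement` for `E₁`), and `𝔓 ^ k` is an ideal of `E` prime to
`B r` with symbol `1`.  Then `[𝔮] · [N_{E/K}(𝔓 ^ k)] ^ (p - s_K(𝔮))` is a norm class of `L/K`. -/
def RLSideStatement : Prop :=
  ∀ (p : ℕ) [Fact p.Prime], 3 ≤ p →
  ∀ (K L E₁ E : Type) [Field K] [NumberField K] [Field L] [NumberField L] [Field E₁]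
    [NumberField E₁] [Field E] [NumberField E] [Algebra K L] [Algebra K E₁] [Algebra E₁ E]
    [Algebra K E] [IsScalarTower K E₁ E] (ζ α : 𝓞 K) (B : ℕ), RSetting p K L ζ α B →
  ∀ (𝔮 : Ideal (𝓞 K)) (r : ℕ), 𝔮.IsPrime → 𝔮 ≠ ⊥ → (B : 𝓞 K) ∉ 𝔮 → (r : 𝓞 K) ∉ 𝔮 →
    SplitsCompletely K E₁ 𝔮 →
    (∀ z : E₁, z ^ p ≠ algebraMap K E₁ (α : K)) →
    (∀ (E' : Type) [Field E'] [NumberField E'] [Algebra E₁ E'], Module.finrank E₁ E' = p →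
      (∃ y : E', y ^ p = algebraMap E₁ E' (algebraMap K E₁ (α : K))) →
      ∀ 𝔅 : Ideal (𝓞 E₁), 𝔅 ≠ ⊥ → 𝔅 ⊔ Ideal.span {((B * r : ℕ) : 𝓞 E₁)} = ⊤ →
        symbI p (algebraMap (𝓞 K) (𝓞 E₁) ζ) (algebraMap (𝓞 K) (𝓞 E₁) α) 𝔅 = 0 →
        ∃ h : 𝔅 ∈ nonZeroDivisors (Ideal (𝓞 E₁)),
          ClassGroup.mk0 ⟨𝔅, h⟩ ∈ normClasses E₁ E') →
  ∀ (𝔓 : Ideal (𝓞 E)) (k : ℕ), 𝔓.IsPrime → 𝔓 ≠ ⊥ → ((B * r : ℕ) : 𝓞 E) ∉ 𝔓 →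
    symbI p (algebraMap (𝓞 K) (𝓞 E) ζ) (algebraMap (𝓞 K) (𝓞 E) α) (𝔓 ^ k) = 1 →
  ∀ (h₁ : 𝔮 ∈ nonZeroDivisors (Ideal (𝓞 K)))
    (h₂ : Ideal.relNorm (𝓞 K) (𝔓 ^ k) ∈ nonZeroDivisors (Ideal (𝓞 K))),
    ClassGroup.mk0 ⟨𝔮, h₁⟩ *
        ClassGroup.mk0 ⟨Ideal.relNorm (𝓞 K) (𝔓 ^ k), h₂⟩ ^ (p - (symb p ζ α 𝔮).val)
      ∈ normClasses K L

end Fermat.Agent.S14
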