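/-
S14 / block R / sub-block RL, package Ord: elementary facts on `OrdNotDvd`.
* `rlo_notPow`  : an integer `a` with `p ∤ v_𝔮(a)` is not a `p`-th power in `F`;
* `rlo_ordLift` : `p ∤ v_𝔮(a)` is inherited by an unramified prime `𝔔` above `𝔮`.
-/
import Fermat.Agent.S14.RLInterfaces
import Fermat.Agent.S14.BKummerRamB

set_option autoImplicit false

open NumberField IsDedekindDomain

namespace Fermat.Agent.S14

/-- The valuation of an element of `𝔮 ^ n ∖ 𝔮 ^ (n + 1)` is `exp (-n)`. -/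
theorem rlo_intValuation_eq_exp {A : Type*} [CommRing A] [IsDedekindDomain A]
    (v : HeightOneSpectrum A) (x : A) (n : ℕ)
    (hn1 : x ∈ v.asIdeal ^ n) (hn2 : x ∉ v.asIdeal ^ (n + 1)) :
    v.intValuation x = WithZero.exp (-(n : ℤ)) :=
  bkrb_eq_exp_of_le_of_not_le ((v.intValuation_le_pow_iff_mem x n).mpr hn1)
    (fun h => hn2 ((v.intValuation_le_pow_iff_mem x (n + 1)).mp h))

/-- In a Dedekind domain: if `z ^ p ∈ 𝔮 ^ n ∖ 𝔮 ^ (n + 1)` then `p ∣ n`. -/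
theorem rlo_dvd_of_pow_mem {A : Type*} [CommRing A] [IsDedekindDomain A]
    (v : HeightOneSpectrum A) (p n : ℕ) (hp : 0 < p) (z : A)
    (hn1 : z ^ p ∈ v.asIdeal ^ n) (hn2 : z ^ p ∉ v.asIdeal ^ (n + 1)) : p ∣ n := by
  have hva := rlo_intValuation_eq_exp v (z ^ p) n hn1 hn2
  have hz0 : z ≠ 0 := by
    rintro rfl
    rw [zero_pow hp.ne'] at hn2
    exact hn2 (zero_mem _)
  have hvz : v.intValuation z ≠ 0 := v.intValuation_ne_zero z hz0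
  rw [map_pow, ← WithZero.exp_log hvz, ← WithZero.exp_nsmul, WithZero.exp_inj] at hva
  simp only [nsmul_eq_mul] at hva
  have h2 : ((n : ℕ) : ℤ) = (p : ℤ) * (- WithZero.log (v.intValuation z)) := by
    linarith
  exact Int.natCast_dvd_natCast.mp ⟨_, h2⟩

/-- **(RL-A1)** An integer `a` with `p ∤ v_𝔮(a)` at some prime `𝔮` is not a `p`-th power in `F`. -/
theorem rlo_notPow : RLNotPowStatement := by
  intro p hp F _ _ 𝔮 a h𝔮 h𝔮0 hord z hz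
  obtain ⟨n, hn1, hn2, hn3⟩ := hord
  have hzint : IsIntegral ℤ z := by
    apply IsIntegral.of_pow hp.out.pos
    rw [hz]
    exact RingOfIntegers.isIntegral_coe a
  obtain ⟨z', hzz'⟩ : ∃ z' : 𝓞 F, algebraMap (𝓞 F) F z' = z := ⟨⟨z, hzint⟩, rfl⟩
  have hz' : z' ^ p = a := by
    apply RingOfIntegers.ext
    show algebraMap (𝓞 F) F (z' ^ p) = algebraMap (𝓞 F) F a
    rw [map_pow, hzz', hz]
  let v : HeightOneSpectrum (𝓞 F) := ⟨𝔮, h𝔮, h𝔮0⟩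
  have hn1' : z' ^ p ∈ v.asIdeal ^ n := by rw [hz']; exact hn1
  have hn2' : z' ^ p ∉ v.asIdeal ^ (n + 1) := by rw [hz']; exact hn2
  exact hn3 (rlo_dvd_of_pow_mem v p n hp.out.pos z' hn1' hn2')

/-- **(RL-A2)** `p ∤ v_𝔮(a)` is inherited by a prime `𝔔` above `𝔮` which is unramified over
`F`. -/
theorem rlo_ordLift : RLOrdLiftStatement := by
  intro p F N _ _ _ _ _ 𝔮 𝔔 a h𝔮 h𝔮0 h𝔔 he hord
  obtain ⟨n, hn1, hn2, hn3⟩ := hord
  have : 𝔔.IsPrime := h𝔔.1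
  have : 𝔔.LiesOver 𝔮 := h𝔔.2
  have h𝔔0 : 𝔔 ≠ ⊥ := Ideal.ne_bot_of_liesOver_of_ne_bot h𝔮0 𝔔
  let v : HeightOneSpectrum (𝓞 F) := ⟨𝔮, h𝔮, h𝔮0⟩
  let w : HeightOneSpectrum (𝓞 N) := ⟨𝔔, inferInstance, h𝔔0⟩
  have : w.asIdeal.LiesOver v.asIdeal := h𝔔.2
  have h1 := HeightOneSpectrum.intValuation_liesOver v w a
  have he' : 𝔮.ramificationIdx' 𝔔 = 𝔔.ramificationIdx (𝓞 F) :=
    Ideal.ramificationIdx'_eq_ramificationIdx 𝔮 𝔔 h𝔮0
  rw [show v.asIdeal.ramificationIdx' w.asIdeal = 1 from he'.trans he, pow_one] at h1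
  have hn1' : a ∈ v.asIdeal ^ n := hn1
  have hn2' : a ∉ v.asIdeal ^ (n + 1) := hn2
  rw [← v.intValuation_le_pow_iff_mem a n, h1, w.intValuation_le_pow_iff_mem] at hn1'
  rw [← v.intValuation_le_pow_iff_mem a (n + 1), h1, w.intValuation_le_pow_iff_mem] at hn2'
  exact ⟨n, hn1', hn2', hn3⟩

end Fermat.Agent.S14
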