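/-
S14 / sub-block RE, package Element (twin): arithmetic of the element `a = α * c ^ j`.
* it lies in no prime not containing `B * r`;
* its valuation at every prime above `r` is not divisible by `p`;
* it is not a `p`-th power in `K`.
-/
import Fermat.Agent.S14.REInterfaces
import Fermat.Agent.S14.RLOrd

set_option autoImplicit false

open NumberField IsDedekindDomain

namespace Fermat.Agent.S14

/-- A prime of `𝓞 F` containing the rational prime `r`. -/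
theorem reelemt_exists_prime_natCast (F : Type) [Field F] [NumberField F] (r : ℕ)
    (hr : r.Prime) : ∃ 𝔯 : Ideal (𝓞 F), 𝔯.IsPrime ∧ (r : 𝓞 F) ∈ 𝔯 := by
  have hprime : (Ideal.span {(r : ℤ)}).IsPrime :=
    (Ideal.span_singleton_prime (by exact_mod_cast hr.ne_zero)).mpr
      (Nat.prime_iff_prime_int.mp hr)
  obtain ⟨⟨𝔯, h𝔯, hover⟩⟩ := Ideal.nonempty_primesOver (S := 𝓞 F) (Ideal.span {(r : ℤ)})
  have hmem : (r : 𝓞 F) ∈ 𝔯 := by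
    have h1 : (r : ℤ) ∈ 𝔯.under ℤ := by
      rw [← hover.over]
      exact Ideal.subset_span rfl
    have h2 : algebraMap ℤ (𝓞 F) (r : ℤ) ∈ 𝔯 := h1
    simpa using h2
  exact ⟨𝔯, h𝔯, hmem⟩

/-- A proper ideal containing the prime number `r` and the natural number `m` forces `r ∣ m`. -/
theorem reelemt_dvd_of_natCast_mem {R : Type*} [CommRing R] (𝔯 : Ideal R) (h𝔯 : 𝔯 ≠ ⊤)
    (r m : ℕ) (hr : r.Prime) (hr𝔯 : (r : R) ∈ 𝔯) (hm : (m : R) ∈ 𝔯) : r ∣ m := by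
  by_contra hndvd
  have hcop : IsCoprime (r : ℤ) (m : ℤ) :=
    Nat.isCoprime_iff_coprime.mpr ((Nat.Prime.coprime_iff_not_dvd hr).mpr hndvd)
  obtain ⟨a, b, hab⟩ := hcop
  apply h𝔯
  rw [Ideal.eq_top_iff_one]
  have h1 : ((a * r + b * m : ℤ) : R) = 1 := by
    rw [hab]
    simp
  rw [← h1]
  push_cast
  exact 𝔯.add_mem (𝔯.mul_mem_left _ hr𝔯) (𝔯.mul_mem_left _ hm)

/-- Valuation computation in a Dedekind domain: if `α ∉ 𝔯` and `c ∈ 𝔯 ^ n ∖ 𝔯 ^ (n + 1)`, then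
`α * c ^ j ∈ 𝔯 ^ (n * j) ∖ 𝔯 ^ (n * j + 1)`. -/
theorem reelemt_mul_pow_mem {A : Type*} [CommRing A] [IsDedekindDomain A]
    (v : HeightOneSpectrum A) (α c : A) (n j : ℕ) (hα : α ∉ v.asIdeal)
    (hn1 : c ∈ v.asIdeal ^ n) (hn2 : c ∉ v.asIdeal ^ (n + 1)) :
    α * c ^ j ∈ v.asIdeal ^ (n * j) ∧ α * c ^ j ∉ v.asIdeal ^ (n * j + 1) := by
  have hvc := rlo_intValuation_eq_exp v c n hn1 hn2
  have hvα : v.intValuation α = WithZero.exp (-((0 : ℕ) : ℤ)) :=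
    rlo_intValuation_eq_exp v α 0 (by simp) (by simpa using hα)
  have hva : v.intValuation (α * c ^ j) = WithZero.exp (-((n * j : ℕ) : ℤ)) := by
    rw [map_mul, map_pow, hvα, hvc, ← WithZero.exp_nsmul, ← WithZero.exp_add]
    congr 1
    push_cast
    simp only [nsmul_eq_mul]
    ring
  constructor
  · rw [← v.intValuation_le_pow_iff_mem, hva]
  · rw [← v.intValuation_le_pow_iff_mem, hva, WithZero.exp_le_exp]
    push_cast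
    omega

/-- **(RE2)** Arithmetic of the element `a = α * c ^ j`. -/
theorem reelemt_main : REElementStatement := by
  intro p hp K _ _ α c B r j hr hrB hαB hc hj0 hjp hn
  have hpart1 : ∀ 𝔓 : Ideal (𝓞 K), 𝔓.IsPrime → ((B * r : ℕ) : 𝓞 K) ∉ 𝔓 → α * c ^ j ∉ 𝔓 := by
    intro 𝔓 h𝔓 hBr ha
    apply hBr
    push_cast
    rcases h𝔓.mem_or_mem ha with h | h
    · obtain ⟨d, hd⟩ := hαB
      rw [hd]
      exact 𝔓.mul_mem_right _ (𝔓.mul_mem_right _ h)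
    · have hc𝔓 : c ∈ 𝔓 := h𝔓.mem_of_pow_mem j h
      obtain ⟨d, hd⟩ := hc
      have hr𝔓 : (r : 𝓞 K) ∈ 𝔓 := by
        apply h𝔓.mem_of_pow_mem (p - 1)
        rw [hd]
        exact 𝔓.mul_mem_right _ hc𝔓
      exact 𝔓.mul_mem_left _ hr𝔓
  have hbot : ∀ 𝔯 : Ideal (𝓞 K), (r : 𝓞 K) ∈ 𝔯 → 𝔯 ≠ ⊥ := by
    rintro 𝔯 hr𝔯 rfl
    rw [Ideal.mem_bot] at hr𝔯
    exact hr.ne_zero (by exact_mod_cast hr𝔯)
  have hpart2 : ∀ 𝔯 : Ideal (𝓞 K), 𝔯.IsPrime → (r : 𝓞 K) ∈ 𝔯 →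
      OrdNotDvd p 𝔯 (α * c ^ j) := by
    intro 𝔯 h𝔯 hr𝔯
    have h𝔯0 : 𝔯 ≠ ⊥ := hbot 𝔯 hr𝔯
    have hα𝔯 : α ∉ 𝔯 := by
      intro hα
      apply hrB
      apply reelemt_dvd_of_natCast_mem 𝔯 h𝔯.ne_top r B hr hr𝔯
      obtain ⟨d, hd⟩ := hαB
      rw [hd]
      exact 𝔯.mul_mem_right _ hα
    obtain ⟨n, hn1, hnp, hcn, hcn'⟩ := hn 𝔯 h𝔯 hr𝔯
    let v : HeightOneSpectrum (𝓞 K) := ⟨𝔯, h𝔯, h𝔯0⟩
    obtain ⟨h1, h2⟩ := reelemt_mul_pow_mem v α c n j hα𝔯 hcn hcn'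
    refine ⟨n * j, h1, h2, ?_⟩
    intro hdvd
    rcases (Nat.Prime.dvd_mul hp.out).mp hdvd with h | h
    · exact absurd (Nat.le_of_dvd (by omega) h) (by omega)
    · exact absurd (Nat.le_of_dvd hj0 h) (by omega)
  refine ⟨hpart1, hpart2, ?_⟩
  obtain ⟨𝔯, h𝔯, hr𝔯⟩ := reelemt_exists_prime_natCast K r hr
  exact rlo_notPow p K 𝔯 (α * c ^ j) h𝔯 (hbot 𝔯 hr𝔯) (hpart2 𝔯 h𝔯 hr𝔯)

end Fermat.Agent.S14
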