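/-
S14, block RE (twin T): general helper lemmas for the auxiliary fields `E_𝔮` and the reciprocity
statement R3'.  Everything here is independent of the construction.
-/
import Fermat.Agent.S14.RInterfaces

set_option autoImplicit false

open NumberField

namespace Fermat.Agent.S14

/-! ## Exact powers of a prime dividing an element -/

/-- Exact divisibility by `𝔮 ^ n` in terms of `emultiplicity` of ideals. -/
theorem ret_emult_eq {F : Type} [Field F] [NumberField F] (𝔮 : Ideal (𝓞 F)) (x : 𝓞 F) (n : ℕ) :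
    emultiplicity 𝔮 (Ideal.span {x}) = n ↔ (x ∈ 𝔮 ^ n ∧ x ∉ 𝔮 ^ (n + 1)) := by
  rw [emultiplicity_eq_coe, Ideal.dvd_span_singleton, Ideal.dvd_span_singleton]

/-- If `α ∉ 𝔯` and `𝔯 ^ n` exactly divides `c`, then `𝔯 ^ (j * n)` exactly divides `α * c ^ j`. -/
theorem ret_exact_mul_pow {F : Type} [Field F] [NumberField F] (𝔯 : Ideal (𝓞 F))
    (h𝔯 : 𝔯.IsPrime) (h0 : 𝔯 ≠ ⊥) (α c : 𝓞 F) (j n : ℕ) (hα : α ∉ 𝔯)
    (hc1 : c ∈ 𝔯 ^ n) (hc2 : c ∉ 𝔯 ^ (n + 1)) :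
    α * c ^ j ∈ 𝔯 ^ (j * n) ∧ α * c ^ j ∉ 𝔯 ^ (j * n + 1) := by
  have hprime : Prime 𝔯 := Ideal.prime_of_isPrime h0 h𝔯
  rw [← ret_emult_eq]
  have h1 : emultiplicity 𝔯 (Ideal.span {α}) = 0 := by
    rw [emultiplicity_eq_zero, Ideal.dvd_span_singleton]
    exact hα
  have h2 : emultiplicity 𝔯 (Ideal.span {c}) = n := (ret_emult_eq 𝔯 c n).mpr ⟨hc1, hc2⟩
  rw [← Ideal.span_singleton_mul_span_singleton, ← Ideal.span_singleton_pow,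
    emultiplicity_mul hprime, emultiplicity_pow hprime, h1, h2, zero_add]
  norm_cast

/-- The exported form: `OrdNotDvd p 𝔯 (α * c ^ j)`. -/
theorem ret_ordNotDvd_mul_pow (p : ℕ) [Fact p.Prime] {F : Type} [Field F] [NumberField F]
    (𝔯 : Ideal (𝓞 F)) (h𝔯 : 𝔯.IsPrime) (h0 : 𝔯 ≠ ⊥) (α c : 𝓞 F) (j n : ℕ) (hα : α ∉ 𝔯)
    (hc1 : c ∈ 𝔯 ^ n) (hc2 : c ∉ 𝔯 ^ (n + 1)) (hj : ¬ p ∣ j) (hn : ¬ p ∣ n) :
    OrdNotDvd p 𝔯 (α * c ^ j) := by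
  obtain ⟨h1, h2⟩ := ret_exact_mul_pow 𝔯 h𝔯 h0 α c j n hα hc1 hc2
  refine ⟨j * n, h1, h2, ?_⟩
  intro h
  rcases (Nat.Prime.dvd_mul (Fact.out : p.Prime)).mp h with h | h
  · exact hj h
  · exact hn h

/-- An element with `p ∤ v_𝔯(a)` is not a `p`-th power in `F`. -/
theorem ret_not_pow_of_ordNotDvd (p : ℕ) (hp : 0 < p) {F : Type} [Field F] [NumberField F]
    (𝔯 : Ideal (𝓞 F)) (h𝔯 : 𝔯.IsPrime) (h0 : 𝔯 ≠ ⊥) (a : 𝓞 F) (h : OrdNotDvd p 𝔯 a) :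
    ∀ z : F, z ^ p ≠ (a : F) := by
  intro z hz
  have hprime : Prime 𝔯 := Ideal.prime_of_isPrime h0 h𝔯
  have hzint : IsIntegral ℤ z := by
    refine IsIntegral.of_pow hp ?_
    rw [hz]
    exact RingOfIntegers.isIntegral_coe a
  obtain ⟨z', rfl⟩ : ∃ z' : 𝓞 F, (z' : F) = z := ⟨⟨z, hzint⟩, rfl⟩
  have hz' : z' ^ p = a := by
    apply RingOfIntegers.ext
    rw [← hz]
    exact map_pow (algebraMap (𝓞 F) F) z' p
  obtain ⟨n, hn1, hn2, hpn⟩ := h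
  have h1 : emultiplicity 𝔯 (Ideal.span {a}) = n := (ret_emult_eq 𝔯 a n).mpr ⟨hn1, hn2⟩
  rw [← hz', ← Ideal.span_singleton_pow, emultiplicity_pow hprime] at h1
  by_cases htop : emultiplicity 𝔯 (Ideal.span {z'}) = ⊤
  · rw [htop, ENat.mul_top (by exact_mod_cast hp.ne')] at h1
    exact ENat.top_ne_natCast n h1
  · obtain ⟨m, hm⟩ := ENat.ne_top_iff_exists.mp htop
    rw [← hm] at h1
    apply hpn
    refine ⟨m, ?_⟩
    exact_mod_cast h1.symm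

/-! ## Coprimality to a natural number and the absolute norm -/

/-- If `𝔅 ⊔ (x) = ⊤` and the prime `𝔓` contains `𝔅`, then `x ∉ 𝔓`. -/
theorem ret_not_mem_of_sup_eq_top {R : Type} [CommRing R] (𝔅 𝔓 : Ideal R) (x : R)
    (h𝔓 : 𝔓.IsPrime) (hle : 𝔅 ≤ 𝔓) (hcop : 𝔅 ⊔ Ideal.span {x} = ⊤) : x ∉ 𝔓 := by
  intro hx
  apply h𝔓.ne_top
  rw [eq_top_iff, ← hcop]
  exact sup_le hle ((Ideal.span_singleton_le_iff_mem 𝔓).mpr hx)

/-- A prime number is not a unit in a ring of integers: `(ℓ) ≠ ⊤`. -/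
theorem ret_span_prime_ne_top {F : Type} [Field F] [NumberField F] (ℓ : ℕ) (hℓ : ℓ.Prime) :
    Ideal.span {(ℓ : 𝓞 F)} ≠ ⊤ := by
  intro h
  have h1 := Ideal.absNorm_span_natCast (S := 𝓞 F) ℓ
  rw [h, Ideal.absNorm_top] at h1
  have hpos : 0 < Module.finrank ℤ (𝓞 F) := by
    rw [RingOfIntegers.rank F]
    exact Module.finrank_pos
  have := Nat.one_lt_pow hpos.ne' hℓ.one_lt
  omega

/-- If `𝔅` is coprime to the prime number `ℓ`, then `ℓ ∤ N(𝔅)` (Cauchy's theorem). -/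
theorem ret_not_dvd_absNorm {F : Type} [Field F] [NumberField F] (𝔅 : Ideal (𝓞 F)) (ℓ : ℕ)
    (hℓ : ℓ.Prime) (hcop : 𝔅 ⊔ Ideal.span {(ℓ : 𝓞 F)} = ⊤) : ¬ ℓ ∣ Ideal.absNorm 𝔅 := by
  intro hdvd
  have h𝔅0 : 𝔅 ≠ ⊥ := by
    rintro rfl
    rw [bot_sup_eq] at hcop
    exact ret_span_prime_ne_top ℓ hℓ hcop
  have hfin : Finite (𝓞 F ⧸ 𝔅) :=
    (Ideal.absNorm_ne_zero_iff 𝔅).mp (fun h => h𝔅0 (Ideal.absNorm_eq_zero_iff.mp h))
  have : Fact ℓ.Prime := ⟨hℓ⟩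
  have hcard : ℓ ∣ Nat.card (𝓞 F ⧸ 𝔅) := by
    rw [← Submodule.cardQuot_apply]
    exact hdvd
  obtain ⟨x, hx⟩ := exists_prime_addOrderOf_dvd_card' ℓ hcard
  obtain ⟨y, rfl⟩ := Ideal.Quotient.mk_surjective x
  -- `ℓ • y ∈ 𝔅` and `1 = b + s * ℓ` with `b ∈ 𝔅` give `y ∈ 𝔅`
  have h1 : ℓ • (Ideal.Quotient.mk 𝔅 y) = 0 := by
    rw [← hx]
    exact addOrderOf_nsmul_eq_zero _
  have h2 : (ℓ : 𝓞 F) * y ∈ 𝔅 := by
    rw [← Ideal.Quotient.eq_zero_iff_mem, map_mul, map_natCast, ← nsmul_eq_mul]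
    exact h1
  have h3 : (1 : 𝓞 F) ∈ 𝔅 ⊔ Ideal.span {(ℓ : 𝓞 F)} := by rw [hcop]; trivial
  obtain ⟨b, hb, c, hc, hbc⟩ := Submodule.mem_sup.mp h3
  obtain ⟨s, rfl⟩ := Ideal.mem_span_singleton'.mp hc
  have h4 : y ∈ 𝔅 := by
    have : y = b * y + s * ((ℓ : 𝓞 F) * y) := by
      rw [← mul_assoc, ← add_mul, hbc, one_mul]
    rw [this]
    exact 𝔅.add_mem (𝔅.mul_mem_right _ hb) (𝔅.mul_mem_left _ h2)
  have h5 : Ideal.Quotient.mk 𝔅 y = 0 := Ideal.Quotient.eq_zero_iff_mem.mpr h4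
  rw [h5, addOrderOf_zero] at hx
  exact hℓ.one_lt.ne hx

/-- Coprimality of an ideal to a natural number in terms of the absolute norm. -/
theorem ret_coprime_iff {F : Type} [Field F] [NumberField F] (𝔅 : Ideal (𝓞 F)) (n : ℕ) :
    𝔅 ⊔ Ideal.span {(n : 𝓞 F)} = ⊤ ↔ (Ideal.absNorm 𝔅).Coprime n := by
  constructor
  · intro hcop
    apply Nat.Coprime.symm
    rw [Nat.coprime_comm]
    refine Nat.coprime_of_dvd ?_
    intro ℓ hℓ hℓN hℓn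
    refine ret_not_dvd_absNorm 𝔅 ℓ hℓ ?_ hℓN
    rw [eq_top_iff, ← hcop]
    refine sup_le_sup_left ?_ _
    rw [Ideal.span_singleton_le_span_singleton]
    exact_mod_cast (Nat.cast_dvd_cast (α := 𝓞 F) hℓn)
  · intro hcop
    rw [Ideal.eq_top_iff_one]
    have h1 : ((Ideal.absNorm 𝔅 : ℤ) : 𝓞 F) * ((Nat.gcdA (Ideal.absNorm 𝔅) n : ℤ) : 𝓞 F)
        + ((n : ℤ) : 𝓞 F) * ((Nat.gcdB (Ideal.absNorm 𝔅) n : ℤ) : 𝓞 F) = 1 := by
      have h := Nat.gcd_eq_gcd_ab (Ideal.absNorm 𝔅) n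
      rw [hcop] at h
      have h' := congrArg (fun z : ℤ => (z : 𝓞 F)) h
      simp only [Nat.cast_one, Int.cast_one, Int.cast_add, Int.cast_mul] at h'
      exact h'.symm
    rw [← h1]
    refine Ideal.add_mem _ (Ideal.mem_sup_left ?_) (Ideal.mem_sup_right ?_)
    · refine Ideal.mul_mem_right _ _ ?_
      rw [Int.cast_natCast]
      exact Ideal.absNorm_mem 𝔅
    · refine Ideal.mul_mem_right _ _ ?_
      rw [Int.cast_natCast]
      exact Ideal.subset_span rfl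

/-- Coprimality to `n` is multiplicative. -/
theorem ret_coprime_mul {F : Type} [Field F] [NumberField F] (𝔅₁ 𝔅₂ : Ideal (𝓞 F)) (n : ℕ)
    (h1 : 𝔅₁ ⊔ Ideal.span {(n : 𝓞 F)} = ⊤) (h2 : 𝔅₂ ⊔ Ideal.span {(n : 𝓞 F)} = ⊤) :
    𝔅₁ * 𝔅₂ ⊔ Ideal.span {(n : 𝓞 F)} = ⊤ := by
  rw [ret_coprime_iff] at h1 h2 ⊢
  rw [map_mul]
  exact Nat.Coprime.mul_left h1 h2

theorem ret_coprime_pow {F : Type} [Field F] [NumberField F] (𝔅 : Ideal (𝓞 F)) (n k : ℕ)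
    (h : 𝔅 ⊔ Ideal.span {(n : 𝓞 F)} = ⊤) : 𝔅 ^ k ⊔ Ideal.span {(n : 𝓞 F)} = ⊤ := by
  rw [ret_coprime_iff] at h ⊢
  rw [map_pow]
  exact Nat.Coprime.pow_left k h

/-- A factor of an ideal coprime to `n` is coprime to `n`. -/
theorem ret_coprime_of_mul_left {F : Type} [Field F] [NumberField F] (𝔅₁ 𝔅₂ : Ideal (𝓞 F))
    (n : ℕ) (h : 𝔅₁ * 𝔅₂ ⊔ Ideal.span {(n : 𝓞 F)} = ⊤) :
    𝔅₁ ⊔ Ideal.span {(n : 𝓞 F)} = ⊤ := by
  rw [ret_coprime_iff] at h ⊢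
  rw [map_mul] at h
  exact Nat.Coprime.coprime_mul_right h

theorem ret_coprime_of_mul_right {F : Type} [Field F] [NumberField F] (𝔅₁ 𝔅₂ : Ideal (𝓞 F))
    (n : ℕ) (h : 𝔅₁ * 𝔅₂ ⊔ Ideal.span {(n : 𝓞 F)} = ⊤) :
    𝔅₂ ⊔ Ideal.span {(n : 𝓞 F)} = ⊤ := by
  rw [mul_comm] at h
  exact ret_coprime_of_mul_left 𝔅₂ 𝔅₁ n h

/-- The relative norm of an ideal coprime to `n` is coprime to `n`. -/
theorem ret_coprime_relNorm {F N : Type} [Field F] [NumberField F] [Field N] [NumberField N]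
    [Algebra F N] (𝔄 : Ideal (𝓞 N)) (n : ℕ) (h : 𝔄 ⊔ Ideal.span {(n : 𝓞 N)} = ⊤) :
    Ideal.relNorm (𝓞 F) 𝔄 ⊔ Ideal.span {(n : 𝓞 F)} = ⊤ := by
  rw [ret_coprime_iff] at h ⊢
  rw [Ideal.absNorm_relNorm]
  exact h

/-! ## Integer representatives modulo a prime of prime norm -/

/-- Modulo an ideal of prime norm every integer of `F` is congruent to a rational integer. -/
theorem ret_exists_int_rep {F : Type} [Field F] [NumberField F] (𝔓 : Ideal (𝓞 F)) (r : ℕ)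
    (hr : r.Prime) (hN : Ideal.absNorm 𝔓 = r) (y : 𝓞 F) : ∃ n : ℤ, y - (n : 𝓞 F) ∈ 𝔓 := by
  have : Fact r.Prime := ⟨hr⟩
  have hcard : Nat.card (𝓞 F ⧸ 𝔓) = r := by
    rw [← Submodule.cardQuot_apply]
    exact hN
  have hne : (Ideal.Quotient.mk 𝔓 1) ≠ 0 := by
    intro h
    have h1 : (1 : 𝓞 F) ∈ 𝔓 := Ideal.Quotient.eq_zero_iff_mem.mp h
    have h2 : 𝔓 = ⊤ := (Ideal.eq_top_iff_one 𝔓).mpr h1
    rw [h2, Ideal.absNorm_top] at hN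
    exact hr.one_lt.ne hN
  have hmem : Ideal.Quotient.mk 𝔓 y ∈ AddSubgroup.zmultiples (Ideal.Quotient.mk 𝔓 1) :=
    mem_zmultiples_of_prime_card hcard hne
  obtain ⟨k, hk⟩ := AddSubgroup.mem_zmultiples_iff.mp hmem
  refine ⟨k, ?_⟩
  rw [← Ideal.Quotient.eq_zero_iff_mem, map_sub, ← hk, map_intCast, zsmul_eq_mul, map_one,
    mul_one, sub_self]

/-! ## Powers in the symbol -/

/-- The symbol of a power (from the multiplicativity in `SymbSpecStatement`). -/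
theorem ret_symb_pow (hSpec : SymbSpecStatement) (p : ℕ) [Fact p.Prime] (E : Type) [Field E]
    [NumberField E] (ζ : 𝓞 E) (hζ : IsPrimitiveRoot ζ p) (𝔓 : Ideal (𝓞 E)) (h𝔓 : 𝔓.IsPrime)
    (h0 : 𝔓 ≠ ⊥) (hp : (p : 𝓞 E) ∉ 𝔓) (b : 𝓞 E) (hb : b ∉ 𝔓) (n : ℕ) :
    symb p ζ (b ^ n) 𝔓 = (n : ZMod p) * symb p ζ b 𝔓 := by
  have hspec := (hSpec p E ζ hζ 𝔓 h𝔓 h0 hp).2
  have h1𝔓 : (1 : 𝓞 E) ∉ 𝔓 := fun h => h𝔓.ne_top ((Ideal.eq_top_iff_one 𝔓).mpr h)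
  induction n with
  | zero =>
    have h := (hspec 1 h1𝔓).2.2.2 1 h1𝔓
    rw [mul_one] at h
    rw [pow_zero, Nat.cast_zero, zero_mul]
    exact left_eq_add.mp h
  | succ n ih =>
    have hbn : b ^ n ∉ 𝔓 := fun h => hb (h𝔓.mem_of_pow_mem n h)
    rw [pow_succ, (hspec (b ^ n) hbn).2.2.2 b hb, ih]
    push_cast
    ring

/-! ## A counting argument in a finite abelian group -/

/-- If `m` is coprime to `p` and `c ^ m, c ^ p ∈ H` then `c ∈ H`. -/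
theorem ret_mem_of_coprime {G : Type*} [Group G] (H : Subgroup G) (c : G) (m p : ℕ)
    (hcop : m.Coprime p) (hm : c ^ m ∈ H) (hp : c ^ p ∈ H) : c ∈ H := by
  have h := Nat.gcd_eq_gcd_ab m p
  rw [hcop] at h
  have h1 : c = (c ^ m) ^ (Nat.gcdA m p) * (c ^ p) ^ (Nat.gcdB m p) := by
    rw [← zpow_natCast c m, ← zpow_natCast c p, ← zpow_mul, ← zpow_mul, ← zpow_add, ← h]
    simp
  rw [h1]
  exact H.mul_mem (H.zpow_mem hm _) (H.zpow_mem hp _)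

/-- If `H` has index at most the prime `p` in the finite commutative group `G`, all `p`-th powers
lie in `H` and `c ∉ H`, then every `g` satisfies `g * c ^ i ∈ H` for some `i < p`. -/
theorem ret_coset_rep {G : Type*} [CommGroup G] [Finite G] (H : Subgroup G) (p : ℕ)
    [Fact p.Prime] (hidx : H.index ≤ p) (hpow : ∀ g : G, g ^ p ∈ H) (c : G) (hc : c ∉ H)
    (g : G) : ∃ i : ℕ, i < p ∧ g * c ^ i ∈ H := by
  have hpp : p.Prime := Fact.out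
  let f : Fin p → G ⧸ H := fun i => ((c ^ (i : ℕ) : G) : G ⧸ H)
  have hinj : Function.Injective f := by
    -- it suffices to treat `i < k`
    have key : ∀ i k : Fin p, (i : ℕ) < (k : ℕ) → f i ≠ f k := by
      intro i k hik hfe
      have h1 : (c ^ (i : ℕ))⁻¹ * c ^ (k : ℕ) ∈ H := QuotientGroup.eq.mp hfe
      have h2 : (c ^ (i : ℕ))⁻¹ * c ^ (k : ℕ) = c ^ ((k : ℕ) - (i : ℕ)) := by
        rw [inv_mul_eq_iff_eq_mul, ← pow_add]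
        congr 1
        omega
      rw [h2] at h1
      have hcop : ((k : ℕ) - (i : ℕ)).Coprime p := by
        apply Nat.Coprime.symm
        rw [Nat.Prime.coprime_iff_not_dvd hpp]
        intro hdvd
        have := Nat.le_of_dvd (by omega) hdvd
        have := k.2
        omega
      exact hc (ret_mem_of_coprime H c _ p hcop h1 (hpow c))
    intro i k hik
    by_contra hne
    rcases Nat.lt_or_gt_of_ne (fun h => hne (Fin.ext h)) with h | h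
    · exact key i k h hik
    · exact key k i h hik.symm
  have hcard : Nat.card (G ⧸ H) ≤ Nat.card (Fin p) := by
    rw [Nat.card_fin]
    exact hidx
  have hbij := hinj.bijective_of_nat_card_le hcard
  obtain ⟨i, hi⟩ := hbij.2 ((g⁻¹ : G) : G ⧸ H)
  refine ⟨i, i.2, ?_⟩
  have h1 : (g⁻¹)⁻¹ * c ^ (i : ℕ) ∈ H := QuotientGroup.eq.mp hi.symm
  rwa [inv_inv] at h1

end Fermat.Agent.S14
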