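/-
S14, block RE (twin T), Step 2: the symbol of `α` on ideals of a field `E ⊇ K` in which
`α * c ^ j` becomes a `p`-th power is `j · lam (N𝔅 mod r)`.
-/
import Fermat.Agent.S14.REFieldT1

set_option autoImplicit false

open NumberField UniqueFactorizationMonoid

namespace Fermat.Agent.S14

/-- If `x ∣ y` in `𝓞 K` and the image of `y` is not in the prime `𝔓` of `E`, neither is the image
of `x`. -/
theorem ret_map_not_mem_of_dvd {K E : Type} [Field K] [NumberField K] [Field E] [NumberField E]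
    [Algebra K E] (x y : 𝓞 K) (hxy : x ∣ y) (𝔓 : Ideal (𝓞 E))
    (hy : algebraMap (𝓞 K) (𝓞 E) y ∉ 𝔓) : algebraMap (𝓞 K) (𝓞 E) x ∉ 𝔓 := by
  intro hx
  obtain ⟨k, rfl⟩ := hxy
  apply hy
  rw [map_mul]
  exact 𝔓.mul_mem_right _ hx

/-- Step 2 at a prime: `s(𝔓) = j · lam (N𝔓)`. -/
theorem ret_symb_prime (hSpec : SymbSpecStatement) (p : ℕ) [Fact p.Prime]
    (K E : Type) [Field K] [NumberField K] [Field E] [NumberField E] [Algebra K E]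
    (ζ α c : 𝓞 K) (hζ : IsPrimitiveRoot ζ p) (B r j : ℕ) (lam : ZMod r → ZMod p)
    (hpB : p ∣ B) (hαB : α ∣ (B : 𝓞 K)) (hc : c ∣ (r : 𝓞 K) ^ (p - 1))
    (hG : ∀ 𝔅 : Ideal (𝓞 E), 𝔅.IsPrime → 𝔅 ≠ ⊥ → (p : 𝓞 E) ∉ 𝔅 → (r : 𝓞 E) ∉ 𝔅 →
        symb p (algebraMap (𝓞 K) (𝓞 E) ζ) (algebraMap (𝓞 K) (𝓞 E) c) 𝔅 =
          - lam ((Ideal.absNorm 𝔅 : ℕ) : ZMod r))
    (θ : 𝓞 E) (hθ : θ ^ p = algebraMap (𝓞 K) (𝓞 E) (α * c ^ j))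
    (𝔓 : Ideal (𝓞 E)) (h𝔓 : 𝔓.IsPrime) (h0 : 𝔓 ≠ ⊥) (hB𝔓 : (B : 𝓞 E) ∉ 𝔓)
    (hr𝔓 : (r : 𝓞 E) ∉ 𝔓) :
    symb p (algebraMap (𝓞 K) (𝓞 E) ζ) (algebraMap (𝓞 K) (𝓞 E) α) 𝔓 =
      (j : ZMod p) * lam ((Ideal.absNorm 𝔓 : ℕ) : ZMod r) := by
  have hζE : IsPrimitiveRoot (algebraMap (𝓞 K) (𝓞 E) ζ) p :=
    hζ.map_of_injective (RingOfIntegers.algebraMap.injective K E)
  have hp𝔓 : (p : 𝓞 E) ∉ 𝔓 := by
    intro h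
    obtain ⟨k, rfl⟩ := hpB
    apply hB𝔓
    rw [Nat.cast_mul]
    exact 𝔓.mul_mem_right _ h
  have hα𝔓 : algebraMap (𝓞 K) (𝓞 E) α ∉ 𝔓 :=
    ret_map_not_mem_of_dvd α (B : 𝓞 K) hαB 𝔓 (by rwa [map_natCast])
  have hc𝔓 : algebraMap (𝓞 K) (𝓞 E) c ∉ 𝔓 := by
    refine ret_map_not_mem_of_dvd c ((r : 𝓞 K) ^ (p - 1)) hc 𝔓 ?_
    rw [map_pow, map_natCast]
    exact fun h => hr𝔓 (h𝔓.mem_of_pow_mem _ h)
  have hcj𝔓 : algebraMap (𝓞 K) (𝓞 E) c ^ j ∉ 𝔓 := fun h => hc𝔓 (h𝔓.mem_of_pow_mem _ h)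
  have spec := (hSpec p E _ hζE 𝔓 h𝔓 h0 hp𝔓).2
  have hθ' : θ ^ p = algebraMap (𝓞 K) (𝓞 E) α * algebraMap (𝓞 K) (𝓞 E) c ^ j := by
    rw [hθ, map_mul, map_pow]
  have hθ𝔓 : θ ^ p ∉ 𝔓 := by
    rw [hθ']
    exact fun h => (h𝔓.mem_or_mem h).elim hα𝔓 hcj𝔓
  have h1 := (spec _ hα𝔓).2.2.2 _ hcj𝔓
  have h2 := ret_symb_pow hSpec p E _ hζE 𝔓 h𝔓 h0 hp𝔓 _ hc𝔓 j
  have h3 : symb p (algebraMap (𝓞 K) (𝓞 E) ζ) (θ ^ p) 𝔓 = 0 := by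
    refine ((spec _ hθ𝔓).2.2.1).mpr ⟨θ, ?_⟩
    rw [sub_self]
    exact 𝔓.zero_mem
  rw [← hθ', h3, h2, hG 𝔓 h𝔓 h0 hp𝔓 hr𝔓] at h1
  linear_combination -h1

/-- Step 2 for ideals: `s(𝔅) = j · lam (N𝔅)` for nonzero `𝔅` coprime to `B · r`; moreover `N𝔅` is
nonzero modulo `r`. -/
theorem ret_symbI_formula (hSpec : SymbSpecStatement) (p : ℕ) [Fact p.Prime]
    (K E : Type) [Field K] [NumberField K] [Field E] [NumberField E] [Algebra K E]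
    (ζ α c : 𝓞 K) (hζ : IsPrimitiveRoot ζ p) (B r j : ℕ) (hr : r.Prime) (lam : ZMod r → ZMod p)
    (hlam : ∀ x y : ZMod r, x ≠ 0 → y ≠ 0 → lam (x * y) = lam x + lam y)
    (hpB : p ∣ B) (hαB : α ∣ (B : 𝓞 K)) (hc : c ∣ (r : 𝓞 K) ^ (p - 1))
    (hG : ∀ 𝔅 : Ideal (𝓞 E), 𝔅.IsPrime → 𝔅 ≠ ⊥ → (p : 𝓞 E) ∉ 𝔅 → (r : 𝓞 E) ∉ 𝔅 →
        symb p (algebraMap (𝓞 K) (𝓞 E) ζ) (algebraMap (𝓞 K) (𝓞 E) c) 𝔅 =
          - lam ((Ideal.absNorm 𝔅 : ℕ) : ZMod r))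
    (θ : 𝓞 E) (hθ : θ ^ p = algebraMap (𝓞 K) (𝓞 E) (α * c ^ j))
    (𝔅 : Ideal (𝓞 E)) (h𝔅 : 𝔅 ≠ ⊥)
    (hcop : 𝔅 ⊔ Ideal.span {((B * r : ℕ) : 𝓞 E)} = ⊤) :
    symbI p (algebraMap (𝓞 K) (𝓞 E) ζ) (algebraMap (𝓞 K) (𝓞 E) α) 𝔅 =
      (j : ZMod p) * lam ((Ideal.absNorm 𝔅 : ℕ) : ZMod r) ∧
    ((Ideal.absNorm 𝔅 : ℕ) : ZMod r) ≠ 0 := by
  have : Fact r.Prime := ⟨hr⟩
  have hlam1 : lam 1 = 0 := by
    have h := hlam 1 1 one_ne_zero one_ne_zero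
    rw [mul_one] at h
    exact left_eq_add.mp h
  have hcopr : ¬ r ∣ Ideal.absNorm 𝔅 := by
    have h1 := (ret_coprime_iff 𝔅 (B * r)).mp hcop
    have h2 : (Ideal.absNorm 𝔅).Coprime r := Nat.Coprime.coprime_mul_left_right h1
    intro hdvd
    have h3 := Nat.Coprime.eq_one_of_dvd h2.symm hdvd
    exact hr.one_lt.ne' h3
  -- the statement for sub-multisets of the factorisation
  have key : ∀ t : Multiset (Ideal (𝓞 E)), (∀ 𝔓 ∈ t, 𝔓 ∈ normalizedFactors 𝔅) →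
      (t.map (symb p (algebraMap (𝓞 K) (𝓞 E) ζ) (algebraMap (𝓞 K) (𝓞 E) α))).sum =
        (j : ZMod p) * lam ((Ideal.absNorm t.prod : ℕ) : ZMod r) ∧
      ((Ideal.absNorm t.prod : ℕ) : ZMod r) ≠ 0 := by
    intro t
    induction t using Multiset.induction_on with
    | empty =>
      intro _
      rw [Multiset.map_zero, Multiset.sum_zero, Multiset.prod_zero, Ideal.one_eq_top,
        Ideal.absNorm_top, Nat.cast_one, hlam1, mul_zero]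
      exact ⟨rfl, one_ne_zero⟩
    | cons 𝔓 t ih =>
      intro hmem
      obtain ⟨ih1, ih2⟩ := ih (fun 𝔔 h𝔔 => hmem 𝔔 (Multiset.mem_cons_of_mem h𝔔))
      obtain ⟨h𝔓, hle⟩ := (Ideal.mem_normalizedFactors_iff h𝔅).mp
        (hmem 𝔓 (Multiset.mem_cons_self 𝔓 t))
      have h0 : 𝔓 ≠ ⊥ := fun h => h𝔅 (le_bot_iff.mp (h ▸ hle))
      have hBr := ret_not_mem_of_sup_eq_top 𝔅 𝔓 _ h𝔓 hle hcop
      have hB𝔓 : (B : 𝓞 E) ∉ 𝔓 := by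
        intro h
        apply hBr
        rw [Nat.cast_mul]
        exact 𝔓.mul_mem_right _ h
      have hr𝔓 : (r : 𝓞 E) ∉ 𝔓 := by
        intro h
        apply hBr
        rw [Nat.cast_mul]
        exact 𝔓.mul_mem_left _ h
      have hN𝔓 : ((Ideal.absNorm 𝔓 : ℕ) : ZMod r) ≠ 0 := by
        rw [Ne, ZMod.natCast_eq_zero_iff]
        exact fun h => hcopr (h.trans (Ideal.absNorm_dvd_absNorm_of_le hle))
      have hs := ret_symb_prime hSpec p K E ζ α c hζ B r j lam hpB hαB hc hG θ hθ 𝔓 h𝔓 h0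
        hB𝔓 hr𝔓
      rw [Multiset.map_cons, Multiset.sum_cons, Multiset.prod_cons, map_mul, Nat.cast_mul,
        hlam _ _ hN𝔓 ih2, ih1, hs]
      exact ⟨by ring, mul_ne_zero hN𝔓 ih2⟩
  have h := key (normalizedFactors 𝔅) (fun _ h => h)
  rw [Ideal.prod_normalizedFactors_eq_self h𝔅] at h
  exact h

end Fermat.Agent.S14
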