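/-
S14, block RE (twin T), Step 3: the absolute norm of an integer of `E = K((α c^j)^{1/p})` is a
`p`-th power modulo `r`; hence principal ideals prime to `B · r` have trivial symbol.
-/
import Fermat.Agent.S14.REFieldT2

set_option autoImplicit false

open NumberField UniqueFactorizationMonoid

namespace Fermat.Agent.S14

/-- The Galois action on the ring of integers is the restriction of the action on the field. -/
theorem ret_coe_smul {F N : Type} [Field F] [Field N] [NumberField N] [Algebra F N]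
    (σ : N ≃ₐ[F] N) (x : 𝓞 N) : ((σ • x : 𝓞 N) : N) = σ (x : N) :=
  algebraMap.smul' σ x N

/-- (3b) If `x ∈ 𝓞 K` (`K/ℚ` Galois) is congruent to a `p`-th power of a rational integer modulo
every prime of `K` above `r`, then `N_{K/ℚ}(x)` is a `p`-th power modulo `r`. -/
theorem ret_norm_pow_mod (p : ℕ) (K : Type) [Field K] [NumberField K] [IsGalois ℚ K] (r : ℕ)
    (hr : r.Prime) (x : 𝓞 K)
    (hx : ∀ 𝔯 : Ideal (𝓞 K), 𝔯.IsPrime → (r : 𝓞 K) ∈ 𝔯 → ∃ n : ℤ, x - (n : 𝓞 K) ^ p ∈ 𝔯) :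
    ∃ m : ℤ, (r : ℤ) ∣ Algebra.norm ℤ x - m ^ p := by
  classical
  obtain ⟨𝔯₀, h𝔯₀max, hle⟩ := Ideal.exists_le_maximal _ (ret_span_prime_ne_top (F := K) r hr)
  have h𝔯₀ : 𝔯₀.IsPrime := h𝔯₀max.isPrime
  have hr𝔯₀ : (r : 𝓞 K) ∈ 𝔯₀ := hle (Ideal.subset_span rfl)
  have hprod : ((Algebra.norm ℤ x : ℤ) : 𝓞 K) = ∏ σ : K ≃ₐ[ℚ] K, σ • x := by
    apply RingOfIntegers.ext
    have h1 : (((Algebra.norm ℤ x : ℤ) : 𝓞 K) : K)
        = algebraMap ℚ K (Algebra.norm ℚ (x : K)) := by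
      rw [← Algebra.coe_norm_int]
      simp
    rw [h1, Algebra.norm_eq_prod_automorphisms]
    rw [show ((∏ σ : K ≃ₐ[ℚ] K, σ • x : 𝓞 K) : K) = ∏ σ : K ≃ₐ[ℚ] K, ((σ • x : 𝓞 K) : K) from
      map_prod (algebraMap (𝓞 K) K) _ _]
    exact Finset.prod_congr rfl fun σ _ => (ret_coe_smul σ x).symm
  have hσ : ∀ σ : K ≃ₐ[ℚ] K, ∃ n : ℤ, σ • x - (n : 𝓞 K) ^ p ∈ 𝔯₀ := by
    intro σ
    let f : 𝓞 K →+* 𝓞 K := MulSemiringAction.toRingHom (K ≃ₐ[ℚ] K) (𝓞 K) σ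
    have hprime : (𝔯₀.comap f).IsPrime := h𝔯₀.comap f
    have hmem : (r : 𝓞 K) ∈ 𝔯₀.comap f := by
      rw [Ideal.mem_comap, map_natCast]
      exact hr𝔯₀
    obtain ⟨n, hn⟩ := hx _ hprime hmem
    refine ⟨n, ?_⟩
    rw [Ideal.mem_comap, map_sub, map_pow, map_intCast] at hn
    exact hn
  choose n hn using hσ
  refine ⟨∏ σ, n σ, ?_⟩
  have hmem : ((Algebra.norm ℤ x - (∏ σ, n σ) ^ p : ℤ) : 𝓞 K) ∈ 𝔯₀ := by
    rw [← Ideal.Quotient.eq_zero_iff_mem]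
    push_cast
    rw [map_sub, hprod, map_prod, map_pow, map_prod, ← Finset.prod_pow, sub_eq_zero]
    refine Finset.prod_congr rfl fun σ _ => ?_
    rw [← map_pow]
    exact Ideal.Quotient.eq.mpr (hn σ)
  by_contra hndvd
  have hcop : IsCoprime (r : ℤ) (Algebra.norm ℤ x - (∏ σ, n σ) ^ p) :=
    (Nat.prime_iff_prime_int.mp hr).coprime_iff_not_dvd.mpr hndvd
  obtain ⟨u, v, huv⟩ := hcop
  apply h𝔯₀.ne_top
  rw [Ideal.eq_top_iff_one]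
  have h1 : (1 : 𝓞 K) = (u : 𝓞 K) * (r : 𝓞 K)
      + (v : 𝓞 K) * ((Algebra.norm ℤ x - (∏ σ, n σ) ^ p : ℤ) : 𝓞 K) := by
    have h := congrArg (fun z : ℤ => (z : 𝓞 K)) huv
    simp only [Int.cast_add, Int.cast_mul, Int.cast_natCast, Int.cast_one] at h
    exact h.symm
  rw [h1]
  exact 𝔯₀.add_mem (𝔯₀.mul_mem_left _ hr𝔯₀) (𝔯₀.mul_mem_left _ hmem)

/-- Above a prime `𝔯 ∣ r` of `K` with `p ∤ v_𝔯(a)` there is exactly one prime of `E = K(a^{1/p})`,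
and it has residue degree one. -/
theorem ret_unique_prime_above (hRam : KummerRamStatement) (hTri : PrimeTrichotomyStatement)
    (p : ℕ) [Fact p.Prime] (hp3 : 3 ≤ p) (K E : Type) [Field K] [NumberField K] [Field E]
    [NumberField E] [Algebra K E] [IsGalois K E] (ζ : K) (hζ : IsPrimitiveRoot ζ p)
    (hdeg : Module.finrank K E = p) (a : 𝓞 K) (y : E) (hy : y ^ p = algebraMap K E (a : K))
    (hyK : y ∉ Set.range (algebraMap K E)) (𝔯 : Ideal (𝓞 K)) (h𝔯 : 𝔯.IsPrime) (h𝔯0 : 𝔯 ≠ ⊥)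
    (hOrd : OrdNotDvd p 𝔯 a) :
    ∃ ℜ : Ideal (𝓞 E), 𝔯.primesOver (𝓞 E) = {ℜ} ∧ ℜ.inertiaDeg (𝓞 K) = 1 := by
  have h𝔯max : 𝔯.IsMaximal := h𝔯.isMaximal h𝔯0
  obtain ⟨ℜ₀, hℜ₀max, hℜ₀over⟩ :=
    Ideal.exists_maximal_ideal_liesOver_of_isIntegral (S := 𝓞 E) 𝔯
  have hmem₀ : ℜ₀ ∈ 𝔯.primesOver (𝓞 E) := ⟨hℜ₀max.isPrime, hℜ₀over⟩
  have he := hRam p K E ζ hζ hdeg a y hy hyK 𝔯 h𝔯 h𝔯0 hOrd ℜ₀ hmem₀
  rcases hTri p K E hdeg 𝔯 h𝔯 h𝔯0 with h | ⟨𝔔, hset, he', -⟩ | ⟨𝔔, hset, -, hf⟩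
  · have := (h.1 ℜ₀ hmem₀).1
    omega
  · rw [hset, Set.mem_singleton_iff] at hmem₀
    rw [hmem₀] at he
    omega
  · exact ⟨𝔔, hset, hf⟩

/-- (3a) The relative norm of an integer of `E` is congruent to the `p`-th power of a rational
integer modulo every prime `𝔯 ∣ r` of `K` with `p ∤ v_𝔯(a)`. -/
theorem ret_relnorm_pow_mod (hRam : KummerRamStatement) (hTri : PrimeTrichotomyStatement)
    (hCyc : CycloSplitStatement)
    (p : ℕ) [Fact p.Prime] (hp3 : 3 ≤ p) (K E : Type) [Field K] [NumberField K] [Field E]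
    [NumberField E] [Algebra K E] [IsCyclotomicExtension {p} ℚ K] [IsGalois K E]
    (ζ : K) (hζ : IsPrimitiveRoot ζ p)
    (hdeg : Module.finrank K E = p) (a : 𝓞 K) (y : E) (hy : y ^ p = algebraMap K E (a : K))
    (hyK : y ∉ Set.range (algebraMap K E)) (r : ℕ) (hr : r.Prime) (hrp : r % p = 1)
    (𝔯 : Ideal (𝓞 K)) (h𝔯 : 𝔯.IsPrime) (hr𝔯 : (r : 𝓞 K) ∈ 𝔯) (hOrd : OrdNotDvd p 𝔯 a)
    (β : 𝓞 E) : ∃ n : ℤ, RingOfIntegers.norm K β - (n : 𝓞 K) ^ p ∈ 𝔯 := by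
  classical
  have h𝔯0 : 𝔯 ≠ ⊥ := by
    rintro rfl
    have h : (r : 𝓞 K) = 0 := hr𝔯
    exact hr.ne_zero (by exact_mod_cast h)
  obtain ⟨ℜ, hset, hf⟩ :=
    ret_unique_prime_above hRam hTri p hp3 K E ζ hζ hdeg a y hy hyK 𝔯 h𝔯 h𝔯0 hOrd
  have hℜmem : ℜ ∈ 𝔯.primesOver (𝓞 E) := by rw [hset]; exact Set.mem_singleton ℜ
  have hℜprime : ℜ.IsPrime := hℜmem.1
  have hℜover : ℜ.LiesOver 𝔯 := hℜmem.2
  have hN𝔯 : Ideal.absNorm 𝔯 = r := (hCyc p hp3 K r hr hrp 𝔯 h𝔯 hr𝔯).1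
  have hNℜ : Ideal.absNorm ℜ = r := by
    have h := Ideal.absNorm_pow_inertiaDeg 𝔯 ℜ
    rw [hf, pow_one, hN𝔯] at h
    exact h.symm
  obtain ⟨n, hn⟩ := ret_exists_int_rep ℜ r hr hNℜ β
  -- every automorphism preserves `ℜ`
  have hstab : ∀ (σ : E ≃ₐ[K] E) (z : 𝓞 E), z ∈ ℜ → σ • z ∈ ℜ := by
    intro σ z hz
    let f : 𝓞 E →+* 𝓞 E := MulSemiringAction.toRingHom (E ≃ₐ[K] E) (𝓞 E) σ
    have hprime : (ℜ.comap f).IsPrime := hℜprime.comap f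
    have hover : (ℜ.comap f).LiesOver 𝔯 := by
      constructor
      ext x
      rw [Ideal.mem_of_liesOver ℜ 𝔯 x, Ideal.under_def, Ideal.mem_comap, Ideal.mem_comap]
      have hfx : f (algebraMap (𝓞 K) (𝓞 E) x) = algebraMap (𝓞 K) (𝓞 E) x := by
        apply RingOfIntegers.ext
        show ((σ • (algebraMap (𝓞 K) (𝓞 E) x) : 𝓞 E) : E) = _
        rw [ret_coe_smul]
        exact σ.commutes (x : K)
      rw [hfx]
    have hmem' : ℜ.comap f ∈ 𝔯.primesOver (𝓞 E) := ⟨hprime, hover⟩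
    rw [hset, Set.mem_singleton_iff] at hmem'
    have hz' : z ∈ ℜ.comap f := by rw [hmem']; exact hz
    exact hz'
  -- the norm as a product over the Galois group
  have hprod : algebraMap (𝓞 K) (𝓞 E) (RingOfIntegers.norm K β) = ∏ σ : E ≃ₐ[K] E, σ • β := by
    apply RingOfIntegers.ext
    rw [RingOfIntegers.coe_algebraMap_norm, Algebra.norm_eq_prod_automorphisms]
    rw [show ((∏ σ : E ≃ₐ[K] E, σ • β : 𝓞 E) : E) = ∏ σ : E ≃ₐ[K] E, ((σ • β : 𝓞 E) : E) from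
      map_prod (algebraMap (𝓞 E) E) _ _]
    exact Finset.prod_congr rfl fun σ _ => (ret_coe_smul σ β).symm
  refine ⟨n, ?_⟩
  rw [Ideal.mem_of_liesOver ℜ 𝔯, ← Ideal.Quotient.eq_zero_iff_mem, map_sub, map_sub, hprod,
    map_pow, map_intCast, map_prod, map_pow, sub_eq_zero]
  have hσ : ∀ σ : E ≃ₐ[K] E, Ideal.Quotient.mk ℜ (σ • β) = Ideal.Quotient.mk ℜ (n : 𝓞 E) := by
    intro σ
    rw [Ideal.Quotient.eq]
    have h := hstab σ _ hn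
    rw [smul_sub] at h
    have hn' : σ • (n : 𝓞 E) = (n : 𝓞 E) :=
      map_intCast (MulSemiringAction.toRingHom (E ≃ₐ[K] E) (𝓞 E) σ) n
    rwa [hn'] at h
  have hcard : Fintype.card (E ≃ₐ[K] E) = p := by
    rw [← Nat.card_eq_fintype_card, IsGalois.card_aut_eq_finrank, hdeg]
  rw [Finset.prod_congr rfl (fun σ _ => hσ σ), Finset.prod_const, Finset.card_univ, hcard]

/-- Transitivity: the absolute norm of `β ∈ 𝓞 E` is the absolute norm of its relative norm. -/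
theorem ret_norm_int_norm (K E : Type) [Field K] [NumberField K] [Field E] [NumberField E]
    [Algebra K E] (β : 𝓞 E) :
    Algebra.norm ℤ (RingOfIntegers.norm K β) = Algebra.norm ℤ β := by
  have h : ((Algebra.norm ℤ (RingOfIntegers.norm K β) : ℤ) : ℚ) = ((Algebra.norm ℤ β : ℤ) : ℚ) := by
    rw [Algebra.coe_norm_int, Algebra.coe_norm_int, RingOfIntegers.coe_norm, Algebra.norm_norm]
  exact_mod_cast h

/-- A root `θ` of `X ^ p - a` in `E`, for `a` not a `p`-th power in `K`, is not in `K`. -/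
theorem ret_root_not_mem_range (p : ℕ) (K E : Type) [Field K] [Field E] [Algebra K E]
    (a : K) (y : E) (hy : y ^ p = algebraMap K E a) (hnot : ∀ z : K, z ^ p ≠ a) :
    y ∉ Set.range (algebraMap K E) := by
  rintro ⟨z, hz⟩
  apply hnot z
  apply (algebraMap K E).injective
  rw [map_pow, hz, hy]

/-- The coercion to the field of a relation `θ ^ p = a` between integers. -/
theorem ret_coe_pow_eq (p : ℕ) (K E : Type) [Field K] [NumberField K] [Field E] [NumberField E]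
    [Algebra K E] (a : 𝓞 K) (θ : 𝓞 E) (hθ : θ ^ p = algebraMap (𝓞 K) (𝓞 E) a) :
    (θ : E) ^ p = algebraMap K E (a : K) := by
  have h := congrArg (fun z : 𝓞 E => (z : E)) hθ
  have h1 : ((θ ^ p : 𝓞 E) : E) = (θ : E) ^ p := map_pow (algebraMap (𝓞 E) E) θ p
  rw [← h1]
  exact h

/-- Step 3, main point: the absolute norm of every integer of `E` is a `p`-th power modulo `r`. -/
theorem ret_norm_int_pow_mod (hKG : KummerGaloisStatement) (hRam : KummerRamStatement)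
    (hTri : PrimeTrichotomyStatement) (hCyc : CycloSplitStatement)
    (p : ℕ) [Fact p.Prime] (hp3 : 3 ≤ p) (K E : Type) [Field K] [NumberField K] [Field E]
    [NumberField E] [Algebra K E] [IsCyclotomicExtension {p} ℚ K]
    (ζ : 𝓞 K) (hζ : IsPrimitiveRoot ζ p) (hdeg : Module.finrank K E = p) (a : 𝓞 K) (θ : 𝓞 E)
    (hθ : θ ^ p = algebraMap (𝓞 K) (𝓞 E) a) (r : ℕ) (hr : r.Prime) (hrp : r % p = 1)
    (hOrd : ∀ 𝔯 : Ideal (𝓞 K), 𝔯.IsPrime → (r : 𝓞 K) ∈ 𝔯 → OrdNotDvd p 𝔯 a) (β : 𝓞 E) :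
    ∃ m : ℤ, (r : ℤ) ∣ Algebra.norm ℤ β - m ^ p := by
  have hpp : p.Prime := Fact.out
  have hζK : IsPrimitiveRoot (ζ : K) p :=
    hζ.map_of_injective (f := algebraMap (𝓞 K) K) RingOfIntegers.coe_injective
  obtain ⟨𝔯₁, h𝔯₁max, hle⟩ := Ideal.exists_le_maximal _ (ret_span_prime_ne_top (F := K) r hr)
  have hr𝔯₁ : (r : 𝓞 K) ∈ 𝔯₁ := hle (Ideal.subset_span rfl)
  have h𝔯₁0 : 𝔯₁ ≠ ⊥ := by
    rintro rfl
    have h : (r : 𝓞 K) = 0 := hr𝔯₁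
    exact hr.ne_zero (by exact_mod_cast h)
  have hnotpow := ret_not_pow_of_ordNotDvd p hpp.pos 𝔯₁ h𝔯₁max.isPrime h𝔯₁0 a
    (hOrd 𝔯₁ h𝔯₁max.isPrime hr𝔯₁)
  have hy : (θ : E) ^ p = algebraMap K E (a : K) := ret_coe_pow_eq p K E a θ hθ
  have hyK : (θ : E) ∉ Set.range (algebraMap K E) :=
    ret_root_not_mem_range p K E (a : K) (θ : E) hy hnotpow
  obtain ⟨hgal, -⟩ := hKG p K E (ζ : K) hζK hdeg (a : K) (θ : E) hy hyK
  have : IsGalois ℚ K := IsCyclotomicExtension.isGalois {p} ℚ K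
  obtain ⟨m, hm⟩ := ret_norm_pow_mod p K r hr (RingOfIntegers.norm K β) (fun 𝔯 h𝔯 hr𝔯 =>
    ret_relnorm_pow_mod hRam hTri hCyc p hp3 K E (ζ : K) hζK hdeg a (θ : E) hy hyK r hr hrp
      𝔯 h𝔯 hr𝔯 (hOrd 𝔯 h𝔯 hr𝔯) β)
  rw [ret_norm_int_norm] at hm
  exact ⟨m, hm⟩

/-- Step 3: principal ideals prime to `B · r` have trivial symbol. -/
theorem ret_symbI_principal (hSpec : SymbSpecStatement) (hKG : KummerGaloisStatement)
    (hRam : KummerRamStatement) (hTri : PrimeTrichotomyStatement) (hCyc : CycloSplitStatement)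
    (p : ℕ) [Fact p.Prime] (hp3 : 3 ≤ p) (K E : Type) [Field K] [NumberField K] [Field E]
    [NumberField E] [Algebra K E] [IsCyclotomicExtension {p} ℚ K]
    (ζ α c : 𝓞 K) (hζ : IsPrimitiveRoot ζ p) (B r j : ℕ) (hr : r.Prime) (hrp : r % p = 1)
    (lam : ZMod r → ZMod p)
    (hlam : ∀ x y : ZMod r, x ≠ 0 → y ≠ 0 → lam (x * y) = lam x + lam y)
    (hlam0 : ∀ x : ZMod r, x ≠ 0 → (lam x = 0 ↔ ∃ z : ZMod r, z ^ p = x))
    (hpB : p ∣ B) (hαB : α ∣ (B : 𝓞 K)) (hc : c ∣ (r : 𝓞 K) ^ (p - 1))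
    (hG : ∀ 𝔅 : Ideal (𝓞 E), 𝔅.IsPrime → 𝔅 ≠ ⊥ → (p : 𝓞 E) ∉ 𝔅 → (r : 𝓞 E) ∉ 𝔅 →
        symb p (algebraMap (𝓞 K) (𝓞 E) ζ) (algebraMap (𝓞 K) (𝓞 E) c) 𝔅 =
          - lam ((Ideal.absNorm 𝔅 : ℕ) : ZMod r))
    (hdeg : Module.finrank K E = p)
    (θ : 𝓞 E) (hθ : θ ^ p = algebraMap (𝓞 K) (𝓞 E) (α * c ^ j))
    (hOrd : ∀ 𝔯 : Ideal (𝓞 K), 𝔯.IsPrime → (r : 𝓞 K) ∈ 𝔯 → OrdNotDvd p 𝔯 (α * c ^ j))
    (β : 𝓞 E) (hcop : Ideal.span {β} ⊔ Ideal.span {((B * r : ℕ) : 𝓞 E)} = ⊤) :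
    symbI p (algebraMap (𝓞 K) (𝓞 E) ζ) (algebraMap (𝓞 K) (𝓞 E) α) (Ideal.span {β}) = 0 := by
  have hpp : p.Prime := Fact.out
  by_cases hβ : β = 0
  · subst hβ
    unfold symbI
    rw [Set.singleton_zero, Ideal.span_zero, ← Ideal.zero_eq_bot, normalizedFactors_zero,
      Multiset.map_zero, Multiset.sum_zero]
  have hspan : Ideal.span {β} ≠ ⊥ := by
    rwa [Ne, Ideal.span_singleton_eq_bot]
  obtain ⟨h1, h2⟩ := ret_symbI_formula hSpec p K E ζ α c hζ B r j hr lam hlam hpB hαB hc hG θ hθ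
    (Ideal.span {β}) hspan hcop
  rw [h1]
  obtain ⟨m, hm⟩ := ret_norm_int_pow_mod hKG hRam hTri hCyc p hp3 K E ζ hζ hdeg (α * c ^ j) θ hθ
    r hr hrp hOrd β
  have hNm : ((Algebra.norm ℤ β : ℤ) : ZMod r) = (m : ZMod r) ^ p := by
    have h := (ZMod.intCast_zmod_eq_zero_iff_dvd _ r).mpr hm
    rw [Int.cast_sub, Int.cast_pow, sub_eq_zero] at h
    exact h
  have hpow : ∃ z : ZMod r, z ^ p = ((Ideal.absNorm (Ideal.span {β}) : ℕ) : ZMod r) := by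
    rw [Ideal.absNorm_span_singleton]
    rcases Int.natAbs_eq (Algebra.norm ℤ β) with h | h
    · refine ⟨(m : ZMod r), ?_⟩
      rw [← hNm]
      conv_lhs => rw [h]
      simp
    · refine ⟨-(m : ZMod r), ?_⟩
      have hodd : Odd p := hpp.odd_of_ne_two (by omega)
      rw [hodd.neg_pow, ← hNm]
      conv_lhs => rw [h]
      simp
  rw [(hlam0 _ h2).mpr hpow, mul_zero]

end Fermat.Agent.S14
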