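/-
S14, sub-block RE, package `Formula` (prefix `reform_`): the symbol formula (RE3).

In a field `E ⊇ K` in which `a = α * c ^ j` is a `p`-th power, the symbol of `α` at an ideal `𝔅`
prime to `B * r` equals `j * lam (N𝔅 mod r)`, and `N𝔅` is prime to `r`.

Proof: at a prime `𝔓 ∤ B r` the symbol of `a = θ ^ p` vanishes, so by multiplicativity
`symb α = - j * symb c = j * lam (N𝔓)`; then sum over the prime factors of `𝔅`, using that `lam` is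
additive on `(ℤ/r)ˣ` and that the absolute norm is multiplicative.
-/
import Fermat.Agent.S14.REInterfaces
import Fermat.Agent.S14.RSymbSpec
import Fermat.Agent.S14.RSymbI

set_option autoImplicit false

open NumberField

namespace Fermat.Agent.S14

/-- The absolute norm of a nonzero prime ideal not containing the rational prime `r` is prime
to `r`. -/
theorem reform_absNorm_ne_zero {E : Type} [Field E] [NumberField E] (r : ℕ) (hr : r.Prime)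
    (𝔓 : Ideal (𝓞 E)) (h𝔓 : 𝔓.IsPrime) (hne : 𝔓 ≠ ⊥) (hr𝔓 : (r : 𝓞 E) ∉ 𝔓) :
    ((Ideal.absNorm 𝔓 : ℕ) : ZMod r) ≠ 0 := by
  have : Fact r.Prime := ⟨hr⟩
  have : 𝔓.IsPrime := h𝔓
  have hfin : Finite (𝓞 E ⧸ 𝔓) := 𝔓.finiteQuotientOfFreeOfNeBot hne
  intro h0
  rw [ZMod.natCast_eq_zero_iff, Ideal.absNorm_apply, Submodule.cardQuot_apply] at h0
  obtain ⟨x, hx⟩ := exists_prime_addOrderOf_dvd_card' (G := 𝓞 E ⧸ 𝔓) r h0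
  have hx0 : x ≠ 0 := by
    rintro rfl
    rw [addOrderOf_zero] at hx
    exact hr.one_lt.ne hx
  have hrx : (r : 𝓞 E ⧸ 𝔓) * x = 0 := by
    rw [← nsmul_eq_mul, ← hx]
    exact addOrderOf_nsmul_eq_zero x
  rcases mul_eq_zero.mp hrx with h | h
  · apply hr𝔓
    rw [← Ideal.Quotient.eq_zero_iff_mem, map_natCast]
    exact h
  · exact hx0 h

/-- The symbol of `1` at a good prime is `0`. -/
theorem reform_symb_one (p : ℕ) [Fact p.Prime] {E : Type} [Field E] [NumberField E] (ζ : 𝓞 E)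
    (hζ : IsPrimitiveRoot ζ p) (𝔓 : Ideal (𝓞 E)) (h𝔓 : 𝔓.IsPrime) (hne : 𝔓 ≠ ⊥)
    (hp𝔓 : (p : 𝓞 E) ∉ 𝔓) : symb p ζ 1 𝔓 = 0 := by
  have h1 : (1 : 𝓞 E) ∉ 𝔓 := fun h => h𝔓.ne_top ((Ideal.eq_top_iff_one 𝔓).mpr h)
  have hspec := (rss_symbSpec p E ζ hζ 𝔓 h𝔓 hne hp𝔓).2 1 h1
  refine hspec.2.2.1.mpr ⟨1, ?_⟩
  rw [one_pow, sub_self]
  exact 𝔓.zero_mem

/-- The symbol of a power at a good prime. -/
theorem reform_symb_pow (p : ℕ) [Fact p.Prime] {E : Type} [Field E] [NumberField E] (ζ : 𝓞 E)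
    (hζ : IsPrimitiveRoot ζ p) (𝔓 : Ideal (𝓞 E)) (h𝔓 : 𝔓.IsPrime) (hne : 𝔓 ≠ ⊥)
    (hp𝔓 : (p : 𝓞 E) ∉ 𝔓) (b : 𝓞 E) (hb : b ∉ 𝔓) (j : ℕ) :
    symb p ζ (b ^ j) 𝔓 = (j : ZMod p) * symb p ζ b 𝔓 := by
  induction j with
  | zero =>
    rw [pow_zero, Nat.cast_zero, zero_mul]
    exact reform_symb_one p ζ hζ 𝔓 h𝔓 hne hp𝔓
  | succ n ih =>
    have hbn : b ^ n ∉ 𝔓 := fun h => hb (h𝔓.mem_of_pow_mem n h)
    have hspec := (rss_symbSpec p E ζ hζ 𝔓 h𝔓 hne hp𝔓).2 (b ^ n) hbn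
    rw [pow_succ, hspec.2.2.2 b hb, ih, Nat.cast_succ, add_mul, one_mul]

/-- Step 1: the formula at a prime `𝔓` not containing `B * r`. -/
theorem reform_prime (p : ℕ) [Fact p.Prime] (K E : Type) [Field K] [NumberField K] [Field E]
    [NumberField E] [Algebra K E] (ζ α c : 𝓞 K) (B r j : ℕ) (lam : ZMod r → ZMod p) (θ : 𝓞 E)
    (hζ : IsPrimitiveRoot ζ p) (hr : r.Prime) (hpB : p ∣ B) (hαB : α ∣ (B : 𝓞 K))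
    (hc : c ∣ (r : 𝓞 K) ^ (p - 1))
    (hsymb : ∀ 𝔅 : Ideal (𝓞 E), 𝔅.IsPrime → 𝔅 ≠ ⊥ → (p : 𝓞 E) ∉ 𝔅 → (r : 𝓞 E) ∉ 𝔅 →
        symb p (algebraMap (𝓞 K) (𝓞 E) ζ) (algebraMap (𝓞 K) (𝓞 E) c) 𝔅 =
          - lam ((Ideal.absNorm 𝔅 : ℕ) : ZMod r))
    (hθ : θ ^ p = algebraMap (𝓞 K) (𝓞 E) (α * c ^ j))
    (𝔓 : Ideal (𝓞 E)) (h𝔓 : 𝔓.IsPrime) (hne : 𝔓 ≠ ⊥) (hBr : ((B * r : ℕ) : 𝓞 E) ∉ 𝔓) :
    ((Ideal.absNorm 𝔓 : ℕ) : ZMod r) ≠ 0 ∧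
      symb p (algebraMap (𝓞 K) (𝓞 E) ζ) (algebraMap (𝓞 K) (𝓞 E) α) 𝔓 =
        (j : ZMod p) * lam ((Ideal.absNorm 𝔓 : ℕ) : ZMod r) := by
  have hζ' : IsPrimitiveRoot (algebraMap (𝓞 K) (𝓞 E) ζ) p :=
    hζ.map_of_injective (FaithfulSMul.algebraMap_injective (𝓞 K) (𝓞 E))
  -- elements outside `𝔓`
  have hB𝔓 : (B : 𝓞 E) ∉ 𝔓 := by
    intro h
    apply hBr
    rw [Nat.cast_mul]
    exact 𝔓.mul_mem_right _ h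
  have hr𝔓 : (r : 𝓞 E) ∉ 𝔓 := by
    intro h
    apply hBr
    rw [Nat.cast_mul]
    exact 𝔓.mul_mem_left _ h
  have hp𝔓 : (p : 𝓞 E) ∉ 𝔓 := by
    intro h
    apply hB𝔓
    obtain ⟨k, rfl⟩ := hpB
    rw [Nat.cast_mul]
    exact 𝔓.mul_mem_right _ h
  have hα𝔓 : algebraMap (𝓞 K) (𝓞 E) α ∉ 𝔓 := by
    intro h
    apply hB𝔓
    have hdvd : algebraMap (𝓞 K) (𝓞 E) α ∣ (B : 𝓞 E) := by
      have := map_dvd (algebraMap (𝓞 K) (𝓞 E)) hαB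
      rwa [map_natCast] at this
    exact 𝔓.mem_of_dvd hdvd h
  have hc𝔓 : algebraMap (𝓞 K) (𝓞 E) c ∉ 𝔓 := by
    intro h
    apply hr𝔓
    have hdvd : algebraMap (𝓞 K) (𝓞 E) c ∣ (r : 𝓞 E) ^ (p - 1) := by
      have := map_dvd (algebraMap (𝓞 K) (𝓞 E)) hc
      rwa [map_pow, map_natCast] at this
    exact h𝔓.mem_of_pow_mem _ (𝔓.mem_of_dvd hdvd h)
  have hcj𝔓 : algebraMap (𝓞 K) (𝓞 E) c ^ j ∉ 𝔓 := fun h => hc𝔓 (h𝔓.mem_of_pow_mem j h)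
  have hN : ((Ideal.absNorm 𝔓 : ℕ) : ZMod r) ≠ 0 := reform_absNorm_ne_zero r hr 𝔓 h𝔓 hne hr𝔓
  refine ⟨hN, ?_⟩
  have hspecα := (rss_symbSpec p E _ hζ' 𝔓 h𝔓 hne hp𝔓).2 (algebraMap (𝓞 K) (𝓞 E) α) hα𝔓
  have hmul := hspecα.2.2.2 (algebraMap (𝓞 K) (𝓞 E) c ^ j) hcj𝔓
  have ha𝔓 : algebraMap (𝓞 K) (𝓞 E) α * algebraMap (𝓞 K) (𝓞 E) c ^ j ∉ 𝔓 :=
    fun h => (h𝔓.mem_or_mem h).elim hα𝔓 hcj𝔓
  have hspeca := (rss_symbSpec p E _ hζ' 𝔓 h𝔓 hne hp𝔓).2 _ ha𝔓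
  have hzero : symb p (algebraMap (𝓞 K) (𝓞 E) ζ)
      (algebraMap (𝓞 K) (𝓞 E) α * algebraMap (𝓞 K) (𝓞 E) c ^ j) 𝔓 = 0 := by
    refine hspeca.2.2.1.mpr ⟨θ, ?_⟩
    rw [hθ, map_mul, map_pow, sub_self]
    exact 𝔓.zero_mem
  rw [hzero, reform_symb_pow p _ hζ' 𝔓 h𝔓 hne hp𝔓 _ hc𝔓 j, hsymb 𝔓 h𝔓 hne hp𝔓 hr𝔓] at hmul
  -- `0 = symb α + j * (- lam N)`
  have := eq_neg_of_add_eq_zero_left hmul.symm
  rw [this, mul_neg, neg_neg]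

/-- Step 2: the formula for a multiset of primes not containing `B * r`. -/
theorem reform_multiset (p : ℕ) [Fact p.Prime] (K E : Type) [Field K] [NumberField K] [Field E]
    [NumberField E] [Algebra K E] (ζ α c : 𝓞 K) (B r j : ℕ) (lam : ZMod r → ZMod p) (θ : 𝓞 E)
    (hζ : IsPrimitiveRoot ζ p) (hr : r.Prime) (hpB : p ∣ B) (hαB : α ∣ (B : 𝓞 K))
    (hc : c ∣ (r : 𝓞 K) ^ (p - 1))
    (hlam : ∀ x y : ZMod r, x ≠ 0 → y ≠ 0 → lam (x * y) = lam x + lam y)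
    (hsymb : ∀ 𝔅 : Ideal (𝓞 E), 𝔅.IsPrime → 𝔅 ≠ ⊥ → (p : 𝓞 E) ∉ 𝔅 → (r : 𝓞 E) ∉ 𝔅 →
        symb p (algebraMap (𝓞 K) (𝓞 E) ζ) (algebraMap (𝓞 K) (𝓞 E) c) 𝔅 =
          - lam ((Ideal.absNorm 𝔅 : ℕ) : ZMod r))
    (hθ : θ ^ p = algebraMap (𝓞 K) (𝓞 E) (α * c ^ j))
    (s : Multiset (Ideal (𝓞 E)))
    (hs : ∀ 𝔓 ∈ s, 𝔓.IsPrime ∧ 𝔓 ≠ ⊥ ∧ ((B * r : ℕ) : 𝓞 E) ∉ 𝔓) :
    ((Ideal.absNorm s.prod : ℕ) : ZMod r) ≠ 0 ∧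
      (s.map (symb p (algebraMap (𝓞 K) (𝓞 E) ζ) (algebraMap (𝓞 K) (𝓞 E) α))).sum =
        (j : ZMod p) * lam ((Ideal.absNorm s.prod : ℕ) : ZMod r) := by
  have : Fact r.Prime := ⟨hr⟩
  have hlam1 : lam 1 = 0 := by
    have h := hlam 1 1 one_ne_zero one_ne_zero
    rw [mul_one] at h
    exact left_eq_add.mp h
  induction s using Multiset.induction_on with
  | empty =>
    rw [Multiset.prod_zero, map_one, Nat.cast_one, Multiset.map_zero, Multiset.sum_zero, hlam1,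
      mul_zero]
    exact ⟨one_ne_zero, rfl⟩
  | cons 𝔓 t ih =>
    obtain ⟨h𝔓, hne, hBr⟩ := hs 𝔓 (Multiset.mem_cons_self 𝔓 t)
    obtain ⟨hN𝔓, hS𝔓⟩ := reform_prime p K E ζ α c B r j lam θ hζ hr hpB hαB hc hsymb hθ 𝔓 h𝔓
      hne hBr
    obtain ⟨hNt, hSt⟩ := ih (fun 𝔔 h𝔔 => hs 𝔔 (Multiset.mem_cons_of_mem h𝔔))
    rw [Multiset.prod_cons, map_mul, Nat.cast_mul, Multiset.map_cons, Multiset.sum_cons,
      hlam _ _ hN𝔓 hNt, hS𝔓, hSt, mul_add]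
    exact ⟨mul_ne_zero hN𝔓 hNt, rfl⟩

/-- (RE3) Symbol formula. -/
theorem reform_formula : REFormulaStatement := by
  intro p _ K E _ _ _ _ _ ζ α c B r j lam θ hζ hr hpB hαB hc hlam hsymb hθ 𝔅 h𝔅 hcop
  have hs : ∀ 𝔓 ∈ UniqueFactorizationMonoid.normalizedFactors 𝔅,
      𝔓.IsPrime ∧ 𝔓 ≠ ⊥ ∧ ((B * r : ℕ) : 𝓞 E) ∉ 𝔓 := by
    intro 𝔓 hmem
    have hprime : Prime 𝔓 := UniqueFactorizationMonoid.prime_of_normalized_factor 𝔓 hmem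
    obtain ⟨h𝔓, hle⟩ := (Ideal.mem_normalizedFactors_iff h𝔅).mp hmem
    refine ⟨h𝔓, hprime.ne_zero, fun hBr => h𝔓.ne_top ?_⟩
    rw [eq_top_iff, ← hcop]
    exact sup_le hle ((Ideal.span_singleton_le_iff_mem 𝔓).mpr hBr)
  have key := reform_multiset p K E ζ α c B r j lam θ hζ hr hpB hαB hc hlam hsymb hθ
    (UniqueFactorizationMonoid.normalizedFactors 𝔅) hs
  rw [Ideal.prod_normalizedFactors_eq_self h𝔅] at key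
  exact key

end Fermat.Agent.S14
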