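/-
S14, sub-block RE, package NotPow (twin T, prefix `renotpt_`): `RENotPowStatement`.

`α` is not a `p`-th power in `E = K(a^{1/p})`.  First, `α` is not a `p`-th power in `K`:
`L` contains a `p`-th root `θ` of `α` outside `K`, and if `w ^ p = α` with `w ∈ K`, then
`θ = ζ ^ i * w ∈ K` for some `i`.  The rest is the landed compositum lemma `rlc_compositum`
(with `F := K`, `N := E`, `b := α`), fed with the landed `rlo_notPow`.
-/
import Fermat.Agent.S14.REInterfaces
import Fermat.Agent.S14.RLComp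
import Fermat.Agent.S14.RLOrd

set_option autoImplicit false

open NumberField

namespace Fermat.Agent.S14

/-- If `K` contains a primitive `p`-th root of unity and some extension `L ⊇ K` contains a
`p`-th root `θ` of `x ∈ K` which does not lie in `K`, then `x` is not a `p`-th power in `K`. -/
theorem renotpt_not_pow_of_root_not_mem {K L : Type*} [Field K] [Field L] [Algebra K L] {p : ℕ}
    (hp : 0 < p) {ζ : K} (hζ : IsPrimitiveRoot ζ p) {x : K} {θ : L}
    (hθ : θ ^ p = algebraMap K L x) (hθK : θ ∉ Set.range (algebraMap K L)) (w : K) :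
    w ^ p ≠ x := by
  intro hw
  apply hθK
  have hζL : IsPrimitiveRoot (algebraMap K L ζ) p :=
    hζ.map_of_injective (algebraMap K L).injective
  by_cases hw0 : w = 0
  · subst hw0
    rw [zero_pow hp.ne'] at hw
    subst hw
    rw [map_zero] at hθ
    refine ⟨0, ?_⟩
    rw [map_zero]
    exact ((pow_eq_zero_iff hp.ne').mp hθ).symm
  · have hwL : algebraMap K L w ≠ 0 := (map_ne_zero (algebraMap K L)).mpr hw0
    have h1 : (θ / algebraMap K L w) ^ p = 1 := by
      rw [div_pow, hθ, ← hw, map_pow, div_self (pow_ne_zero _ hwL)]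
    have : NeZero p := ⟨hp.ne'⟩
    obtain ⟨i, -, hi⟩ := hζL.eq_pow_of_pow_eq_one h1
    refine ⟨ζ ^ i * w, ?_⟩
    rw [map_mul, map_pow, hi, div_mul_cancel₀ _ hwL]

/-- (RE8) `α` is not a `p`-th power in `E = K(a^{1/p})`. -/
theorem renotpt_main : RENotPowStatement := by
  intro p _ K L E _ _ _ _ _ _ _ _ ζ α a hζ hdeg hL y hy _ 𝔯 h𝔯 h𝔯0 hp𝔯 hα𝔯 hord
  obtain ⟨θ, hθ, hθK⟩ := hL
  have hαK : ∀ w : K, w ^ p ≠ (α : K) :=
    renotpt_not_pow_of_root_not_mem (Fact.out : p.Prime).pos hζ hθ hθK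
  exact rlc_compositum rlo_notPow p K E ζ hζ hdeg a α y hy 𝔯 h𝔯 h𝔯0 hp𝔯 hα𝔯 hord hαK

end Fermat.Agent.S14
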