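/-
S14, block RG (Gauss sums; sub-block of block R): FROZEN definitions and interfaces.
Owner: helper191.  Do not edit.  Conventions as in Interfaces.lean / RInterfaces.lean.
Mathematics: database rows 'S14/block-RG' and 'S14/RG/…'.

Deliverable of the block (file RGMain.lean):
  `rg_gaussElement : SymbSpecStatement → CycloSplitStatement → GaussElementStatement`.
-/
import Fermat.Agent.S14.RInterfaces

set_option autoImplicit false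

open NumberField

namespace Fermat.Agent.S14

/-- The element `χ(-1) · r · ∏_{i=1}^{p-2} J(χ, χ^i)` attached to a multiplicative character `χ`
of `ℤ/r` with values in a commutative ring `R` (it equals `g(χ)^p` when `χ` has order `p`;
`J` is Mathlib's `jacobiSum`). -/
noncomputable def rg_c (p : ℕ) {r : ℕ} [Fact r.Prime] {R : Type} [CommRing R]
    (χ : MulChar (ZMod r) R) : R :=
  χ (-1) * (r : R) * ∏ i ∈ Finset.Ico 1 (p - 1), jacobiSum χ (χ ^ i)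

/-- (RG-A) Existence of a character `χ` of `(ℤ/r)ˣ` of exact order `p` with values in `⟨ζ⟩`,
together with its "logarithm" `lam` (`χ x = ζ ^ lam x`). -/
def RGCharStatement : Prop :=
  ∀ (p : ℕ) [Fact p.Prime] (r : ℕ) [Fact r.Prime], r % p = 1 →
  ∀ (R : Type) [CommRing R] [IsDomain R] (ζ : R), IsPrimitiveRoot ζ p →
    ∃ (χ : MulChar (ZMod r) R) (lam : ZMod r → ZMod p),
      orderOf χ = p ∧
      (∀ x : ZMod r, x ≠ 0 → χ x = ζ ^ (lam x).val) ∧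
      (∀ x y : ZMod r, x ≠ 0 → y ≠ 0 → lam (x * y) = lam x + lam y) ∧
      (∀ x : ZMod r, x ≠ 0 → (lam x = 0 ↔ ∃ z : ZMod r, z ^ p = x))

/-- (RG-B1) `r ∣ c ∣ r ^ (p - 1)` for `c = rg_c p χ`, `χ` of order `p` with values in `𝓞 K`. -/
def RGDivStatement : Prop :=
  ∀ (p : ℕ) [Fact p.Prime] (K : Type) [Field K] [NumberField K]
    (r : ℕ) [Fact r.Prime] (χ : MulChar (ZMod r) (𝓞 K)), orderOf χ = p →
    (r : 𝓞 K) ∣ rg_c p χ ∧ rg_c p χ ∣ (r : 𝓞 K) ^ (p - 1)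

/-- (RG-B2) If `r ∈ 𝔯 ∖ 𝔯²` and `r ∣ c ∣ r ^ (p - 1)` then the exact power of `𝔯` dividing `c`
is between `1` and `p - 1`. -/
def RGValStatement : Prop :=
  ∀ (p : ℕ) (K : Type) [Field K] [NumberField K] (r : ℕ) (c : 𝓞 K) (𝔯 : Ideal (𝓞 K)),
    2 ≤ p → 𝔯.IsPrime → (r : 𝓞 K) ∈ 𝔯 → (r : 𝓞 K) ∉ 𝔯 ^ 2 →
    (r : 𝓞 K) ∣ c → c ∣ (r : 𝓞 K) ^ (p - 1) →
    ∃ n : ℕ, 1 ≤ n ∧ n < p ∧ c ∈ 𝔯 ^ n ∧ c ∉ 𝔯 ^ (n + 1)

/-- (RG-C) Gauss-sum congruence in a finite field `k` with `r ≠ 0` in `k`: for a character `χ`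
of `(ℤ/r)ˣ` of order `p` with values in `k`,  `χ(#k) · c(χ) ^ ((#k - 1) / p) = 1`
(because `c(χ) = g ^ p` and `g ^ #k = χ(#k)⁻¹ · g` for the Gauss sum `g` of `χ` in `k(ζ_r)`). -/
def RGFrobStatement : Prop :=
  ∀ (p : ℕ) [Fact p.Prime] (r : ℕ) [Fact r.Prime] (k : Type) [Field k] [Finite k]
    (χ : MulChar (ZMod r) k), orderOf χ = p → (r : k) ≠ 0 → p ∣ Nat.card k - 1 →
    χ ((Nat.card k : ℕ) : ZMod r) * rg_c p χ ^ ((Nat.card k - 1) / p) = 1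

/-- (RG-D) The symbol of `c = rg_c p χ` at a prime `𝔅 ∤ p r` of a number field `E ⊇ K` is
`- lam (N𝔅)`, for `χ = ζ ^ lam` of order `p`. -/
def RGSymbolStatement : Prop :=
  ∀ (p : ℕ) [Fact p.Prime] (K : Type) [Field K] [NumberField K] (ζ : 𝓞 K),
    IsPrimitiveRoot ζ p →
  ∀ (r : ℕ) [Fact r.Prime] (χ : MulChar (ZMod r) (𝓞 K)) (lam : ZMod r → ZMod p),
    orderOf χ = p → (∀ x : ZMod r, x ≠ 0 → χ x = ζ ^ (lam x).val) →
  ∀ (E : Type) [Field E] [NumberField E] [Algebra K E] (𝔅 : Ideal (𝓞 E)),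
    𝔅.IsPrime → 𝔅 ≠ ⊥ → (p : 𝓞 E) ∉ 𝔅 → (r : 𝓞 E) ∉ 𝔅 →
    symb p (algebraMap (𝓞 K) (𝓞 E) ζ) (algebraMap (𝓞 K) (𝓞 E) (rg_c p χ)) 𝔅 =
      - lam ((Ideal.absNorm 𝔅 : ℕ) : ZMod r)

end Fermat.Agent.S14
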