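/-
S14, block RG, package `Char` (twin A, prefix `rgca_`): existence of a multiplicative character
`χ` of `ℤ/r` of exact order `p` with values in `⟨ζ⟩`, together with its "logarithm" `lam`
(`χ x = ζ ^ lam x`), for primes `p`, `r` with `r ≡ 1 mod p`.

`χ` comes from `MulChar.exists_mulChar_orderOf`; `lam` is chosen with
`MulChar.exists_apply_eq_pow`; the `p`-th power criterion uses a generator of `(ℤ/r)ˣ`.
-/
import Fermat.Agent.S14.RGInterfaces

set_option autoImplicit false

namespace Fermat.Agent.S14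

/-- For a primitive `p`-th root of unity `ζ` (`p` positive), `ζ ^ a = ζ ^ b` forces
`a = b` in `ZMod p`. -/
theorem rgca_natCast_eq_of_pow_eq {R : Type*} [CommRing R] [IsDomain R] {p : ℕ} (hp : 0 < p)
    {ζ : R} (hζ : IsPrimitiveRoot ζ p) {a b : ℕ} (h : ζ ^ a = ζ ^ b) :
    (a : ZMod p) = (b : ZMod p) := by
  have hfin : IsOfFinOrder ζ := isOfFinOrder_iff_pow_eq_one.mpr ⟨p, hp, hζ.pow_eq_one⟩
  rw [hfin.pow_eq_pow_iff_modEq, ← hζ.eq_orderOf] at h
  exact (ZMod.natCast_eq_natCast_iff _ _ _).mpr h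

/-- (RG-A) Existence of a character `χ` of `(ℤ/r)ˣ` of exact order `p` with values in `⟨ζ⟩`,
together with its "logarithm" `lam`. -/
theorem rgca_char : RGCharStatement := by
  intro p hp r hr hrp R _ _ ζ hζ
  classical
  have hprime : p.Prime := hp.out
  have : NeZero p := ⟨hprime.ne_zero⟩
  have hcard : Fintype.card (ZMod r) = r := ZMod.card r
  have hdvd : p ∣ Fintype.card (ZMod r) - 1 := by
    rw [hcard]
    have h1 : (r - 1) % p = 0 := by
      have h2 : r = p * (r / p) + 1 := by
        have := Nat.div_add_mod r p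
        omega
      have h3 : r - 1 = p * (r / p) := by omega
      rw [h3]
      exact Nat.mul_mod_right _ _
    exact Nat.dvd_of_mod_eq_zero h1
  obtain ⟨χ, hχ⟩ := MulChar.exists_mulChar_orderOf (ZMod r) hdvd hζ
  have hχp : χ ^ p = 1 := by
    rw [← hχ]
    exact pow_orderOf_eq_one χ
  have hex : ∀ x : ZMod r, x ≠ 0 → ∃ k < p, χ x = ζ ^ k :=
    fun x hx => MulChar.exists_apply_eq_pow hχp hζ hx
  let lam : ZMod r → ZMod p :=
    fun x => if hx : x ≠ 0 then (((hex x hx).choose : ℕ) : ZMod p) else 0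
  have hlam : ∀ x : ZMod r, x ≠ 0 → χ x = ζ ^ (lam x).val := by
    intro x hx
    have h := (hex x hx).choose_spec
    have hl : lam x = (((hex x hx).choose : ℕ) : ZMod p) := dif_pos hx
    rw [hl, ZMod.val_cast_of_lt h.1]
    exact h.2
  have hkey : ∀ a b : ℕ, ζ ^ a = ζ ^ b → (a : ZMod p) = (b : ZMod p) :=
    fun a b h => rgca_natCast_eq_of_pow_eq hprime.pos hζ h
  refine ⟨χ, lam, hχ, hlam, ?_, ?_⟩
  · -- additivity
    intro x y hx hy
    have hxy : x * y ≠ 0 := mul_ne_zero hx hy
    have h1 : ζ ^ (lam (x * y)).val = ζ ^ ((lam x).val + (lam y).val) := by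
      rw [← hlam _ hxy, map_mul, hlam x hx, hlam y hy, pow_add]
    have h2 := hkey _ _ h1
    rw [ZMod.natCast_zmod_val] at h2
    rw [h2, Nat.cast_add, ZMod.natCast_zmod_val, ZMod.natCast_zmod_val]
  · -- `p`-th power criterion
    intro x hx
    constructor
    · intro h0
      have hχx : χ x = 1 := by
        rw [hlam x hx, h0, ZMod.val_zero, pow_zero]
      obtain ⟨g, hg⟩ := IsCyclic.exists_generator (α := (ZMod r)ˣ)
      have hg0 : (g : ZMod r) ≠ 0 := g.ne_zero
      -- `lam g ≠ 0`, as otherwise `χ = 1`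
      have hlg : lam (g : ZMod r) ≠ 0 := by
        intro h
        have hχg : χ (g : ZMod r) = 1 := by
          rw [hlam _ hg0, h, ZMod.val_zero, pow_zero]
        have hχ1 : χ = 1 := by
          rw [MulChar.eq_iff hg, hχg, MulChar.one_apply_coe]
        rw [hχ1, orderOf_one] at hχ
        exact hprime.one_lt.ne hχ
      obtain ⟨j, hj⟩ : Units.mk0 x hx ∈ Submonoid.powers g := by
        rw [mem_powers_iff_mem_zpowers]
        exact hg _
      have hxj : x = (g : ZMod r) ^ j := by
        have := congrArg (fun u : (ZMod r)ˣ => (u : ZMod r)) hj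
        simp only [Units.val_pow_eq_pow_val, Units.val_mk0] at this
        exact this.symm
      have h1 : ζ ^ ((lam (g : ZMod r)).val * j) = ζ ^ 0 := by
        rw [pow_mul, ← hlam _ hg0, ← map_pow, ← hxj, hχx, pow_zero]
      have h2 := hkey _ _ h1
      rw [Nat.cast_mul, ZMod.natCast_zmod_val, Nat.cast_zero] at h2
      have h3 : (j : ZMod p) = 0 := by
        rcases mul_eq_zero.mp h2 with h | h
        · exact absurd h hlg
        · exact h
      obtain ⟨j', rfl⟩ := (ZMod.natCast_eq_zero_iff j p).mp h3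
      refine ⟨(g : ZMod r) ^ j', ?_⟩
      rw [hxj, ← pow_mul, mul_comm]
    · rintro ⟨z, rfl⟩
      have hz : z ≠ 0 := by
        rintro rfl
        exact hx (zero_pow hprime.ne_zero)
      have h1 : ζ ^ (lam (z ^ p)).val = ζ ^ 0 := by
        rw [← hlam _ hx, map_pow, hlam z hz, ← pow_mul, mul_comm, pow_mul, hζ.pow_eq_one,
          one_pow, pow_zero]
      have h2 := hkey _ _ h1
      rw [ZMod.natCast_zmod_val, Nat.cast_zero] at h2
      exact h2

end Fermat.Agent.S14
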