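/-
S14, block RG, package Char (twin B):  `rgcb_char : RGCharStatement`.

Direct construction.  The unit group `(ℤ/r)ˣ` is cyclic of order `r - 1`, and `p ∣ r - 1`; a
generator `g` gives the homomorphism `φ : (ℤ/r)ˣ → ℤ/p`, `g ↦ 1` ("discrete logarithm mod `p`"),
which is onto and whose kernel is the group of `p`-th powers.  Then `lam x = φ x` and
`χ x = ζ ^ lam x`.
-/
import Fermat.Agent.S14.RGInterfaces

set_option autoImplicit false

namespace Fermat.Agent.S14

/-- In `Multiplicative (ZMod p)` every `p`-th power is trivial. -/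
theorem rgcb_pow_eq_one (p : ℕ) (x : Multiplicative (ZMod p)) : x ^ p = 1 := by
  apply Multiplicative.toAdd.injective
  rw [toAdd_pow, toAdd_one, nsmul_eq_mul, ZMod.natCast_self, zero_mul]

/-- A cyclic group `G` whose order is divisible by the prime `p` has a homomorphism onto `ℤ/p`
("logarithm mod `p`") whose kernel is exactly the set of `p`-th powers. -/
theorem rgcb_exists_log (G : Type) [Group G] [IsCyclic G] (p : ℕ) [Fact p.Prime]
    (h : p ∣ Nat.card G) :
    ∃ φ : G →* Multiplicative (ZMod p), (∃ g : G, φ g = Multiplicative.ofAdd 1) ∧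
      ∀ u : G, φ u = 1 ↔ ∃ v : G, v ^ p = u := by
  obtain ⟨g, hg⟩ := IsCyclic.exists_generator (α := G)
  have hord : orderOf g = Nat.card G := orderOf_eq_card_of_forall_mem_zpowers hg
  have hord' : orderOf (Multiplicative.ofAdd (1 : ZMod p)) = p := by
    rw [orderOf_ofAdd_eq_addOrderOf, ZMod.addOrderOf_one]
  have hdvd : orderOf (Multiplicative.ofAdd (1 : ZMod p)) ∣ orderOf g := by
    rw [hord', hord]; exact h
  refine ⟨monoidHomOfForallMemZpowers hg hdvd,
    ⟨g, monoidHomOfForallMemZpowers_apply_gen hg hdvd⟩, ?_⟩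
  intro u
  constructor
  · intro hu
    obtain ⟨k, rfl⟩ := Subgroup.mem_zpowers_iff.mp (hg u)
    rw [map_zpow, monoidHomOfForallMemZpowers_apply_gen] at hu
    have hk : (p : ℤ) ∣ k := by
      rw [← hord']; exact orderOf_dvd_iff_zpow_eq_one.mpr hu
    obtain ⟨j, rfl⟩ := hk
    exact ⟨g ^ j, by rw [← zpow_natCast, ← zpow_mul, mul_comm]⟩
  · rintro ⟨v, rfl⟩
    rw [map_pow]
    exact rgcb_pow_eq_one p _

/-- (RG-A) Existence of a character of `(ℤ/r)ˣ` of exact order `p` with values in `⟨ζ⟩` and its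
logarithm. -/
theorem rgcb_char : RGCharStatement := by
  intro p _ r _ hr R _ _ ζ hζ
  have hp : p.Prime := Fact.out
  have hp0 : p ≠ 0 := hp.ne_zero
  have : Fact (1 < p) := ⟨hp.one_lt⟩
  have hcard : Nat.card (ZMod r)ˣ = r - 1 := by
    rw [Nat.card_eq_fintype_card, ZMod.card_units]
  have hdvd : p ∣ Nat.card (ZMod r)ˣ := by
    rw [hcard]
    have h1 := Nat.dvd_sub_mod (n := p) r
    rwa [hr] at h1
  obtain ⟨φ, ⟨g, hg⟩, hker⟩ := rgcb_exists_log (ZMod r)ˣ p hdvd
  -- `ζ` as a unit of `R`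
  obtain ⟨ζu, hζu⟩ : ∃ ζu : Rˣ, (ζu : R) = ζ := hζ.isUnit hp0
  have hζu_pow : ζu ^ p = 1 := by
    apply Units.ext
    rw [Units.val_pow_eq_pow_val, hζu, hζ.pow_eq_one, Units.val_one]
  -- the homomorphism `a ↦ ζ ^ a` from `ℤ/p` to `Rˣ`
  let ψ : Multiplicative (ZMod p) →* Rˣ :=
    { toFun := fun a => ζu ^ (Multiplicative.toAdd a).val
      map_one' := by rw [toAdd_one, ZMod.val_zero, pow_zero]
      map_mul' := fun a b => by
        rw [toAdd_mul, ← pow_add, ZMod.val_add, ← pow_eq_pow_mod _ hζu_pow] }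
  have hψ : ∀ a : Multiplicative (ZMod p), ((ψ a : Rˣ) : R) = ζ ^ (Multiplicative.toAdd a).val := by
    intro a
    show ((ζu ^ (Multiplicative.toAdd a).val : Rˣ) : R) = _
    rw [Units.val_pow_eq_pow_val, hζu]
  let lam : ZMod r → ZMod p := fun x =>
    if hx : x ≠ 0 then Multiplicative.toAdd (φ (Units.mk0 x hx)) else 0
  have hlam : ∀ (x : ZMod r) (hx : x ≠ 0), lam x = Multiplicative.toAdd (φ (Units.mk0 x hx)) := by
    intro x hx
    exact dif_pos hx
  have hχ : ∀ u : (ZMod r)ˣ, MulChar.ofUnitHom (ψ.comp φ) (u : ZMod r)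
      = ζ ^ (Multiplicative.toAdd (φ u)).val := by
    intro u
    rw [MulChar.ofUnitHom_coe, MonoidHom.comp_apply, hψ]
  refine ⟨MulChar.ofUnitHom (ψ.comp φ), lam, ?_, ?_, ?_, ?_⟩
  · -- the order of `χ` is `p`
    apply orderOf_eq_prime
    · apply MulChar.ext
      intro u
      rw [MulChar.pow_apply_coe, MulChar.one_apply_coe, hχ, ← pow_mul, mul_comm, pow_mul,
        hζ.pow_eq_one, one_pow]
    · intro h1
      have h2 := hχ g
      rw [h1, MulChar.one_apply_coe, hg, toAdd_ofAdd, ZMod.val_one, pow_one] at h2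
      exact hζ.ne_one hp.one_lt h2.symm
  · -- `χ x = ζ ^ lam x`
    intro x hx
    have h2 := hχ (Units.mk0 x hx)
    rw [Units.val_mk0] at h2
    rw [h2, hlam x hx]
  · -- additivity of `lam`
    intro x y hx hy
    rw [hlam x hx, hlam y hy, hlam (x * y) (mul_ne_zero hx hy), Units.mk0_mul, map_mul, toAdd_mul]
  · -- the kernel of `lam` consists of the `p`-th powers
    intro x hx
    rw [hlam x hx]
    constructor
    · intro h0
      have h1 : φ (Units.mk0 x hx) = 1 := by
        apply Multiplicative.toAdd.injective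
        rw [h0, toAdd_one]
      obtain ⟨v, hv⟩ := (hker _).mp h1
      refine ⟨(v : ZMod r), ?_⟩
      rw [← Units.val_pow_eq_pow_val, hv, Units.val_mk0]
    · rintro ⟨z, hz⟩
      have hz0 : z ≠ 0 := by
        rintro rfl
        rw [zero_pow hp0] at hz
        exact hx hz.symm
      have h1 : φ (Units.mk0 x hx) = 1 := by
        apply (hker _).mpr
        refine ⟨Units.mk0 z hz0, ?_⟩
        apply Units.ext
        rw [Units.val_pow_eq_pow_val, Units.val_mk0, Units.val_mk0, hz]
      rw [h1, toAdd_one]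

end Fermat.Agent.S14
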