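/-
S14, block RG, package Div (twin A): `r ∣ c ∣ r ^ (p - 1)` for `c = rg_c p χ`.
-/
import Fermat.Agent.S14.RGInterfaces

set_option autoImplicit false

open NumberField

namespace Fermat.Agent.S14

/-- For nontrivial characters `χ`, `φ` of `ℤ/r` with values in `𝓞 K` such that `χ φ` is
nontrivial, `J(χ, φ) * J(χ⁻¹, φ⁻¹) = r` in `𝓞 K`. -/
theorem rgda_jacobi_mul {K : Type} [Field K] [NumberField K] {r : ℕ} [Fact r.Prime]
    (χ φ : MulChar (ZMod r) (𝓞 K)) (hχ : χ ≠ 1) (hφ : φ ≠ 1) (hχφ : χ * φ ≠ 1) :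
    jacobiSum χ φ * jacobiSum χ⁻¹ φ⁻¹ = (r : 𝓞 K) := by
  have hinj : Function.Injective (algebraMap (𝓞 K) K) := RingOfIntegers.coe_injective
  have hr : Nat.Prime r := Fact.out
  have hchar : ringChar K ≠ ringChar (ZMod r) := by
    rw [ringChar.eq_zero, ZMod.ringChar_zmod_n]
    exact hr.ne_zero.symm
  have hχφ' : χ.ringHomComp (algebraMap (𝓞 K) K) * φ.ringHomComp (algebraMap (𝓞 K) K) ≠ 1 := by
    rw [← MulChar.ringHomComp_mul]
    exact (MulChar.ringHomComp_ne_one_iff hinj).mpr hχφ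
  have h := jacobiSum_mul_jacobiSum_inv hchar
    ((MulChar.ringHomComp_ne_one_iff hinj).mpr hχ)
    ((MulChar.ringHomComp_ne_one_iff hinj).mpr hφ) hχφ'
  apply hinj
  rw [map_mul, ← jacobiSum_ringHomComp, ← jacobiSum_ringHomComp, ← MulChar.ringHomComp_inv,
    ← MulChar.ringHomComp_inv, h, ZMod.card, map_natCast]

/-- Each Jacobi sum `J(χ, χ ^ i)`, `1 ≤ i ≤ p - 2`, divides `r` in `𝓞 K`. -/
theorem rgda_jacobi_dvd {p : ℕ} {K : Type} [Field K] [NumberField K] {r : ℕ} [Fact r.Prime]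
    (χ : MulChar (ZMod r) (𝓞 K)) (hord : orderOf χ = p) {i : ℕ} (hi : i ∈ Finset.Ico 1 (p - 1)) :
    jacobiSum χ (χ ^ i) ∣ (r : 𝓞 K) := by
  rw [Finset.mem_Ico] at hi
  have hpow : ∀ j : ℕ, 0 < j → j < p → χ ^ j ≠ 1 := fun j hj0 hjp =>
    pow_ne_one_of_lt_orderOf hj0.ne' (hord ▸ hjp)
  have hχ : χ ≠ 1 := by
    have := hpow 1 one_pos (by omega)
    rwa [pow_one] at this
  have hφ : χ ^ i ≠ 1 := hpow i (by omega) (by omega)
  have hχφ : χ * χ ^ i ≠ 1 := by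
    rw [← pow_succ']
    exact hpow (i + 1) (by omega) (by omega)
  exact Dvd.intro _ (rgda_jacobi_mul χ (χ ^ i) hχ hφ hχφ)

/-- (RG-B1) `r ∣ c ∣ r ^ (p - 1)` for `c = rg_c p χ`, `χ` of order `p` with values in `𝓞 K`. -/
theorem rgda_div : RGDivStatement := by
  intro p _ K _ _ r _ χ hord
  have hp : Nat.Prime p := Fact.out
  have hunit : IsUnit (χ (-1)) := (isUnit_one.neg).map χ
  have hprod : (∏ i ∈ Finset.Ico 1 (p - 1), jacobiSum χ (χ ^ i)) ∣ (r : 𝓞 K) ^ (p - 2) := by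
    have h := Finset.prod_dvd_prod_of_dvd (s := Finset.Ico 1 (p - 1))
      (fun i : ℕ => jacobiSum χ (χ ^ i)) (fun _ : ℕ => (r : 𝓞 K))
      (fun i hi => rgda_jacobi_dvd χ hord hi)
    rw [Finset.prod_const, Nat.card_Ico] at h
    have he : p - 1 - 1 = p - 2 := by omega
    rwa [he] at h
  refine ⟨?_, ?_⟩
  · rw [rg_c, mul_assoc]
    exact Dvd.dvd.mul_left (Dvd.intro _ rfl) _
  · have he : (r : 𝓞 K) ^ (p - 1) = (r : 𝓞 K) * (r : 𝓞 K) ^ (p - 2) := by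
      have h2 : p - 1 = (p - 2) + 1 := by have := hp.two_le; omega
      rw [h2, pow_succ']
    rw [rg_c, he, mul_assoc]
    exact hunit.mul_left_dvd.mpr (mul_dvd_mul (dvd_refl _) hprod)

end Fermat.Agent.S14
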