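/-
S14, block RG, package Div (twin B): `r ∣ c ∣ r ^ (p - 1)` for `c = rg_c p χ`.
Owner: helper257.  Main theorem: `rgdb_div : RGDivStatement`.
-/
import Fermat.Agent.S14.RGInterfaces

set_option autoImplicit false

open NumberField

namespace Fermat.Agent.S14

/-- Each Jacobi sum `J(χ, χ ^ i)` with `1 ≤ i` and `i + 1 < p = orderOf χ` divides `r` in `𝓞 K`
(indeed `J(χ, χ ^ i) * J(χ⁻¹, (χ ^ i)⁻¹) = r`). -/
theorem rgdb_jacobiSum_mul_eq (p : ℕ) (K : Type) [Field K] [NumberField K]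
    (r : ℕ) [Fact r.Prime] (χ : MulChar (ZMod r) (𝓞 K)) (hχ : orderOf χ = p)
    (i : ℕ) (hi1 : 1 ≤ i) (hi2 : i + 1 < p) :
    jacobiSum χ (χ ^ i) * jacobiSum χ⁻¹ (χ ^ i)⁻¹ = (r : 𝓞 K) := by
  have hinj : Function.Injective (algebraMap (𝓞 K) K) := RingOfIntegers.coe_injective
  have hne : ∀ j : ℕ, 0 < j → j < p → χ ^ j ≠ 1 := by
    intro j hj0 hjp
    exact pow_ne_one_of_lt_orderOf hj0.ne' (hχ ▸ hjp)
  have h1 : χ.ringHomComp (algebraMap (𝓞 K) K) ≠ 1 := by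
    rw [MulChar.ringHomComp_ne_one_iff hinj]
    have h := hne 1 one_pos (by omega)
    rwa [pow_one] at h
  have h2 : (χ ^ i).ringHomComp (algebraMap (𝓞 K) K) ≠ 1 := by
    rw [MulChar.ringHomComp_ne_one_iff hinj]
    exact hne i (by omega) (by omega)
  have h3 : χ.ringHomComp (algebraMap (𝓞 K) K) * (χ ^ i).ringHomComp (algebraMap (𝓞 K) K) ≠ 1 := by
    rw [← MulChar.ringHomComp_mul, MulChar.ringHomComp_ne_one_iff hinj, ← pow_succ']
    exact hne (i + 1) (by omega) hi2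
  have hchar : ringChar K ≠ ringChar (ZMod r) := by
    rw [ZMod.ringChar_zmod_n, ringChar.eq_zero]
    exact (Fact.out : r.Prime).ne_zero.symm
  have key := jacobiSum_mul_jacobiSum_inv hchar h1 h2 h3
  rw [MulChar.ringHomComp_inv, MulChar.ringHomComp_inv, jacobiSum_ringHomComp,
    jacobiSum_ringHomComp, ← map_mul, ZMod.card, ← map_natCast (algebraMap (𝓞 K) K)] at key
  exact hinj key

/-- Each Jacobi sum `J(χ, χ ^ i)` with `1 ≤ i` and `i + 1 < p = orderOf χ` divides `r` in `𝓞 K`. -/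
theorem rgdb_jacobiSum_dvd (p : ℕ) (K : Type) [Field K] [NumberField K]
    (r : ℕ) [Fact r.Prime] (χ : MulChar (ZMod r) (𝓞 K)) (hχ : orderOf χ = p)
    (i : ℕ) (hi1 : 1 ≤ i) (hi2 : i + 1 < p) :
    jacobiSum χ (χ ^ i) ∣ (r : 𝓞 K) :=
  ⟨_, (rgdb_jacobiSum_mul_eq p K r χ hχ i hi1 hi2).symm⟩

/-- (RG-B1) `r ∣ c ∣ r ^ (p - 1)` for `c = rg_c p χ`, `χ` of order `p` with values in `𝓞 K`. -/
theorem rgdb_div : RGDivStatement := by
  intro p hp K _ _ r _ χ hχ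
  have hp2 : 2 ≤ p := hp.out.two_le
  have hunit : IsUnit (χ (-1)) := (isUnit_one.neg).map χ
  have hprod : ∏ i ∈ Finset.Ico 1 (p - 1), jacobiSum χ (χ ^ i) ∣ (r : 𝓞 K) ^ (p - 2) := by
    have h := Finset.prod_dvd_prod_of_dvd (fun i : ℕ => jacobiSum χ (χ ^ i))
      (fun _ : ℕ => (r : 𝓞 K)) (s := Finset.Ico 1 (p - 1)) (by
        intro i hi
        rw [Finset.mem_Ico] at hi
        exact rgdb_jacobiSum_dvd p K r χ hχ i hi.1 (by omega))
    rw [Finset.prod_const, Nat.card_Ico] at h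
    have he : p - 1 - 1 = p - 2 := by omega
    rwa [he] at h
  refine ⟨?_, ?_⟩
  · rw [rg_c, mul_assoc]
    exact Dvd.dvd.mul_left (Dvd.intro _ rfl) _
  · rw [rg_c]
    have he : (r : 𝓞 K) ^ (p - 1) = 1 * (r : 𝓞 K) * (r : 𝓞 K) ^ (p - 2) := by
      rw [one_mul, ← pow_succ']
      congr 1
      omega
    rw [he]
    exact mul_dvd_mul (mul_dvd_mul hunit.dvd (dvd_refl _)) hprod

end Fermat.Agent.S14
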