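/-
S14, block RG, package RG-B1 (prefix `rgdc_`): `rgdc_div : RGDivStatement`.
For a character `χ` of `(ℤ/r)ˣ` of order `p` with values in `𝓞 K`, the element
`c = rg_c p χ = χ(-1) · r · ∏_{i=1}^{p-2} J(χ, χ^i)` satisfies `r ∣ c ∣ r ^ (p - 1)`, because
`J(χ, χ^i) · J(χ⁻¹, χ^(-i)) = r` (Mathlib: `jacobiSum_mul_jacobiSum_inv`, applied in `K`).
-/
import Fermat.Agent.S14.RGInterfaces

set_option autoImplicit false

open NumberField

namespace Fermat.Agent.S14

/-- (RG-B1) `r ∣ rg_c p χ ∣ r ^ (p - 1)`. -/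
theorem rgdc_div : RGDivStatement := by
  intro p _ K _ _ r _ χ hord
  have hpprime : p.Prime := Fact.out
  have hrprime : r.Prime := Fact.out
  have hp2 : 2 ≤ p := hpprime.two_le
  constructor
  · unfold rg_c
    exact Dvd.dvd.mul_right (Dvd.intro_left _ rfl) _
  · -- each Jacobi sum divides `r`
    have hJ : ∀ i ∈ Finset.Ico 1 (p - 1), jacobiSum χ (χ ^ i) ∣ (r : 𝓞 K) := by
      intro i hi
      rw [Finset.mem_Ico] at hi
      have hf : Function.Injective (algebraMap (𝓞 K) K) :=
        FaithfulSMul.algebraMap_injective (𝓞 K) K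
      have h1 : χ.ringHomComp (algebraMap (𝓞 K) K) ≠ 1 := by
        refine (MulChar.ringHomComp_ne_one_iff hf).mpr ?_
        intro h
        rw [h, orderOf_one] at hord
        exact hpprime.one_lt.ne hord
      have h2 : χ.ringHomComp (algebraMap (𝓞 K) K) ^ i ≠ 1 := by
        rw [MulChar.ringHomComp_pow]
        exact (MulChar.ringHomComp_ne_one_iff hf).mpr
          (pow_ne_one_of_lt_orderOf (by omega) (by rw [hord]; omega))
      have h3 : χ.ringHomComp (algebraMap (𝓞 K) K) * χ.ringHomComp (algebraMap (𝓞 K) K) ^ i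
          ≠ 1 := by
        rw [← pow_succ', MulChar.ringHomComp_pow]
        exact (MulChar.ringHomComp_ne_one_iff hf).mpr
          (pow_ne_one_of_lt_orderOf (by omega) (by rw [hord]; omega))
      have hchar : ringChar K ≠ ringChar (ZMod r) := by
        rw [ZMod.ringChar_zmod_n, ringChar.eq_zero]
        exact hrprime.ne_zero.symm
      have h := jacobiSum_mul_jacobiSum_inv hchar h1 h2 h3
      refine ⟨jacobiSum χ⁻¹ (χ ^ i)⁻¹, ?_⟩
      apply hf
      rw [map_mul, ← jacobiSum_ringHomComp, ← jacobiSum_ringHomComp, map_natCast,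
        ← MulChar.ringHomComp_inv, ← MulChar.ringHomComp_inv, ← MulChar.ringHomComp_pow, h,
        ZMod.card]
    have hprod : ∏ i ∈ Finset.Ico 1 (p - 1), jacobiSum χ (χ ^ i) ∣ (r : 𝓞 K) ^ (p - 2) := by
      have h := Finset.prod_dvd_prod_of_dvd (fun i => jacobiSum χ (χ ^ i))
        (fun _ => (r : 𝓞 K)) hJ
      rw [Finset.prod_const, Nat.card_Ico] at h
      have h2 : p - 1 - 1 = p - 2 := by omega
      rwa [h2] at h
    have hu : IsUnit (χ (-1)) := (isUnit_one.neg).map χ
    unfold rg_c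
    rw [mul_assoc, hu.mul_left_dvd]
    have hpow : (r : 𝓞 K) ^ (p - 1) = (r : 𝓞 K) * (r : 𝓞 K) ^ (p - 2) := by
      rw [← pow_succ']
      congr 1
      omega
    rw [hpow]
    exact mul_dvd_mul_left _ hprod

end Fermat.Agent.S14
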