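/-
S14, block RG, package RG-C (prefix `rgfb_`): the Gauss-sum congruence in a finite field,
`rgfb_frob : RGFrobStatement`.

For a character `χ` of `(ℤ/r)ˣ` of order `p` with values in a finite field `k` (`r ≠ 0` in `k`),
let `g` be the Gauss sum of `χ` and a primitive additive character of `ℤ/r` with values in the
`r`-th cyclotomic extension `k'` of `k`.  Then `g ^ p = rg_c p χ` (Mathlib:
`gaussSum_pow_eq_prod_jacobiSum`), `g ≠ 0`, and `g ^ #k = χ(#k)⁻¹ g` (iterated Frobenius), whence
`χ(#k) · (rg_c p χ) ^ ((#k - 1) / p) = χ(#k) · g ^ (#k - 1) = 1`.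
-/
import Fermat.Agent.S14.RGInterfaces

set_option autoImplicit false

open NumberField

namespace Fermat.Agent.S14

/-- Iterated Frobenius on Gauss sums. -/
theorem rgfb_gaussSum_frob_iter {R : Type} [CommRing R] [Fintype R] {R' : Type} [CommRing R']
    (ℓ : ℕ) [Fact ℓ.Prime] [CharP R' ℓ] (χ : MulChar R R') (ψ : AddChar R R') (n : ℕ) :
    gaussSum χ ψ ^ (ℓ ^ n) = gaussSum (χ ^ (ℓ ^ n)) (ψ ^ (ℓ ^ n)) := by
  induction n with
  | zero => simp
  | succ n ih => rw [pow_succ, pow_mul, ih, gaussSum_frob, ← pow_mul, ← pow_mul]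

/-- Composition with an injective ring homomorphism preserves the order of a multiplicative
character. -/
theorem rgfb_orderOf_ringHomComp {R R' R'' : Type} [CommMonoid R] [CommRing R'] [CommRing R'']
    (f : R' →+* R'') (hf : Function.Injective f) (χ : MulChar R R') :
    orderOf (χ.ringHomComp f) = orderOf χ := by
  refine orderOf_injective (MulChar.ringHomCompHom f) ?_ χ
  rw [injective_iff_map_eq_one]
  intro a ha
  exact (MulChar.ringHomComp_eq_one_iff hf).mp ha

/-- `rg_c` is compatible with ring homomorphisms. -/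
theorem rgfb_rg_c_ringHomComp (p : ℕ) {r : ℕ} [Fact r.Prime] {R R' : Type} [CommRing R]
    [CommRing R'] (f : R →+* R') (χ : MulChar (ZMod r) R) :
    rg_c p (χ.ringHomComp f) = f (rg_c p χ) := by
  unfold rg_c
  rw [map_mul, map_mul, map_prod, map_natCast, MulChar.ringHomComp_apply]
  congr 1
  refine Finset.prod_congr rfl fun i _ => ?_
  rw [MulChar.ringHomComp_pow, jacobiSum_ringHomComp]

/-- (RG-C) The Gauss-sum congruence in a finite field. -/
theorem rgfb_frob : RGFrobStatement := by
  intro p _ r _ k _ _ χ hord hr hp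
  classical
  have hrprime : r.Prime := Fact.out
  have hpprime : p.Prime := Fact.out
  let _ : Fintype k := Fintype.ofFinite k
  obtain ⟨n, hℓ, hcard⟩ := FiniteField.card k (ringChar k)
  set ℓ := ringChar k with hℓdef
  have : Fact ℓ.Prime := ⟨hℓ⟩
  have hℓr : ℓ ≠ r := by
    intro h
    apply hr
    rw [← h]
    exact CharP.cast_eq_zero k ℓ
  have hN : Nat.card k = ℓ ^ (n : ℕ) := by rw [Nat.card_eq_fintype_card, hcard]
  rw [hN] at hp ⊢
  set N := ℓ ^ (n : ℕ) with hNdef
  -- the extension with a primitive `r`-th root of unity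
  let rp : ℕ+ := ⟨r, hrprime.pos⟩
  let ψ := AddChar.primitiveZModChar rp k hr
  let k' := CyclotomicField ψ.n k
  have hinj : Function.Injective (algebraMap k k') := (algebraMap k k').injective
  have : CharP k' ℓ := charP_of_injective_algebraMap hinj ℓ
  let χ' : MulChar (ZMod r) k' := χ.ringHomComp (algebraMap k k')
  let ψc : AddChar (ZMod r) k' := ψ.char
  have hψ : ψc.IsPrimitive := ψ.prim
  have hord' : orderOf χ' = p := by rw [rgfb_orderOf_ringHomComp _ hinj, hord]
  have hχ'1 : χ' ≠ 1 := by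
    intro h
    rw [h, orderOf_one] at hord'
    exact hpprime.one_lt.ne hord'
  have hrk' : ((Fintype.card (ZMod r) : ℕ) : k') ≠ 0 := by
    rw [ZMod.card, ← map_natCast (algebraMap k k')]
    exact (map_ne_zero_iff _ hinj).mpr hr
  set g := gaussSum χ' ψc with hg
  have hg0 : g ≠ 0 := gaussSum_ne_zero_of_nontrivial hrk' hχ'1 hψ
  -- `g ^ p = c`
  have h1 : g ^ p = algebraMap k k' (rg_c p χ) := by
    have h := gaussSum_pow_eq_prod_jacobiSum (χ := χ') (ψ := ψc)
      (by rw [hord']; exact hpprime.two_le) hψ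
    rw [hord', ZMod.card] at h
    rw [h, ← rgfb_rg_c_ringHomComp]
    rfl
  -- Frobenius
  have hχN : χ' ^ N = χ' := by
    obtain ⟨m, hm⟩ := hp
    have hN1 : N = 1 + p * m := by
      have : 0 < N := pow_pos hℓ.pos _
      omega
    rw [hN1, pow_add, pow_one, pow_mul, ← hord', pow_orderOf_eq_one, one_pow, mul_one]
  have hcop : Nat.Coprime N r :=
    Nat.Coprime.pow_left _ ((Nat.coprime_primes hℓ hrprime).mpr hℓr)
  have h3 : χ' (N : ZMod r) * g ^ N = g := by
    rw [hg, rgfb_gaussSum_frob_iter ℓ χ' ψc n, ← hNdef, hχN, AddChar.pow_mulShift,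
      ← ZMod.coe_unitOfCoprime N hcop]
    exact gaussSum_mulShift χ' ψc _
  have h4 : χ' (N : ZMod r) * g ^ (N - 1) = 1 := by
    have hNpos : 0 < N := pow_pos hℓ.pos _
    have h5 : χ' (N : ZMod r) * g ^ (N - 1) * g = 1 * g := by
      rw [mul_assoc, ← pow_succ, Nat.sub_add_cancel hNpos, h3, one_mul]
    exact mul_right_cancel₀ hg0 h5
  apply hinj
  rw [map_mul, map_pow, map_one, ← h1, ← pow_mul, Nat.mul_div_cancel' hp]
  exact h4

end Fermat.Agent.S14
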