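/-
S14, block RG: assembly of `GaussElementStatement` from the package Props of RGInterfaces.lean.
-/
import Fermat.Agent.S14.RGInterfaces

set_option autoImplicit false

open NumberField

namespace Fermat.Agent.S14

/-- Assembly: the Gauss element statement from the four package statements of block RG and the
splitting of `r` in the cyclotomic field. -/
theorem rg_gaussElement_of (hA : RGCharStatement) (hB1 : RGDivStatement) (hB2 : RGValStatement)
    (hD : RGSymbolStatement) (hC : CycloSplitStatement) : GaussElementStatement := by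
  intro p _ hp3 K _ _ _ ζ hζ r hr hrp
  haveI : Fact r.Prime := ⟨hr⟩
  obtain ⟨χ, lam, hord, hχ, hmul, hpow⟩ := hA p r hrp (𝓞 K) ζ hζ
  obtain ⟨hdiv1, hdiv2⟩ := hB1 p K r χ hord
  refine ⟨rg_c p χ, lam, hmul, hpow, hdiv2, ?_, ?_⟩
  · intro 𝔯 h𝔯 hr𝔯
    obtain ⟨-, hsq⟩ := hC p hp3 K r hr hrp 𝔯 h𝔯 hr𝔯
    exact hB2 p K r (rg_c p χ) 𝔯 (by omega) h𝔯 hr𝔯 hsq hdiv1 hdiv2
  · intro E _ _ _ 𝔅 h𝔅 hne hp𝔅 hr𝔅
    exact hD p K ζ hζ r χ lam hord hχ E 𝔅 h𝔅 hne hp𝔅 hr𝔅

end Fermat.Agent.S14
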