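/-
S14, block RG, package RG-D, twin B (prefix `rgsb_`): the symbol of the Gauss element,
`rgsb_symbol : SymbSpecStatement → RGDivStatement → RGFrobStatement → RGSymbolStatement`.

For a prime `𝔅 ∤ p r` of `E ⊇ K` with residue field `k = 𝓞 E ⧸ 𝔅` (`N = #k`), the reduction `χ̄` of
`χ` still has order `p`, so the Gauss-sum congruence (RG-C) gives
`χ̄(N) · c̄ ^ ((N - 1) / p) = 1` in `k`, i.e. `c ^ ((N - 1) / p) ≡ ζ ^ (-lam N) mod 𝔅`, and the
uniqueness part of `SymbSpecStatement` identifies the symbol.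
-/
import Fermat.Agent.S14.RGInterfaces
import Fermat.Agent.S14.RGFrobB

set_option autoImplicit false

open NumberField

namespace Fermat.Agent.S14

/-- The image of a primitive `p`-th root of unity under a ring homomorphism to a field in which
`p ≠ 0` is not `1`. -/
theorem rgsb_map_ne_one {p : ℕ} [Fact p.Prime] {A k : Type} [CommRing A] [IsDomain A] [Field k]
    (φ : A →+* k) {ζ : A} (hζ : IsPrimitiveRoot ζ p) (hp : (p : k) ≠ 0) : φ ζ ≠ 1 := by
  intro h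
  have hsum := congrArg φ (hζ.geom_sum_eq_zero (Fact.out : p.Prime).one_lt)
  rw [map_sum, map_zero] at hsum
  simp only [map_pow, h, one_pow, Finset.sum_const, Finset.card_range, nsmul_eq_mul, mul_one]
    at hsum
  exact hp hsum

/-- (RG-D) The symbol of `rg_c p χ` at a prime `𝔅 ∤ p r` of `E ⊇ K` is `- lam (N𝔅)`. -/
theorem rgsb_symbol :
    SymbSpecStatement → RGDivStatement → RGFrobStatement → RGSymbolStatement := by
  intro hSpec _ hFrob p _ K _ _ ζ hζ r _ χ lam hord hχ E _ _ _ 𝔅 h𝔅 hne hp𝔅 hr𝔅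
  classical
  have hpprime : p.Prime := Fact.out
  have : NeZero p := ⟨hpprime.ne_zero⟩
  -- the residue field
  have hmax : 𝔅.IsMaximal := Ideal.IsPrime.isMaximal h𝔅 hne
  let _ : Field (𝓞 E ⧸ 𝔅) := Ideal.Quotient.field 𝔅
  have : Finite (𝓞 E ⧸ 𝔅) := Ideal.finiteQuotientOfFreeOfNeBot 𝔅 hne
  have hcard : Nat.card (𝓞 E ⧸ 𝔅) = Ideal.absNorm 𝔅 := rfl
  let φ : 𝓞 K →+* (𝓞 E ⧸ 𝔅) := (Ideal.Quotient.mk 𝔅).comp (algebraMap (𝓞 K) (𝓞 E))
  have hpk : ((p : ℕ) : 𝓞 E ⧸ 𝔅) ≠ 0 := by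
    rw [← map_natCast (Ideal.Quotient.mk 𝔅), Ne, Ideal.Quotient.eq_zero_iff_mem]
    exact hp𝔅
  have hrk : ((r : ℕ) : 𝓞 E ⧸ 𝔅) ≠ 0 := by
    rw [← map_natCast (Ideal.Quotient.mk 𝔅), Ne, Ideal.Quotient.eq_zero_iff_mem]
    exact hr𝔅
  have hφζ1 : φ ζ ≠ 1 := rgsb_map_ne_one φ hζ hpk
  have hφζp : φ ζ ^ p = 1 := by rw [← map_pow, hζ.pow_eq_one, map_one]
  have hφζord : orderOf (φ ζ) = p := orderOf_eq_prime hφζp hφζ1
  -- the character with values in the residue field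
  let χk : MulChar (ZMod r) (𝓞 E ⧸ 𝔅) := χ.ringHomComp φ
  have hχk : ∀ x : ZMod r, x ≠ 0 → χk x = φ ζ ^ (lam x).val := by
    intro x hx
    rw [MulChar.ringHomComp_apply, hχ x hx, map_pow]
  have hχkp : χk ^ p = 1 := by
    rw [MulChar.ringHomComp_pow, ← hord, pow_orderOf_eq_one, MulChar.ringHomComp_one]
  have hχk1 : χk ≠ 1 := by
    intro h
    have hχ1 : χ = 1 := by
      rw [MulChar.eq_one_iff]
      intro a
      have ha0 : (a : ZMod r) ≠ 0 := a.ne_zero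
      have h1 : χk a = 1 := by rw [h, MulChar.one_apply_coe]
      rw [hχk _ ha0] at h1
      have hdvd : orderOf (φ ζ) ∣ (lam (a : ZMod r)).val := orderOf_dvd_of_pow_eq_one h1
      rw [hφζord] at hdvd
      have hval : (lam (a : ZMod r)).val = 0 :=
        Nat.eq_zero_of_dvd_of_lt hdvd (ZMod.val_lt _)
      rw [hχ _ ha0, hval, pow_zero]
    rw [hχ1, orderOf_one] at hord
    exact hpprime.one_lt.ne hord
  have hordk : orderOf χk = p := orderOf_eq_prime hχkp hχk1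
  -- `ζ` in `𝓞 E`
  have hinjKE : Function.Injective (algebraMap (𝓞 K) (𝓞 E)) :=
    FaithfulSMul.algebraMap_injective (𝓞 K) (𝓞 E)
  have hζE : IsPrimitiveRoot (algebraMap (𝓞 K) (𝓞 E) ζ) p := hζ.map_of_injective hinjKE
  obtain ⟨hdvd, hspec⟩ := hSpec p E (algebraMap (𝓞 K) (𝓞 E) ζ) hζE 𝔅 h𝔅 hne hp𝔅
  -- the Gauss sum congruence
  have hF := hFrob p r (𝓞 E ⧸ 𝔅) χk hordk hrk (by rw [hcard]; exact hdvd)
  rw [hcard, rgfb_rg_c_ringHomComp] at hF
  set N := Ideal.absNorm 𝔅 with hN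
  set m := (N - 1) / p with hm
  have hN0 : ((N : ℕ) : ZMod r) ≠ 0 := by
    intro h0
    rw [h0, MulChar.map_zero, zero_mul] at hF
    exact zero_ne_one hF
  rw [hχk _ hN0] at hF
  -- `m ≥ 1`
  have hN2 : 2 ≤ N := by
    have h1 : 1 < Nat.card (𝓞 E ⧸ 𝔅) := Finite.one_lt_card
    rw [hcard] at h1
    exact h1
  have hm1 : 1 ≤ m := by
    obtain ⟨t, ht⟩ := hdvd
    have ht0 : t ≠ 0 := by
      rintro rfl
      omega
    rw [hm, ht, Nat.mul_div_cancel_left _ hpprime.pos]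
    omega
  have hφc0 : φ (rg_c p χ) ≠ 0 := by
    intro h0
    rw [h0, zero_pow (by omega), mul_zero] at hF
    exact zero_ne_one hF
  have hc𝔅 : algebraMap (𝓞 K) (𝓞 E) (rg_c p χ) ∉ 𝔅 := by
    intro hmem
    exact hφc0 (Ideal.Quotient.eq_zero_iff_mem.mpr hmem)
  -- the exponent
  set l := lam ((N : ℕ) : ZMod r) with hl
  have hsum : φ ζ ^ (l.val + (-l).val) = 1 := by
    have h0 : ((l.val + (-l).val : ℕ) : ZMod p) = 0 := by
      rw [Nat.cast_add, ZMod.natCast_zmod_val, ZMod.natCast_zmod_val, add_neg_cancel]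
    obtain ⟨t, ht⟩ := (ZMod.natCast_eq_zero_iff _ _).mp h0
    rw [ht, pow_mul, hφζp, one_pow]
  have hkey : φ (rg_c p χ) ^ m = φ ζ ^ (-l).val := by
    calc φ (rg_c p χ) ^ m = (φ ζ ^ l.val * φ (rg_c p χ) ^ m) * φ ζ ^ (-l).val := by
          rw [mul_right_comm, ← pow_add, hsum, one_mul]
      _ = φ ζ ^ (-l).val := by rw [hF, one_mul]
  have hmem : algebraMap (𝓞 K) (𝓞 E) (rg_c p χ) ^ m
      - algebraMap (𝓞 K) (𝓞 E) ζ ^ (-l).val ∈ 𝔅 := by
    rw [← Ideal.Quotient.eq_zero_iff_mem, map_sub, map_pow, map_pow, sub_eq_zero]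
    exact hkey
  have hfin := (hspec _ hc𝔅).2.1 (-l).val hmem
  rw [hfin, ZMod.natCast_zmod_val]

end Fermat.Agent.S14
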