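/-
S14, block RG, package RG-B2, twin B (prefix `rgvb_`): `rgvb_val : RGValStatement`.
Pure Dedekind-domain arithmetic: if `r ∈ 𝔯 ∖ 𝔯²` and `r ∣ c ∣ r ^ (p - 1)` then the exact power of
`𝔯` dividing `c` lies in `[1, p - 1]`.
-/
import Fermat.Agent.S14.RGInterfaces

set_option autoImplicit false

open NumberField

namespace Fermat.Agent.S14

/-- If `r ∈ 𝔯 ∖ 𝔯²` for a prime `𝔯` of a Dedekind domain, then `r ^ m ∉ 𝔯 ^ (m + 1)`. -/
theorem rgvb_pow_not_mem {A : Type} [CommRing A] [IsDedekindDomain A] (𝔯 : Ideal A)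
    (h𝔯 : 𝔯.IsPrime) (x : A) (hx : x ∈ 𝔯) (hx2 : x ∉ 𝔯 ^ 2) (m : ℕ) : x ^ m ∉ 𝔯 ^ (m + 1) := by
  have hne : 𝔯 ≠ ⊥ := by
    rintro rfl
    apply hx2
    rw [Ideal.mem_bot] at hx
    rw [hx]
    exact zero_mem _
  have hprime : Prime 𝔯 := Ideal.prime_of_isPrime hne h𝔯
  obtain ⟨𝔞, h𝔞⟩ := Ideal.dvd_span_singleton.mpr hx
  have h𝔞' : ¬ 𝔯 ∣ 𝔞 := by
    rintro ⟨𝔟, rfl⟩
    apply hx2
    rw [← Ideal.dvd_span_singleton, h𝔞, ← mul_assoc, ← pow_two]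
    exact Dvd.intro _ rfl
  intro hmem
  rw [← Ideal.dvd_span_singleton, ← Ideal.span_singleton_pow, h𝔞, mul_pow, pow_succ,
    mul_dvd_mul_iff_left (pow_ne_zero m hne)] at hmem
  exact h𝔞' (hprime.dvd_of_dvd_pow hmem)

/-- (RG-B2) The exact power of `𝔯` dividing `c` lies in `[1, p - 1]`. -/
theorem rgvb_val : RGValStatement := by
  intro p K _ _ r c 𝔯 hp h𝔯 hr hr2 hrc hcr
  classical
  have hc1 : c ∈ 𝔯 ^ 1 := by
    rw [pow_one]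
    obtain ⟨d, rfl⟩ := hrc
    exact Ideal.mul_mem_right _ _ hr
  have hcp : c ∉ 𝔯 ^ p := by
    intro hmem
    obtain ⟨d, hd⟩ := hcr
    have h := rgvb_pow_not_mem 𝔯 h𝔯 (r : 𝓞 K) hr hr2 (p - 1)
    apply h
    rw [hd, Nat.sub_add_cancel (by omega : 1 ≤ p)]
    exact Ideal.mul_mem_right _ _ hmem
  refine ⟨Nat.findGreatest (fun n => c ∈ 𝔯 ^ n) (p - 1), ?_, ?_, ?_, ?_⟩
  · exact Nat.le_findGreatest (by omega) hc1
  · have := Nat.findGreatest_le (P := fun n => c ∈ 𝔯 ^ n) (p - 1)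
    omega
  · exact Nat.findGreatest_spec (P := fun n => c ∈ 𝔯 ^ n) (by omega : 1 ≤ p - 1) hc1
  · have hle := Nat.findGreatest_le (P := fun n => c ∈ 𝔯 ^ n) (p - 1)
    rcases Nat.lt_or_ge (Nat.findGreatest (fun n => c ∈ 𝔯 ^ n) (p - 1)) (p - 1) with hlt | hge
    · exact Nat.findGreatest_is_greatest (P := fun n => c ∈ 𝔯 ^ n) (Nat.lt_succ_self _) hlt
    · have heq : Nat.findGreatest (fun n => c ∈ 𝔯 ^ n) (p - 1) + 1 = p := by omega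
      rw [heq]
      exact hcp

end Fermat.Agent.S14
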