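/-
S14, block RG (Gauss sums): the deliverable `rg_gaussElement`, assembled from the block's packages
(`RGCharA`, `RGDivC`, `RGValB`, `RGFrobB`, `RGSymbolB`) via `rg_gaussElement_of` (RGMainAux.lean).
(An independent proof of the same statement is `rgt_gaussElement` in RGaussTMain.lean.)
-/
import Fermat.Agent.S14.RGMainAux
import Fermat.Agent.S14.RGCharA
import Fermat.Agent.S14.RGDivC
import Fermat.Agent.S14.RGValB
import Fermat.Agent.S14.RGFrobB
import Fermat.Agent.S14.RGSymbolB

set_option autoImplicit false

namespace Fermat.Agent.S14

/-- (R3) The Gauss-sum element: `GaussElementStatement` from the symbol calculus and the splitting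
of `r ≡ 1 mod p` in `ℚ(ζ_p)`. -/
theorem rg_gaussElement : SymbSpecStatement → CycloSplitStatement → GaussElementStatement :=
  fun hS hC => rg_gaussElement_of rgca_char rgdc_div rgvb_val (rgsb_symbol hS rgdc_div rgfb_frob) hC

end Fermat.Agent.S14
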