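/-
S14, block RG, package Val (twin A): `rgva_val : RGValStatement`.
Pure Dedekind-domain arithmetic: if `r ∈ 𝔯 ∖ 𝔯²` and `r ∣ c ∣ r ^ (p - 1)` then the exact power of `𝔯`
dividing `c` lies in `[1, p - 1]`.
-/
import Fermat.Agent.S14.RGInterfaces

set_option autoImplicit false

open NumberField

namespace Fermat.Agent.S14

/-- In a Dedekind domain, if `x ∈ P ∖ P²` for a prime ideal `P`, then `x ^ m ∉ P ^ (m + 1)`. -/
theorem rgva_pow_not_mem {A : Type*} [CommRing A] [IsDedekindDomain A] (P : Ideal A)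
    (hP : P.IsPrime) (x : A) (hx : x ∈ P) (hx2 : x ∉ P ^ 2) (m : ℕ) :
    x ^ m ∉ P ^ (m + 1) := by
  have hP0 : P ≠ ⊥ := by
    rintro rfl
    apply hx2
    have h0 : x = 0 := by simpa using hx
    rw [h0]
    exact Ideal.zero_mem _
  have hprime : Prime P := Ideal.prime_of_isPrime hP0 hP
  have hdvd : P ∣ Ideal.span {x} := by
    rw [Ideal.dvd_iff_le, Ideal.span_singleton_le_iff_mem]
    exact hx
  obtain ⟨𝔞, h𝔞⟩ := hdvd
  have hnd : ¬ P ∣ 𝔞 := by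
    rintro ⟨𝔟, h𝔟⟩
    apply hx2
    rw [← Ideal.span_singleton_le_iff_mem, ← Ideal.dvd_iff_le, h𝔞, h𝔟]
    exact ⟨𝔟, by rw [pow_two, mul_assoc]⟩
  intro hmem
  have h1 : P ^ (m + 1) ∣ Ideal.span {x} ^ m := by
    rw [Ideal.dvd_iff_le, Ideal.span_singleton_pow, Ideal.span_singleton_le_iff_mem]
    exact hmem
  rw [h𝔞, mul_pow, pow_succ] at h1
  have h2 : P ∣ 𝔞 ^ m := (mul_dvd_mul_iff_left (pow_ne_zero m hP0)).mp h1
  exact hnd (hprime.dvd_of_dvd_pow h2)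

/-- (RG-B2) If `r ∈ 𝔯 ∖ 𝔯²` and `r ∣ c ∣ r ^ (p - 1)` then the exact power of `𝔯` dividing `c`
is between `1` and `p - 1`. -/
theorem rgva_val : RGValStatement := by
  intro p K _ _ r c 𝔯 hp h𝔯 hr hr2 hrc hcr
  classical
  have hc1 : c ∈ 𝔯 ^ 1 := by
    obtain ⟨d, rfl⟩ := hrc
    rw [pow_one]
    exact Ideal.mul_mem_right d 𝔯 hr
  have hcp : c ∉ 𝔯 ^ p := by
    intro hmem
    obtain ⟨d, hd⟩ := hcr
    have hkey := rgva_pow_not_mem 𝔯 h𝔯 (r : 𝓞 K) hr hr2 (p - 1)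
    apply hkey
    have hp1 : p - 1 + 1 = p := by omega
    rw [hp1, hd]
    exact Ideal.mul_mem_right d (𝔯 ^ p) hmem
  have h1p : 1 ≤ p := by omega
  refine ⟨Nat.findGreatest (fun n => c ∈ 𝔯 ^ n) p, ?_, ?_, ?_, ?_⟩
  · exact Nat.le_findGreatest h1p hc1
  · have hle : Nat.findGreatest (fun n => c ∈ 𝔯 ^ n) p ≤ p := Nat.findGreatest_le p
    have hspec : c ∈ 𝔯 ^ Nat.findGreatest (fun n => c ∈ 𝔯 ^ n) p :=
      Nat.findGreatest_spec (P := fun n => c ∈ 𝔯 ^ n) h1p hc1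
    rcases Nat.lt_or_ge (Nat.findGreatest (fun n => c ∈ 𝔯 ^ n) p) p with h | h
    · exact h
    · exfalso
      have heq : Nat.findGreatest (fun n => c ∈ 𝔯 ^ n) p = p := le_antisymm hle h
      rw [heq] at hspec
      exact hcp hspec
  · exact Nat.findGreatest_spec (P := fun n => c ∈ 𝔯 ^ n) h1p hc1
  · intro hmem
    have hle : Nat.findGreatest (fun n => c ∈ 𝔯 ^ n) p ≤ p := Nat.findGreatest_le p
    have hspec : c ∈ 𝔯 ^ Nat.findGreatest (fun n => c ∈ 𝔯 ^ n) p :=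
      Nat.findGreatest_spec (P := fun n => c ∈ 𝔯 ^ n) h1p hc1
    have hlt : Nat.findGreatest (fun n => c ∈ 𝔯 ^ n) p < p := by
      rcases Nat.lt_or_ge (Nat.findGreatest (fun n => c ∈ 𝔯 ^ n) p) p with h | h
      · exact h
      · exfalso
        have heq : Nat.findGreatest (fun n => c ∈ 𝔯 ^ n) p = p := le_antisymm hle h
        rw [heq] at hspec
        exact hcp hspec
    exact Nat.findGreatest_is_greatest (P := fun n => c ∈ 𝔯 ^ n) (Nat.lt_succ_self _) hlt hmem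

end Fermat.Agent.S14
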