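/-
S14, block R, sub-block RJ (Jacobi-sum factorisation, plan item R10): FROZEN interfaces of the work
packages.  Owner: helper192 (block lead).  Do not edit.

Goal (`RJMain.lean`): `rj_jacobi : CycloSplitStatement → JacobiStatement` (see `RInterfaces.lean`).

Overview.  `K = ℚ(ζ)`, `ζ = ζ_p`, `p` an odd prime; `𝔮` a prime of `𝓞 K` with `q := absNorm 𝔮` prime
and `p ∉ 𝔮`; `k := 𝓞 K ⧸ 𝔮` (a field with `q` elements), `m := (q - 1) / p`.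
* (`RJCharStatement`) there is a multiplicative character `χ : MulChar k (𝓞 K)` with values in
  `{0} ∪ ⟨ζ⟩`, `χ(x mod 𝔮) ≡ x ^ m mod 𝔮`, and `χ ≠ 1`, `χ² ≠ 1`.
* (`RJPowSumStatement`) `∑_{x ∈ k} x^M (1 - x)^M = 0` if `2 M < |k| - 1`.
* (`RJElementStatement`) `J := ∑_{x ∈ k} χ(x) χ(1 - x)` (the Jacobi sum) satisfies:
  `σ(J) ∈ 𝔮` whenever `σ ζ = ζ ^ a` with `1 ≤ a < p / 2`  (because `σ(J) ≡ ∑ x^(am) (1-x)^(am)`),
  and `J · σ(J) = q` for `σ ζ = ζ⁻¹ = ζ^(p-1)`  (Mathlib: `jacobiSum_mul_jacobiSum_inv`).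
* (`RJGaloisStatement`) for `p ∤ a` there is `σ_a ∈ Gal(K/ℚ)` with `σ_a ζ = ζ ^ a`.
* (`RJNormStatement`) `J · σ(J) = q` implies `absNorm (J) = q ^ ((p - 1) / 2)`.
* (`RJPreimageStatement`) `σ⁻¹(𝔮)` exists, is a nonzero prime and has the same absolute norm as `𝔮`.
* (`RJDistinctStatement`) `σ_a⁻¹(𝔮) = σ_b⁻¹(𝔮)` implies `a ≡ b mod p` (when `absNorm 𝔮` is prime).
* (`RJIdealStatement`) an ideal of absolute norm `q ^ |s|` contained in `|s|` distinct primes of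
  absolute norm `q` is their product.
Assembly: `Q a := σ_a⁻¹(𝔮)` for `1 ≤ a ≤ (p-1)/2` are distinct primes of norm `q` containing `J`,
and `absNorm (J) = q ^ ((p-1)/2)`; hence `(J) = ∏ Q a`.  (`CycloSplitStatement` is not needed.)
-/
import Fermat.Agent.S14.RInterfaces

set_option autoImplicit false

open NumberField

namespace Fermat.Agent.S14

/-- (RJ-Char) The `p`-th power residue character at a prime `𝔮 ∌ p` of a number field containing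
a primitive `p`-th root of unity `ζ`: a multiplicative character `χ` of `𝓞 K ⧸ 𝔮` with values in
`𝓞 K` such that `χ (x mod 𝔮) ≡ x ^ ((N𝔮 - 1) / p) mod 𝔮` for all `x`, with values in the powers of
`ζ` on nonzero classes, and such that `χ` and `χ²` are nontrivial. -/
def RJCharStatement : Prop :=
  ∀ (p : ℕ) [Fact p.Prime], 3 ≤ p →
  ∀ (K : Type) [Field K] [NumberField K] (ζ : 𝓞 K), IsPrimitiveRoot ζ p →
  ∀ 𝔮 : Ideal (𝓞 K), 𝔮.IsPrime → 𝔮 ≠ ⊥ → (p : 𝓞 K) ∉ 𝔮 →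
    p ∣ Ideal.absNorm 𝔮 - 1 ∧
    ∃ χ : MulChar (𝓞 K ⧸ 𝔮) (𝓞 K),
      (∀ x : 𝓞 K, χ (Ideal.Quotient.mk 𝔮 x) - x ^ ((Ideal.absNorm 𝔮 - 1) / p) ∈ 𝔮) ∧
      (∀ x : 𝓞 K ⧸ 𝔮, x ≠ 0 → ∃ e : ℕ, χ x = ζ ^ e) ∧
      χ ≠ 1 ∧ χ * χ ≠ 1

/-- (RJ-PowSum) In a finite field `k`, `∑_x x^M (1 - x)^M = 0` as soon as `2 M < |k| - 1`
(a polynomial of degree `< |k| - 1` sums to zero). -/
def RJPowSumStatement : Prop :=
  ∀ (k : Type) [Field k] [Fintype k] (M : ℕ), 2 * M < Fintype.card k - 1 →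
    ∑ x : k, x ^ M * (1 - x) ^ M = 0

/-- (RJ-Element) The Jacobi-sum element `J` at a prime `𝔮 ∌ p` of a number field `K ∋ ζ_p`:
`σ(J) ∈ 𝔮` for every automorphism `σ` with `σ ζ = ζ ^ a`, `1 ≤ a < p / 2`, and
`J · σ(J) = N𝔮` for every automorphism `σ` with `σ ζ = ζ ^ (p - 1)`. -/
def RJElementStatement : Prop :=
  ∀ (p : ℕ) [Fact p.Prime], 3 ≤ p →
  ∀ (K : Type) [Field K] [NumberField K] (ζ : 𝓞 K), IsPrimitiveRoot ζ p →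
  ∀ 𝔮 : Ideal (𝓞 K), 𝔮.IsPrime → 𝔮 ≠ ⊥ → (p : 𝓞 K) ∉ 𝔮 →
    ∃ J : 𝓞 K,
      (∀ (σ : K ≃ₐ[ℚ] K) (a : ℕ), 1 ≤ a → 2 * a < p → σ (ζ : K) = (ζ : K) ^ a →
        ∃ y ∈ 𝔮, (y : K) = σ (J : K)) ∧
      (∀ σ : K ≃ₐ[ℚ] K, σ (ζ : K) = (ζ : K) ^ (p - 1) →
        (J : K) * σ (J : K) = (Ideal.absNorm 𝔮 : K))

/-- (RJ-Galois) In `K = ℚ(ζ_p)` there is, for every `a` prime to `p`, an automorphism with
`ζ ↦ ζ ^ a`. -/
def RJGaloisStatement : Prop :=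
  ∀ (p : ℕ) [Fact p.Prime] (K : Type) [Field K] [NumberField K] [IsCyclotomicExtension {p} ℚ K]
    (ζ : K), IsPrimitiveRoot ζ p → ∀ a : ℕ, ¬ p ∣ a → ∃ σ : K ≃ₐ[ℚ] K, σ ζ = ζ ^ a

/-- (RJ-Norm) In `K = ℚ(ζ_p)` (degree `p - 1`): if `J · σ(J) = q` for some automorphism `σ`, then
the ideal `(J)` has absolute norm `q ^ ((p - 1) / 2)`. -/
def RJNormStatement : Prop :=
  ∀ (p : ℕ) [Fact p.Prime], 3 ≤ p →
  ∀ (K : Type) [Field K] [NumberField K] [IsCyclotomicExtension {p} ℚ K]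
    (J : 𝓞 K) (σ : K ≃ₐ[ℚ] K) (q : ℕ), (J : K) * σ (J : K) = (q : K) →
    Ideal.absNorm (Ideal.span {J}) = q ^ ((p - 1) / 2)

/-- (RJ-Preimage) The preimage `σ⁻¹(𝔮)` of a nonzero prime under an automorphism exists, is a
nonzero prime, and has the same absolute norm. -/
def RJPreimageStatement : Prop :=
  ∀ (K : Type) [Field K] [NumberField K] (σ : K ≃ₐ[ℚ] K) (𝔮 : Ideal (𝓞 K)), 𝔮.IsPrime → 𝔮 ≠ ⊥ →
    ∃ Q : Ideal (𝓞 K), IsPreimagePrime σ 𝔮 Q ∧ Q.IsPrime ∧ Q ≠ ⊥ ∧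
      Ideal.absNorm Q = Ideal.absNorm 𝔮

/-- (RJ-Distinct) If `𝔮 ∌ p` has prime absolute norm and `σ⁻¹(𝔮) = τ⁻¹(𝔮)` where `σ ζ = ζ ^ a`,
`τ ζ = ζ ^ b`, then `a ≡ b mod p`. -/
def RJDistinctStatement : Prop :=
  ∀ (p : ℕ) [Fact p.Prime] (K : Type) [Field K] [NumberField K] (ζ : 𝓞 K), IsPrimitiveRoot ζ p →
  ∀ 𝔮 : Ideal (𝓞 K), 𝔮.IsPrime → (Ideal.absNorm 𝔮).Prime → (p : 𝓞 K) ∉ 𝔮 →
  ∀ (σ τ : K ≃ₐ[ℚ] K) (a b : ℕ) (Q : Ideal (𝓞 K)),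
    σ (ζ : K) = (ζ : K) ^ a → τ (ζ : K) = (ζ : K) ^ b →
    IsPreimagePrime σ 𝔮 Q → IsPreimagePrime τ 𝔮 Q → a % p = b % p

/-- (RJ-Ideal) An ideal `I` of absolute norm `q ^ |s|` which is contained in the pairwise distinct
nonzero primes `Q a` (`a ∈ s`), each of absolute norm `q`, is their product. -/
def RJIdealStatement : Prop :=
  ∀ (K : Type) [Field K] [NumberField K] (s : Finset ℕ) (Q : ℕ → Ideal (𝓞 K)) (I : Ideal (𝓞 K))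
    (q : ℕ), 0 < q →
    (∀ a ∈ s, (Q a).IsPrime ∧ Q a ≠ ⊥ ∧ Ideal.absNorm (Q a) = q ∧ I ≤ Q a) →
    (∀ a ∈ s, ∀ b ∈ s, Q a = Q b → a = b) →
    Ideal.absNorm I = q ^ s.card →
    I = ∏ a ∈ s, Q a

end Fermat.Agent.S14
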