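/-
S14, block R, sub-block RJ, package Char (twin A).

`rjca_char : RJCharStatement`: the `p`-th power residue character at a prime `𝔮 ∌ p` of a number
field containing a primitive `p`-th root of unity.

The construction is done abstractly (`rjca_general`): for a ring homomorphism `φ : R →+* k` from a
domain to a finite field and a primitive `p`-th root of unity `ζ : R` with `φ ζ ≠ 1`, there is a
multiplicative character `χ : MulChar k R` with `φ (χ y) = y ^ ((|k| - 1) / p)`, values in the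
powers of `ζ` on nonzero elements, and `χ ≠ 1`, `χ * χ ≠ 1` (for `p` odd).
-/
import Fermat.Agent.S14.RJInterfaces

set_option autoImplicit false

open NumberField

namespace Fermat.Agent.S14

/-- Abstract construction of the power residue character: `φ : R →+* k` a ring homomorphism from
a domain to a finite field, `ζ : R` a primitive `p`-th root of unity (`p` an odd prime) whose image
in `k` is not `1`.  Then `p ∣ |k| - 1` and there is a multiplicative character `χ : MulChar k R`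
lifting `y ↦ y ^ ((|k| - 1) / p)`, with values in `⟨ζ⟩` on nonzero elements, such that `χ` and
`χ * χ` are nontrivial. -/
theorem rjca_general (p : ℕ) [Fact p.Prime] (hp3 : 3 ≤ p) (R : Type) [CommRing R] [IsDomain R]
    (k : Type) [Field k] [Fintype k] (φ : R →+* k) (ζ : R) (hζ : IsPrimitiveRoot ζ p)
    (hζ1 : φ ζ ≠ 1) :
    p ∣ Fintype.card k - 1 ∧
    ∃ χ : MulChar k R,
      (∀ y : k, φ (χ y) = y ^ ((Fintype.card k - 1) / p)) ∧
      (∀ y : k, y ≠ 0 → ∃ e : ℕ, χ y = ζ ^ e) ∧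
      χ ≠ 1 ∧ χ * χ ≠ 1 := by
  classical
  have hp : p.Prime := Fact.out
  have hζp : (φ ζ) ^ p = 1 := by rw [← map_pow, hζ.pow_eq_one, map_one]
  have hord : orderOf (φ ζ) = p := orderOf_eq_prime hζp hζ1
  have hφζ : IsPrimitiveRoot (φ ζ) p := hord ▸ IsPrimitiveRoot.orderOf (φ ζ)
  have hφζ0 : φ ζ ≠ 0 := by
    intro h
    rw [h, zero_pow hp.ne_zero] at hζp
    exact zero_ne_one hζp
  have hdvd : p ∣ Fintype.card k - 1 :=
    hφζ.dvd_of_pow_eq_one _ (FiniteField.pow_card_sub_one_eq_one _ hφζ0)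
  refine ⟨hdvd, ?_⟩
  obtain ⟨m, hm⟩ : ∃ m : ℕ, m = (Fintype.card k - 1) / p := ⟨_, rfl⟩
  rw [← hm]
  have hpm : p * m = Fintype.card k - 1 := by rw [hm]; exact Nat.mul_div_cancel' hdvd
  have hcard : 1 < Fintype.card k := Fintype.one_lt_card
  have hm0 : m ≠ 0 := by
    intro h
    rw [h, mul_zero] at hpm
    omega
  -- injectivity of reduction on powers of `ζ`
  have key : ∀ a b : ℕ, (φ ζ) ^ a = (φ ζ) ^ b → ζ ^ a = ζ ^ b := by
    intro a b h
    rw [(hφζ.isOfFinOrder hp.ne_zero).pow_eq_pow_iff_modEq, hord] at h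
    rw [(hζ.isOfFinOrder hp.ne_zero).pow_eq_pow_iff_modEq, ← hζ.eq_orderOf]
    exact h
  have hex : ∀ y : k, y ≠ 0 → ∃ e : ℕ, y ^ m = (φ ζ) ^ e := by
    intro y hy
    have h1 : (y ^ m) ^ p = 1 := by
      rw [← pow_mul, mul_comm, hpm]
      exact FiniteField.pow_card_sub_one_eq_one y hy
    have : NeZero p := ⟨hp.ne_zero⟩
    obtain ⟨e, -, he⟩ := hφζ.eq_pow_of_pow_eq_one h1
    exact ⟨e, he.symm⟩
  -- the underlying function of the character
  obtain ⟨g, hg0, hg⟩ : ∃ g : k → R, g 0 = 0 ∧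
      ∀ y : k, y ≠ 0 → ∀ e : ℕ, y ^ m = (φ ζ) ^ e → g y = ζ ^ e := by
    refine ⟨fun y => if h : y = 0 then 0 else ζ ^ (Classical.choose (hex y h)), dif_pos rfl, ?_⟩
    intro y hy e he
    have h1 : (fun y : k => if h : y = 0 then (0 : R) else ζ ^ (Classical.choose (hex y h))) y =
        ζ ^ (Classical.choose (hex y hy)) := dif_neg hy
    rw [h1]
    apply key
    rw [← Classical.choose_spec (hex y hy), he]
  have hg1 : g 1 = 1 := by
    have h := hg 1 one_ne_zero 0 (by rw [one_pow, pow_zero])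
    rw [h, pow_zero]
  have hgmul : ∀ x y : k, g (x * y) = g x * g y := by
    intro x y
    by_cases hx : x = 0
    · rw [hx, zero_mul, hg0, zero_mul]
    by_cases hy : y = 0
    · rw [hy, mul_zero, hg0, mul_zero]
    obtain ⟨a, ha⟩ := hex x hx
    obtain ⟨b, hb⟩ := hex y hy
    rw [hg x hx a ha, hg y hy b hb,
      hg (x * y) (mul_ne_zero hx hy) (a + b) (by rw [mul_pow, ha, hb, pow_add]), pow_add]
  obtain ⟨χ, hχ⟩ : ∃ χ : MulChar k R, ∀ y : k, χ y = g y := by
    refine ⟨{ toFun := g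
              map_one' := hg1
              map_mul' := hgmul
              map_nonunit' := ?_ }, fun _ => rfl⟩
    intro a ha
    have ha0 : a = 0 := by
      by_contra h
      exact ha (isUnit_iff_ne_zero.mpr h)
    rw [ha0]
    exact hg0
  -- a generator of the unit group gives a witness of nontriviality
  obtain ⟨u, hu⟩ := IsCyclic.exists_generator (α := kˣ)
  have hordu : orderOf u = p * m := by
    rw [orderOf_eq_card_of_forall_mem_zpowers hu, Nat.card_eq_fintype_card, Fintype.card_units, hpm]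
  have hum : (u : k) ^ m ≠ 1 := by
    have h1 : u ^ m ≠ 1 := by
      apply pow_ne_one_of_lt_orderOf hm0
      rw [hordu]
      have h2 : 2 ≤ p := by omega
      have h3 : 0 < m := Nat.pos_of_ne_zero hm0
      nlinarith
    intro h
    apply h1
    ext
    rw [Units.val_pow_eq_pow_val, h, Units.val_one]
  obtain ⟨e, he⟩ := hex (u : k) u.ne_zero
  have hχu : χ (u : k) = ζ ^ e := by rw [hχ, hg (u : k) u.ne_zero e he]
  have hpe : ¬ p ∣ e := by
    intro h
    apply hum
    rw [he]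
    exact (hφζ.pow_eq_one_iff_dvd e).mpr h
  refine ⟨χ, ?_, ?_, ?_, ?_⟩
  · intro y
    by_cases hy : y = 0
    · rw [hy, hχ, hg0, map_zero, zero_pow hm0]
    · obtain ⟨a, ha⟩ := hex y hy
      rw [hχ, hg y hy a ha, map_pow, ha]
  · intro y hy
    obtain ⟨a, ha⟩ := hex y hy
    exact ⟨a, by rw [hχ, hg y hy a ha]⟩
  · intro h
    have h1 : χ (u : k) = 1 := by rw [h, MulChar.one_apply_coe]
    rw [hχu] at h1
    exact hpe ((hζ.pow_eq_one_iff_dvd e).mp h1)
  · intro h
    have h1 : (χ * χ) (u : k) = 1 := by rw [h, MulChar.one_apply_coe]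
    rw [MulChar.mul_apply, hχu, ← pow_add] at h1
    have h2 : p ∣ e + e := (hζ.pow_eq_one_iff_dvd _).mp h1
    have h3 : p ∣ 2 * e := by rwa [two_mul]
    have h4 : Nat.Coprime p 2 := by
      rw [Nat.coprime_primes hp Nat.prime_two]
      omega
    exact hpe (h4.dvd_of_dvd_mul_left h3)

/-- (RJ-Char) The `p`-th power residue character at a prime `𝔮 ∌ p` of a number field containing
a primitive `p`-th root of unity. -/
theorem rjca_char : RJCharStatement := by
  intro p _ hp3 K _ _ ζ hζ 𝔮 h𝔮 h𝔮0 hp𝔮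
  have hp : p.Prime := Fact.out
  have hmax : 𝔮.IsMaximal := Ideal.IsPrime.isMaximal h𝔮 h𝔮0
  let _ : Field (𝓞 K ⧸ 𝔮) := Ideal.Quotient.field 𝔮
  have : Finite (𝓞 K ⧸ 𝔮) := Ideal.finiteQuotientOfFreeOfNeBot 𝔮 h𝔮0
  let _ : Fintype (𝓞 K ⧸ 𝔮) := Fintype.ofFinite _
  have hN : Ideal.absNorm 𝔮 = Fintype.card (𝓞 K ⧸ 𝔮) := by
    rw [Ideal.absNorm_apply, Submodule.cardQuot_apply, Nat.card_eq_fintype_card]
  have hζ1 : Ideal.Quotient.mk 𝔮 ζ ≠ 1 := by
    intro h
    apply hp𝔮
    have h0 := hζ.geom_sum_eq_zero hp.one_lt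
    have h1 : Ideal.Quotient.mk 𝔮 (∑ i ∈ Finset.range p, ζ ^ i) = 0 := by rw [h0, map_zero]
    rw [map_sum] at h1
    simp only [map_pow, h, one_pow, Finset.sum_const, Finset.card_range, nsmul_eq_mul,
      mul_one] at h1
    rw [← map_natCast (Ideal.Quotient.mk 𝔮), Ideal.Quotient.eq_zero_iff_mem] at h1
    exact h1
  obtain ⟨hdvd, χ, h1, h2, h3, h4⟩ :=
    rjca_general p hp3 (𝓞 K) (𝓞 K ⧸ 𝔮) (Ideal.Quotient.mk 𝔮) ζ hζ hζ1
  rw [hN]
  refine ⟨hdvd, χ, ?_, h2, h3, h4⟩
  intro x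
  rw [← Ideal.Quotient.eq, h1, map_pow]

end Fermat.Agent.S14
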