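/-
S14, block R, sub-block RJ, package Char (twin B): the `p`-th power residue character at a prime
`𝔮 ∌ p` of a number field containing a primitive `p`-th root of unity.

Main theorem: `rjcb_char : RJCharStatement`.

Auxiliary general lemmas (possibly useful elsewhere):
* `rjcb_map_primitive`: a ring homomorphism `φ : R → k` of domains with `(p : k) ≠ 0` (`p` prime)
  maps primitive `p`-th roots of unity to primitive `p`-th roots of unity.
* `rjcb_general`: for a finite field `k`, a commutative ring `R`, a ring homomorphism `φ : R → k`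
  and `ζ : R` a primitive `p`-th root of unity whose image is still primitive (`p ≥ 3` prime):
  `p ∣ |k| - 1` and there is `χ : MulChar k R` with `φ (χ x) = x ^ ((|k| - 1) / p)`, with values
  in the powers of `ζ` on nonzero elements and with `χ ≠ 1`, `χ * χ ≠ 1`.
-/
import Fermat.Agent.S14.RJInterfaces

set_option autoImplicit false

open NumberField

namespace Fermat.Agent.S14

/-- A ring homomorphism `φ : R → k` between domains with `(p : k) ≠ 0`, `p` prime, maps a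
primitive `p`-th root of unity to a primitive `p`-th root of unity. -/
theorem rjcb_map_primitive {R k : Type*} [CommRing R] [IsDomain R] [CommRing k] [IsDomain k]
    (φ : R →+* k) (p : ℕ) [Fact p.Prime] (ζ : R) (hζ : IsPrimitiveRoot ζ p)
    (hp : (p : k) ≠ 0) : IsPrimitiveRoot (φ ζ) p := by
  have hp' : p.Prime := Fact.out
  have h1 : (φ ζ) ^ p = 1 := by rw [← map_pow, hζ.pow_eq_one, map_one]
  have h2 : φ ζ ≠ 1 := by
    intro h
    apply hp
    have h3 := congrArg φ (hζ.geom_sum_eq_zero hp'.one_lt)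
    simpa [map_sum, map_pow, h] using h3
  have h4 := IsPrimitiveRoot.orderOf (φ ζ)
  rwa [orderOf_eq_prime h1 h2] at h4

/-- The `p`-th power residue character of a finite field `k` with values in a ring `R` mapping to
`k`, attached to a primitive `p`-th root of unity `ζ : R` whose image in `k` is primitive. -/
theorem rjcb_general {k : Type*} [Field k] [Fintype k] {R : Type*} [CommRing R]
    (φ : R →+* k) (p : ℕ) [Fact p.Prime] (hp3 : 3 ≤ p) (ζ : R) (hζ : IsPrimitiveRoot ζ p)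
    (hζ' : IsPrimitiveRoot (φ ζ) p) :
    p ∣ Fintype.card k - 1 ∧ ∃ χ : MulChar k R,
      (∀ x : k, φ (χ x) = x ^ ((Fintype.card k - 1) / p)) ∧
      (∀ x : k, x ≠ 0 → ∃ e : ℕ, χ x = ζ ^ e) ∧ χ ≠ 1 ∧ χ * χ ≠ 1 := by
  classical
  have hp' : p.Prime := Fact.out
  have hp0 : p ≠ 0 := hp'.ne_zero
  have hdvd : p ∣ Fintype.card k - 1 := by
    apply hζ'.dvd_of_pow_eq_one
    exact FiniteField.pow_card_sub_one_eq_one _ (hζ'.ne_zero hp0)
  refine ⟨hdvd, ?_⟩
  obtain ⟨m, hm_def⟩ : ∃ m : ℕ, m = (Fintype.card k - 1) / p := ⟨_, rfl⟩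
  rw [← hm_def]
  have hm : p * m = Fintype.card k - 1 := by rw [hm_def]; exact Nat.mul_div_cancel' hdvd
  have hcard : 2 ≤ Fintype.card k := Fintype.one_lt_card
  have hm0 : m ≠ 0 := by
    rintro h
    rw [h, mul_zero] at hm
    omega
  -- the roots of unity as units
  obtain ⟨ζu, hζu_coe⟩ : ∃ ζu : Rˣ, (ζu : R) = ζ := hζ.isUnit hp0
  have hζu : IsPrimitiveRoot ζu p := by
    rw [← IsPrimitiveRoot.coe_units_iff, hζu_coe]; exact hζ
  obtain ⟨ζk, hζk_def⟩ : ∃ ζk : kˣ, ζk = Units.map (φ : R →* k) ζu := ⟨_, rfl⟩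
  have hζk_coe : (ζk : k) = φ ζ := by rw [hζk_def, ← hζu_coe]; rfl
  have hζk : IsPrimitiveRoot ζk p := by
    rw [← IsPrimitiveRoot.coe_units_iff, hζk_coe]; exact hζ'
  have hordu : orderOf ζu = p := hζu.eq_orderOf.symm
  have hordk : orderOf ζk = p := hζk.eq_orderOf.symm
  have key : ∀ a b : ℕ, ζu ^ a = ζu ^ b ↔ ζk ^ a = ζk ^ b := by
    intro a b
    rw [pow_eq_pow_iff_modEq, pow_eq_pow_iff_modEq, hordu, hordk]
  have hex : ∀ u : kˣ, ∃ e : ℕ, ζk ^ e = u ^ m := by
    intro u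
    have h1 : ((u : k) ^ m) ^ p = 1 := by
      rw [← pow_mul, mul_comm, hm]
      exact FiniteField.pow_card_sub_one_eq_one _ u.ne_zero
    have : NeZero p := ⟨hp0⟩
    obtain ⟨i, -, hi⟩ := hζ'.eq_pow_of_pow_eq_one h1
    refine ⟨i, Units.ext ?_⟩
    rw [Units.val_pow_eq_pow_val, Units.val_pow_eq_pow_val, hζk_coe, hi]
  choose e he using hex
  let f : kˣ →* Rˣ :=
    { toFun := fun u => ζu ^ e u
      map_one' := by
        show ζu ^ e 1 = 1
        rw [← pow_zero ζu, key, he, one_pow, pow_zero]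
      map_mul' := by
        intro u v
        show ζu ^ e (u * v) = ζu ^ e u * ζu ^ e v
        rw [← pow_add, key, pow_add, he, he, he, mul_pow] }
  have hf : ∀ u : kˣ, f u = ζu ^ e u := fun u => rfl
  have hχ : ∀ u : kˣ, MulChar.ofUnitHom f (u : k) = ζ ^ e u := by
    intro u
    rw [MulChar.ofUnitHom_coe, hf, Units.val_pow_eq_pow_val, hζu_coe]
  -- a generator of the cyclic group `kˣ`
  obtain ⟨g, hg⟩ := IsCyclic.exists_generator (α := kˣ)
  have hordg : orderOf g = Fintype.card k - 1 := by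
    rw [orderOf_eq_card_of_forall_mem_zpowers hg, Nat.card_eq_fintype_card, Fintype.card_units]
  have hgm : g ^ m ≠ 1 := by
    apply pow_ne_one_of_lt_orderOf hm0
    rw [hordg, ← hm]
    have h2 : 2 ≤ p := hp'.two_le
    have h1 : 1 ≤ m := Nat.pos_of_ne_zero hm0
    nlinarith
  have hpe : ¬ p ∣ e g := by
    intro h
    apply hgm
    rw [← he, (hζk.pow_eq_one_iff_dvd _).2 h]
  have hp2e : ¬ p ∣ 2 * e g := by
    intro h
    rcases (Nat.Prime.dvd_mul hp').1 h with h | h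
    · have := Nat.le_of_dvd (by norm_num) h
      omega
    · exact hpe h
  refine ⟨MulChar.ofUnitHom f, ?_, ?_, ?_, ?_⟩
  · intro x
    by_cases hx : x = 0
    · subst hx
      rw [MulChar.map_zero, map_zero, zero_pow hm0]
    · obtain ⟨u, rfl⟩ : ∃ u : kˣ, (u : k) = x := ⟨Units.mk0 x hx, rfl⟩
      rw [hχ, map_pow, ← hζk_coe, ← Units.val_pow_eq_pow_val, he, Units.val_pow_eq_pow_val]
  · intro x hx
    obtain ⟨u, rfl⟩ : ∃ u : kˣ, (u : k) = x := ⟨Units.mk0 x hx, rfl⟩
    exact ⟨e u, hχ u⟩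
  · rw [MulChar.ne_one_iff]
    refine ⟨g, ?_⟩
    rw [hχ]
    intro h
    exact hpe ((hζ.pow_eq_one_iff_dvd _).1 h)
  · rw [MulChar.ne_one_iff]
    refine ⟨g, ?_⟩
    rw [MulChar.mul_apply, hχ, ← pow_add, ← two_mul]
    intro h
    exact hp2e ((hζ.pow_eq_one_iff_dvd _).1 h)

/-- (RJ-Char) The `p`-th power residue character at a prime `𝔮 ∌ p` of a number field containing
a primitive `p`-th root of unity. -/
theorem rjcb_char : RJCharStatement := by
  intro p _ hp3 K _ _ ζ hζ 𝔮 h𝔮 h𝔮0 hp𝔮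
  have : 𝔮.IsMaximal := Ideal.IsPrime.isMaximal h𝔮 h𝔮0
  let : Field (𝓞 K ⧸ 𝔮) := Ideal.Quotient.field 𝔮
  have : Finite (𝓞 K ⧸ 𝔮) := Ideal.finiteQuotientOfFreeOfNeBot 𝔮 h𝔮0
  let : Fintype (𝓞 K ⧸ 𝔮) := Fintype.ofFinite _
  have hN : Ideal.absNorm 𝔮 = Fintype.card (𝓞 K ⧸ 𝔮) := by
    rw [Ideal.absNorm_apply, Submodule.cardQuot_apply, Nat.card_eq_fintype_card]
  have hpk : ((p : ℕ) : 𝓞 K ⧸ 𝔮) ≠ 0 := by
    intro h
    apply hp𝔮
    rw [← Ideal.Quotient.eq_zero_iff_mem, map_natCast]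
    exact h
  have hζ' : IsPrimitiveRoot (Ideal.Quotient.mk 𝔮 ζ) p :=
    rjcb_map_primitive (Ideal.Quotient.mk 𝔮) p ζ hζ hpk
  obtain ⟨h1, χ, h2, h3, h4, h5⟩ := rjcb_general (Ideal.Quotient.mk 𝔮) p hp3 ζ hζ hζ'
  rw [hN]
  refine ⟨h1, χ, ?_, h3, h4, h5⟩
  intro x
  rw [← Ideal.Quotient.eq, h2, map_pow]

end Fermat.Agent.S14
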