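/-
S14, block R, sub-block RJ: packages Preimage and Distinct.

* `rjq_preimage : RJPreimageStatement`: the preimage `σ⁻¹(𝔮)` of a nonzero prime under an
  automorphism exists, is a nonzero prime and has the same absolute norm.
* `rjq_distinct : RJDistinctStatement`: if `𝔮 ∌ p` has prime absolute norm and
  `σ⁻¹(𝔮) = τ⁻¹(𝔮)` with `σ ζ = ζ ^ a`, `τ ζ = ζ ^ b`, then `a ≡ b mod p`.
-/
import Fermat.Agent.S14.RJInterfaces

set_option autoImplicit false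

open NumberField

namespace Fermat.Agent.S14

/-- The ring automorphism of `𝓞 K` induced by `σ : K ≃ₐ[ℚ] K`. -/
noncomputable def rjq_equiv {K : Type} [Field K] [NumberField K] (σ : K ≃ₐ[ℚ] K) :
    𝓞 K ≃+* 𝓞 K :=
  RingOfIntegers.mapRingEquiv (σ : K ≃+* K)

theorem rjq_equiv_coe {K : Type} [Field K] [NumberField K] (σ : K ≃ₐ[ℚ] K) (x : 𝓞 K) :
    ((rjq_equiv σ x : 𝓞 K) : K) = σ (x : K) := rfl

/-- The comap of `𝔮` under the automorphism of `𝓞 K` induced by `σ` is a preimage prime. -/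
theorem rjq_isPreimagePrime_comap {K : Type} [Field K] [NumberField K] (σ : K ≃ₐ[ℚ] K)
    (𝔮 : Ideal (𝓞 K)) : IsPreimagePrime σ 𝔮 (Ideal.comap (rjq_equiv σ) 𝔮) := by
  intro x
  rw [Ideal.mem_comap]
  constructor
  · intro hx
    exact ⟨rjq_equiv σ x, hx, rjq_equiv_coe σ x⟩
  · rintro ⟨y, hy, hyx⟩
    have h : rjq_equiv σ x = y := RingOfIntegers.ext (by rw [rjq_equiv_coe, hyx])
    rw [h]
    exact hy

/-- A preimage prime is unique: it is the comap under the induced automorphism. -/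
theorem rjq_eq_comap {K : Type} [Field K] [NumberField K] (σ : K ≃ₐ[ℚ] K)
    (𝔮 Q : Ideal (𝓞 K)) (h : IsPreimagePrime σ 𝔮 Q) : Q = Ideal.comap (rjq_equiv σ) 𝔮 := by
  ext x
  rw [h x, ← rjq_isPreimagePrime_comap σ 𝔮 x]

/-- The absolute norm is invariant under comap along a ring automorphism of `𝓞 K`. -/
theorem rjq_absNorm_comap {K : Type} [Field K] [NumberField K] (e : 𝓞 K ≃+* 𝓞 K)
    (𝔮 : Ideal (𝓞 K)) : Ideal.absNorm (Ideal.comap e 𝔮) = Ideal.absNorm 𝔮 := by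
  rw [Ideal.absNorm_apply, Submodule.cardQuot_apply, Ideal.absNorm_apply,
    Submodule.cardQuot_apply]
  have hmap : 𝔮 = Ideal.map (e : 𝓞 K →+* 𝓞 K) (Ideal.comap e 𝔮) :=
    (Ideal.map_comap_of_surjective (e : 𝓞 K →+* 𝓞 K) e.surjective 𝔮).symm
  exact Nat.card_congr (Ideal.quotientEquiv (Ideal.comap e 𝔮) 𝔮 e hmap).toEquiv

/-- (RJ-Preimage) -/
theorem rjq_preimage : RJPreimageStatement := by
  intro K _ _ σ 𝔮 h𝔮 h0
  refine ⟨Ideal.comap (rjq_equiv σ) 𝔮, rjq_isPreimagePrime_comap σ 𝔮, Ideal.comap_isPrime _ _,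
    ?_, rjq_absNorm_comap _ 𝔮⟩
  obtain ⟨y, hy, hy0⟩ := Submodule.exists_mem_ne_zero_of_ne_bot h0
  intro hbot
  have hx : (rjq_equiv σ).symm y ∈ Ideal.comap (rjq_equiv σ) 𝔮 := by
    rw [Ideal.mem_comap, RingEquiv.apply_symm_apply]
    exact hy
  rw [hbot, Ideal.mem_bot] at hx
  exact hy0 ((RingEquiv.map_eq_zero_iff (rjq_equiv σ).symm).mp hx)

/-- (RJ-Distinct) -/
theorem rjq_distinct : RJDistinctStatement := by
  intro p _ K _ _ ζ hζ 𝔮 h𝔮 hq hp𝔮 σ τ a b Q hσ hτ hQσ hQτ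
  have hp : p.Prime := Fact.out
  have : Fact (Ideal.absNorm 𝔮).Prime := ⟨hq⟩
  have hcard : Nat.card (𝓞 K ⧸ 𝔮) = Ideal.absNorm 𝔮 := by
    rw [Ideal.absNorm_apply, Submodule.cardQuot_apply]
  have h1 : (1 : 𝓞 K ⧸ 𝔮) ≠ 0 := by
    intro h
    have h1mem : (1 : 𝓞 K) ∈ 𝔮 :=
      Ideal.Quotient.eq_zero_iff_mem.mp (by rw [map_one]; exact h)
    exact h𝔮.ne_top ((Ideal.eq_top_iff_one _).mpr h1mem)
  -- Step 1: `ζ` is congruent to a natural number modulo `𝔮`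
  obtain ⟨n, hn⟩ : ∃ n : ℕ, ζ - (n : 𝓞 K) ∈ 𝔮 := by
    have hmem : Ideal.Quotient.mk 𝔮 ζ ∈ AddSubmonoid.multiples (1 : 𝓞 K ⧸ 𝔮) :=
      mem_multiples_of_prime_card hcard h1
    obtain ⟨n, hn⟩ := (AddSubmonoid.mem_multiples_iff _ _).mp hmem
    refine ⟨n, ?_⟩
    rw [← Ideal.Quotient.eq_zero_iff_mem, map_sub, map_natCast, ← hn, nsmul_one, sub_self]
  -- Step 2: `ζ ^ b - ζ ^ a ∈ 𝔮`
  have hya : ζ ^ a - (n : 𝓞 K) ^ a ∈ 𝔮 :=
    Ideal.mem_of_dvd 𝔮 (sub_dvd_pow_sub_pow ζ (n : 𝓞 K) a) hn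
  have hxQ : ζ - (n : 𝓞 K) ^ a ∈ Q := by
    rw [hQσ]
    refine ⟨ζ ^ a - (n : 𝓞 K) ^ a, hya, ?_⟩
    simp only [map_sub, map_pow, map_natCast, hσ]
  obtain ⟨y', hy', hy'x⟩ := (hQτ _).mp hxQ
  have hy'eq : y' = ζ ^ b - (n : 𝓞 K) ^ a := by
    apply RingOfIntegers.ext
    rw [hy'x]
    simp only [map_sub, map_pow, map_natCast, hτ]
  have hba : ζ ^ b - ζ ^ a ∈ 𝔮 := by
    have h := 𝔮.sub_mem (hy'eq ▸ hy') hya
    rwa [sub_sub_sub_cancel_right] at h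
  -- Step 3: the class of `ζ` modulo `𝔮` has order `p`
  have hpow : (Ideal.Quotient.mk 𝔮 ζ) ^ p = 1 := by
    rw [← map_pow, hζ.pow_eq_one, map_one]
  have hne1 : Ideal.Quotient.mk 𝔮 ζ ≠ 1 := by
    intro h
    apply hp𝔮
    rw [← Ideal.Quotient.eq_zero_iff_mem]
    have hsum := congrArg (Ideal.Quotient.mk 𝔮) (hζ.geom_sum_eq_zero hp.one_lt)
    rw [map_sum, map_zero] at hsum
    simp only [map_pow, h, one_pow, Finset.sum_const, Finset.card_range, nsmul_one] at hsum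
    rw [map_natCast]
    exact hsum
  have hord : orderOf (Ideal.Quotient.mk 𝔮 ζ) = p := orderOf_eq_prime hpow hne1
  have hfin : IsOfFinOrder (Ideal.Quotient.mk 𝔮 ζ) :=
    isOfFinOrder_iff_pow_eq_one.mpr ⟨p, hp.pos, hpow⟩
  have heq : (Ideal.Quotient.mk 𝔮 ζ) ^ a = (Ideal.Quotient.mk 𝔮 ζ) ^ b := by
    rw [← map_pow, ← map_pow]
    symm
    rw [← sub_eq_zero, ← map_sub]
    exact Ideal.Quotient.eq_zero_iff_mem.mpr hba
  have hmod := hfin.pow_inj_mod.mp heq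
  rwa [hord] at hmod

end Fermat.Agent.S14
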