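/-
S14, block R, sub-block RJ, package Element (twin A).  Owner: helper262.

`rjea_element : RJCharStatement → RJPowSumStatement → RJElementStatement`.

The Jacobi sum `J = ∑_{x ∈ k} χ(x) χ(1 - x)` of the `p`-th power residue character `χ` at a prime
`𝔮 ∌ p` (`k = 𝓞 K ⧸ 𝔮`) satisfies
* `σ(J) ∈ 𝔮` for `σ ζ = ζ ^ a`, `1 ≤ a < p / 2`: indeed `σ(J) = ∑ χ(x)^a χ(1-x)^a ≡ ∑ x^(am) (1-x)^(am) = 0`;
* `J · σ(J) = N𝔮` for `σ ζ = ζ ^ (p - 1)`: indeed `σ(J) = J(χ⁻¹, χ⁻¹)`, and Mathlib's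
  `jacobiSum_mul_jacobiSum_inv` applies.
-/
import Fermat.Agent.S14.RJInterfaces

set_option autoImplicit false

open NumberField

namespace Fermat.Agent.S14

/-- Key fact (G): an automorphism with `σ ζ = ζ ^ a` (`a ≥ 1`) raises to the `a`-th power every
element of `𝓞 K` which is `0` or a power of `ζ`. -/
theorem rjea_galois_pow (K : Type) [Field K] [NumberField K] (ζ : 𝓞 K) (σ : K ≃ₐ[ℚ] K) (a : ℕ)
    (ha : 1 ≤ a) (hσ : σ (ζ : K) = (ζ : K) ^ a) (w : 𝓞 K) (hw : w = 0 ∨ ∃ e : ℕ, w = ζ ^ e) :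
    σ (w : K) = (w : K) ^ a := by
  rcases hw with rfl | ⟨e, rfl⟩
  · have ha0 : a ≠ 0 := by omega
    simp [ha0]
  · push_cast
    rw [map_pow, hσ, ← pow_mul, ← pow_mul, mul_comm]

/-- Part (a), in the residue field: the reduction of `∑ χ(x)^a χ(1-x)^a` vanishes. -/
theorem rjea_sum_mem (hPow : RJPowSumStatement)
    (K : Type) [Field K] [NumberField K] (𝔮 : Ideal (𝓞 K)) (h𝔮 : 𝔮.IsPrime) (h𝔮0 : 𝔮 ≠ ⊥)
    [Fintype (𝓞 K ⧸ 𝔮)]
    (χ : MulChar (𝓞 K ⧸ 𝔮) (𝓞 K)) (m M : ℕ)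
    (hχ : ∀ x : 𝓞 K, χ (Ideal.Quotient.mk 𝔮 x) - x ^ m ∈ 𝔮)
    (hM : 2 * (m * M) < Ideal.absNorm 𝔮 - 1) :
    ∑ x : 𝓞 K ⧸ 𝔮, χ x ^ M * χ (1 - x) ^ M ∈ 𝔮 := by
  have hmax : 𝔮.IsMaximal := Ideal.IsPrime.isMaximal h𝔮 h𝔮0
  let _ : Field (𝓞 K ⧸ 𝔮) := Ideal.Quotient.field 𝔮
  have hcard : Fintype.card (𝓞 K ⧸ 𝔮) = Ideal.absNorm 𝔮 := by
    rw [Ideal.absNorm_apply, Submodule.cardQuot_apply, Nat.card_eq_fintype_card]
  have hred : ∀ z : 𝓞 K ⧸ 𝔮, Ideal.Quotient.mk 𝔮 (χ z) = z ^ m := by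
    intro z
    obtain ⟨x, rfl⟩ := Ideal.Quotient.mk_surjective z
    rw [← map_pow, Ideal.Quotient.eq]
    exact hχ x
  rw [← Ideal.Quotient.eq_zero_iff_mem, map_sum]
  have h0 : ∑ x : 𝓞 K ⧸ 𝔮, x ^ (m * M) * (1 - x) ^ (m * M) = 0 :=
    hPow (𝓞 K ⧸ 𝔮) (m * M) (by rw [hcard]; exact hM)
  rw [← h0]
  refine Finset.sum_congr rfl fun x _ => ?_
  rw [map_mul, map_pow, map_pow, hred, hred, ← pow_mul, ← pow_mul]

/-- Part (b), over a field: if `σ` inverts all the values of `χ`, then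
`J(χ, χ) · σ(J(χ, χ)) = |k|`. -/
theorem rjea_mul_conj (k : Type) [Field k] [Fintype k] (K : Type) [Field K] [CharZero K]
    (χ : MulChar k K) (hχ : χ ≠ 1) (hχχ : χ * χ ≠ 1) (σ : K →+* K)
    (hσ : ∀ z : k, σ (χ z) = (χ z)⁻¹) :
    jacobiSum χ χ * σ (jacobiSum χ χ) = (Fintype.card k : K) := by
  have hchar : ringChar K ≠ ringChar k := by
    rw [ringChar.eq_zero]
    exact (CharP.ringChar_ne_zero_of_finite k).symm
  have h := jacobiSum_mul_jacobiSum_inv hchar hχ hχ hχχ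
  rw [← h]
  congr 1
  unfold jacobiSum
  rw [map_sum]
  refine Finset.sum_congr rfl fun x _ => ?_
  rw [map_mul, hσ, hσ, MulChar.inv_apply_eq_inv', MulChar.inv_apply_eq_inv']

theorem rjea_element : RJCharStatement → RJPowSumStatement → RJElementStatement := by
  intro hChar hPow p _ hp3 K _ _ ζ hζ 𝔮 h𝔮 h𝔮0 hp𝔮
  obtain ⟨hdvd, χ, hχ1, hχ2, hχne, hχχne⟩ := hChar p hp3 K ζ hζ 𝔮 h𝔮 h𝔮0 hp𝔮
  have hmax : 𝔮.IsMaximal := Ideal.IsPrime.isMaximal h𝔮 h𝔮0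
  let _ : Field (𝓞 K ⧸ 𝔮) := Ideal.Quotient.field 𝔮
  have : Finite (𝓞 K ⧸ 𝔮) := Ideal.finiteQuotientOfFreeOfNeBot 𝔮 h𝔮0
  let _ : Fintype (𝓞 K ⧸ 𝔮) := Fintype.ofFinite _
  have hcard : Fintype.card (𝓞 K ⧸ 𝔮) = Ideal.absNorm 𝔮 := by
    rw [Ideal.absNorm_apply, Submodule.cardQuot_apply, Nat.card_eq_fintype_card]
  have hN2 : 2 ≤ Ideal.absNorm 𝔮 := by
    rw [← hcard]
    exact Fintype.one_lt_card
  have hpm : p * ((Ideal.absNorm 𝔮 - 1) / p) = Ideal.absNorm 𝔮 - 1 := Nat.mul_div_cancel' hdvd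
  have hppos : 0 < p := by omega
  have hval : ∀ z : 𝓞 K ⧸ 𝔮, χ z = 0 ∨ ∃ e : ℕ, χ z = ζ ^ e := by
    intro z
    by_cases hz : z = 0
    · left
      rw [hz]
      exact MulChar.map_zero χ
    · exact Or.inr (hχ2 z hz)
  refine ⟨∑ x : 𝓞 K ⧸ 𝔮, χ x * χ (1 - x), ?_, ?_⟩
  · intro σ a ha h2a hσ
    refine ⟨∑ x : 𝓞 K ⧸ 𝔮, χ x ^ a * χ (1 - x) ^ a, ?_, ?_⟩
    · refine rjea_sum_mem hPow K 𝔮 h𝔮 h𝔮0 χ ((Ideal.absNorm 𝔮 - 1) / p) a hχ1 ?_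
      have hmpos : 0 < (Ideal.absNorm 𝔮 - 1) / p :=
        Nat.div_pos (Nat.le_of_dvd (by omega) hdvd) hppos
      calc 2 * ((Ideal.absNorm 𝔮 - 1) / p * a)
          = (Ideal.absNorm 𝔮 - 1) / p * (2 * a) := by ring
        _ < (Ideal.absNorm 𝔮 - 1) / p * p := Nat.mul_lt_mul_of_pos_left h2a hmpos
        _ = Ideal.absNorm 𝔮 - 1 := by rw [mul_comm]; exact hpm
    · rw [RingOfIntegers.coe_eq_algebraMap, RingOfIntegers.coe_eq_algebraMap, map_sum, map_sum,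
        map_sum]
      refine Finset.sum_congr rfl fun x _ => ?_
      rw [map_mul, map_mul, map_mul, map_pow, map_pow]
      rw [← RingOfIntegers.coe_eq_algebraMap, ← RingOfIntegers.coe_eq_algebraMap,
        rjea_galois_pow K ζ σ a ha hσ _ (hval x), rjea_galois_pow K ζ σ a ha hσ _ (hval (1 - x))]
  · intro σ hσ
    have hinj : Function.Injective (algebraMap (𝓞 K) K) := RingOfIntegers.coe_injective
    have hχ' : χ.ringHomComp (algebraMap (𝓞 K) K) ≠ 1 :=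
      (MulChar.ringHomComp_ne_one_iff hinj).mpr hχne
    have hχχ' : χ.ringHomComp (algebraMap (𝓞 K) K) * χ.ringHomComp (algebraMap (𝓞 K) K) ≠ 1 := by
      rw [← MulChar.ringHomComp_mul]
      exact (MulChar.ringHomComp_ne_one_iff hinj).mpr hχχne
    have hinv : ∀ z : 𝓞 K ⧸ 𝔮, (σ : K →+* K) (χ.ringHomComp (algebraMap (𝓞 K) K) z)
        = (χ.ringHomComp (algebraMap (𝓞 K) K) z)⁻¹ := by
      intro z
      rw [MulChar.ringHomComp_apply, ← RingOfIntegers.coe_eq_algebraMap]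
      have h1 := rjea_galois_pow K ζ σ (p - 1) (by omega) hσ _ (hval z)
      refine Eq.trans h1 ?_
      rcases hval z with h0 | ⟨e, he⟩
      · rw [h0]
        have hp1 : p - 1 ≠ 0 := by omega
        simp [hp1]
      · rw [he]
        apply eq_inv_of_mul_eq_one_left
        rw [← pow_succ, Nat.sub_add_cancel (by omega : 1 ≤ p)]
        have hζp : ((ζ ^ e : 𝓞 K) : K) ^ p = 1 := by
          have : (ζ ^ e) ^ p = (1 : 𝓞 K) := by
            rw [← pow_mul, mul_comm, pow_mul, hζ.pow_eq_one, one_pow]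
          rw [RingOfIntegers.coe_eq_algebraMap, ← map_pow, this, map_one]
        exact hζp
    have h := rjea_mul_conj (𝓞 K ⧸ 𝔮) K (χ.ringHomComp (algebraMap (𝓞 K) K)) hχ' hχχ'
      (σ : K →+* K) hinv
    rw [jacobiSum_ringHomComp, hcard] at h
    exact h

end Fermat.Agent.S14
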