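/-
S14, block R, sub-block RJ, package Element (twin B).

`rjeb_element : RJCharStatement → RJPowSumStatement → RJElementStatement`.

The Jacobi sum `J = ∑_{x ∈ k} χ(x) χ(1 - x)` of the `p`-th power residue character `χ` at `𝔮`
(`k = 𝓞 K ⧸ 𝔮`): `σ(J) ≡ ∑ x^(am) (1-x)^(am) = 0 mod 𝔮` if `σ ζ = ζ ^ a`, `1 ≤ a < p / 2`, and
`J · σ(J) = N𝔮` if `σ ζ = ζ⁻¹` (Mathlib: `jacobiSum_mul_jacobiSum_inv`).
-/
import Fermat.Agent.S14.RJInterfaces

set_option autoImplicit false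

open NumberField

namespace Fermat.Agent.S14

/-- If `σ ζ = ζ ^ a` with `a ≥ 1` and `w` is `0` or a power of `ζ`, then `σ w = w ^ a`. -/
theorem rjeb_sigma_pow {K : Type} [Field K] [NumberField K] (ζ : 𝓞 K) (σ : K ≃ₐ[ℚ] K) (a : ℕ)
    (hσ : σ (ζ : K) = (ζ : K) ^ a) (ha : 1 ≤ a) (w : 𝓞 K) (hw : w = 0 ∨ ∃ e : ℕ, w = ζ ^ e) :
    σ (w : K) = (w : K) ^ a := by
  simp only [RingOfIntegers.coe_eq_algebraMap] at hσ ⊢
  rcases hw with rfl | ⟨e, rfl⟩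
  · rw [map_zero, map_zero, zero_pow (by omega : a ≠ 0)]
  · rw [map_pow, map_pow, hσ, ← pow_mul, ← pow_mul, mul_comm]

/-- If `ζ ^ p = 1`, `σ ζ = ζ ^ (p - 1)` and `w` is `0` or a power of `ζ`, then `σ w = w⁻¹`. -/
theorem rjeb_sigma_inv {p : ℕ} (hp : 1 ≤ p) {K : Type} [Field K] [NumberField K] (ζ : 𝓞 K)
    (hζ : ζ ^ p = 1) (σ : K ≃ₐ[ℚ] K) (hσ : σ (ζ : K) = (ζ : K) ^ (p - 1)) (w : 𝓞 K)
    (hw : w = 0 ∨ ∃ e : ℕ, w = ζ ^ e) :
    σ (w : K) = (w : K)⁻¹ := by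
  simp only [RingOfIntegers.coe_eq_algebraMap] at hσ ⊢
  rcases hw with rfl | ⟨e, rfl⟩
  · rw [map_zero, map_zero, inv_zero]
  · have hζK : (algebraMap (𝓞 K) K ζ) ^ p = 1 := by
      rw [← map_pow, hζ, map_one]
    rw [map_pow, map_pow, hσ]
    apply eq_inv_of_mul_eq_one_left
    rw [← mul_pow, ← pow_succ, Nat.sub_add_cancel hp, hζK, one_pow]

theorem rjeb_element : RJCharStatement → RJPowSumStatement → RJElementStatement := by
  intro hChar hPow p _ hp3 K _ _ ζ hζ 𝔮 h𝔮 h𝔮0 hp𝔮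
  obtain ⟨hdvd, χ, hχ1, hχ2, hχne, hχχne⟩ := hChar p hp3 K ζ hζ 𝔮 h𝔮 h𝔮0 hp𝔮
  have hmax : 𝔮.IsMaximal := Ideal.IsPrime.isMaximal h𝔮 h𝔮0
  let instF : Field (𝓞 K ⧸ 𝔮) := Ideal.Quotient.field 𝔮
  have hfin : Finite (𝓞 K ⧸ 𝔮) := Ideal.finiteQuotientOfFreeOfNeBot 𝔮 h𝔮0
  let instFT : Fintype (𝓞 K ⧸ 𝔮) := Fintype.ofFinite _
  have hcard : Fintype.card (𝓞 K ⧸ 𝔮) = Ideal.absNorm 𝔮 := by
    rw [Ideal.absNorm_apply, Submodule.cardQuot_apply, Nat.card_eq_fintype_card]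
  have hcard2 : 2 ≤ Fintype.card (𝓞 K ⧸ 𝔮) := Fintype.one_lt_card
  have hpm : p * ((Ideal.absNorm 𝔮 - 1) / p) = Ideal.absNorm 𝔮 - 1 := Nat.mul_div_cancel' hdvd
  -- the values of `χ`
  have hval : ∀ z : 𝓞 K ⧸ 𝔮, χ z = 0 ∨ ∃ e : ℕ, χ z = ζ ^ e := by
    intro z
    by_cases hz : z = 0
    · left
      rw [hz]
      exact MulChar.map_zero χ
    · right
      exact hχ2 z hz
  have hmk : ∀ z : 𝓞 K ⧸ 𝔮,
      Ideal.Quotient.mk 𝔮 (χ z) = z ^ ((Ideal.absNorm 𝔮 - 1) / p) := by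
    intro z
    obtain ⟨x, rfl⟩ := Ideal.Quotient.mk_surjective z
    rw [← map_pow, Ideal.Quotient.eq]
    exact hχ1 x
  refine ⟨∑ x : 𝓞 K ⧸ 𝔮, χ x * χ (1 - x), ?_, ?_⟩
  · intro σ a ha h2a hσ
    refine ⟨∑ x : 𝓞 K ⧸ 𝔮, χ x ^ a * χ (1 - x) ^ a, ?_, ?_⟩
    · rw [← Ideal.Quotient.eq_zero_iff_mem, map_sum]
      have hlt : 2 * ((Ideal.absNorm 𝔮 - 1) / p * a) < Fintype.card (𝓞 K ⧸ 𝔮) - 1 := by
        rw [hcard]
        have hm1 : 1 ≤ (Ideal.absNorm 𝔮 - 1) / p := by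
          rcases Nat.eq_zero_or_pos ((Ideal.absNorm 𝔮 - 1) / p) with h0 | h0
          · rw [h0, Nat.mul_zero] at hpm
            omega
          · exact h0
        calc 2 * ((Ideal.absNorm 𝔮 - 1) / p * a)
            = (Ideal.absNorm 𝔮 - 1) / p * (2 * a) := by ring
          _ < (Ideal.absNorm 𝔮 - 1) / p * p := Nat.mul_lt_mul_of_pos_left h2a hm1
          _ = p * ((Ideal.absNorm 𝔮 - 1) / p) := Nat.mul_comm _ _
          _ = Ideal.absNorm 𝔮 - 1 := hpm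
      have hsum := hPow (𝓞 K ⧸ 𝔮) ((Ideal.absNorm 𝔮 - 1) / p * a) hlt
      rw [← hsum]
      refine Finset.sum_congr rfl fun x _ => ?_
      rw [map_mul, map_pow, map_pow, hmk, hmk, ← pow_mul, ← pow_mul]
    · have hx : ∀ x : 𝓞 K ⧸ 𝔮, algebraMap (𝓞 K) K (χ x ^ a * χ (1 - x) ^ a)
          = σ (algebraMap (𝓞 K) K (χ x * χ (1 - x))) := by
        intro x
        rw [map_mul, map_mul, map_mul, map_pow, map_pow]
        exact congrArg₂ (· * ·) (rjeb_sigma_pow ζ σ a hσ ha _ (hval x)).symm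
          (rjeb_sigma_pow ζ σ a hσ ha _ (hval (1 - x))).symm
      simp only [RingOfIntegers.coe_eq_algebraMap]
      rw [map_sum, map_sum, map_sum]
      exact Finset.sum_congr rfl fun x _ => hx x
  · intro σ hσ
    have hinj : Function.Injective (algebraMap (𝓞 K) K) := RingOfIntegers.coe_injective
    have h1 : χ.ringHomComp (algebraMap (𝓞 K) K) ≠ 1 :=
      (MulChar.ringHomComp_ne_one_iff hinj).mpr hχne
    have h2 : χ.ringHomComp (algebraMap (𝓞 K) K) * χ.ringHomComp (algebraMap (𝓞 K) K) ≠ 1 := by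
      rw [← MulChar.ringHomComp_mul]
      exact (MulChar.ringHomComp_ne_one_iff hinj).mpr hχχne
    have hchar : ringChar K ≠ ringChar (𝓞 K ⧸ 𝔮) := by
      rw [ringChar.eq_zero]
      exact (CharP.ringChar_ne_zero_of_finite _).symm
    have key := jacobiSum_mul_jacobiSum_inv hchar h1 h1 h2
    have hJ : jacobiSum (χ.ringHomComp (algebraMap (𝓞 K) K)) (χ.ringHomComp (algebraMap (𝓞 K) K))
        = algebraMap (𝓞 K) K (∑ x : 𝓞 K ⧸ 𝔮, χ x * χ (1 - x)) := by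
      rw [jacobiSum_ringHomComp]
      rfl
    have hJinv : jacobiSum (χ.ringHomComp (algebraMap (𝓞 K) K))⁻¹
        (χ.ringHomComp (algebraMap (𝓞 K) K))⁻¹
        = σ (algebraMap (𝓞 K) K (∑ x : 𝓞 K ⧸ 𝔮, χ x * χ (1 - x))) := by
      rw [map_sum, map_sum]
      refine Finset.sum_congr rfl fun x _ => ?_
      rw [MulChar.inv_apply_eq_inv', MulChar.inv_apply_eq_inv', map_mul, map_mul]
      exact congrArg₂ (· * ·)
        (rjeb_sigma_inv (by omega) ζ hζ.pow_eq_one σ hσ _ (hval x)).symm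
        (rjeb_sigma_inv (by omega) ζ hζ.pow_eq_one σ hσ _ (hval (1 - x))).symm
    rw [hJ, hJinv, hcard] at key
    simp only [RingOfIntegers.coe_eq_algebraMap]
    exact key

end Fermat.Agent.S14
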