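/-
S14, block R, sub-block RJ: packages Galois and Norm.

* `rjg_galois : RJGaloisStatement`: in `K = ℚ(ζ_p)` there is, for every `a` prime to `p`, an
  automorphism with `ζ ↦ ζ ^ a`.
* `rjg_norm : RJNormStatement`: in `K = ℚ(ζ_p)`, `J · σ(J) = q` implies
  `absNorm (J) = q ^ ((p - 1) / 2)`.
-/
import Fermat.Agent.S14.RJInterfaces

set_option autoImplicit false

open NumberField

namespace Fermat.Agent.S14

/-- (RJ-Galois) In `K = ℚ(ζ_p)` there is, for every `a` prime to `p`, an automorphism with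
`ζ ↦ ζ ^ a`. -/
theorem rjg_galois : RJGaloisStatement := by
  intro p _ K _ _ _ ζ hζ a ha
  have : NeZero p := ⟨(Fact.out : p.Prime).ne_zero⟩
  have hirr : Irreducible (Polynomial.cyclotomic p ℚ) :=
    Polynomial.cyclotomic.irreducible_rat (NeZero.pos p)
  have hz : IsPrimitiveRoot (IsCyclotomicExtension.zeta p ℚ K) p :=
    IsCyclotomicExtension.zeta_spec p ℚ K
  obtain ⟨i, -, hi⟩ := hz.eq_pow_of_pow_eq_one hζ.pow_eq_one
  have hcop : Nat.Coprime a p :=
    ((Nat.Prime.coprime_iff_not_dvd (Fact.out : p.Prime)).mpr ha).symm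
  have hμ : IsPrimitiveRoot (IsCyclotomicExtension.zeta p ℚ K ^ a) p :=
    hz.pow_of_coprime a hcop
  refine ⟨IsCyclotomicExtension.fromZetaAut hμ hirr, ?_⟩
  rw [← hi, map_pow, IsCyclotomicExtension.fromZetaAut_spec, ← pow_mul, ← pow_mul, mul_comm]

/-- (RJ-Norm) In `K = ℚ(ζ_p)` (degree `p - 1`): if `J · σ(J) = q` for some automorphism `σ`, then
the ideal `(J)` has absolute norm `q ^ ((p - 1) / 2)`. -/
theorem rjg_norm : RJNormStatement := by
  intro p _ hp3 K _ _ _ J σ q hJ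
  have hp : p.Prime := Fact.out
  have : NeZero p := ⟨hp.ne_zero⟩
  have hfin : Module.finrank ℚ K = p - 1 := by
    rw [IsCyclotomicExtension.Rat.finrank p K, Nat.totient_prime hp]
  have hodd : p - 1 = 2 * ((p - 1) / 2) := by
    rcases hp.eq_two_or_odd' with h | h
    · omega
    · obtain ⟨k, hk⟩ := h
      omega
  -- take norms to `ℚ` in the hypothesis
  have h1 : Algebra.norm ℚ (J : K) * Algebra.norm ℚ (σ (J : K)) = (q : ℚ) ^ (p - 1) := by
    have hq : (q : K) = algebraMap ℚ K (q : ℚ) := by simp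
    rw [← map_mul, hJ, ← hfin, hq, Algebra.norm_algebraMap]
  rw [Algebra.norm_eq_of_algEquiv, ← Algebra.coe_norm_int] at h1
  have h2 : (Algebra.norm ℤ J) ^ 2 = ((q : ℤ) ^ ((p - 1) / 2)) ^ 2 := by
    have h : ((Algebra.norm ℤ J : ℤ) : ℚ) ^ 2 = ((((q : ℤ) ^ ((p - 1) / 2)) ^ 2 : ℤ) : ℚ) := by
      push_cast
      rw [sq, h1, ← pow_mul, mul_comm, ← hodd]
    exact_mod_cast h
  have h3 : (Algebra.norm ℤ J).natAbs ^ 2 = (q ^ ((p - 1) / 2)) ^ 2 := by
    have h := congrArg Int.natAbs h2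
    simpa [Int.natAbs_pow] using h
  rw [Ideal.absNorm_span_singleton]
  exact Nat.pow_left_injective (by norm_num : (2 : ℕ) ≠ 0) h3

end Fermat.Agent.S14
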