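/-
S14, block R, sub-block RJ, package Ideal: an ideal of absolute norm `q ^ |s|` contained in `|s|`
pairwise distinct nonzero primes of absolute norm `q` is their product.
-/
import Fermat.Agent.S14.RJInterfaces

set_option autoImplicit false

open NumberField

namespace Fermat.Agent.S14

theorem rji_ideal : RJIdealStatement := by
  intro K _ _ s Q I q hq hQ hinj hnorm
  -- the product of the `Q a` divides `I`
  have hle : I ≤ s.inf fun a => Q a ^ 1 :=
    Finset.le_inf fun a ha => by
      rw [pow_one]
      exact (hQ a ha).2.2.2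
  have hprod : (s.inf fun a => Q a ^ 1) = ∏ a ∈ s, Q a ^ 1 :=
    IsDedekindDomain.inf_pow_eq_prod_of_prime s Q (fun _ => 1)
      (fun a ha => Ideal.prime_of_isPrime (hQ a ha).2.1 (hQ a ha).1)
      (fun a ha b hb hab h => hab (hinj a ha b hb h))
  rw [hprod] at hle
  simp only [pow_one] at hle
  obtain ⟨C, hC⟩ := Ideal.dvd_iff_le.mpr hle
  -- compare absolute norms
  have hnormprod : Ideal.absNorm (∏ a ∈ s, Q a) = q ^ s.card := by
    rw [map_prod, Finset.prod_congr rfl fun a ha => (hQ a ha).2.2.1, Finset.prod_const]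
  have h1 : q ^ s.card * Ideal.absNorm C = q ^ s.card * 1 :=
    calc q ^ s.card * Ideal.absNorm C
        = Ideal.absNorm (∏ a ∈ s, Q a) * Ideal.absNorm C := by rw [hnormprod]
      _ = Ideal.absNorm I := by rw [hC, map_mul]
      _ = q ^ s.card * 1 := by rw [hnorm, mul_one]
  have h2 : Ideal.absNorm C = 1 := Nat.eq_of_mul_eq_mul_left (pow_pos hq _) h1
  rw [hC, Ideal.absNorm_eq_one_iff.mp h2, Ideal.mul_top]

end Fermat.Agent.S14
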