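/-
S14, sub-block RJ: assembly of the Jacobi-sum factorisation (`JacobiStatement`) from the work
packages of `RJInterfaces.lean`.

`J` is the Jacobi-sum element (`RJElementStatement`), `Q a := σ_a⁻¹(𝔮)` for `1 ≤ a ≤ (p-1)/2`
(`RJGaloisStatement`, `RJPreimageStatement`).  The `Q a` are pairwise distinct
(`RJDistinctStatement`) nonzero primes of absolute norm `q` containing `J`, and
`absNorm (J) = q ^ ((p-1)/2)` (`RJNormStatement`); hence `(J) = ∏ Q a` (`RJIdealStatement`).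
-/
import Fermat.Agent.S14.RJInterfaces

set_option autoImplicit false

open NumberField

namespace Fermat.Agent.S14

/-- Assembly: the Jacobi-sum factorisation from the packages of sub-block RJ. -/
theorem rj_jacobi_of (hE : RJElementStatement) (hG : RJGaloisStatement) (hN : RJNormStatement)
    (hP : RJPreimageStatement) (hD : RJDistinctStatement) (hI : RJIdealStatement) :
    JacobiStatement := by
  intro p _ hp3 K _ _ _ ζ hζ 𝔮 h𝔮 hq hp𝔮
  classical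
  have h𝔮0 : 𝔮 ≠ ⊥ := by
    rintro rfl
    rw [Ideal.absNorm_bot] at hq
    exact Nat.not_prime_zero hq
  -- `ζ` is a primitive root in `K`
  have hζK : IsPrimitiveRoot (ζ : K) p :=
    hζ.map_of_injective (f := algebraMap (𝓞 K) K) RingOfIntegers.coe_injective
  obtain ⟨J, hJa, hJb⟩ := hE p hp3 K ζ hζ 𝔮 h𝔮 h𝔮0 hp𝔮
  -- the automorphisms `σ_a`
  have hσ : ∀ a : ℕ, ¬ p ∣ a → ∃ σ : K ≃ₐ[ℚ] K, σ (ζ : K) = (ζ : K) ^ a :=
    fun a ha => hG p K (ζ : K) hζK a ha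
  have hs : ∀ a ∈ Finset.Icc 1 ((p - 1) / 2), ¬ p ∣ a := by
    intro a ha hpa
    have h1 := Finset.mem_Icc.mp ha
    have h2 := Nat.le_of_dvd (by omega) hpa
    omega
  -- the primes `Q a = σ_a⁻¹(𝔮)`
  have key : ∀ a : ℕ, ∃ Q : Ideal (𝓞 K), a ∈ Finset.Icc 1 ((p - 1) / 2) →
      ∃ σ : K ≃ₐ[ℚ] K, σ (ζ : K) = (ζ : K) ^ a ∧ IsPreimagePrime σ 𝔮 Q ∧ Q.IsPrime ∧ Q ≠ ⊥ ∧
        Ideal.absNorm Q = Ideal.absNorm 𝔮 := by
    intro a
    by_cases ha : a ∈ Finset.Icc 1 ((p - 1) / 2)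
    · obtain ⟨σ, hσa⟩ := hσ a (hs a ha)
      obtain ⟨Q, h1, h2, h3, h4⟩ := hP K σ 𝔮 h𝔮 h𝔮0
      exact ⟨Q, fun _ => ⟨σ, hσa, h1, h2, h3, h4⟩⟩
    · exact ⟨⊤, fun h => absurd h ha⟩
  choose Q hQ using key
  refine ⟨J, Q, fun a ha => ?_, ?_⟩
  · obtain ⟨σ, h1, h2, -⟩ := hQ a ha
    exact ⟨σ, h1, h2⟩
  · -- the norm of `J`
    obtain ⟨τ, hτ⟩ := hσ (p - 1) (fun h => by have := Nat.le_of_dvd (by omega) h; omega)
    have hnorm : Ideal.absNorm (Ideal.span {J}) = (Ideal.absNorm 𝔮) ^ ((p - 1) / 2) :=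
      hN p hp3 K J τ (Ideal.absNorm 𝔮) (hJb τ hτ)
    have hcard : (Finset.Icc 1 ((p - 1) / 2)).card = (p - 1) / 2 := by
      rw [Nat.card_Icc]
      omega
    apply hI K (Finset.Icc 1 ((p - 1) / 2)) Q (Ideal.span {J}) (Ideal.absNorm 𝔮) hq.pos
    · intro a ha
      obtain ⟨σ, h1, h2, h3, h4, h5⟩ := hQ a ha
      refine ⟨h3, h4, h5, ?_⟩
      rw [Ideal.span_singleton_le_iff_mem, h2 J]
      have h6 := Finset.mem_Icc.mp ha
      exact hJa σ a h6.1 (by omega) h1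
    · intro a ha b hb hab
      obtain ⟨σ, h1, h2, -⟩ := hQ a ha
      obtain ⟨τ', h1', h2', -⟩ := hQ b hb
      rw [← hab] at h2'
      have h7 := hD p K ζ hζ 𝔮 h𝔮 hq hp𝔮 σ τ' a b (Q a) h1 h1' h2 h2'
      have ha' := Finset.mem_Icc.mp ha
      have hb' := Finset.mem_Icc.mp hb
      rw [Nat.mod_eq_of_lt (by omega), Nat.mod_eq_of_lt (by omega)] at h7
      exact h7
    · rw [hnorm, hcard]

end Fermat.Agent.S14
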