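/-
S14, sub-block RJ, package PowSum: in a finite field `k`, `∑_x x^M (1 - x)^M = 0` when
`2 M < |k| - 1` (binomial expansion and `FiniteField.sum_pow_lt_card_sub_one`).
-/
import Fermat.Agent.S14.RJInterfaces

set_option autoImplicit false

namespace Fermat.Agent.S14

/-- Binomial expansion of `x^M (1 - x)^M`. -/
theorem rjp_expand {k : Type} [Field k] (M : ℕ) (x : k) :
    x ^ M * (1 - x) ^ M =
      ∑ j ∈ Finset.range (M + 1), ((-1 : k) ^ j * (M.choose j : k)) * x ^ (M + j) := by
  rw [sub_eq_add_neg, add_comm, add_pow, Finset.mul_sum]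
  refine Finset.sum_congr rfl fun j _ => ?_
  rw [one_pow, mul_one, neg_pow, pow_add]
  ring

/-- **(RJ-PowSum)** -/
theorem rjp_powSum : RJPowSumStatement := by
  intro k _ _ M hM
  simp_rw [rjp_expand]
  rw [Finset.sum_comm]
  refine Finset.sum_eq_zero fun j hj => ?_
  rw [← Finset.mul_sum, FiniteField.sum_pow_lt_card_sub_one, mul_zero]
  have := Finset.mem_range.mp hj
  omega

end Fermat.Agent.S14
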