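/-
S14, block R, sub-block RL, package Comp (prefix `rlc_`): `RLCompositumStatement`.

Setting: `[N : F] = p`, `y ∈ N` with `y ^ p = a`, `𝔮` a prime of `F` with `𝔮 ∤ p b` and
`p ∤ v_𝔮(a)`, and `b` not a `p`-th power in `F`.  Then `b` is not a `p`-th power in `N`:
otherwise `N = F(z)` with `z ^ p = b` would be unramified at `𝔮` (Kummer splitting criterion),
while `N = F(y)` is totally ramified at `𝔮` (Kummer ramification), so `1 = e = p`.
-/
import Fermat.Agent.S14.RLInterfaces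
import Fermat.Agent.S14.BKummerGal
import Fermat.Agent.S14.BKummerSplitA
import Fermat.Agent.S14.BKummerRamA

set_option autoImplicit false

open NumberField

namespace Fermat.Agent.S14

/-- (RL-B) from (RL-A1) and the landed Kummer packages. -/
theorem rlc_compositum : RLNotPowStatement → RLCompositumStatement := by
  intro hNP p _ F N _ _ _ _ _ ζ hζ hdeg a b y hy 𝔮 h𝔮 h𝔮0 hp𝔮 hb𝔮 hord hb z hz
  have hinj : Function.Injective (algebraMap F N) := (algebraMap F N).injective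
  -- Step 1: `y ∉ F`, since `a` is not a `p`-th power in `F`.
  have hyF : y ∉ Set.range (algebraMap F N) := by
    rintro ⟨c, rfl⟩
    rw [← map_pow] at hy
    exact hNP p F 𝔮 a h𝔮 h𝔮0 hord c (hinj hy)
  -- Step 2: `z ∉ F`, since `b` is not a `p`-th power in `F`.
  have hzF : z ∉ Set.range (algebraMap F N) := by
    rintro ⟨c, rfl⟩
    rw [← map_pow] at hz
    exact hb c (hinj hz)
  -- Step 3: `𝔮` is unramified in `N = F(z)` and totally ramified in `N = F(y)`.
  have h1 := (bksa_kummerSplit bkg_kummerGalois p F N ζ hζ hdeg b z hz hzF 𝔮 h𝔮 h𝔮0 hp𝔮 hb𝔮).2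
  have h2 := bkra_kummerRam p F N ζ hζ hdeg a y hy hyF 𝔮 h𝔮 h𝔮0 hord
  -- Step 4: a prime above `𝔮` exists, whence `1 = p`.
  have : 𝔮.IsPrime := h𝔮
  obtain ⟨⟨𝔔, h𝔔⟩⟩ := Ideal.nonempty_primesOver (S := 𝓞 N) 𝔮
  have h1p : 1 = p := (h1 𝔔 h𝔔).symm.trans (h2 𝔔 h𝔔)
  exact (Fact.out : p.Prime).one_lt.ne h1p

end Fermat.Agent.S14
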