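/-
S14 / block R / sub-block RL (Lang's argument for two primes): the assembly, from the generic
RL-packages (Props of `RLInterfaces.lean`) and `EFieldStatement`.
-/
import Fermat.Agent.S14.RLInterfaces
import Fermat.Agent.S14.BKummerExists
import Fermat.Agent.S14.BKummerGal
import Fermat.Agent.S14.BKummerSplitA

set_option autoImplicit false

open NumberField

namespace Fermat.Agent.S14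

/-- A nonzero prime ideal of `𝓞 F` containing a given rational prime. -/
theorem rl_exists_prime_natCast (F : Type) [Field F] [NumberField F] (r : ℕ) (hr : r.Prime) :
    ∃ 𝔯 : Ideal (𝓞 F), 𝔯.IsPrime ∧ 𝔯 ≠ ⊥ ∧ (r : 𝓞 F) ∈ 𝔯 := by
  have hprime : (Ideal.span {(r : ℤ)}).IsPrime := by
    rw [Ideal.span_singleton_prime (by exact_mod_cast hr.ne_zero)]
    exact Nat.prime_iff_prime_int.mp hr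
  obtain ⟨⟨Q, hQ, hQ'⟩⟩ :=
    (inferInstance : Nonempty ((Ideal.span {(r : ℤ)}).primesOver (𝓞 F)))
  have hmem : (r : 𝓞 F) ∈ Q := by
    have h1 : (r : ℤ) ∈ Ideal.span {(r : ℤ)} := Ideal.mem_span_singleton_self _
    have h2 := (Ideal.mem_of_liesOver Q (Ideal.span {(r : ℤ)}) (r : ℤ)).mp h1
    simpa using h2
  refine ⟨Q, hQ, ?_, hmem⟩
  rintro rfl
  have h0 : (r : 𝓞 F) = 0 := by simpa using hmem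
  exact hr.ne_zero (by exact_mod_cast h0)

/-- Two coprime natural numbers cannot both lie in a proper ideal. -/
theorem rl_not_mem_of_coprime {R : Type*} [CommRing R] (I : Ideal R) (hI : I ≠ ⊤) (m n : ℕ)
    (h : Nat.Coprime m n) (hm : (m : R) ∈ I) : (n : R) ∉ I := by
  intro hn
  apply hI
  rw [Ideal.eq_top_iff_one]
  obtain ⟨a, b, hab⟩ := Nat.isCoprime_iff_coprime.mpr h
  have h1 : ((a : ℤ) : R) * (m : R) + ((b : ℤ) : R) * (n : R) = 1 := by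
    have := congrArg (Int.cast : ℤ → R) hab
    push_cast at this
    exact this
  rw [← h1]
  exact I.add_mem (I.mul_mem_left _ hm) (I.mul_mem_left _ hn)

/-- Lang's argument, assembled from the generic RL-packages. -/
theorem rl_lang_of (hNP : RLNotPowStatement) (hOL : RLOrdLiftStatement)
    (hC : RLCompositumStatement) (hS1 : RLSymbOneStatement) (hSide : RLSideStatement)
    (hE : EFieldStatement) : LangStatement := by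
  intro p _ hp3 K L _ _ _ _ _ ζ α B hR 𝔮₁ 𝔮₂ h𝔮₁ h𝔮₂ hN₁ hN₂ hB₁ hB₂ hd₁ hd₂
  have hpp : p.Prime := Fact.out
  have hKS : KummerSplitStatement := bksa_kummerSplit bkg_kummerGalois
  have h𝔮₁0 : 𝔮₁ ≠ ⊥ := by
    rintro rfl
    exact Nat.not_prime_zero (by simpa using hN₁)
  have h𝔮₂0 : 𝔮₂ ≠ ⊥ := by
    rintro rfl
    exact Nat.not_prime_zero (by simpa using hN₂)
  obtain ⟨hB0, hpB, hαB⟩ := hR.bad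
  -- the auxiliary fields `E₁`, `E₂`
  obtain ⟨r₁, a₁, E₁, _, _, _, θ₁, hr₁, -, hr₁B, hr₁𝔮, hdeg₁, hθ₁, hgood₁, hord₁, hsplit₁, hα₁,
    hR3₁⟩ := hE p hp3 K L ζ α B hR 𝔮₁ h𝔮₁ hN₁ hB₁ hd₁ ∅
  obtain ⟨r₂, a₂, E₂, _, _, _, θ₂, hr₂, hr₂X, hr₂B, hr₂𝔮, hdeg₂, hθ₂, hgood₂, hord₂, hsplit₂, hα₂,
    hR3₂⟩ := hE p hp3 K L ζ α B hR 𝔮₂ h𝔮₂ hN₂ hB₂ hd₂ {r₁}
  have hr₁₂ : r₂ ≠ r₁ := by simpa using hr₂X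
  -- primes of `K` above `r₁`, `r₂`
  obtain ⟨𝔯₁, h𝔯₁, h𝔯₁0, hr𝔯₁⟩ := rl_exists_prime_natCast K r₁ hr₁
  obtain ⟨𝔯₂, h𝔯₂, h𝔯₂0, hr𝔯₂⟩ := rl_exists_prime_natCast K r₂ hr₂
  have hcop : Nat.Coprime r₂ (B * r₁) :=
    Nat.Coprime.mul_right ((Nat.Prime.coprime_iff_not_dvd hr₂).mpr hr₂B)
      ((Nat.coprime_primes hr₂ hr₁).mpr hr₁₂)
  have hBr₁𝔯₂ : ((B * r₁ : ℕ) : 𝓞 K) ∉ 𝔯₂ :=
    rl_not_mem_of_coprime 𝔯₂ h𝔯₂.ne_top r₂ (B * r₁) hcop hr𝔯₂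
  have hB𝔯₂ : (B : 𝓞 K) ∉ 𝔯₂ := fun h => hBr₁𝔯₂ (by
    push_cast
    exact 𝔯₂.mul_mem_right _ h)
  have hp𝔯₂ : (p : 𝓞 K) ∉ 𝔯₂ := fun h => hB𝔯₂ (by
    obtain ⟨c, rfl⟩ := hpB
    push_cast
    exact 𝔯₂.mul_mem_right _ h)
  have hα𝔯₂ : α ∉ 𝔯₂ := fun h => hB𝔯₂ (by
    obtain ⟨c, hc⟩ := hαB
    rw [hc]
    exact 𝔯₂.mul_mem_right _ h)
  have ha₁𝔯₂ : a₁ ∉ 𝔯₂ := hgood₁ 𝔯₂ h𝔯₂ hBr₁𝔯₂
  have hζK : IsPrimitiveRoot (ζ : K) p := hR.prim.map_of_injective RingOfIntegers.coe_injective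
  -- `θ₁ ∉ K`, `θ₂ ∉ K`
  have hθ₁' : (θ₁ : E₁) ^ p = algebraMap K E₁ (a₁ : K) := by
    have h := congrArg (algebraMap (𝓞 E₁) E₁) hθ₁
    rw [map_pow] at h
    exact h
  have hθ₁K : (θ₁ : E₁) ∉ Set.range (algebraMap K E₁) := by
    rintro ⟨c, hc⟩
    apply hNP p K 𝔯₁ a₁ h𝔯₁ h𝔯₁0 (hord₁ 𝔯₁ h𝔯₁ hr𝔯₁) c
    apply (algebraMap K E₁).injective
    rw [map_pow, hc, hθ₁']
  have hθ₂' : (θ₂ : E₂) ^ p = algebraMap K E₂ (a₂ : K) := by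
    have h := congrArg (algebraMap (𝓞 E₂) E₂) hθ₂
    rw [map_pow] at h
    exact h
  have hθ₂K : (θ₂ : E₂) ∉ Set.range (algebraMap K E₂) := by
    rintro ⟨c, hc⟩
    apply hNP p K 𝔯₂ a₂ h𝔯₂ h𝔯₂0 (hord₂ 𝔯₂ h𝔯₂ hr𝔯₂) c
    apply (algebraMap K E₂).injective
    rw [map_pow, hc, hθ₂']
  -- a prime `ℜ` of `E₁` above `𝔯₂`: unramified, so `p ∤ v_ℜ(a₂)`
  have := h𝔯₂
  obtain ⟨⟨ℜ, hℜ⟩⟩ := (inferInstance : Nonempty (𝔯₂.primesOver (𝓞 E₁)))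
  have hℜp : ℜ.IsPrime := hℜ.1
  have hℜo : ℜ.LiesOver 𝔯₂ := hℜ.2
  have hℜ0 : ℜ ≠ ⊥ := Ideal.ne_bot_of_liesOver_of_ne_bot h𝔯₂0 ℜ
  have hℜe : ℜ.ramificationIdx (𝓞 K) = 1 :=
    (hKS p K E₁ (ζ : K) hζK hdeg₁ a₁ (θ₁ : E₁) hθ₁' hθ₁K 𝔯₂ h𝔯₂ h𝔯₂0 hp𝔯₂ ha₁𝔯₂).2 ℜ hℜ
  have hordℜ : OrdNotDvd p ℜ (algebraMap (𝓞 K) (𝓞 E₁) a₂) :=
    hOL p K E₁ 𝔯₂ ℜ a₂ h𝔯₂ h𝔯₂0 hℜ hℜe (hord₂ 𝔯₂ h𝔯₂ hr𝔯₂)
  have ha₂E₁ : ∀ z : E₁, z ^ p ≠ algebraMap K E₁ (a₂ : K) :=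
    hNP p E₁ ℜ (algebraMap (𝓞 K) (𝓞 E₁) a₂) hℜp hℜ0 hordℜ
  have hpℜ : (p : 𝓞 E₁) ∉ ℜ := fun h => hp𝔯₂
    ((Ideal.mem_of_liesOver ℜ 𝔯₂ (p : 𝓞 K)).mpr (by simpa using h))
  have hαℜ : algebraMap (𝓞 K) (𝓞 E₁) α ∉ ℜ := fun h => hα𝔯₂
    ((Ideal.mem_of_liesOver ℜ 𝔯₂ α).mpr h)
  -- the field `E = E₁(a₂^{1/p})`, containing `E₂`
  obtain ⟨E, _, _, _, hdegE, y₂, hy₂⟩ := bke_kummerExists p E₁ (algebraMap K E₁ (a₂ : K)) ha₂E₁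
  let : Algebra K E := ((algebraMap E₁ E).comp (algebraMap K E₁)).toAlgebra
  have : IsScalarTower K E₁ E := IsScalarTower.of_algebraMap_eq (fun _ => rfl)
  obtain ⟨φ, hφ⟩ := bke_kummerLift p K E₂ E hdeg₂ (a₂ : K) (θ₂ : E₂) y₂ hθ₂' hθ₂K hy₂
  let : Algebra E₂ E := φ.toRingHom.toAlgebra
  have : IsScalarTower K E₂ E := IsScalarTower.of_algebraMap_eq (fun x => (φ.commutes x).symm)
  -- `α` is not a `p`-th power in `E`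
  have hζE₁ : IsPrimitiveRoot (algebraMap K E₁ (ζ : K)) p :=
    hζK.map_of_injective (algebraMap K E₁).injective
  have hαE : ∀ z : E, z ^ p ≠ algebraMap K E (α : K) :=
    hC p E₁ E (algebraMap K E₁ (ζ : K)) hζE₁ hdegE (algebraMap (𝓞 K) (𝓞 E₁) a₂)
      (algebraMap (𝓞 K) (𝓞 E₁) α) y₂ hy₂ ℜ hℜp hℜ0 hpℜ hαℜ hordℜ hα₁
  -- an ideal `𝔓 ^ k` of `E` with symbol `1`, prime to `B r₁ r₂`
  have hζE : IsPrimitiveRoot (algebraMap (𝓞 K) (𝓞 E) ζ) p :=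
    hR.prim.map_of_injective (RingOfIntegers.algebraMap.injective K E)
  have hm : ((B * r₁ * r₂ : ℕ) : 𝓞 E) ≠ 0 := by
    exact_mod_cast mul_ne_zero (mul_ne_zero hB0 hr₁.ne_zero) hr₂.ne_zero
  obtain ⟨𝔓, k, h𝔓, h𝔓0, hm𝔓, hsymb⟩ :=
    hS1 p E (algebraMap (𝓞 K) (𝓞 E) ζ) (algebraMap (𝓞 K) (𝓞 E) α) hζE hαE _ hm
  have hBr₁𝔓 : ((B * r₁ : ℕ) : 𝓞 E) ∉ 𝔓 := fun h => hm𝔓 (by
    rw [Nat.cast_mul]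
    exact 𝔓.mul_mem_right _ h)
  have hBr₂𝔓 : ((B * r₂ : ℕ) : 𝓞 E) ∉ 𝔓 := fun h => hm𝔓 (by
    rw [show B * r₁ * r₂ = B * r₂ * r₁ by ring, Nat.cast_mul]
    exact 𝔓.mul_mem_right _ h)
  have hκ0 : Ideal.relNorm (𝓞 K) (𝔓 ^ k) ∈ nonZeroDivisors (Ideal (𝓞 K)) := by
    rw [mem_nonZeroDivisors_iff_ne_zero, Ne, Ideal.zero_eq_bot, Ideal.relNorm_eq_bot_iff,
      ← Ideal.zero_eq_bot]
    exact pow_ne_zero k h𝔓0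
  refine ⟨ClassGroup.mk0 ⟨Ideal.relNorm (𝓞 K) (𝔓 ^ k), hκ0⟩, fun h₁ h₂ => ⟨?_, ?_⟩⟩
  · exact hSide p hp3 K L E₁ E ζ α B hR 𝔮₁ r₁ h𝔮₁ h𝔮₁0 hB₁ hr₁𝔮 hsplit₁ hα₁ hR3₁ 𝔓 k h𝔓 h𝔓0
      hBr₁𝔓 hsymb h₁ hκ0
  · exact hSide p hp3 K L E₂ E ζ α B hR 𝔮₂ r₂ h𝔮₂ h𝔮₂0 hB₂ hr₂𝔮 hsplit₂ hα₂ hR3₂ 𝔓 k h𝔓 h𝔓0
      hBr₂𝔓 hsymb h₂ hκ0

end Fermat.Agent.S14
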