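/-
S14, block R, sub-block RL, package Norm (RL-D1, RL-D2).
Owner: helper269.  Prefix `rln_`.

* `rln_splitPrime : RLSplitPrimeStatement`: a prime which splits completely has a prime above it
  whose relative norm is the prime itself.
* `rln_normCoprime : RLNormCoprimeStatement`: the relative norm of a power of a prime `𝔓` not
  containing (the image of) `m` is coprime to `m`.
-/
import Fermat.Agent.S14.RLInterfaces

set_option autoImplicit false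

open NumberField

namespace Fermat.Agent.S14

/-- In a commutative ring, a maximal ideal not containing `m` is coprime to `m`. -/
theorem rln_sup_span_eq_top_of_not_mem {R : Type*} [CommRing R] (𝔭 : Ideal R) (h𝔭 : 𝔭.IsMaximal)
    (m : R) (hm : m ∉ 𝔭) : 𝔭 ⊔ Ideal.span {m} = ⊤ := by
  by_contra hne
  have heq : 𝔭 = 𝔭 ⊔ Ideal.span {m} := h𝔭.eq_of_le hne le_sup_left
  apply hm
  rw [heq]
  exact Ideal.mem_sup_right (Ideal.subset_span (Set.mem_singleton m))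

/-- The relative norm of a nonzero prime `𝔔` of `N` is `𝔮 ^ f`, where `𝔮` is the prime of `F`
below `𝔔` and `f` is the inertia degree. -/
theorem rln_relNorm_prime (F N : Type) [Field F] [NumberField F] [Field N] [NumberField N]
    [Algebra F N] (𝔮 : Ideal (𝓞 F)) (𝔔 : Ideal (𝓞 N)) (h𝔮 : 𝔮.IsPrime) (h𝔮0 : 𝔮 ≠ ⊥)
    (h𝔔 : 𝔔 ∈ 𝔮.primesOver (𝓞 N)) :
    Ideal.relNorm (𝓞 F) 𝔔 = 𝔮 ^ 𝔔.inertiaDeg (𝓞 F) := by
  have h𝔮max : 𝔮.IsMaximal := h𝔮.isMaximal h𝔮0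
  have h𝔔prime : 𝔔.IsPrime := h𝔔.1
  have h𝔔over : 𝔔.LiesOver 𝔮 := h𝔔.2
  have h𝔔max : 𝔔.IsMaximal := Ideal.IsMaximal.of_liesOver_isMaximal 𝔔 𝔮
  exact Ideal.relNorm_eq_pow_of_isMaximal 𝔔 𝔮

/-- (RL-D1) A prime which splits completely has a prime above it whose relative norm is the prime
itself. -/
theorem rln_splitPrime : RLSplitPrimeStatement := by
  intro F N _ _ _ _ _ 𝔮 h𝔮 h𝔮0 hs
  have h𝔮max : 𝔮.IsMaximal := h𝔮.isMaximal h𝔮0
  obtain ⟨𝔔, h𝔔max, h𝔔over⟩ :=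
    Ideal.exists_maximal_ideal_liesOver_of_isIntegral (S := 𝓞 N) 𝔮
  have hmem : 𝔔 ∈ 𝔮.primesOver (𝓞 N) := ⟨h𝔔max.isPrime, h𝔔over⟩
  refine ⟨𝔔, hmem, Ideal.ne_bot_of_mem_primesOver h𝔮0 hmem, ?_⟩
  obtain ⟨-, hf⟩ := hs 𝔔 hmem
  rw [rln_relNorm_prime F N 𝔮 𝔔 h𝔮 h𝔮0 hmem, hf, pow_one]

/-- (RL-D2) The relative norm of a power of a prime `𝔓` not containing (the image of) `m` is
coprime to `m`. -/
theorem rln_normCoprime : RLNormCoprimeStatement := by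
  intro F N _ _ _ _ _ 𝔓 m k h𝔓 h𝔓0 hm
  have := h𝔓
  have h𝔭prime : (𝔓.under (𝓞 F)).IsPrime := inferInstance
  have h𝔭0 : 𝔓.under (𝓞 F) ≠ ⊥ := fun h => h𝔓0 (Ideal.eq_bot_of_comap_eq_bot h)
  have h𝔭max : (𝔓.under (𝓞 F)).IsMaximal := h𝔭prime.isMaximal h𝔭0
  have hmem : 𝔓 ∈ (𝔓.under (𝓞 F)).primesOver (𝓞 N) := ⟨h𝔓, Ideal.over_under 𝔓⟩
  have hm' : m ∉ 𝔓.under (𝓞 F) := fun h => hm (Ideal.mem_comap.mp h)
  rw [map_pow, rln_relNorm_prime F N (𝔓.under (𝓞 F)) 𝔓 h𝔭prime h𝔭0 hmem]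
  exact Ideal.pow_sup_eq_top
    (Ideal.pow_sup_eq_top (rln_sup_span_eq_top_of_not_mem _ h𝔭max m hm'))

end Fermat.Agent.S14
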