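/-
S14, block R, package `NormDown` (prefix `rnd_`):
`rnd_normDown : NormClassesMemStatement → NormDownStatement` — for towers `K ⊂ L ⊂ E'` and
`K ⊂ E ⊂ E'`, the ideal norm from `E` to `K` maps norm classes of `E'/E` into norm classes of `L/K`.
-/
import Fermat.Agent.S14.RInterfaces

set_option autoImplicit false

open NumberField

namespace Fermat.Agent.S14

/-- Norm classes push down. -/
theorem rnd_normDown : NormClassesMemStatement → NormDownStatement := by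
  intro hNC K L E E' _ _ _ _ _ _ _ _ _ _ _ _ _ _ _ 𝔅 h hmem
  obtain ⟨𝔄, h₀, hcl⟩ := (hNC E E' _).mp hmem
  obtain ⟨x, y, hx, hy, hxy⟩ := ClassGroup.mk0_eq_mk0_iff.mp hcl
  have h𝔅 : 𝔅 ≠ ⊥ := mem_nonZeroDivisors_iff_ne_zero.mp h
  have h𝔄 : 𝔄 ≠ ⊥ := fun h0 =>
    (mem_nonZeroDivisors_iff_ne_zero.mp h₀) (by rw [h0]; exact Ideal.relNorm_bot _)
  have h' : Ideal.relNorm (𝓞 K) 𝔅 ∈ nonZeroDivisors (Ideal (𝓞 K)) :=
    mem_nonZeroDivisors_iff_ne_zero.mpr (fun h0 => h𝔅 (Ideal.relNorm_eq_bot_iff.mp h0))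
  have h'' : Ideal.relNorm (𝓞 K) (Ideal.relNorm (𝓞 L) 𝔄) ∈ nonZeroDivisors (Ideal (𝓞 K)) :=
    mem_nonZeroDivisors_iff_ne_zero.mpr (fun h0 =>
      h𝔄 (Ideal.relNorm_eq_bot_iff.mp (Ideal.relNorm_eq_bot_iff.mp h0)))
  refine ⟨h', ?_⟩
  have key := congrArg (Ideal.relNorm (𝓞 K)) hxy
  simp only [map_mul, Ideal.relNorm_singleton] at key
  rw [Ideal.relNorm_relNorm (𝓞 K) (𝓞 E) 𝔄, ← Ideal.relNorm_relNorm (𝓞 K) (𝓞 L) 𝔄] at key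
  have heq : ClassGroup.mk0 ⟨_, h'⟩ = ClassGroup.mk0 ⟨_, h''⟩ :=
    ClassGroup.mk0_eq_mk0_iff.mpr ⟨Algebra.intNorm (𝓞 K) (𝓞 E) x, Algebra.intNorm (𝓞 K) (𝓞 E) y,
      Algebra.intNorm_ne_zero.mpr hx, Algebra.intNorm_ne_zero.mpr hy, key⟩
  rw [heq]
  exact Subgroup.subset_closure ⟨Ideal.relNorm (𝓞 L) 𝔄, h'', rfl⟩

end Fermat.Agent.S14
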