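/-
S14, block R, sub-block RL, package Side: one side of Lang's argument, generic in the tower
`K ⊂ E₁ ⊂ E`.
-/
import Fermat.Agent.S14.RLInterfaces
import Fermat.Agent.S14.BKummerExists
import Fermat.Agent.S14.BNormCl
import Fermat.Agent.S14.RNormDown

set_option autoImplicit false

open NumberField

namespace Fermat.Agent.S14

/-- A maximal ideal not containing `x` is coprime to `(x)`. -/
theorem rld_sup_span_eq_top {R : Type} [CommRing R] (I : Ideal R) (hI : I.IsMaximal) (x : R)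
    (hx : x ∉ I) : I ⊔ Ideal.span {x} = ⊤ := by
  apply hI.1.2
  refine lt_of_le_of_ne le_sup_left (fun h => hx ?_)
  have hx' : x ∈ I ⊔ Ideal.span {x} := Ideal.mem_sup_right (Ideal.mem_span_singleton_self x)
  rwa [← h] at hx'

theorem rld_side :
    RLSplitPrimeStatement → RLNormCoprimeStatement → RLSymbZeroStatement → RLSideStatement := by
  intro hSplit hNC hSZ p _ _ K L E₁ E _ _ _ _ _ _ _ _ _ _ _ _ _ ζ α B hR 𝔮 r h𝔮 h𝔮0 hB𝔮 hr𝔮 hsc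
    hαE₁ hR3 𝔓 k h𝔓 h𝔓0 hBr𝔓 hsymb h₁ h₂
  obtain ⟨-, ⟨c, hc⟩, ⟨c', hc'⟩⟩ := hR.bad
  -- step 0: `p` and `α` are outside `𝔮` and `𝔓`
  have hp𝔮 : (p : 𝓞 K) ∉ 𝔮 := by
    intro h
    apply hB𝔮
    rw [hc, Nat.cast_mul]
    exact Ideal.mul_mem_right _ _ h
  have hα𝔮 : α ∉ 𝔮 := by
    intro h
    apply hB𝔮
    rw [hc']
    exact Ideal.mul_mem_right _ _ h
  have hp𝔓 : (p : 𝓞 E) ∉ 𝔓 := by
    intro h
    apply hBr𝔓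
    rw [hc, Nat.cast_mul, Nat.cast_mul]
    exact Ideal.mul_mem_right _ _ (Ideal.mul_mem_right _ _ h)
  have hα𝔓 : algebraMap (𝓞 K) (𝓞 E) α ∉ 𝔓 := by
    intro h
    apply hBr𝔓
    have h1 : ((B * r : ℕ) : 𝓞 E)
        = algebraMap (𝓞 K) (𝓞 E) α * (algebraMap (𝓞 K) (𝓞 E) c' * (r : 𝓞 E)) := by
      rw [Nat.cast_mul, ← mul_assoc, ← map_mul, ← hc', map_natCast]
    rw [h1]
    exact Ideal.mul_mem_right _ _ h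
  -- step 1: a prime of `E₁` above `𝔮` with norm `𝔮`
  obtain ⟨𝔔, h𝔔mem, h𝔔0, h𝔔norm⟩ := hSplit K E₁ 𝔮 h𝔮 h𝔮0 hsc
  have h𝔔prime : 𝔔.IsPrime := h𝔔mem.1
  have h𝔔lies : 𝔔.LiesOver 𝔮 := h𝔔mem.2
  have h𝔔max : 𝔔.IsMaximal := Ideal.IsPrime.isMaximal h𝔔prime h𝔔0
  -- step 2: the ideal `𝔅`
  have hzero := hSZ p K E₁ E ζ α hR.prim 𝔮 𝔔 𝔓 k h𝔮 h𝔮0 hp𝔮 hα𝔮 h𝔔mem h𝔔norm h𝔓 h𝔓0 hp𝔓 hα𝔓
    hsymb
  have hpow0 : 𝔓 ^ k ≠ ⊥ := by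
    rw [← Ideal.zero_eq_bot]
    exact pow_ne_zero k (by rwa [Ideal.zero_eq_bot])
  have hN0 : Ideal.relNorm (𝓞 E₁) (𝔓 ^ k) ≠ ⊥ := by
    rw [Ne, Ideal.relNorm_eq_bot_iff]
    exact hpow0
  have h𝔅0 : 𝔔 * Ideal.relNorm (𝓞 E₁) (𝔓 ^ k) ^ (p - (symb p ζ α 𝔮).val) ≠ ⊥ := by
    rw [← Ideal.zero_eq_bot]
    exact mul_ne_zero (by rwa [Ideal.zero_eq_bot])
      (pow_ne_zero _ (by rwa [Ideal.zero_eq_bot]))
  have hBr𝔔 : ((B * r : ℕ) : 𝓞 E₁) ∉ 𝔔 := by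
    intro h
    have h1 : ((B * r : ℕ) : 𝓞 K) ∈ 𝔮 := by
      rw [h𝔔lies.over, Ideal.under_def, Ideal.mem_comap, map_natCast]
      exact h
    rw [Nat.cast_mul] at h1
    rcases h𝔮.mem_or_mem h1 with h2 | h2
    · exact hB𝔮 h2
    · exact hr𝔮 h2
  have hcop1 : 𝔔 ⊔ Ideal.span {((B * r : ℕ) : 𝓞 E₁)} = ⊤ := rld_sup_span_eq_top 𝔔 h𝔔max _ hBr𝔔
  have hcop2 : Ideal.relNorm (𝓞 E₁) (𝔓 ^ k) ⊔ Ideal.span {((B * r : ℕ) : 𝓞 E₁)} = ⊤ :=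
    hNC E₁ E 𝔓 ((B * r : ℕ) : 𝓞 E₁) k h𝔓 h𝔓0 (by rwa [map_natCast])
  have hcop : 𝔔 * Ideal.relNorm (𝓞 E₁) (𝔓 ^ k) ^ (p - (symb p ζ α 𝔮).val)
      ⊔ Ideal.span {((B * r : ℕ) : 𝓞 E₁)} = ⊤ := by
    rw [← Ideal.isCoprime_iff_sup_eq] at hcop1 hcop2 ⊢
    exact IsCoprime.mul_left hcop1 (IsCoprime.pow_left hcop2)
  -- step 3: the field `E₁' = E₁(α^{1/p})`
  obtain ⟨E₁', _, _, _, hdeg', y, hy⟩ := bke_kummerExists p E₁ (algebraMap K E₁ (α : K)) hαE₁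
  let _ : Algebra K E₁' := ((algebraMap E₁ E₁').comp (algebraMap K E₁)).toAlgebra
  have : IsScalarTower K E₁ E₁' := IsScalarTower.of_algebraMap_eq (fun _ => rfl)
  obtain ⟨θ, hθ, hθ'⟩ := hR.gen
  obtain ⟨φ, -⟩ := bke_kummerLift p K L E₁' hR.deg (α : K) θ y hθ hθ' hy
  let _ : Algebra L E₁' := φ.toRingHom.toAlgebra
  have : IsScalarTower K L E₁' := IsScalarTower.of_algebraMap_eq (fun x => (φ.commutes x).symm)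
  -- step 4: reciprocity for `E₁`
  obtain ⟨h, hmem⟩ := hR3 E₁' hdeg' ⟨y, hy⟩ _ h𝔅0 hcop hzero
  -- step 5: norm down
  obtain ⟨h', hmem'⟩ := rnd_normDown bnc_normClassesMem K L E₁ E₁' _ h hmem
  -- step 6: compute the norm
  have hnorm : Ideal.relNorm (𝓞 K)
      (𝔔 * Ideal.relNorm (𝓞 E₁) (𝔓 ^ k) ^ (p - (symb p ζ α 𝔮).val))
      = 𝔮 * Ideal.relNorm (𝓞 K) (𝔓 ^ k) ^ (p - (symb p ζ α 𝔮).val) := by
    rw [map_mul, map_pow, h𝔔norm, Ideal.relNorm_relNorm (𝓞 K) (𝓞 E₁) (𝔓 ^ k)]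
  have hcl : ClassGroup.mk0 ⟨𝔮, h₁⟩ *
      ClassGroup.mk0 ⟨Ideal.relNorm (𝓞 K) (𝔓 ^ k), h₂⟩ ^ (p - (symb p ζ α 𝔮).val)
      = ClassGroup.mk0 ⟨Ideal.relNorm (𝓞 K)
          (𝔔 * Ideal.relNorm (𝓞 E₁) (𝔓 ^ k) ^ (p - (symb p ζ α 𝔮).val)), h'⟩ := by
    rw [← map_pow, ← map_mul]
    congr 1
    apply Subtype.ext
    exact hnorm.symm
  rw [hcl]
  exact hmem'

end Fermat.Agent.S14
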