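/-
S14, block R, sub-block RL, package SymbOne (prefix `rls_`).

Deliverable: `rls_symbOne : RLSymbOneStatement` (unconditional).

If `a` is not a `p`-th power in `E`, then outside the primes dividing a given `m ≠ 0` there is a
prime `𝔓` and an exponent `k` with `symbI p ζ a (𝔓 ^ k) = 1`.

Proof.  Let `E' = E(a^{1/p})` (`bke_kummerExists`), of degree `p` over `E`.  By the zeta pole
argument (`z_k3`) there is a prime `𝔓` of `E` not containing `m * p * a` which does not split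
completely in `E'`; by the splitting criterion (`rsp_symbSplit`), `t = symb p ζ a 𝔓 ≠ 0`.  With
`k = (t⁻¹).val` we get `symbI p ζ a (𝔓 ^ k) = k • t = t⁻¹ * t = 1` (`rsi_symbI`).
-/
import Fermat.Agent.S14.RLInterfaces
import Fermat.Agent.S14.BKummerGal
import Fermat.Agent.S14.BKummerSplitA
import Fermat.Agent.S14.BKummerExists
import Fermat.Agent.S14.RSymbSpec
import Fermat.Agent.S14.RSymbI
import Fermat.Agent.S14.RSymbSplit
import Fermat.Agent.S14.ZMain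

set_option autoImplicit false

open NumberField

namespace Fermat.Agent.S14

/-- A Kummer generator `y` (`y ^ p = a`) does not lie in the base field when `a` is not a `p`-th
power there. -/
theorem rls_not_mem_range (p : ℕ) {E E' : Type} [Field E] [Field E'] [Algebra E E'] (a : E)
    (ha : ∀ z : E, z ^ p ≠ a) (y : E') (hy : y ^ p = algebraMap E E' a) :
    y ∉ Set.range (algebraMap E E') := by
  rintro ⟨z, rfl⟩
  rw [← map_pow] at hy
  exact ha z ((algebraMap E E').injective hy)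

/-- The core of `rls_symbOne`, with the auxiliary Kummer extension `E'` given: outside the primes
dividing `m ≠ 0` there is a prime `𝔓` with `symb p ζ a 𝔓 ≠ 0`. -/
theorem rls_exists_symb_ne_zero (p : ℕ) [Fact p.Prime] (E E' : Type) [Field E] [NumberField E]
    [Field E'] [NumberField E'] [Algebra E E'] (ζ a : 𝓞 E) (hζ : IsPrimitiveRoot ζ p)
    (ha : ∀ z : E, z ^ p ≠ (a : E)) (hdeg : Module.finrank E E' = p) (y : E')
    (hy : y ^ p = algebraMap E E' (a : E)) (m : 𝓞 E) (hm : m ≠ 0) :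
    ∃ 𝔓 : Ideal (𝓞 E), 𝔓.IsPrime ∧ 𝔓 ≠ ⊥ ∧ m ∉ 𝔓 ∧ symb p ζ a 𝔓 ≠ 0 := by
  have hp : p.Prime := Fact.out
  have hyE : y ∉ Set.range (algebraMap E E') := rls_not_mem_range p (a : E) ha y hy
  have ha0 : a ≠ 0 := by
    rintro rfl
    exact ha 0 (by rw [zero_pow hp.ne_zero]; rfl)
  have hp0 : (p : 𝓞 E) ≠ 0 := Nat.cast_ne_zero.mpr hp.ne_zero
  have hx : m * (p : 𝓞 E) * a ≠ 0 := mul_ne_zero (mul_ne_zero hm hp0) ha0
  obtain ⟨T₀, hT₀⟩ := rsi_primesFinset E (m * (p : 𝓞 E) * a) hx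
  obtain ⟨𝔓, h𝔓, h𝔓0, h𝔓T, hns⟩ := z_k3 E E' (by rw [hdeg]; exact hp.two_le) T₀
  have hx𝔓 : m * (p : 𝓞 E) * a ∉ 𝔓 := fun h => h𝔓T (hT₀ 𝔓 h𝔓 h)
  have hm𝔓 : m ∉ 𝔓 := fun h =>
    hx𝔓 (𝔓.mul_mem_right _ (𝔓.mul_mem_right _ h))
  have hp𝔓 : (p : 𝓞 E) ∉ 𝔓 := fun h =>
    hx𝔓 (𝔓.mul_mem_right _ (𝔓.mul_mem_left _ h))
  have ha𝔓 : a ∉ 𝔓 := fun h => hx𝔓 (𝔓.mul_mem_left _ h)
  have hsplit : symb p ζ a 𝔓 = 0 ↔ SplitsCompletely E E' 𝔓 :=
    rsp_symbSplit rss_symbSpec (bksa_kummerSplit bkg_kummerGalois) p E E' ζ a hζ hdeg y hy hyE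
      𝔓 h𝔓 h𝔓0 hp𝔓 ha𝔓
  exact ⟨𝔓, h𝔓, h𝔓0, hm𝔓, fun h => hns (hsplit.mp h)⟩

/-- (RL-C) If `a` is not a `p`-th power in `E`, then outside the primes dividing a given `m ≠ 0`
there is a prime `𝔓` and an exponent `k` with `symbI (𝔓 ^ k) = 1`. -/
theorem rls_symbOne : RLSymbOneStatement := by
  intro p _ E _ _ ζ a hζ ha m hm
  obtain ⟨E', _, _, _, hdeg, y, hy⟩ := bke_kummerExists p E (a : E) ha
  obtain ⟨𝔓, h𝔓, h𝔓0, hm𝔓, ht⟩ := rls_exists_symb_ne_zero p E E' ζ a hζ ha hdeg y hy m hm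
  obtain ⟨-, hprime, -, hpow⟩ := rsi_symbI p E ζ a
  refine ⟨𝔓, ((symb p ζ a 𝔓)⁻¹).val, h𝔓, h𝔓0, hm𝔓, ?_⟩
  rw [hpow 𝔓 _ h𝔓0, hprime 𝔓 h𝔓 h𝔓0, nsmul_eq_mul, ZMod.natCast_zmod_val,
    inv_mul_cancel₀ ht]

end Fermat.Agent.S14
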