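/-
S14, block R, sub-block RL, package SymbZero (RL-E): the symbol computation in a tower
`K ⊂ E₁ ⊂ E`.  If `𝔔` is a prime of `E₁` of relative norm `𝔮` and `s_E(𝔓 ^ k) = 1`, then
`s_{E₁}(𝔔 · N_{E/E₁}(𝔓 ^ k) ^ (p - s_K(𝔮))) = 0`.
-/
import Fermat.Agent.S14.RLInterfaces
import Fermat.Agent.S14.RSymbSpec
import Fermat.Agent.S14.RSymbI
import Fermat.Agent.S14.RSymbNorm

set_option autoImplicit false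

open NumberField

namespace Fermat.Agent.S14

/-- A maximal ideal is coprime to the principal ideal of any element outside it. -/
theorem rlz_sup_span_eq_top {R : Type*} [CommRing R] (M : Ideal R) (hM : M.IsMaximal) (x : R)
    (hx : x ∉ M) : M ⊔ Ideal.span {x} = ⊤ := by
  by_contra h
  have hle : M ≤ M ⊔ Ideal.span {x} := le_sup_left
  have heq : M = M ⊔ Ideal.span {x} := hM.eq_of_le h hle
  apply hx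
  rw [heq]
  exact Ideal.mem_sup_right (Ideal.mem_span_singleton_self x)

/-- `d + (p - d.val) = 0` in `ZMod p`. -/
theorem rlz_add_sub_val (p : ℕ) [Fact p.Prime] (d : ZMod p) :
    d + (p - d.val) • (1 : ZMod p) = 0 := by
  have hle : d.val ≤ p := (ZMod.val_lt d).le
  rw [nsmul_eq_mul, mul_one, Nat.cast_sub hle, ZMod.natCast_self, ZMod.natCast_zmod_val]
  ring

theorem rlz_symbZero : RLSymbZeroStatement := by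
  intro p _ K E₁ E _ _ _ _ _ _ _ _ _ _ ζ α hζ 𝔮 𝔔 𝔓 k h𝔮 h𝔮0 hp𝔮 hα𝔮 h𝔔 hrel h𝔓 h𝔓0 hp𝔓
    hα𝔓 hsymb
  have SI : SymbIStatement := rsi_symbI
  have SN : SymbNormStatement := rsn_symbNorm rss_symbSpec rsi_symbI
  obtain ⟨h𝔔prime, h𝔔over⟩ := h𝔔
  have h𝔔0 : 𝔔 ≠ ⊥ := Ideal.ne_bot_of_liesOver_of_ne_bot h𝔮0 𝔔
  have h𝔔max : 𝔔.IsMaximal := h𝔔prime.isMaximal h𝔔0
  have h𝔓max : 𝔓.IsMaximal := h𝔓.isMaximal h𝔓0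
  have hmem : ∀ x : 𝓞 K, x ∈ 𝔮 ↔ algebraMap (𝓞 K) (𝓞 E₁) x ∈ 𝔔 :=
    fun x => Ideal.mem_of_liesOver 𝔔 𝔮 x
  -- Step 1: the symbol of `𝔔` is the symbol of `𝔮`.
  have hp𝔔 : (p : 𝓞 E₁) ∉ 𝔔 := by
    intro h
    apply hp𝔮
    rw [hmem, map_natCast]
    exact h
  have hα𝔔 : algebraMap (𝓞 K) (𝓞 E₁) α ∉ 𝔔 := fun h => hα𝔮 ((hmem α).mpr h)
  have hpα𝔔 : (p : 𝓞 E₁) * algebraMap (𝓞 K) (𝓞 E₁) α ∉ 𝔔 := by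
    intro h
    rcases h𝔔prime.mem_or_mem h with h | h
    · exact hp𝔔 h
    · exact hα𝔔 h
  have hcop1 : 𝔔 ⊔ Ideal.span {(p : 𝓞 E₁) * algebraMap (𝓞 K) (𝓞 E₁) α} = ⊤ :=
    rlz_sup_span_eq_top 𝔔 h𝔔max _ hpα𝔔
  have h1 : symbI p (algebraMap (𝓞 K) (𝓞 E₁) ζ) (algebraMap (𝓞 K) (𝓞 E₁) α) 𝔔
      = symb p ζ α 𝔮 := by
    rw [SN p K E₁ ζ α hζ 𝔔 h𝔔0 hcop1, hrel]
    exact (SI p K ζ α).2.1 𝔮 h𝔮 h𝔮0
  -- Step 2: the symbol of the relative norm of `𝔓 ^ k` is `1`.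
  have hζ₁ : IsPrimitiveRoot (algebraMap (𝓞 K) (𝓞 E₁) ζ) p :=
    hζ.map_of_injective (RingOfIntegers.algebraMap.injective K E₁)
  have htower : ∀ x : 𝓞 K, algebraMap (𝓞 E₁) (𝓞 E) (algebraMap (𝓞 K) (𝓞 E₁) x)
      = algebraMap (𝓞 K) (𝓞 E) x :=
    fun x => (IsScalarTower.algebraMap_apply (𝓞 K) (𝓞 E₁) (𝓞 E) x).symm
  have hpα𝔓 : (p : 𝓞 E) * algebraMap (𝓞 E₁) (𝓞 E) (algebraMap (𝓞 K) (𝓞 E₁) α) ∉ 𝔓 := by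
    intro h
    rw [htower] at h
    rcases h𝔓.mem_or_mem h with h | h
    · exact hp𝔓 h
    · exact hα𝔓 h
  have hcop2 : 𝔓 ^ k ⊔ Ideal.span
      {(p : 𝓞 E) * algebraMap (𝓞 E₁) (𝓞 E) (algebraMap (𝓞 K) (𝓞 E₁) α)} = ⊤ :=
    Ideal.pow_sup_eq_top (rlz_sup_span_eq_top 𝔓 h𝔓max _ hpα𝔓)
  have h𝔓k0 : 𝔓 ^ k ≠ ⊥ := by
    rw [← Ideal.zero_eq_bot]
    exact pow_ne_zero k h𝔓0
  have h2 : symbI p (algebraMap (𝓞 K) (𝓞 E₁) ζ) (algebraMap (𝓞 K) (𝓞 E₁) α)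
      (Ideal.relNorm (𝓞 E₁) (𝔓 ^ k)) = 1 := by
    have h := SN p E₁ E (algebraMap (𝓞 K) (𝓞 E₁) ζ) (algebraMap (𝓞 K) (𝓞 E₁) α) hζ₁ (𝔓 ^ k)
      h𝔓k0 hcop2
    rw [htower, htower] at h
    rw [← h]
    exact hsymb
  -- Step 3: additivity and powers.
  obtain ⟨hmul, -, -, hpow⟩ :=
    SI p E₁ (algebraMap (𝓞 K) (𝓞 E₁) ζ) (algebraMap (𝓞 K) (𝓞 E₁) α)
  have hn0 : Ideal.relNorm (𝓞 E₁) (𝔓 ^ k) ≠ ⊥ := by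
    rw [Ne, Ideal.relNorm_eq_bot_iff]
    exact h𝔓k0
  have hnpow0 : Ideal.relNorm (𝓞 E₁) (𝔓 ^ k) ^ (p - (symb p ζ α 𝔮).val) ≠ ⊥ := by
    rw [← Ideal.zero_eq_bot]
    exact pow_ne_zero _ hn0
  rw [hmul _ _ h𝔔0 hnpow0, hpow _ _ hn0, h1, h2]
  exact rlz_add_sub_val p _

end Fermat.Agent.S14
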