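/-
S14 / block R / sub-block RL: Lang's argument for two primes, `rl_lang : EFieldStatement → LangStatement`.
Assembly of the RL-packages (RLOrd, RLComp, RLSymbOne, RLNorm, RLSymbZero, RLSide) via `rl_lang_of`
(RLMainAux.lean).
-/
import Fermat.Agent.S14.RLMainAux
import Fermat.Agent.S14.RLOrd
import Fermat.Agent.S14.RLComp
import Fermat.Agent.S14.RLSymbOne
import Fermat.Agent.S14.RLNorm
import Fermat.Agent.S14.RLSymbZero
import Fermat.Agent.S14.RLSide

set_option autoImplicit false

namespace Fermat.Agent.S14

/-- (R7) Lang's argument for two good degree-one primes with nonzero symbols. -/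
theorem rl_lang : EFieldStatement → LangStatement :=
  rl_lang_of rlo_notPow rlo_ordLift (rlc_compositum rlo_notPow) rls_symbOne
    (rld_side rln_splitPrime rln_normCoprime rlz_symbZero)

end Fermat.Agent.S14
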