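/-
S14, block R, sub-block RL, package Side (twin B): one side of Lang's argument
(`rldb_side : RLSplitPrimeStatement → RLNormCoprimeStatement → RLSymbZeroStatement → RLSideStatement`).
-/
import Fermat.Agent.S14.RLInterfaces
import Fermat.Agent.S14.BKummerExists
import Fermat.Agent.S14.BNormCl
import Fermat.Agent.S14.RNormDown

set_option autoImplicit false

open NumberField

namespace Fermat.Agent.S14

/-- A maximal ideal is coprime to every element outside it. -/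
theorem rldb_max_sup {R : Type*} [CommRing R] (Q : Ideal R) (hQ : Q.IsMaximal) (x : R)
    (hx : x ∉ Q) : Q ⊔ Ideal.span {x} = ⊤ := by
  by_contra h
  have h1 : Q = Q ⊔ Ideal.span {x} := hQ.eq_of_le h le_sup_left
  apply hx
  rw [h1]
  exact Ideal.mem_sup_right (Ideal.mem_span_singleton_self x)

/-- Coprimality of `I * J ^ n` with `M`. -/
theorem rldb_coprime {R : Type*} [CommRing R] (I J M : Ideal R) (n : ℕ) (hI : I ⊔ M = ⊤)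
    (hJ : J ⊔ M = ⊤) : I * J ^ n ⊔ M = ⊤ := by
  rw [← Ideal.isCoprime_iff_sup_eq] at hI hJ ⊢
  exact IsCoprime.mul_left hI (IsCoprime.pow_left hJ)

/-- (RL-F) One side of Lang's argument. -/
theorem rldb_side : RLSplitPrimeStatement → RLNormCoprimeStatement → RLSymbZeroStatement →
    RLSideStatement := by
  intro hSplit hNC hSZ p _ _ K L E₁ E _ _ _ _ _ _ _ _ _ _ _ _ _ ζ α B hR 𝔮 r h𝔮 h𝔮0 hB𝔮 hr𝔮
    hsc hαE₁ hR3 𝔓 k h𝔓 h𝔓0 hBr𝔓 hsymb h₁ h₂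
  obtain ⟨-, hpB, hαB⟩ := hR.bad
  -- step 0: `p` and `α` are outside `𝔮` and `𝔓`
  have hp𝔮 : (p : 𝓞 K) ∉ 𝔮 := fun h => hB𝔮 (𝔮.mem_of_dvd (Nat.cast_dvd_cast hpB) h)
  have hα𝔮 : α ∉ 𝔮 := fun h => hB𝔮 (𝔮.mem_of_dvd hαB h)
  have hp𝔓 : (p : 𝓞 E) ∉ 𝔓 := fun h =>
    hBr𝔓 (𝔓.mem_of_dvd (Nat.cast_dvd_cast (Dvd.dvd.mul_right hpB r)) h)
  have hα𝔓 : algebraMap (𝓞 K) (𝓞 E) α ∉ 𝔓 := by
    intro h
    apply hBr𝔓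
    have h1 : algebraMap (𝓞 K) (𝓞 E) α ∣ ((B * r : ℕ) : 𝓞 E) := by
      have h2 : algebraMap (𝓞 K) (𝓞 E) α ∣ algebraMap (𝓞 K) (𝓞 E) (B : 𝓞 K) :=
        map_dvd (algebraMap (𝓞 K) (𝓞 E)) hαB
      rw [map_natCast] at h2
      exact h2.trans (Nat.cast_dvd_cast (Dvd.intro r rfl))
    exact 𝔓.mem_of_dvd h1 h
  -- step 1: a prime of `E₁` above `𝔮` of relative norm `𝔮`
  obtain ⟨𝔔, h𝔔mem, h𝔔0, h𝔔norm⟩ := hSplit K E₁ 𝔮 h𝔮 h𝔮0 hsc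
  have h𝔔prime : 𝔔.IsPrime := h𝔔mem.1
  have h𝔔over : 𝔔.LiesOver 𝔮 := h𝔔mem.2
  have h𝔔max : 𝔔.IsMaximal := h𝔔prime.isMaximal h𝔔0
  -- step 2: the ideal `𝔅`
  have hsz := hSZ p K E₁ E ζ α hR.prim 𝔮 𝔔 𝔓 k h𝔮 h𝔮0 hp𝔮 hα𝔮 h𝔔mem h𝔔norm h𝔓 h𝔓0 hp𝔓 hα𝔓
    hsymb
  have hrel0 : Ideal.relNorm (𝓞 E₁) (𝔓 ^ k) ≠ ⊥ := by
    rw [Ne, Ideal.relNorm_eq_bot_iff]
    exact pow_ne_zero k h𝔓0
  have h𝔅0 : 𝔔 * Ideal.relNorm (𝓞 E₁) (𝔓 ^ k) ^ (p - (symb p ζ α 𝔮).val) ≠ ⊥ :=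
    mul_ne_zero h𝔔0 (pow_ne_zero _ hrel0)
  have hBr𝔔 : ((B * r : ℕ) : 𝓞 E₁) ∉ 𝔔 := by
    intro h
    have h1 : ((B * r : ℕ) : 𝓞 K) ∈ 𝔮 := by
      rw [Ideal.mem_of_liesOver 𝔔 𝔮, map_natCast]
      exact h
    rw [Nat.cast_mul] at h1
    exact (h𝔮.mem_or_mem h1).elim hB𝔮 hr𝔮
  have hcop : 𝔔 * Ideal.relNorm (𝓞 E₁) (𝔓 ^ k) ^ (p - (symb p ζ α 𝔮).val)
      ⊔ Ideal.span {((B * r : ℕ) : 𝓞 E₁)} = ⊤ := by
    apply rldb_coprime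
    · exact rldb_max_sup 𝔔 h𝔔max _ hBr𝔔
    · refine hNC E₁ E 𝔓 ((B * r : ℕ) : 𝓞 E₁) k h𝔓 h𝔓0 ?_
      rw [map_natCast]
      exact hBr𝔓
  -- step 3: the field `E₁' = E₁(α^{1/p})` with its `K`- and `L`-algebra structures
  obtain ⟨E₁', _, _, _, hdeg', y, hy⟩ := bke_kummerExists p E₁ (algebraMap K E₁ (α : K)) hαE₁
  let _ : Algebra K E₁' := ((algebraMap E₁ E₁').comp (algebraMap K E₁)).toAlgebra
  have : IsScalarTower K E₁ E₁' := IsScalarTower.of_algebraMap_eq (fun _ => rfl)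
  obtain ⟨θ, hθ, hθ'⟩ := hR.gen
  obtain ⟨φ, -⟩ := bke_kummerLift p K L E₁' hR.deg (α : K) θ y hθ hθ' hy
  let _ : Algebra L E₁' := φ.toRingHom.toAlgebra
  have : IsScalarTower K L E₁' := IsScalarTower.of_algebraMap_eq (fun x => (φ.commutes x).symm)
  -- step 4: the class of `𝔅` is a norm class of `E₁'/E₁`
  obtain ⟨h𝔅nzd, hmem⟩ := hR3 E₁' hdeg' ⟨y, hy⟩ _ h𝔅0 hcop hsz
  -- step 5: push down to `K`
  obtain ⟨h', hmem'⟩ := rnd_normDown bnc_normClassesMem K L E₁ E₁' _ h𝔅nzd hmem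
  -- step 6: identify the class
  have hnorm : Ideal.relNorm (𝓞 K)
      (𝔔 * Ideal.relNorm (𝓞 E₁) (𝔓 ^ k) ^ (p - (symb p ζ α 𝔮).val))
      = 𝔮 * Ideal.relNorm (𝓞 K) (𝔓 ^ k) ^ (p - (symb p ζ α 𝔮).val) := by
    rw [map_mul, map_pow, h𝔔norm, Ideal.relNorm_relNorm]
  have hcls : ClassGroup.mk0 ⟨𝔮, h₁⟩ *
      ClassGroup.mk0 ⟨Ideal.relNorm (𝓞 K) (𝔓 ^ k), h₂⟩ ^ (p - (symb p ζ α 𝔮).val)
      = ClassGroup.mk0 ⟨_, h'⟩ := by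
    rw [← map_pow, ← map_mul]
    congr 1
    exact Subtype.ext hnorm.symm
  rw [hcls]
  exact hmem'

end Fermat.Agent.S14
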