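/-
S14, block R, package M2 (R8): there is a class `κ` such that every ideal `𝔞` prime to `B` is
`≡ κ ^ s(𝔞)` modulo norm classes.

Route: in `Q := Cl(K) ⧸ normClasses K L` every element is killed by `p` (norms of extended ideals);
good primes with trivial symbol split completely, hence are norms; good primes with nontrivial
symbol have degree one and are compared pairwise by Lang's statement.
-/
import Fermat.Agent.S14.RInterfaces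

set_option autoImplicit false

open NumberField

namespace Fermat.Agent.S14

/-- Exponents only matter modulo `p` for an element killed by `p`. -/
theorem rm2_pow_eq_of_natCast_eq {G : Type*} [Group G] (p : ℕ) (x : G) (hx : x ^ p = 1)
    {a b : ℕ} (h : (a : ZMod p) = (b : ZMod p)) : x ^ a = x ^ b := by
  rw [pow_eq_pow_iff_modEq]
  exact ((ZMod.natCast_eq_natCast_iff a b p).mp h).of_dvd (orderOf_dvd_of_pow_eq_one hx)

theorem rm2_pow_val_add {G : Type*} [Group G] (p : ℕ) [NeZero p] (x : G) (hx : x ^ p = 1)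
    (d e : ZMod p) : x ^ (d + e).val = x ^ d.val * x ^ e.val := by
  rw [← pow_add]
  apply rm2_pow_eq_of_natCast_eq p x hx
  rw [ZMod.natCast_zmod_val, Nat.cast_add, ZMod.natCast_zmod_val, ZMod.natCast_zmod_val]

section

variable (K L : Type) [Field K] [NumberField K] [Field L] [NumberField L] [Algebra K L]

/-- Every `p`-th power of an ideal class is a norm class (`p = [L : K]`). -/
theorem rm2_pow_mem_normClasses (c : ClassGroup (𝓞 K)) :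
    c ^ Module.finrank K L ∈ normClasses K L := by
  obtain ⟨I, rfl⟩ := ClassGroup.mk0_surjective c
  have h1 : Ideal.relNorm (𝓞 K) ((I : Ideal (𝓞 K)).map (algebraMap (𝓞 K) (𝓞 L)))
      = (I : Ideal (𝓞 K)) ^ Module.finrank K L := by
    rw [Ideal.relNorm_algebraMap, IsFractionRing.finrank_eq (𝓞 K) K (𝓞 L) L]
  have h2 : Ideal.relNorm (𝓞 K) ((I : Ideal (𝓞 K)).map (algebraMap (𝓞 K) (𝓞 L)))
      ∈ nonZeroDivisors (Ideal (𝓞 K)) := by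
    rw [h1]
    exact pow_mem I.2 _
  apply Subgroup.subset_closure
  refine ⟨_, h2, ?_⟩
  rw [← map_pow]
  congr 1
  exact Subtype.ext h1.symm

/-- The class of a prime which splits completely is a norm class. -/
theorem rm2_mk0_mem_of_splits (𝔮 : Ideal (𝓞 K)) (h𝔮 : 𝔮.IsPrime) (h0 : 𝔮 ≠ ⊥)
    (hs : SplitsCompletely K L 𝔮) (h : 𝔮 ∈ nonZeroDivisors (Ideal (𝓞 K))) :
    ClassGroup.mk0 ⟨𝔮, h⟩ ∈ normClasses K L := by
  have h𝔮max : 𝔮.IsMaximal := h𝔮.isMaximal h0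
  obtain ⟨𝔔, h𝔔max, h𝔔over⟩ :=
    Ideal.exists_maximal_ideal_liesOver_of_isIntegral (S := 𝓞 L) 𝔮
  have hmem : 𝔔 ∈ 𝔮.primesOver (𝓞 L) := ⟨h𝔔max.isPrime, h𝔔over⟩
  obtain ⟨-, hf⟩ := hs 𝔔 hmem
  have h1 : Ideal.relNorm (𝓞 K) 𝔔 = 𝔮 := by
    rw [Ideal.relNorm_eq_pow_of_isMaximal 𝔔 𝔮, hf, pow_one]
  have h2 : Ideal.relNorm (𝓞 K) 𝔔 ∈ nonZeroDivisors (Ideal (𝓞 K)) := by
    rw [h1]
    exact h
  apply Subgroup.subset_closure
  refine ⟨𝔔, h2, ?_⟩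
  congr 1
  exact Subtype.ext h1.symm

/-- From a class `κ` describing the classes of the good primes to all ideals prime to `B`. -/
theorem rm2_of_primes (hI : SymbIStatement) (p : ℕ) [Fact p.Prime]
    (hdeg : Module.finrank K L = p) (ζ α : 𝓞 K) (B : ℕ) (κ : ClassGroup (𝓞 K))
    (hκ : ∀ (𝔮 : Ideal (𝓞 K)) (h : 𝔮 ∈ nonZeroDivisors (Ideal (𝓞 K))), 𝔮.IsPrime →
      (B : 𝓞 K) ∉ 𝔮 →
      (QuotientGroup.mk' (normClasses K L) (ClassGroup.mk0 ⟨𝔮, h⟩))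
        = (QuotientGroup.mk' (normClasses K L) κ) ^ (symb p ζ α 𝔮).val)
    (𝔞 : Ideal (𝓞 K)) (h : 𝔞 ∈ nonZeroDivisors (Ideal (𝓞 K)))
    (hcop : 𝔞 ⊔ Ideal.span {(B : 𝓞 K)} = ⊤) :
    ClassGroup.mk0 ⟨𝔞, h⟩ * κ ^ (p - (symbI p ζ α 𝔞).val) ∈ normClasses K L := by
  obtain ⟨hmul, hprime, htop, -⟩ := hI p K ζ α
  have hpp : Nat.Prime p := Fact.out
  have : NeZero p := ⟨hpp.ne_zero⟩
  have hκp : (QuotientGroup.mk' (normClasses K L) κ) ^ p = 1 := by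
    rw [← map_pow]
    exact (QuotientGroup.eq_one_iff _).mpr (hdeg ▸ rm2_pow_mem_normClasses K L κ)
  -- the key identity, by induction on the factorisation
  have key : ∀ (𝔞 : Ideal (𝓞 K)) (h : 𝔞 ∈ nonZeroDivisors (Ideal (𝓞 K))),
      𝔞 ⊔ Ideal.span {(B : 𝓞 K)} = ⊤ →
      (QuotientGroup.mk' (normClasses K L) (ClassGroup.mk0 ⟨𝔞, h⟩))
        = (QuotientGroup.mk' (normClasses K L) κ) ^ (symbI p ζ α 𝔞).val := by
    intro 𝔞
    induction 𝔞 using UniqueFactorizationMonoid.induction_on_prime with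
    | h₁ =>
      intro h _
      exact absurd rfl (mem_nonZeroDivisors_iff_ne_zero.mp h)
    | h₂ x hx =>
      intro h _
      have hx' : x = ⊤ := Ideal.isUnit_iff.mp hx
      subst hx'
      have h1 : (⟨⊤, h⟩ : nonZeroDivisors (Ideal (𝓞 K))) = 1 :=
        Subtype.ext Ideal.one_eq_top.symm
      rw [h1, map_one, map_one, htop, ZMod.val_zero, pow_zero]
    | h₃ 𝔟 𝔭 h𝔟0 h𝔭 ih =>
      intro h hcop
      have h𝔭prime : 𝔭.IsPrime := Ideal.isPrime_of_prime h𝔭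
      have h𝔭0 : 𝔭 ≠ ⊥ := h𝔭.ne_zero
      have h𝔭nzd : 𝔭 ∈ nonZeroDivisors (Ideal (𝓞 K)) := mem_nonZeroDivisors_iff_ne_zero.mpr h𝔭0
      have h𝔟nzd : 𝔟 ∈ nonZeroDivisors (Ideal (𝓞 K)) := mem_nonZeroDivisors_iff_ne_zero.mpr h𝔟0
      have hB𝔭 : (B : 𝓞 K) ∉ 𝔭 := by
        intro hmem
        apply h𝔭prime.ne_top
        rw [eq_top_iff, ← hcop]
        exact sup_le Ideal.mul_le_left ((Ideal.span_singleton_le_iff_mem _).mpr hmem)
      have hcop𝔟 : 𝔟 ⊔ Ideal.span {(B : 𝓞 K)} = ⊤ := by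
        rw [eq_top_iff, ← hcop]
        exact sup_le_sup_right Ideal.mul_le_right _
      have h1 : (⟨𝔭 * 𝔟, h⟩ : nonZeroDivisors (Ideal (𝓞 K))) = ⟨𝔭, h𝔭nzd⟩ * ⟨𝔟, h𝔟nzd⟩ := rfl
      rw [h1, map_mul, map_mul, hκ 𝔭 h𝔭nzd h𝔭prime hB𝔭, ih h𝔟nzd hcop𝔟, hmul 𝔭 𝔟 h𝔭0 h𝔟0,
        hprime 𝔭 h𝔭prime h𝔭0, rm2_pow_val_add p _ hκp]
  rw [← QuotientGroup.eq_one_iff]
  change QuotientGroup.mk' (normClasses K L)
    (ClassGroup.mk0 ⟨𝔞, h⟩ * κ ^ (p - (symbI p ζ α 𝔞).val)) = 1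
  rw [map_mul, map_pow, key 𝔞 h hcop, ← pow_add,
    Nat.add_sub_cancel' (ZMod.val_lt _).le, hκp]

end

/-- (R8) -/
theorem rm2_m2 : SymbSpecStatement → SymbIStatement → SymbSplitStatement → SymbDegreeStatement →
    LangStatement → M2Statement := by
  intro _ hI hSplit hDeg hLang p _ h3 K L _ _ _ _ _ ζ α B hR
  have hpp : Nat.Prime p := Fact.out
  have : NeZero p := ⟨hpp.ne_zero⟩
  have : IsCyclotomicExtension {p} ℚ K := hR.cyc
  obtain ⟨θ, hθ, hθrange⟩ := hR.gen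
  obtain ⟨hB0, hpB, hαB⟩ := hR.bad
  -- good primes do not contain `p` or `α`
  have hgood_p : ∀ 𝔮 : Ideal (𝓞 K), (B : 𝓞 K) ∉ 𝔮 → (p : 𝓞 K) ∉ 𝔮 := by
    intro 𝔮 hB hp
    apply hB
    obtain ⟨k, rfl⟩ := hpB
    rw [Nat.cast_mul]
    exact Ideal.mul_mem_right _ _ hp
  have hgood_α : ∀ 𝔮 : Ideal (𝓞 K), (B : 𝓞 K) ∉ 𝔮 → α ∉ 𝔮 := by
    intro 𝔮 hB hα
    apply hB
    obtain ⟨c, hc⟩ := hαB
    rw [hc]
    exact Ideal.mul_mem_right _ _ hα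
  -- every class is killed by `p` modulo norm classes
  have hpow : ∀ c : ClassGroup (𝓞 K), (QuotientGroup.mk' (normClasses K L) c) ^ p = 1 := by
    intro c
    rw [← map_pow]
    exact (QuotientGroup.eq_one_iff _).mpr (hR.deg ▸ rm2_pow_mem_normClasses K L c)
  -- good primes with trivial symbol are norm classes
  have hzero : ∀ (𝔮 : Ideal (𝓞 K)) (h : 𝔮 ∈ nonZeroDivisors (Ideal (𝓞 K))), 𝔮.IsPrime →
      (B : 𝓞 K) ∉ 𝔮 → symb p ζ α 𝔮 = 0 →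
      QuotientGroup.mk' (normClasses K L) (ClassGroup.mk0 ⟨𝔮, h⟩) = 1 := by
    intro 𝔮 h h𝔮 hB hs
    have h0 : 𝔮 ≠ ⊥ := mem_nonZeroDivisors_iff_ne_zero.mp h
    have hsplit : SplitsCompletely K L 𝔮 :=
      (hSplit p K L ζ α hR.prim hR.deg θ hθ hθrange 𝔮 h𝔮 h0 (hgood_p 𝔮 hB) (hgood_α 𝔮 hB)).mp hs
    exact (QuotientGroup.eq_one_iff _).mpr (rm2_mk0_mem_of_splits K L 𝔮 h𝔮 h0 hsplit h)
  -- it suffices to find `κ` describing the good primes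
  suffices hex : ∃ κ : ClassGroup (𝓞 K),
      ∀ (𝔮 : Ideal (𝓞 K)) (h : 𝔮 ∈ nonZeroDivisors (Ideal (𝓞 K))), 𝔮.IsPrime →
      (B : 𝓞 K) ∉ 𝔮 →
      (QuotientGroup.mk' (normClasses K L) (ClassGroup.mk0 ⟨𝔮, h⟩))
        = (QuotientGroup.mk' (normClasses K L) κ) ^ (symb p ζ α 𝔮).val by
    obtain ⟨κ, hκ⟩ := hex
    exact ⟨κ, fun 𝔞 h hcop => rm2_of_primes K L hI p hR.deg ζ α B κ hκ 𝔞 h hcop⟩
  by_cases hall : ∀ (𝔮 : Ideal (𝓞 K)), 𝔮 ∈ nonZeroDivisors (Ideal (𝓞 K)) → 𝔮.IsPrime →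
      (B : 𝓞 K) ∉ 𝔮 → symb p ζ α 𝔮 = 0
  · refine ⟨1, fun 𝔮 h h𝔮 hB => ?_⟩
    rw [hzero 𝔮 h h𝔮 hB (hall 𝔮 h h𝔮 hB), hall 𝔮 h h𝔮 hB, ZMod.val_zero, pow_zero]
  · simp only [not_forall] at hall
    obtain ⟨𝔮₀, h₀, h𝔮₀, hB₀, hd₀⟩ := hall
    have h𝔮₀0 : 𝔮₀ ≠ ⊥ := mem_nonZeroDivisors_iff_ne_zero.mp h₀
    have hN₀ : (Ideal.absNorm 𝔮₀).Prime :=
      hDeg p h3 K ζ α hR.prim hR.equiv 𝔮₀ h𝔮₀ h𝔮₀0 (hgood_p 𝔮₀ hB₀) (hgood_α 𝔮₀ hB₀) hd₀
    refine ⟨(ClassGroup.mk0 ⟨𝔮₀, h₀⟩) ^ ((symb p ζ α 𝔮₀)⁻¹).val, fun 𝔮 h h𝔮 hB => ?_⟩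
    by_cases hd : symb p ζ α 𝔮 = 0
    · rw [hzero 𝔮 h h𝔮 hB hd, hd, ZMod.val_zero, pow_zero]
    · have h𝔮0 : 𝔮 ≠ ⊥ := mem_nonZeroDivisors_iff_ne_zero.mp h
      have hN : (Ideal.absNorm 𝔮).Prime :=
        hDeg p h3 K ζ α hR.prim hR.equiv 𝔮 h𝔮 h𝔮0 (hgood_p 𝔮 hB) (hgood_α 𝔮 hB) hd
      obtain ⟨κ', hκ'⟩ := hLang p h3 K L ζ α B hR 𝔮 𝔮₀ h𝔮 h𝔮₀ hN hN₀ hB hB₀ hd hd₀
      obtain ⟨hk1, hk2⟩ := hκ' h h₀
      -- translate to the quotient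
      have e1 : QuotientGroup.mk' (normClasses K L) (ClassGroup.mk0 ⟨𝔮, h⟩)
          = (QuotientGroup.mk' (normClasses K L) κ') ^ (symb p ζ α 𝔮).val := by
        have h1 := (QuotientGroup.eq_one_iff _).mpr hk1
        rw [QuotientGroup.mk_mul, QuotientGroup.mk_pow] at h1
        have h2 : (QuotientGroup.mk' (normClasses K L) κ') ^ (symb p ζ α 𝔮).val
            * (QuotientGroup.mk' (normClasses K L) κ') ^ (p - (symb p ζ α 𝔮).val) = 1 := by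
          rw [← pow_add, Nat.add_sub_cancel' (ZMod.val_lt _).le, hpow κ']
        exact mul_right_cancel (h1.trans h2.symm)
      have e2 : QuotientGroup.mk' (normClasses K L) (ClassGroup.mk0 ⟨𝔮₀, h₀⟩)
          = (QuotientGroup.mk' (normClasses K L) κ') ^ (symb p ζ α 𝔮₀).val := by
        have h1 := (QuotientGroup.eq_one_iff _).mpr hk2
        rw [QuotientGroup.mk_mul, QuotientGroup.mk_pow] at h1
        have h2 : (QuotientGroup.mk' (normClasses K L) κ') ^ (symb p ζ α 𝔮₀).val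
            * (QuotientGroup.mk' (normClasses K L) κ') ^ (p - (symb p ζ α 𝔮₀).val) = 1 := by
          rw [← pow_add, Nat.add_sub_cancel' (ZMod.val_lt _).le, hpow κ']
        exact mul_right_cancel (h1.trans h2.symm)
      have e3 : QuotientGroup.mk' (normClasses K L)
          ((ClassGroup.mk0 ⟨𝔮₀, h₀⟩) ^ ((symb p ζ α 𝔮₀)⁻¹).val)
          = QuotientGroup.mk' (normClasses K L) κ' := by
        rw [map_pow, e2, ← pow_mul]
        conv_rhs => rw [← pow_one (QuotientGroup.mk' (normClasses K L) κ')]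
        apply rm2_pow_eq_of_natCast_eq p _ (hpow κ')
        rw [Nat.cast_mul, ZMod.natCast_zmod_val, ZMod.natCast_zmod_val, Nat.cast_one,
          mul_inv_cancel₀ hd₀]
      rw [e3, e1]

end Fermat.Agent.S14
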