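/-
S14, block Z, package Z-Corr (twin B): removing the Euler factors at a finite set `T₀` of ideals
costs at most a factor `2 ^ |T₀|`:
  `∑_I N(I)^(-s) ≤ 2 ^ |T₀| * ∑_{I good for T₀} N(I)^(-s)`   for real `s > 1`.
Route: all sums are rewritten as sums over all ideals with indicator functions; the key step is
`S(T) ≤ 2 * S(insert 𝔮 T)`, proved by comparing the part of `S(T)` over multiples of `𝔮` with
`N(𝔮)^(-s) * S(T) ≤ S(T) / 2` through the injective map `J ↦ 𝔮 * J`.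
-/
import Mathlib
import Fermat.Agent.S14.Interfaces
import Fermat.Agent.S14.ZInterfaces
set_option autoImplicit false
open NumberField
namespace Fermat.Agent.S14

/-- The sum over good ideals is an indicator sum over all ideals. -/
theorem zcorrb_tsum_good {F : Type} [Field F] [NumberField F] (T : Finset (Ideal (𝓞 F)))
    (f : Ideal (𝓞 F) → ℝ) :
    ∑' I : {I : Ideal (𝓞 F) // ZGood T I}, f I.1 =
      ∑' I, Set.indicator {I : Ideal (𝓞 F) | ZGood T I} f I :=
  tsum_subtype {I : Ideal (𝓞 F) | ZGood T I} f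

/-- Value of the indicator of the good ideals at a good ideal. -/
theorem zcorrb_ind_good {F : Type} [Field F] [NumberField F] (T : Finset (Ideal (𝓞 F)))
    (f : Ideal (𝓞 F) → ℝ) (I : Ideal (𝓞 F)) (h : ZGood T I) :
    Set.indicator {I : Ideal (𝓞 F) | ZGood T I} f I = f I :=
  Set.indicator_of_mem (show I ∈ {I : Ideal (𝓞 F) | ZGood T I} from h) f

/-- Value of the indicator of the good ideals at an ideal that is not good. -/
theorem zcorrb_ind_not_good {F : Type} [Field F] [NumberField F] (T : Finset (Ideal (𝓞 F)))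
    (f : Ideal (𝓞 F) → ℝ) (I : Ideal (𝓞 F)) (h : ¬ ZGood T I) :
    Set.indicator {I : Ideal (𝓞 F) | ZGood T I} f I = 0 :=
  Set.indicator_of_notMem (show I ∉ {I : Ideal (𝓞 F) | ZGood T I} from h) f

/-- A nonzero prime ideal has absolute norm at least `2`. -/
theorem zcorrb_two_le_absNorm {F : Type} [Field F] [NumberField F] (𝔮 : Ideal (𝓞 F))
    (h𝔮 : 𝔮.IsPrime) (h0 : 𝔮 ≠ ⊥) : 2 ≤ Ideal.absNorm 𝔮 := by
  have h1 : Ideal.absNorm 𝔮 ≠ 0 := by
    rw [Ne, Ideal.absNorm_eq_zero_iff]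
    exact h0
  have h2 : Ideal.absNorm 𝔮 ≠ 1 := by
    rw [Ne, Ideal.absNorm_eq_one_iff]
    exact h𝔮.ne_top
  omega

/-- `n ^ (-s) ≤ 1 / 2` for `n ≥ 2` and `s > 1`. -/
theorem zcorrb_rpow_le_half {n : ℕ} (hn : 2 ≤ n) {s : ℝ} (hs : 1 < s) :
    (n : ℝ) ^ (-s) ≤ 1 / 2 := by
  have h2 : (2 : ℝ) ≤ n := by exact_mod_cast hn
  calc (n : ℝ) ^ (-s) ≤ (2 : ℝ) ^ (-s) :=
        Real.rpow_le_rpow_of_nonpos (by norm_num) h2 (by linarith)
    _ ≤ (2 : ℝ) ^ (-1 : ℝ) := Real.rpow_le_rpow_of_exponent_le (by norm_num) (by linarith)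
    _ = 1 / 2 := by rw [Real.rpow_neg_one]; norm_num

/-- If `𝔮` is not a nonzero prime, inserting it does not change the good ideals. -/
theorem zcorrb_good_insert_of_not {F : Type} [Field F] [NumberField F]
    (T : Finset (Ideal (𝓞 F))) (𝔮 : Ideal (𝓞 F)) (h : ¬ (𝔮.IsPrime ∧ 𝔮 ≠ ⊥))
    (I : Ideal (𝓞 F)) : ZGood (insert 𝔮 T) I ↔ ZGood T I := by
  constructor
  · intro hI
    exact ⟨hI.1, fun 𝔭 h𝔭 => hI.2 𝔭 (Finset.mem_insert_of_mem h𝔭)⟩
  · intro hI
    refine ⟨hI.1, fun 𝔭 h𝔭 h𝔭p hle => ?_⟩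
    rcases Finset.mem_insert.mp h𝔭 with rfl | h𝔭T
    · have h𝔭0 : 𝔭 = ⊥ := by
        by_contra h0
        exact h ⟨h𝔭p, h0⟩
      rw [h𝔭0, le_bot_iff] at hle
      exact hI.1 hle
    · exact hI.2 𝔭 h𝔭T h𝔭p hle

/-- A good ideal for `T` not contained in `𝔮` is good for `insert 𝔮 T`. -/
theorem zcorrb_good_insert_of_not_le {F : Type} [Field F] [NumberField F]
    (T : Finset (Ideal (𝓞 F))) (𝔮 : Ideal (𝓞 F)) (I : Ideal (𝓞 F)) (hI : ZGood T I)
    (hle : ¬ I ≤ 𝔮) : ZGood (insert 𝔮 T) I := by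
  refine ⟨hI.1, fun 𝔭 h𝔭 h𝔭p hle' => ?_⟩
  rcases Finset.mem_insert.mp h𝔭 with rfl | h𝔭T
  · exact hle hle'
  · exact hI.2 𝔭 h𝔭T h𝔭p hle'

/-- If `𝔮 * J` is good for `T`, so is `J`. -/
theorem zcorrb_good_of_mul {F : Type} [Field F] [NumberField F]
    (T : Finset (Ideal (𝓞 F))) (𝔮 J : Ideal (𝓞 F)) (h : ZGood T (𝔮 * J)) : ZGood T J := by
  refine ⟨fun hJ => h.1 (by rw [hJ, Ideal.mul_bot]), fun 𝔭 h𝔭 h𝔭p hle => ?_⟩
  exact h.2 𝔭 h𝔭 h𝔭p (le_trans Ideal.mul_le_right hle)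

/-- Key step: `S(T) ≤ 2 * S(insert 𝔮 T)` (as indicator sums over all ideals). -/
theorem zcorrb_step {F : Type} [Field F] [NumberField F] (T : Finset (Ideal (𝓞 F)))
    (𝔮 : Ideal (𝓞 F)) (s : ℝ) (hs : 1 < s)
    (hsum : Summable (fun I : Ideal (𝓞 F) => (Ideal.absNorm I : ℝ) ^ (-s))) :
    ∑' I, Set.indicator {I : Ideal (𝓞 F) | ZGood T I}
        (fun I : Ideal (𝓞 F) => (Ideal.absNorm I : ℝ) ^ (-s)) I ≤
      2 * ∑' I, Set.indicator {I : Ideal (𝓞 F) | ZGood (insert 𝔮 T) I}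
        (fun I : Ideal (𝓞 F) => (Ideal.absNorm I : ℝ) ^ (-s)) I := by
  set f : Ideal (𝓞 F) → ℝ := fun I => (Ideal.absNorm I : ℝ) ^ (-s) with hf
  have hf0 : ∀ I, 0 ≤ f I := fun I => Real.rpow_nonneg (Nat.cast_nonneg _) _
  set g : Ideal (𝓞 F) → ℝ := Set.indicator {I : Ideal (𝓞 F) | ZGood T I} f with hg
  set g' : Ideal (𝓞 F) → ℝ :=
    Set.indicator {I : Ideal (𝓞 F) | ZGood (insert 𝔮 T) I} f with hg'
  have hg0 : ∀ I, 0 ≤ g I := fun I => Set.indicator_nonneg (fun J _ => hf0 J) I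
  have hg'0 : ∀ I, 0 ≤ g' I := fun I => Set.indicator_nonneg (fun J _ => hf0 J) I
  have hgs : Summable g := hsum.indicator _
  have hg's : Summable g' := hsum.indicator _
  by_cases h : 𝔮.IsPrime ∧ 𝔮 ≠ ⊥
  · obtain ⟨h𝔮, h𝔮0⟩ := h
    -- the part of `g` supported on multiples of `𝔮`
    set k : Ideal (𝓞 F) → ℝ := Set.indicator {I : Ideal (𝓞 F) | I ≤ 𝔮} g with hk
    have hks : Summable k := hgs.indicator _
    have hinj : Function.Injective (fun J : Ideal (𝓞 F) => 𝔮 * J) :=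
      mul_right_injective₀ h𝔮0
    have hsupp : Function.support k ⊆ Set.range (fun J : Ideal (𝓞 F) => 𝔮 * J) := by
      intro I hI
      have hI' : I ≤ 𝔮 := by
        by_contra hle
        exact hI (Set.indicator_of_notMem (show I ∉ {I : Ideal (𝓞 F) | I ≤ 𝔮} from hle) g)
      obtain ⟨J, rfl⟩ := Ideal.dvd_iff_le.mpr hI'
      exact ⟨J, rfl⟩
    have hk_eq : ∑' J, k (𝔮 * J) = ∑' I, k I := hinj.tsum_eq hsupp
    have hkq : ∀ J, k (𝔮 * J) ≤ (1 / 2) * g J := by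
      intro J
      have h1 : k (𝔮 * J) = g (𝔮 * J) :=
        Set.indicator_of_mem
          (show 𝔮 * J ∈ {I : Ideal (𝓞 F) | I ≤ 𝔮} from Ideal.mul_le_left) g
      rw [h1]
      by_cases hJ : ZGood T (𝔮 * J)
      · have hJ' : ZGood T J := zcorrb_good_of_mul T 𝔮 J hJ
        have e1 : g (𝔮 * J) = f (𝔮 * J) := zcorrb_ind_good T f _ hJ
        have e2 : g J = f J := zcorrb_ind_good T f _ hJ'
        rw [e1, e2]
        have e3 : f (𝔮 * J) = f 𝔮 * f J := by
          simp only [hf, map_mul, Nat.cast_mul]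
          exact Real.mul_rpow (Nat.cast_nonneg _) (Nat.cast_nonneg _)
        rw [e3]
        exact mul_le_mul_of_nonneg_right
          (zcorrb_rpow_le_half (zcorrb_two_le_absNorm 𝔮 h𝔮 h𝔮0) hs) (hf0 J)
      · have e1 : g (𝔮 * J) = 0 := zcorrb_ind_not_good T f _ hJ
        rw [e1]
        exact mul_nonneg (by norm_num) (hg0 J)
    have hkqs : Summable (fun J => k (𝔮 * J)) := hks.comp_injective hinj
    have hk_le : ∑' I, k I ≤ (1 / 2) * ∑' J, g J := by
      rw [← hk_eq, ← hgs.tsum_mul_left]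
      exact hkqs.tsum_le_tsum hkq (hgs.mul_left _)
    have hpt : ∀ I, g I ≤ g' I + k I := by
      intro I
      by_cases hI : ZGood T I
      · by_cases hle : I ≤ 𝔮
        · have e1 : k I = g I :=
            Set.indicator_of_mem (show I ∈ {I : Ideal (𝓞 F) | I ≤ 𝔮} from hle) g
          rw [e1]
          linarith [hg'0 I]
        · have e1 : g' I = f I :=
            zcorrb_ind_good (insert 𝔮 T) f I (zcorrb_good_insert_of_not_le T 𝔮 I hI hle)
          have e2 : g I = f I := zcorrb_ind_good T f I hI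
          have e3 : k I = 0 :=
            Set.indicator_of_notMem (show I ∉ {I : Ideal (𝓞 F) | I ≤ 𝔮} from hle) g
          rw [e1, e2, e3, add_zero]
      · have e1 : g I = 0 := zcorrb_ind_not_good T f I hI
        rw [e1]
        have : 0 ≤ k I := Set.indicator_nonneg (fun J _ => hg0 J) I
        linarith [hg'0 I]
    have hle : ∑' I, g I ≤ ∑' I, g' I + ∑' I, k I := by
      rw [← hg's.tsum_add hks]
      exact hgs.tsum_le_tsum hpt (hg's.add hks)
    linarith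
  · have hset : {I : Ideal (𝓞 F) | ZGood (insert 𝔮 T) I} = {I : Ideal (𝓞 F) | ZGood T I} := by
      ext I
      exact zcorrb_good_insert_of_not T 𝔮 h I
    have hgg' : g' = g := by rw [hg', hg, hset]
    rw [hgg']
    have : 0 ≤ ∑' I, g I := tsum_nonneg hg0
    linarith

/-- (Z-Corr) Removing the Euler factors at `T₀` costs at most a factor `2 ^ |T₀|`. -/
theorem zcorrb_main : ZCorrStatement := by
  intro F _ _ T₀ s hs hsum
  rw [zcorrb_tsum_good T₀ (fun I : Ideal (𝓞 F) => (Ideal.absNorm I : ℝ) ^ (-s))]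
  induction T₀ using Finset.induction_on with
  | empty =>
    rw [Finset.card_empty, pow_zero, one_mul]
    apply le_of_eq
    apply tsum_congr
    intro I
    by_cases hI : I = ⊥
    · subst hI
      rw [zcorrb_ind_not_good ∅ _ ⊥ (fun h => h.1 rfl)]
      rw [Ideal.absNorm_bot, Nat.cast_zero, Real.zero_rpow (by linarith)]
    · rw [zcorrb_ind_good ∅ _ I ⟨hI, fun 𝔮 h𝔮 => absurd h𝔮 (Finset.notMem_empty 𝔮)⟩]
  | insert 𝔮 T hq ih =>
    rw [Finset.card_insert_of_notMem hq, pow_succ, mul_assoc]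
    exact le_trans ih
      (mul_le_mul_of_nonneg_left (zcorrb_step T 𝔮 s hs hsum) (by positivity))

end Fermat.Agent.S14
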