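/-
S14, block Z, package Z-Pole: convergence of the ideal sum `∑_I (N I)^{-s}` for real `s > 1`
and the simple pole at `s = 1` (from Mathlib's Dirichlet class number formula).
-/
import Mathlib
import Fermat.Agent.S14.Interfaces
import Fermat.Agent.S14.ZInterfaces

set_option autoImplicit false

open NumberField

namespace Fermat.Agent.S14

/-- The limit of the normalised partial sums of the ideal-counting coefficients. -/
theorem zpole_tendsto_partial (K : Type) [Field K] [NumberField K] :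
    Filter.Tendsto (fun n : ℕ ↦
      (∑ k ∈ Finset.Icc 1 n, (Nat.card {I : Ideal (𝓞 K) // Ideal.absNorm I = k} : ℝ)) / (n : ℝ))
      Filter.atTop (nhds (dedekindZeta_residue K)) := by
  refine ((Ideal.tendsto_norm_le_div_atTop₀ K).comp tendsto_natCast_atTop_atTop).congr fun n ↦ ?_
  simp only [Function.comp_apply, Nat.cast_le, ← Nat.cast_sum]
  congr
  rw [← add_left_inj 1, ← Ideal.card_norm_le_eq_card_norm_le_add_one,
    show Finset.Icc 1 n = Finset.Ioc 0 n from Finset.Icc_succ_left_eq_Ioc _ _,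
    show 1 = Nat.card {I : Ideal (𝓞 K) // Ideal.absNorm I = 0} by simp [Ideal.absNorm_eq_zero_iff],
    Finset.sum_Ioc_add_eq_sum_Icc (n.zero_le),
    ← Finset.card_preimage_eq_sum_card_image_eq
      (fun k _ ↦ Ideal.finite_setOfPred_absNorm_eq k)]
  simp [Set.coe_eq_subtype]

/-- The L-series defining the Dedekind zeta function is summable at real `s > 1`. -/
theorem zpole_lseriesSummable (K : Type) [Field K] [NumberField K] (s : ℝ) (hs : 1 < s) :
    LSeriesSummable
      (fun n ↦ ((Nat.card {I : Ideal (𝓞 K) // Ideal.absNorm I = n} : ℝ) : ℂ)) (s : ℂ) := by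
  refine LSeriesSummable_of_sum_norm_bigO_and_nonneg (r := 1) ?_ (fun _ ↦ Nat.cast_nonneg _)
    zero_le_one (by simpa using hs)
  exact Asymptotics.isBigO_atTop_natCast_rpow_of_tendsto_div_rpow (a := dedekindZeta_residue K)
    (by simpa using zpole_tendsto_partial K)

/-- For real `s ≠ 0`, the terms of the L-series are real. -/
theorem zpole_term_eq (K : Type) [Field K] [NumberField K] (s : ℝ) (hs : s ≠ 0) (n : ℕ) :
    LSeries.term
      (fun n ↦ ((Nat.card {I : Ideal (𝓞 K) // Ideal.absNorm I = n} : ℝ) : ℂ)) (s : ℂ) n =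
    (((Nat.card {I : Ideal (𝓞 K) // Ideal.absNorm I = n} : ℝ) * (n : ℝ) ^ (-s) : ℝ) : ℂ) := by
  rw [LSeries.term_def]
  split_ifs with h
  · subst h
    simp [Real.zero_rpow (neg_ne_zero.mpr hs)]
  · rw [Complex.ofReal_mul, Real.rpow_neg (Nat.cast_nonneg n), Complex.ofReal_inv,
      Complex.ofReal_cpow (Nat.cast_nonneg n), div_eq_mul_inv]
    simp

/-- The sum of `(N I)^{-s}` over the (finite) fibre of the absolute norm over `n`. -/
theorem zpole_fibre (K : Type) [Field K] [NumberField K] (s : ℝ) (n : ℕ) :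
    ∑' I : {I : Ideal (𝓞 K) // Ideal.absNorm I = n}, (Ideal.absNorm I.1 : ℝ) ^ (-s) =
      (Nat.card {I : Ideal (𝓞 K) // Ideal.absNorm I = n} : ℝ) * (n : ℝ) ^ (-s) := by
  have : Finite {I : Ideal (𝓞 K) // Ideal.absNorm I = n} :=
    (Ideal.finite_setOfPred_absNorm_eq n).to_subtype
  have : Fintype {I : Ideal (𝓞 K) // Ideal.absNorm I = n} := Fintype.ofFinite _
  rw [tsum_fintype, Finset.sum_congr rfl (fun I _ ↦ by rw [I.2] :
    ∀ I ∈ (Finset.univ : Finset {I : Ideal (𝓞 K) // Ideal.absNorm I = n}),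
      (Ideal.absNorm I.1 : ℝ) ^ (-s) = (n : ℝ) ^ (-s)),
    Finset.sum_const, Finset.card_univ, nsmul_eq_mul, Nat.card_eq_fintype_card]

/-- The real family `n ↦ a(n) n^{-s}` is summable for `s > 1`. -/
theorem zpole_summable_nat (K : Type) [Field K] [NumberField K] (s : ℝ) (hs : 1 < s) :
    Summable (fun n : ℕ ↦
      (Nat.card {I : Ideal (𝓞 K) // Ideal.absNorm I = n} : ℝ) * (n : ℝ) ^ (-s)) := by
  have h := zpole_lseriesSummable K s hs
  unfold LSeriesSummable at h
  rw [funext (zpole_term_eq K s (by linarith))] at h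
  exact Complex.summable_ofReal.mp h

/-- The sigma family over the fibres of the absolute norm is summable for `s > 1`. -/
theorem zpole_summable_sigma (K : Type) [Field K] [NumberField K] (s : ℝ) (hs : 1 < s) :
    Summable (fun x : (Σ n : ℕ, {I : Ideal (𝓞 K) // Ideal.absNorm I = n}) ↦
      (Ideal.absNorm x.2.1 : ℝ) ^ (-s)) := by
  rw [summable_sigma_of_nonneg (fun x ↦ Real.rpow_nonneg (Nat.cast_nonneg _) _)]
  refine ⟨fun n ↦ ?_, ?_⟩
  · have : Finite {I : Ideal (𝓞 K) // Ideal.absNorm I = n} :=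
      (Ideal.finite_setOfPred_absNorm_eq n).to_subtype
    exact Summable.of_finite
  · simp only [zpole_fibre K s]
    exact zpole_summable_nat K s hs

/-- Summability of the ideal sum for `s > 1`. -/
theorem zpole_summable (K : Type) [Field K] [NumberField K] (s : ℝ) (hs : 1 < s) :
    Summable (fun I : Ideal (𝓞 K) ↦ (Ideal.absNorm I : ℝ) ^ (-s)) := by
  refine ((Equiv.sigmaFiberEquiv (fun I : Ideal (𝓞 K) ↦ Ideal.absNorm I)).summable_iff).mp ?_
  exact zpole_summable_sigma K s hs

/-- The ideal sum equals the sum over `n` of `a(n) n^{-s}`. -/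
theorem zpole_tsum_eq (K : Type) [Field K] [NumberField K] (s : ℝ) (hs : 1 < s) :
    ∑' I : Ideal (𝓞 K), (Ideal.absNorm I : ℝ) ^ (-s) =
      ∑' n : ℕ, (Nat.card {I : Ideal (𝓞 K) // Ideal.absNorm I = n} : ℝ) * (n : ℝ) ^ (-s) := by
  rw [← (Equiv.sigmaFiberEquiv (fun I : Ideal (𝓞 K) ↦ Ideal.absNorm I)).tsum_eq]
  have h := zpole_summable_sigma K s hs
  have h1 : ∀ n : ℕ, Summable (fun I : {I : Ideal (𝓞 K) // Ideal.absNorm I = n} ↦
      (Ideal.absNorm I.1 : ℝ) ^ (-s)) := by
    intro n
    have : Finite {I : Ideal (𝓞 K) // Ideal.absNorm I = n} :=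
      (Ideal.finite_setOfPred_absNorm_eq n).to_subtype
    exact Summable.of_finite
  have h2 := Summable.tsum_sigma' (f := fun x : (Σ n : ℕ, {I : Ideal (𝓞 K) // Ideal.absNorm I = n}) ↦
      (Ideal.absNorm x.2.1 : ℝ) ^ (-s)) h1 h
  simp only [zpole_fibre K s] at h2
  exact h2

/-- The Dedekind zeta function at real `s > 1` is the (real) ideal sum. -/
theorem zpole_dedekindZeta_eq (K : Type) [Field K] [NumberField K] (s : ℝ) (hs : 1 < s) :
    dedekindZeta K (s : ℂ) = ((∑' I : Ideal (𝓞 K), (Ideal.absNorm I : ℝ) ^ (-s) : ℝ) : ℂ) := by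
  rw [zpole_tsum_eq K s hs, Complex.ofReal_tsum]
  unfold dedekindZeta LSeries
  refine tsum_congr fun n ↦ ?_
  rw [← zpole_term_eq K s (by linarith) n]
  simp

/-- (Z-Pole) Convergence of the ideal sum for `s > 1` and the simple pole at `s = 1`. -/
theorem zpole_main : ZPoleStatement := by
  intro K _ _
  refine ⟨fun s hs ↦ zpole_summable K s hs, dedekindZeta_residue K, dedekindZeta_residue_pos K, ?_⟩
  have h := (Complex.continuous_re.tendsto _).comp (tendsto_sub_one_mul_dedekindZeta_nhdsGT K)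
  rw [Complex.ofReal_re] at h
  refine h.congr' ?_
  refine eventually_nhdsWithin_of_forall fun s hs ↦ ?_
  have hs' : (1 : ℝ) < s := hs
  simp only [Function.comp_apply]
  rw [zpole_dedekindZeta_eq K s hs', ← Complex.ofReal_one, ← Complex.ofReal_sub,
    ← Complex.ofReal_mul, Complex.ofReal_re]

end Fermat.Agent.S14
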