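/-
S14, block Z, package Z-Pole (twin B): convergence of the ideal sum `∑_I (N I)^{-s}` for real
`s > 1` and the simple pole at `s = 1`, from Mathlib's Dedekind zeta function.
-/
import Mathlib
import Fermat.Agent.S14.Interfaces
import Fermat.Agent.S14.ZInterfaces

set_option autoImplicit false

open NumberField

namespace Fermat.Agent.S14

/-- Limit of the averaged partial sums of the coefficients of the Dedekind zeta function
(extracted from the proof of `NumberField.tendsto_sub_one_mul_dedekindZeta_nhdsGT`). -/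
theorem zpoleb_tendsto_sum_div (K : Type) [Field K] [NumberField K] :
    Filter.Tendsto (fun n : ℕ ↦ (∑ k ∈ Finset.Icc 1 n,
      ((Nat.card {I : Ideal (𝓞 K) // Ideal.absNorm I = k} : ℕ) : ℝ)) / (n : ℝ))
      Filter.atTop (nhds (dedekindZeta_residue K)) := by
  refine ((Ideal.tendsto_norm_le_div_atTop₀ K).comp tendsto_natCast_atTop_atTop).congr fun n ↦ ?_
  simp only [Function.comp_apply, Nat.cast_le, ← Nat.cast_sum]
  congr
  rw [← add_left_inj 1, ← Ideal.card_norm_le_eq_card_norm_le_add_one,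
    show Finset.Icc 1 n = Finset.Ioc 0 n from Finset.Icc_succ_left_eq_Ioc _ _,
    show 1 = Nat.card {I : Ideal (𝓞 K) // Ideal.absNorm I = 0} by simp [Ideal.absNorm_eq_zero_iff],
    Finset.sum_Ioc_add_eq_sum_Icc (n.zero_le),
    ← Finset.card_preimage_eq_sum_card_image_eq
      (fun k _ ↦ Ideal.finite_setOfPred_absNorm_eq k)]
  simp [Set.coe_eq_subtype]

/-- The L-series defining the Dedekind zeta function is summable at real `s > 1`. -/
theorem zpoleb_lseriesSummable (K : Type) [Field K] [NumberField K] (s : ℝ) (hs : 1 < s) :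
    LSeriesSummable
      (fun n : ℕ ↦ (((Nat.card {I : Ideal (𝓞 K) // Ideal.absNorm I = n} : ℕ) : ℝ) : ℂ))
      (s : ℂ) := by
  refine LSeriesSummable_of_sum_norm_bigO_and_nonneg (r := 1) ?_ (fun _ ↦ Nat.cast_nonneg _)
    zero_le_one (by simpa using hs)
  exact Asymptotics.isBigO_atTop_natCast_rpow_of_tendsto_div_rpow (a := dedekindZeta_residue K)
    (by simpa using zpoleb_tendsto_sum_div K)

/-- For real `s ≠ 0`, the terms of the L-series with real coefficients are real. -/
theorem zpoleb_term_eq (a : ℕ → ℝ) (s : ℝ) (hs : s ≠ 0) (n : ℕ) :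
    LSeries.term (fun n : ℕ ↦ ((a n : ℝ) : ℂ)) (s : ℂ) n =
      ((a n * (n : ℝ) ^ (-s) : ℝ) : ℂ) := by
  rw [LSeries.term_def]
  split_ifs with h
  · subst h
    simp [Real.zero_rpow (neg_ne_zero.mpr hs)]
  · rw [Complex.ofReal_mul, Real.rpow_neg (Nat.cast_nonneg n), Complex.ofReal_inv,
      Complex.ofReal_cpow (Nat.cast_nonneg n), div_eq_mul_inv, Complex.ofReal_natCast]

/-- The real Dirichlet series of the ideal-counting function is summable for real `s > 1`. -/
theorem zpoleb_summable_nat (K : Type) [Field K] [NumberField K] (s : ℝ) (hs : 1 < s) :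
    Summable (fun n : ℕ ↦
      ((Nat.card {I : Ideal (𝓞 K) // Ideal.absNorm I = n} : ℕ) : ℝ) * (n : ℝ) ^ (-s)) := by
  have h := zpoleb_lseriesSummable K s hs
  rw [LSeriesSummable] at h
  rw [← Complex.summable_ofReal]
  refine h.congr fun n ↦ ?_
  exact zpoleb_term_eq
    (fun n : ℕ ↦ ((Nat.card {I : Ideal (𝓞 K) // Ideal.absNorm I = n} : ℕ) : ℝ)) s
    (by linarith) n

/-- The value of the Dedekind zeta function at real `s > 1` as a real Dirichlet series. -/
theorem zpoleb_dedekindZeta_eq_nat (K : Type) [Field K] [NumberField K] (s : ℝ) (hs : 1 < s) :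
    dedekindZeta K (s : ℂ) = ((∑' n : ℕ,
      ((Nat.card {I : Ideal (𝓞 K) // Ideal.absNorm I = n} : ℕ) : ℝ) * (n : ℝ) ^ (-s) : ℝ) : ℂ) := by
  rw [Complex.ofReal_tsum]
  unfold dedekindZeta LSeries
  refine tsum_congr fun n ↦ ?_
  rw [← zpoleb_term_eq
    (fun n : ℕ ↦ ((Nat.card {I : Ideal (𝓞 K) // Ideal.absNorm I = n} : ℕ) : ℝ)) s
    (by linarith) n]
  simp only [Complex.ofReal_natCast]

/-- Fibre sums: on the fibre of `absNorm` over `n`, the function `I ↦ (N I)^{-s}` is constant. -/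
theorem zpoleb_fibre_tsum (K : Type) [Field K] [NumberField K] (s : ℝ) (n : ℕ) :
    ∑' I : {I : Ideal (𝓞 K) // Ideal.absNorm I = n}, ((Ideal.absNorm I.1 : ℕ) : ℝ) ^ (-s) =
      ((Nat.card {I : Ideal (𝓞 K) // Ideal.absNorm I = n} : ℕ) : ℝ) * (n : ℝ) ^ (-s) := by
  have h : (fun I : {I : Ideal (𝓞 K) // Ideal.absNorm I = n} ↦
      ((Ideal.absNorm I.1 : ℕ) : ℝ) ^ (-s)) = fun _ ↦ (n : ℝ) ^ (-s) := by
    funext I
    rw [I.2]
  rw [h, tsum_const, nsmul_eq_mul]

/-- Fibrewise summability (the fibres are finite). -/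
theorem zpoleb_fibre_summable (K : Type) [Field K] [NumberField K] (s : ℝ) (n : ℕ) :
    Summable (fun I : {I : Ideal (𝓞 K) // Ideal.absNorm I = n} ↦
      ((Ideal.absNorm I.1 : ℕ) : ℝ) ^ (-s)) := by
  have : Finite {I : Ideal (𝓞 K) // Ideal.absNorm I = n} :=
    (Ideal.finite_setOfPred_absNorm_eq (S := 𝓞 K) n).to_subtype
  exact Summable.of_finite

/-- Summability of the pulled-back family on the sigma type of fibres. -/
theorem zpoleb_summable_sigma (K : Type) [Field K] [NumberField K] (s : ℝ) (hs : 1 < s) :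
    Summable (fun x : (Σ n : ℕ, {I : Ideal (𝓞 K) // Ideal.absNorm I = n}) ↦
      ((Ideal.absNorm x.2.1 : ℕ) : ℝ) ^ (-s)) := by
  rw [summable_sigma_of_nonneg (fun x ↦ Real.rpow_nonneg (Nat.cast_nonneg _) _)]
  refine ⟨fun n ↦ zpoleb_fibre_summable K s n, ?_⟩
  refine (zpoleb_summable_nat K s hs).congr fun n ↦ ?_
  exact (zpoleb_fibre_tsum K s n).symm

/-- The ideal sum is summable for real `s > 1`. -/
theorem zpoleb_summable (K : Type) [Field K] [NumberField K] (s : ℝ) (hs : 1 < s) :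
    Summable (fun I : Ideal (𝓞 K) => (Ideal.absNorm I : ℝ) ^ (-s)) := by
  rw [← (Equiv.sigmaFiberEquiv (fun I : Ideal (𝓞 K) => Ideal.absNorm I)).summable_iff]
  exact zpoleb_summable_sigma K s hs

/-- The ideal sum equals the real Dirichlet series. -/
theorem zpoleb_tsum_eq (K : Type) [Field K] [NumberField K] (s : ℝ) (hs : 1 < s) :
    ∑' I : Ideal (𝓞 K), (Ideal.absNorm I : ℝ) ^ (-s) = ∑' n : ℕ,
      ((Nat.card {I : Ideal (𝓞 K) // Ideal.absNorm I = n} : ℕ) : ℝ) * (n : ℝ) ^ (-s) := by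
  rw [← (Equiv.sigmaFiberEquiv (fun I : Ideal (𝓞 K) => Ideal.absNorm I)).tsum_eq]
  have h := Summable.tsum_sigma' (fun n ↦ zpoleb_fibre_summable K s n)
    (zpoleb_summable_sigma K s hs)
  refine h.trans ?_
  exact tsum_congr fun n ↦ zpoleb_fibre_tsum K s n

/-- The Dedekind zeta function at real `s > 1` is the (real) ideal sum. -/
theorem zpoleb_dedekindZeta_eq (K : Type) [Field K] [NumberField K] (s : ℝ) (hs : 1 < s) :
    dedekindZeta K (s : ℂ) =
      ((∑' I : Ideal (𝓞 K), (Ideal.absNorm I : ℝ) ^ (-s) : ℝ) : ℂ) := by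
  rw [zpoleb_dedekindZeta_eq_nat K s hs, zpoleb_tsum_eq K s hs]

/-- The simple pole at `s = 1` of the real ideal sum, with residue `dedekindZeta_residue K`. -/
theorem zpoleb_tendsto (K : Type) [Field K] [NumberField K] :
    Filter.Tendsto (fun s : ℝ => (s - 1) * ∑' I : Ideal (𝓞 K), (Ideal.absNorm I : ℝ) ^ (-s))
      (nhdsWithin 1 (Set.Ioi 1)) (nhds (dedekindZeta_residue K)) := by
  have h := (Complex.continuous_re.tendsto _).comp (tendsto_sub_one_mul_dedekindZeta_nhdsGT K)
  rw [Complex.ofReal_re] at h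
  refine h.congr' ?_
  refine eventually_nhdsWithin_of_forall fun s hs ↦ ?_
  have hs' : 1 < s := hs
  simp only [Function.comp_apply]
  rw [zpoleb_dedekindZeta_eq K s hs', ← Complex.ofReal_one, ← Complex.ofReal_sub,
    ← Complex.ofReal_mul, Complex.ofReal_re]

/-- (Z-Pole) Convergence of the ideal sum for `s > 1` and the simple pole at `s = 1`. -/
theorem zpoleb_main : ZPoleStatement := by
  intro K _ _
  exact ⟨fun s hs ↦ zpoleb_summable K s hs,
    dedekindZeta_residue K, dedekindZeta_residue_pos K, zpoleb_tendsto K⟩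

end Fermat.Agent.S14
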